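import Fermat.Agent.PoitouTate.Units
import Fermat.Agent.Galois.Places

/-!
# The local group is dense in the decomposition group of `primeLocalPlace q`
-/

set_option autoImplicit false

open ExtCitation
open scoped Pointwise

noncomputable section

namespace FLTA.PT

variable (q : Nat.Primes)

theorem mem_primeLocalPlace_iff {x : Qb} :
    x ∈ primeLocalPlace q ↔
      (haveI : Fact (q : ℕ).Prime := ⟨q.2⟩; ‖padicEmbedding (q : ℕ) x‖ ≤ 1) := by
  have : Fact (q : ℕ).Prime := ⟨q.2⟩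
  exact mem_padicPlace_iff (q : ℕ)

theorem primeLocalPlace_liesOverPrime : (primeLocalPlace q).LiesOverPrime (q : ℕ) := by
  have : Fact (q : ℕ).Prime := ⟨q.2⟩
  show ((q : ℕ) : Qb) ∈ (primeLocalPlace q).nonunits
  rw [ValuationSubring.mem_nonunits_iff_or, mem_primeLocalPlace_iff]
  refine Or.inr fun h => ?_
  rw [map_inv₀, map_natCast, norm_inv, ← map_natCast (algebraMap ℚ_[(q : ℕ)] (PadicAlgCl (q : ℕ))),
    norm_algebraMap', Padic.norm_p, inv_inv] at h
  exact absurd h (not_le.2 (by exact_mod_cast q.2.one_lt))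

theorem loc_mem_decompositionSubgroup (τ : Gl q) :
    loc q τ ∈ (primeLocalPlace q).decompositionSubgroup ℚ :=
  have : Fact (q : ℕ).Prime := ⟨q.2⟩
  localGaloisToGlobal_mem_decompositionSubgroup (q : ℕ) τ

theorem loc_smul_primeLocalPlace (τ : Gl q) : loc q τ • primeLocalPlace q = primeLocalPlace q :=
  loc_mem_decompositionSubgroup q τ

/-- The decomposition group fixes the algebraic numbers lying in `ℚ_q`. -/
theorem apply_eq_self_of_forall_loc {σ : GQ} (hσ : σ ∈ (primeLocalPlace q).decompositionSubgroup ℚ)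
    {x : Qb} (hx : ∀ τ : Gl q, loc q τ x = x) : σ x = x := by
  have : Fact (q : ℕ).Prime := ⟨q.2⟩
  let j := padicEmbedding (q : ℕ)
  have hq0 : ‖((q : ℕ) : ℚ_[(q : ℕ)])‖ < 1 := Padic.norm_p_lt_one
  obtain ⟨y, hy⟩ : ∃ y : ℚ_[(q : ℕ)], algebraMap ℚ_[(q : ℕ)] (PadicAlgCl (q : ℕ)) y = j x := by
    have : IsGalois ℚ_[(q : ℕ)] (PadicAlgCl (q : ℕ)) := IsAlgClosure.isGalois ℚ_[(q : ℕ)] _
    refine (InfiniteGalois.mem_range_algebraMap_iff_fixed (j x)).2 fun τ => ?_
    rw [← padicEmbedding_localGaloisToGlobal (q : ℕ) τ x]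
    exact congrArg j (hx τ)
  have hmem := fun z => FLTA.Galois.mem_decompositionSubgroup_iff.1 hσ z
  simp only [mem_primeLocalPlace_iff] at hmem
  have key : ∀ k : ℕ, ‖j (σ x) - j x‖ ≤ ‖((q : ℕ) : ℚ_[(q : ℕ)])‖ ^ k := by
    intro k
    have hpos : 0 < ‖((q : ℕ) : ℚ_[(q : ℕ)])‖ ^ k :=
      pow_pos (norm_pos_iff.2 (by exact_mod_cast q.2.ne_zero)) k
    obtain ⟨r, hr⟩ := Padic.rat_dense (q : ℕ) y hpos
    have hjr : ‖j x - (r : PadicAlgCl (q : ℕ))‖ ≤ ‖((q : ℕ) : ℚ_[(q : ℕ)])‖ ^ k := by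
      rw [← hy, ← map_ratCast (algebraMap ℚ_[(q : ℕ)] (PadicAlgCl (q : ℕ))), ← map_sub,
        norm_algebraMap']
      exact hr.le
    have hden : ∀ z : Qb, ‖j (z / ((q : ℕ) : Qb) ^ k)‖ =
        ‖j z‖ / ‖((q : ℕ) : ℚ_[(q : ℕ)])‖ ^ k := fun z => by
      rw [map_div₀, map_pow, map_natCast, norm_div, norm_pow,
        ← map_natCast (algebraMap ℚ_[(q : ℕ)] (PadicAlgCl (q : ℕ))), norm_algebraMap']
    have h1 := (hmem ((x - (r : Qb)) / ((q : ℕ) : Qb) ^ k)).2
      (by rw [hden, map_sub, map_ratCast, div_le_one hpos]; exact hjr)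
    rw [map_div₀ σ, map_pow, map_natCast, map_sub σ, map_ratCast, hden, map_sub, map_ratCast,
      div_le_one hpos] at h1
    rw [← sub_add_sub_cancel _ (r : PadicAlgCl (q : ℕ))]
    exact (IsUltrametricDist.norm_add_le_max _ _).trans (max_le h1 (by rwa [norm_sub_rev] ))
  have : j (σ x) = j x := by
    rw [← sub_eq_zero, ← norm_le_zero_iff]
    exact ge_of_tendsto (tendsto_pow_atTop_nhds_zero_of_lt_one (norm_nonneg _) hq0)
      (Filter.Eventually.of_forall key)
  exact j.injective this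

/-- Modulo every open subgroup, the decomposition group consists of local elements. -/
theorem exists_loc_inv_mul_mem {σ : GQ} (hσ : σ ∈ (primeLocalPlace q).decompositionSubgroup ℚ)
    {U : Subgroup GQ} (hU : U ∈ lvlQ) : ∃ τ : Gl q, (loc q τ)⁻¹ * σ ∈ U := by
  obtain ⟨hN, F, hF, hFU⟩ := hU
  have := FLTA.Galois.qbar_isGalois
  let T : Subgroup GQ := (loc q).range ⊔ U
  have hopen : IsOpen (T : Set GQ) :=
    Subgroup.isOpen_mono (hFU.trans le_sup_right) (IntermediateField.fixingSubgroup_isOpen F)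
  have hfix : (IntermediateField.fixedField T).fixingSubgroup = T :=
    InfiniteGalois.fixingSubgroup_fixedField (⟨T, T.isClosed_of_isOpen hopen⟩ : ClosedSubgroup GQ)
  have hmem : σ ∈ T := by
    rw [← hfix, IntermediateField.mem_fixingSubgroup_iff]
    intro x hx
    refine apply_eq_self_of_forall_loc q hσ fun τ => ?_
    exact (IntermediateField.mem_fixedField_iff _ _).1 hx _ (Subgroup.mem_sup_left ⟨τ, rfl⟩)
  have := hN
  rw [← SetLike.mem_coe, Subgroup.mul_normal, Set.mem_mul] at hmem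
  obtain ⟨_, ⟨τ, rfl⟩, u, hu, rfl⟩ := hmem
  exact ⟨τ, by simpa using hu⟩

end FLTA.PT

end
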