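import Fermat.Agent.PoitouTate.Units

/-!
# Inflation of 2-classes and cyclic extensions
-/

set_option autoImplicit false

open Finset

noncomputable section

namespace FLTA.PT

set_option linter.unusedSectionVars false

variable {k : Type*} [CommRing k] {Γ : Type*} [Group Γ] (L : Lvl Γ)
variable {V : Type*} [AddCommGroup V] [Module k V] (ρ : Representation k Γ V)

/-- Every continuous 1-cocycle on `H` is a coboundary. -/
def H1Vanishes (H : Subgroup Γ) : Prop :=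
  ∀ c ∈ Z1 (L.comap H.subtype) (ρ.comp H.subtype), c ∈ B1 (ρ.comp H.subtype)

theorem exists_inflated_of_res_mem_B2 (hρ : Smooth L ρ) (H : Subgroup Γ) [H.Normal]
    (hH : IsOpenLvl L H) (hv : H1Vanishes L ρ H) (z : Z2 L ρ)
    (hz : pp2 H.subtype (LinearMap.id : V →ₗ[k] V) (z : Γ × Γ → V) ∈
      B2 (L.comap H.subtype) (ρ.comp H.subtype)) :
    ∃ z' : Z2 L ρ, (z : Γ × Γ → V) - z' ∈ B2 L ρ ∧
      (∀ g g' s s', s ∈ H → s' ∈ H → (z' : Γ × Γ → V) (g * s, g' * s') = (z' : Γ × Γ → V) (g, g')) ∧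
      ∀ g g', (z' : Γ × Γ → V) (g, g') ∈ fixedBy ρ H := by
  classical
  obtain ⟨z, hz0⟩ := z
  obtain ⟨hc, U, hU, hzU⟩ := (mem_Z2 L ρ).1 hz0
  obtain ⟨w, ⟨_, ⟨W, hW, rfl⟩, hwW⟩, hw⟩ := (mem_B2 _ _).1 hz
  obtain ⟨H₀, hH₀, hH₀H⟩ := hH
  obtain ⟨T1, hT1, hT1f⟩ := hρ (w 1)
  set T := ((U ⊓ W) ⊓ H₀) ⊓ T1 with hT
  have hTL : T ∈ L := L.inf_mem _ (L.inf_mem _ (L.inf_mem U hU W hW) H₀ hH₀) T1 hT1
  have hTU : ∀ t ∈ T, t ∈ U := fun t ht => ht.1.1.1
  have hTW : ∀ t ∈ T, t ∈ W := fun t ht => ht.1.1.2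
  have hTH : ∀ t ∈ T, t ∈ H := fun t ht => hH₀H ht.1.2
  have hTn : T.Normal := L.normal_of_mem T hTL
  have hswap : ∀ (g n : Γ), n ∈ H → g⁻¹ * n * g ∈ H := fun g n hn =>
    Subgroup.Normal.conj_mem' inferInstance n hn g
  have memH : ∀ {g : Γ} {n : Γ}, n ∈ H → (g * n ∈ H ↔ g ∈ H) := fun hn => H.mul_mem_cancel_right hn
  -- kill the restriction to `H`
  set x : Γ → V := fun g => if h : g ∈ H then w ⟨g, h⟩ else 0 with hx
  have hxT : ∀ g, ∀ t ∈ T, x (g * t) = x g := fun g t ht => by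
    by_cases hg : g ∈ H
    · simp only [x, dif_pos hg, dif_pos ((memH (hTH t ht)).2 hg)]
      exact hwW ⟨g, hg⟩ ⟨t, hTH t ht⟩ (hTW t ht)
    · simp only [x, dif_neg hg, dif_neg (mt (memH (hTH t ht)).1 hg)]
  set f₁ : Γ × Γ → V := fun g => z g - d1 ρ x g with hf₁
  have hf₁c : ∀ g h j, f₁ (g * h, j) + f₁ (g, h) = ρ g (f₁ (h, j)) + f₁ (g, h * j) := fun g h j => by
    simp only [f₁, d1_apply, map_sub, map_add, map_mul, Module.End.mul_apply, mul_assoc]
    linear_combination (norm := abel) hc g h j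
  have h₁ : ∀ n ∈ H, ∀ n' ∈ H, f₁ (n, n') = 0 := fun n hn n' hn' => by
    simp only [f₁, d1_apply, x, dif_pos hn, dif_pos hn', dif_pos (H.mul_mem hn hn'), sub_eq_zero]
    exact (congrFun hw (⟨n, hn⟩, ⟨n', hn'⟩)).symm
  have hone : ∀ g, f₁ (g, 1) = 0 := fun g => by
    have := hf₁c g 1 1
    simp only [mul_one, h₁ 1 H.one_mem 1 H.one_mem, map_zero, zero_add] at this
    simpa using this
  have h₁T : ∀ g n, ∀ t ∈ T, f₁ (g, n * t) = f₁ (g, n) := fun g n t ht => by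
    have h2 : z (g, n * t) = z (g, n) := by
      simpa using hzU g n 1 t U.one_mem (hTU t ht)
    simp only [f₁, d1_apply, h2, ← mul_assoc, hxT _ t ht]
  -- coset representatives
  set r : Γ → Γ := fun g => if g ∈ H then 1 else ((g : Γ ⧸ H)).out with hr
  have hrmem : ∀ g, (r g)⁻¹ * g ∈ H := fun g => by
    by_cases hg : g ∈ H
    · simpa [r, hg] using hg
    · simp only [r, if_neg hg]
      exact QuotientGroup.eq.1 (QuotientGroup.out_eq' _)
  have hrR : ∀ g n, n ∈ H → r (g * n) = r g := fun g n hn => by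
    simp only [r, memH hn]
    rw [QuotientGroup.mk_mul_of_mem g hn]
  have hrL : ∀ g n, n ∈ H → r (n * g) = r g := fun g n hn => by
    rw [show n * g = g * (g⁻¹ * n * g) by group, hrR g _ (hswap g n hn)]
  have hrH : ∀ n, n ∈ H → r n = 1 := fun n hn => by simp [r, hn]
  have hrr : ∀ g, r (r g) = r g := fun g => by
    have := hrR g _ (H.inv_mem (hrmem g))
    rwa [mul_inv_rev, inv_inv, mul_inv_cancel_left] at this
  set h : Γ → V := fun g => f₁ (r g, (r g)⁻¹ * g) with hh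
  have hhT : ∀ g, ∀ t ∈ T, h (g * t) = h g := fun g t ht => by
    simp only [h, hrR g t (hTH t ht), ← mul_assoc, h₁T _ _ t ht]
  have hh0 : ∀ n ∈ H, h n = 0 := fun n hn => by simp [h, hrH n hn, h₁ 1 H.one_mem n hn]
  set f₂ : Γ × Γ → V := fun g => f₁ g + d1 ρ h g with hf₂
  have hf₂c : ∀ g h' j, f₂ (g * h', j) + f₂ (g, h') = ρ g (f₂ (h', j)) + f₂ (g, h' * j) :=
    fun g h' j => by
    simp only [f₂, d1_apply, map_sub, map_add, map_mul, Module.End.mul_apply, mul_assoc]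
    linear_combination (norm := abel) hf₁c g h' j
  have h₂ : ∀ n ∈ H, ∀ n' ∈ H, f₂ (n, n') = 0 := fun n hn n' hn' => by
    simp [f₂, h₁ n hn n' hn', hh0 n hn, hh0 n' hn', hh0 _ (H.mul_mem hn hn')]
  have h₂rep : ∀ g, ∀ n ∈ H, f₂ (r g, n) = 0 := fun g n hn => by
    have e1 : h (r g * n) = f₁ (r g, n) := by simp [h, hrR _ n hn, hrr]
    have e2 : h (r g) = 0 := by simp [h, hrr, hone]
    simp [f₂, e1, e2, hh0 n hn]
  have h₂r : ∀ g, ∀ n ∈ H, f₂ (g, n) = 0 := fun g n hn => by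
    have := hf₂c (r g) ((r g)⁻¹ * g) n
    rw [mul_inv_cancel_left, h₂rep g _ (hrmem g), h₂ _ (hrmem g) n hn, map_zero,
      h₂rep g _ (H.mul_mem (hrmem g) hn)] at this
    simpa using this
  have h₂R : ∀ g k', ∀ n ∈ H, f₂ (g, k' * n) = f₂ (g, k') := fun g k' n hn => by
    have := hf₂c g k' n
    simpa [h₂r k' n hn, h₂r _ n hn] using this.symm
  have h₂t : ∀ g, ∀ t ∈ T, f₂ (t, r g) = 0 := fun g t ht => by
    have e : t * r g = r g * ((r g)⁻¹ * t * r g) := by group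
    have ht' := hTn.conj_mem' t ht (r g)
    have e1 : z (t, r g) = z (1, r g) := by simpa using hzU 1 (r g) t 1 (hTU t ht) U.one_mem
    have e2 : x (t * r g) = x (r g) := by rw [e]; exact hxT _ _ ht'
    have e3 : h (t * r g) = 0 := by
      rw [e, hhT _ _ ht']; simp [h, hrr, hone]
    have e4 : h (r g) = 0 := by simp [h, hrr, hone]
    have e5 : ρ t (x (r g)) = x (r g) := by
      by_cases hg : r g ∈ H
      · have : r g = 1 := by rw [← hrr g, hrH _ hg]
        simp only [this, x, dif_pos H.one_mem]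
        exact hT1f t ht.2
      · simp [x, hg]
    have e6 : x t = x 1 := by simpa using hxT 1 t ht
    have h0 : f₂ (1, r g) = 0 := by
      have := hf₂c 1 1 (r g)
      simpa [h₂ 1 H.one_mem 1 H.one_mem] using this
    simp only [f₂, f₁, d1_apply, one_mul, map_one, Module.End.one_apply, e4, e3, hh0 t (hTH t ht),
      hh0 1 H.one_mem, map_zero, e1, e2, e5, e6] at h0 ⊢
    exact h0
  -- degree one cocycles on `H`
  have hcoc : ∀ g, ∃ y, ∀ n ∈ H, ρ n y - y = f₂ (n, r g) := fun g => by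
    obtain ⟨y, hy⟩ := hv (fun n : H => f₂ ((n : Γ), r g)) ((mem_Z1 _ _).2 ⟨fun n n' => by
      have hc' := hf₂c (n : Γ) (n' : Γ) (r g)
      rw [h₂ _ n.2 _ n'.2, show (n' : Γ) * r g = r g * ((r g)⁻¹ * n' * r g) by group,
        h₂R _ _ _ (hswap _ _ n'.2), add_zero] at hc'
      exact hc', T.comap H.subtype, ⟨T, hTL, rfl⟩, fun n t ht => by
      have hc' := hf₂c (n : Γ) (t : Γ) (r g)
      rw [h₂ _ n.2 _ t.2, h₂t g (t : Γ) ht, show (t : Γ) * r g = r g * ((r g)⁻¹ * t * r g) by group,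
        h₂R _ _ _ (hswap _ _ t.2), add_zero, map_zero, zero_add] at hc'
      exact hc'⟩)
    exact ⟨y, fun n hn => congrFun hy ⟨n, hn⟩⟩
  choose y hy using hcoc
  set y' : Γ → V := fun g => if g ∈ H then 0 else y (r g) with hy'
  have hy'' : ∀ g n, n ∈ H → ρ n (y' g) - y' g = f₂ (n, r g) := fun g n hn => by
    by_cases hg : g ∈ H
    · simp [y', hg, hrH g hg, h₂ n hn 1 H.one_mem]
    · simp only [y', if_neg hg]
      rw [hy (r g) n hn, hrr]
  set m : Γ → V := fun g => y' (r g) with hm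
  set f₃ : Γ × Γ → V := fun g => f₂ g - d1 ρ m g with hf₃
  have hm0 : ∀ n ∈ H, m n = 0 := fun n hn => by simp [m, hrH n hn, y']
  have hf₃c : ∀ g h' j, f₃ (g * h', j) + f₃ (g, h') = ρ g (f₃ (h', j)) + f₃ (g, h' * j) :=
    fun g h' j => by
    simp only [f₃, d1_apply, map_sub, map_add, map_mul, Module.End.mul_apply, mul_assoc]
    linear_combination (norm := abel) hf₂c g h' j
  have h₃r : ∀ g, ∀ n ∈ H, f₃ (g, n) = 0 := fun g n hn => by
    simp [f₃, h₂r g n hn, hm0 n hn, m, hrR g n hn]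
  have h₃l : ∀ g, ∀ n ∈ H, f₃ (n, g) = 0 := fun g n hn => by
    have e : f₂ (n, g) = f₂ (n, r g) := by
      conv_lhs => rw [← mul_inv_cancel_left (r g) g]
      exact h₂R n _ _ (hrmem g)
    simp [f₃, e, hm0 n hn, m, hrL g n hn, hy'' (r g) n hn, hrr]
  have h₃R : ∀ g k', ∀ n ∈ H, f₃ (g, k' * n) = f₃ (g, k') := fun g k' n hn => by
    have := hf₃c g k' n
    simpa [h₃r k' n hn, h₃r _ n hn] using this.symm
  have hinv : ∀ g g' s s', s ∈ H → s' ∈ H → f₃ (g * s, g' * s') = f₃ (g, g') :=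
    fun g g' s s' hs hs' => by
    rw [h₃R _ _ _ hs']
    have := hf₃c g s g'
    rw [h₃r g s hs, h₃l g' s hs, map_zero, show s * g' = g' * (g'⁻¹ * s * g') by group,
      h₃R _ _ _ (hswap g' s hs)] at this
    simpa using this
  refine ⟨⟨f₃, (mem_Z2 L ρ).2 ⟨hf₃c, H₀, hH₀, fun g g' s s' hs hs' =>
    hinv g g' s s' (hH₀H hs) (hH₀H hs')⟩⟩, ?_, hinv, fun g g' n hn => ?_⟩
  · refine (mem_B2 L ρ).2 ⟨x - h + m, ⟨T, hTL, fun g t ht => ?_⟩, ?_⟩
    · simp only [Pi.add_apply, Pi.sub_apply, hxT g t ht, hhT g t ht, m, hrR g t (hTH t ht)]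
    · funext g
      simp only [map_add, map_sub, Pi.add_apply, Pi.sub_apply, f₃, f₂, f₁]
      abel
  · have hc' := hf₃c n g g'
    rw [h₃l g n hn, h₃l _ n hn, show n * g = g * (g⁻¹ * n * g) by group,
      ← mul_one g', hinv g g' _ 1 (hswap g n hn) H.one_mem, mul_one] at hc'
    simpa using hc'.symm

variable {n : ℕ}

/-- The carry cocycle `a ↦ ⌊(χ g + χ h) / n⌋ • a` of a `ℤ/n`-valued character. -/
def carry (χ : Γ →* Multiplicative (ZMod n)) (a : V) : Γ × Γ → V :=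
  fun g => (((χ g.1).toAdd.val + (χ g.2).toAdd.val) / n) • a

theorem carry_apply (χ : Γ →* Multiplicative (ZMod n)) (a : V) (g h : Γ) :
    carry χ a (g, h) = (((χ g).toAdd.val + (χ h).toAdd.val) / n) • a := rfl

theorem carry_num [NeZero n] (χ : Γ →* Multiplicative (ZMod n)) (g h : Γ) :
    n * (((χ g).toAdd.val + (χ h).toAdd.val) / n) + (χ (g * h)).toAdd.val =
      (χ g).toAdd.val + (χ h).toAdd.val := by
  rw [map_mul, toAdd_mul, ZMod.val_add, Nat.div_add_mod]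

theorem carry_mem_Z2 [NeZero n] (χ : Γ →* Multiplicative (ZMod n)) (hχ : IsOpenLvl L χ.ker)
    {a : V} (ha : a ∈ fixedBy ρ ⊤) : carry χ a ∈ Z2 L ρ := by
  obtain ⟨U, hU, hle⟩ := hχ
  refine (mem_Z2 L ρ).2 ⟨fun g h j => ?_, U, hU, fun g g' s s' hs hs' => ?_⟩
  · simp only [carry_apply, map_nsmul, ha g trivial, ← add_nsmul]
    congr 1
    have e1 := carry_num χ g h
    have e2 := carry_num χ (g * h) j
    have e3 := carry_num χ h j
    have e4 := carry_num χ g (h * j)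
    rw [mul_assoc] at e2
    apply Nat.eq_of_mul_eq_mul_left (Nat.pos_of_ne_zero (NeZero.ne n))
    rw [Nat.mul_add, Nat.mul_add]
    omega
  · simp only [carry_apply, map_mul, MonoidHom.mem_ker.1 (hle hs), MonoidHom.mem_ker.1 (hle hs'),
      mul_one]

section cyclic

variable [NeZero n] (χ : Γ →* Multiplicative (ZMod n)) {σ : Γ}

omit [NeZero n] in
theorem char_pow (hσ : χ σ = Multiplicative.ofAdd 1) (i : ℕ) :
    (χ (σ ^ i)).toAdd = (i : ZMod n) := by
  rw [map_pow, hσ, toAdd_pow, toAdd_ofAdd, nsmul_one]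

theorem exists_pow_mul_ker (hσ : χ σ = Multiplicative.ofAdd 1) (g : Γ) :
    ∃ m ∈ χ.ker, g = σ ^ (χ g).toAdd.val * m := by
  refine ⟨(σ ^ (χ g).toAdd.val)⁻¹ * g, ?_, by group⟩
  rw [MonoidHom.mem_ker, map_mul, map_inv, inv_mul_eq_one]
  apply Multiplicative.toAdd.injective
  rw [char_pow χ hσ, ZMod.natCast_zmod_val]

theorem sum_carry_pow (hn : 1 < n) (hσ : χ σ = Multiplicative.ofAdd 1) (a : V) :
    ∑ i ∈ range n, carry χ a (σ ^ i, σ) = a := by
  haveI : Fact (1 < n) := ⟨hn⟩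
  have h1 : ∀ i ∈ range n, carry χ a (σ ^ i, σ) = if i = n - 1 then a else 0 := fun i hi => by
    rw [mem_range] at hi
    rw [carry_apply, char_pow χ hσ, hσ, toAdd_ofAdd, ZMod.val_cast_of_lt hi, ZMod.val_one]
    split_ifs with h
    · subst h
      rw [Nat.sub_add_cancel hn.le, Nat.div_self (by omega), one_nsmul]
    · rw [Nat.div_eq_of_lt (by omega), zero_nsmul]
  rw [Finset.sum_congr rfl h1, Finset.sum_ite_eq']
  simp only [mem_range]
  rw [if_pos (by omega)]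

/-- A cocycle of the cyclic quotient whose trace is a norm is a coboundary. -/
theorem mem_B2_of_trace (hχ : IsOpenLvl L χ.ker) (hσ : χ σ = Multiplicative.ofAdd 1)
    {f : Γ × Γ → V}
    (hc : ∀ g h j, f (g * h, j) + f (g, h) = ρ g (f (h, j)) + f (g, h * j))
    (hinv : ∀ g g' s s', s ∈ χ.ker → s' ∈ χ.ker → f (g * s, g' * s') = f (g, g'))
    (h00 : f (1, 1) = 0) {b : V} (hb : b ∈ fixedBy ρ χ.ker)
    (hS : ∑ i ∈ range n, f (σ ^ i, σ) = ∑ i ∈ range n, ρ (σ ^ i) b) : f ∈ B2 L ρ := by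
  obtain ⟨U, hU, hle⟩ := hχ
  let hh : ℕ → V := fun i => ∑ j ∈ range i, (ρ (σ ^ j) b - f (σ ^ j, σ))
  let h : Γ → V := fun g => hh (χ g).toAdd.val
  have hhK : ∀ g m, m ∈ χ.ker → h (g * m) = h g := fun g m hm => by
    simp [h, map_mul, MonoidHom.mem_ker.1 hm]
  refine (mem_B2 L ρ).2 ⟨h, ⟨U, hU, fun g s hs => hhK g s (hle hs)⟩, ?_⟩
  have hn0 : hh n = 0 := by simp [hh, sum_sub_distrib, hS]
  have h0 : h 1 = 0 := by simp [h, hh]
  have h1f : ∀ g, f (1, g) = 0 := fun g => by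
    have := hc 1 1 g
    simpa [h00] using this
  have hpow : ∀ i, i ≤ n → h (σ ^ i) = hh i := fun i hi => by
    rcases lt_or_eq_of_le hi with hi | rfl
    · simp only [h, char_pow χ hσ, ZMod.val_cast_of_lt hi]
    · simp only [h, char_pow χ hσ, ZMod.natCast_self, ZMod.val_zero, hn0]
      simp [hh]
  have hn : 1 ≤ n := Nat.one_le_iff_ne_zero.2 (NeZero.ne n)
  have hσh : h σ = b := by
    have := hpow 1 hn
    simpa [hh, h1f, pow_one] using this
  -- the difference vanishes against `σ`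
  have hσ0 : ∀ g, d1 ρ h (g, σ) = f (g, σ) := fun g => by
    obtain ⟨m, hm, hg⟩ := exists_pow_mul_ker χ hσ g
    set i := (χ g).toAdd.val
    have hi : i < n := ZMod.val_lt _
    have hσm : m * σ = σ * (σ⁻¹ * m * σ) := by group
    have hm' : σ⁻¹ * m * σ ∈ χ.ker := (MonoidHom.normal_ker χ).conj_mem' m hm σ
    rw [hg, d1_apply, hhK _ m hm, mul_assoc (σ ^ i), hσm, ← mul_assoc, hhK _ _ hm', ← pow_succ,
      hpow i hi.le, hpow (i + 1) hi, hσh, map_mul, Module.End.mul_apply, hb m hm]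
    have e : f (σ ^ i * m, σ) = f (σ ^ i, σ) := by
      simpa using hinv (σ ^ i) σ m 1 hm χ.ker.one_mem
    rw [e]
    simp only [hh, sum_range_succ]
    abel
  have hz : ∀ j g, d1 ρ h (g, σ ^ j) = f (g, σ ^ j) := by
    intro j
    induction j with
    | zero =>
      intro g
      have hg1 : f (g, 1) = 0 := by
        have := hc g 1 1
        simpa [h00] using this
      simp [h0, hg1]
    | succ j ih =>
      intro g
      have a1 := hc g (σ ^ j) σ
      have a2 := ih g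
      have a3 := hσ0 (σ ^ j)
      have a4 := hσ0 (g * σ ^ j)
      simp only [d1_apply] at a2 a3 a4 ⊢
      rw [← a2, ← a3, ← a4, ← pow_succ] at a1
      simp only [map_add, map_sub, map_mul, Module.End.mul_apply, mul_assoc, ← pow_succ] at a1 ⊢
      linear_combination (norm := abel) a1
  funext ⟨g, k'⟩
  obtain ⟨m, hm, hk⟩ := exists_pow_mul_ker χ hσ k'
  have := hz (χ k').toAdd.val g
  rw [hk]
  simp only [d1_apply] at this ⊢
  rw [hhK _ m hm, ← mul_assoc, hhK _ m hm, this]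
  simpa using (hinv g (σ ^ (χ k').toAdd.val) 1 m χ.ker.one_mem hm).symm

end cyclic

/-- A cocycle inflated from a cyclic quotient is cohomologous to a carry cocycle. -/
theorem exists_carry_of_inflated [NeZero n] (χ : Γ →* Multiplicative (ZMod n))
    (hs : Function.Surjective χ) (hχ : IsOpenLvl L χ.ker) {f : Γ × Γ → V}
    (hc : ∀ g h j, f (g * h, j) + f (g, h) = ρ g (f (h, j)) + f (g, h * j))
    (hinv : ∀ g g' s s', s ∈ χ.ker → s' ∈ χ.ker → f (g * s, g' * s') = f (g, g'))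
    (hfix : ∀ g g', f (g, g') ∈ fixedBy ρ χ.ker) :
    ∃ a ∈ fixedBy ρ ⊤, f - carry χ a ∈ B2 L ρ := by
  obtain ⟨z, hd, hzf⟩ : ∃ z : Γ × Γ → V, z - f ∈ B2 L ρ ∧ z = f :=
    ⟨f, by rw [sub_self]; exact (B2 L ρ).zero_mem, rfl⟩
  suffices h : ∃ a ∈ fixedBy ρ ⊤, z - carry χ a ∈ B2 L ρ by rwa [hzf] at h
  obtain ⟨σ, hσ⟩ := hs (Multiplicative.ofAdd 1)
  -- normalise at the origin
  set f' : Γ × Γ → V := f - d1 ρ (fun _ => f (1, 1)) with hf'
  have hconst : IsConst₁ L (fun _ : Γ => f (1, 1)) := ⟨⊤, L.top_mem, fun _ _ _ => rfl⟩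
  have hd' : z - f' ∈ B2 L ρ := by
    rw [hf', sub_sub_eq_add_sub, add_comm, add_sub_assoc]
    exact (B2 L ρ).add_mem ((mem_B2 L ρ).2 ⟨_, hconst, rfl⟩) hd
  have hc' : ∀ g h j, f' (g * h, j) + f' (g, h) = ρ g (f' (h, j)) + f' (g, h * j) := fun g h j => by
    simp only [f', Pi.sub_apply, d1_apply, map_sub, map_add, map_mul, Module.End.mul_apply]
    linear_combination (norm := abel) hc g h j
  have h00 : f' (1, 1) = 0 := by simp [f']
  have hinv' : ∀ g g' s s', s ∈ χ.ker → s' ∈ χ.ker → f' (g * s, g' * s') = f' (g, g') :=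
    fun g g' s s' hs hs' => by
    have e1 : f (g * s, g' * s') = f (g, g') := hinv g g' s s' hs hs'
    have e2 : ρ s (f (1, 1)) = f (1, 1) := hfix 1 1 s hs
    simp only [f', Pi.sub_apply, d1_apply, e1, map_mul, Module.End.mul_apply, e2]
  have hfix' : ∀ g g', f' (g, g') ∈ fixedBy ρ χ.ker := fun g g' m hm => by
    have e : m * g = g * (g⁻¹ * m * g) := by group
    simp only [f', Pi.sub_apply, d1_apply, map_sub, map_add, ← Module.End.mul_apply, ← map_mul,
      hfix _ _ m hm]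
    rw [e, map_mul, Module.End.mul_apply,
      hfix 1 1 _ ((MonoidHom.normal_ker χ).conj_mem' m hm g)]
  set a := ∑ i ∈ range n, f' (σ ^ i, σ) with ha
  have hfixed : a ∈ fixedBy ρ ⊤ := by
    have h1 : ρ σ a = a := by
      have key : ∀ i, ρ σ (f' (σ ^ i, σ)) =
          f' (σ ^ (i + 1), σ) + (f' (σ, σ ^ i) - f' (σ, σ ^ (i + 1))) := by
        intro i
        have h := hc' σ (σ ^ i) σ
        rw [← pow_succ, ← pow_succ'] at h
        linear_combination (norm := abel) -h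
      rw [ha, map_sum, Finset.sum_congr rfl fun i _ => key i, sum_add_distrib,
        Finset.sum_range_sub' (fun i => f' (σ, σ ^ i))]
      have e1 : σ ^ n ∈ χ.ker := by
        rw [MonoidHom.mem_ker]
        apply Multiplicative.toAdd.injective
        rw [char_pow χ hσ, ZMod.natCast_self]; rfl
      have e2 : f' (σ, σ ^ n) = f' (σ, 1) := by
        simpa using hinv' σ 1 1 (σ ^ n) χ.ker.one_mem e1
      have e3 : f' (σ ^ n, σ) = f' (σ ^ 0, σ) := by
        simpa using hinv' 1 σ (σ ^ n) 1 e1 χ.ker.one_mem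
      simp only [pow_zero, e2, sub_self, add_zero]
      have t1 := Finset.sum_range_succ (fun i => f' (σ ^ i, σ)) n
      have t2 := Finset.sum_range_succ' (fun i => f' (σ ^ i, σ)) n
      rw [e3, t2] at t1
      exact add_right_cancel t1
    intro g _
    obtain ⟨m, hm, hg⟩ := exists_pow_mul_ker χ hσ g
    have hma : ρ m a = a := (fixedBy ρ χ.ker).sum_mem (fun i _ => hfix' (σ ^ i) σ) m hm
    rw [hg, map_mul, Module.End.mul_apply, hma]
    generalize (χ g).toAdd.val = i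
    induction i with
    | zero => simp
    | succ i ih => rw [pow_succ, map_mul, Module.End.mul_apply, h1, ih]
  refine ⟨a, hfixed, ?_⟩
  have hcc := (mem_Z2 L ρ).1 (carry_mem_Z2 L ρ χ hχ hfixed)
  have h2 : f' - carry χ a ∈ B2 L ρ := by
    refine mem_B2_of_trace L ρ χ hχ hσ (b := 0) (fun g h j => ?_) (fun g g' s s' hs hs' => ?_) ?_
      (fixedBy ρ χ.ker).zero_mem ?_
    · simp only [Pi.sub_apply, map_sub]
      linear_combination (norm := abel) hc' g h j - hcc.1 g h j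
    · simp [hinv' g g' s s' hs hs', carry_apply, MonoidHom.mem_ker.1 hs, MonoidHom.mem_ker.1 hs']
    · simp [h00, carry_apply]
    · simp only [Pi.sub_apply, sum_sub_distrib, map_zero, sum_const_zero]
      rcases Nat.lt_or_ge 1 n with hn | hn
      · rw [sum_carry_pow χ hn hσ, ← ha, sub_self]
      · obtain rfl : n = 1 := le_antisymm hn (Nat.one_le_iff_ne_zero.2 (NeZero.ne n))
        have hall : ∀ g, g ∈ χ.ker := fun g => Subsingleton.elim _ _
        have hz0 : ∀ g g', f' (g, g') = 0 := fun g g' => by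
          simpa [h00] using hinv' 1 1 g g' (hall g) (hall g')
        simp [ha, carry_apply, hz0]
  have e : z - carry χ a = (z - f') + (f' - carry χ a) := by abel
  rw [e]
  exact (B2 L ρ).add_mem hd' h2

theorem exists_carry_of_res_mem_B2 [NeZero n] (hρ : Smooth L ρ)
    (χ : Γ →* Multiplicative (ZMod n)) (hs : Function.Surjective χ) (hχ : IsOpenLvl L χ.ker)
    (hv : H1Vanishes L ρ χ.ker) (z : Z2 L ρ)
    (hz : pp2 χ.ker.subtype (LinearMap.id : V →ₗ[k] V) (z : Γ × Γ → V) ∈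
      B2 (L.comap χ.ker.subtype) (ρ.comp χ.ker.subtype)) :
    ∃ a ∈ fixedBy ρ ⊤, (z : Γ × Γ → V) - carry χ a ∈ B2 L ρ := by
  obtain ⟨f, hd, hinv, hfix⟩ := exists_inflated_of_res_mem_B2 L ρ hρ χ.ker hχ hv z hz
  obtain ⟨a, ha, h⟩ :=
    exists_carry_of_inflated L ρ χ hs hχ ((mem_Z2 L ρ).1 f.2).1 hinv hfix
  refine ⟨a, ha, ?_⟩
  rw [← sub_add_sub_cancel _ (f : Γ × Γ → V)]
  exact (B2 L ρ).add_mem hd h

theorem carry_mem_B2_iff_exists_norm [NeZero n] (hρ : Smooth L ρ)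
    (χ : Γ →* Multiplicative (ZMod n)) (hχ : IsOpenLvl L χ.ker)
    (hv : H1Vanishes L ρ χ.ker) (σ : Γ) (hσ : χ σ = Multiplicative.ofAdd 1)
    {a : V} (ha : a ∈ fixedBy ρ ⊤) :
    carry χ a ∈ B2 L ρ ↔
      ∃ b ∈ fixedBy ρ χ.ker, a = ∑ i ∈ Finset.range n, ρ (σ ^ i) b := by
  rcases Nat.lt_or_ge 1 n with hn | hn
  swap
  · obtain rfl : n = 1 := le_antisymm hn (Nat.one_le_iff_ne_zero.2 (NeZero.ne n))
    refine iff_of_true ((mem_B2 L ρ).2 ⟨0, ⟨⊤, L.top_mem, fun _ _ _ => rfl⟩, ?_⟩)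
      ⟨a, fun m _ => ha m trivial, by simp⟩
    funext ⟨g, g'⟩
    simp [carry_apply, Subsingleton.elim ((χ g).toAdd) 0, Subsingleton.elim ((χ g').toAdd) 0]
  constructor
  · intro h
    obtain ⟨x, ⟨U, hU, hxU⟩, hx⟩ := (mem_B2 L ρ).1 h
    have hx' : ∀ g h, ρ g (x h) - x (g * h) + x g = carry χ a (g, h) :=
      fun g h => congrFun hx (g, h)
    have hker : ∀ g h, h ∈ χ.ker → carry χ a (g, h) = 0 ∧ carry χ a (h, g) = 0 := fun g h hh => by
      simp [carry_apply, MonoidHom.mem_ker.1 hh, Nat.div_eq_of_lt (ZMod.val_lt _)]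
    obtain ⟨v, hvv⟩ := hv (fun m : χ.ker => x m) ((mem_Z1 _ _).2 ⟨fun m m' => by
      have h1 := hx' m m'
      rw [(hker m m' m'.2).1] at h1
      show x ((m : Γ) * m') = ρ (m : Γ) (x m') + x m
      linear_combination (norm := abel) -h1, U.comap χ.ker.subtype, ⟨U, hU, rfl⟩,
      fun m s hs => hxU m s hs⟩)
    have hy : ∀ m ∈ χ.ker, x m = ρ m v - v := fun m hm => (congrFun hvv ⟨m, hm⟩).symm
    set x' : Γ → V := fun g => x g - (ρ g v - v) with hx'def
    have hx'' : ∀ g h, ρ g (x' h) - x' (g * h) + x' g = carry χ a (g, h) := fun g h => by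
      simp only [x', map_sub, map_mul, Module.End.mul_apply]
      linear_combination (norm := abel) hx' g h
    have hzero : ∀ m ∈ χ.ker, x' m = 0 := fun m hm => by simp [x', hy m hm]
    have hR : ∀ g, ∀ m ∈ χ.ker, x' (g * m) = x' g := fun g m hm => by
      have := hx'' g m
      rw [hzero m hm, (hker g m hm).1, map_zero] at this
      linear_combination (norm := abel) -this
    refine ⟨x' σ, fun m hm => ?_, ?_⟩
    · have h1 := hx'' m σ
      rw [hzero m hm, (hker σ m hm).2, show m * σ = σ * (σ⁻¹ * m * σ) by group,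
        hR σ _ ((MonoidHom.normal_ker χ).conj_mem' m hm σ)] at h1
      linear_combination (norm := abel) h1
    · rw [← sum_carry_pow χ hn hσ a]
      have e : ∀ i ∈ range n, carry χ a (σ ^ i, σ) =
          ρ (σ ^ i) (x' σ) + (x' (σ ^ i) - x' (σ ^ (i + 1))) := fun i _ => by
        rw [← hx'' (σ ^ i) σ, ← pow_succ]; abel
      rw [Finset.sum_congr rfl e, sum_add_distrib, Finset.sum_range_sub' (fun i => x' (σ ^ i))]
      have e1 : σ ^ n ∈ χ.ker := by
        rw [MonoidHom.mem_ker]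
        apply Multiplicative.toAdd.injective
        rw [char_pow χ hσ, ZMod.natCast_self]; rfl
      simp [hzero 1 χ.ker.one_mem, hzero _ e1]
  · rintro ⟨b, hb, hab⟩
    refine mem_B2_of_trace L ρ χ hχ hσ ((mem_Z2 L ρ).1 (carry_mem_Z2 L ρ χ hχ ha)).1
      (fun g g' s s' hs hs' => ?_) ?_ hb ?_
    · simp [carry_apply, MonoidHom.mem_ker.1 hs, MonoidHom.mem_ker.1 hs']
    · simp [carry_apply]
    · rw [sum_carry_pow χ hn hσ, hab]

end FLTA.PT

end
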