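import Fermat.Agent.PoitouTate.Units
import Fermat.Agent.PoitouTate.Inflation

/-!
# Open subgroups of the local Galois groups and their fixed fields

Smoothness of `ℚ̄ˣ`, `ℚ̄_qˣ` (via Krasner's lemma) and Hilbert's Theorem 90.
-/

set_option autoImplicit false
set_option linter.style.haveILetI false

open ExtCitation Polynomial
open scoped IntermediateField

noncomputable section

namespace FLTA.PT

section hilbert90

/-- Noether's form of Hilbert 90 for a group acting on a field through a finite quotient which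
is separated by fixed elements. -/
theorem exists_of_cocycle_units {Γ Ω : Type*} [Group Γ] [Field Ω] (a : Γ →* (Ω →+* Ω))
    (U : Subgroup Γ) [U.Normal] [Finite (Γ ⧸ U)]
    (sep : ∀ s, s ∉ U → ∃ θ : Ω, (∀ u ∈ U, a u θ = θ) ∧ a s θ ≠ θ)
    (f : Γ → Ω) (hf0 : ∀ g, f g ≠ 0) (hf : ∀ g h, f (g * h) = a g (f h) * f g)
    (hU : ∀ g u, u ∈ U → f (g * u) = f g) :
    ∃ β : Ω, β ≠ 0 ∧ ∀ g, f g = a g β / β := by
  classical
  haveI : Fintype (Γ ⧸ U) := Fintype.ofFinite _
  let M : Submonoid Ω :=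
    { carrier := {θ | ∀ u ∈ U, a u θ = θ}
      one_mem' := fun u _ => map_one _
      mul_mem' := fun hx hy u hu => by rw [map_mul, hx u hu, hy u hu] }
  let φ : (Γ ⧸ U) → (M →* Ω) := fun x => ((a x.out : Ω →+* Ω) : Ω →* Ω).comp M.subtype
  have happ : ∀ (g : Γ) (θ : Ω), θ ∈ M → a (QuotientGroup.mk (s := U) g).out θ = a g θ := by
    intro g θ hθ
    obtain ⟨u, hu⟩ := QuotientGroup.mk_out_eq_mul U g
    rw [hu, map_mul]
    exact congrArg (a g) (hθ u u.2)
  have hφ : Function.Injective φ := by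
    intro x y hxy
    induction x using QuotientGroup.induction_on with | _ g => ?_
    induction y using QuotientGroup.induction_on with | _ h => ?_
    rw [QuotientGroup.eq]
    by_contra hs
    obtain ⟨θ, hθ, hne⟩ := sep _ hs
    apply hne
    have e : a g θ = a h θ := by
      rw [← happ g θ hθ, ← happ h θ hθ]
      exact DFunLike.congr_fun hxy ⟨θ, hθ⟩
    rw [map_mul]
    show a g⁻¹ (a h θ) = θ
    rw [← e]
    show (a g⁻¹ * a g) θ = θ
    rw [← map_mul, inv_mul_cancel, map_one]; rfl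
  have li := (linearIndependent_monoidHom M Ω).comp φ hφ
  rw [Fintype.linearIndependent_iff] at li
  obtain ⟨θ, hθ⟩ : ∃ θ : M, ∑ x : Γ ⧸ U, f x.out * φ x θ ≠ 0 := by
    by_contra h
    push Not at h
    refine hf0 _ (li (fun x => f x.out) ?_ (1 : Γ ⧸ U))
    funext θ
    simpa [smul_eq_mul] using h θ
  set β := ∑ x : Γ ⧸ U, f x.out * φ x θ with hβdef
  refine ⟨β⁻¹, inv_ne_zero hθ, fun g => ?_⟩
  have key : a g β * f g = β := by
    rw [hβdef, map_sum, Finset.sum_mul]
    refine Fintype.sum_equiv (Equiv.mulLeft (g : Γ ⧸ U)) _ _ (fun x => ?_)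
    induction x using QuotientGroup.induction_on with | _ h => ?_
    obtain ⟨u, hu⟩ := QuotientGroup.mk_out_eq_mul U h
    obtain ⟨v, hv⟩ := QuotientGroup.mk_out_eq_mul U (g * h)
    show a g (f (QuotientGroup.mk (s := U) h).out * a (QuotientGroup.mk (s := U) h).out (θ : Ω)) * f g
      = f (QuotientGroup.mk (s := U) (g * h)).out *
        a (QuotientGroup.mk (s := U) (g * h)).out (θ : Ω)
    rw [hu, hv, hU _ _ u.2, hU _ _ v.2, map_mul a h, map_mul a (g * h), map_mul a g, hf g h]
    show a g (f h * a h (a u θ)) * f g = a g (f h) * f g * a g (a h (a v θ))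
    rw [θ.2 u u.2, θ.2 v v.2, map_mul]
    ring
  have hg0 : a g β ≠ 0 := (map_ne_zero_iff _ (a g).injective).2 hθ
  rw [map_inv₀, inv_div_inv, eq_div_iff hg0, mul_comm]
  exact key

end hilbert90

/-- `q` is prime. -/
theorem factPrime (q : Nat.Primes) : Fact (q : ℕ).Prime := ⟨q.2⟩

attribute [local instance] factPrime

variable (q : Nat.Primes)

theorem locAut_injective : Function.Injective (locAut q) := fun _ _ h => h

theorem locAut_surjective : Function.Surjective (locAut q) := fun g => ⟨g, rfl⟩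

theorem norm_locAut (s : Gl q) (x : Ql q) : ‖locAut q s x‖ = ‖x‖ :=
  congrArg NNReal.toReal (nnnorm_padicAlgCl_algEquiv (q : ℕ) (locAut q s) x)

theorem isGalois_qb : IsGalois ℚ Qb := by
  haveI : Algebra.IsAlgebraic ℚ Qb := AlgebraicClosure.isAlgebraic ℚ
  haveI : IsAlgClosure ℚ Qb := ⟨inferInstance, inferInstance⟩
  exact IsAlgClosure.isGalois ℚ Qb

theorem exists_lvlQ_fixes (T : Finset Qb) :
    ∃ F : IntermediateField ℚ Qb, FiniteDimensional ℚ F ∧ F.fixingSubgroup ∈ lvlQ ∧
      ∀ x ∈ T, x ∈ F := by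
  haveI := isGalois_qb
  haveI : Algebra.IsAlgebraic ℚ Qb := AlgebraicClosure.isAlgebraic ℚ
  haveI : FiniteDimensional ℚ (IntermediateField.adjoin ℚ (T : Set Qb)) :=
    IntermediateField.finiteDimensional_adjoin
      (fun x _ => (Algebra.IsAlgebraic.isAlgebraic x).isIntegral)
  set F := IntermediateField.normalClosure ℚ (IntermediateField.adjoin ℚ (T : Set Qb)) Qb
  haveI : IsGalois ℚ F :=
    isGalois_iff.2 ⟨inferInstance, normalClosure.normal ℚ (IntermediateField.adjoin ℚ (T : Set Qb)) Qb⟩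
  refine ⟨F, inferInstance, ⟨?_, F, inferInstance, le_rfl⟩, fun x hx => ?_⟩
  · exact (InfiniteGalois.normal_iff_isGalois F).2 inferInstance
  · exact IntermediateField.le_normalClosure _ (IntermediateField.subset_adjoin ℚ _ hx)

theorem exists_normal_level {H : Subgroup GQ} (hH : IsOpenLvl lvlQ H) :
    ∃ F : IntermediateField ℚ Qb, FiniteDimensional ℚ F ∧ F.fixingSubgroup ∈ lvlQ ∧
      F.fixingSubgroup ≤ H := by
  obtain ⟨U, ⟨-, F₀, hF₀, hle⟩, hUH⟩ := hH
  classical
  let b := Module.finBasis ℚ F₀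
  obtain ⟨F, hF, hmem, hT⟩ := exists_lvlQ_fixes (Finset.univ.image fun i => (b i : Qb))
  refine ⟨F, hF, hmem, le_trans ?_ (hle.trans hUH)⟩
  apply IntermediateField.fixingSubgroup_antitone
  intro x hx
  rw [show x = ((⟨x, hx⟩ : F₀) : Qb) from rfl, ← b.sum_repr ⟨x, hx⟩]
  push_cast
  refine IntermediateField.sum_mem _ (fun i _ => ?_)
  exact IntermediateField.smul_mem _ (hT _ (Finset.mem_image_of_mem _ (Finset.mem_univ i)))

theorem smooth_unitsRep : Smooth lvlQ unitsRep := by
  intro a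
  obtain ⟨F, -, hmem, hT⟩ := exists_lvlQ_fixes {((Additive.toMul a : Qbˣ) : Qb)}
  refine ⟨_, hmem, fun s hs => ?_⟩
  apply Additive.toMul.injective
  ext
  exact (IntermediateField.mem_fixingSubgroup_iff _ _).1 hs _ (hT _ (Finset.mem_singleton_self _))

/-- Every element of `ℚ̄_q` lies in a field generated over `ℚ_q` by an element of `ι_q(ℚ̄)`. -/
theorem exists_mem_adjoin_iota (x : Ql q) : ∃ y : Qb, x ∈ ℚ_[(q : ℕ)]⟮iota q y⟯ := by
  classical
  have hx : IsIntegral ℚ_[(q : ℕ)] x := (Algebra.IsAlgebraic.isAlgebraic x).isIntegral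
  set f := minpoly ℚ_[(q : ℕ)] x with hf
  set n := f.natDegree with hn
  have hnpos : 0 < n := minpoly.natDegree_pos hx
  -- the minimal distance to another conjugate
  obtain ⟨ε, hε, hsep⟩ : ∃ ε : ℝ, 0 < ε ∧ ∀ x' : Ql q,
      IsConjRoot ℚ_[(q : ℕ)] x x' → x ≠ x' → ε ≤ ‖x - x'‖ := by
    have hfin : {x' : Ql q | IsConjRoot ℚ_[(q : ℕ)] x x'}.Finite := by
      refine Set.Finite.subset (f.rootSet (Ql q)).toFinite (fun x' h => ?_)
      exact (isConjRoot_iff_mem_minpoly_rootSet hx).1 h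
    set s := insert (1 : ℝ) ((hfin.toFinset.erase x).image fun x' => ‖x - x'‖)
    have hs : s.Nonempty := ⟨1, Finset.mem_insert_self _ _⟩
    refine ⟨s.min' hs, ?_, fun x' h hne => Finset.min'_le _ _ ?_⟩
    · rw [Finset.lt_min'_iff]
      intro r hr
      rcases Finset.mem_insert.1 hr with rfl | hr
      · exact one_pos
      · obtain ⟨x', hx', rfl⟩ := Finset.mem_image.1 hr
        exact norm_pos_iff.2 (sub_ne_zero.2 (Ne.symm (Finset.ne_of_mem_erase hx')))
    · exact Finset.mem_insert_of_mem (Finset.mem_image_of_mem _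
        (Finset.mem_erase.2 ⟨hne.symm, hfin.mem_toFinset.2 h⟩))
  -- rational approximation of the coefficients
  set C : ℝ := ∑ i ∈ Finset.range n, ‖x‖ ^ i with hC
  have hCnn : 0 ≤ C := Finset.sum_nonneg fun i _ => by positivity
  set δ : ℝ := ε ^ n / (C + 1) with hδ
  have hδpos : 0 < δ := by positivity
  choose r hr using fun i : ℕ => Padic.rat_dense (q : ℕ) (f.coeff i) hδpos
  set g : ℚ[X] := X ^ n + ∑ i ∈ Finset.range n, Polynomial.C (r i) * X ^ i with hg
  have hdeg : (∑ i ∈ Finset.range n, Polynomial.C (r i) * X ^ i : ℚ[X]).degree < (n : ℕ) := by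
    refine lt_of_le_of_lt (degree_sum_le _ _) ((Finset.sup_lt_iff (by simp)).2 fun i hi => ?_)
    exact lt_of_le_of_lt (degree_C_mul_X_pow_le _ _) (by exact_mod_cast Finset.mem_range.1 hi)
  have gmonic : g.Monic := monic_X_pow_add hdeg
  have gdeg : g.natDegree = n := natDegree_eq_of_degree_eq_some (by
    rw [hg, degree_add_eq_left_of_degree_lt (by rwa [degree_X_pow]), degree_X_pow])
  have hval : ‖aeval x g‖ < ε ^ n := by
    have e : aeval x g = aeval x g - aeval x f := by
      rw [show aeval x f = 0 from minpoly.aeval _ _, sub_zero]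
    have e' : aeval x g - aeval x f =
        ∑ i ∈ Finset.range n,
          algebraMap ℚ_[(q : ℕ)] (Ql q) ((r i : ℚ_[(q : ℕ)]) - f.coeff i) * x ^ i := by
      conv_lhs => rw [show f = X ^ n + ∑ i ∈ Finset.range n, Polynomial.C (f.coeff i) * X ^ i from
        (minpoly.monic hx).as_sum, hg]
      simp only [map_add, map_pow, aeval_X, map_sum, map_mul, aeval_C, ← Finset.sum_sub_distrib,
        add_sub_add_left_eq_sub, map_sub, sub_mul, map_ratCast, eq_ratCast]
    rw [e, e']
    refine lt_of_le_of_lt (norm_sum_le _ _) ?_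
    calc ∑ i ∈ Finset.range n,
          ‖algebraMap ℚ_[(q : ℕ)] (Ql q) ((r i : ℚ_[(q : ℕ)]) - f.coeff i) * x ^ i‖
        ≤ ∑ i ∈ Finset.range n, δ * ‖x‖ ^ i := by
          refine Finset.sum_le_sum fun i _ => ?_
          rw [norm_mul, norm_pow, norm_algebraMap', norm_sub_rev]
          exact mul_le_mul_of_nonneg_right (hr i).le (by positivity)
      _ = δ * C := by rw [hC, Finset.mul_sum]
      _ < δ * (C + 1) := by nlinarith
      _ = ε ^ n := by rw [hδ]; field_simp
  -- a root of `g` in `ℚ̄` close to `x`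
  have hsplit : (g.map (algebraMap ℚ Qb)).Splits := IsAlgClosed.splits _
  have hprod : aeval x g =
      (((g.map (algebraMap ℚ Qb)).roots).map fun y => x - iota q y).prod := by
    have e1 : aeval x g = ((g.map (algebraMap ℚ Qb)).map (iota q)).eval x := by
      rw [Polynomial.map_map, eval_map, aeval_def]
      congr 1
      exact Subsingleton.elim _ _
    rw [e1, hsplit.eq_prod_roots_of_monic (gmonic.map _), Polynomial.map_multiset_prod,
      eval_multiset_prod, Multiset.map_map, Multiset.map_map]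
    refine congrArg Multiset.prod (Multiset.map_congr ?_ fun y _ => ?_)
    · rw [← hsplit.eq_prod_roots_of_monic (gmonic.map _)]
    · simp
  have hcard : Multiset.card (g.map (algebraMap ℚ Qb)).roots = n := by
    rw [splits_iff_card_roots.1 hsplit, natDegree_map, gdeg]
  obtain ⟨y, -, hy⟩ : ∃ y ∈ (g.map (algebraMap ℚ Qb)).roots, ‖x - iota q y‖ < ε := by
    by_contra h
    push Not at h
    apply not_le.2 hval
    rw [hprod, ← normHom_apply, map_multiset_prod, Multiset.map_map, ← hcard,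
      ← Multiset.prod_replicate]
    rw [← Multiset.map_const']
    exact Multiset.prod_map_le_prod_map₀ _ _ (fun y _ => hε.le) (fun y hy => by simpa using h y hy)
  refine ⟨y, IsKrasner.krasner (hx := (Algebra.IsSeparable.isSeparable ℚ_[(q : ℕ)] x))
    (sp := IsAlgClosed.splits _) (hy := (Algebra.IsAlgebraic.isAlgebraic _).isIntegral) ?_⟩
  intro x' hx' hne
  exact lt_of_lt_of_le hy (hsep x' hx' hne)

theorem smooth_unitsRepLoc : Smooth (lvlLoc q) (unitsRepLoc q) := by
  intro a
  obtain ⟨y, hy⟩ := exists_mem_adjoin_iota q ((Additive.toMul a : (Ql q)ˣ) : Ql q)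
  obtain ⟨F, -, hmem, hT⟩ := exists_lvlQ_fixes {y}
  refine ⟨_, ⟨_, hmem, rfl⟩, fun s hs => ?_⟩
  have hfix : locAut q s (iota q y) = iota q y := by
    rw [← iota_loc]
    exact congrArg (iota q)
      ((IntermediateField.mem_fixingSubgroup_iff _ _).1 hs _ (hT _ (Finset.mem_singleton_self _)))
  apply Additive.toMul.injective
  ext
  have hle : ℚ_[(q : ℕ)]⟮iota q y⟯ ≤
      IntermediateField.fixedField (Subgroup.zpowers (locAut q s)) := by
    rw [IntermediateField.le_iff_le, Subgroup.zpowers_le,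
      IntermediateField.mem_fixingSubgroup_iff]
    intro z hz
    induction hz using IntermediateField.adjoin_induction with
    | mem z hz => rw [Set.mem_singleton_iff] at hz; subst hz; exact hfix
    | algebraMap r => exact AlgEquiv.commutes _ r
    | add a b _ _ ha hb => rw [map_add, ha, hb]
    | inv a _ ha => rw [map_inv₀, ha]
    | mul a b _ _ ha hb => rw [map_mul, ha, hb]
  exact hle hy ⟨locAut q s, Subgroup.mem_zpowers _⟩

/-- The fixed field of a subgroup of the local Galois group. -/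
def fld (D : Subgroup (Gl q)) : IntermediateField ℚ_[(q : ℕ)] (Ql q) :=
  IntermediateField.fixedField (D.map (locAut q))

variable {q}

theorem mem_fld {D : Subgroup (Gl q)} {x : Ql q} :
    x ∈ fld q D ↔ ∀ s ∈ D, locAut q s x = x := by
  constructor
  · intro h s hs
    exact h ⟨locAut q s, Subgroup.mem_map_of_mem _ hs⟩
  · rintro h ⟨_, s, hs, rfl⟩
    exact h s hs

theorem fld_anti {H D : Subgroup (Gl q)} (h : H ≤ D) : fld q D ≤ fld q H :=
  fun _ hx => mem_fld.2 fun s hs => mem_fld.1 hx s (h hs)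

theorem mem_fixedBy_iff_fld {D : Subgroup (Gl q)} {a : Ml q} :
    a ∈ fixedBy (unitsRepLoc q) D ↔ ((Additive.toMul a : (Ql q)ˣ) : Ql q) ∈ fld q D := by
  rw [mem_fixedBy, mem_fld]
  refine forall₂_congr fun s _ => ?_
  refine ⟨fun h => congrArg (fun b => ((Additive.toMul b : (Ql q)ˣ) : Ql q)) h, fun h => ?_⟩
  apply Additive.toMul.injective
  ext
  exact h

theorem IsOpenLvl.of_le {Γ : Type*} [Group Γ] {L : Lvl Γ} {H D : Subgroup Γ}
    (hH : IsOpenLvl L H) (h : H ≤ D) : IsOpenLvl L D := by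
  obtain ⟨U, hU, hUH⟩ := hH
  exact ⟨U, hU, hUH.trans h⟩

theorem IsOpenLvl.finiteIndex {Γ : Type*} [Group Γ] {L : Lvl Γ} {H : Subgroup Γ}
    (hH : IsOpenLvl L H) : H.FiniteIndex := by
  obtain ⟨U, hU, hUH⟩ := hH
  haveI := L.finiteIndex_of_mem U hU
  exact Subgroup.finiteIndex_of_le hUH

variable (q) in
theorem isGalois_ql : IsGalois ℚ_[(q : ℕ)] (Ql q) := by
  haveI : IsAlgClosure ℚ_[(q : ℕ)] (Ql q) := ⟨inferInstance, inferInstance⟩
  exact IsAlgClosure.isGalois _ _

theorem isOpen_map_locAut {D : Subgroup (Gl q)} (hD : IsOpenLvl (lvlLoc q) D) :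
    IsOpen ((D.map (locAut q) : Subgroup (Gal(Ql q/ℚ_[(q : ℕ)]))) : Set (Gal(Ql q/ℚ_[(q : ℕ)]))) := by
  obtain ⟨_, ⟨V, hV, rfl⟩, hle⟩ := hD
  obtain ⟨F, hF, hmem, hFV⟩ := exists_normal_level ⟨V, hV, le_rfl⟩
  classical
  let b := Module.finBasis ℚ F
  let T : Set (Ql q) := Set.range fun i => iota q (b i : Qb)
  haveI : FiniteDimensional ℚ_[(q : ℕ)] (IntermediateField.adjoin ℚ_[(q : ℕ)] T) :=
    IntermediateField.finiteDimensional_adjoin
      (fun x _ => (Algebra.IsAlgebraic.isAlgebraic x).isIntegral)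
  refine Subgroup.isOpen_mono ?_ (IntermediateField.fixingSubgroup_isOpen
    (IntermediateField.adjoin ℚ_[(q : ℕ)] T))
  intro g hg
  obtain ⟨s, rfl⟩ := locAut_surjective q g
  refine Subgroup.mem_map_of_mem _ (hle (hFV ?_))
  rw [IntermediateField.mem_fixingSubgroup_iff] at hg ⊢
  intro x hx
  have hb : ∀ i, loc q s (b i : Qb) = b i := fun i =>
    (iota q).injective (by
      rw [iota_loc]
      exact hg _ (IntermediateField.subset_adjoin _ _ ⟨i, rfl⟩))
  rw [show x = ((⟨x, hx⟩ : F) : Qb) from rfl, ← b.sum_repr ⟨x, hx⟩]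
  push_cast
  rw [map_sum]
  refine Finset.sum_congr rfl fun i _ => ?_
  show (loc q s).toLinearMap _ = _
  rw [LinearMap.map_smul]
  exact congrArg _ (hb i)

theorem fixingSubgroup_fld {D : Subgroup (Gl q)} (hD : IsOpenLvl (lvlLoc q) D) :
    (fld q D).fixingSubgroup = D.map (locAut q) := by
  haveI := isGalois_ql q
  exact InfiniteGalois.fixingSubgroup_fixedField
    ⟨D.map (locAut q), Subgroup.isClosed_of_isOpen _ (isOpen_map_locAut hD)⟩

theorem mem_of_forall_fld {D : Subgroup (Gl q)} (hD : IsOpenLvl (lvlLoc q) D) {s : Gl q}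
    (h : ∀ x ∈ fld q D, locAut q s x = x) : s ∈ D := by
  have : locAut q s ∈ D.map (locAut q) := by
    rw [← fixingSubgroup_fld hD, IntermediateField.mem_fixingSubgroup_iff]
    exact h
  obtain ⟨t, ht, e⟩ := this
  exact locAut_injective q e ▸ ht

theorem finiteDimensional_fld {D : Subgroup (Gl q)} (hD : IsOpenLvl (lvlLoc q) D) :
    FiniteDimensional ℚ_[(q : ℕ)] (fld q D) := by
  haveI := isGalois_ql q
  refine (InfiniteGalois.isOpen_iff_finite (fld q D)).1 ?_
  rw [fixingSubgroup_fld hD]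
  exact isOpen_map_locAut hD

theorem finrank_fld {D : Subgroup (Gl q)} (hD : IsOpenLvl (lvlLoc q) D) :
    Module.finrank ℚ_[(q : ℕ)] (fld q D) = D.index := by
  haveI := isGalois_ql q
  haveI := finiteDimensional_fld hD
  rw [IntermediateField.finrank_eq_fixingSubgroup_index, fixingSubgroup_fld hD,
    Subgroup.index_map_of_bijective ⟨locAut_injective q, locAut_surjective q⟩]

variable (q)

theorem h1Vanishes_unitsRep (H : Subgroup GQ) (hH : IsOpenLvl lvlQ H) :
    H1Vanishes lvlQ unitsRep H := by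
  intro c hc
  obtain ⟨hcoc, W, ⟨V, hV, rfl⟩, hconst⟩ := (mem_Z1 _ _).1 hc
  obtain ⟨F, hF, hmem, hFV⟩ := exists_normal_level (H := V ⊓ H) (by
    obtain ⟨U, hU, hUH⟩ := hH
    exact ⟨V ⊓ U, lvlQ.inf_mem V hV U hU, inf_le_inf_left _ hUH⟩)
  haveI := lvlQ.normal_of_mem _ hmem
  haveI := lvlQ.finiteIndex_of_mem _ hmem
  let a : H →* (Qb →+* Qb) :=
    { toFun := fun g => ((g : GQ) : Qb →+* Qb)
      map_one' := rfl
      map_mul' := fun _ _ => rfl }
  obtain ⟨β, hβ0, hβ⟩ := exists_of_cocycle_units a (F.fixingSubgroup.subgroupOf H) (fun s hs => by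
      rw [Subgroup.mem_subgroupOf, IntermediateField.mem_fixingSubgroup_iff] at hs
      push Not at hs
      obtain ⟨θ, hθ, hne⟩ := hs
      exact ⟨θ, fun u hu => (IntermediateField.mem_fixingSubgroup_iff _ _).1 hu θ hθ, hne⟩)
    (fun g => ((Additive.toMul (c g) : Qbˣ) : Qb)) (fun g => Units.ne_zero _)
    (fun g h => by
      have := congrArg (fun v => ((Additive.toMul v : Qbˣ) : Qb)) (hcoc g h)
      exact this)
    (fun g u hu => by rw [hconst g u ((hFV hu).1)])
  refine ⟨Additive.ofMul (Units.mk0 β hβ0), funext fun g => ?_⟩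
  apply Additive.toMul.injective
  ext
  rw [hβ g]
  simp [d0_apply, unitsRep]
  rfl

theorem h1Vanishes_unitsRepLoc (H : Subgroup (Gl q)) (hH : IsOpenLvl (lvlLoc q) H) :
    H1Vanishes (lvlLoc q) (unitsRepLoc q) H := by
  intro c hc
  obtain ⟨hcoc, W, ⟨W', hW', rfl⟩, hconst⟩ := (mem_Z1 _ _).1 hc
  obtain ⟨U, hU, hUH⟩ := hH
  have hN : W' ⊓ U ∈ lvlLoc q := (lvlLoc q).inf_mem W' hW' U hU
  haveI := (lvlLoc q).normal_of_mem _ hN
  haveI := (lvlLoc q).finiteIndex_of_mem _ hN
  let a : H →* (Ql q →+* Ql q) :=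
    { toFun := fun g => ((locAut q (g : Gl q)) : Ql q →+* Ql q)
      map_one' := rfl
      map_mul' := fun _ _ => rfl }
  obtain ⟨β, hβ0, hβ⟩ := exists_of_cocycle_units a ((W' ⊓ U).subgroupOf H) (fun s hs => by
      by_contra h
      push Not at h
      exact hs (mem_of_forall_fld (D := W' ⊓ U) ⟨_, hN, le_rfl⟩ fun θ hθ =>
        h θ fun u hu => mem_fld.1 hθ u hu))
    (fun g => ((Additive.toMul (c g) : (Ql q)ˣ) : Ql q)) (fun g => Units.ne_zero _)
    (fun g h => by
      have := congrArg (fun v => ((Additive.toMul v : (Ql q)ˣ) : Ql q)) (hcoc g h)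
      exact this)
    (fun g u hu => by rw [hconst g u hu.1])
  refine ⟨Additive.ofMul (Units.mk0 β hβ0), funext fun g => ?_⟩
  apply Additive.toMul.injective
  ext
  rw [hβ g]
  simp [d0_apply, unitsRepLoc]
  rfl

end FLTA.PT

end
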