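import Fermat.Agent.PoitouTate.Functorial

/-!
# Leibniz rules for the cochain cup products
-/

set_option autoImplicit false

noncomputable section

namespace FLTA.PT

variable {k : Type*} [CommRing k] {Γ : Type*} [Group Γ]
variable {V W : Type*} [AddCommGroup V] [Module k V] [AddCommGroup W] [Module k W]
variable {χ : Γ →* kˣ} {ρ : Representation k Γ V} {σ : Representation k Γ W}
variable (P : Pairing χ ρ σ)

theorem Pairing.equivariant' (g : Γ) (v : V) (w : W) :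
    (χ g : k) * P.e v w = P.e (ρ g v) (σ g w) := (P.equivariant g v w).symm

theorem rep_mul_apply (g h : Γ) (w : W) : σ (g * h) w = σ g (σ h w) := by
  rw [map_mul, Module.End.mul_apply]

/-- `d(a ∪ w) = da ∪ w - a ∪ dw` in degree (1,0). -/
theorem d1_cup10 (a : Γ → V) (w : W) :
    d1 (charRep χ) (cup10 P a w) = cup20 P (d1 ρ a) w - cup11 P a (d0 σ w) := by
  funext ⟨g, h⟩
  simp only [d1_apply, charRep_apply, cup10, cup20, cup11, Pi.sub_apply, P.equivariant',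
    map_add, map_sub, d0_apply, LinearMap.add_apply, LinearMap.sub_apply, rep_mul_apply (σ := σ)]
  abel

/-- `d(v ∪ b) = dv ∪ b + v ∪ db` in degree (0,1). -/
theorem d1_cup01 (v : V) (b : Γ → W) :
    d1 (charRep χ) (cup01 P v b) = cup11 P (d0 ρ v) b + cup02 P v (d1 σ b) := by
  funext ⟨g, h⟩
  simp only [d1_apply, charRep_apply, cup01, cup11, cup02, Pi.add_apply, P.equivariant',
    map_add, map_sub, d0_apply, LinearMap.add_apply, LinearMap.sub_apply]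
  abel

/-- `d(a ∪ b) = da ∪ b - a ∪ db` in degree (1,1). -/
theorem d2_cup11 (a : Γ → V) (b : Γ → W) :
    d2 (charRep χ) (cup11 P a b) = cup21 P (d1 ρ a) b - cup12 P a (d1 σ b) := by
  funext ⟨g, h, j⟩
  simp only [d2_apply, charRep_apply, cup11, cup21, cup12, Pi.sub_apply, P.equivariant',
    map_add, map_sub, d1_apply, LinearMap.add_apply, LinearMap.sub_apply, rep_mul_apply (σ := σ)]
  abel

/-- `d(a ∪ w) = da ∪ w + a ∪ dw` in degree (2,0). -/
theorem d2_cup20 (a : Γ × Γ → V) (w : W) :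
    d2 (charRep χ) (cup20 P a w) =
      (fun g => P.e (d2 ρ a g) (σ (g.1 * g.2.1 * g.2.2) w)) + cup21 P a (d0 σ w) := by
  funext ⟨g, h, j⟩
  simp only [d2_apply, charRep_apply, cup20, cup21, Pi.add_apply, P.equivariant',
    map_add, map_sub, d0_apply, LinearMap.add_apply, LinearMap.sub_apply, rep_mul_apply (σ := σ),
    mul_assoc]
  abel

/-- `d(v ∪ b) = dv ∪ b + v ∪ db` in degree (0,2). -/
theorem d2_cup02 (v : V) (b : Γ × Γ → W) :
    d2 (charRep χ) (cup02 P v b) =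
      cup12 P (d0 ρ v) b + fun g => P.e v (d2 σ b g) := by
  funext ⟨g, h, j⟩
  simp only [d2_apply, charRep_apply, cup02, cup12, Pi.add_apply, P.equivariant',
    map_add, map_sub, d0_apply, LinearMap.add_apply, LinearMap.sub_apply]
  abel

theorem d2_cup20_of_cocycle {a : Γ × Γ → V} (ha : d2 ρ a = 0) (w : W) :
    d2 (charRep χ) (cup20 P a w) = cup21 P a (d0 σ w) := by
  rw [d2_cup20, ha]
  funext g
  simp

theorem d2_cup02_of_cocycle (v : V) {b : Γ × Γ → W} (hb : d2 σ b = 0) :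
    d2 (charRep χ) (cup02 P v b) = cup12 P (d0 ρ v) b := by
  rw [d2_cup02, hb]
  funext g
  simp

variable {L : Lvl Γ}

/-- The finitely many values of a level function are fixed by a common level. -/
theorem exists_level_forall_eq (hσ : Smooth L σ) {U : Subgroup Γ} (hU : U ∈ L) {f : Γ → W}
    (hf : ∀ g s, s ∈ U → f (g * s) = f g) : ∃ U' ∈ L, ∀ g, ∀ s ∈ U', σ s (f g) = f g := by
  classical
  have := L.finiteIndex_of_mem U hU
  have hfin : Finite (Γ ⧸ U) := inferInstance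
  haveI := Fintype.ofFinite (Γ ⧸ U)
  choose W' hW' hfix using fun x : Γ ⧸ U => hσ (f x.out)
  obtain ⟨U', hU', hle⟩ : ∃ U' ∈ L, ∀ x ∈ (Finset.univ : Finset (Γ ⧸ U)), U' ≤ W' x := by
    induction (Finset.univ : Finset (Γ ⧸ U)) using Finset.induction with
    | empty => exact ⟨⊤, L.top_mem, by simp⟩
    | insert x s hx ih =>
      obtain ⟨U', hU', hle⟩ := ih
      refine ⟨U' ⊓ W' x, L.inf_mem U' hU' _ (hW' x), fun y hy => ?_⟩
      rcases Finset.mem_insert.1 hy with rfl | hy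
      · exact inf_le_right
      · exact inf_le_left.trans (hle y hy)
  refine ⟨U', hU', fun g s hs => ?_⟩
  obtain ⟨u, hu⟩ := QuotientGroup.mk_out_eq_mul U g
  have hx := hfix (QuotientGroup.mk g : Γ ⧸ U) s (hle _ (Finset.mem_univ _) hs)
  rwa [hu, hf g u u.2] at hx

theorem smooth_comap {Γ' : Type*} [Group Γ'] (hρ : Smooth L ρ) (f : Γ' →* Γ) :
    Smooth (L.comap f) (ρ.comp f) := fun v => by
  obtain ⟨U, hU, h⟩ := hρ v
  exact ⟨U.comap f, lvlLE_comap L f U hU, fun s hs => h (f s) hs⟩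

theorem mul_mem_conj {U : Subgroup Γ} (hU : U.Normal) {g h s : Γ} (hs : s ∈ U) :
    ∃ s' ∈ U, g * s * h = g * h * s' :=
  ⟨h⁻¹ * s * h, by simpa [mul_assoc] using hU.conj_mem s hs h⁻¹, by group⟩

theorem cup11_const (hσ : Smooth L σ) {a : Γ → V} {b : Γ → W} (ha : IsConst₁ L a)
    (hb : IsConst₁ L b) : IsConst₂ L (cup11 P a b) := by
  obtain ⟨U, hU, ha⟩ := ha
  obtain ⟨U₁, hU₁, hb⟩ := hb
  obtain ⟨U₂, hU₂, hfix⟩ := exists_level_forall_eq hσ hU₁ hb
  refine ⟨U ⊓ (U₁ ⊓ U₂), L.inf_mem U hU _ (L.inf_mem U₁ hU₁ U₂ hU₂), fun g g' s s' hs hs' => ?_⟩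
  simp only [cup11]
  rw [ha g s hs.1, hb g' s' hs'.2.1, rep_mul_apply (σ := σ) g s, hfix g' s hs.2.2]

theorem cup10_const (hσ : Smooth L σ) {a : Γ → V} (ha : IsConst₁ L a) (w : W) :
    IsConst₁ L (cup10 P a w) := by
  obtain ⟨U, hU, ha⟩ := ha
  obtain ⟨U₁, hU₁, hw⟩ := hσ w
  refine ⟨U ⊓ U₁, L.inf_mem U hU U₁ hU₁, fun g s hs => ?_⟩
  simp only [cup10]
  rw [ha g s hs.1, rep_mul_apply (σ := σ) g s, hw s hs.2]

theorem cup01_const (v : V) {b : Γ → W} (hb : IsConst₁ L b) : IsConst₁ L (cup01 P v b) := by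
  obtain ⟨U, hU, hb⟩ := hb
  exact ⟨U, hU, fun g s hs => by simp [cup01, hb g s hs]⟩

theorem cup02_const (v : V) {b : Γ × Γ → W} (hb : IsConst₂ L b) : IsConst₂ L (cup02 P v b) := by
  obtain ⟨U, hU, hb⟩ := hb
  exact ⟨U, hU, fun g g' s s' hs hs' => by simp [cup02, hb g g' s s' hs hs']⟩

theorem cup20_const (hσ : Smooth L σ) {a : Γ × Γ → V} (ha : IsConst₂ L a) (w : W) :
    IsConst₂ L (cup20 P a w) := by
  obtain ⟨U, hU, ha⟩ := ha
  obtain ⟨U₁, hU₁, hw⟩ := hσ w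
  refine ⟨U ⊓ U₁, L.inf_mem U hU U₁ hU₁, fun g g' s s' hs hs' => ?_⟩
  simp only [cup20]
  obtain ⟨t, ht, he⟩ := mul_mem_conj (g := g) (h := g') (L.normal_of_mem U₁ hU₁) hs.2
  rw [ha g g' s s' hs.1 hs'.1, ← mul_assoc, he, mul_assoc, rep_mul_apply (σ := σ),
    hw _ (U₁.mul_mem ht hs'.2)]

theorem cup11_mem_Z2 (hσ : Smooth L σ) {a : Γ → V} {b : Γ → W} (ha : a ∈ Z1 L ρ)
    (hb : b ∈ Z1 L σ) : cup11 P a b ∈ Z2 L (charRep χ) := by
  refine ⟨LinearMap.mem_ker.2 ?_, cup11_const P hσ ha.2 hb.2⟩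
  rw [d2_cup11, LinearMap.mem_ker.1 ha.1, LinearMap.mem_ker.1 hb.1]
  funext g
  simp [cup21, cup12]

theorem cup20_mem_Z2 (hσ : Smooth L σ) {a : Γ × Γ → V} (ha : a ∈ Z2 L ρ) {w : W}
    (hw : ∀ g, σ g w = w) : cup20 P a w ∈ Z2 L (charRep χ) := by
  refine ⟨LinearMap.mem_ker.2 ?_, cup20_const P hσ ha.2 w⟩
  rw [d2_cup20_of_cocycle P (LinearMap.mem_ker.1 ha.1)]
  funext g
  simp [cup21, hw]

theorem cup02_mem_Z2 {v : V} (hv : ∀ g, ρ g v = v) {b : Γ × Γ → W} (hb : b ∈ Z2 L σ) :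
    cup02 P v b ∈ Z2 L (charRep χ) := by
  refine ⟨LinearMap.mem_ker.2 ?_, cup02_const P v hb.2⟩
  rw [d2_cup02_of_cocycle P v (LinearMap.mem_ker.1 hb.1)]
  funext g
  simp [cup12, hv]

end FLTA.PT

end
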