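import Fermat.Agent.PoitouTate.Setup

/-!
# Multiplicative groups as representations; open subgroups; fixed elements and norms
-/

set_option autoImplicit false

open ExtCitation

noncomputable section

namespace FLTA.PT

/-- `Gl q` acts on `PadicAlgCl q` by field automorphisms. -/
def locAut (q : Nat.Primes) :
    haveI : Fact (q : ℕ).Prime := ⟨q.2⟩
    Gl q →* (PadicAlgCl (q : ℕ) ≃ₐ[ℚ_[(q : ℕ)]] PadicAlgCl (q : ℕ)) :=
  MonoidHom.id _

/-- The local field closure `PadicAlgCl q`. -/
abbrev Ql (q : Nat.Primes) : Type :=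
  haveI : Fact (q : ℕ).Prime := ⟨q.2⟩
  PadicAlgCl (q : ℕ)

/-- The embedding `ι_q : ℚ̄ → ℚ̄_q`. -/
def iota (q : Nat.Primes) : Qb →+* Ql q :=
  haveI : Fact (q : ℕ).Prime := ⟨q.2⟩
  (padicEmbedding (q : ℕ)).toRingHom

theorem iota_loc (q : Nat.Primes) (τ : Gl q) (x : Qb) :
    iota q (loc q τ x) = locAut q τ (iota q x) :=
  haveI : Fact (q : ℕ).Prime := ⟨q.2⟩
  padicEmbedding_localGaloisToGlobal (q : ℕ) τ x

/-- The multiplicative group of `ℚ̄`, written additively. -/
abbrev Mq : Type := Additive Qbˣ

/-- The multiplicative group of `ℚ̄_q`, written additively. -/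
abbrev Ml (q : Nat.Primes) : Type := Additive (Ql q)ˣ

/-- The Galois module `ℚ̄ˣ`. -/
def unitsRep : Representation ℤ GQ Mq where
  toFun g := (MonoidHom.toAdditive (Units.map (g : Qb →* Qb))).toIntLinearMap
  map_one' := LinearMap.ext fun x => Additive.toMul.injective (Units.ext rfl)
  map_mul' g h := LinearMap.ext fun x => Additive.toMul.injective (Units.ext rfl)

/-- The Galois module `ℚ̄_qˣ`. -/
def unitsRepLoc (q : Nat.Primes) : Representation ℤ (Gl q) (Ml q) where
  toFun g := (MonoidHom.toAdditive (Units.map (locAut q g : Ql q →* Ql q))).toIntLinearMap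
  map_one' := LinearMap.ext fun x => Additive.toMul.injective (Units.ext
    (AlgEquiv.congr_fun (map_one (locAut q)) _))
  map_mul' g h := LinearMap.ext fun x => Additive.toMul.injective (Units.ext
    (AlgEquiv.congr_fun (map_mul (locAut q) g h) _))

/-- `ι_q` on multiplicative groups. -/
def iotaUnits (q : Nat.Primes) : Mq →ₗ[ℤ] Ml q :=
  (MonoidHom.toAdditive (Units.map (iota q : Qb →* Ql q))).toIntLinearMap

theorem equivariant_iotaUnits (q : Nat.Primes) :
    Equivariant unitsRep (unitsRepLoc q) (loc q) (iotaUnits q) := by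
  intro g v
  apply Additive.toMul.injective
  ext
  exact iota_loc q g _

section fixed

variable {Γ : Type*} [Group Γ] {k : Type*} [CommRing k] {V : Type*} [AddCommGroup V] [Module k V]
  (ρ : Representation k Γ V)

/-- The elements fixed by a subgroup. -/
def fixedBy (H : Subgroup Γ) : Submodule k V where
  carrier := {v | ∀ s ∈ H, ρ s v = v}
  add_mem' hx hy s hs := by rw [map_add, hx s hs, hy s hs]
  zero_mem' s _ := map_zero _
  smul_mem' c _ hx s hs := by rw [map_smul, hx s hs]

theorem mem_fixedBy {H : Subgroup Γ} {v : V} : v ∈ fixedBy ρ H ↔ ∀ s ∈ H, ρ s v = v := Iff.rfl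

open Classical in
/-- The relative norm (trace) from `H` to `D`, for `H ≤ D` of finite relative index
(zero otherwise). -/
def relNorm (H D : Subgroup Γ) : V →ₗ[k] V :=
  if h : Finite (D ⧸ H.subgroupOf D) then
    haveI := Fintype.ofFinite (D ⧸ H.subgroupOf D)
    ∑ x : D ⧸ H.subgroupOf D, ρ (x.out : Γ)
  else 0

/-- The group of relative norms of `H`-fixed elements. -/
def normsFrom (H D : Subgroup Γ) : Submodule k V :=
  (fixedBy ρ H).map (relNorm ρ H D)

end fixed

/-- A subgroup is open for the levels `L` if it contains a level. -/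
def IsOpenLvl {Γ : Type*} [Group Γ] (L : Lvl Γ) (H : Subgroup Γ) : Prop := ∃ U ∈ L, U ≤ H

end FLTA.PT

end
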