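import Fermat.Agent.PoitouTate.LocalUnits
import Fermat.Agent.Galois.Finiteness
import Fermat.Agent.Galois.Cyclotomic

/-!
# Preparations for the Hasse principle: levels, roots of unity, conjugation of cochains
-/

set_option autoImplicit false

open ExtCitation

noncomputable section

namespace FLTA.PT.Hasse

section cochain

variable {k : Type*} [CommRing k] {Γ : Type*} [Group Γ] (L : Lvl Γ)
variable {V : Type*} [AddCommGroup V] [Module k V] (ρ : Representation k Γ V)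

/-- A constant is a coboundary when it is fixed. -/
theorem const_mem_B2 {c : V} (hc : ∀ g, ρ g c = c) : (fun _ => c) ∈ B2 L ρ :=
  (mem_B2 L ρ).2 ⟨fun _ => c, ⟨⊤, L.top_mem, fun _ _ _ => rfl⟩, funext fun ⟨g, h⟩ => by
    simp [hc g]⟩

/-- The homotopy between a 2-cocycle and its conjugate. -/
def conjHomotopy (g : Γ) (c : Γ × Γ → V) : Γ → V :=
  fun a => ρ g⁻¹ (c (g * a * g⁻¹, g) - c (g, a))

theorem d1_conjHomotopy (g : Γ) {c : Γ × Γ → V}
    (hc : ∀ g h j, c (g * h, j) + c (g, h) = ρ g (c (h, j)) + c (g, h * j)) (a b : Γ) :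
    d1 ρ (conjHomotopy ρ g c) (a, b) =
      ρ g⁻¹ (c (g * a * g⁻¹, g * b * g⁻¹)) - c (a, b) := by
  have h1 := hc (g * a * g⁻¹) (g * b * g⁻¹) g
  have h2 := hc (g * a * g⁻¹) g b
  have h3 := hc g a b
  have e : ∀ v, ρ a (ρ g⁻¹ v) = ρ g⁻¹ (ρ (g * a * g⁻¹) v) := fun v => by
    rw [← Module.End.mul_apply, ← map_mul, ← Module.End.mul_apply, ← map_mul]
    simp [mul_assoc]
  have e' : c (a, b) = ρ g⁻¹ (ρ g (c (a, b))) := by
    rw [← Module.End.mul_apply, ← map_mul]; simp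
  rw [d1_apply, conjHomotopy, conjHomotopy, conjHomotopy, e, ← map_sub, ← map_add, e', ← map_sub]
  congr 1
  have hAB : g * a * g⁻¹ * (g * b * g⁻¹) = g * (a * b) * g⁻¹ := by group
  have hBg : g * b * g⁻¹ * g = g * b := by group
  have hAg : g * a * g⁻¹ * g = g * a := by group
  rw [hAB, hBg] at h1
  rw [hAg] at h2
  have x1 : ρ (g * a * g⁻¹) (c (g * b * g⁻¹, g)) = c (g * (a * b) * g⁻¹, g) +
      c (g * a * g⁻¹, g * b * g⁻¹) - c (g * a * g⁻¹, g * b) := by rw [h1]; abel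
  have x2 : ρ (g * a * g⁻¹) (c (g, b)) = c (g * a, b) + c (g * a * g⁻¹, g)
      - c (g * a * g⁻¹, g * b) := by rw [h2]; abel
  have x3 : ρ g (c (a, b)) = c (g * a, b) + c (g, a) - c (g, a * b) := by rw [h3]; abel
  rw [map_sub, x1, x2, x3]
  abel

theorem conjHomotopy_const (g : Γ) {c : Γ × Γ → V} (hc : IsConst₂ L c) :
    IsConst₁ L (conjHomotopy ρ g c) := by
  obtain ⟨U, hU, hcon⟩ := hc
  refine ⟨U, hU, fun a s hs => ?_⟩
  have hN := L.normal_of_mem U hU
  have h1 : c (g * (a * s) * g⁻¹, g) = c (g * a * g⁻¹, g) := by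
    have h := hcon (g * a * g⁻¹) g (g * s * g⁻¹) 1 (hN.conj_mem _ hs g) (one_mem U)
    rwa [mul_one, show g * a * g⁻¹ * (g * s * g⁻¹) = g * (a * s) * g⁻¹ by group] at h
  have h2 : c (g, a * s) = c (g, a) := by
    have h := hcon g a 1 s (one_mem U) hs
    rwa [mul_one] at h
  simp only [conjHomotopy, h1, h2]

/-- A 2-cocycle is cohomologous to its conjugate. -/
theorem conj_sub_mem_B2 (g : Γ) {c : Γ × Γ → V} (hc : c ∈ Z2 L ρ) :
    (fun x : Γ × Γ => ρ g⁻¹ (c (g * x.1 * g⁻¹, g * x.2 * g⁻¹)) - c x) ∈ B2 L ρ := by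
  rw [mem_Z2] at hc
  exact (mem_B2 L ρ).2 ⟨conjHomotopy ρ g c, conjHomotopy_const L ρ g hc.2,
    funext fun ⟨a, b⟩ => d1_conjHomotopy ρ g hc.1 a b⟩

end cochain

section levels

theorem fixingSubgroup_normal_of_normal (N : IntermediateField ℚ Qb) [FiniteDimensional ℚ N]
    [Normal ℚ N] :
    N.fixingSubgroup.Normal :=
  have : IsGalois ℚ N := isGalois_iff.mpr ⟨inferInstance, inferInstance⟩
  (InfiniteGalois.normal_iff_isGalois N).mpr this

/-- An open subgroup contains a level. -/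
theorem isOpenLvl_lvlQ_of_le {H : Subgroup GQ} (F : IntermediateField ℚ Qb)
    [FiniteDimensional ℚ F] (h : F.fixingSubgroup ≤ H) : IsOpenLvl lvlQ H := by
  let N := IntermediateField.normalClosure ℚ F Qb
  haveI : FiniteDimensional ℚ N := normalClosure.is_finiteDimensional ℚ F Qb
  haveI : Normal ℚ N := normalClosure.normal ℚ F Qb
  exact ⟨N.fixingSubgroup, ⟨fixingSubgroup_normal_of_normal N, N, inferInstance, le_rfl⟩,
    (IntermediateField.fixingSubgroup_antitone F.le_normalClosure).trans h⟩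

theorem isOpenLvl_mono {Γ : Type*} [Group Γ] {L : Lvl Γ} {H H' : Subgroup Γ}
    (h : IsOpenLvl L H) (hle : H ≤ H') : IsOpenLvl L H' := by
  obtain ⟨U, hU, hUH⟩ := h
  exact ⟨U, hU, hUH.trans hle⟩

/-- A normal open subgroup containing all inertia outside `S` is a level of `G_S`. -/
theorem mem_lvlS_of_inertia_le {S : Finset Nat.Primes} {U : Subgroup GQ} (hU : U ∈ lvlQ)
    (h : ∀ q : Nat.Primes, q ∉ S → ∀ A : ValuationSubring Qb, A.LiesOverPrime (q : ℕ) →
      A.inertiaSubgroupIn ℚ ≤ U) : U ∈ lvlS S := by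
  obtain ⟨hn, F, hF, hFU⟩ := hU
  obtain ⟨E, hE, hEU⟩ :=
    FLTA.Galois.exists_isUnramifiedOutside_of_inertia_le U hFU h
  exact ⟨hn, E, hE, hEU.le⟩

theorem inertia_le_of_mem_lvlS {S : Finset Nat.Primes} {U : Subgroup GQ} (hU : U ∈ lvlS S)
    {q : Nat.Primes} (hq : q ∉ S) {A : ValuationSubring Qb} (hA : A.LiesOverPrime (q : ℕ)) :
    A.inertiaSubgroupIn ℚ ≤ U := by
  obtain ⟨-, F, hF, hFU⟩ := hU
  exact (hF.2 q hq A hA).trans hFU

/-- The stabiliser in `GQ` of an element of `ℚ̄` is open. -/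
theorem isOpenLvl_stab (x : Qb) : ∃ U ∈ lvlQ, ∀ s ∈ U, (s : GQ) x = x := by
  haveI : FiniteDimensional ℚ (IntermediateField.adjoin ℚ {x}) :=
    IntermediateField.adjoin.finiteDimensional
      ((AlgebraicClosure.isAlgebraic ℚ).isAlgebraic x).isIntegral
  obtain ⟨U, hU, hle⟩ := isOpenLvl_lvlQ_of_le (IntermediateField.adjoin ℚ {x}) le_rfl
  exact ⟨U, hU, fun s hs =>
    (IntermediateField.mem_fixingSubgroup_iff _ _).1 (hle hs) x
      (IntermediateField.mem_adjoin_simple_self ℚ x)⟩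

end levels

section roots

@[simp] theorem unitsRep_val (g : GQ) (a : Mq) :
    ((Additive.toMul (unitsRep g a) : Qbˣ) : Qb) = g ((Additive.toMul a : Qbˣ) : Qb) := rfl

theorem mq_ext {a b : Mq}
    (h : ((Additive.toMul a : Qbˣ) : Qb) = ((Additive.toMul b : Qbˣ) : Qb)) : a = b :=
  Additive.toMul.injective (Units.ext h)

/-- Every element of `ℚ̄ˣ` is a `p`-th power. -/
theorem exists_zsmul_eq (p : ℕ) (hp : p ≠ 0) (a : Mq) : ∃ b : Mq, (p : ℤ) • b = a := by
  obtain ⟨z, hz⟩ := IsAlgClosed.exists_pow_nat_eq ((Additive.toMul a : Qbˣ) : Qb)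
    (Nat.pos_of_ne_zero hp)
  have hz0 : z ≠ 0 := by
    rintro rfl
    rw [zero_pow hp] at hz
    exact (Additive.toMul a : Qbˣ).ne_zero hz.symm
  refine ⟨Additive.ofMul (Units.mk0 z hz0), mq_ext ?_⟩
  rw [natCast_zsmul]
  simpa [toMul_nsmul] using hz

variable (p : ℕ) [Fact p.Prime]

theorem prime_ne_zero' : p ≠ 0 := (Fact.out : p.Prime).ne_zero

/-- A primitive `p`-th root of unity. -/
def rootP : Qbˣ :=
  have : NeZero p := ⟨prime_ne_zero' p⟩
  Units.mk0 (HasEnoughRootsOfUnity.exists_primitiveRoot Qb p).choose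
    ((HasEnoughRootsOfUnity.exists_primitiveRoot Qb p).choose_spec.ne_zero (prime_ne_zero' p))

theorem rootP_isPrimitive : IsPrimitiveRoot (rootP p) p := by
  have : NeZero p := ⟨prime_ne_zero' p⟩
  rw [← IsPrimitiveRoot.coe_units_iff]
  exact (HasEnoughRootsOfUnity.exists_primitiveRoot Qb p).choose_spec

/-- `μ_p` inside `ℚ̄ˣ`. -/
def muIncl : ZMod p →+ Mq :=
  ZMod.lift p ⟨zmultiplesHom Mq (Additive.ofMul (rootP p)), by
    rw [zmultiplesHom_apply, natCast_zsmul, ← ofMul_pow, (rootP_isPrimitive p).pow_eq_one,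
      ofMul_one]⟩

theorem muIncl_intCast (n : ℤ) : muIncl p (n : ZMod p) = n • Additive.ofMul (rootP p) :=
  ZMod.lift_coe p _ n

theorem muIncl_natCast (n : ℕ) : muIncl p (n : ZMod p) = n • Additive.ofMul (rootP p) := by
  have h := muIncl_intCast p (n : ℤ)
  rwa [Int.cast_natCast, natCast_zsmul] at h

theorem muIncl_injective : Function.Injective (muIncl p) := by
  have : NeZero p := ⟨prime_ne_zero' p⟩
  rw [injective_iff_map_eq_zero]
  intro x hx
  rw [← ZMod.natCast_zmod_val x, muIncl_natCast, ← ofMul_pow, ofMul_eq_zero,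
    (rootP_isPrimitive p).pow_eq_one_iff_dvd] at hx
  rw [← ZMod.natCast_zmod_val x, ZMod.natCast_eq_zero_iff]
  exact hx

theorem zsmul_muIncl (x : ZMod p) : (p : ℤ) • muIncl p x = 0 := by
  rw [natCast_zsmul, ← map_nsmul, nsmul_eq_mul, ZMod.natCast_self, zero_mul, map_zero]

theorem exists_muIncl_eq {a : Mq} (h : (p : ℤ) • a = 0) : ∃ x, muIncl p x = a := by
  have : NeZero p := ⟨prime_ne_zero' p⟩
  have h' : (Additive.toMul a : Qbˣ) ^ p = 1 := by
    rw [natCast_zsmul] at h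
    rw [← toMul_nsmul, h, toMul_zero]
  obtain ⟨i, -, hi⟩ := ((IsPrimitiveRoot.coe_units_iff).2 (rootP_isPrimitive p)).eq_pow_of_pow_eq_one
    (show ((Additive.toMul a : Qbˣ) : Qb) ^ p = 1 by rw [← Units.val_pow_eq_pow_val, h']; rfl)
  exact ⟨i, mq_ext (by rw [muIncl_natCast, toMul_nsmul, toMul_ofMul, Units.val_pow_eq_pow_val, hi])⟩

theorem unitsRep_muIncl (g : GQ) (x : ZMod p) :
    unitsRep g (muIncl p x) = muIncl p ((cycloChar p g : ZMod p) * x) := by
  have : NeZero p := ⟨prime_ne_zero' p⟩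
  have hroot : unitsRep g (Additive.ofMul (rootP p)) =
      ((cycloChar p g : ZMod p).val) • Additive.ofMul (rootP p) := by
    refine mq_ext ?_
    rw [unitsRep_val, toMul_nsmul, toMul_ofMul, Units.val_pow_eq_pow_val]
    exact modularCyclotomicCharacter.spec Qb (card_rootsOfUnity_eq_self p) (g : Qb ≃+* Qb)
      ((mem_rootsOfUnity p _).2 (rootP_isPrimitive p).pow_eq_one)
  obtain ⟨n, rfl⟩ : ∃ n : ℕ, (n : ZMod p) = x := ⟨x.val, ZMod.natCast_zmod_val x⟩
  rw [muIncl_natCast, map_nsmul, hroot, ← mul_nsmul]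
  rw [show ((cycloChar p g : ZMod p) * (n : ZMod p)) =
      (((cycloChar p g : ZMod p).val * n : ℕ) : ZMod p) by
    rw [Nat.cast_mul, ZMod.natCast_zmod_val], muIncl_natCast]

end roots

end FLTA.PT.Hasse

end
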