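import Fermat.Agent.PoitouTate.LocalDualityH2

/-!
# Finiteness of local cohomology; local `H¹` of induced modules of `μ_p`
-/

set_option autoImplicit false

open ExtCitation Module

noncomputable section

namespace FLTA.PT

section generic

variable {k : Type*} [CommRing k] {Γ : Type*} [Group Γ] {L : Lvl Γ}
variable {V : Type*} [AddCommGroup V] [Module k V] {ρ : Representation k Γ V}

/-- Cocycles are finite if they are finite on a subgroup of finite index. -/
theorem finite_Z1_of_res [Finite V] (H : Subgroup Γ) [H.FiniteIndex]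
    [Finite (Z1 (L.comap H.subtype) (ρ.comp H.subtype))] : Finite (Z1 L ρ) := by
  let f : Z1 L ρ → Z1 (L.comap H.subtype) (ρ.comp H.subtype) × (Γ ⧸ H → V) := fun z =>
    (⟨pp1 H.subtype LinearMap.id z.1,
      pp1_mem_Z1 (lvlLE_comap L _) (equivariant_id_comp ρ _) z.2⟩, fun x => z.1 x.out)
  refine Finite.of_injective f fun a b h => Subtype.ext (funext fun g => ?_)
  obtain ⟨h1, h2⟩ := Prod.mk.inj h
  obtain ⟨n, hn⟩ : ∃ n : H, g = (g : Γ ⧸ H).out * n :=
    ⟨⟨(g : Γ ⧸ H).out⁻¹ * g, QuotientGroup.eq.1 (QuotientGroup.out_eq' _)⟩, by simp⟩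
  have e1 : a.1 n = b.1 n := congrFun (congrArg Subtype.val h1) n
  have e2 : a.1 (g : Γ ⧸ H).out = b.1 (g : Γ ⧸ H).out := congrFun h2 _
  rw [hn, ((mem_Z1 L ρ).1 a.2).1, ((mem_Z1 L ρ).1 b.2).1, e1, e2]

variable {X : Type*} [MulAction Γ X]

/-- The difference map `F ↦ ((x, y) ↦ F x - F y)`. -/
def diffMap (k V X : Type*) [CommRing k] [AddCommGroup V] [Module k V] :
    (X → V) →ₗ[k] (X × X → V) :=
  LinearMap.pi fun xy => LinearMap.proj (R := k) (φ := fun _ : X => V) xy.1
    - LinearMap.proj (R := k) (φ := fun _ : X => V) xy.2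

theorem equivariant_diffMap :
    Equivariant (funRep ρ X) (funRep ρ (X × X)) (MonoidHom.id Γ) (diffMap k V X) := by
  intro g F
  funext xy
  simp [diffMap, map_sub]

/-- `H²` is finite if `H²` of all stabilisers and the cocycles of `Fun (X × X, ·)` are finite. -/
theorem finite_H2c_of_stab [Finite X] [Nonempty X] (hρ : Smooth L ρ)
    (hX : ∀ x : X, IsOpenLvl L (MulAction.stabilizer Γ x))
    [Finite (Z1 L (funRep ρ (X × X)))]
    [∀ x : X, Finite (H2c (L.comap (MulAction.stabilizer Γ x).subtype)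
      (ρ.comp (MulAction.stabilizer Γ x).subtype))] :
    Finite (H2c L ρ) := by
  let Φ : H2c L ρ →ₗ[k] H2c L (funRep ρ X) := coeff2 L ρ (equivariant_constMap ρ X)
  haveI : Finite (H2c L (funRep ρ X)) :=
    Finite.of_injective (fun c => fun x => eval2 ρ L x c) fun a b h => sub_eq_zero.1
      (eq_zero_of_forall_eval2_eq_zero L ρ hρ hX _ fun x => by
        rw [map_sub]
        exact sub_eq_zero.2 (congrFun h x))
  -- the kernel embeds into cocycles of `Fun (X × X, ·)`
  have hker : ∀ c : LinearMap.ker Φ, ∃ z : Z2 L ρ, ∃ F : Γ → X → V,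
      H2cπ L ρ z = c.1 ∧ IsConst₁ L F ∧
      d1 (funRep ρ X) F = pp2 (MonoidHom.id Γ) (constMap (k := k) X) (z : Γ × Γ → V) := by
    rintro ⟨c, hc⟩
    obtain ⟨z, rfl⟩ := Submodule.mkQ_surjective _ c
    rw [LinearMap.mem_ker] at hc
    simp only [Φ, coeff2, map2_mk] at hc
    rw [H2cπ_eq_zero, mem_B2] at hc
    obtain ⟨F, hF, hFd⟩ := hc
    exact ⟨z, F, rfl, hF, hFd⟩
  choose z F hzc hF hFd using hker
  have hmem : ∀ c, pp1 (MonoidHom.id Γ) (diffMap k V X) (F c) ∈ Z1 L (funRep ρ (X × X)) :=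
    fun c => ⟨LinearMap.mem_ker.2 (by
      rw [← pp2_d1 (equivariant_diffMap (ρ := ρ)), hFd]
      funext ⟨g, h⟩ xy
      simp [diffMap, constMap]), pp1_const (lvlLE_id L) (hF c)⟩
  haveI : Finite (LinearMap.ker Φ) := by
    refine Finite.of_injective (fun c => (⟨_, hmem c⟩ : Z1 L (funRep ρ (X × X)))) fun a b h => ?_
    have hd : ∀ g x y, F a g x - F b g x = F a g y - F b g y := fun g x y => by
      have := congrFun (congrFun (congrArg Subtype.val h) g) (x, y)
      simp only [pp1_apply, diffMap, LinearMap.pi_apply, LinearMap.sub_apply, LinearMap.proj_apply,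
        MonoidHom.id_apply] at this
      linear_combination (norm := abel) this
    have x₀ : X := Classical.arbitrary X
    refine Subtype.ext ?_
    rw [← hzc a, ← hzc b, ← sub_eq_zero, ← map_sub, H2cπ_eq_zero, mem_B2]
    obtain ⟨U, hU, ha⟩ := (C1 (k := k) L (X → V)).sub_mem (hF a) (hF b)
    refine ⟨fun g => F a g x₀ - F b g x₀, ⟨U, hU, fun g s hs => congrFun (ha g s hs) x₀⟩, ?_⟩
    funext ⟨g, g'⟩
    have e1 := congrFun (congrFun (hFd a) (g, g')) x₀
    have e2 := congrFun (congrFun (hFd b) (g, g')) x₀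
    simp only [d1_apply, pp2_apply, Pi.add_apply, Pi.sub_apply, funRep_apply, constMap,
      LinearMap.coe_mk, AddHom.coe_mk, MonoidHom.id_apply] at e1 e2
    have e3 := congrArg (ρ g) (hd g' (g⁻¹ • x₀) x₀)
    rw [map_sub, map_sub] at e3
    simp only [d1_apply, Submodule.coe_sub, Pi.sub_apply, map_sub]
    linear_combination (norm := abel) e1 - e2 - e3
  choose s hs using fun y : LinearMap.range Φ => y.2
  refine Finite.of_injective (fun c => ((⟨c - s ⟨Φ c, c, rfl⟩, by
    rw [LinearMap.mem_ker, map_sub, hs, sub_self]⟩ : LinearMap.ker Φ),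
    (⟨Φ c, c, rfl⟩ : LinearMap.range Φ))) fun a b h => ?_
  obtain ⟨h1, h2⟩ := Prod.mk.inj h
  have h1' := congrArg Subtype.val h1
  simp only at h1'
  rw [h2] at h1'
  exact sub_left_injective h1'

end generic

variable (p : ℕ) [Fact p.Prime] (q : Nat.Primes)

theorem finite_H2_muD {D : Subgroup (Gl q)} (hD : IsOpenLvl (lvlLoc q) D) :
    Finite (H2c (lvD q D) (muD p q D)) := by
  haveI : NeZero p := ⟨(Fact.out : p.Prime).ne_zero⟩
  obtain ⟨z, hz, hne⟩ := exists_not_mem_B2 p q hD
  refine Finite.of_surjective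
    (fun t : ZMod p => t • H2cπ (lvD q D) (muD p q D) ⟨z, hz⟩) fun c => ?_
  obtain ⟨⟨z', hz'⟩, rfl⟩ := Submodule.mkQ_surjective _ c
  obtain ⟨t, ht⟩ := inLine_muD p q hD hz' hz hne
  refine ⟨t, ?_⟩
  show t • H2cπ (lvD q D) (muD p q D) ⟨z, hz⟩ = H2cπ (lvD q D) (muD p q D) ⟨z', hz'⟩
  rw [← map_smul, eq_comm, ← sub_eq_zero, ← map_sub]
  exact (H2cπ_eq_zero _ _).2 ht

section trivialCoeff

variable {D : Subgroup (Gl q)} {V : Type} [AddCommGroup V] [Module (ZMod p) V] [Finite V]
variable {τ : Representation (ZMod p) D V}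

theorem equivariant_coord (hμ : MuTrivial p q D) (hτ : ∀ g v, τ g v = v)
    (φ : V →ₗ[ZMod p] ZMod p) : Equivariant τ (muD p q D) (MonoidHom.id D) φ := fun g v => by
  rw [MonoidHom.id_apply, hτ, muD_apply_of_trivial p q hμ]

theorem finite_Z1_of_trivial (hD : IsOpenLvl (lvlLoc q) D) (hμ : MuTrivial p q D)
    (hτ : ∀ g v, τ g v = v) : Finite (Z1 (lvD q D) τ) := by
  haveI := finite_Z1_muD p q hD hμ
  let b := Module.finBasis (ZMod p) V
  refine Finite.of_injective (fun z => fun i => (⟨pp1 (MonoidHom.id D) (b.coord i) z.1,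
    pp1_mem_Z1 (lvlLE_id _) (equivariant_coord p q hμ hτ _) z.2⟩ : Z1 (lvD q D) (muD p q D)))
    fun x y h => Subtype.ext (funext fun g => ?_)
  exact b.ext_elem fun i => congrFun (congrArg Subtype.val (congrFun h i)) g

theorem finite_H2c_of_trivial (hD : IsOpenLvl (lvlLoc q) D) (hμ : MuTrivial p q D)
    (hτ : ∀ g v, τ g v = v) : Finite (H2c (lvD q D) τ) := by
  haveI := finite_H2_muD p q hD
  let b := Module.finBasis (ZMod p) V
  refine Finite.of_injective
    (fun c => fun i => coeff2 (lvD q D) τ (equivariant_coord p q hμ hτ (b.coord i)) c)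
    fun x y h => ?_
  rw [← sub_eq_zero]
  obtain ⟨z, hz⟩ := Submodule.mkQ_surjective _ (x - y)
  rw [← hz]
  refine (H2cπ_eq_zero _ _).2 ?_
  have hi : ∀ i, pp2 (MonoidHom.id D) (b.coord i) (z : D × D → V) ∈
      B2 (lvD q D) (muD p q D) := fun i => by
    have h0 : coeff2 (lvD q D) τ (equivariant_coord p q hμ hτ (b.coord i)) (x - y) = 0 := by
      rw [map_sub]
      exact sub_eq_zero.2 (congrFun h i)
    rw [← hz] at h0
    simpa only [coeff2, map2_mk, H2cπ_eq_zero] using h0
  have e : (z : D × D → V) = ∑ i, pp2 (MonoidHom.id D) (LinearMap.toSpanSingleton (ZMod p) V (b i))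
      (pp2 (MonoidHom.id D) (b.coord i) (z : D × D → V)) := by
    funext ⟨g, g'⟩
    simp only [Finset.sum_apply, pp2_apply, MonoidHom.id_apply, LinearMap.toSpanSingleton_apply,
      Basis.coord_apply]
    exact (b.sum_repr _).symm
  rw [e]
  exact Submodule.sum_mem _ fun i _ => pp2_mem_B2 (lvlLE_id _) (fun g a => by
    rw [MonoidHom.id_apply, hτ, muD_apply_of_trivial p q hμ]) (hi i)

end trivialCoeff

section main

variable {V : Type} [AddCommGroup V] [Module (ZMod p) V] [Finite V]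
variable {ρ : Representation (ZMod p) (Gl q) V}

theorem exists_trivialising_level (hρ : Smooth (lvlLoc q) ρ) :
    ∃ U ∈ lvlLoc q, U ≤ muKer p q ∧ ∀ s ∈ U, ∀ v, ρ s v = v := by
  choose f hf hf' using hρ
  obtain ⟨U, hU, hle⟩ := (lvlLoc q).exists_mem_le_forall f fun v => ⟨f v, hf v, le_rfl⟩
  obtain ⟨W, hW, hWμ⟩ := isOpenLvl_muKer p q
  exact ⟨U ⊓ W, (lvlLoc q).inf_mem U hU W hW, inf_le_right.trans hWμ,
    fun s hs v => hf' v s (hle v hs.1)⟩

theorem finite_localZ1' (hρ : Smooth (lvlLoc q) ρ) : Finite (Z1 (lvlLoc q) ρ) := by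
  obtain ⟨U, hU, hμ, hfix⟩ := exists_trivialising_level p q hρ
  haveI := (lvlLoc q).finiteIndex_of_mem U hU
  haveI := finite_Z1_of_trivial p q (τ := ρ.comp U.subtype) ⟨U, hU, le_rfl⟩
    ((muTrivial_iff p q).2 hμ) fun g v => hfix g g.2 v
  exact finite_Z1_of_res U

theorem finite_localH1' (hρ : Smooth (lvlLoc q) ρ) : Finite (H1c (lvlLoc q) ρ) :=
  haveI := finite_localZ1' p q hρ
  Finite.of_surjective _ (Submodule.mkQ_surjective _)

theorem finite_localH2' (hρ : Smooth (lvlLoc q) ρ) : Finite (H2c (lvlLoc q) ρ) := by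
  obtain ⟨U, hU, hμ, hfix⟩ := exists_trivialising_level p q hρ
  haveI hn := (lvlLoc q).normal_of_mem U hU
  haveI := (lvlLoc q).finiteIndex_of_mem U hU
  have hstab : ∀ x : Gl q ⧸ U, ∀ s, s • x = x ↔ s ∈ U := fun x s => by
    induction x using QuotientGroup.induction_on with
    | H g =>
      rw [MulAction.Quotient.smul_coe, smul_eq_mul, QuotientGroup.eq, mul_inv_rev]
      refine ⟨fun h => ?_, fun h => by simpa [mul_assoc] using hn.conj_mem' _ (U.inv_mem h) g⟩
      have := U.inv_mem (hn.conj_mem _ h g)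
      simpa [mul_assoc] using this
  have hX : ∀ x : Gl q ⧸ U, IsOpenLvl (lvlLoc q) (MulAction.stabilizer (Gl q) x) :=
    fun x => ⟨U, hU, fun s hs => (hstab x s).2 hs⟩
  haveI : Finite (Z1 (lvlLoc q) (funRep ρ ((Gl q ⧸ U) × (Gl q ⧸ U)))) :=
    finite_localZ1' p q (smooth_funRep _ _ hρ fun xy => ⟨U, hU, fun s hs =>
      Prod.ext ((hstab xy.1 s).2 hs) ((hstab xy.2 s).2 hs)⟩)
  haveI : ∀ x : Gl q ⧸ U, Finite (H2c ((lvlLoc q).comap (MulAction.stabilizer (Gl q) x).subtype)
      (ρ.comp (MulAction.stabilizer (Gl q) x).subtype)) := fun x =>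
    finite_H2c_of_trivial p q (τ := ρ.comp (MulAction.stabilizer (Gl q) x).subtype) (hX x)
      ((muTrivial_iff p q).2 fun s hs => hμ ((hstab x s).1 hs))
      fun g v => hfix g ((hstab x g).1 g.2) v
  exact finite_H2c_of_stab hρ hX

variable (X : Type) [MulAction (Gl q) X] [Finite X]

omit [Finite X] in
theorem card_H1_muD {D : Subgroup (Gl q)} (hD : IsOpenLvl (lvlLoc q) D) (hμ : MuTrivial p q D) :
    Nat.card (H1c (lvD q D) (muD p q D)) = p ^ (2 + if (q : ℕ) = p then D.index else 0) := by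
  rw [← card_Z1_muD p q hD hμ]
  refine Nat.card_congr (Submodule.quotEquivOfEqBot _ ((Submodule.eq_bot_iff _).2 fun z hz => ?_)).toEquiv
  exact Subtype.ext (B1_muD_eq_zero p q hμ hz)

theorem card_H1_funRep_muLoc
    (hX : ∀ x : X, IsOpenLvl (lvlLoc q) (MulAction.stabilizer (Gl q) x))
    (hμ : ∀ (x : X) (s : Gl q), s • x = x → cycloChar p (loc q s) = 1) :
    Nat.card (H1c (lvlLoc q) (funRep (muLoc p q) X)) =
      p ^ (2 * Nat.card (Quotient (MulAction.orbitRel (Gl q) X)) +
        (if (q : ℕ) = p then Nat.card X else 0)) := by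
  classical
  haveI := Fintype.ofFinite (Quotient (MulAction.orbitRel (Gl q) X))
  have hsm := smooth_muLoc p q
  let ev : H1c (lvlLoc q) (funRep (muLoc p q) X) → (o : Quotient (MulAction.orbitRel (Gl q) X)) →
      H1c (lvD q (MulAction.stabilizer (Gl q) o.out))
        (muD p q (MulAction.stabilizer (Gl q) o.out)) :=
    fun c o => eval1 (muLoc p q) (lvlLoc q) o.out c
  have hbij : Function.Bijective ev := by
    refine ⟨fun a b h => ?_, fun f => ?_⟩
    · rw [← sub_eq_zero]
      obtain ⟨z, hz⟩ := Submodule.mkQ_surjective _ (a - b)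
      rw [← hz]
      refine (H1cπ_eq_zero _ _).2 (mem_B1_funRep orbitSection ((mem_Z1 _ _).1 z.2).1 fun y => ?_)
      have h0 : eval1 (muLoc p q) (lvlLoc q)
          (Quotient.mk (MulAction.orbitRel (Gl q) X) y).out (a - b) = 0 := by
        rw [map_sub]
        exact sub_eq_zero.2 (congrFun h _)
      rw [← hz, eval1, map1_mk, H1cπ_eq_zero] at h0
      obtain ⟨v, hv⟩ := h0
      exact ⟨v, fun s hs => (congrFun hv ⟨s, hs⟩).symm⟩
    · choose c hc hc' using fun o : Quotient (MulAction.orbitRel (Gl q) X) =>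
        exists_eval1_eq (lvlLoc q) (muLoc p q) hsm hX o.out (f o)
      refine ⟨∑ o, c o, funext fun o => ?_⟩
      simp only [ev, map_sum]
      rw [Finset.sum_eq_single o (fun o' _ hne => ?_) fun h => absurd (Finset.mem_univ o) h]
      · exact hc o
      · refine hc' o' _ fun hmem => hne ?_
        have := @Quotient.sound _ (MulAction.orbitRel (Gl q) X) _ _ hmem
        rw [Quotient.out_eq, Quotient.out_eq] at this
        exact this.symm
  rw [Nat.card_congr (Equiv.ofBijective ev hbij), Nat.card_pi]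
  have h1 : ∀ o : Quotient (MulAction.orbitRel (Gl q) X),
      Nat.card (H1c (lvD q (MulAction.stabilizer (Gl q) o.out))
        (muD p q (MulAction.stabilizer (Gl q) o.out))) =
      p ^ (2 + if (q : ℕ) = p then Nat.card (MulAction.orbit (Gl q) o.out) else 0) := fun o => by
    rw [card_H1_muD p q (hX _) (fun g => hμ o.out g g.2), MulAction.index_stabilizer,
      Nat.card_coe_set_eq]
  rw [Finset.prod_congr rfl fun o _ => h1 o, Finset.prod_pow_eq_pow_sum, Finset.sum_add_distrib,
    Finset.sum_const, Finset.card_univ, smul_eq_mul, ← Nat.card_eq_fintype_card,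
    mul_comm]
  congr 2
  split_ifs
  · rw [Nat.card_congr (MulAction.selfEquivSigmaOrbits (Gl q) X), Nat.card_sigma]
  · exact Finset.sum_const_zero

theorem finrank_H1_funRep_muLoc'
    (hX : ∀ x : X, IsOpenLvl (lvlLoc q) (MulAction.stabilizer (Gl q) x))
    (hμ : ∀ (x : X) (s : Gl q), s • x = x → cycloChar p (loc q s) = 1) :
    finrank (ZMod p) (H1c (lvlLoc q) (funRep (muLoc p q) X)) =
      2 * Nat.card (Quotient (MulAction.orbitRel (Gl q) X)) +
        (if (q : ℕ) = p then Nat.card X else 0) := by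
  have h := card_H1_funRep_muLoc p q X hX hμ
  haveI : Finite (H1c (lvlLoc q) (funRep (muLoc p q) X)) :=
    Nat.finite_of_card_ne_zero (h ▸ pow_ne_zero _ (Fact.out : p.Prime).ne_zero)
  rw [Module.natCard_eq_pow_finrank (K := ZMod p), Nat.card_zmod] at h
  exact Nat.pow_right_injective (Fact.out : p.Prime).two_le h

end main

end FLTA.PT

end
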