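import Fermat.Agent.PoitouTate.LocalDualityTop

/-!
# The sum map on `H²` of permutation modules of `μ_p`, and restriction to subgroups
-/

set_option autoImplicit false

open ExtCitation Module

noncomputable section

namespace FLTA.PT.SumMap

variable {k : Type*} [CommRing k] {Γ : Type*} [Group Γ]

/-- Multiplication `χ × 1 → χ`. -/
def twistMul (χ : Γ →* kˣ) : Pairing χ (charRep χ) (charRep 1) where
  e := LinearMap.mul k k
  equivariant g v w := by simp [mul_assoc]

theorem twistMul_perfect (χ : Γ →* kˣ) : (twistMul χ).Perfect := by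
  have h : Function.Bijective (LinearMap.mul k k) := by
    refine ⟨fun a b h => ?_, fun f => ⟨f 1, LinearMap.ext fun x => ?_⟩⟩
    · simpa using LinearMap.congr_fun h 1
    · show f 1 * x = f x
      rw [mul_comm, ← smul_eq_mul, ← map_smul, smul_eq_mul, mul_one]
  refine ⟨h, ?_⟩
  have e : (twistMul χ).e.flip = LinearMap.mul k k :=
    LinearMap.ext fun a => LinearMap.ext fun b => mul_comm b a
  rw [e]
  exact h

variable (p : ℕ) [Fact p.Prime] {X : Type} [MulAction Γ X] [Fintype X]

theorem funPairing_perfect (χ : Γ →* (ZMod p)ˣ) : ((twistMul χ).funPairing X).Perfect := by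
  classical
  have e : ∀ F F' : X → ZMod p, ((twistMul χ).funPairing X).e F F' = ∑ x, F x * F' x :=
    fun F F' => by simp [Pairing.funPairing, twistMul, LinearMap.sum_apply]
  have key : ∀ F : X → ZMod p, (∀ x, ∑ y, F y * (Pi.single x 1 : X → ZMod p) y = F x) :=
    fun F x => by
      rw [Finset.sum_eq_single x (fun y _ h => by rw [Pi.single_eq_of_ne h, mul_zero])
        (fun h => absurd (Finset.mem_univ x) h), Pi.single_eq_same, mul_one]
  have h1 : Function.Injective ((twistMul χ).funPairing X).e :=
    (injective_iff_map_eq_zero _).2 fun F hF => funext fun x => by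
      have := LinearMap.congr_fun hF (Pi.single x 1)
      rw [e, key, LinearMap.zero_apply] at this
      exact this
  have h2 : Function.Injective ((twistMul χ).funPairing X).e.flip :=
    (injective_iff_map_eq_zero _).2 fun F hF => funext fun x => by
      have := LinearMap.congr_fun hF (Pi.single x 1)
      rw [LinearMap.flip_apply, e, LinearMap.zero_apply,
        Finset.sum_congr rfl fun y _ => mul_comm _ _, key] at this
      exact this
  haveI : Module.Finite (ZMod p) (X → ZMod p) := inferInstance
  have hs : Function.Surjective ((twistMul χ).funPairing X).e :=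
    (LinearMap.injective_iff_surjective_of_finrank_eq_finrank
      (Subspace.dual_finrank_eq).symm).1 h1
  exact ⟨⟨h1, hs⟩, ⟨h2, (LinearMap.injective_iff_surjective_of_finrank_eq_finrank
      (Subspace.dual_finrank_eq).symm).1 h2⟩⟩

theorem smooth_charRep_one (L : Lvl Γ) : Smooth L (charRep (1 : Γ →* (ZMod p)ˣ)) :=
  fun v => ⟨⊤, L.top_mem, fun s _ => by simp⟩

theorem cup20_funPairing (χ : Γ →* (ZMod p)ˣ) (C : Γ × Γ → X → ZMod p) (F : X → ZMod p)
    (hF : ∀ g, funRep (charRep (1 : Γ →* (ZMod p)ˣ)) X g F = F) :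
    cup20 ((twistMul χ).funPairing X) C F = fun g => ∑ x, C g x * F x := by
  funext g
  simp [cup20, hF, Pairing.funPairing, twistMul, LinearMap.sum_apply]

variable (q : Nat.Primes)

/-- `H²(D, μ_p)` dies on subgroups of index divisible by `p`. -/
theorem res_mem_B2 {H D : Subgroup (Gl q)} (hH : IsOpenLvl (lvlLoc q) H) (hle : H ≤ D)
    (hdvd : p ∣ H.relIndex D) {z : D × D → ZMod p} (hz : z ∈ Z2 (lvD q D) (muD p q D)) :
    pp2 (H.subgroupOf D).subtype (LinearMap.id : ZMod p →ₗ[ZMod p] ZMod p) z ∈
      B2 ((lvD q D).comap (H.subgroupOf D).subtype)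
        ((muD p q D).comp (H.subgroupOf D).subtype) := by
  obtain ⟨U, hU, hUH⟩ := hH
  have hH' : IsOpenLvl (lvlLoc q) H := ⟨U, hU, hUH⟩
  have hD : IsOpenLvl (lvlLoc q) D := ⟨U, hU, hUH.trans hle⟩
  haveI : Finite (cosets q H D) := finite_cosets q hH' D
  letI := Fintype.ofFinite (cosets q H D)
  have hst := isOpenLvl_stabilizer_cosets q hH' (D := D)
  have hC : pp2 (MonoidHom.id D) (constMap (k := ZMod p) (cosets q H D)) z ∈
      Z2 (lvD q D) (funRep (muD p q D) (cosets q H D)) :=
    pp2_mem_Z2 (lvlLE_id _) (equivariant_constMap (muD p q D) (cosets q H D)) hz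
  have hB := injH2 p q ((twistMul (chiD p q D)).funPairing (cosets q H D)) hD
    (funPairing_perfect p _) (smooth_funRep _ _ (smooth_muD p q D) hst)
    (smooth_funRep _ _ (smooth_charRep_one p _) hst) _ hC fun F hF => by
      have hconst : ∀ y : cosets q H D, F y = F ((1 : D) : cosets q H D) := fun y => by
        induction y using QuotientGroup.induction_on with
        | _ a =>
          have := congrFun (hF a) (a : cosets q H D)
          rw [funRep_apply, MulAction.Quotient.smul_coe, smul_eq_mul, inv_mul_cancel] at this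
          simpa using this.symm
      rw [cup20_funPairing p _ _ F hF]
      have hzero : (Fintype.card (cosets q H D) : ZMod p) = 0 := by
        rw [CharP.cast_eq_zero_iff (ZMod p) p, ← Nat.card_eq_fintype_card, card_cosets]
        exact hdvd
      rw [show (fun g => ∑ x, pp2 (MonoidHom.id D) (constMap (k := ZMod p) (cosets q H D)) z g x * F x)
          = 0 from funext fun ⟨g, h⟩ => by
        simp only [pp2_apply, MonoidHom.id_apply, constMap, LinearMap.coe_mk, AddHom.coe_mk, hconst,
          Finset.sum_const, Finset.card_univ, nsmul_eq_mul, hzero, zero_mul, Pi.zero_apply]]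
      exact Submodule.zero_mem _
  exact pp2_mem_B2 (σ := (muD p q D).comp (H.subgroupOf D).subtype) (lvlLE_comap _ _)
    (equivariant_projPt (ρ := muD p q D) (H.subgroupOf D).subtype ((1 : D) : cosets q H D)
      fun τ => by
        rw [MulAction.Quotient.smul_coe, smul_eq_mul, mul_one, QuotientGroup.eq, mul_one]
        exact (H.subgroupOf D).inv_mem τ.2) hB

/-- The sum map is injective on classes supported on one orbit. -/
theorem eq_zero_of_sum {X : Type} [MulAction (Gl q) X] [Fintype X]
    (hX : ∀ x : X, IsOpenLvl (lvlLoc q) (MulAction.stabilizer (Gl q) x)) (x : X)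
    (c : H2c (lvlLoc q) (funRep (muLoc p q) X))
    (hsupp : ∀ y, y ∉ MulAction.orbit (Gl q) x → eval2 (muLoc p q) (lvlLoc q) y c = 0)
    (hsum : coeff2 (lvlLoc q) (funRep (muLoc p q) X) (equivariant_sumMap (muLoc p q) X) c = 0) :
    c = 0 := by
  classical
  obtain ⟨⟨C, hC⟩, rfl⟩ := Submodule.mkQ_surjective _ c
  have hμs : Smooth (lvlLoc q) (muLoc p q) := smooth_muLoc p q
  refine (H2cπ_eq_zero _ _).2 (mem_B2_of_cup20_loc p q
    ((twistMul ((cycloChar p).comp (loc q))).funPairing X) (funPairing_perfect p _)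
    (smooth_funRep _ _ hμs hX) (smooth_funRep _ _ (smooth_charRep_one p _) hX) hC fun F hF => ?_)
  have hF' : ∀ g y, F (g⁻¹ • y) = F y := fun g y => by
    have := congrFun (hF g trivial) y
    simpa using this
  let M : (X → ZMod p) →ₗ[ZMod p] (X → ZMod p) :=
    LinearMap.pi fun y => (F y - F x) • LinearMap.proj y
  have hM : Equivariant (funRep (muLoc p q) X) (funRep (muLoc p q) X) (MonoidHom.id _) M := by
    intro g G
    funext y
    simp [M, hF' g y]
    ring
  have hMc : coeff2 (lvlLoc q) (funRep (muLoc p q) X) hM (H2cπ (lvlLoc q) (funRep (muLoc p q) X) ⟨C, hC⟩) = 0 := by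
    refine eq_zero_of_forall_eval2_eq_zero _ _ hμs hX _ fun y => ?_
    have e : eval2 (muLoc p q) (lvlLoc q) y
        (coeff2 (lvlLoc q) (funRep (muLoc p q) X) hM (H2cπ (lvlLoc q) (funRep (muLoc p q) X) ⟨C, hC⟩)) =
        (F y - F x) • eval2 (muLoc p q) (lvlLoc q) y (H2cπ (lvlLoc q) (funRep (muLoc p q) X) ⟨C, hC⟩) := by
      simp only [eval2, coeff2, map2_mk, ← map_smul]
      exact congrArg _ (Subtype.ext (funext fun ⟨g, h⟩ => by simp [M]))
    rw [e]
    by_cases hy : y ∈ MulAction.orbit (Gl q) x
    · obtain ⟨g, rfl⟩ := hy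
      have := hF' g (g • x)
      rw [inv_smul_smul] at this
      rw [this, sub_self, zero_smul]
    · rw [hsupp y hy, smul_zero]
  rw [coeff2, map2_mk, H2cπ_eq_zero] at hMc
  rw [coeff2] at hsum
  rw [map2_mk, H2cπ_eq_zero] at hsum
  rw [cup20_funPairing p _ _ F fun g => hF g trivial]
  have h1 := pp2_mem_B2 (lvlLE_id _) (equivariant_sumMap (muLoc p q) X) hMc
  have h2 := Submodule.smul_mem _ (F x) hsum
  convert Submodule.add_mem _ h1 h2 using 1
  funext ⟨g, h⟩
  simp only [Pi.add_apply, Pi.smul_apply, pp2_apply, sumMap_apply, MonoidHom.id_apply, M,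
    LinearMap.pi_apply, LinearMap.smul_apply, LinearMap.proj_apply, smul_eq_mul, Finset.mul_sum,
    ← Finset.sum_add_distrib]
  exact Finset.sum_congr rfl fun y _ => by ring

end FLTA.PT.SumMap

end
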