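import Fermat.Agent.PoitouTate.LocalDualityCore

/-!
# Local duality for the whole local group
-/

set_option autoImplicit false

open ExtCitation Module

noncomputable section

namespace FLTA.PT

variable (p : ℕ) [Fact p.Prime] (q : Nat.Primes)

/-- The whole group as a subgroup. -/
abbrev topInv : Gl q →* (⊤ : Subgroup (Gl q)) :=
  (MonoidHom.id (Gl q)).codRestrict ⊤ fun _ => trivial

theorem isOpenLvl_top : IsOpenLvl (lvlLoc q) (⊤ : Subgroup (Gl q)) :=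
  ⟨⊤, (lvlLoc q).top_mem, le_rfl⟩

theorem lvlLE_toTop : LvlLE (lvlLoc q) (lvD q ⊤) (⊤ : Subgroup (Gl q)).subtype :=
  lvlLE_comap _ _

theorem lvlLE_fromTop : LvlLE (lvD q ⊤) (lvlLoc q) (topInv q) := by
  rintro U ⟨U', hU', rfl⟩
  rw [Subgroup.comap_comap]
  exact hU'

variable {V : Type} [AddCommGroup V] [Module (ZMod p) V]
  {ρ : Representation (ZMod p) (Gl q) V}

theorem top_mem_Z1 {a : Gl q → V} (ha : a ∈ Z1 (lvlLoc q) ρ) :
    pp1 (⊤ : Subgroup (Gl q)).subtype (LinearMap.id : V →ₗ[ZMod p] V) a ∈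
      Z1 (lvD q ⊤) (ρ.comp (⊤ : Subgroup (Gl q)).subtype) :=
  pp1_mem_Z1 (lvlLE_toTop q) (fun _ _ => rfl) ha

theorem top_mem_Z2 {a : Gl q × Gl q → V} (ha : a ∈ Z2 (lvlLoc q) ρ) :
    pp2 (⊤ : Subgroup (Gl q)).subtype (LinearMap.id : V →ₗ[ZMod p] V) a ∈
      Z2 (lvD q ⊤) (ρ.comp (⊤ : Subgroup (Gl q)).subtype) :=
  pp2_mem_Z2 (lvlLE_toTop q) (fun _ _ => rfl) ha

theorem mem_B2_of_top {a : Gl q × Gl q → V}
    (ha : pp2 (⊤ : Subgroup (Gl q)).subtype (LinearMap.id : V →ₗ[ZMod p] V) a ∈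
      B2 (lvD q ⊤) (ρ.comp (⊤ : Subgroup (Gl q)).subtype)) : a ∈ B2 (lvlLoc q) ρ := by
  have h := pp2_mem_B2 (σ := ρ) (φ := (LinearMap.id : V →ₗ[ZMod p] V)) (lvlLE_fromTop q)
    (fun _ _ => rfl) ha
  exact h

theorem mem_B1_of_top {a : Gl q → V}
    (ha : pp1 (⊤ : Subgroup (Gl q)).subtype (LinearMap.id : V →ₗ[ZMod p] V) a ∈
      B1 (ρ.comp (⊤ : Subgroup (Gl q)).subtype)) : a ∈ B1 ρ := by
  have h := pp1_mem_B1 (σ := ρ) (f := topInv q) (φ := (LinearMap.id : V →ₗ[ZMod p] V))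
    (fun _ _ => rfl) ha
  exact h

theorem smooth_top (hρ : Smooth (lvlLoc q) ρ) :
    Smooth (lvD q ⊤) (ρ.comp (⊤ : Subgroup (Gl q)).subtype) :=
  smooth_comap hρ _

/-- Restriction of scalars-valued cochains to `⊤`. -/
abbrev topPull : (Gl q × Gl q → ZMod p) →ₗ[ZMod p]
    ((⊤ : Subgroup (Gl q)) × (⊤ : Subgroup (Gl q)) → ZMod p) :=
  pp2 (⊤ : Subgroup (Gl q)).subtype (LinearMap.id : ZMod p →ₗ[ZMod p] ZMod p)

theorem top_mem_Z2_mu {a : Gl q × Gl q → ZMod p} (ha : a ∈ Z2 (lvlLoc q) (muLoc p q)) :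
    topPull p q a ∈ Z2 (lvD q ⊤) (muD p q ⊤) := by
  rw [muD_eq]
  exact top_mem_Z2 p q ha

theorem top_mem_B2_mu {a : Gl q × Gl q → ZMod p} (ha : a ∈ B2 (lvlLoc q) (muLoc p q)) :
    topPull p q a ∈ B2 (lvD q ⊤) (muD p q ⊤) := by
  rw [muD_eq]
  exact pp2_mem_B2 (σ := (muLoc p q).comp (⊤ : Subgroup (Gl q)).subtype)
    (φ := (LinearMap.id : ZMod p →ₗ[ZMod p] ZMod p)) (lvlLE_toTop q) (fun _ _ => rfl) ha

theorem mem_B2_of_top_mu {a : Gl q × Gl q → ZMod p}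
    (ha : topPull p q a ∈ B2 (lvD q ⊤) (muD p q ⊤)) : a ∈ B2 (lvlLoc q) (muLoc p q) := by
  rw [muD_eq] at ha
  exact mem_B2_of_top p q (ρ := muLoc p q) ha

/-- The whole group acts on `μ_p` through the cyclotomic character. -/
theorem inLine_muLoc {z z' : Gl q × Gl q → ZMod p} (hz : z ∈ Z2 (lvlLoc q) (muLoc p q))
    (hz' : z' ∈ Z2 (lvlLoc q) (muLoc p q)) (hne : z' ∉ B2 (lvlLoc q) (muLoc p q)) :
    InLine (B2 (lvlLoc q) (muLoc p q)) z z' := by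
  obtain ⟨t, ht⟩ := inLine_muD p q (isOpenLvl_top q) (top_mem_Z2_mu p q hz) (top_mem_Z2_mu p q hz')
    fun h => hne (mem_B2_of_top_mu p q h)
  refine ⟨t, mem_B2_of_top_mu p q ?_⟩
  rw [map_sub, map_smul]
  exact ht

theorem exists_muLoc_not_mem :
    ∃ z ∈ Z2 (lvlLoc q) (muLoc p q), z ∉ B2 (lvlLoc q) (muLoc p q) := by
  obtain ⟨z, hz, hne⟩ := exists_not_mem_B2 p q (isOpenLvl_top q)
  rw [muD_eq] at hz
  exact ⟨pp2 (topInv q) (LinearMap.id : ZMod p →ₗ[ZMod p] ZMod p) z,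
    pp2_mem_Z2 (ρ := (muLoc p q).comp (⊤ : Subgroup (Gl q)).subtype) (σ := muLoc p q)
      (lvlLE_fromTop q) (fun _ _ => rfl) hz, fun h => hne (top_mem_B2_mu p q h)⟩

theorem finrank_H2_muLoc_eq_one : finrank (ZMod p) (H2c (lvlLoc q) (muLoc p q)) = 1 := by
  obtain ⟨z, hz, hne⟩ := exists_muLoc_not_mem p q
  refine finrank_eq_one (H2cπ (lvlLoc q) (muLoc p q) ⟨z, hz⟩)
    (fun h => hne ((H2cπ_eq_zero _ _).1 h)) fun w => ?_
  obtain ⟨⟨y, hy⟩, rfl⟩ := Submodule.mkQ_surjective _ w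
  obtain ⟨t, ht⟩ := inLine_muLoc p q hy hz hne
  refine ⟨t, ?_⟩
  rw [← map_smul, eq_comm, ← sub_eq_zero, ← map_sub, H2cπ_eq_zero]
  exact ht

theorem finite_H2_muLoc_line : Finite (H2c (lvlLoc q) (muLoc p q)) :=
  haveI := FiniteDimensional.of_finrank_eq_succ (finrank_H2_muLoc_eq_one p q)
  Module.finite_of_finite (ZMod p)

variable {W : Type} [AddCommGroup W] [Module (ZMod p) W] [Finite V] [Finite W]
  {σ : Representation (ZMod p) (Gl q) W} (P : Pairing ((cycloChar p).comp (loc q)) ρ σ)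
  (hP : P.Perfect) (hρ : Smooth (lvlLoc q) ρ) (hσ : Smooth (lvlLoc q) σ)

include hP hρ hσ

theorem mem_B1_of_cup11_loc {a : Gl q → V} (ha : a ∈ Z1 (lvlLoc q) ρ)
    (h : ∀ b ∈ Z1 (lvlLoc q) σ, cup11 P a b ∈ B2 (lvlLoc q) (muLoc p q)) : a ∈ B1 ρ := by
  refine mem_B1_of_top p q (nondegH1 p q (P.comp (⊤ : Subgroup (Gl q)).subtype) (isOpenLvl_top q)
    hP (smooth_top p q hρ) (smooth_top p q hσ) _ (top_mem_Z1 p q ha) fun b hb => ?_)
  have hb' := pp1_mem_Z1 (σ := σ) (φ := (LinearMap.id : W →ₗ[ZMod p] W)) (lvlLE_fromTop q)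
    (fun _ _ => rfl) hb
  have h' := top_mem_B2_mu p q (h _ hb')
  rw [topPull, pp2_cup11_comp] at h'
  exact h'

theorem mem_B2_of_cup20_loc {a : Gl q × Gl q → V} (ha : a ∈ Z2 (lvlLoc q) ρ)
    (h : ∀ w ∈ fixedBy σ ⊤, cup20 P a w ∈ B2 (lvlLoc q) (muLoc p q)) :
    a ∈ B2 (lvlLoc q) ρ := by
  refine mem_B2_of_top p q (injH2 p q (P.comp (⊤ : Subgroup (Gl q)).subtype) (isOpenLvl_top q)
    hP (smooth_top p q hρ) (smooth_top p q hσ) _ (top_mem_Z2 p q ha) fun w hw => ?_)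
  have h' := top_mem_B2_mu p q (h w fun g _ => hw ⟨g, trivial⟩)
  rw [topPull, pp2_cup20_comp] at h'
  exact h'

theorem eq_zero_of_cup20_loc {w : W} (hw : w ∈ fixedBy σ ⊤)
    (h : ∀ a ∈ Z2 (lvlLoc q) ρ, cup20 P a w ∈ B2 (lvlLoc q) (muLoc p q)) : w = 0 := by
  by_contra hne
  obtain ⟨a, ha, hna⟩ := surjH2 p q (P.comp (⊤ : Subgroup (Gl q)).subtype) (isOpenLvl_top q)
    hP (smooth_top p q hρ) (smooth_top p q hσ) w hne fun g => hw _ trivial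
  refine hna ?_
  have ha' := pp2_mem_Z2 (σ := ρ) (φ := (LinearMap.id : V →ₗ[ZMod p] V)) (lvlLE_fromTop q)
    (fun _ _ => rfl) ha
  have h' := top_mem_B2_mu p q (h _ ha')
  rw [topPull, pp2_cup20_comp] at h'
  exact h'

end FLTA.PT

end
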