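import Fermat.Agent.PoitouTate.LocalUnramified

/-!
# Multiplicative groups of local fields inside `ℚ̄_q`

Open subgroups `D ≤ Gl q` stand for the finite extensions of `ℚ_q`.
-/

set_option autoImplicit false

open ExtCitation

noncomputable section

namespace FLTA.PT

variable (q : Nat.Primes)

theorem loc_inertiaLoc_le (s : Gl q) (hs : s ∈ inertiaLoc q) :
    loc q s ∈ (primeLocalPlace q).inertiaSubgroupIn ℚ := by
  exact loc_mem_inertiaSubgroupIn q s hs

theorem card_fixed_quot_pow (p : ℕ) [Fact p.Prime] (D : Subgroup (Gl q))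
    (hD : IsOpenLvl (lvlLoc q) D) (hμ : ∀ s ∈ D, cycloChar p (loc q s) = 1) :
    Nat.card (fixedBy (unitsRepLoc q) D ⧸
        LinearMap.range ((p : ℤ) • (LinearMap.id :
          fixedBy (unitsRepLoc q) D →ₗ[ℤ] fixedBy (unitsRepLoc q) D)))
      = p ^ (2 + if (q : ℕ) = p then D.index else 0) := by
  exact card_fixed_quot_pow_eq p D hD hμ

/-- For a cyclic extension the norm index is the degree. -/
theorem relIndex_normsFrom (H D : Subgroup (Gl q)) (hH : IsOpenLvl (lvlLoc q) H) (hle : H ≤ D)
    [(H.subgroupOf D).Normal] [IsCyclic (D ⧸ H.subgroupOf D)] :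
    (normsFrom (unitsRepLoc q) H D).toAddSubgroup.relIndex
        (fixedBy (unitsRepLoc q) D).toAddSubgroup = H.relIndex D := by
  exact relIndex_normsFrom_eq H D hH hle

/-- Norms from an unramified extension. -/
theorem mem_normsFrom_iff_of_unramified (H D : Subgroup (Gl q))
    (hH : IsOpenLvl (lvlLoc q) H) (hle : H ≤ D)
    [(H.subgroupOf D).Normal]
    (hI : inertiaLoc q ⊓ D ≤ H) (a : Ml q) (ha : a ∈ fixedBy (unitsRepLoc q) D) :
    a ∈ normsFrom (unitsRepLoc q) H D ↔
      ∃ b ∈ fixedBy (unitsRepLoc q) D, absv q a = absv q b ^ H.relIndex D := by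
  exact mem_normsFrom_iff_of_unramified_eq H D hH hle hI a ha

/-- Every open subgroup has unramified cyclic subgroups of every index. -/
theorem exists_unramified_char (D : Subgroup (Gl q)) (hD : IsOpenLvl (lvlLoc q) D)
    (n : ℕ) [NeZero n] :
    ∃ χ : D →* Multiplicative (ZMod n), Function.Surjective χ ∧
      (∀ s : D, (s : Gl q) ∈ inertiaLoc q → χ s = 1) ∧
      IsOpenLvl ((lvlLoc q).comap D.subtype) χ.ker := by
  exact exists_unramified_char_eq D hD n

end FLTA.PT

end
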