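import Fermat.Agent.PoitouTate.Shapiro
import Fermat.Agent.PoitouTate.Inflation
import Fermat.Agent.PoitouTate.LocalUnits
import Fermat.Agent.PoitouTate.LocalDualityH1
import Fermat.Agent.PoitouTate.LocalDualitySumMap
import Fermat.Agent.PoitouTate.LocalDualityTop

/-!
# Local Tate duality over `ℚ_q` for finite `p`-modules, in the cochain form used for S55
-/

set_option autoImplicit false

open ExtCitation Module

noncomputable section

namespace FLTA.PT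

variable (p : ℕ) [Fact p.Prime] (q : Nat.Primes)

/-- `H²(Gl q, μ_p)` is one-dimensional. -/
theorem finrank_H2_muLoc (hp : p ≠ 2) :
    finrank (ZMod p) (H2c (lvlLoc q) (muLoc p q)) = 1 :=
  finrank_H2_muLoc_eq_one p q

theorem finite_H2_muLoc (hp : p ≠ 2) : Finite (H2c (lvlLoc q) (muLoc p q)) :=
  finite_H2_muLoc_line p q

variable {V W : Type} [AddCommGroup V] [Module (ZMod p) V] [AddCommGroup W] [Module (ZMod p) W]
variable [Finite V] [Finite W]
variable {ρ : Representation (ZMod p) (Gl q) V} {σ : Representation (ZMod p) (Gl q) W}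
variable (P : Pairing ((cycloChar p).comp (loc q)) ρ σ)

theorem finite_localH1 (hρ : Smooth (lvlLoc q) ρ) : Finite (H1c (lvlLoc q) ρ) := by
  exact finite_localH1' p q hρ

theorem finite_localH2 (hρ : Smooth (lvlLoc q) ρ) : Finite (H2c (lvlLoc q) ρ) := by
  exact finite_localH2' p q hρ

/-- Left nondegeneracy of `H¹ × H¹ → H²(μ_p)`. -/
theorem mem_B1_of_forall_cup11_left (hp : p ≠ 2) (hP : P.Perfect) (hρ : Smooth (lvlLoc q) ρ)
    (hσ : Smooth (lvlLoc q) σ) (a : Gl q → V) (ha : a ∈ Z1 (lvlLoc q) ρ)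
    (h : ∀ b ∈ Z1 (lvlLoc q) σ, cup11 P a b ∈ B2 (lvlLoc q) (muLoc p q)) : a ∈ B1 ρ :=
  mem_B1_of_cup11_loc p q P hP hρ hσ ha h

/-- Right nondegeneracy of `H¹ × H¹ → H²(μ_p)`. -/
theorem mem_B1_of_forall_cup11_right (hp : p ≠ 2) (hP : P.Perfect) (hρ : Smooth (lvlLoc q) ρ)
    (hσ : Smooth (lvlLoc q) σ) (b : Gl q → W) (hb : b ∈ Z1 (lvlLoc q) σ)
    (h : ∀ a ∈ Z1 (lvlLoc q) ρ, cup11 P a b ∈ B2 (lvlLoc q) (muLoc p q)) : b ∈ B1 σ :=
  mem_B1_of_cup11_loc p q P.flip hP.flip hσ hρ hb fun a ha =>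
    (cup11_flip_mem_B2_iff P ha hb).2 (h a ha)

/-- `H² → (H⁰)^*` is injective. -/
theorem mem_B2_of_forall_cup20 (hp : p ≠ 2) (hP : P.Perfect) (hρ : Smooth (lvlLoc q) ρ)
    (hσ : Smooth (lvlLoc q) σ) (a : Gl q × Gl q → V) (ha : a ∈ Z2 (lvlLoc q) ρ)
    (h : ∀ w ∈ fixedBy σ ⊤, cup20 P a w ∈ B2 (lvlLoc q) (muLoc p q)) : a ∈ B2 (lvlLoc q) ρ :=
  mem_B2_of_cup20_loc p q P hP hρ hσ ha h

/-- `H² → (H⁰)^*` is surjective: dually, `H⁰ → (H²)^*` is injective. -/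
theorem eq_zero_of_forall_cup20 (hp : p ≠ 2) (hP : P.Perfect) (hρ : Smooth (lvlLoc q) ρ)
    (hσ : Smooth (lvlLoc q) σ) (w : W) (hw : w ∈ fixedBy σ ⊤)
    (h : ∀ a ∈ Z2 (lvlLoc q) ρ, cup20 P a w ∈ B2 (lvlLoc q) (muLoc p q)) : w = 0 :=
  eq_zero_of_cup20_loc p q P hP hρ hσ hw h

omit [Finite V] [Finite W] in
/-- Dimension of local `H¹` of `μ_p` induced from `X`, when all stabilisers fix `μ_p`. -/
theorem finrank_H1_funRep_muLoc (hp : p ≠ 2) (X : Type) [MulAction (Gl q) X] [Finite X]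
    (hX : ∀ x : X, IsOpenLvl (lvlLoc q) (MulAction.stabilizer (Gl q) x))
    (hμ : ∀ (x : X) (s : Gl q), s • x = x → cycloChar p (loc q s) = 1) :
    finrank (ZMod p) (H1c (lvlLoc q) (funRep (muLoc p q) X)) =
      2 * Nat.card (Quotient (MulAction.orbitRel (Gl q) X)) +
        (if (q : ℕ) = p then Nat.card X else 0) := by
  exact finrank_H1_funRep_muLoc' p q X hX hμ

/-- The sum map `H²(Fun(X, μ_p)) → H²(μ_p)` is injective on classes supported on one orbit. -/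
theorem eq_zero_of_sumMap_eq_zero_of_support (hp : p ≠ 2) (X : Type) [MulAction (Gl q) X]
    [Fintype X] (hX : ∀ x : X, IsOpenLvl (lvlLoc q) (MulAction.stabilizer (Gl q) x)) (x : X)
    (c : H2c (lvlLoc q) (funRep (muLoc p q) X))
    (hsupp : ∀ y, y ∉ MulAction.orbit (Gl q) x → eval2 (muLoc p q) (lvlLoc q) y c = 0)
    (hsum : coeff2 (lvlLoc q) (funRep (muLoc p q) X) (equivariant_sumMap (muLoc p q) X) c = 0) :
    c = 0 := by
  exact SumMap.eq_zero_of_sum p q hX x c hsupp hsum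

/-- A class of `H²(D, μ_p)` dies on every subgroup of index divisible by `p`. -/
theorem res2_muLoc_eq_zero (hp : p ≠ 2) (H D : Subgroup (Gl q))
    (hH : IsOpenLvl (lvlLoc q) H) (hle : H ≤ D) (hdvd : p ∣ H.relIndex D)
    (z : H2c ((lvlLoc q).comap D.subtype) ((muLoc p q).comp D.subtype)) :
    res2 ((lvlLoc q).comap D.subtype) ((muLoc p q).comp D.subtype) (H.subgroupOf D).subtype z = 0 := by
  obtain ⟨⟨z, hz⟩, rfl⟩ := Submodule.mkQ_surjective _ z
  rw [res2, map2_mk, H2cπ_eq_zero]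
  exact SumMap.res_mem_B2 p q hH hle hdvd hz

end FLTA.PT

end
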