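import Fermat.Agent.PoitouTate.Places
import Fermat.Agent.Galois.Cyclotomic

/-!
# A cyclotomic layer of degree `p` which is non-split at every place over `S`
-/

set_option autoImplicit false

open ExtCitation

noncomputable section

namespace FLTA.PT.GC

variable (p : ℕ) [Fact p.Prime]

/-- The automorphisms fixing the `p^n`-th roots of unity. -/
def cycLvl (n : ℕ) : Subgroup GQ where
  carrier := {s | ∀ ζ : Qb, ζ ^ p ^ n = 1 → s ζ = ζ}
  one_mem' _ _ := rfl
  mul_mem' {a b} ha hb ζ hζ := by rw [AlgEquiv.mul_apply, hb ζ hζ, ha ζ hζ]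
  inv_mem' {a} ha ζ hζ := by
    have h := ha ζ hζ
    exact (congrArg (⇑a⁻¹) h).symm.trans (a.symm_apply_apply ζ)

variable {p}

theorem mem_cycLvl {n : ℕ} {s : GQ} :
    s ∈ cycLvl p n ↔ ∀ ζ : Qb, ζ ^ p ^ n = 1 → s ζ = ζ := Iff.rfl

instance cycLvl_normal (n : ℕ) : (cycLvl p n).Normal :=
  ⟨fun s hs g ζ hζ => by
    rw [AlgEquiv.mul_apply, AlgEquiv.mul_apply, hs (g⁻¹ ζ) (by rw [← map_pow, hζ, map_one])]
    exact g.apply_symm_apply ζ⟩

theorem cycLvl_antitone {m n : ℕ} (h : m ≤ n) : cycLvl p n ≤ cycLvl p m := fun s hs ζ hζ => by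
  refine hs ζ ?_
  obtain ⟨c, rfl⟩ := Nat.exists_eq_add_of_le h
  rw [pow_add, pow_mul, hζ, one_pow]

theorem cycLvl_mem_lvlS (S : Finset Nat.Primes) (hpS : pPrime p ∈ S) (n : ℕ) :
    cycLvl p n ∈ lvlS S := by
  have hp : p.Prime := Fact.out
  refine ⟨inferInstance, IntermediateField.adjoin ℚ {x : Qb | x ^ p ^ n = 1}, ⟨?_, ?_⟩, ?_⟩
  · have hfin : {x : Qb | x ^ p ^ n = 1}.Finite := by
      refine (Polynomial.nthRootsFinset (p ^ n) (1 : Qb)).finite_toSet.subset fun x hx => ?_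
      rw [Finset.mem_coe, Polynomial.mem_nthRootsFinset (pow_pos hp.pos n)]
      exact hx
    haveI := hfin.to_subtype
    exact IntermediateField.finiteDimensional_adjoin fun x _ =>
      (AlgebraicClosure.isAlgebraic ℚ).isAlgebraic x |>.isIntegral
  · intro q hq A hA σ hσ
    have hqp : ¬ (q : ℕ) ∣ p ^ n := fun h => hq (by
      have := (Nat.prime_dvd_prime_iff_eq q.2 hp).1 (q.2.dvd_of_dvd_pow h)
      rwa [show q = pPrime p from Subtype.ext this])
    have hle : IntermediateField.adjoin ℚ {x : Qb | x ^ p ^ n = 1} ≤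
        IntermediateField.fixedField (Subgroup.zpowers σ) := by
      rw [IntermediateField.adjoin_le_iff]
      intro x hx g
      have h1 : σ ∈ MulAction.stabilizer GQ x :=
        FLTA.Galois.inertia_apply_rootOfUnity q.2 hA hσ hqp hx
      exact Subgroup.zpowers_le.2 h1 g.2
    rw [IntermediateField.mem_fixingSubgroup_iff]
    exact fun x hx => (hle hx ⟨σ, Subgroup.mem_zpowers σ⟩)
  · intro s hs ζ hζ
    exact (IntermediateField.mem_fixingSubgroup_iff _ _).1 hs ζ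
      (IntermediateField.subset_adjoin ℚ _ hζ)

theorem cycloChar_eq_one {s : GQ} (hs : s ∈ cycLvl p 1) : cycloChar p s = 1 := by
  haveI : NeZero p := ⟨(Fact.out : p.Prime).ne_zero⟩
  refine Units.ext (modularCyclotomicCharacter.unique Qb _ (s : Qb ≃+* Qb) fun t ht => ?_).symm
  have h1 : (t : Qb) ^ p = 1 := by rw [← Units.val_pow_eq_pow_val, ht, Units.val_one]
  rw [Units.val_one, ZMod.val_one_eq_one_mod, ← pow_eq_pow_mod 1 h1, pow_one]
  exact hs _ (by rwa [pow_one])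

theorem exists_primitive (n : ℕ) : ∃ ζ : Qb, IsPrimitiveRoot ζ (p ^ n) := by
  haveI : NeZero (p ^ n) := ⟨(pow_pos (Fact.out : p.Prime).pos n).ne'⟩
  haveI : NeZero ((p ^ n : ℕ) : Qb) := ⟨Nat.cast_ne_zero.mpr (NeZero.ne _)⟩
  exact HasEnoughRootsOfUnity.exists_primitiveRoot Qb (p ^ n)

theorem mem_cycLvl_iff {n : ℕ} {ζ : Qb} (hζ : IsPrimitiveRoot ζ (p ^ n)) {s : GQ} :
    s ∈ cycLvl p n ↔ s ζ = ζ := by
  haveI : NeZero (p ^ n) := ⟨(pow_pos (Fact.out : p.Prime).pos n).ne'⟩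
  refine ⟨fun h => h ζ hζ.pow_eq_one, fun h x hx => ?_⟩
  obtain ⟨i, -, rfl⟩ := hζ.eq_pow_of_pow_eq_one hx
  rw [map_pow, h]

/-- Raising to the `p`-th power moves down exactly one step in the cyclotomic filtration. -/
theorem pow_mem_cycLvl_succ (hp2 : p ≠ 2) {j : ℕ} (hj : 1 ≤ j) {s : GQ} (hs : s ∈ cycLvl p j)
    (hs' : s ∉ cycLvl p (j + 1)) : s ^ p ∈ cycLvl p (j + 1) ∧ s ^ p ∉ cycLvl p (j + 2) := by
  have hp : p.Prime := Fact.out
  obtain ⟨ζ, hζ⟩ := exists_primitive (p := p) (j + 2)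
  have hζ1 : IsPrimitiveRoot (ζ ^ p) (p ^ (j + 1)) :=
    hζ.pow (pow_pos hp.pos _) (by rw [← pow_succ'])
  have hζ0 : ζ ≠ 0 := hζ.ne_zero (pow_pos hp.pos _).ne'
  rw [mem_cycLvl_iff hζ1] at hs' ⊢
  rw [mem_cycLvl_iff hζ]
  set u : Qb := s ζ / ζ with hu
  set v : Qb := s u / u with hv
  have hsζ : s ζ = ζ * u := by rw [hu]; field_simp
  have hζpp : s (ζ ^ (p * p)) = ζ ^ (p * p) := by
    refine hs _ ?_
    rw [← pow_mul, ← sq, ← pow_add, add_comm, hζ.pow_eq_one]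
  have hupp : u ^ (p * p) = 1 := by
    rw [hu, div_pow, ← map_pow, hζpp, div_self (pow_ne_zero _ hζ0)]
  have hu0 : u ≠ 0 := fun h => by
    rw [h, zero_pow (mul_ne_zero hp.ne_zero hp.ne_zero)] at hupp
    exact zero_ne_one hupp
  have hup : s (u ^ p) = u ^ p := by
    refine cycLvl_antitone hj hs _ ?_
    rw [pow_one, ← pow_mul, hupp]
  have hvp : v ^ p = 1 := by
    rw [hv, div_pow, ← map_pow, hup, div_self (pow_ne_zero _ hu0)]
  have hsv : s v = v := cycLvl_antitone hj hs _ (by rwa [pow_one])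
  have hsu : s u = u * v := by rw [hv]; field_simp
  have key : ∀ k : ℕ, (s ^ k) ζ = ζ * u ^ k * v ^ k.choose 2 := by
    intro k
    induction k with
    | zero => simp
    | succ k ih =>
      rw [pow_succ', AlgEquiv.mul_apply, ih, map_mul, map_mul, map_pow, map_pow, hsζ, hsu, hsv,
        Nat.choose_succ_succ, Nat.choose_one_right]
      ring
  have hpk : (s ^ p) ζ = ζ * u ^ p := by
    obtain ⟨c, hc⟩ : p ∣ p.choose 2 :=
      hp.dvd_choose_self two_ne_zero (lt_of_le_of_ne hp.two_le (Ne.symm hp2))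
    rw [key, hc, pow_mul, hvp, one_pow, mul_one]
  have hne : u ^ p ≠ 1 := fun h => hs' (by rw [map_pow, hsζ, mul_pow, h, mul_one])
  refine ⟨?_, fun h => hne ?_⟩
  · rw [map_pow, hpk, mul_pow, ← pow_mul, hupp, mul_one]
  · rw [hpk] at h
    exact (mul_eq_left₀ hζ0).1 h

theorem pow_pow_mem_cycLvl (hp2 : p ≠ 2) {a : ℕ} (ha : 1 ≤ a) {s : GQ} (hs : s ∈ cycLvl p a)
    (hs' : s ∉ cycLvl p (a + 1)) (d : ℕ) :
    s ^ p ^ d ∈ cycLvl p (a + d) ∧ s ^ p ^ d ∉ cycLvl p (a + d + 1) := by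
  induction d with
  | zero => simpa using ⟨hs, hs'⟩
  | succ d ih =>
    rw [pow_succ, pow_mul]
    exact pow_mem_cycLvl_succ hp2 (le_add_right ha) ih.1 ih.2

section local_roots

variable (q : Nat.Primes)

theorem norm_pow_sub_one_le {K : Type*} [NormedField K] [IsUltrametricDist K] {x : K}
    (hx : ‖x‖ ≤ 1) : ∀ k : ℕ, ‖x ^ k - 1‖ ≤ ‖x - 1‖
  | 0 => by simp
  | k + 1 => by
    have h : x ^ (k + 1) - 1 = x * (x ^ k - 1) + (x - 1) := by ring
    rw [h]
    refine (IsUltrametricDist.norm_add_le_max _ _).trans (max_le ?_ le_rfl)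
    rw [norm_mul]
    exact (mul_le_of_le_one_left (norm_nonneg _) hx).trans (norm_pow_sub_one_le hx k)

/-- A finite extension of a locally compact field does not contain all `p`-power roots of unity. -/
theorem no_all_roots {𝕜 K : Type*} [NontriviallyNormedField 𝕜] [ProperSpace 𝕜] [NormedField K]
    [NormedAlgebra 𝕜 K] [IsUltrametricDist K] (E : IntermediateField 𝕜 K) [FiniteDimensional 𝕜 E]
    (ι : Qb →+* K) (hroot : ∀ (n : ℕ) (ζ : Qb), ζ ^ p ^ n = 1 → ι ζ ∈ E) : False := by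
  have hp : p.Prime := Fact.out
  haveI : ProperSpace E := FiniteDimensional.proper 𝕜 E
  obtain ⟨ζ, hζ⟩ : ∃ ζ : ℕ → Qb, ∀ n, IsPrimitiveRoot (ζ n) (p ^ n) :=
    ⟨fun n => (exists_primitive n).choose, fun n => (exists_primitive n).choose_spec⟩
  let x : ℕ → E := fun n => ⟨ι (ζ n), hroot n _ (hζ n).pow_eq_one⟩
  obtain ⟨ω, hω⟩ := exists_primitive (p := p) 1
  rw [pow_one] at hω
  let δ : ℝ := ‖ι ω - 1‖
  have hδ : 0 < δ := by
    rw [norm_pos_iff, sub_ne_zero]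
    intro h
    exact hω.ne_one hp.one_lt ((ι).injective (h.trans (map_one _).symm))
  have hnorm : ∀ (n : ℕ) (z : Qb), z ^ p ^ n = 1 → ‖ι z‖ = 1 := fun n z hz => by
    refine (pow_eq_one_iff_of_nonneg (norm_nonneg _) (pow_pos hp.pos n).ne').1 ?_
    rw [← norm_pow, ← map_pow, hz, map_one, norm_one]
  have hsep : ∀ m n, m < n → δ ≤ ‖x n - x m‖ := by
    intro m n hmn
    set z : Qb := ζ n / ζ m
    have hm0 : ζ m ≠ 0 := (hζ m).ne_zero (pow_pos hp.pos m).ne'
    have hzp : z ^ p ^ n = 1 := by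
      obtain ⟨c, rfl⟩ := Nat.exists_eq_add_of_le hmn.le
      rw [div_pow, (hζ _).pow_eq_one, pow_add, pow_mul, (hζ m).pow_eq_one, one_pow, div_one]
    have hz1 : z ≠ 1 := fun h => by
      have hnm : ζ n = ζ m := (div_eq_one_iff_eq hm0).1 h
      have := (hζ n).dvd_of_pow_eq_one (p ^ m) (by rw [hnm, (hζ m).pow_eq_one])
      exact absurd (Nat.le_of_dvd (pow_pos hp.pos m) this)
        (not_le.2 (Nat.pow_lt_pow_right hp.one_lt hmn))
    haveI : NeZero p := ⟨hp.ne_zero⟩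
    obtain ⟨k, hk⟩ : ∃ k, z ^ k = ω := by
      classical
      have hfin : IsOfFinOrder z := isOfFinOrder_iff_pow_eq_one.2 ⟨p ^ n, pow_pos hp.pos n, hzp⟩
      obtain ⟨t, -, ht⟩ := (Nat.dvd_prime_pow hp).1 (orderOf_dvd_of_pow_eq_one hzp)
      cases t with
      | zero => exact absurd (orderOf_eq_one_iff.1 (by simpa using ht)) hz1
      | succ t =>
        have hord : IsPrimitiveRoot (z ^ p ^ t) p :=
          (IsPrimitiveRoot.orderOf z).pow (by rw [ht]; exact pow_pos hp.pos _)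
            (by rw [ht, pow_succ])
        obtain ⟨i, -, hi⟩ := hord.eq_pow_of_pow_eq_one hω.pow_eq_one
        exact ⟨p ^ t * i, by rw [pow_mul, hi]⟩
    have h1 : ‖x n - x m‖ = ‖ι z - 1‖ := by
      show ‖ι (ζ n) - ι (ζ m)‖ = _
      have : ι (ζ n) = ι z * ι (ζ m) := by
        rw [← map_mul, div_mul_cancel₀ _ hm0]
      rw [this, ← sub_one_mul, norm_mul, hnorm m _ (hζ m).pow_eq_one, mul_one]
    rw [h1]
    calc δ = ‖ι z ^ k - 1‖ := by rw [← map_pow, hk]
      _ ≤ _ := norm_pow_sub_one_le (hnorm n z hzp).le k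
  have hball : ∀ n, x n ∈ Metric.closedBall (0 : E) 1 := fun n => by
    rw [Metric.mem_closedBall, dist_zero_right]
    exact (hnorm n _ (hζ n).pow_eq_one).le
  obtain ⟨a, -, φ, hφ, hlim⟩ := (isCompact_closedBall (0 : E) 1).tendsto_subseq hball
  obtain ⟨N, hN⟩ := Metric.cauchySeq_iff.1 hlim.cauchySeq δ hδ
  have := hN (N + 1) (Nat.le_succ N) N le_rfl
  rw [dist_eq_norm] at this
  exact absurd this (not_lt.2 (hsep _ _ (hφ (Nat.lt_succ_self N))))

/-- The `p`-power cyclotomic extensions of a local field are not all trivial. -/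
theorem exists_mem_not_mem_cycLvl (V : Subgroup GQ) (hV : V ∈ lvlQ) :
    ∃ τ : Gl q, loc q τ ∈ V ∧ ∃ n, loc q τ ∉ cycLvl p n := by
  haveI : Fact (q : ℕ).Prime := ⟨q.2⟩
  have hp : p.Prime := Fact.out
  by_contra hcon
  push Not at hcon
  obtain ⟨-, F, hF, hFV⟩ := hV
  haveI := hF
  let b := Module.finBasis ℚ F
  let T : Set (Ql q) := Set.range fun i => iota q (b i : Qb)
  let E : IntermediateField ℚ_[(q : ℕ)] (Ql q) := IntermediateField.adjoin ℚ_[(q : ℕ)] T
  haveI : FiniteDimensional ℚ_[(q : ℕ)] E := by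
    haveI : Finite T := (Set.finite_range _).to_subtype
    exact IntermediateField.finiteDimensional_adjoin fun x _ =>
      (PadicAlgCl.isAlgebraic (q : ℕ)).isAlgebraic x |>.isIntegral
  haveI : IsGalois ℚ_[(q : ℕ)] (Ql q) := by
    haveI : IsAlgClosure ℚ_[(q : ℕ)] (Ql q) := ⟨inferInstance, inferInstance⟩
    exact IsAlgClosure.isGalois ℚ_[(q : ℕ)] (Ql q)
  have hroot : ∀ (n : ℕ) (ζ : Qb), ζ ^ p ^ n = 1 → iota q ζ ∈ E := by
    intro n ζ hζ
    rw [← InfiniteGalois.fixedField_fixingSubgroup E]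
    rintro ⟨σ, hσ⟩
    let τ : Gl q := σ
    have hτ : locAut q τ = σ := rfl
    have hmem : loc q τ ∈ F.fixingSubgroup := by
      rw [IntermediateField.mem_fixingSubgroup_iff]
      have hb : ∀ i, loc q τ (b i : Qb) = b i := fun i => by
        apply (iota q).injective
        rw [iota_loc, hτ]
        exact (IntermediateField.mem_fixingSubgroup_iff _ _).1 hσ _
          (IntermediateField.subset_adjoin _ _ ⟨i, rfl⟩)
      have h : (loc q τ).toLinearMap ∘ₗ F.val.toLinearMap = F.val.toLinearMap := b.ext hb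
      exact fun x hx => LinearMap.congr_fun h ⟨x, hx⟩
    have h := hcon τ (hFV hmem) n ζ hζ
    show σ (iota q ζ) = iota q ζ
    rw [← hτ, ← iota_loc, h]
  exact no_all_roots (p := p) E (iota q) hroot

end local_roots

/-- A layer of degree `p` over a small enough level, non-split at every place over `S`. -/
structure Layer (p : ℕ) [Fact p.Prime] (S : Finset Nat.Primes) (U : Subgroup GQ) where
  G₀ : Subgroup GQ
  G₁ : Subgroup GQ
  mem₀ : G₀ ∈ lvlS S
  mem₁ : G₁ ∈ lvlS S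
  le₁ : G₁ ≤ G₀
  le₀ : G₀ ≤ U
  cyclo : ∀ s ∈ G₀, cycloChar p s = 1
  χ : G₀ →* Multiplicative (ZMod p)
  surjective : Function.Surjective χ
  ker_eq : χ.ker = G₁.subgroupOf G₀
  nonsplit : ∀ q ∈ S, ∀ g : GQ, stabLoc q G₁ g ≠ stabLoc q G₀ g

theorem Layer.relIndex_eq {S : Finset Nat.Primes} {U : Subgroup GQ} (D : Layer p S U) :
    D.G₁.relIndex D.G₀ = p := by
  rw [Subgroup.relIndex, ← D.ker_eq, Subgroup.index_ker,
    MonoidHom.range_eq_top.2 D.surjective, Nat.card_congr (Subgroup.topEquiv.toEquiv),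
    Nat.card_congr Multiplicative.toAdd, Nat.card_zmod]

theorem nonempty_layer (hp2 : p ≠ 2) (S : Finset Nat.Primes) (hpS : pPrime p ∈ S)
    (U : Subgroup GQ) (hU : U ∈ lvlS S) : Nonempty (Layer p S U) := by
  have hp : p.Prime := Fact.out
  haveI : NeZero p := ⟨hp.ne_zero⟩
  set V : Subgroup GQ := U ⊓ cycLvl p 1
  have hV : V ∈ lvlS S := (lvlS S).inf_mem _ hU _ (cycLvl_mem_lvlS S hpS 1)
  have hVQ : V ∈ lvlQ := by
    have h := lvlS_le_lvlQ S V hV
    rwa [Subgroup.comap_id] at h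
  have hone : ∀ q : Nat.Primes, ∃ (τ : Gl q) (a : ℕ), 1 ≤ a ∧ loc q τ ∈ V ∧
      loc q τ ∈ cycLvl p a ∧ loc q τ ∉ cycLvl p (a + 1) := fun q => by
    obtain ⟨τ, hτ, n, hn⟩ := exists_mem_not_mem_cycLvl (p := p) q V hVQ
    classical
    have hex : ∃ n, loc q τ ∉ cycLvl p n := ⟨n, hn⟩
    set m := Nat.find hex with hm
    have h1 : 1 < m := by
      by_contra hle
      exact Nat.find_spec hex (cycLvl_antitone (Nat.not_lt.1 hle) hτ.2)
    refine ⟨τ, m - 1, by omega, hτ, not_not.1 (Nat.find_min hex (by omega)), ?_⟩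
    rw [Nat.sub_add_cancel h1.le]
    exact Nat.find_spec hex
  choose τ a ha hτV hτa hτa' using hone
  set j := S.sup a
  have hj1 : 1 ≤ j := (ha (pPrime p)).trans (Finset.le_sup hpS)
  have hmoved : ∀ q ∈ S, ∃ t : Gl q, loc q t ∈ V ⊓ cycLvl p j ∧
      loc q t ∉ cycLvl p (j + 1) := fun q hq => by
    have hle : a q ≤ j := Finset.le_sup hq
    obtain ⟨h1, h2⟩ := pow_pow_mem_cycLvl hp2 (ha q) (hτa q) (hτa' q) (j - a q)
    rw [Nat.add_sub_cancel' hle] at h1 h2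
    exact ⟨τ q ^ p ^ (j - a q), by rw [map_pow]; exact ⟨V.pow_mem (hτV q) _, h1⟩,
      by rw [map_pow]; exact h2⟩
  set G₀ : Subgroup GQ := V ⊓ cycLvl p j with hG₀
  set G₁ : Subgroup GQ := V ⊓ cycLvl p (j + 1) with hG₁
  have hle : G₁ ≤ G₀ := inf_le_inf_left V (cycLvl_antitone (Nat.le_succ j))
  have hm₀ : G₀ ∈ lvlS S := (lvlS S).inf_mem _ hV _ (cycLvl_mem_lvlS S hpS j)
  have hm₁ : G₁ ∈ lvlS S := (lvlS S).inf_mem _ hV _ (cycLvl_mem_lvlS S hpS (j + 1))
  obtain ⟨ζ, hζ⟩ := exists_primitive (p := p) (j + 1)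
  have hζ0 : ζ ≠ 0 := hζ.ne_zero (pow_pos hp.pos _).ne'
  have hpow : ∀ s ∈ G₀, (s ζ / ζ) ^ p = 1 := fun s hs => by
    rw [div_pow, ← map_pow, hs.2 _ (by rw [← pow_mul, ← pow_succ', hζ.pow_eq_one]),
      div_self (pow_ne_zero _ hζ0)]
  have hfix : ∀ s ∈ G₀, ∀ t ∈ G₀, s (t ζ / ζ) = t ζ / ζ := fun s hs t ht =>
    cycLvl_antitone hj1 hs.2 _ (by rw [pow_one]; exact hpow t ht)
  let ψ : G₀ →* rootsOfUnity p Qb := MonoidHom.mk'
    (fun s => rootsOfUnity.mkOfPowEq _ (hpow s.1 s.2))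
    (fun s t => by
      apply Subtype.ext
      apply Units.ext
      show (s.1 * t.1) ζ / ζ = s.1 ζ / ζ * (t.1 ζ / ζ)
      rw [AlgEquiv.mul_apply]
      have := hfix _ s.2 _ t.2
      rw [map_div₀, div_eq_iff (by simpa using hζ0)] at this
      rw [this]
      field_simp)
  have hker : ψ.ker = G₁.subgroupOf G₀ := by
    ext s
    rw [MonoidHom.mem_ker, Subgroup.mem_subgroupOf]
    constructor
    · intro h
      refine ⟨s.2.1, (mem_cycLvl_iff hζ).2 ?_⟩
      have : s.1 ζ / ζ = 1 := congrArg (fun z : rootsOfUnity p Qb => ((z : Qbˣ) : Qb)) h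
      rwa [div_eq_one_iff_eq hζ0] at this
    · intro h
      apply Subtype.ext
      apply Units.ext
      show s.1 ζ / ζ = 1
      rw [(mem_cycLvl_iff hζ).1 h.2, div_self hζ0]
  obtain ⟨t, ht, ht'⟩ := hmoved _ hpS
  have hcard : Nat.card (rootsOfUnity p Qb) = p := card_rootsOfUnity_eq_self p
  have hsurj : Function.Surjective ψ := by
    haveI : Fact (Nat.card (rootsOfUnity p Qb)).Prime := ⟨by rw [hcard]; exact hp⟩
    rcases ψ.range.eq_bot_or_eq_top_of_prime_card with h | h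
    · exfalso
      have : (⟨_, ht⟩ : G₀) ∈ ψ.ker := by rw [MonoidHom.range_eq_bot_iff.1 h]; trivial
      rw [hker, Subgroup.mem_subgroupOf] at this
      exact ht' this.2
    · exact MonoidHom.range_eq_top.1 h
  let e : rootsOfUnity p Qb ≃* Multiplicative (ZMod p) :=
    mulEquivOfPrimeCardEq (p := p) hcard (by rw [Nat.card_congr Multiplicative.toAdd, Nat.card_zmod])
  refine ⟨⟨G₀, G₁, hm₀, hm₁, hle, inf_le_left.trans inf_le_left,
    fun s hs => cycloChar_eq_one hs.1.2, e.toMonoidHom.comp ψ, e.surjective.comp hsurj,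
    ?_, fun q hq g h => ?_⟩⟩
  · rw [← hker]; ext s; simp
  · obtain ⟨t, ht, ht'⟩ := hmoved q hq
    have hn₀ : G₀.Normal := (lvlS S).normal_of_mem _ hm₀
    have hn₁ : G₁.Normal := (lvlS S).normal_of_mem _ hm₁
    have h1 : t ∈ stabLoc q G₀ g := mem_stabLoc.2 (hn₀.conj_mem' _ ht g)
    rw [← h, mem_stabLoc] at h1
    have := hn₁.conj_mem _ h1 g
    rw [show g * (g⁻¹ * loc q t * g) * g⁻¹ = loc q t by group] at this
    exact ht' this.2

end FLTA.PT.GC

end
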