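import Fermat.Agent.PoitouTate.InducedRep
import Fermat.Agent.PoitouTate.GlobalClassesLevel

/-!
# Reduction of the injectivity of `θ` to permutation modules
-/

set_option autoImplicit false
set_option linter.unusedSectionVars false
set_option linter.style.haveILetI false

open ExtCitation

noncomputable section

namespace FLTA.PT

variable {p : ℕ} [Fact p.Prime] {S : Finset Nat.Primes}

theorem detects_of_subsingleton {V W : Type} [AddCommGroup V] [Module (ZMod p) V] [AddCommGroup W]
    [Module (ZMod p) W] {ρ : Representation (ZMod p) GQ V} {σ : Representation (ZMod p) GQ W}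
    [Subsingleton V] (P : Pairing (cycloChar p) ρ σ) (I : InvSystem p S) : Detects P I :=
  fun _ _ _ => ⟨0, ⟨⊤, (lvlS S).top_mem, fun _ _ _ => rfl⟩, Subsingleton.elim _ _,
    fun _ => ⟨0, Subsingleton.elim _ _⟩⟩

/-- A quotient killed by `U` of a subgroup whose image modulo `U` is a `p`-group has fixed
vectors. -/
theorem exists_fixed_ne_zero_of_subgroup {G₀ U : Subgroup GQ}
    (hpow : ∀ g : G₀, ∃ k : ℕ, (g : GQ) ^ p ^ k ∈ U) {A : Type} [AddCommGroup A]
    [Module (ZMod p) A] [Finite A] [Nontrivial A] (τ : Representation (ZMod p) G₀ A)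
    (hτ : ∀ h : G₀, (h : GQ) ∈ U → τ h = 1) : ∃ v : A, v ≠ 0 ∧ ∀ h, τ h v = v := by
  let R := (τ.asGroupHom).range
  have hP : IsPGroup p R := by
    rintro ⟨_, g, rfl⟩
    obtain ⟨k, hk⟩ := hpow g
    refine ⟨k, Subtype.ext ?_⟩
    rw [SubgroupClass.coe_pow, ← map_pow]
    exact Units.ext (hτ (g ^ p ^ k) (by rwa [SubgroupClass.coe_pow]))
  letI : MulAction R A :=
    { smul := fun r v => ((r : (A →ₗ[ZMod p] A)ˣ) : A →ₗ[ZMod p] A) v
      one_smul := fun v => rfl
      mul_smul := fun r r' v => rfl }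
  have hdvd : p ∣ Nat.card A := by
    rw [Module.natCard_eq_pow_finrank (K := ZMod p), Nat.card_zmod]
    exact dvd_pow_self p Module.finrank_pos.ne'
  have h0 : (0 : A) ∈ MulAction.fixedPoints R A := fun r => map_zero _
  obtain ⟨v, hv, hne⟩ := hP.exists_fixed_point_of_prime_dvd_card_of_fixed_point A hdvd h0
  exact ⟨v, hne.symm, fun h => hv ⟨τ.asGroupHom h, h, rfl⟩⟩

section devissage

variable {G₀ U : Subgroup GQ} [Fintype (GQ ⧸ G₀)] (I : InvSystem p S) (hp : p ≠ 2)
  (hU : U ∈ lvlS S) (hle : U ≤ G₀) (hμ : ∀ s ∈ G₀, cycloChar p s = 1)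
  (hpow : ∀ g : G₀, ∃ k : ℕ, (g : GQ) ^ p ^ k ∈ U) (hperm : PermDetects I)

/-- The multiplication pairing on the trivial line. -/
def linePairing : Pairing ((cycloChar p).comp G₀.subtype)
    (1 : Representation (ZMod p) G₀ (ZMod p)) (1 : Representation (ZMod p) G₀ (ZMod p)) where
  e := LinearMap.mul (ZMod p) (ZMod p)
  equivariant h v w := by
    rw [MonoidHom.comp_apply, Subgroup.coe_subtype, hμ _ h.2, Units.val_one, one_mul]
    rfl

include hU hle hperm in
theorem detects_linePairing : Detects (indPairing hμ (linePairing (p := p) hμ)) I := by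
  let χ : GQ ⧸ G₀ → (ZMod p)ˣ := fun x => cycloChar p x.out
  let φ : (GQ ⧸ G₀ → ZMod p) ≃ₗ[ZMod p] (GQ ⧸ G₀ → ZMod p) :=
    LinearEquiv.piCongrRight fun x => LinearEquiv.smulOfUnit (χ x)
  let ψ : (GQ ⧸ G₀ → ZMod p) →ₗ[ZMod p] (GQ ⧸ G₀ → ZMod p) :=
    LinearMap.pi fun x => (((χ x)⁻¹ : (ZMod p)ˣ) : ZMod p) • LinearMap.proj x
  have hφa : ∀ F x, φ F x = (χ x : ZMod p) * F x := fun F x => rfl
  have hψa : ∀ F x, ψ F x = (((χ x)⁻¹ : (ZMod p)ˣ) : ZMod p) * F x := fun F x => rfl
  have hχ : ∀ g x, χ x = cycloChar p g * χ (g⁻¹ • x) := fun g x => by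
    obtain ⟨h, hh, e⟩ := exists_out_eq_mul_smul_out G₀ g x
    show cycloChar p x.out = cycloChar p g * cycloChar p (g⁻¹ • x).out
    rw [e, map_mul, map_mul, hμ h hh, mul_one]
  refine (hperm G₀ ⟨U, hU, hle⟩ hμ).of_equiv φ ψ (fun g F => funext fun x => ?_)
    (fun g F => funext fun x => ?_) fun v w => ?_
  · show φ (indRep 1 g F) x = muRep p g (φ F (g⁻¹ • x))
    rw [hφa, hφa, hχ g x, charRep_apply, Units.val_mul, mul_assoc]
    rfl
  · show ψ (funRep (muRep p) (GQ ⧸ G₀) g F) x = ψ F (g⁻¹ • x)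
    rw [hψa, hψa, hχ g x, funRep_apply, charRep_apply, mul_inv, Units.val_mul,
      mul_comm ((((cycloChar p g)⁻¹ : (ZMod p)ˣ) : ZMod p)), mul_assoc,
      Units.inv_mul_cancel_left]
  · rw [permPairing_apply, indPairing_apply]
    refine Finset.sum_congr rfl fun x _ => ?_
    rw [hψa, hφa]
    show ((χ x)⁻¹ : (ZMod p)ˣ).1 * ((χ x : ZMod p) * v x * w x) =
      (χ x : ZMod p) * (v x * (((χ x)⁻¹ : (ZMod p)ˣ).1 * w x))
    ring

include hp hU hle hpow hperm in
theorem detects_indPairing_aux : ∀ (n : ℕ) (A B : Type) [AddCommGroup A] [Module (ZMod p) A]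
    [AddCommGroup B] [Module (ZMod p) B] [Finite A] [Finite B]
    (τ : Representation (ZMod p) G₀ A) (τ' : Representation (ZMod p) G₀ B),
    (∀ h : G₀, (h : GQ) ∈ U → τ h = 1) → (∀ h : G₀, (h : GQ) ∈ U → τ' h = 1) →
    ∀ Q : Pairing ((cycloChar p).comp G₀.subtype) τ τ', Q.Perfect →
      Nat.card A + Nat.card B = n → Detects (indPairing hμ Q) I := by
  intro n
  induction n using Nat.strong_induction_on with | _ n ih => ?_
  intro A B _ _ _ _ _ _ τ τ' hτ hτ' Q hQ hn
  rcases subsingleton_or_nontrivial A with hA | hA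
  · exact detects_of_subsingleton _ _
  obtain ⟨v, hv0, hv⟩ := exists_fixed_ne_zero_of_subgroup hpow τ hτ
  let L : Submodule (ZMod p) A := Submodule.span (ZMod p) {v}
  have hvL : ∀ h : G₀, ∀ a ∈ L, τ h a = a := fun h a ha => by
    obtain ⟨c, rfl⟩ := Submodule.mem_span_singleton.1 ha
    rw [map_smul, hv]
  let τq : Representation (ZMod p) G₀ (A ⧸ L) :=
    { toFun := fun h => L.mapQ L (τ h) fun a ha => by
        show τ h a ∈ L
        rwa [hvL h a ha]
      map_one' := Submodule.linearMap_qext _ (LinearMap.ext fun a => by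
        simp)
      map_mul' := fun h h' => Submodule.linearMap_qext _ (LinearMap.ext fun a => by
        simp) }
  let K : Submodule (ZMod p) B := LinearMap.ker (Q.e v)
  have hQv : ∀ h b, Q.e v (τ' h b) = Q.e v b := fun h b => by
    conv_lhs => rw [← hv h]
    rw [Q.equivariant, MonoidHom.comp_apply, Subgroup.coe_subtype, hμ _ h.2, Units.val_one,
      one_mul]
  let τk : Representation (ZMod p) G₀ K :=
    { toFun := fun h => (τ' h).restrict fun b (hb : Q.e v b = 0) =>
        show Q.e v (τ' h b) = 0 from (hQv h b).trans hb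
      map_one' := LinearMap.ext fun b => Subtype.ext (LinearMap.congr_fun (map_one τ') b.1)
      map_mul' := fun h h' => LinearMap.ext fun b => Subtype.ext (LinearMap.congr_fun (map_mul τ' h h') b.1) }
  let Qe : (A ⧸ L) →ₗ[ZMod p] K →ₗ[ZMod p] ZMod p :=
    L.liftQ (Q.e.compl₂ K.subtype) fun a ha => by
      obtain ⟨c, rfl⟩ := Submodule.mem_span_singleton.1 ha
      rw [LinearMap.mem_ker]
      refine LinearMap.ext fun b => ?_
      have hb : Q.e v b.1 = 0 := b.2
      simp [hb]
  let Q' : Pairing ((cycloChar p).comp G₀.subtype) τq τk :=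
    ⟨Qe, fun h a b => by
      obtain ⟨a, rfl⟩ := L.mkQ_surjective a
      exact Q.equivariant h a b.1⟩
  have hQv0 : Q.e v ≠ 0 := fun h => hv0 (hQ.1.1 (h.trans (map_zero _).symm))
  have hQvs : Function.Surjective (Q.e v) := LinearMap.surjective hQv0
  haveI : Finite (A ⧸ L) := Finite.of_surjective _ L.mkQ_surjective
  have h1 : Function.Injective Q'.e := (injective_iff_map_eq_zero _).2 fun a ha => by
    obtain ⟨a, rfl⟩ := L.mkQ_surjective a
    have hker : LinearMap.ker (Q.e v) ≤ LinearMap.ker (Q.e a) := fun b hb =>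
      LinearMap.congr_fun ha ⟨b, hb⟩
    obtain ⟨g, hg⟩ := exists_comp_eq_of_ker_le (Q.e v) (Q.e a) hker
    refine (Submodule.Quotient.mk_eq_zero L).2 (Submodule.mem_span_singleton.2 ⟨g 1, hQ.1.1 ?_⟩)
    refine LinearMap.ext fun b => ?_
    rw [map_smul, LinearMap.smul_apply, ← hg b, smul_eq_mul]
    conv_rhs => rw [← mul_one (Q.e v b), ← smul_eq_mul, map_smul, smul_eq_mul]
    ring
  have h2 : Function.Injective Q'.e.flip := (injective_iff_map_eq_zero _).2 fun b hb =>
    Subtype.ext (hQ.2.1 (LinearMap.ext fun a =>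
      (LinearMap.congr_fun hb (L.mkQ a)).trans (LinearMap.congr_fun (map_zero Q.e.flip) a).symm))
  have hQ' : Q'.Perfect := ⟨⟨h1, (surjective_of_nondegenerate_of_finite _ h1 h2).1⟩,
    ⟨h2, (surjective_of_nondegenerate_of_finite _ h1 h2).2⟩⟩
  let E : DualSES (indPairing hμ (linePairing (p := p) hμ)) (indPairing hμ Q) (indPairing hμ Q') :=
    { i := indMap (LinearMap.toSpanSingleton (ZMod p) A v)
      π := indMap L.mkQ
      i' := indMap (Q.e v)
      π' := indMap K.subtype
      equivariant_i := equivariant_indMap fun h c => by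
        simp [LinearMap.toSpanSingleton_apply, hv]
      equivariant_π := equivariant_indMap fun h a => rfl
      equivariant_i' := equivariant_indMap fun h b => hQv h b
      equivariant_π' := equivariant_indMap fun h b => rfl
      adj_i := fun F F' => by
        rw [indPairing_apply, indPairing_apply]
        refine Finset.sum_congr rfl fun x _ => ?_
        simp [linePairing, LinearMap.toSpanSingleton_apply]
      adj_π := fun F F' => by
        rw [indPairing_apply, indPairing_apply]
        exact Finset.sum_congr rfl fun x _ => rfl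
      i_injective := fun F F' h => funext fun x => smul_left_injective (ZMod p) hv0 (congrFun h x)
      π_surjective := fun F => ⟨fun x => (L.mkQ_surjective (F x)).choose,
        funext fun x => (L.mkQ_surjective (F x)).choose_spec⟩
      exact_i := by
        ext F
        simp only [LinearMap.mem_ker, LinearMap.mem_range]
        refine ⟨fun h => ?_, ?_⟩
        · have hx : ∀ x, ∃ c : ZMod p, c • v = F x := fun x => Submodule.mem_span_singleton.1
            ((Submodule.Quotient.mk_eq_zero L).1 (congrFun h x))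
          choose c hc using hx
          exact ⟨c, funext hc⟩
        · rintro ⟨c, rfl⟩
          exact funext fun x => (Submodule.Quotient.mk_eq_zero L).2
            (Submodule.mem_span_singleton.2 ⟨c x, rfl⟩)
      i'_surjective := fun F => ⟨fun x => (hQvs (F x)).choose,
        funext fun x => (hQvs (F x)).choose_spec⟩
      π'_injective := fun F F' h => funext fun x => Subtype.ext (congrFun h x)
      exact_i' := by
        ext F
        simp only [LinearMap.mem_ker, LinearMap.mem_range]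
        exact ⟨fun h => ⟨fun x => ⟨F x, congrFun h x⟩, rfl⟩,
          fun ⟨c, hc⟩ => funext fun x => by subst hc; exact (c x).2⟩ }
  have hτq : ∀ h : G₀, (h : GQ) ∈ U → τq h = 1 := fun h hh =>
    Submodule.linearMap_qext _ (LinearMap.ext fun a => by
      show L.mkQ (τ h a) = L.mkQ a
      rw [hτ h hh]; rfl)
  have hτk : ∀ h : G₀, (h : GQ) ∈ U → τk h = 1 := fun h hh => LinearMap.ext fun b =>
    Subtype.ext (show τ' h b.1 = b.1 by rw [hτ' h hh]; rfl)
  have hlt : Nat.card (A ⧸ L) + Nat.card K < n := by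
    rw [← hn]
    refine Nat.add_lt_add_of_lt_of_le ?_ (Nat.card_le_card_of_injective _ K.injective_subtype)
    rw [L.card_eq_card_quotient_mul_card]
    haveI : Nontrivial L :=
      ⟨⟨v, Submodule.mem_span_singleton_self v⟩, 0, fun h => hv0 (congrArg Subtype.val h)⟩
    rw [mul_comm]; exact lt_mul_of_one_lt_right (Nat.card_pos (α := A ⧸ L)) (Finite.one_lt_card (α := L))
  refine E.detects I hp (indPairing_perfect hμ Q' hQ') (smooth_indRep hU hle hτ)
    (smooth_indRep hU hle hτ') (smooth_indRep hU hle hτq)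
    (smooth_indRep hU hle fun _ _ => rfl) (smooth_indRep hU hle hτk)
    (detects_linePairing I hU hle hμ hperm)
    (ih _ hlt _ _ τq τk hτq hτk Q' hQ' rfl) ?_
  rw [indPairing_flip]
  exact ih _ hlt _ _ τk τq hτk hτq Q'.flip ⟨hQ'.2, hQ'.1⟩ (add_comm _ _)

end devissage

variable {V W : Type} [AddCommGroup V] [Module (ZMod p) V] [AddCommGroup W] [Module (ZMod p) W]
variable {ρ : Representation (ZMod p) GQ V} {σ : Representation (ZMod p) GQ W}

/-- `θ` is injective for every finite smooth module, given the permutation modules. -/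
theorem detects_of_permDetects [Finite V] [Finite W] (I : InvSystem p S) (hp : p ≠ 2)
    (hpS : pPrime p ∈ S) (hperm : PermDetects I) (P : Pairing (cycloChar p) ρ σ) (hP : P.Perfect)
    (hρ : Smooth (lvlS S) ρ) (hσ : Smooth (lvlS S) σ) : Detects P I := by
  classical
  haveI := Fintype.ofFinite V
  haveI := Fintype.ofFinite W
  obtain ⟨U₁, hU₁, hfix₁⟩ : ∃ U ∈ lvlS S, ∀ s ∈ U, ρ s = 1 := by
    choose Us hUs hs using hρ
    have : ∀ t : Finset V, ∃ U ∈ lvlS S, ∀ v ∈ t, ∀ s ∈ U, ρ s v = v := fun t => by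
      induction t using Finset.induction with
      | empty => exact ⟨⊤, (lvlS S).top_mem, by simp⟩
      | insert v t _ iht =>
        obtain ⟨U', hU', h'⟩ := iht
        refine ⟨Us v ⊓ U', (lvlS S).inf_mem _ (hUs v) _ hU', fun w hw s hs' => ?_⟩
        rcases Finset.mem_insert.1 hw with rfl | hw
        · exact hs w s hs'.1
        · exact h' w hw s hs'.2
    obtain ⟨U', hU', h'⟩ := this Finset.univ
    exact ⟨U', hU', fun s hs' => LinearMap.ext fun v => h' v (Finset.mem_univ v) s hs'⟩
  obtain ⟨U₂, hU₂, hfix₂⟩ : ∃ U ∈ lvlS S, ∀ s ∈ U, σ s = 1 := by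
    choose Us hUs hs using hσ
    have : ∀ t : Finset W, ∃ U ∈ lvlS S, ∀ v ∈ t, ∀ s ∈ U, σ s v = v := fun t => by
      induction t using Finset.induction with
      | empty => exact ⟨⊤, (lvlS S).top_mem, by simp⟩
      | insert v t _ iht =>
        obtain ⟨U', hU', h'⟩ := iht
        refine ⟨Us v ⊓ U', (lvlS S).inf_mem _ (hUs v) _ hU', fun w hw s hs' => ?_⟩
        rcases Finset.mem_insert.1 hw with rfl | hw
        · exact hs w s hs'.1
        · exact h' w hw s hs'.2
    obtain ⟨U', hU', h'⟩ := this Finset.univ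
    exact ⟨U', hU', fun s hs' => LinearMap.ext fun v => h' v (Finset.mem_univ v) s hs'⟩
  let U := U₁ ⊓ U₂ ⊓ GC.cycLvl p 1
  have hU : U ∈ lvlS S :=
    (lvlS S).inf_mem _ ((lvlS S).inf_mem _ hU₁ _ hU₂) _ (GC.cycLvl_mem_lvlS S hpS 1)
  haveI := (lvlS S).normal_of_mem U hU
  haveI := (lvlS S).finiteIndex_of_mem U hU
  obtain ⟨Sy⟩ : Nonempty (Sylow p (GQ ⧸ U)) := inferInstance
  let G₀ := Sy.toSubgroup.comap (QuotientGroup.mk' U)
  have hle : U ≤ G₀ := fun s hs => by
    rw [Subgroup.mem_comap, QuotientGroup.mk'_apply, (QuotientGroup.eq_one_iff s).2 hs]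
    exact one_mem _
  haveI : G₀.FiniteIndex := Subgroup.finiteIndex_of_le hle
  letI := Fintype.ofFinite (GQ ⧸ G₀)
  have hpow : ∀ g : G₀, ∃ k : ℕ, (g : GQ) ^ p ^ k ∈ U := fun g => by
    obtain ⟨k, hk⟩ := Sy.isPGroup' ⟨QuotientGroup.mk' U g, g.2⟩
    exact ⟨k, (QuotientGroup.eq_one_iff _).1 (congrArg Subtype.val hk)⟩
  have hμ : ∀ s ∈ G₀, cycloChar p s = 1 := fun s hs => by
    obtain ⟨k, hk⟩ := hpow ⟨s, hs⟩
    have h1 : cycloChar p s ^ p ^ k = 1 := by
      rw [← map_pow]
      exact GC.cycloChar_eq_one hk.2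
    refine orderOf_eq_one_iff.1 (Nat.eq_one_of_dvd_coprimes ?_ (orderOf_dvd_of_pow_eq_one h1)
      (orderOf_dvd_card (x := cycloChar p s)))
    rw [ZMod.card_units]
    refine Nat.Coprime.pow_left k ((Fact.out : p.Prime).coprime_iff_not_dvd.2 fun hd => ?_)
    have := Nat.le_of_dvd (Nat.sub_pos_of_lt (Fact.out : p.Prime).one_lt) hd
    have := (Fact.out : p.Prime).pos
    omega
  have hidx : ¬ p ∣ Fintype.card (GQ ⧸ G₀) := by
    rw [← Nat.card_eq_fintype_card, ← Subgroup.index,
      Subgroup.index_comap_of_surjective _ (QuotientGroup.mk'_surjective U)]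
    exact Sy.not_dvd_index' Subgroup.FiniteIndex.index_ne_zero
  -- the pairing on the restrictions
  let τ : Representation (ZMod p) G₀ V := ρ.comp G₀.subtype
  let τ' : Representation (ZMod p) G₀ W := σ.comp G₀.subtype
  let Q : Pairing ((cycloChar p).comp G₀.subtype) τ τ' := P.comp G₀.subtype
  have hdet : Detects (indPairing hμ Q) I :=
    detects_indPairing_aux I hp hU hle hμ hpow hperm _ V W τ τ'
      (fun h hh => hfix₁ _ hh.1.1) (fun h hh => hfix₂ _ hh.1.2) Q hP rfl
  let φ : V →ₗ[ZMod p] (GQ ⧸ G₀ → V) := LinearMap.pi fun x => ρ x.out⁻¹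
  let ψ : (GQ ⧸ G₀ → W) →ₗ[ZMod p] W := ∑ x, (σ x.out).comp (LinearMap.proj x)
  let r : (GQ ⧸ G₀ → V) →ₗ[ZMod p] V :=
    ((Fintype.card (GQ ⧸ G₀) : ZMod p)⁻¹) • ∑ x, (ρ x.out).comp (LinearMap.proj x)
  have hsum : ∀ {Z : Type} [AddCommGroup Z] [Module (ZMod p) Z]
      (π : Representation (ZMod p) GQ Z) (g : GQ) (F : GQ ⧸ G₀ → Z),
      ∑ x, π x.out (indRep (π.comp G₀.subtype) g F x) = π g (∑ x, π x.out (F x)) := by
    intro Z _ _ π g F
    rw [map_sum]
    refine Eq.trans (Finset.sum_congr rfl fun x _ => ?_)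
      ((MulAction.bijective g⁻¹).sum_comp fun x : GQ ⧸ G₀ => π g (π x.out (F x)))
    show π x.out (π (indCocycle G₀ g x : GQ) _) = _
    rw [← Module.End.mul_apply, ← map_mul, indCocycle_coe, ← mul_assoc, mul_inv_cancel, one_mul,
      map_mul]
    rfl
  refine hdet.of_retract φ ψ r (fun g v => funext fun x => ?_) (fun g F => ?_) (fun g F => ?_)
    (fun v w => ?_) fun v => ?_
  · show ρ x.out⁻¹ (ρ g v) = ρ (indCocycle G₀ g x : GQ) (ρ (g⁻¹ • x).out⁻¹ v)
    rw [← Module.End.mul_apply, ← map_mul, ← Module.End.mul_apply, ← map_mul, indCocycle_coe]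
    congr 2
    group
  · simp only [ψ, LinearMap.sum_apply, LinearMap.comp_apply, LinearMap.proj_apply,
      MonoidHom.id_apply]
    exact hsum σ g F
  · simp only [r, LinearMap.smul_apply, LinearMap.sum_apply, LinearMap.comp_apply,
      LinearMap.proj_apply, MonoidHom.id_apply, map_smul]
    rw [hsum ρ g F]
  · simp only [indPairing_apply, ψ, LinearMap.sum_apply, LinearMap.comp_apply,
      LinearMap.proj_apply, map_sum]
    refine Finset.sum_congr rfl fun x _ => ?_
    show (cycloChar p x.out : ZMod p) * P.e (ρ x.out⁻¹ v) (w x) = P.e v (σ x.out (w x))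
    rw [← P.equivariant, ← Module.End.mul_apply, ← map_mul, mul_inv_cancel, map_one]
    rfl
  · simp only [r, LinearMap.smul_apply, LinearMap.sum_apply, LinearMap.comp_apply,
      LinearMap.proj_apply, φ, LinearMap.pi_apply]
    simp only [← Module.End.mul_apply, ← map_mul, mul_inv_cancel, map_one, Module.End.one_apply,
      Finset.sum_const, Finset.card_univ]
    rw [← Nat.cast_smul_eq_nsmul (ZMod p), smul_smul,
      inv_mul_cancel₀ (by rwa [Ne, ZMod.natCast_eq_zero_iff]), one_smul]

end FLTA.PT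

end
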