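import Fermat.Agent.PoitouTate.Base
import Fermat.Agent.PoitouTate.Induced

/-!
# Poitou–Tate duality for `Ш`
-/

set_option autoImplicit false

open ExtCitation

noncomputable section

namespace FLTA.PT

variable (p : ℕ) [Fact p.Prime]

/-- `θ` is injective for every finite smooth module. -/
theorem detects (hp : p ≠ 2) (S : Finset Nat.Primes) (hpS : pPrime p ∈ S) (I : InvSystem p S)
    {V W : Type} [AddCommGroup V] [Module (ZMod p) V] [AddCommGroup W] [Module (ZMod p) W]
    [Finite V] [Finite W] {ρ : Representation (ZMod p) GQ V} {σ : Representation (ZMod p) GQ W}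
    (P : Pairing (cycloChar p) ρ σ) (hP : P.Perfect) (hρ : Smooth (lvlS S) ρ)
    (hσ : Smooth (lvlS S) σ) : Detects P I :=
  detects_of_permDetects I hp hpS (permDetects I hp hpS) P hP hρ hσ

/-- `Ш¹_S(M')` and `Ш²_S(M)` are in perfect duality. -/
theorem exists_sha_pairing_nondegenerate (hp : p ≠ 2) (S : Finset Nat.Primes) (hpS : pPrime p ∈ S)
    {V W : Type} [AddCommGroup V] [Module (ZMod p) V] [AddCommGroup W] [Module (ZMod p) W]
    [Finite V] [Finite W] {ρ : Representation (ZMod p) GQ V} {σ : Representation (ZMod p) GQ W}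
    (P : Pairing (cycloChar p) ρ σ) (hP : P.Perfect) (hρ : Smooth (lvlS S) ρ)
    (hσ : Smooth (lvlS S) σ) :
    ∃ B : shaOne p S σ →ₗ[ZMod p] shaTwo p S ρ →ₗ[ZMod p] ZMod p,
      (∀ y, (∀ x, B y x = 0) → y = 0) ∧ (∀ x, (∀ y, B y x = 0) → x = 0) := by
  obtain ⟨I⟩ := nonempty_invSystem p S hp hpS
  obtain ⟨B, hB, hleft⟩ := exists_shaPair P I hp hpS hP hρ hσ
  refine ⟨B, hleft, fun x hx => ?_⟩
  obtain ⟨c, rfl⟩ := csClass_surjective x
  exact csClass_eq_zero_of_forall P I hp hP hρ hσ (detects p hp S hpS I P hP hρ hσ) c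
    fun y => (hB c y).symm.trans (hx _)

end FLTA.PT

end
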