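import Fermat.Agent.PoitouTate.Setup
import Fermat.Agent.Galois.FinitenessH1

/-!
# Finiteness of the continuous cocycles of `G_S`
-/

set_option autoImplicit false

open groupCohomology

noncomputable section

namespace FLTA.PT

variable {p : ℕ} [Fact p.Prime] (S : Finset Nat.Primes)
variable {V : Type} [AddCommGroup V] [Module (ZMod p) V]

theorem finite_Z1S [Finite V] (ρ : Representation (ZMod p) GQ V) (hρ : Smooth (lvlS S) ρ) :
    Finite (Z1 (lvlS S) ρ) := by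
  haveI : Finite (Rep.of ρ) := ‹Finite V›
  haveI := FLTA.Galois.finite_levelCocyclesS₁ S (Rep.of ρ) (fun m => by
    obtain ⟨U, ⟨-, F, hF, hle⟩, h⟩ := hρ m
    exact ⟨F, hF.1, fun s hs => h s (hle hs)⟩)
  let f : Z1 (lvlS S) ρ → levelCocyclesS₁ S (Rep.of ρ) := fun c =>
    ⟨⟨c.1, (mem_cocycles₁_iff (A := Rep.of ρ) c.1).2 fun g h => ((mem_Z1 _ _).1 c.2).1 g h⟩, by
      obtain ⟨U, ⟨-, F, hF, hle⟩, h⟩ := ((mem_Z1 _ _).1 c.2).2
      exact ⟨F, hF, fun g s hs => h g s (hle hs)⟩⟩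
  exact Finite.of_injective f fun a b h => Subtype.ext (congrArg (fun x : levelCocyclesS₁ S (Rep.of ρ) => ((x.1 : cocycles₁ (Rep.of ρ)).1 : GQ → V)) h)

end FLTA.PT

end
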