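import Fermat.Agent.PoitouTate.LocalDualityCup
import Fermat.Agent.PoitouTate.LocalUnits

/-!
# Kummer theory for `μ_p ⊆ ℚ̄_qˣ` on open subgroups fixing `μ_p`
-/

set_option autoImplicit false

open ExtCitation

noncomputable section

namespace FLTA.PT

variable (p : ℕ) [Fact p.Prime] (q : Nat.Primes)

/-- The levels of a subgroup of the local group. -/
abbrev lvD (D : Subgroup (Gl q)) : Lvl D := (lvlLoc q).comap D.subtype

/-- The cyclotomic character on a subgroup of the local group. -/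
abbrev chiD (D : Subgroup (Gl q)) : D →* (ZMod p)ˣ :=
  ((cycloChar p).comp (loc q)).comp D.subtype

/-- `μ_p` on a subgroup of the local group. -/
abbrev muD (D : Subgroup (Gl q)) : Representation (ZMod p) D (ZMod p) := charRep (chiD p q D)

/-- The multiplicative group on a subgroup of the local group. -/
abbrev unitsD (D : Subgroup (Gl q)) : Representation ℤ D (Ml q) :=
  (unitsRepLoc q).comp D.subtype

/-- The subgroup acts trivially on `μ_p`. -/
def MuTrivial (D : Subgroup (Gl q)) : Prop := ∀ g : D, chiD p q D g = 1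

theorem muD_eq (D : Subgroup (Gl q)) : muD p q D = (muLoc p q).comp D.subtype := rfl

theorem muD_apply_of_trivial {D : Subgroup (Gl q)} (hμ : MuTrivial p q D) (g : D) (a : ZMod p) :
    muD p q D g a = a := by
  simp [hμ g]

theorem exists_primitiveRoot : ∃ z : Qb, IsPrimitiveRoot z p :=
  haveI : NeZero (p : Qb) := ⟨Nat.cast_ne_zero.2 (Fact.out : p.Prime).ne_zero⟩
  HasEnoughRootsOfUnity.exists_primitiveRoot Qb p

/-- A fixed primitive `p`-th root of unity in `ℚ̄_q`, coming from `ℚ̄`. -/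
def zetaQb : Qb := (exists_primitiveRoot p).choose

theorem zetaQb_spec : IsPrimitiveRoot (zetaQb p) p := (exists_primitiveRoot p).choose_spec

/-- The root of unity in the multiplicative group of `ℚ̄_q`. -/
def zetaLoc : Ml q :=
  iotaUnits q (Additive.ofMul
    (Units.mk0 (zetaQb p) ((zetaQb_spec p).ne_zero (Fact.out : p.Prime).ne_zero)))

theorem nsmul_zetaLoc : p • zetaLoc p q = 0 := by
  rw [zetaLoc, ← map_nsmul]
  convert map_zero (iotaUnits q)
  apply Additive.toMul.injective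
  ext
  simp [(zetaQb_spec p).pow_eq_one]

/-- `μ_p → ℚ̄_qˣ`. -/
def muU : ZMod p →ₗ[ℤ] Ml q :=
  (ZMod.lift p ⟨zmultiplesHom (Ml q) (zetaLoc p q), by
    rw [zmultiplesHom_apply, natCast_zsmul, nsmul_zetaLoc]⟩).toIntLinearMap

theorem muU_natCast (n : ℕ) : muU p q (n : ZMod p) = n • zetaLoc p q := by
  rw [muU, AddMonoidHom.coe_toIntLinearMap, show (n : ZMod p) = ((n : ℤ) : ZMod p) by simp,
    ZMod.lift_coe]
  simp

theorem muU_eq_val (a : ZMod p) : muU p q a = a.val • zetaLoc p q := by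
  rw [← muU_natCast, ZMod.natCast_val, ZMod.cast_id]

theorem coe_muU (a : ZMod p) :
    ((Additive.toMul (muU p q a) : (Ql q)ˣ) : Ql q) = iota q (zetaQb p) ^ a.val := by
  rw [muU_eq_val, toMul_nsmul, Units.val_pow_eq_pow_val]
  rfl

theorem isPrimitiveRoot_iota : IsPrimitiveRoot (iota q (zetaQb p)) p :=
  (zetaQb_spec p).map_of_injective (iota q).injective

theorem muU_injective : Function.Injective (muU p q) := by
  intro a b h
  have h' := congrArg (fun x : Ml q => ((Additive.toMul x : (Ql q)ˣ) : Ql q)) h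
  simp only [coe_muU] at h'
  exact ZMod.val_injective p
    ((isPrimitiveRoot_iota p q).pow_inj (ZMod.val_lt a) (ZMod.val_lt b) h')

theorem nsmul_muU (a : ZMod p) : p • muU p q a = 0 := by
  rw [muU_eq_val, ← mul_nsmul, mul_nsmul', nsmul_zetaLoc, nsmul_zero]

theorem exists_muU_of_nsmul_eq_zero {x : Ml q} (hx : p • x = 0) : ∃ a, muU p q a = x := by
  have hne : NeZero p := ⟨(Fact.out : p.Prime).ne_zero⟩
  have h : ((Additive.toMul x : (Ql q)ˣ) : Ql q) ^ p = 1 := by
    rw [← Units.val_pow_eq_pow_val, ← toMul_nsmul, hx]; rfl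
  obtain ⟨i, hi, he⟩ := (isPrimitiveRoot_iota p q).eq_pow_of_pow_eq_one h
  refine ⟨(i : ZMod p), Additive.toMul.injective (Units.ext ?_)⟩
  rw [coe_muU, ZMod.val_natCast, Nat.mod_eq_of_lt hi, he]

theorem unitsRepLoc_muU (τ : Gl q) (a : ZMod p) :
    unitsRepLoc q τ (muU p q a) = muU p q (muLoc p q τ a) := by
  have hne : NeZero p := ⟨(Fact.out : p.Prime).ne_zero⟩
  have hz : unitsRepLoc q τ (zetaLoc p q)
      = ((cycloChar p (loc q τ) : (ZMod p)ˣ) : ZMod p).val • zetaLoc p q := by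
    apply Additive.toMul.injective
    ext
    rw [toMul_nsmul, Units.val_pow_eq_pow_val]
    show locAut q τ (iota q (zetaQb p)) = iota q (zetaQb p) ^ _
    rw [← iota_loc, ← map_pow]
    congr 1
    have hmem : ((zetaQb_spec p).isUnit (Fact.out : p.Prime).ne_zero).unit ∈ rootsOfUnity p Qb := by
      rw [mem_rootsOfUnity]
      ext
      simp [(zetaQb_spec p).pow_eq_one]
    exact modularCyclotomicCharacter.spec Qb (card_rootsOfUnity_eq_self p)
      (loc q τ : Qb ≃+* Qb) hmem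
  rw [muU_eq_val p q a, map_nsmul, hz, ← mul_nsmul', ← muU_natCast]
  congr 1
  push_cast [ZMod.natCast_val, ZMod.cast_id, id_eq, charRep_apply]
  rw [mul_comm]
  rfl

theorem unitsD_muU (D : Subgroup (Gl q)) (g : D) (a : ZMod p) :
    unitsD q D g (muU p q a) = muU p q (muD p q D g a) := unitsRepLoc_muU p q g a

theorem exists_pRoot (b : Ml q) : ∃ c : Ml q, p • c = b := by
  obtain ⟨z, hz⟩ := IsAlgClosed.exists_pow_nat_eq
    ((Additive.toMul b : (Ql q)ˣ) : Ql q) (Fact.out : p.Prime).pos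
  have hz0 : z ≠ 0 := by
    rintro rfl
    rw [zero_pow (Fact.out : p.Prime).ne_zero] at hz
    exact (Additive.toMul b : (Ql q)ˣ).ne_zero hz.symm
  refine ⟨Additive.ofMul (Units.mk0 z hz0), Additive.toMul.injective (Units.ext ?_)⟩
  rw [toMul_nsmul, Units.val_pow_eq_pow_val]
  exact hz

/-- A 2-cochain with values in `μ_p` read in `ℚ̄_qˣ`. -/
def toU2 (D : Subgroup (Gl q)) (z : D × D → ZMod p) : D × D → Ml q := fun g => muU p q (z g)

theorem toU2_mem_Z2 {D : Subgroup (Gl q)} {z : D × D → ZMod p}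
    (hz : z ∈ Z2 (lvD q D) (muD p q D)) : toU2 p q D z ∈ Z2 (lvD q D) (unitsD q D) := by
  rw [mem_Z2] at hz ⊢
  obtain ⟨U, hU, h⟩ := hz.2
  refine ⟨fun g h' j => ?_, U, hU, fun g g' s s' hs hs' => by simp [toU2, h g g' s s' hs hs']⟩
  simp only [toU2, unitsD_muU, ← map_add, hz.1]

theorem toU2_sub (D : Subgroup (Gl q)) (z z' : D × D → ZMod p) :
    toU2 p q D (z - z') = toU2 p q D z - toU2 p q D z' := by
  funext g; simp [toU2]

theorem toU2_mem_B2 {D : Subgroup (Gl q)} {z : D × D → ZMod p}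
    (hz : z ∈ B2 (lvD q D) (muD p q D)) : toU2 p q D z ∈ B2 (lvD q D) (unitsD q D) := by
  obtain ⟨y, hy, rfl⟩ := (mem_B2 _ _).1 hz
  obtain ⟨U, hU, h⟩ := hy
  refine (mem_B2 _ _).2 ⟨fun g => muU p q (y g), ⟨U, hU, fun g s hs => by simp [h g s hs]⟩, ?_⟩
  funext ⟨g, g'⟩
  simp only [toU2, d1_apply, unitsD_muU, map_add, map_sub]

theorem smooth_unitsD (D : Subgroup (Gl q)) : Smooth (lvD q D) (unitsD q D) :=
  smooth_comap (smooth_unitsRepLoc q) D.subtype

/-- `H²(μ_p) → H²(ℚ̄_qˣ)` is injective, by Hilbert 90. -/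
theorem mem_B2_of_toU2 {D : Subgroup (Gl q)} (hD : IsOpenLvl (lvlLoc q) D) {z : D × D → ZMod p}
    (hz : toU2 p q D z ∈ B2 (lvD q D) (unitsD q D)) : z ∈ B2 (lvD q D) (muD p q D) := by
  obtain ⟨y, hy, hyz⟩ := (mem_B2 _ _).1 hz
  have h1 : p • y ∈ Z1 (lvD q D) (unitsD q D) := by
    refine ⟨LinearMap.mem_ker.2 ?_, (C1 (k := ℤ) (lvD q D) (Ml q)).smul_of_tower_mem p hy⟩
    rw [map_nsmul, hyz]
    funext g
    simp [toU2, nsmul_muU]
  obtain ⟨b, hb⟩ := h1Vanishes_unitsRepLoc q D hD _ h1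
  obtain ⟨c, hc⟩ := exists_pRoot p q b
  have hy' : ∀ g, p • (y g - d0 (unitsD q D) c g) = 0 := by
    intro g
    have := congrFun hb g
    rw [← hc, map_nsmul] at this
    simp only [Pi.smul_apply] at this
    rw [nsmul_sub, this, sub_self]
  choose w hw using fun g => exists_muU_of_nsmul_eq_zero p q (hy' g)
  refine (mem_B2 _ _).2 ⟨w, ?_, ?_⟩
  · obtain ⟨U, hU, h⟩ := hy
    obtain ⟨U', hU', h'⟩ := smooth_unitsD q D c
    refine ⟨U ⊓ U', (lvD q D).inf_mem U hU U' hU', fun g s hs => muU_injective p q ?_⟩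
    rw [hw, hw, h g s hs.1]
    simp only [d0_apply]
    rw [map_mul, Module.End.mul_apply, h' s hs.2]
  · funext ⟨g, g'⟩
    apply muU_injective p q
    have := congrFun hyz (g, g')
    simp only [d1_apply, toU2] at this
    simp only [d1_apply, map_add, map_sub, ← unitsD_muU, hw, ← this, d0_apply, map_mul,
      Module.End.mul_apply]
    abel

section kummer

variable {D : Subgroup (Gl q)}

/-- `φ` is the Kummer character of `a`, with chosen root `α`. -/
def IsKummer (D : Subgroup (Gl q)) (a α : Ml q) (φ : D → ZMod p) : Prop :=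
  a ∈ fixedBy (unitsRepLoc q) D ∧ p • α = a ∧ ∀ g : D, muU p q (φ g) = unitsD q D g α - α

theorem isKummer_mem_Z1 {a α : Ml q} {φ : D → ZMod p} (h : IsKummer p q D a α φ) :
    φ ∈ Z1 (lvD q D) (muD p q D) := by
  rw [mem_Z1]
  refine ⟨fun g g' => muU_injective p q ?_, ?_⟩
  · rw [map_add, ← unitsD_muU, h.2.2, h.2.2, h.2.2, map_sub, map_mul, Module.End.mul_apply]
    abel
  · obtain ⟨U, hU, hfix⟩ := smooth_unitsD q D α
    refine ⟨U, hU, fun g s hs => muU_injective p q ?_⟩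
    rw [h.2.2, h.2.2, map_mul, Module.End.mul_apply, hfix s hs]

theorem exists_isKummer {a : Ml q} (ha : a ∈ fixedBy (unitsRepLoc q) D) :
    ∃ α φ, IsKummer p q D a α φ := by
  obtain ⟨α, hα⟩ := exists_pRoot p q a
  have : ∀ g : D, p • (unitsD q D g α - α) = 0 := fun g => by
    rw [nsmul_sub, ← map_nsmul, hα]
    exact sub_eq_zero.2 (ha _ g.2)
  choose φ hφ using fun g => exists_muU_of_nsmul_eq_zero p q (this g)
  exact ⟨α, φ, ha, hα, hφ⟩

theorem exists_kummer_of_mem_Z1 (hD : IsOpenLvl (lvlLoc q) D) {φ : D → ZMod p}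
    (hφ : φ ∈ Z1 (lvD q D) (muD p q D)) : ∃ a α, IsKummer p q D a α φ := by
  have h1 : (fun g => muU p q (φ g)) ∈ Z1 (lvD q D) (unitsD q D) := by
    obtain ⟨U, hU, h⟩ := ((mem_Z1 _ _).1 hφ).2
    rw [mem_Z1]
    exact ⟨fun g g' => by rw [((mem_Z1 _ _).1 hφ).1, map_add, unitsD_muU],
      U, hU, fun g s hs => by simp [h g s hs]⟩
  obtain ⟨α, hα⟩ := h1Vanishes_unitsRepLoc q D hD _ h1
  refine ⟨p • α, α, fun s hs => ?_, rfl, fun g => (congrFun hα g).symm⟩
  have := congrFun hα ⟨s, hs⟩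
  simp only [d0_apply] at this
  rw [map_nsmul, ← sub_eq_zero, ← nsmul_sub]
  exact (congrArg (p • ·) this).trans (nsmul_muU p q _)

/-- A 1-cocycle with trivial coefficients as a character. -/
def toChar (hμ : MuTrivial p q D) (ψ : D → ZMod p) (hψ : ψ ∈ Z1 (lvD q D) (muD p q D)) :
    D →* Multiplicative (ZMod p) :=
  MonoidHom.mk' (fun g => Multiplicative.ofAdd (ψ g)) fun g h => by
    rw [((mem_Z1 _ _).1 hψ).1, muD_apply_of_trivial p q hμ, add_comm, ofAdd_add]

theorem isOpenLvl_ker_toChar (hμ : MuTrivial p q D) (ψ : D → ZMod p)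
    (hψ : ψ ∈ Z1 (lvD q D) (muD p q D)) : IsOpenLvl (lvD q D) (toChar p q hμ ψ hψ).ker := by
  obtain ⟨U, hU, h⟩ := ((mem_Z1 _ _).1 hψ).2
  refine ⟨U, hU, fun s hs => ?_⟩
  rw [MonoidHom.mem_ker]
  have h1 := h 1 s hs
  have h0 : ψ 1 = 0 := by
    have := ((mem_Z1 _ _).1 hψ).1 1 1
    rw [muD_apply_of_trivial p q hμ, one_mul] at this
    simpa using this
  rw [one_mul, h0] at h1
  simp [toChar, h1]

/-- The cup product with a Kummer character is the carry class. -/
theorem toU2_cup11_sub_carry_mem_B2 (hμ : MuTrivial p q D) {ψ φ : D → ZMod p}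
    (hψ : ψ ∈ Z1 (lvD q D) (muD p q D)) {a α : Ml q} (hK : IsKummer p q D a α φ) :
    toU2 p q D (cup11 (mulPairing (chiD p q D) hμ) ψ φ) -
      carry (toChar p q hμ ψ hψ) a ∈ B2 (lvD q D) (unitsD q D) := by
  have hne : NeZero p := ⟨(Fact.out : p.Prime).ne_zero⟩
  obtain ⟨U, hU, hfix⟩ := smooth_unitsD q D α
  obtain ⟨U', hU', hc⟩ := ((mem_Z1 _ _).1 hψ).2
  refine (mem_B2 _ _).2 ⟨fun g => -((ψ g).val • unitsD q D g α),
    ⟨U ⊓ U', (lvD q D).inf_mem U hU U' hU', fun g s hs => by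
      show -((ψ (g * s)).val • unitsD q D (g * s) α) = -((ψ g).val • unitsD q D g α)
      rw [hc g s hs.2, map_mul, Module.End.mul_apply, hfix s hs.1]⟩, ?_⟩
  funext ⟨g, h⟩
  have hadd : ψ (g * h) = ψ g + ψ h := by
    rw [((mem_Z1 _ _).1 hψ).1, muD_apply_of_trivial p q hμ, add_comm]
  have hval : (ψ g).val + (ψ h).val = (ψ (g * h)).val + p * (((ψ g).val + (ψ h).val) / p) := by
    rw [hadd, ZMod.val_add, Nat.mod_add_div]
  have hcup : muU p q (ψ g * φ h) = (ψ g).val • (unitsD q D (g * h) α - unitsD q D g α) := by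
    calc muU p q (ψ g * φ h) = muU p q ((ψ g).val • φ h) := by
          rw [nsmul_eq_mul, ZMod.natCast_val, ZMod.cast_id]
      _ = (ψ g).val • muU p q (φ h) := map_nsmul _ _ _
      _ = _ := by
        congr 1
        rw [← muD_apply_of_trivial p q hμ g (φ h), ← unitsD_muU, hK.2.2, map_sub, map_mul,
          Module.End.mul_apply]
  have hga : unitsD q D (g * h) a = a := hK.1 _ (g * h).2
  have hcarry : carry (toChar p q hμ ψ hψ) a (g, h)
      = (p * (((ψ g).val + (ψ h).val) / p)) • unitsD q D (g * h) α := by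
    rw [mul_comm, mul_nsmul', ← map_nsmul, hK.2.1, hga]
    rfl
  simp only [Pi.sub_apply, toU2, cup11_mulPairing, d1_apply, hcup, hcarry, map_neg, map_nsmul]
  have hmul : unitsD q D g (unitsD q D h α) = unitsD q D (g * h) α := by
    rw [map_mul, Module.End.mul_apply]
  rw [hmul]
  have e := congrArg (fun n : ℕ => n • unitsD q D (g * h) α) hval
  simp only [add_nsmul] at e
  rw [nsmul_sub]
  generalize (ψ g).val • unitsD q D (g * h) α = A at e ⊢
  generalize (ψ h).val • unitsD q D (g * h) α = B at e ⊢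
  generalize (ψ (g * h)).val • unitsD q D (g * h) α = C at e ⊢
  generalize (p * (((ψ g).val + (ψ h).val) / p)) • unitsD q D (g * h) α = E at e ⊢
  generalize (ψ g).val • unitsD q D g α = F
  rw [eq_sub_of_add_eq' e.symm]
  abel

end kummer

end FLTA.PT

end
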