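import Fermat.Agent.PoitouTate.LocalDualityFun
import Fermat.Agent.PoitouTate.LocalDualityKummer

/-!
# Open subgroups of the local group: levels, inclusions, coset spaces
-/

set_option autoImplicit false

open ExtCitation

noncomputable section

namespace FLTA.PT

theorem Lvl.ext' {Γ : Type*} [Group Γ] {L L' : Lvl Γ} (h : L.sets = L'.sets) : L = L' := by
  cases L; cases L'; cases h; rfl

theorem Lvl.comap_comap {Γ Γ' Γ'' : Type*} [Group Γ] [Group Γ'] [Group Γ''] (L : Lvl Γ)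
    (f : Γ' →* Γ) (g : Γ'' →* Γ') : (L.comap f).comap g = L.comap (f.comp g) := by
  apply Lvl.ext'
  ext U
  constructor
  · rintro ⟨_, ⟨V, hV, rfl⟩, rfl⟩
    exact ⟨V, hV, (Subgroup.comap_comap V f g).symm⟩
  · rintro ⟨V, hV, rfl⟩
    exact ⟨_, ⟨V, hV, rfl⟩, Subgroup.comap_comap V f g⟩

variable (p : ℕ) [Fact p.Prime] (q : Nat.Primes)

theorem lvD_comap {D' D : Subgroup (Gl q)} (h : D' ≤ D) :
    (lvD q D).comap (Subgroup.inclusion h) = lvD q D' := by
  rw [lvD, lvD, Lvl.comap_comap]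
  rfl

theorem lvlLE_incl {D' D : Subgroup (Gl q)} (h : D' ≤ D) :
    LvlLE (lvD q D) (lvD q D') (Subgroup.inclusion h) := by
  rw [← lvD_comap q h]
  exact lvlLE_comap _ _

/-- Restriction of 2-cochains along an inclusion of subgroups. -/
abbrev resD2 {D' D : Subgroup (Gl q)} (h : D' ≤ D) {k : Type*} [CommRing k] {V : Type*}
    [AddCommGroup V] [Module k V] : (D × D → V) →ₗ[k] (D' × D' → V) :=
  pp2 (Subgroup.inclusion h) (LinearMap.id : V →ₗ[k] V)

/-- Restriction of 1-cochains along an inclusion of subgroups. -/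
abbrev resD1 {D' D : Subgroup (Gl q)} (h : D' ≤ D) {k : Type*} [CommRing k] {V : Type*}
    [AddCommGroup V] [Module k V] : (D → V) →ₗ[k] (D' → V) :=
  pp1 (Subgroup.inclusion h) (LinearMap.id : V →ₗ[k] V)

theorem isOpenLvl_mono {Γ : Type*} [Group Γ] {L : Lvl Γ} {H H' : Subgroup Γ} (h : IsOpenLvl L H)
    (hle : H ≤ H') : IsOpenLvl L H' := by
  obtain ⟨U, hU, hU'⟩ := h
  exact ⟨U, hU, hU'.trans hle⟩

theorem isOpenLvl_inf {Γ : Type*} [Group Γ] {L : Lvl Γ} {H H' : Subgroup Γ} (h : IsOpenLvl L H)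
    (h' : IsOpenLvl L H') : IsOpenLvl L (H ⊓ H') := by
  obtain ⟨U, hU, hU'⟩ := h
  obtain ⟨V, hV, hV'⟩ := h'
  exact ⟨U ⊓ V, L.inf_mem U hU V hV, inf_le_inf hU' hV'⟩

theorem isOpenLvl_subgroupOf {D' D : Subgroup (Gl q)} (h : IsOpenLvl (lvlLoc q) D') :
    IsOpenLvl (lvD q D) (D'.subgroupOf D) := by
  obtain ⟨U, hU, hle⟩ := h
  exact ⟨U.comap D.subtype, ⟨U, hU, rfl⟩, Subgroup.comap_mono hle⟩

theorem isOpenLvl_map {D : Subgroup (Gl q)} (hD : IsOpenLvl (lvlLoc q) D) {H : Subgroup D}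
    (hH : IsOpenLvl (lvD q D) H) : IsOpenLvl (lvlLoc q) (H.map D.subtype) := by
  obtain ⟨_, ⟨V, hV, rfl⟩, hVH⟩ := hH
  obtain ⟨W, hW, hWD⟩ := hD
  refine ⟨V ⊓ W, (lvlLoc q).inf_mem V hV W hW, fun s hs => ?_⟩
  exact ⟨⟨s, hWD hs.2⟩, hVH hs.1, rfl⟩

theorem finiteIndex_of_isOpenLvl {Γ : Type*} [Group Γ] {L : Lvl Γ} {H : Subgroup Γ}
    (h : IsOpenLvl L H) : H.FiniteIndex := by
  obtain ⟨U, hU, hle⟩ := h
  have := L.finiteIndex_of_mem U hU
  exact Subgroup.finiteIndex_of_le hle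

theorem relIndex_ne_zero {D' : Subgroup (Gl q)} (h : IsOpenLvl (lvlLoc q) D')
    (D : Subgroup (Gl q)) : D'.relIndex D ≠ 0 :=
  (finiteIndex_of_isOpenLvl (isOpenLvl_subgroupOf q h)).index_ne_zero

/-- The coset space of `D'` in `D`. -/
abbrev cosets (D' D : Subgroup (Gl q)) : Type := D ⧸ D'.subgroupOf D

theorem finite_cosets {D' : Subgroup (Gl q)} (h : IsOpenLvl (lvlLoc q) D')
    (D : Subgroup (Gl q)) : Finite (cosets q D' D) :=
  have := finiteIndex_of_isOpenLvl (isOpenLvl_subgroupOf q (D := D) h)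
  inferInstance

theorem card_cosets (D' D : Subgroup (Gl q)) :
    Nat.card (cosets q D' D) = D'.relIndex D := rfl

theorem isPoint_one {D' D : Subgroup (Gl q)} (h : D' ≤ D) :
    IsPoint (Subgroup.inclusion h) ((1 : D) : cosets q D' D) where
  inj := Subgroup.inclusion_injective h
  fix τ := by
    rw [MulAction.Quotient.smul_coe, QuotientGroup.eq]
    simp [Subgroup.mem_subgroupOf]
  surj g hg := by
    rw [MulAction.Quotient.smul_coe, QuotientGroup.eq] at hg
    simp [Subgroup.mem_subgroupOf] at hg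
    exact ⟨⟨g, hg⟩, Subtype.ext rfl⟩

theorem transitive_cosets (D' D : Subgroup (Gl q)) (y : cosets q D' D) :
    ∃ g : D, g • ((1 : D) : cosets q D' D) = y := by
  induction y using QuotientGroup.induction_on with
  | H g => exact ⟨g, by simp [MulAction.Quotient.smul_coe]⟩

theorem isOpenLvl_stabilizer_cosets {D' D : Subgroup (Gl q)} (h : IsOpenLvl (lvlLoc q) D')
    (y : cosets q D' D) : IsOpenLvl (lvD q D) (MulAction.stabilizer D y) := by
  obtain ⟨g, rfl⟩ := transitive_cosets q D' D y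
  obtain ⟨U, hU, hle⟩ := isOpenLvl_subgroupOf q (D := D) h
  refine ⟨U, hU, fun s hs => ?_⟩
  have hfix : ∀ t ∈ D'.subgroupOf D, t • ((1 : D) : cosets q D' D) = ((1 : D) : cosets q D' D) :=
    fun t ht => by rw [MulAction.Quotient.smul_coe, QuotientGroup.eq]; simpa using ht
  rw [MulAction.mem_stabilizer_iff, ← mul_smul, show s * g = g * (g⁻¹ * s * g) by group, mul_smul,
    hfix _ (hle (mul_mem_Z2_conj ((lvD q D).normal_of_mem U hU) hs))]

theorem cycloChar_eq_one_of_fixes {g : GQ} (h : g (zetaQb p) = zetaQb p) : cycloChar p g = 1 := by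
  have hne : NeZero p := ⟨(Fact.out : p.Prime).ne_zero⟩
  have hmem : ((zetaQb_spec p).isUnit (Fact.out : p.Prime).ne_zero).unit ∈ rootsOfUnity p Qb := by
    rw [mem_rootsOfUnity]
    ext
    simp [(zetaQb_spec p).pow_eq_one]
  have e : g (zetaQb p) = zetaQb p ^ ((cycloChar p g : (ZMod p)ˣ) : ZMod p).val :=
    modularCyclotomicCharacter.spec Qb (card_rootsOfUnity_eq_self p) (g : Qb ≃+* Qb) hmem
  rw [h] at e
  have h1 : ((cycloChar p g : (ZMod p)ˣ) : ZMod p).val = 1 :=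
    (zetaQb_spec p).pow_inj (ZMod.val_lt _) (Fact.out : p.Prime).one_lt (by rw [← e, pow_one])
  ext
  rw [Units.val_one, ← ZMod.natCast_zmod_val ((cycloChar p g : (ZMod p)ˣ) : ZMod p), h1,
    Nat.cast_one]

/-- The kernel of the local cyclotomic character. -/
def muKer : Subgroup (Gl q) := ((cycloChar p).comp (loc q)).ker

theorem isOpenLvl_muKer : IsOpenLvl (lvlLoc q) (muKer p q) := by
  haveI : FiniteDimensional ℚ (IntermediateField.adjoin ℚ {zetaQb p}) :=
    IntermediateField.adjoin.finiteDimensional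
      ((AlgebraicClosure.isAlgebraic ℚ).isAlgebraic (zetaQb p)).isIntegral
  refine ⟨muKer p q, ⟨(cycloChar p).ker, ⟨inferInstance,
    IntermediateField.adjoin ℚ {zetaQb p}, inferInstance, fun g hg => ?_⟩, rfl⟩, le_rfl⟩
  exact MonoidHom.mem_ker.2 (cycloChar_eq_one_of_fixes p
    ((IntermediateField.mem_fixingSubgroup_iff _ g).1 hg _
      (IntermediateField.mem_adjoin_simple_self ℚ (zetaQb p))))

theorem muTrivial_iff {D : Subgroup (Gl q)} : MuTrivial p q D ↔ D ≤ muKer p q :=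
  ⟨fun h g hg => MonoidHom.mem_ker.2 (h ⟨g, hg⟩), fun h g => MonoidHom.mem_ker.1 (h g.2)⟩

theorem muTrivial_mono {D' D : Subgroup (Gl q)} (hμ : MuTrivial p q D) (h : D' ≤ D) :
    MuTrivial p q D' :=
  fun g => hμ (Subgroup.inclusion h g)

theorem smooth_muLoc : Smooth (lvlLoc q) (muLoc p q) := fun v => by
  obtain ⟨U, hU, hle⟩ := isOpenLvl_muKer p q
  refine ⟨U, hU, fun s hs => ?_⟩
  have : cycloChar p (loc q s) = 1 := MonoidHom.mem_ker.1 (hle hs)
  simp [this]

theorem smooth_muD (D : Subgroup (Gl q)) : Smooth (lvD q D) (muD p q D) :=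
  smooth_comap (smooth_muLoc p q) D.subtype

/-- `H¹(μ_p-kernel, units) = 0` for kernels inside a subgroup. -/
theorem h1Vanishes_unitsD {D : Subgroup (Gl q)} (hD : IsOpenLvl (lvlLoc q) D) {H : Subgroup D}
    (hH : IsOpenLvl (lvD q D) H) : H1Vanishes (lvD q D) (unitsD q D) H := by
  intro c hc
  let e : (H.map D.subtype : Subgroup (Gl q)) →* H :=
    ((H.equivMapOfInjective D.subtype D.subtype_injective).symm : _ ≃* H).toMonoidHom
  have he : ∀ g, ((e g : D) : Gl q) = g := fun g => by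
    have := (H.equivMapOfInjective D.subtype D.subtype_injective).apply_symm_apply g
    exact congrArg Subtype.val this
  have hL : LvlLE ((lvD q D).comap H.subtype) (lvD q (H.map D.subtype)) e := by
    rintro U ⟨_, ⟨V, hV, rfl⟩, rfl⟩
    refine ⟨V, hV, ?_⟩
    ext g
    simp only [Subgroup.mem_comap, Subgroup.coe_subtype, he]
  have hφ : Equivariant ((unitsD q D).comp H.subtype) (unitsD q (H.map D.subtype)) e
      (LinearMap.id : Ml q →ₗ[ℤ] Ml q) := fun g v => by
    show unitsRepLoc q ((e g : D) : Gl q) v = unitsRepLoc q g v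
    rw [he]
  obtain ⟨b, hb⟩ := h1Vanishes_unitsRepLoc q _ (isOpenLvl_map q hD hH) _ (pp1_mem_Z1 hL hφ hc)
  refine ⟨b, funext fun g => ?_⟩
  have hg : ((g : D) : Gl q) ∈ H.map D.subtype := ⟨g, g.2, rfl⟩
  have := congrFun hb ⟨_, hg⟩
  have eg : e ⟨_, hg⟩ = g := Subtype.ext (Subtype.ext (he _))
  simp only [pp1_apply, LinearMap.id_apply, eg] at this
  exact this

end FLTA.PT

end
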