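import Fermat.Agent.PoitouTate.Detect
import Fermat.Agent.PoitouTate.LocalDuality

/-!
# The semi-local pairing `∏ H¹(ℚ_q, M) × ∏ H¹(ℚ_q, M') → ℤ/p`
-/

set_option autoImplicit false

open ExtCitation Module

noncomputable section

namespace FLTA.PT

variable {p : ℕ} [Fact p.Prime] {S : Finset Nat.Primes}
variable {V W : Type} [AddCommGroup V] [Module (ZMod p) V] [AddCommGroup W] [Module (ZMod p) W]
variable {ρ : Representation (ZMod p) GQ V} {σ : Representation (ZMod p) GQ W}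
variable (P : Pairing (cycloChar p) ρ σ) (I : InvSystem p S)

/-- Local `H¹` of a `G_ℚ`-module at `q`. -/
abbrev H1At (ρ : Representation (ZMod p) GQ V) (q : Nat.Primes) : Type :=
  H1c (lvlLoc q) (ρ.comp (loc q))

/-- The semi-local `H¹`. -/
abbrev P1 (S : Finset Nat.Primes) (ρ : Representation (ZMod p) GQ V) : Type :=
  ∀ q : S, H1At ρ q.1

/-- The module structure on `P1` over its group structure. -/
instance instModuleP1 (S : Finset Nat.Primes) (ρ : Representation (ZMod p) GQ V) :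
    @Module (ZMod p) (P1 S ρ) _ AddCommGroup.toAddCommMonoid :=
  @Pi.module S (fun q => H1At ρ q.1) (ZMod p) _ (fun _ => AddCommGroup.toAddCommMonoid)
    (fun _ => inferInstance)

theorem cup11_add_left_loc (q : Nat.Primes) (a a' : Gl q → V) (b : Gl q → W) :
    cup11 (P.comp (loc q)) (a + a') b = cup11 (P.comp (loc q)) a b + cup11 (P.comp (loc q)) a' b := by
  funext g; simp [cup11]

theorem cup11_smul_left_loc (q : Nat.Primes) (r : ZMod p) (a : Gl q → V) (b : Gl q → W) :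
    cup11 (P.comp (loc q)) (r • a) b = r • cup11 (P.comp (loc q)) a b := by
  funext g; simp [cup11]

theorem cup11_add_right_loc (q : Nat.Primes) (a : Gl q → V) (b b' : Gl q → W) :
    cup11 (P.comp (loc q)) a (b + b') = cup11 (P.comp (loc q)) a b + cup11 (P.comp (loc q)) a b' := by
  funext g; simp [cup11]

theorem cup11_smul_right_loc (q : Nat.Primes) (r : ZMod p) (a : Gl q → V) (b : Gl q → W) :
    cup11 (P.comp (loc q)) a (r • b) = r • cup11 (P.comp (loc q)) a b := by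
  funext g; simp [cup11]

/-- The cup product of two local cocycles as a 2-cocycle, bilinearly. -/
def cupZ (hσ : Smooth (lvlS S) σ) (q : Nat.Primes) :
    Z1 (lvlLoc q) (ρ.comp (loc q)) →ₗ[ZMod p] Z1 (lvlLoc q) (σ.comp (loc q)) →ₗ[ZMod p]
      Z2 (lvlLoc q) (muLoc p q) :=
  LinearMap.mk₂ (ZMod p)
    (fun a b => ⟨cup11 (P.comp (loc q)) a.1 b.1, cup11_mem_Z2 _ (smooth_loc hσ q) a.2 b.2⟩)
    (fun _ _ _ => Subtype.ext (cup11_add_left_loc P q _ _ _))
    (fun _ _ _ => Subtype.ext (cup11_smul_left_loc P q _ _ _))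
    (fun _ _ _ => Subtype.ext (cup11_add_right_loc P q _ _ _))
    (fun _ _ _ => Subtype.ext (cup11_smul_right_loc P q _ _ _))

theorem cup11_d0_left_mem_B2_loc (q : Nat.Primes) (v : V) {b : Gl q → W}
    (hb : b ∈ Z1 (lvlLoc q) (σ.comp (loc q))) :
    cup11 (P.comp (loc q)) (d0 (ρ.comp (loc q)) v) b ∈ B2 (lvlLoc q) (muLoc p q) := by
  refine (mem_B2 _ _).2 ⟨cup01 (P.comp (loc q)) v b, cup01_const _ v hb.2, ?_⟩
  rw [show muLoc p q = charRep ((cycloChar p).comp (loc q)) from rfl, d1_cup01,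
    LinearMap.mem_ker.1 hb.1]
  funext g
  simp [cup02]

theorem cup11_d0_right_mem_B2_loc (hσ : Smooth (lvlS S) σ) (q : Nat.Primes) {a : Gl q → V}
    (ha : a ∈ Z1 (lvlLoc q) (ρ.comp (loc q))) (w : W) :
    cup11 (P.comp (loc q)) a (d0 (σ.comp (loc q)) w) ∈ B2 (lvlLoc q) (muLoc p q) := by
  refine (mem_B2 _ _).2 ⟨-cup10 (P.comp (loc q)) a w,
    isConst₁_neg (cup10_const _ (smooth_loc hσ q) ha.2 w), ?_⟩
  rw [show muLoc p q = charRep ((cycloChar p).comp (loc q)) from rfl, map_neg, d1_cup10,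
    LinearMap.mem_ker.1 ha.1]
  funext g
  simp [cup20]

/-- `inv_q (a ∪ b)` on local cocycles. -/
def invCup (hσ : Smooth (lvlS S) σ) (q : Nat.Primes) :
    Z1 (lvlLoc q) (ρ.comp (loc q)) →ₗ[ZMod p] Z1 (lvlLoc q) (σ.comp (loc q)) →ₗ[ZMod p] ZMod p :=
  (cupZ P hσ q).compr₂ ((I.inv q).comp (H2cπ (lvlLoc q) (muLoc p q)))

theorem invCup_apply (hσ : Smooth (lvlS S) σ) (q : Nat.Primes)
    (a : Z1 (lvlLoc q) (ρ.comp (loc q))) (b : Z1 (lvlLoc q) (σ.comp (loc q))) :
    invCup P I hσ q a b = invOf I q (cup11 (P.comp (loc q)) a.1 b.1) := by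
  rw [invOf_eq I (cup11_mem_Z2 _ (smooth_loc hσ q) a.2 b.2)]
  rfl

/-- `inv_q (a ∪ b)` on local classes. -/
def pair11 (hσ : Smooth (lvlS S) σ) (q : Nat.Primes) :
    H1At ρ q →ₗ[ZMod p] H1At σ q →ₗ[ZMod p] ZMod p :=
  LinearMap.liftQ₂ _ _ (invCup P I hσ q)
    (fun a ha => LinearMap.mem_ker.2 (LinearMap.ext fun b => by
      obtain ⟨v, hv⟩ := ha
      show (I.inv q) (H2cπ (lvlLoc q) (muLoc p q) (cupZ P hσ q a b)) = 0
      rw [(H2cπ_eq_zero _ _).2, map_zero]
      show cup11 (P.comp (loc q)) a.1 b.1 ∈ _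
      rw [show (a : Gl q → V) = d0 (ρ.comp (loc q)) v from hv.symm]
      exact cup11_d0_left_mem_B2_loc P q v b.2))
    (fun b hb => LinearMap.mem_ker.2 (LinearMap.ext fun a => by
      obtain ⟨w, hw⟩ := hb
      show (I.inv q) (H2cπ (lvlLoc q) (muLoc p q) (cupZ P hσ q a b)) = 0
      rw [(H2cπ_eq_zero _ _).2, map_zero]
      show cup11 (P.comp (loc q)) a.1 b.1 ∈ _
      rw [show (b : Gl q → W) = d0 (σ.comp (loc q)) w from hw.symm]
      exact cup11_d0_right_mem_B2_loc P hσ q a.2 w))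

@[simp] theorem pair11_mk (hσ : Smooth (lvlS S) σ) (q : Nat.Primes)
    (a : Z1 (lvlLoc q) (ρ.comp (loc q))) (b : Z1 (lvlLoc q) (σ.comp (loc q))) :
    pair11 P I hσ q (H1cπ (lvlLoc q) (ρ.comp (loc q)) a) (H1cπ (lvlLoc q) (σ.comp (loc q)) b) = invOf I q (cup11 (P.comp (loc q)) a.1 b.1) :=
  invCup_apply P I hσ q a b

/-- The semi-local pairing. -/
def pairP1 (hσ : Smooth (lvlS S) σ) : P1 S ρ →ₗ[ZMod p] P1 S σ →ₗ[ZMod p] ZMod p :=
  ∑ q : S, (pair11 P I hσ q.1).compl₁₂ (LinearMap.proj q) (LinearMap.proj q)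

theorem pairP1_apply (hσ : Smooth (lvlS S) σ) (a : P1 S ρ) (b : P1 S σ) :
    pairP1 P I hσ a b = ∑ q : S, pair11 P I hσ q.1 (a q) (b q) := by
  simp [pairP1]

variable [Finite V] [Finite W]

omit [Finite V] [Finite W] in
theorem Pairing.Perfect.comp {P : Pairing (cycloChar p) ρ σ} (hP : P.Perfect) (q : Nat.Primes) :
    (P.comp (loc q)).Perfect := hP

theorem pairP1_injective (hp : p ≠ 2) (hP : P.Perfect) (hρ : Smooth (lvlS S) ρ)
    (hσ : Smooth (lvlS S) σ) : Function.Injective (pairP1 P I hσ) := by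
  classical
  refine (injective_iff_map_eq_zero _).2 fun a ha => funext fun q => ?_
  obtain ⟨x, hx⟩ := Submodule.mkQ_surjective _ (a q)
  rw [Pi.zero_apply, ← hx]
  refine (H1cπ_eq_zero _ _).2 (mem_B1_of_forall_cup11_left p q.1 (P.comp (loc q.1)) hp (hP.comp q.1)
    (smooth_loc hρ q.1) (smooth_loc hσ q.1) x.1 x.2 fun b hb => ?_)
  have h := LinearMap.congr_fun ha (Pi.single q (H1cπ (lvlLoc q.1) (σ.comp (loc q.1)) ⟨b, hb⟩))
  rw [LinearMap.zero_apply, pairP1_apply, Finset.sum_eq_single q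
    (fun q' _ hne => by rw [Pi.single_eq_of_ne hne, map_zero]) (by simp), Pi.single_eq_same,
    ← hx] at h
  exact (invOf_eq_zero_iff I q.2 (cup11_mem_Z2 _ (smooth_loc hσ q.1) x.2 hb)).1
    ((pair11_mk P I hσ q.1 x ⟨b, hb⟩).symm.trans h)

theorem pairP1_flip_injective (hp : p ≠ 2) (hP : P.Perfect) (hρ : Smooth (lvlS S) ρ)
    (hσ : Smooth (lvlS S) σ) : Function.Injective (pairP1 P I hσ).flip := by
  classical
  refine (injective_iff_map_eq_zero _).2 fun b hb => funext fun q => ?_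
  obtain ⟨x, hx⟩ := Submodule.mkQ_surjective _ (b q)
  rw [Pi.zero_apply, ← hx]
  refine (H1cπ_eq_zero _ _).2 (mem_B1_of_forall_cup11_right p q.1 (P.comp (loc q.1)) hp (hP.comp q.1)
    (smooth_loc hρ q.1) (smooth_loc hσ q.1) x.1 x.2 fun a ha => ?_)
  have h := LinearMap.congr_fun hb (Pi.single q (H1cπ (lvlLoc q.1) (ρ.comp (loc q.1)) ⟨a, ha⟩))
  rw [LinearMap.zero_apply, LinearMap.flip_apply, pairP1_apply, Finset.sum_eq_single q
    (fun q' _ hne => by rw [Pi.single_eq_of_ne hne, map_zero, LinearMap.zero_apply]) (by simp),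
    Pi.single_eq_same, ← hx] at h
  exact (invOf_eq_zero_iff I q.2 (cup11_mem_Z2 _ (smooth_loc hσ q.1) ha x.2)).1
    ((pair11_mk P I hσ q.1 ⟨a, ha⟩ x).symm.trans h)

theorem finite_P1 (hρ : Smooth (lvlS S) ρ) : Finite (P1 S ρ) := by
  have := fun q : S => finite_localH1 (p := p) (q := q.1) (smooth_loc hρ q.1)
  infer_instance

/-- A pairing of finite spaces which is nondegenerate on both sides is perfect. -/
theorem surjective_of_nondegenerate_of_finite {k A B : Type} [Field k] [Finite k]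
    [AddCommGroup A] [Module k A] [AddCommGroup B] [Module k B] [Finite A] [Finite B]
    (f : A →ₗ[k] B →ₗ[k] k) (h1 : Function.Injective f) (h2 : Function.Injective f.flip) :
    Function.Surjective f ∧ Function.Surjective f.flip := by
  have : Module.Finite k A := Module.Finite.of_finite
  have : Module.Finite k B := Module.Finite.of_finite
  have e1 : finrank k A ≤ finrank k (Module.Dual k B) :=
    LinearMap.finrank_le_finrank_of_injective h1
  have e2 : finrank k B ≤ finrank k (Module.Dual k A) :=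
    LinearMap.finrank_le_finrank_of_injective h2
  have dA : finrank k (Module.Dual k A) = finrank k A := Subspace.dual_finrank_eq
  have dB : finrank k (Module.Dual k B) = finrank k B := Subspace.dual_finrank_eq
  have e3 : finrank k A = finrank k (Module.Dual k B) := by omega
  have e4 : finrank k B = finrank k (Module.Dual k A) := by omega
  exact ⟨(LinearMap.injective_iff_surjective_of_finrank_eq_finrank (f := f) e3).1 h1,
    (LinearMap.injective_iff_surjective_of_finrank_eq_finrank (f := f.flip) e4).1 h2⟩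

/-- Every functional on semi-local classes is represented by a class. -/
theorem exists_pairP1_eq (hp : p ≠ 2) (hP : P.Perfect) (hρ : Smooth (lvlS S) ρ)
    (hσ : Smooth (lvlS S) σ) (f : P1 S σ →ₗ[ZMod p] ZMod p) :
    ∃ a, pairP1 P I hσ a = f :=
  have := finite_P1 (ρ := ρ) (S := S) hρ
  have := finite_P1 (ρ := σ) (S := S) hσ
  (surjective_of_nondegenerate_of_finite (pairP1 P I hσ) (pairP1_injective P I hp hP hρ hσ)
    (pairP1_flip_injective P I hp hP hρ hσ)).1 f

theorem exists_pairP1_flip_eq (hp : p ≠ 2) (hP : P.Perfect) (hρ : Smooth (lvlS S) ρ)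
    (hσ : Smooth (lvlS S) σ) (f : P1 S ρ →ₗ[ZMod p] ZMod p) :
    ∃ b, (pairP1 P I hσ).flip b = f :=
  have := finite_P1 (ρ := ρ) (S := S) hρ
  have := finite_P1 (ρ := σ) (S := S) hσ
  (surjective_of_nondegenerate_of_finite (pairP1 P I hσ) (pairP1_injective P I hp hP hρ hσ)
    (pairP1_flip_injective P I hp hP hρ hσ)).2 f

/-- Localisation of global 1-cocycles. -/
def locZ1 (S : Finset Nat.Primes) (ρ : Representation (ZMod p) GQ V) :
    Z1 (lvlS S) ρ →ₗ[ZMod p] P1 S ρ :=
  LinearMap.pi fun q => (locH1 S ρ q.1).comp (H1cπ (lvlS S) ρ)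

end FLTA.PT

end
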