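import Fermat.Agent.PoitouTate.HasseBase
import Fermat.Agent.Galois.Finiteness
import Fermat.Agent.Galois.Cyclotomic

/-!
# Levels versus the level fields of the frozen definitions
-/

set_option autoImplicit false

open ExtCitation

noncomputable section

namespace FLTA.PT

theorem normal_fixingSubgroup_of_normalClosure (F : IntermediateField ℚ Qb) :
    (IntermediateField.normalClosure ℚ F Qb).fixingSubgroup.Normal :=
  (InfiniteGalois.normal_iff_isGalois _).mpr inferInstance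

theorem exists_mem_lvlQ_le (F : IntermediateField ℚ Qb) [FiniteDimensional ℚ F] :
    ∃ U ∈ lvlQ, U ≤ F.fixingSubgroup :=
  ⟨(IntermediateField.normalClosure ℚ F Qb).fixingSubgroup,
    ⟨normal_fixingSubgroup_of_normalClosure F, IntermediateField.normalClosure ℚ F Qb,
      normalClosure.is_finiteDimensional ℚ F Qb, le_rfl⟩,
    IntermediateField.fixingSubgroup_antitone F.le_normalClosure⟩

theorem exists_mem_lvlS_le {S : Finset Nat.Primes} {F : IntermediateField ℚ Qb}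
    (hF : F.IsUnramifiedOutside S) : ∃ U ∈ lvlS S, U ≤ F.fixingSubgroup :=
  ⟨(IntermediateField.normalClosure ℚ F Qb).fixingSubgroup,
    ⟨normal_fixingSubgroup_of_normalClosure F, IntermediateField.normalClosure ℚ F Qb,
      FLTA.Galois.isUnramifiedOutside_normalClosure hF, le_rfl⟩,
    IntermediateField.fixingSubgroup_antitone F.le_normalClosure⟩

variable {X : Type*}

theorem isConst₁_lvlS_iff (S : Finset Nat.Primes) (f : GQ → X) :
    IsConst₁ (lvlS S) f ↔ groupCohomology.IsLevelConstantS₁ S f := by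
  constructor
  · rintro ⟨U, ⟨-, F, hF, hFU⟩, h⟩
    exact ⟨F, hF, fun g s hs => h g s (hFU hs)⟩
  · rintro ⟨F, hF, h⟩
    obtain ⟨U, hU, hle⟩ := exists_mem_lvlS_le hF
    exact ⟨U, hU, fun g s hs => h g s (hle hs)⟩

theorem isConst₂_lvlS_iff (S : Finset Nat.Primes) (f : GQ × GQ → X) :
    IsConst₂ (lvlS S) f ↔ groupCohomology.IsLevelConstantS₂ S f := by
  constructor
  · rintro ⟨U, ⟨-, F, hF, hFU⟩, h⟩
    exact ⟨F, hF, fun g g' s s' hs hs' => h g g' s s' (hFU hs) (hFU hs')⟩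
  · rintro ⟨F, hF, h⟩
    obtain ⟨U, hU, hle⟩ := exists_mem_lvlS_le hF
    exact ⟨U, hU, fun g g' s s' hs hs' => h g g' s s' (hle hs) (hle hs')⟩

theorem isConst₁_lvlLoc_iff (q : Nat.Primes) (f : Gl q → X) :
    IsConst₁ (lvlLoc q) f ↔ groupCohomology.IsLevelConstant₁ (loc q) f := by
  constructor
  · rintro ⟨U, ⟨W, ⟨-, F, hF, hFW⟩, rfl⟩, h⟩
    exact ⟨F, hF, fun g s hs => h g s (hFW hs)⟩
  · rintro ⟨F, hF, h⟩
    obtain ⟨W, hW, hle⟩ := exists_mem_lvlQ_le F
    exact ⟨W.comap (loc q), ⟨W, hW, rfl⟩, fun g s hs => h g s (hle hs)⟩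

theorem isConst₂_lvlLoc_iff (q : Nat.Primes) (f : Gl q × Gl q → X) :
    IsConst₂ (lvlLoc q) f ↔ groupCohomology.IsLevelConstant₂ (loc q) f := by
  constructor
  · rintro ⟨U, ⟨W, ⟨-, F, hF, hFW⟩, rfl⟩, h⟩
    exact ⟨F, hF, fun g g' s s' hs hs' => h g g' s s' (hFW hs) (hFW hs')⟩
  · rintro ⟨F, hF, h⟩
    obtain ⟨W, hW, hle⟩ := exists_mem_lvlQ_le F
    exact ⟨W.comap (loc q), ⟨W, hW, rfl⟩, fun g g' s s' hs hs' =>
      h g g' s s' (hle hs) (hle hs')⟩

end FLTA.PT

end
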