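import Fermat.Agent.PoitouTate.Units

/-!
# Shapiro's lemma in degrees 1 and 2, and index-prime-to-`p` injectivity
-/

set_option autoImplicit false

noncomputable section

namespace FLTA.PT

set_option linter.unusedSectionVars false

variable {k : Type*} [CommRing k] {Γ : Type*} [Group Γ] (L : Lvl Γ)
variable {V : Type*} [AddCommGroup V] [Module k V] (ρ : Representation k Γ V)

/-- Finitely many open subgroups contain a common level. -/
theorem Lvl.exists_mem_le_forall {ι : Type*} [Finite ι] (f : ι → Subgroup Γ)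
    (hf : ∀ i, IsOpenLvl L (f i)) : ∃ U ∈ L, ∀ i, U ≤ f i := by
  classical
  cases nonempty_fintype ι
  suffices ∀ s : Finset ι, ∃ U ∈ L, ∀ i ∈ s, U ≤ f i by
    obtain ⟨U, hU, h⟩ := this Finset.univ
    exact ⟨U, hU, fun i => h i (Finset.mem_univ i)⟩
  intro s
  induction s using Finset.induction with
  | empty => exact ⟨⊤, L.top_mem, by simp⟩
  | insert a s _ ih =>
    obtain ⟨U, hU, h⟩ := ih
    obtain ⟨U', hU', h'⟩ := hf a
    refine ⟨U ⊓ U', L.inf_mem U hU U' hU', fun i hi => ?_⟩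
    rcases Finset.mem_insert.1 hi with rfl | hi
    · exact inf_le_right.trans h'
    · exact inf_le_left.trans (h i hi)

variable {X : Type*} [MulAction Γ X]

/-- A choice of a base point and a translating element for every point. -/
structure OrbitSection (Γ : Type*) [Group Γ] (X : Type*) [MulAction Γ X] where
  /-- the base point -/
  base : X → X
  /-- the translating element -/
  rep : X → Γ
  rep_smul : ∀ y, rep y • base y = y
  base_smul : ∀ (g : Γ) (y : X), base (g • y) = base y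

/-- The canonical orbit section. -/
def orbitSection : OrbitSection Γ X where
  base y := (Quotient.mk (MulAction.orbitRel Γ X) y).out
  rep y := (show y ∈ MulAction.orbit Γ (Quotient.mk (MulAction.orbitRel Γ X) y).out from
    (MulAction.orbitRel Γ X).symm (@Quotient.mk_out _ (MulAction.orbitRel Γ X) y)).choose
  rep_smul y := (show y ∈ MulAction.orbit Γ (Quotient.mk (MulAction.orbitRel Γ X) y).out from
    (MulAction.orbitRel Γ X).symm (@Quotient.mk_out _ (MulAction.orbitRel Γ X) y)).choose_spec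
  base_smul g y := by
    congr 1
    exact Quotient.sound ⟨g, rfl⟩

namespace OrbitSection

variable (o : OrbitSection Γ X)

/-- The stabiliser part of `g` at `y`. -/
def tw (g : Γ) (y : X) : Γ := (o.rep y)⁻¹ * g * o.rep (g⁻¹ • y)

theorem tw_smul (g : Γ) (y : X) : o.tw g y • o.base y = o.base y := by
  rw [tw, mul_smul, mul_smul]
  conv_lhs => arg 2; arg 2; arg 2; rw [← o.base_smul g⁻¹ y]
  rw [o.rep_smul, smul_inv_smul, inv_smul_eq_iff, o.rep_smul]

theorem rep_mul_tw (g : Γ) (y : X) : o.rep y * o.tw g y = g * o.rep (g⁻¹ • y) := by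
  simp [tw, mul_assoc]

theorem tw_mul (g h : Γ) (y : X) : o.tw (g * h) y = o.tw g y * o.tw h (g⁻¹ • y) := by
  simp [tw, mul_assoc, mul_smul]

theorem mem_stabilizer_tw (g : Γ) (y : X) : o.tw g y ∈ MulAction.stabilizer Γ (o.base y) :=
  o.tw_smul g y

end OrbitSection

theorem smooth_funRep [Finite X] (hρ : Smooth L ρ)
    (hX : ∀ x : X, IsOpenLvl L (MulAction.stabilizer Γ x)) : Smooth L (funRep ρ X) := by
  intro F
  choose W hW hW' using fun x => hρ (F x)
  obtain ⟨U, hU, hUx⟩ := L.exists_mem_le_forall _ hX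
  obtain ⟨U', hU', hU'x⟩ := L.exists_mem_le_forall W fun x => ⟨W x, hW x, le_rfl⟩
  refine ⟨U ⊓ U', L.inf_mem U hU U' hU', fun s hs => funext fun x => ?_⟩
  have h1 : s⁻¹ • x = x := hUx x (U.inv_mem hs.1)
  rw [funRep_apply, h1, hW' x s (hU'x x hs.2)]

section core

variable {L ρ}

/-- Shapiro injectivity in degree one, tested at the base points. -/
theorem mem_B1_funRep (o : OrbitSection Γ X) {z : Γ → X → V}
    (hz : ∀ g h, z (g * h) = funRep ρ X g (z h) + z g)
    (hv : ∀ y, ∃ v, ∀ s, s • o.base y = o.base y → z s (o.base y) = ρ s v - v) :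
    z ∈ B1 (funRep ρ X) := by
  choose v hv using fun x : X => Classical.skolem.1 (fun _ : Unit => hv x)
  classical
  -- one value per base point
  let v0 : X → V := fun x => if h : ∃ y, o.base y = x then v h.choose () else 0
  have hv0 : ∀ y s, s • o.base y = o.base y → z s (o.base y) = ρ s (v0 (o.base y)) - v0 (o.base y) := by
    intro y s hs
    have he : ∃ y', o.base y' = o.base y := ⟨y, rfl⟩
    have h2 := hv he.choose () s
    rw [he.choose_spec] at h2
    simpa only [v0, dif_pos he] using h2 hs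
  refine ⟨fun y => ρ (o.rep y) (v0 (o.base y)) - z (o.rep y) y, funext fun g => funext fun y => ?_⟩
  simp only [d0_apply, Pi.sub_apply, funRep_apply, o.base_smul]
  have h1 := congrFun (hz g (o.rep (g⁻¹ • y))) y
  have h2 := congrFun (hz (o.rep y) (o.tw g y)) y
  have e : (o.rep y)⁻¹ • y = o.base y := inv_smul_eq_iff.2 (o.rep_smul y).symm
  simp only [Pi.add_apply, funRep_apply] at h1 h2
  rw [o.rep_mul_tw, e, hv0 y _ (o.tw_smul g y), map_sub, ← Module.End.mul_apply, ← map_mul,
    o.rep_mul_tw, map_mul, Module.End.mul_apply] at h2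
  rw [map_sub]
  linear_combination (norm := abel) h1 - h2

/-- Shapiro injectivity in degree two, tested at the base points. -/
theorem mem_B2_funRep [Finite X] (hX : ∀ x : X, IsOpenLvl L (MulAction.stabilizer Γ x))
    (o : OrbitSection Γ X) {z : Γ × Γ → X → V}
    (hz : z ∈ Z2 L (funRep ρ X))
    (hv : ∀ y, ∃ u : Γ → V, (∃ T ∈ L, ∀ s t, s • o.base y = o.base y → t ∈ T →
        t • o.base y = o.base y → u (s * t) = u s) ∧
      ∀ s s', s • o.base y = o.base y → s' • o.base y = o.base y →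
        z (s, s') (o.base y) = ρ s (u s') - u (s * s') + u s) :
    z ∈ B2 L (funRep ρ X) := by
  classical
  obtain ⟨hc, U, hU, hzU⟩ := (mem_Z2 L _).1 hz
  choose u hu hu' using hv
  choose T hT hTu using hu
  let u0 : X → Γ → V := fun x => if h : ∃ y, o.base y = x then u h.choose else 0
  have hu0 : ∀ y s s', s • o.base y = o.base y → s' • o.base y = o.base y →
      z (s, s') (o.base y) = ρ s (u0 (o.base y) s') - u0 (o.base y) (s * s') + u0 (o.base y) s := by
    intro y s s' hs hs'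
    have he : ∃ y', o.base y' = o.base y := ⟨y, rfl⟩
    have h2 := hu' he.choose s s'
    rw [he.choose_spec] at h2
    simpa only [u0, dif_pos he] using h2 hs hs'
  obtain ⟨W, hW, hWx⟩ := L.exists_mem_le_forall _ hX
  obtain ⟨W', hW', hW'x⟩ := L.exists_mem_le_forall T fun y => ⟨T y, hT y, le_rfl⟩
  have hT0 : ∀ y s t, s • o.base y = o.base y → t ∈ W' → t • o.base y = o.base y →
      u0 (o.base y) (s * t) = u0 (o.base y) s := by
    intro y s t hs ht ht'
    have he : ∃ y', o.base y' = o.base y := ⟨y, rfl⟩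
    have h2 := hTu he.choose s t
    rw [he.choose_spec] at h2
    simpa only [u0, dif_pos he] using h2 hs (hW'x _ ht) ht'
  let F : Γ → X → V := fun g y =>
    z (g, o.rep (g⁻¹ • y)) y - z (o.rep y, o.tw g y) y + ρ (o.rep y) (u0 (o.base y) (o.tw g y))
  refine (mem_B2 L _).2 ⟨F, ⟨(U ⊓ W) ⊓ W', L.inf_mem _ (L.inf_mem U hU W hW) W' hW', ?_⟩, ?_⟩
  · intro g t ht
    funext y
    have h1 : (g * t)⁻¹ • y = g⁻¹ • y := by
      rw [mul_inv_rev, mul_smul]
      exact hWx _ (W.inv_mem ht.1.2)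
    have hn := L.normal_of_mem _ (L.inf_mem _ (L.inf_mem U hU W hW) W' hW')
    set r := o.rep (g⁻¹ • y)
    have hr : r⁻¹ * t * r ∈ (U ⊓ W) ⊓ W' := hn.conj_mem' t ht r
    have h2 : o.tw (g * t) y = o.tw g y * (r⁻¹ * t * r) := by
      simp only [OrbitSection.tw, h1, r]; group
    have hz1 : z (g * t, r) = z (g, r) := by
      simpa using hzU g r t 1 ht.1.1 U.one_mem
    have hz2 : z (o.rep y, o.tw g y * (r⁻¹ * t * r)) = z (o.rep y, o.tw g y) := by
      simpa using hzU (o.rep y) (o.tw g y) 1 (r⁻¹ * t * r) U.one_mem hr.1.1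
    simp only [F, h1, h2, r] at *
    rw [hz1, hz2, hT0 y _ _ (o.tw_smul g y) hr.2 (hWx _ hr.1.2)]
  · funext ⟨g, h⟩ y
    set r := o.rep y
    set y1 := g⁻¹ • y with hy1
    set r1 := o.rep y1
    set y2 := h⁻¹ • y1 with hy2
    set r2 := o.rep y2
    set a := o.tw g y
    set b := o.tw h y1
    have hy3 : (g * h)⁻¹ • y = y2 := by rw [hy2, hy1, mul_inv_rev, mul_smul]
    have hb0 : b • o.base y = o.base y := by
      have := o.tw_smul h y1
      rwa [hy1, o.base_smul] at this
    have e1 : h * r2 = r1 * b := (o.rep_mul_tw h y1).symm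
    have e2 : g * r1 = r * a := (o.rep_mul_tw g y).symm
    have e : r⁻¹ • y = o.base y := inv_smul_eq_iff.2 (o.rep_smul y).symm
    have c1 := congrFun (hc g h r2) y
    have c2 := congrFun (hc g r1 b) y
    have c3 := congrFun (hc r a b) y
    simp only [Pi.add_apply, funRep_apply] at c1 c2 c3
    rw [e1] at c1
    rw [e, hu0 y a b (o.tw_smul g y) hb0, map_add, map_sub, ← Module.End.mul_apply, ← map_mul,
      ← e2, map_mul, Module.End.mul_apply] at c3
    simp only [d1_apply, F, Pi.add_apply, Pi.sub_apply, funRep_apply, hy3,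
      o.tw_mul g h y, map_sub, map_add]
    rw [show o.base y1 = o.base y by rw [hy1, o.base_smul]]
    simp only [r, r1, r2, a, b, y1, y2] at c1 c2 c3 ⊢
    linear_combination (norm := abel) -c1 + c2 - c3

end core

theorem eq_zero_of_forall_eval1_eq_zero [Finite X] (hρ : Smooth L ρ)
    (hX : ∀ x : X, IsOpenLvl L (MulAction.stabilizer Γ x))
    (c : H1c L (funRep ρ X)) (hc : ∀ x, eval1 ρ L x c = 0) : c = 0 := by
  obtain ⟨z, rfl⟩ := Submodule.Quotient.mk_surjective _ c
  refine (H1cπ_eq_zero L _).2 (mem_B1_funRep orbitSection ((mem_Z1 L _).1 z.2).1 fun y => ?_)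
  have h := hc (orbitSection.base (Γ := Γ) y)
  rw [eval1, ← Submodule.mkQ_apply, map1_mk, H1cπ_eq_zero] at h
  obtain ⟨v, hv⟩ := h
  exact ⟨v, fun s hs => (congrFun hv ⟨s, hs⟩).symm⟩

theorem eq_zero_of_forall_eval2_eq_zero [Finite X] (hρ : Smooth L ρ)
    (hX : ∀ x : X, IsOpenLvl L (MulAction.stabilizer Γ x))
    (c : H2c L (funRep ρ X)) (hc : ∀ x, eval2 ρ L x c = 0) : c = 0 := by
  classical
  obtain ⟨z, rfl⟩ := Submodule.Quotient.mk_surjective _ c
  refine (H2cπ_eq_zero L _).2 (mem_B2_funRep hX orbitSection z.2 fun y => ?_)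
  set x := orbitSection.base (Γ := Γ) y
  have h := hc x
  rw [eval2, ← Submodule.mkQ_apply, map2_mk, H2cπ_eq_zero, mem_B2] at h
  obtain ⟨u, ⟨_, ⟨T, hT, rfl⟩, huT⟩, hu⟩ := h
  refine ⟨fun s => if hs : s • x = x then u ⟨s, hs⟩ else 0, ⟨T, hT, fun s t hs ht ht' => ?_⟩,
    fun s s' hs hs' => ?_⟩
  · have hst : (s * t) • x = x := by rw [mul_smul, ht', hs]
    simp only [dif_pos hst, dif_pos hs]
    exact huT ⟨s, hs⟩ ⟨t, ht'⟩ ht
  · have hst : (s * s') • x = x := by rw [mul_smul, hs', hs]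
    simp only [dif_pos hst, dif_pos hs, dif_pos hs']
    exact (congrFun hu (⟨s, hs⟩, ⟨s', hs'⟩)).symm

section build

variable (x : X)

open Classical in
/-- Translating elements towards `x`, trivial at `x`. -/
def repTo (y : X) : Γ :=
  if h : y ∈ MulAction.orbit Γ x then
    h.choose * (MulAction.mem_orbit_self (M := Γ) x).choose⁻¹
  else 1

theorem repTo_smul {y : X} (h : y ∈ MulAction.orbit Γ x) : repTo (Γ := Γ) x y • x = y := by
  rw [repTo, dif_pos h, mul_smul, inv_smul_eq_iff.2 (MulAction.mem_orbit_self x).choose_spec.symm]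
  exact h.choose_spec

theorem repTo_self : repTo (Γ := Γ) x x = 1 := by
  rw [repTo, dif_pos (MulAction.mem_orbit_self x), mul_inv_cancel]

open Classical in
/-- The stabiliser part of `g` at `y`, relative to `x`. -/
def twTo (g : Γ) (y : X) : MulAction.stabilizer Γ x :=
  if h : y ∈ MulAction.orbit Γ x then
    ⟨(repTo x y)⁻¹ * g * repTo x (g⁻¹ • y), by
      have h' : g⁻¹ • y ∈ MulAction.orbit Γ x :=
        MulAction.orbit_eq_iff.2 h ▸ MulAction.mem_orbit y g⁻¹
      rw [MulAction.mem_stabilizer_iff, mul_smul, mul_smul, repTo_smul x h', smul_inv_smul,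
        inv_smul_eq_iff, repTo_smul x h]⟩
  else 1

theorem smul_mem_orbit_iff' (g : Γ) (y : X) :
    g • y ∈ MulAction.orbit Γ x ↔ y ∈ MulAction.orbit Γ x := by
  rw [← MulAction.orbit_eq_iff, MulAction.orbit_smul, MulAction.orbit_eq_iff]

theorem twTo_mul {g h : Γ} {y : X} (hy : y ∈ MulAction.orbit Γ x) :
    twTo x (g * h) y = twTo x g y * twTo x h (g⁻¹ • y) := by
  apply Subtype.ext
  have h' : g⁻¹ • y ∈ MulAction.orbit Γ x := (smul_mem_orbit_iff' x g⁻¹ y).2 hy
  simp [twTo, dif_pos hy, dif_pos h', mul_smul, mul_assoc]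

theorem twTo_self (s : MulAction.stabilizer Γ x) : twTo x (s : Γ) x = s := by
  apply Subtype.ext
  have hs : (s : Γ)⁻¹ • x = x := inv_smul_eq_iff.2 s.2.symm
  simp [twTo, dif_pos (MulAction.mem_orbit_self (M := Γ) x), hs, repTo_self]

theorem twTo_mul_right {g t : Γ} {y : X} (ht : ∀ z : X, t • z = z) :
    (twTo x (g * t) y : Γ) = twTo x g y * ((repTo x (g⁻¹ • y))⁻¹ * t * repTo x (g⁻¹ • y)) ∨
      y ∉ MulAction.orbit Γ x := by
  by_cases hy : y ∈ MulAction.orbit Γ x
  · left
    have e : t⁻¹ • g⁻¹ • y = g⁻¹ • y := by rw [inv_smul_eq_iff, ht]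
    simp [twTo, dif_pos hy, mul_smul, e]
    group
  · exact .inr hy

end build

theorem exists_eval1_eq [Finite X] (hρ : Smooth L ρ)
    (hX : ∀ x : X, IsOpenLvl L (MulAction.stabilizer Γ x)) (x : X)
    (c₀ : H1c (L.comap (MulAction.stabilizer Γ x).subtype)
      (ρ.comp (MulAction.stabilizer Γ x).subtype)) :
    ∃ c : H1c L (funRep ρ X), eval1 ρ L x c = c₀ ∧
      ∀ y, y ∉ MulAction.orbit Γ x → eval1 ρ L y c = 0 := by
  classical
  obtain ⟨⟨z, hz⟩, rfl⟩ := Submodule.Quotient.mk_surjective _ c₀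
  obtain ⟨hc, _, ⟨T, hT, rfl⟩, hzT⟩ := (mem_Z1 _ _).1 hz
  obtain ⟨W, hW, hWx⟩ := L.exists_mem_le_forall _ hX
  let F : Γ → X → V := fun g y =>
    if y ∈ MulAction.orbit Γ x then ρ (repTo x y) (z (twTo x g y)) else 0
  have hF : F ∈ Z1 L (funRep ρ X) := by
    refine (mem_Z1 L _).2 ⟨fun g h => funext fun y => ?_, W ⊓ T, L.inf_mem W hW T hT, ?_⟩
    · simp only [Pi.add_apply, funRep_apply, F, smul_mem_orbit_iff']
      split_ifs with hy
      · rw [twTo_mul x hy, hc, map_add]
        congr 1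
        show ρ (repTo x y) (ρ (twTo x g y : Γ) _) = _
        rw [← Module.End.mul_apply, ← map_mul, ← Module.End.mul_apply, ← map_mul]
        congr 2
        simp [twTo, dif_pos hy, mul_assoc]
      · simp
    · intro g t ht
      funext y
      simp only [F]
      split_ifs with hy
      · congr 1
        have ht' : ∀ z : X, t • z = z := fun z => hWx z ht.1
        obtain he | he := twTo_mul_right x (g := g) (y := y) ht'
        · have hn := (L.normal_of_mem _ (L.inf_mem W hW T hT)).conj_mem' t ht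
            (repTo x (g⁻¹ • y))
          have e : twTo x (g * t) y = twTo x g y * ⟨_, hWx x hn.1⟩ := Subtype.ext he
          rw [e]
          exact hzT _ _ hn.2
        · exact absurd hy he
      · rfl
  refine ⟨H1cπ L (funRep ρ X) ⟨F, hF⟩, ?_, fun y hy => ?_⟩
  · rw [eval1, map1_mk]
    refine congrArg Submodule.Quotient.mk (Subtype.ext ?_)
    funext s
    simp [F, repTo_self, twTo_self]
  · rw [eval1, map1_mk, H1cπ_eq_zero]
    exact ⟨0, funext fun s => by simp [F, hy]⟩

theorem exists_eval2_eq [Finite X] (hρ : Smooth L ρ)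
    (hX : ∀ x : X, IsOpenLvl L (MulAction.stabilizer Γ x)) (x : X)
    (c₀ : H2c (L.comap (MulAction.stabilizer Γ x).subtype)
      (ρ.comp (MulAction.stabilizer Γ x).subtype)) :
    ∃ c : H2c L (funRep ρ X), eval2 ρ L x c = c₀ ∧
      ∀ y, y ∉ MulAction.orbit Γ x → eval2 ρ L y c = 0 := by
  classical
  obtain ⟨⟨z, hz⟩, rfl⟩ := Submodule.Quotient.mk_surjective _ c₀
  obtain ⟨hc, _, ⟨T, hT, rfl⟩, hzT⟩ := (mem_Z2 _ _).1 hz
  obtain ⟨W, hW, hWx⟩ := L.exists_mem_le_forall _ hX
  let F : Γ × Γ → X → V := fun g y =>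
    if y ∈ MulAction.orbit Γ x then
      ρ (repTo x y) (z (twTo x g.1 y, twTo x g.2 (g.1⁻¹ • y))) else 0
  have hF : F ∈ Z2 L (funRep ρ X) := by
    refine (mem_Z2 L _).2 ⟨fun g h j => funext fun y => ?_, W ⊓ T, L.inf_mem W hW T hT, ?_⟩
    · simp only [Pi.add_apply, funRep_apply, F, smul_mem_orbit_iff']
      split_ifs with hy
      · have hy' : g⁻¹ • y ∈ MulAction.orbit Γ x := (smul_mem_orbit_iff' x g⁻¹ y).2 hy
        rw [twTo_mul x hy, twTo_mul x hy', mul_inv_rev, mul_smul, ← map_add, hc, map_add]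
        congr 1
        show ρ (repTo x y) (ρ (twTo x g y : Γ) _) = _
        rw [← Module.End.mul_apply, ← map_mul, ← Module.End.mul_apply, ← map_mul]
        congr 2
        simp [twTo, dif_pos hy, mul_assoc]
      · simp
    · intro g g' t t' ht ht'
      funext y
      simp only [F]
      split_ifs with hy
      · congr 1
        have htx : ∀ z : X, t • z = z := fun z => hWx z ht.1
        have htx' : ∀ z : X, t' • z = z := fun z => hWx z ht'.1
        have e : (g * t)⁻¹ • y = g⁻¹ • y := by rw [mul_inv_rev, mul_smul, inv_smul_eq_iff, htx]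
        have hy' : g⁻¹ • y ∈ MulAction.orbit Γ x := (smul_mem_orbit_iff' x g⁻¹ y).2 hy
        obtain he | he := twTo_mul_right x (g := g) (y := y) htx
        · obtain he' | he' := twTo_mul_right x (g := g') (y := g⁻¹ • y) htx'
          · have hn := (L.normal_of_mem _ (L.inf_mem W hW T hT)).conj_mem' t ht
              (repTo x (g⁻¹ • y))
            have hn' := (L.normal_of_mem _ (L.inf_mem W hW T hT)).conj_mem' t' ht'
              (repTo x (g'⁻¹ • g⁻¹ • y))
            have e1 : twTo x (g * t) y = twTo x g y * ⟨_, hWx x hn.1⟩ := Subtype.ext he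
            have e2 : twTo x (g' * t') (g⁻¹ • y) = twTo x g' (g⁻¹ • y) * ⟨_, hWx x hn'.1⟩ :=
              Subtype.ext he'
            rw [e, e1, e2]
            exact hzT _ _ _ _ hn.2 hn'.2
          · exact absurd hy' he'
        · exact absurd hy he
      · rfl
  refine ⟨H2cπ L (funRep ρ X) ⟨F, hF⟩, ?_, fun y hy => ?_⟩
  · rw [eval2, map2_mk]
    refine congrArg Submodule.Quotient.mk (Subtype.ext ?_)
    funext ⟨s, s'⟩
    have hs : (s : Γ)⁻¹ • x = x := inv_smul_eq_iff.2 s.2.symm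
    simp [F, hs, repTo_self, twTo_self]
  · rw [eval2, map2_mk, H2cπ_eq_zero, mem_B2]
    exact ⟨0, ⟨⊤, (L.comap _).top_mem, fun _ _ _ => rfl⟩, funext fun ⟨s, s'⟩ => by simp [F, hy]⟩

/-- An open subgroup has finite index and open coset stabilisers. -/
theorem IsOpenLvl.finite_quotient {H : Subgroup Γ} (hH : IsOpenLvl L H) : Finite (Γ ⧸ H) := by
  obtain ⟨U, hU, hle⟩ := hH
  haveI := L.finiteIndex_of_mem U hU
  haveI := Subgroup.finiteIndex_of_le hle
  infer_instance

theorem IsOpenLvl.stabilizer_quotient {H : Subgroup Γ} (hH : IsOpenLvl L H) (x : Γ ⧸ H) :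
    IsOpenLvl L (MulAction.stabilizer Γ x) := by
  obtain ⟨U, hU, hle⟩ := hH
  refine ⟨U, hU, fun u hu => ?_⟩
  induction x using QuotientGroup.induction_on with | H g => ?_
  rw [MulAction.mem_stabilizer_iff, MulAction.Quotient.smul_mk, QuotientGroup.eq]
  simpa [mul_assoc] using hle ((L.normal_of_mem U hU).conj_mem' u⁻¹ (U.inv_mem hu) g)

/-- The section of `Γ ⧸ H` based at the trivial coset. -/
def cosetSection (H : Subgroup Γ) : OrbitSection Γ (Γ ⧸ H) where
  base _ := ((1 : Γ) : Γ ⧸ H)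
  rep y := Quotient.out y
  rep_smul y := by
    rw [MulAction.Quotient.smul_mk, smul_eq_mul, mul_one]
    exact QuotientGroup.out_eq' y
  base_smul _ _ := rfl

theorem res1_injective_of_isUnit_index (hρ : Smooth L ρ) (H : Subgroup Γ)
    (hH : IsOpenLvl L H) (hidx : IsUnit (H.index : k)) :
    Function.Injective (res1 L ρ H.subtype) := by
  haveI := hH.finite_quotient
  haveI := Fintype.ofFinite (Γ ⧸ H)
  refine (injective_iff_map_eq_zero _).2 fun c hc => ?_
  obtain ⟨⟨z, hz⟩, rfl⟩ := Submodule.Quotient.mk_surjective _ c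
  obtain ⟨v, hv⟩ := (H1cπ_eq_zero (L.comap H.subtype) (ρ.comp H.subtype)).1 hc
  refine (H1cπ_eq_zero L ρ).2 ?_
  obtain ⟨F, hF⟩ := mem_B1_funRep (ρ := ρ) (cosetSection H) (z := fun g _ => z g)
    (fun g h => funext fun y => ((mem_Z1 L ρ).1 hz).1 g h) (fun y => ⟨v, fun s hs => by
      have hsH : s ∈ H := by
        simpa [cosetSection, QuotientGroup.eq, MulAction.Quotient.smul_mk] using hs
      exact (congrFun hv ⟨s, hsH⟩).symm⟩)
  obtain ⟨u, hu⟩ := hidx
  refine ⟨(u⁻¹ : kˣ) • sumMap (k := k) (Γ ⧸ H) F, funext fun g => ?_⟩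
  have h1 := congrArg (sumMap (k := k) (Γ ⧸ H)) (congrFun hF g)
  rw [d0_apply, map_sub] at h1
  rw [show sumMap (k := k) (Γ ⧸ H) (funRep ρ (Γ ⧸ H) g F) = ρ g (sumMap (k := k) (Γ ⧸ H) F) from
    equivariant_sumMap ρ (Γ ⧸ H) g F] at h1
  simp only [sumMap_apply (k := k) (V := V) (F := fun _ => z g), Finset.sum_const,
    Finset.card_univ, ← Nat.card_eq_fintype_card] at h1
  rw [← Subgroup.index, ← Nat.cast_smul_eq_nsmul k, ← hu] at h1
  rw [d0_apply, Units.smul_def, map_smul, ← smul_sub, h1, ← mul_smul, Units.inv_mul, one_smul]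

theorem res2_injective_of_isUnit_index (hρ : Smooth L ρ) (H : Subgroup Γ)
    (hH : IsOpenLvl L H) (hidx : IsUnit (H.index : k)) :
    Function.Injective (res2 L ρ H.subtype) := by
  classical
  haveI := hH.finite_quotient
  haveI := Fintype.ofFinite (Γ ⧸ H)
  refine (injective_iff_map_eq_zero _).2 fun c hc => ?_
  obtain ⟨⟨z, hz⟩, rfl⟩ := Submodule.Quotient.mk_surjective _ c
  obtain ⟨w, ⟨_, ⟨T, hT, rfl⟩, hwT⟩, hw⟩ :=
    (mem_B2 _ _).1 ((H2cπ_eq_zero (L.comap H.subtype) (ρ.comp H.subtype)).1 hc)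
  refine (H2cπ_eq_zero L ρ).2 ?_
  have hz' : (fun g (_ : Γ ⧸ H) => z g) ∈ Z2 L (funRep ρ (Γ ⧸ H)) :=
    pp2_mem_Z2 (f := MonoidHom.id Γ) (lvlLE_id L) (equivariant_constMap ρ (Γ ⧸ H)) hz
  have hmem : ∀ s : Γ, s • ((1 : Γ) : Γ ⧸ H) = ((1 : Γ) : Γ ⧸ H) → s ∈ H := fun s hs => by
    simpa [QuotientGroup.eq, MulAction.Quotient.smul_mk] using hs
  have hv := mem_B2_funRep (ρ := ρ) (hH.stabilizer_quotient (L := L)) (cosetSection H) hz'
    (fun y => ⟨fun s => if hs : s ∈ H then w ⟨s, hs⟩ else 0, ⟨T, hT, fun s t hs ht ht' => by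
      have a1 : s ∈ H := hmem s hs
      have a2 : t ∈ H := hmem t ht'
      simp only [dif_pos a1, dif_pos (H.mul_mem a1 a2)]
      exact hwT ⟨s, a1⟩ ⟨t, a2⟩ ht⟩, fun s s' hs hs' => by
      have a1 : s ∈ H := hmem s hs
      have a2 : s' ∈ H := hmem s' hs'
      simp only [dif_pos a1, dif_pos a2, dif_pos (H.mul_mem a1 a2)]
      exact (congrFun hw (⟨s, a1⟩, ⟨s', a2⟩)).symm⟩)
  have hsum := pp2_mem_B2 (lvlLE_id L) (equivariant_sumMap ρ (Γ ⧸ H)) hv
  obtain ⟨u, hu⟩ := hidx
  have h2 := (B2 L ρ).smul_mem (↑u⁻¹ : k) hsum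
  convert h2 using 1
  funext g
  obtain ⟨g, g'⟩ := g
  simp only [Pi.smul_apply, pp2_apply, MonoidHom.id_apply, sumMap_apply, Finset.sum_const,
    Finset.card_univ, ← Nat.card_eq_fintype_card]
  rw [← Subgroup.index, ← Nat.cast_smul_eq_nsmul k, ← hu, ← mul_smul, Units.inv_mul, one_smul]

end FLTA.PT

end
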