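import Fermat.Agent.PoitouTate.HasseSha
import Fermat.Agent.PoitouTate.Shapiro

/-!
# `|Ш²_S(Ind μ_p)| ≤ |Cl_S(K)/p|`

A locally trivial class, evaluated at the base coset, becomes `d g` with `p • g = -d₀ b`; the
divisor of `b` modulo `p` gives a class of ideals of `K`, and this is injective.
-/

set_option autoImplicit false

open ExtCitation IsDedekindDomain NumberField
open scoped Pointwise nonZeroDivisors

noncomputable section

namespace FLTA.PT.Hasse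

variable (p : ℕ) [Fact p.Prime] (S : Finset Nat.Primes) (G₀ : Subgroup GQ)

/-- The base coset. -/
def baseCoset : GQ ⧸ G₀ := ((1 : GQ) : GQ ⧸ G₀)

/-- `I` is attached to the class `c`. -/
def ShaDatum [NumberField (fixedK G₀)] (c : H2c (lvlS S) (funRep (muRep p) (GQ ⧸ G₀)))
    (I : DivGrp (𝓞 (fixedK G₀)) (fixedK G₀)) : Prop :=
  ∃ (z : Z2 (lvlS S) (funRep (muRep p) (GQ ⧸ G₀))) (U : Subgroup GQ) (g₂ : G₀ → Mq) (b : Mq)
    (hb : b ∈ fixedBy unitsRep U),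
    H2cπ (lvlS S) (funRep (muRep p) (GQ ⧸ G₀)) z = c ∧ U ∈ lvlS S ∧ U ≤ G₀ ∧
      (∀ a s : G₀, (s : GQ) ∈ U → g₂ (a * s) = g₂ a) ∧
      (∀ a a' : G₀, muQ p ((z : GQ × GQ → GQ ⧸ G₀ → ZMod p) ((a : GQ), (a' : GQ)) (baseCoset G₀)) =
        unitsRep (a : GQ) (g₂ a') - g₂ (a * a') + g₂ a) ∧
      (∀ a : G₀, (p : ℤ) • g₂ a = -(unitsRep (a : GQ) b - b)) ∧
      ∀ q : Nat.Primes, q ∉ S → ∀ (A : ValuationSubring Qb) (hA : A.LiesOverPrime (q : ℕ))
        (_ : NumberField (fixedK U)),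
        (p : ℤ) ∣ ordAt U (placeSpec A (fixedK U) q hA).1 ⟨b, hb⟩ -
          cnt (fixedK G₀) (placeSpec A (fixedK G₀) q hA).1 (Additive.ofMul I)

theorem coe_dvd_sub_trans {a b c : ℤ} {n : ℤ} (h₁ : n ∣ a - b) (h₂ : n ∣ b - c) : n ∣ a - c := by
  have := dvd_add h₁ h₂
  rwa [sub_add_sub_cancel] at this

theorem placeSpec_injOn_under {U : Subgroup GQ} [NumberField (fixedK U)]
    [NumberField (fixedK G₀)] (hle : U ≤ G₀) {q q' : Nat.Primes} {A A' : ValuationSubring Qb}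
    (hA : A.LiesOverPrime (q : ℕ)) (hA' : A'.LiesOverPrime (q' : ℕ))
    (h : (placeSpec A (fixedK U) q hA).1 = (placeSpec A' (fixedK U) q' hA').1) :
    (placeSpec A (fixedK G₀) q hA).1 = (placeSpec A' (fixedK G₀) q' hA').1 := by
  refine HeightOneSpectrum.ext (Ideal.ext fun x => ?_)
  rw [placeSpec_asIdeal, placeSpec_asIdeal, FLTA.Galois.mem_placeIdeal, FLTA.Galois.mem_placeIdeal]
  have hmem : ((x : fixedK G₀) : Qb) ∈ fixedK U :=
    IntermediateField.fixedField_antitone hle (x : fixedK G₀).2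
  have hint : IsIntegral ℤ ((x : fixedK G₀) : Qb) :=
    FLTA.Galois.isIntegral_coe_ringOfIntegers x
  have hint' : IsIntegral ℤ (⟨_, hmem⟩ : fixedK U) :=
    (isIntegral_algHom_iff ((fixedK U).val.toIntAlgHom) Subtype.val_injective).1 hint
  have h' : (⟨⟨_, hmem⟩, hint'⟩ : 𝓞 (fixedK U)) ∈ (placeSpec A (fixedK U) q hA).1.asIdeal ↔
      (⟨⟨_, hmem⟩, hint'⟩ : 𝓞 (fixedK U)) ∈ (placeSpec A' (fixedK U) q' hA').1.asIdeal := by
    rw [h]
  exact h'

/-- Every locally trivial class has an attached ideal. -/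
theorem exists_shaDatum (hp : p ≠ 2) (hpS : pPrime p ∈ S) (hG : IsOpenLvl (lvlS S) G₀)
    (hμ : ∀ s ∈ G₀, cycloChar p s = 1) [NumberField (fixedK G₀)]
    (c : H2c (lvlS S) (funRep (muRep p) (GQ ⧸ G₀)))
    (hc : ∀ q ∈ S, locH2 S (funRep (muRep p) (GQ ⧸ G₀)) q c = 0) :
    ∃ I, ShaDatum p S G₀ c I := by
  classical
  have hGQ : IsOpenLvl lvlQ G₀ := isOpenLvl_lvlQ_of_lvlS hG
  obtain ⟨z, rfl⟩ := Submodule.Quotient.mk_surjective _ c
  obtain ⟨hz1, U₁, hU₁, hz2⟩ := (mem_Z2 _ _).1 z.2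
  obtain ⟨U₂, hU₂, hU₂le⟩ := hG
  set U := U₁ ⊓ U₂ with hUdef
  have hU : U ∈ lvlS S := (lvlS S).inf_mem U₁ hU₁ U₂ hU₂
  have hUle : U ≤ G₀ := inf_le_right.trans hU₂le
  have hUQ : U ∈ lvlQ := by
    have h := lvlS_le_lvlQ S U hU
    rwa [Subgroup.comap_id] at h
  have hUn : U.Normal := lvlQ.normal_of_mem U hUQ
  set x₀ := baseCoset G₀ with hx₀def
  have hx₀ : ∀ s : G₀, ((s : GQ)⁻¹) • x₀ = x₀ := fun s => by
    show (((s : GQ)⁻¹ * 1 : GQ) : GQ ⧸ G₀) = ((1 : GQ) : GQ ⧸ G₀)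
    rw [QuotientGroup.eq]
    simp
  let w : G₀ × G₀ → ZMod p :=
    fun x => (z : GQ × GQ → GQ ⧸ G₀ → ZMod p) ((x.1 : GQ), (x.2 : GQ)) x₀
  have hwU : ∀ a b s t : G₀, (s : GQ) ∈ U → (t : GQ) ∈ U → w (a * s, b * t) = w (a, b) := by
    intro a b s t hs ht
    simp only [w, Subgroup.coe_mul]
    rw [hz2 _ _ _ _ hs.1 ht.1]
  have hw : w ∈ Z2 (lvlQ.comap G₀.subtype) ((muRep p).comp G₀.subtype) := by
    refine (mem_Z2 _ _).2 ⟨fun a b j => ?_, U.comap G₀.subtype, ⟨U, hUQ, rfl⟩,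
      fun a b s t hs ht => hwU a b s t hs ht⟩
    have h := congrFun (hz1 (a : GQ) (b : GQ) (j : GQ)) x₀
    simp only [Pi.add_apply, funRep_apply, hx₀] at h
    exact h
  have hhasse : w ∈ B2 (lvlQ.comap G₀.subtype) ((muRep p).comp G₀.subtype) := by
    refine mem_B2_of_forall_place_aux p hp G₀ hGQ hμ w hw fun q g => ?_
    by_cases hq : q ∈ S
    · refine eval_mem_B2_placeHom p G₀ hμ (lvlS_le_lvlQ S) z.2 q g ?_
      have h := hc q hq
      have h' : H2cπ (lvlLoc q) ((funRep (muRep p) (GQ ⧸ G₀)).comp (loc q))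
          ⟨pp2 (loc q) (LinearMap.id : (GQ ⧸ G₀ → ZMod p) →ₗ[ZMod p] GQ ⧸ G₀ → ZMod p) z,
            pp2_mem_Z2 (lvlS_le_lvlLoc S q) (fun _ _ => rfl) z.2⟩ = 0 := h
      exact (H2cπ_eq_zero _ _).1 h'
    · exact mem_B2_placeHom_of_unramified p G₀ U hGQ hUQ q g
        (fun A hA => inertia_le_of_mem_lvlS hU hq hA) hμ w hw hwU
  obtain ⟨γ, hγc, hγ⟩ := (mem_B2 _ _).1 hhasse
  have hγ' : ∀ a b : G₀, γ b - γ (a * b) + γ a = w (a, b) := fun a b => by
    have h := congrFun hγ (a, b)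
    simpa [hμ _ a.2] using h
  set c₀ := w (1, 1) with hc₀
  have hw1 : ∀ a : G₀, w (a, 1) = c₀ := fun a => by
    have h := ((mem_Z2 _ _).1 hw).1 a 1 1
    simpa [hμ _ a.2] using h
  have hw1' : ∀ a : G₀, w (1, a) = c₀ := fun a => by
    have h := ((mem_Z2 _ _).1 hw).1 1 1 a
    simp only [one_mul, map_one, Module.End.one_apply] at h
    exact (add_left_cancel h).symm
  have hws : ∀ a s : G₀, (s : GQ) ∈ U → w (a, s) = c₀ := fun a s hs => by
    rw [← hw1 a]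
    simpa using hwU a 1 1 s U.one_mem hs
  have hws' : ∀ a s : G₀, (s : GQ) ∈ U → w (s, a) = c₀ := fun a s hs => by
    rw [← hw1' a]
    simpa using hwU 1 a s 1 hs U.one_mem
  -- Hilbert 90 on `U`
  let h : U → Mq := fun s => muQ p (γ ⟨(s : GQ), hUle s.2⟩ - c₀)
  have hUfix : ∀ (s : G₀) (x : ZMod p), unitsRep (s : GQ) (muQ p x) = muQ p x := fun s x => by
    rw [← muQ_equivariant, charRep_apply, hμ _ s.2, Units.val_one, one_mul]
  have hh : h ∈ Z1 (lvlQ.comap U.subtype) (unitsRep.comp U.subtype) := by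
    refine (mem_Z1 _ _).2 ⟨fun s t => ?_, ?_⟩
    · show muQ p (γ ⟨((s * t : U) : GQ), _⟩ - c₀) = unitsRep (s : GQ) (muQ p _) + muQ p _
      rw [hUfix ⟨(s : GQ), hUle s.2⟩, ← map_add]
      congr 1
      have h1 := hγ' ⟨(s : GQ), hUle s.2⟩ ⟨(t : GQ), hUle t.2⟩
      rw [hws _ ⟨(t : GQ), hUle t.2⟩ t.2] at h1
      have e : (⟨((s * t : U) : GQ), hUle (s * t).2⟩ : G₀) =
          ⟨(s : GQ), hUle s.2⟩ * ⟨(t : GQ), hUle t.2⟩ := rfl
      rw [e]
      linear_combination -h1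
    · obtain ⟨V, ⟨W, hW, rfl⟩, hV⟩ := hγc
      refine ⟨W.comap U.subtype, ⟨W, hW, rfl⟩, fun s t ht => ?_⟩
      show muQ p (γ (⟨(s : GQ), hUle s.2⟩ * ⟨(t : GQ), hUle t.2⟩) - c₀) = _
      rw [hV _ _ ht]
  obtain ⟨θ, hθ⟩ := h1Vanishes_unitsRep U ⟨U, hUQ, le_rfl⟩ h hh
  let g₂ : G₀ → Mq := fun a => muQ p (γ a) - (unitsRep (a : GQ) θ - θ)
  set b : Mq := (p : ℤ) • θ with hbdef
  have hθs : ∀ s : G₀, (s : GQ) ∈ U → unitsRep (s : GQ) θ - θ = muQ p (γ s - c₀) := fun s hs => by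
    exact congrFun hθ ⟨(s : GQ), hs⟩
  have hp0 : ∀ x : ZMod p, (p : ℤ) • muQ p x = 0 := fun x => by
    rw [natCast_zsmul, nsmul_muQ]
  have hb : b ∈ fixedBy unitsRep U := fun s hs => by
    rw [hbdef, map_zsmul, ← sub_eq_zero, ← zsmul_sub]
    exact (congrArg ((p : ℤ) • ·) (hθs ⟨s, hUle hs⟩ hs)).trans (hp0 _)
  have hg₂U : ∀ a s : G₀, (s : GQ) ∈ U → g₂ (a * s) = g₂ a := by
    intro a s hs
    have h1 := hγ' a s
    rw [hws a s hs] at h1
    have h2 : unitsRep (((a * s : G₀) : GQ)) θ - θ =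
        (unitsRep (a : GQ) θ - θ) + muQ p (γ s - c₀) := by
      rw [Subgroup.coe_mul, map_mul, Module.End.mul_apply, ← hUfix a (γ s - c₀), ← hθs s hs,
        map_sub]
      abel
    simp only [g₂, h2]
    rw [show γ (a * s) = γ a + (γ s - c₀) by linear_combination -h1, map_add]
    abel
  have hg₂d : ∀ a a' : G₀, muQ p (w (a, a')) =
      unitsRep (a : GQ) (g₂ a') - g₂ (a * a') + g₂ a := by
    intro a a'
    simp only [g₂, map_sub, hUfix, Subgroup.coe_mul, map_mul, Module.End.mul_apply]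
    rw [← hγ' a a', map_add, map_sub]
    abel
  have hg₂p : ∀ a : G₀, (p : ℤ) • g₂ a = -(unitsRep (a : GQ) b - b) := fun a => by
    simp only [g₂, zsmul_sub, hp0, hbdef, map_zsmul, zero_sub]
  -- the ideal
  have : NumberField (fixedK U) := numberField_fixedK U ⟨U, hUQ, le_rfl⟩
  choose qv hqv using fun v : HeightOneSpectrum (𝓞 (fixedK G₀)) => exists_prime_mem (fixedK G₀) v
  choose Av hAv hAvv using fun v : HeightOneSpectrum (𝓞 (fixedK G₀)) =>
    exists_placeSpec_eq (⟨v, hqv v⟩ : PrimesOver (fixedK G₀) (qv v))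
  let n : HeightOneSpectrum (𝓞 (fixedK G₀)) → ℤ := fun v =>
    ordAt U (placeSpec (Av v) (fixedK U) (qv v) (hAv v)).1 ⟨b, hb⟩
  have hinj : Function.Injective fun v => (placeSpec (Av v) (fixedK U) (qv v) (hAv v)).1 := by
    intro v v' h
    have h' := placeSpec_injOn_under G₀ hUle (hAv v) (hAv v') h
    rwa [hAvv v, hAvv v'] at h'
  have hfin : (Function.support n).Finite :=
    ((finite_ordAt_ne_zero U ⟨b, hb⟩).preimage hinj.injOn).subset fun v hv => hv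
  refine ⟨Additive.toMul (expsHom (fixedK G₀) (Finsupp.ofSupportFinite n hfin)), z, U, g₂, b, hb,
    rfl, hU, hUle, hg₂U, hg₂d, hg₂p, fun q hq A hA hNF => ?_⟩
  rw [ofMul_toMul, cnt_expsHom, Finsupp.ofSupportFinite_coe]
  set v := (placeSpec A (fixedK G₀) q hA).1 with hv
  have hqq : qv v = q := primesOver_unique (hqv v) (placeSpec A (fixedK G₀) q hA).2
  have hAvq : (Av v).LiesOverPrime (q : ℕ) := hqq ▸ hAv v
  have heq : FLTA.Galois.placeIdeal (Av v) (fixedK G₀) = FLTA.Galois.placeIdeal A (fixedK G₀) := by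
    have h := congrArg (fun x : PrimesOver (fixedK G₀) (qv v) => x.1.asIdeal) (hAvv v)
    simpa [hv] using h
  obtain ⟨g, hg, hgA⟩ := FLTA.Galois.exists_fixing_smul_eq heq
  rw [fixingSubgroup_fixedK G₀ hGQ] at hg
  have hg2U : ∀ a : G₀, g₂ a ∈ fixedBy unitsRep U := by
    intro a s hs
    have h1 := hg₂d ⟨s, hUle hs⟩ a
    rw [hws' a ⟨s, hUle hs⟩ hs] at h1
    have h2 : g₂ (⟨s, hUle hs⟩ * a) = g₂ a := by
      have e : (⟨s, hUle hs⟩ : G₀) * a = a * ⟨(a : GQ)⁻¹ * s * (a : GQ),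
          hUle (hUn.conj_mem' s hs (a : GQ))⟩ := by
        apply Subtype.ext
        simp [mul_assoc]
      rw [e, hg₂U a _ (hUn.conj_mem' s hs (a : GQ))]
    have h3 : g₂ ⟨s, hUle hs⟩ = muQ p c₀ := by
      have e : g₂ ⟨s, hUle hs⟩ = g₂ 1 := by
        have h4 := hg₂U 1 ⟨s, hUle hs⟩ hs
        rwa [one_mul] at h4
      rw [e]
      have h5 := hg₂d 1 1
      simp only [mul_one, OneMemClass.coe_one, map_one, Module.End.one_apply, sub_add_cancel] at h5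
      exact h5.symm
    rw [h2, h3] at h1
    exact sub_eq_zero.1 (add_eq_right.1 h1.symm)
  have hgb : unitsRep g⁻¹ b ∈ fixedBy unitsRep U := fun s hs => by
    rw [← Module.End.mul_apply, ← map_mul, show s * g⁻¹ = g⁻¹ * (g * s * g⁻¹) by group,
      map_mul, Module.End.mul_apply, hb _ (hUn.conj_mem s hs g)]
  have eA : (placeSpec A (fixedK U) q hA).1 = (placeSpec (g • Av v) (fixedK U) q
      ((FLTA.Galois.liesOverPrime_smul_iff g).2 hAvq)).1 :=
    HeightOneSpectrum.ext (by rw [placeSpec_asIdeal, placeSpec_asIdeal, hgA])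
  have key : (p : ℤ) ∣ ordAt U (placeSpec (g • Av v) (fixedK U) q
      ((FLTA.Galois.liesOverPrime_smul_iff g).2 hAvq)).1 ⟨b, hb⟩ -
      ordAt U (placeSpec (Av v) (fixedK U) q hAvq).1 ⟨b, hb⟩ := by
    refine ⟨-ordAt U (placeSpec (Av v) (fixedK U) q hAvq).1
      ⟨g₂ ⟨g⁻¹, inv_mem hg⟩, hg2U _⟩, ?_⟩
    rw [ordAt_smul hUn hAvq g ⟨b, hb⟩ hgb, ← map_sub, ← map_neg]
    rw [← smul_eq_mul, ← map_zsmul]
    congr 1
    refine Subtype.ext ?_
    show unitsRep g⁻¹ b - b = (p : ℤ) • (-(g₂ ⟨g⁻¹, inv_mem hg⟩))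
    rw [zsmul_neg, hg₂p, neg_neg]
  have hn : n v = ordAt U (placeSpec (Av v) (fixedK U) q hAvq).1 ⟨b, hb⟩ := by
    have e : (placeSpec (Av v) (fixedK U) (qv v) (hAv v)).1 =
        (placeSpec (Av v) (fixedK U) q hAvq).1 := HeightOneSpectrum.ext rfl
    exact congrArg (fun y => ordAt U y ⟨b, hb⟩) e
  rw [hn, eA]
  exact key

/-- Classes with congruent attached ideals are equal. -/
theorem eq_of_shaDatum (hpS : pPrime p ∈ S) (hG : IsOpenLvl (lvlS S) G₀)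
    (hμ : ∀ s ∈ G₀, cycloChar p s = 1) [NumberField (fixedK G₀)]
    {c c' : H2c (lvlS S) (funRep (muRep p) (GQ ⧸ G₀))}
    {I I' : DivGrp (𝓞 (fixedK G₀)) (fixedK G₀)} (h : ShaDatum p S G₀ c I)
    (h' : ShaDatum p S G₀ c' I') (x : fixedBy unitsRep G₀)
    (hx : ∀ q : Nat.Primes, q ∉ S → ∀ (A : ValuationSubring Qb) (hA : A.LiesOverPrime (q : ℕ)),
      (p : ℤ) ∣ cnt (fixedK G₀) (placeSpec A (fixedK G₀) q hA).1 (Additive.ofMul I) -
        cnt (fixedK G₀) (placeSpec A (fixedK G₀) q hA).1 (Additive.ofMul I') -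
        ordAt G₀ (placeSpec A (fixedK G₀) q hA).1 x) :
    c = c' := by
  classical
  obtain ⟨z, U, g₂, b, hb, rfl, hU, hUle, hgU, hgd, hgp, hord⟩ := h
  obtain ⟨z', U', g₂', b', hb', rfl, hU', -, hgU', hgd', hgp', hord'⟩ := h'
  set W := U ⊓ U' with hWdef
  have hW : W ∈ lvlS S := (lvlS S).inf_mem U hU U' hU'
  have toQ : ∀ {V : Subgroup GQ}, V ∈ lvlS S → V ∈ lvlQ := fun hV => by
    have h := lvlS_le_lvlQ S _ hV
    rwa [Subgroup.comap_id] at h
  have hWle : W ≤ G₀ := inf_le_left.trans hUle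
  have : NumberField (fixedK W) := numberField_fixedK W ⟨W, toQ hW, le_rfl⟩
  have hNU : NumberField (fixedK U) := numberField_fixedK U ⟨U, toQ hU, le_rfl⟩
  have hNU' : NumberField (fixedK U') := numberField_fixedK U' ⟨U', toQ hU', le_rfl⟩
  set β : Mq := b - b' - (x : Mq) with hβ
  have hβW : β ∈ fixedBy unitsRep W :=
    sub_mem (sub_mem (fun s hs => hb s hs.1) (fun s hs => hb' s hs.2))
      (fun s hs => x.2 s (hWle hs))
  have hβord : ∀ q : Nat.Primes, q ∉ S → ∀ (A : ValuationSubring Qb)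
      (hA : A.LiesOverPrime (q : ℕ)),
      (p : ℤ) ∣ ordAt W (placeSpec A (fixedK W) q hA).1 ⟨β, hβW⟩ := by
    intro q hq A hA
    have hIW : ∀ B : ValuationSubring Qb, B.LiesOverPrime (q : ℕ) →
        B.inertiaSubgroupIn ℚ ≤ W := fun B hB => inertia_le_of_mem_lvlS hW hq hB
    have e : (⟨β, hβW⟩ : fixedBy unitsRep W) =
        ⟨b, fun s hs => hb s hs.1⟩ - ⟨b', fun s hs => hb' s hs.2⟩ -
          ⟨(x : Mq), fun s hs => x.2 s (hWle hs)⟩ := Subtype.ext rfl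
    rw [e, map_sub, map_sub, ordAt_eq_of_le (toQ hW) inf_le_left hA hIW ⟨b, hb⟩,
      ordAt_eq_of_le (toQ hW) inf_le_right hA hIW ⟨b', hb'⟩,
      ordAt_eq_of_le (toQ hW) hWle hA hIW x]
    have h1 := hord q hq A hA hNU
    have h2 := hord' q hq A hA hNU'
    have h3 := hx q hq A hA
    have h4 := dvd_add (dvd_sub h1 h2) h3
    refine (dvd_iff_dvd_of_dvd_sub (a := (p : ℤ)) ?_).2 h4
    exact ⟨0, by ring⟩
  obtain ⟨θ, hθ⟩ := exists_zsmul_eq p (Fact.out : p.Prime).ne_zero β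
  -- the level fixing all conjugates of `θ`
  let St : Subgroup GQ :=
    { carrier := {s | unitsRep s θ = θ}
      one_mem' := by simp
      mul_mem' := fun {s t} hs ht => by
        show unitsRep (s * t) θ = θ
        rw [map_mul, Module.End.mul_apply, (ht : unitsRep t θ = θ), (hs : unitsRep s θ = θ)]
      inv_mem' := fun {s} hs => by
        show unitsRep s⁻¹ θ = θ
        conv_lhs => rw [← (hs : unitsRep s θ = θ)]
        rw [← Module.End.mul_apply, ← map_mul, inv_mul_cancel, map_one, Module.End.one_apply] }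
  set V := St.normalCore ⊓ W with hVdef
  have hV : V ∈ lvlS S := by
    obtain ⟨U₀, hU₀, hU₀fix⟩ := smooth_unitsRep θ
    have hU₀le : U₀ ≤ St.normalCore := by
      have := lvlQ.normal_of_mem U₀ hU₀
      exact Subgroup.normal_le_normalCore.2 fun s hs => hU₀fix s hs
    obtain ⟨hn₀, F₀, hF₀, hF₀le⟩ := hU₀
    have hcore : St.normalCore ∈ lvlQ := ⟨inferInstance, F₀, hF₀, hF₀le.trans hU₀le⟩
    refine mem_lvlS_of_inertia_le (lvlQ.inf_mem _ hcore _ (toQ hW)) fun q hq A hA s hs =>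
      ⟨fun g => ?_, inertia_le_of_mem_lvlS hW hq hA hs⟩
    have hs' : g * s * g⁻¹ ∈ (g • A).inertiaSubgroupIn ℚ := by
      rw [FLTA.Galois.inertiaSubgroupIn_smul_iff]
      simpa [mul_assoc] using hs
    exact inertia_fixes_root (Fact.out : p.Prime)
      (fun e => hq (by rwa [show q = pPrime p from Subtype.ext e]))
      ((FLTA.Galois.liesOverPrime_smul_iff g).2 hA)
      (inertia_le_of_mem_lvlS hW hq ((FLTA.Galois.liesOverPrime_smul_iff g).2 hA))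
      (hβord q hq (g • A) _) hθ hs'
  let g₃ : G₀ → Mq := fun a => g₂ a - g₂' a + (unitsRep (a : GQ) θ - θ)
  have hg₃p : ∀ a, p • g₃ a = 0 := fun a => by
    have e : (p : ℤ) • g₃ a = 0 := by
      simp only [g₃, zsmul_add, zsmul_sub, hgp, hgp', ← map_zsmul, hθ, hβ, map_sub,
        x.2 _ a.2]
      abel
    rwa [natCast_zsmul] at e
  choose g₄ hg₄ using fun a => exists_muQ_eq p (g₃ a) (hg₃p a)
  have hg₄V : ∀ a s : G₀, (s : GQ) ∈ V → g₄ (a * s) = g₄ a := by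
    intro a s hs
    apply muQ_injective p
    have hsθ : unitsRep (s : GQ) θ = θ := St.normalCore_le hs.1
    rw [hg₄, hg₄]
    simp only [g₃, hgU a s hs.2.1, hgU' a s hs.2.2, Subgroup.coe_mul, map_mul,
      Module.End.mul_apply, hsθ]
  have hg₄d : ∀ a a' : G₀, ((z - z' : Z2 (lvlS S) (funRep (muRep p) (GQ ⧸ G₀))) :
      GQ × GQ → GQ ⧸ G₀ → ZMod p) ((a : GQ), (a' : GQ)) (baseCoset G₀) =
        muRep p (a : GQ) (g₄ a') - g₄ (a * a') + g₄ a := by
    intro a a'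
    apply muQ_injective p
    rw [Submodule.coe_sub, Pi.sub_apply, Pi.sub_apply, map_sub, hgd, hgd', map_add, map_sub,
      muQ_equivariant, hg₄, hg₄, hg₄]
    simp only [g₃, map_add, map_sub, Subgroup.coe_mul, map_mul, Module.End.mul_apply]
    abel
  have hfin : Finite (GQ ⧸ G₀) := IsOpenLvl.finite_quotient (lvlS S) hG
  have hstab : ∀ s : GQ, s • baseCoset G₀ = baseCoset G₀ ↔ s ∈ G₀ := fun s => by
    show ((s * 1 : GQ) : GQ ⧸ G₀) = ((1 : GQ) : GQ ⧸ G₀) ↔ _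
    rw [QuotientGroup.eq]
    simp
  rw [← sub_eq_zero, ← map_sub, H2cπ_eq_zero]
  refine mem_B2_funRep (fun y => IsOpenLvl.stabilizer_quotient (lvlS S) hG y) (cosetSection G₀)
    (z - z').2 fun _ => ⟨fun s => if hs : s ∈ G₀ then g₄ ⟨s, hs⟩ else 0, ?_, ?_⟩
  · refine ⟨V, hV, fun s t hs ht _ => ?_⟩
    have hs' : s ∈ G₀ := (hstab s).1 hs
    have ht' : t ∈ G₀ := hWle ht.2
    simp only [dif_pos hs', dif_pos (mul_mem hs' ht')]
    exact hg₄V ⟨s, hs'⟩ ⟨t, ht'⟩ ht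
  · intro s s' hs hs'
    have h1 : s ∈ G₀ := (hstab s).1 hs
    have h2 : s' ∈ G₀ := (hstab s').1 hs'
    simp only [dif_pos h1, dif_pos h2, dif_pos (mul_mem h1 h2)]
    exact hg₄d ⟨s, h1⟩ ⟨s', h2⟩

/-- The bound `|Ш²_S(Ind μ_p)| ≤ |Cl_S(K)/p|`, for any set of classes killed by localisation. -/
theorem card_le_index_of_forall_locH2 (hp : p ≠ 2) (hpS : pPrime p ∈ S)
    (hG : IsOpenLvl (lvlS S) G₀) (hμ : ∀ s ∈ G₀, cycloChar p s = 1) [NumberField (fixedK G₀)]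
    (sha : Submodule (ZMod p) (H2c (lvlS S) (funRep (muRep p) (GQ ⧸ G₀))))
    (hsha : ∀ c ∈ sha, ∀ q ∈ S, locH2 S (funRep (muRep p) (GQ ⧸ G₀)) q c = 0) :
    Finite sha ∧ Nat.card sha ≤ (clSRel p S G₀).index := by
  classical
  choose I hI using fun c : sha => exists_shaDatum p S G₀ hp hpS hG hμ c.1 (hsha c.1 c.2)
  let Φ : sha → ClassGroup (𝓞 (fixedK G₀)) ⧸ clSRel p S G₀ := fun c =>
    ((ClassGroup.mk (fixedK G₀) (I c) : ClassGroup (𝓞 (fixedK G₀))) :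
      ClassGroup (𝓞 (fixedK G₀)) ⧸ clSRel p S G₀)
  have hΦ : Function.Injective Φ := by
    intro c c' h
    have hprod : ((∏ q ∈ S, (q : ℕ) : ℕ) : 𝓞 (fixedK G₀)) ≠ 0 :=
      Nat.cast_ne_zero.2 (Finset.prod_ne_zero_iff.2 fun q _ => q.2.ne_zero)
    have hTfin : {v : HeightOneSpectrum (𝓞 (fixedK G₀)) |
        ∃ q ∈ S, ((q : ℕ) : 𝓞 (fixedK G₀)) ∈ v.asIdeal}.Finite := by
      refine (Ideal.finite_factors
        (I := Ideal.span {((∏ q ∈ S, (q : ℕ) : ℕ) : 𝓞 (fixedK G₀))}) (by simpa using hprod)).subset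
        fun v ⟨q, hq, hqv⟩ => ?_
      show v.asIdeal ∣ _
      rw [Ideal.dvd_iff_le, Ideal.span_singleton_le_iff_mem, Nat.cast_prod,
        ← Finset.mul_prod_erase S _ hq]
      exact Ideal.mul_mem_right _ _ hqv
    have hle : clSRel p S G₀ ≤ clTRel (𝓞 (fixedK G₀)) p hTfin.toFinset := by
      refine sup_le_sup le_rfl (Subgroup.closure_mono ?_)
      rintro _ ⟨J, hJ, hJq, rfl⟩
      exact ⟨⟨(J : Ideal (𝓞 (fixedK G₀))), hJ, nonZeroDivisors.coe_ne_zero J⟩,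
        hTfin.mem_toFinset.2 hJq, rfl⟩
    have h1 : ClassGroup.mk (fixedK G₀) (I c / I c') ∈ clTRel (𝓞 (fixedK G₀)) p hTfin.toFinset := by
      refine hle ?_
      rw [map_div]
      have h2 := QuotientGroup.eq.1 h
      rw [div_eq_mul_inv, ← inv_mem_iff, mul_inv_rev, inv_inv, mul_comm]
      exact h2
    rw [← map_divModSubgroup (fixedK G₀)] at h1
    obtain ⟨J, hJ, hJeq⟩ := h1
    have hker : I c / I c' / J ∈ (toPrincipalIdeal (𝓞 (fixedK G₀)) (fixedK G₀)).range := by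
      rw [← ker_classGroupMk, MonoidHom.mem_ker, map_div, ← hJeq, div_self']
    obtain ⟨u, hu⟩ := hker
    obtain ⟨x, hx⟩ := exists_kUnit_eq G₀ u
    refine Subtype.ext (eq_of_shaDatum p S G₀ hpS hG hμ (hI c) (hI c') x fun q hq A hA => ?_)
    have hnotT : (placeSpec A (fixedK G₀) q hA).1 ∉ hTfin.toFinset := fun hmem => by
      obtain ⟨q', hq', hq'v⟩ := hTfin.mem_toFinset.1 hmem
      exact hq (primesOver_unique hq'v (placeSpec A (fixedK G₀) q hA).2 ▸ hq')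
    rw [ordAt_apply, hx, hu, ofMul_div, ofMul_div, map_sub, map_sub]
    simpa using hJ _ hnotT
  exact ⟨Finite.of_injective Φ hΦ, (Nat.card_le_card_of_injective Φ hΦ).trans
    (Subgroup.index_eq_card _).ge⟩

end FLTA.PT.Hasse

end
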