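import Fermat.Agent.PoitouTate.NormTheorem
import Fermat.Agent.PoitouTate.LocalDuality
import Fermat.Agent.PoitouTate.HasseClass

/-!
# The Hasse principle for `Br(K)[p]` and the class-group bound for `Ш²_S(Ind μ_p)`
-/

set_option autoImplicit false

open ExtCitation

noncomputable section

namespace FLTA.PT

variable (p : ℕ) [Fact p.Prime]

/-- A class in `H²(G_K, μ_p)` which vanishes at every place is zero. -/
theorem mem_B2_of_forall_place (hp : p ≠ 2) (G₀ : Subgroup GQ) (hG : IsOpenLvl lvlQ G₀)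
    (hμ : ∀ s ∈ G₀, cycloChar p s = 1) (z : G₀ × G₀ → ZMod p)
    (hz : z ∈ Z2 (lvlQ.comap G₀.subtype) ((muRep p).comp G₀.subtype))
    (h : ∀ q g, pp2 (placeHom q G₀ g) (LinearMap.id : ZMod p →ₗ[ZMod p] ZMod p) z ∈
      B2 ((lvlLoc q).comap (stabLoc q G₀ g).subtype) ((muLoc p q).comp (stabLoc q G₀ g).subtype)) :
    z ∈ B2 (lvlQ.comap G₀.subtype) ((muRep p).comp G₀.subtype) :=
  Hasse.mem_B2_of_forall_place_aux p hp G₀ hG hμ z hz h

/-- The kernel of localisation on `H²(G_S, M)`. -/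
def shaTwo {V : Type} [AddCommGroup V] [Module (ZMod p) V] (S : Finset Nat.Primes)
    (ρ : Representation (ZMod p) GQ V) : Submodule (ZMod p) (H2c (lvlS S) ρ) :=
  ⨅ q ∈ S, LinearMap.ker (locH2 S ρ q)

/-- `Ш²_S(Ind μ_p)` is bounded by `Cl_S(K)/p`. -/
theorem card_shaTwo_funRep_le (hp : p ≠ 2) (S : Finset Nat.Primes) (hpS : pPrime p ∈ S)
    (G₀ : Subgroup GQ) (hG : IsOpenLvl (lvlS S) G₀) (hμ : ∀ s ∈ G₀, cycloChar p s = 1) :
    Finite (shaTwo p S (funRep (muRep p) (GQ ⧸ G₀))) ∧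
      Nat.card (shaTwo p S (funRep (muRep p) (GQ ⧸ G₀))) ≤ cardClSp p S G₀ := by
  have := numberField_fixedK G₀ (isOpenLvl_lvlQ_of_lvlS hG)
  rw [cardClSp, dif_pos this]
  refine Hasse.card_le_index_of_forall_locH2 p S G₀ hp hpS hG hμ _ fun c hc q hq => ?_
  rw [shaTwo, Submodule.mem_iInf] at hc
  have h := hc q
  rw [Submodule.mem_iInf] at h
  exact h hq

end FLTA.PT

end
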