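import Mathlib

/-!
# The index of `p`-th powers in the units of a number field containing `μ_p`
-/

set_option autoImplicit false

open NumberField NumberField.Units

noncomputable section

namespace FLTA.PT

variable (K : Type*) [Field K] [NumberField K]

theorem rank_add_one_eq_of_isPrimitiveRoot {p : ℕ} (hp : 2 < p) {ζ : K} (hζ : IsPrimitiveRoot ζ p) :
    2 * (rank K + 1) = Module.finrank ℚ K := by
  have h0 := InfinitePlace.IsPrimitiveRoot.nrRealPlaces_eq_zero_of_two_lt hp hζ
  have h1 := InfinitePlace.card_add_two_mul_card_eq_rank K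
  have h2 := InfinitePlace.card_eq_nrRealPlaces_add_nrComplexPlaces K
  have h3 : 0 < Fintype.card (InfinitePlace K) := Fintype.card_pos
  rw [h0] at h1 h2
  unfold rank
  omega

theorem index_pow_units {p : ℕ} [Fact p.Prime] {ζ : K} (hζ : IsPrimitiveRoot ζ p) :
    (powMonoidHom p : (𝓞 K)ˣ →* (𝓞 K)ˣ).range.index = p ^ (rank K + 1) := by
  classical
  have hp : NeZero p := ⟨(Fact.out : p.Prime).ne_zero⟩
  let P : (Fin (rank K) → ℤ) → (𝓞 K)ˣ := fun e => ∏ i, fundSystem K i ^ e i
  let c : (𝓞 K)ˣ → Fin (rank K) → ℤ := fun x => (exist_unique_eq_mul_prod K x).exists.choose.2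
  have hspec : ∀ x, ∃ t : torsion K, x = (t : (𝓞 K)ˣ) * P (c x) := fun x =>
    ⟨_, (exist_unique_eq_mul_prod K x).exists.choose_spec⟩
  have huniq : ∀ x e, (∃ t : torsion K, x = (t : (𝓞 K)ˣ) * P e) → c x = e := by
    rintro x e ⟨t, ht⟩
    exact congrArg Prod.snd ((exist_unique_eq_mul_prod K x).unique
      (exist_unique_eq_mul_prod K x).exists.choose_spec (y₂ := (t, e)) ht)
  have hP : ∀ e e', P (e + e') = P e * P e' := fun e e' => by
    simp only [P, Pi.add_apply, zpow_add, Finset.prod_mul_distrib]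
  have hc : ∀ x y, c (x * y) = c x + c y := fun x y => by
    obtain ⟨t, ht⟩ := hspec x
    obtain ⟨u, hu⟩ := hspec y
    refine huniq _ _ ⟨t * u, ?_⟩
    rw [hP, Subgroup.coe_mul, mul_mul_mul_comm, ← ht, ← hu]
  have hcT : ∀ x ∈ torsion K, c x = 0 := fun x hx =>
    huniq _ _ ⟨⟨x, hx⟩, by simp [P]⟩
  have hcp : ∀ (n : ℕ) x, c (x ^ n) = n • c x := by
    intro n x
    induction n with
    | zero => rw [pow_zero, zero_nsmul]; exact hcT 1 (one_mem _)
    | succ n ih => rw [pow_succ, hc, ih, succ_nsmul]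
  have hcs : Function.Surjective c := fun f => ⟨P f, huniq _ _ ⟨1, by simp⟩⟩
  let θ : (𝓞 K)ˣ →* (Fin (rank K) → Multiplicative (ZMod p)) :=
    MonoidHom.mk' (fun x i => Multiplicative.ofAdd (c x i : ZMod p)) fun x y => by
      funext i
      simp only [hc, Pi.add_apply, Int.cast_add, ofAdd_add, Pi.mul_apply]
  let R := (powMonoidHom p : (𝓞 K)ˣ →* (𝓞 K)ˣ).range
  have hker : θ.ker = R ⊔ torsion K := by
    refine le_antisymm (fun x hx => ?_) (sup_le ?_ fun x hx => ?_)
    · have hdvd : ∀ i, (p : ℤ) ∣ c x i := fun i =>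
        (ZMod.intCast_zmod_eq_zero_iff_dvd _ _).1
          (Multiplicative.ofAdd.injective (congrFun (MonoidHom.mem_ker.1 hx) i))
      obtain ⟨y, hy⟩ := hcs fun i => c x i / p
      have hxy : c x = c (y ^ p) := by
        funext i
        rw [hcp p, Pi.smul_apply, hy, nsmul_eq_mul, Int.mul_ediv_cancel' (hdvd i)]
      have hT : (y ^ p)⁻¹ * x ∈ torsion K := by
        obtain ⟨t, ht⟩ := hspec ((y ^ p)⁻¹ * x)
        have h0 : c ((y ^ p)⁻¹ * x) = 0 := by
          have := hc (y ^ p) ((y ^ p)⁻¹ * x)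
          rw [mul_inv_cancel_left, hxy] at this
          exact left_eq_add.1 this
        rw [ht, h0]
        simp [P]
      rw [← mul_inv_cancel_left (y ^ p) x]
      exact Subgroup.mul_mem_sup ⟨y, rfl⟩ hT
    · rintro _ ⟨y, rfl⟩
      refine MonoidHom.mem_ker.2 (funext fun i => ?_)
      show Multiplicative.ofAdd ((c (y ^ p) i : ℤ) : ZMod p) = _
      rw [hcp p]
      simp
    · refine MonoidHom.mem_ker.2 (funext fun i => ?_)
      show Multiplicative.ofAdd ((c x i : ℤ) : ZMod p) = _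
      simp [hcT x hx]
  have hθ : Function.Surjective θ := fun f => by
    obtain ⟨x, hx⟩ := hcs fun i => ((Multiplicative.toAdd (f i)).val : ℤ)
    refine ⟨x, funext fun i => ?_⟩
    show Multiplicative.ofAdd ((c x i : ℤ) : ZMod p) = f i
    rw [hx, Int.cast_natCast, ZMod.natCast_zmod_val]
    rfl
  have h1 : (R ⊔ torsion K).index = p ^ rank K := by
    rw [← hker, Subgroup.index_ker, MonoidHom.range_eq_top.2 hθ, Subgroup.card_top, Nat.card_pi]
    simp
  let π : torsion K →* torsion K := powMonoidHom p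
  have h2 : R.relIndex (torsion K) = p := by
    have e : R.subgroupOf (torsion K) = π.range := by
      ext ⟨x, hx⟩
      constructor
      · rintro ⟨y, hy⟩
        have hy' : y ^ p = x := hy
        refine ⟨⟨y, ?_⟩, Subtype.ext hy'⟩
        obtain ⟨n, hn, hn'⟩ := isOfFinOrder_iff_pow_eq_one.1 (hx : x ∈ CommGroup.torsion (𝓞 K)ˣ)
        exact isOfFinOrder_iff_pow_eq_one.2
          ⟨p * n, Nat.mul_pos (Nat.pos_of_ne_zero hp.out) hn, by rw [pow_mul, hy', hn']⟩
      · rintro ⟨⟨y, _⟩, hy⟩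
        exact ⟨y, congrArg Subtype.val hy⟩
    rw [Subgroup.relIndex, e, Subgroup.index_range]
    have hζ' : IsPrimitiveRoot hζ.toInteger p := hζ.toInteger_isPrimitiveRoot
    refine (Nat.card_congr ?_).trans hζ'.card_rootsOfUnity
    exact
      { toFun := fun x => ⟨((x : torsion K) : (𝓞 K)ˣ), (mem_rootsOfUnity p _).2 (by
          have := congrArg (fun t : torsion K => (t : (𝓞 K)ˣ)) (MonoidHom.mem_ker.1 x.2)
          simpa [π] using this)⟩
        invFun := fun x => ⟨⟨x, isOfFinOrder_iff_pow_eq_one.2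
            ⟨p, Nat.pos_of_ne_zero hp.out, (mem_rootsOfUnity p _).1 x.2⟩⟩,
          MonoidHom.mem_ker.2 (Subtype.ext ((mem_rootsOfUnity p _).1 x.2))⟩
        left_inv := fun x => rfl
        right_inv := fun x => rfl }
  rw [← Subgroup.relIndex_mul_index (le_sup_left : R ≤ R ⊔ torsion K), h1, sup_comm,
    Subgroup.relIndex_sup_right, h2, pow_succ, mul_comm]

end FLTA.PT

end
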