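import Fermat.Agent.PoitouTate.PlacesKummer
import Fermat.Agent.PoitouTate.PlacesUnits

/-!
# Places, `S`-class groups and the lower bound for `H¹(G_{K,S}, μ_p)`

A number field `K` is given by the open subgroup `G₀ = Gal(ℚ̄/K)`; its places over `q` are the
orbits of the local group on `GQ ⧸ G₀`.
-/

set_option autoImplicit false

open ExtCitation Module NumberField IsDedekindDomain
open scoped nonZeroDivisors

noncomputable section

namespace FLTA.PT

/-- Kummer theory and Dirichlet's theorem bound `H¹(G_S, Ind μ_p)` below. -/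
theorem le_card_H1S_funRep (p : ℕ) [Fact p.Prime] (hp : p ≠ 2) (S : Finset Nat.Primes)
    (hpS : pPrime p ∈ S) (G₀ : Subgroup GQ) (hG : IsOpenLvl (lvlS S) G₀)
    (hμ : ∀ s ∈ G₀, cycloChar p s = 1)
    [Finite (H1c (lvlS S) (funRep (muRep p) (GQ ⧸ G₀)))] :
    p ^ (numPlaces S G₀ + G₀.index / 2) * cardClSp p S G₀ ≤
      Nat.card (H1c (lvlS S) (funRep (muRep p) (GQ ⧸ G₀))) := by
  classical
  have hG' := isOpenLvl_lvlQ_of_lvlS hG
  have hNF := numberField_fixedK G₀ hG'
  set K := fixedK G₀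
  have hfin : ∀ q : Nat.Primes, Finite (PrimesOver K q) := fun q => by
    have : Finite (GQ ⧸ G₀) := by
      obtain ⟨U, hU, hUG⟩ := id hG
      have := (lvlS S).finiteIndex_of_mem U hU
      have := Subgroup.finiteIndex_of_le hUG
      infer_instance
    exact Finite.of_equiv _ (placesEquiv q G₀ hG')
  have hft : ∀ q : Nat.Primes, Fintype (PrimesOver K q) := fun q => @Fintype.ofFinite _ (hfin q)
  let T : Finset (HeightOneSpectrum (𝓞 K)) :=
    S.biUnion fun q => (Finset.univ : Finset (PrimesOver K q)).image Subtype.val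
  have hTmem : ∀ v, v ∈ T ↔ ∃ q ∈ S, ((q : ℕ) : 𝓞 K) ∈ v.asIdeal := by
    intro v
    simp only [T, Finset.mem_biUnion, Finset.mem_image, Finset.mem_univ, true_and]
    constructor
    · rintro ⟨q, hq, w, rfl⟩; exact ⟨q, hq, w.2⟩
    · rintro ⟨q, hq, hv⟩; exact ⟨q, hq, ⟨v, hv⟩, rfl⟩
  have hcard : T.card = numPlaces S G₀ := by
    rw [numPlaces_eq_card S G₀ hG', Finset.card_biUnion]
    · refine Finset.sum_congr rfl fun q _ => ?_
      rw [Finset.card_image_of_injective _ Subtype.val_injective, Finset.card_univ,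
        Nat.card_eq_fintype_card]
    · intro q _ r _ hne
      rw [Function.onFun, Finset.disjoint_left]
      rintro _ hq hr
      obtain ⟨u, -, rfl⟩ := Finset.mem_image.1 hq
      obtain ⟨w, -, hw⟩ := Finset.mem_image.1 hr
      exact hne (primesOver_unique u.2 (hw ▸ w.2))
  have hcl : cardClSp p S G₀ = (clTRel (𝓞 K) p T).index := by
    rw [cardClSp, dif_pos hNF]
    congr 1
    rw [clSRel, clTRel]
    congr 2
    ext c
    constructor
    · rintro ⟨I, hI, ⟨q, hq, hqI⟩, rfl⟩
      exact ⟨⟨I, hI, nonZeroDivisors.ne_zero I.2⟩, (hTmem _).2 ⟨q, hq, hqI⟩, rfl⟩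
    · rintro ⟨v, hv, rfl⟩
      exact ⟨_, v.isPrime, (hTmem v).1 hv, rfl⟩
  obtain ⟨ζ, hζ⟩ := exists_primitiveRoot_fixedK p hμ
  have hp2 : 2 < p := lt_of_le_of_ne (Fact.out : p.Prime).two_le (Ne.symm hp)
  have hr2 : G₀.index / 2 = NumberField.Units.rank K + 1 := by
    rw [← finrank_fixedK G₀ hG', ← rank_add_one_eq_of_isPrimitiveRoot K hp2 hζ]
    omega
  have hle := natCard_selmer_le p S G₀ hG hμ hpS T fun v hv hvT => by
    obtain ⟨q, hq, hqv⟩ := (hTmem v).1 hvT
    exact hv q hq hqv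
  refine le_of_eq_of_le ?_ hle
  rw [relIndex_selmerUnits K p T, index_pow_units K hζ, hcard, hcl, hr2, pow_add]
  ring

end FLTA.PT

end
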