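import Fermat.Agent.PoitouTate.LocalPairing
import Fermat.Agent.PoitouTate.FiniteH1

/-!
# Dévissage of the injectivity of `θ`
-/

set_option autoImplicit false

open ExtCitation Module

noncomputable section

namespace FLTA.PT

variable {p : ℕ} [Fact p.Prime] {S : Finset Nat.Primes} (I : InvSystem p S)

/-- A functional vanishing on the kernel of `L` factors through `L`. -/
theorem exists_comp_eq_of_ker_le {k A B : Type} [Field k] [AddCommGroup A] [Module k A]
    [AddCommGroup B] [Module k B] (L : A →ₗ[k] B) (g : A →ₗ[k] k)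
    (h : LinearMap.ker L ≤ LinearMap.ker g) : ∃ G : B →ₗ[k] k, ∀ a, G (L a) = g a := by
  obtain ⟨f, hf⟩ := LinearMap.exists_extend (p := LinearMap.range L)
    ((Submodule.liftQ (LinearMap.ker L) g h).comp L.quotKerEquivRange.symm.toLinearMap)
  refine ⟨f, fun a => ?_⟩
  have := LinearMap.congr_fun hf ⟨L a, a, rfl⟩
  simp only [LinearMap.comp_apply, LinearEquiv.coe_coe, Submodule.subtype_apply] at this
  rw [this, LinearMap.quotKerEquivRange_symm_apply_image L a ⟨a, rfl⟩]
  rfl

section separation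

variable {V W : Type} [AddCommGroup V] [Module (ZMod p) V] [AddCommGroup W] [Module (ZMod p) W]
variable {ρ : Representation (ZMod p) GQ V} {σ : Representation (ZMod p) GQ W}
variable (P : Pairing (cycloChar p) ρ σ)

/-- Compactly supported 1-cocycles. -/
def CS1 (S : Finset Nat.Primes) (ρ : Representation (ZMod p) GQ V) :
    Submodule (ZMod p) ((GQ → V) × (S → V)) where
  carrier := {x | x.1 ∈ Z1 (lvlS S) ρ ∧ ∀ q : S, d0 (ρ.comp (loc q.1)) (x.2 q) = rs1 p q.1 x.1}
  add_mem' := fun {a b} ha hb =>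
    ⟨add_mem ha.1 hb.1, fun q => by simp only [Prod.fst_add, Prod.snd_add, Pi.add_apply, map_add,
      ha.2 q, hb.2 q]⟩
  zero_mem' := ⟨zero_mem _, fun q => by simp⟩
  smul_mem' := fun r {a} ha =>
    ⟨Submodule.smul_mem _ r ha.1, fun q => by
      simp only [Prod.smul_fst, Prod.smul_snd, Pi.smul_apply, map_smul, ha.2 q]⟩

/-- The pairing of `H¹_c` with 2-cochains. -/
def theta1 : ((GQ → V) × (S → V)) →ₗ[ZMod p] (GQ × GQ → W) →ₗ[ZMod p] ZMod p :=
  LinearMap.mk₂ (ZMod p)
    (fun w x => tau I (cup12 P w.1 x,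
      fun q => cup02 (P.comp (loc q.1)) (w.2 q) (rs2 p q.1 x)))
    (fun a b y => by
      rw [← map_add]; congr 1
      refine Prod.ext ?_ (funext fun q => ?_) <;> funext g <;> simp [cup12, cup02])
    (fun r a y => by
      rw [← map_smul]; congr 1
      refine Prod.ext ?_ (funext fun q => ?_) <;> funext g <;> simp [cup12, cup02])
    (fun a y y' => by
      rw [← map_add]; congr 1
      refine Prod.ext ?_ (funext fun q => ?_) <;> funext g <;> simp [cup12, cup02])
    (fun r a y => by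
      rw [← map_smul]; congr 1
      refine Prod.ext ?_ (funext fun q => ?_) <;> funext g <;> simp [cup12, cup02])

theorem theta1_apply (w : (GQ → V) × (S → V)) (x : GQ × GQ → W) :
    theta1 I P w x = tau I (cup12 P w.1 x,
      fun q => cup02 (P.comp (loc q.1)) (w.2 q) (rs2 p q.1 x)) := rfl

/-- Classes killed by `H¹_c` are zero. -/
theorem mem_B2_of_theta1_eq_zero [Finite V] [Finite W] (hp : p ≠ 2) (hP : P.Perfect)
    (hρ : Smooth (lvlS S) ρ) (hσ : Smooth (lvlS S) σ) (hD : Detects P.flip I)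
    {x : GQ × GQ → W} (hx : x ∈ Z2 (lvlS S) σ)
    (h : ∀ w ∈ CS1 S ρ, theta1 I P w x = 0) : x ∈ B2 (lvlS S) σ := by
  classical
  have hxq : ∀ q : Nat.Primes, rs2 p q x ∈ Z2 (lvlLoc q) (σ.comp (loc q)) := fun q =>
    pp2_mem_Z2 (lvlS_le_lvlLoc S q) (equivariant_loc σ q) hx
  -- `x` is locally trivial
  have hloc : ∀ q : S, rs2 p q.1 x ∈ B2 (lvlLoc q.1) (σ.comp (loc q.1)) := fun q => by
    refine mem_B2_of_forall_cup20 p q.1 (P.flip.comp (loc q.1)) hp ⟨hP.2, hP.1⟩
      (smooth_loc hσ q.1) (smooth_loc hρ q.1) _ (hxq q.1) fun v hv => ?_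
    have hfix : ∀ g, (ρ.comp (loc q.1)) g v = v := fun g => hv g (Subgroup.mem_top g)
    have he : cup20 (P.flip.comp (loc q.1)) (rs2 p q.1 x) v
        = cup02 (P.comp (loc q.1)) v (rs2 p q.1 x) := by
      funext g
      show P.e ((ρ.comp (loc q.1)) (g.1 * g.2) v) _ = P.e v _
      rw [hfix]
    have hq := h (0, Pi.single q v) ⟨zero_mem _, fun q' => by
      rcases eq_or_ne q' q with rfl | hne
      · funext g; simp only [Pi.single_eq_same, d0_apply, map_zero, hfix, sub_self, Pi.zero_apply]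
      · simp [Pi.single_eq_of_ne hne]⟩
    have hz : ∀ q' : S, cup02 (P.comp (loc q'.1)) ((Pi.single q v : S → V) q') (rs2 p q'.1 x) ∈
        Z2 (lvlLoc q'.1) (muLoc p q'.1) := fun q' => cup02_mem_Z2 _ (fun g => by
      rcases eq_or_ne q' q with rfl | hne
      · rw [Pi.single_eq_same]; exact hfix g
      · simp [Pi.single_eq_of_ne hne]) (hxq q'.1)
    rw [theta1_apply, show cup12 P (0 : GQ → V) x = 0 from funext fun g => by simp [cup12],
      tau_local I _ hz, Finset.sum_eq_single q (fun q' _ hne => by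
        rw [invOf_eq_zero_iff I q'.2 (hz q'), Pi.single_eq_of_ne hne,
          show cup02 (P.comp (loc q'.1)) (0 : V) (rs2 p q'.1 x) = 0 from
            funext fun g => by simp [cup02]]
        exact zero_mem _) (by simp)] at hq
    have hq' := (invOf_eq_zero_iff I q.2 (hz q)).1 hq
    rw [Pi.single_eq_same, ← he] at hq'
    exact hq'
  choose u huc hu using fun q : S => (mem_B2 _ _).1 (hloc q)
  -- the functional on `H¹(G_S)` defined by the compactly supported class `(x, u)`
  have hc : IsCSCocycle σ ((x, u) : CPair S W) := ⟨hx, huc, hu⟩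
  let g : Z1 (lvlS S) ρ →ₗ[ZMod p] ZMod p :=
    (thetaL P I ((x, u) : CPair S W)).comp (Z1 (lvlS S) ρ).subtype
  have hker : LinearMap.ker (locZ1 S ρ) ≤ LinearMap.ker g := by
    intro w hw
    have hwq : ∀ q : S, ∃ α, d0 (ρ.comp (loc q.1)) α = rs1 p q.1 (w : GQ → V) := fun q => by
      have := congrFun (LinearMap.mem_ker.1 hw) q
      exact (mem_B1 _).1 ((H1cπ_eq_zero _ _).1 this)
    choose α hα using hwq
    have h0 := h ((w : GQ → V), α) ⟨w.2, hα⟩
    rw [LinearMap.mem_ker]
    show thetaL P I ((x, u) : CPair S W) w = 0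
    rw [← h0, ← sub_eq_zero, thetaL_apply, theta1_apply, ← map_sub, Prod.mk_sub_mk]
    refine tau_eq_zero I _ _ 0 (C2 (k := ZMod p) (lvlS S) (ZMod p)).zero_mem
      (fun q => -cup01 (P.comp (loc q.1)) (α q) (u q))
      (fun q => isConst₁_neg (cup01_const _ _ (huc q))) (by simp) fun q => ?_
    rw [show muLoc p q.1 = charRep ((cycloChar p).comp (loc q.1)) from rfl, map_neg, d1_cup01,
      hα q, hu q, map_zero, zero_add, Pi.sub_apply]
    abel
  obtain ⟨G, hG⟩ := exists_comp_eq_of_ker_le (locZ1 S ρ) g hker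
  obtain ⟨β, hβ⟩ := exists_pairP1_flip_eq P I hp hP hρ hσ G
  choose b hb using fun q : S => Submodule.mkQ_surjective _ (β q)
  have hb0 : IsCSCocycle σ ((0, fun q => (b q : Gl q.1 → W)) : CPair S W) := by
    refine ⟨zero_mem _, fun q => (b q).2.2, fun q => ?_⟩
    rw [LinearMap.mem_ker.1 (b q).2.1, map_zero]
  obtain ⟨a, ha, h1, -⟩ := hD _ (hc.add hb0) fun w hw => by
    rw [← thetaL_eq_thetaR_flip P I hσ hρ (hc.add hb0) hw, map_add, LinearMap.add_apply,
      thetaL_local P I hσ _ (fun q => (b q).2) hw]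
    have e1 : G (locZ1 S ρ ⟨w, hw⟩) = g ⟨w, hw⟩ := hG _
    rw [← hβ, LinearMap.flip_apply, pairP1_apply] at e1
    rw [show thetaL P I ((x, u) : CPair S W) w = g ⟨w, hw⟩ from rfl, ← e1, add_neg_eq_zero]
    refine Finset.sum_congr rfl fun q _ => ?_
    rw [← hb q]
    exact pair11_mk P I hσ q.1 ⟨rs1 p q.1 w, pp1_mem_Z1 (lvlS_le_lvlLoc S q.1)
      (equivariant_loc ρ q.1) hw⟩ (b q)
  refine (mem_B2 _ _).2 ⟨a, ha, ?_⟩
  simpa using h1.symm

end separation

section ses

variable {A M B A' M' B' : Type} [AddCommGroup A] [Module (ZMod p) A] [AddCommGroup M]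
  [Module (ZMod p) M] [AddCommGroup B] [Module (ZMod p) B] [AddCommGroup A'] [Module (ZMod p) A']
  [AddCommGroup M'] [Module (ZMod p) M'] [AddCommGroup B'] [Module (ZMod p) B']
variable {ρA : Representation (ZMod p) GQ A} {ρM : Representation (ZMod p) GQ M}
  {ρB : Representation (ZMod p) GQ B} {σA : Representation (ZMod p) GQ A'}
  {σM : Representation (ZMod p) GQ M'} {σB : Representation (ZMod p) GQ B'}

/-- Dual short exact sequences `0 → A → M → B → 0` and `0 → B' → M' → A' → 0`. -/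
structure DualSES (PA : Pairing (cycloChar p) ρA σA) (PM : Pairing (cycloChar p) ρM σM)
    (PB : Pairing (cycloChar p) ρB σB) where
  /-- the inclusion -/
  i : A →ₗ[ZMod p] M
  /-- the projection -/
  π : M →ₗ[ZMod p] B
  /-- the dual projection -/
  i' : M' →ₗ[ZMod p] A'
  /-- the dual inclusion -/
  π' : B' →ₗ[ZMod p] M'
  equivariant_i : Equivariant ρA ρM (MonoidHom.id GQ) i
  equivariant_π : Equivariant ρM ρB (MonoidHom.id GQ) π
  equivariant_i' : Equivariant σM σA (MonoidHom.id GQ) i'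
  equivariant_π' : Equivariant σB σM (MonoidHom.id GQ) π'
  adj_i : ∀ a m, PM.e (i a) m = PA.e a (i' m)
  adj_π : ∀ m b, PB.e (π m) b = PM.e m (π' b)
  i_injective : Function.Injective i
  π_surjective : Function.Surjective π
  exact_i : LinearMap.ker π = LinearMap.range i
  i'_surjective : Function.Surjective i'
  π'_injective : Function.Injective π'
  exact_i' : LinearMap.ker i' = LinearMap.range π'

variable {PA : Pairing (cycloChar p) ρA σA} {PM : Pairing (cycloChar p) ρM σM}
  {PB : Pairing (cycloChar p) ρB σB}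

/-- The flipped sequence. -/
def DualSES.flip (E : DualSES PA PM PB) : DualSES PB.flip PM.flip PA.flip where
  i := E.π'
  π := E.i'
  i' := E.π
  π' := E.i
  equivariant_i := E.equivariant_π'
  equivariant_π := E.equivariant_i'
  equivariant_i' := E.equivariant_π
  equivariant_π' := E.equivariant_i
  adj_i b m := (E.adj_π m b).symm
  adj_π m a := (E.adj_i a m).symm
  i_injective := E.π'_injective
  π_surjective := E.i'_surjective
  exact_i := E.exact_i'
  i'_surjective := E.π_surjective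
  π'_injective := E.i_injective
  exact_i' := E.exact_i

theorem isConst₁_comp {X Y : Type} {f : GQ → X} (hf : IsConst₁ (lvlS S) f) (φ : X → Y) :
    IsConst₁ (lvlS S) (φ ∘ f) := by
  obtain ⟨U, hU, h⟩ := hf
  exact ⟨U, hU, fun g s hs => by simp [h g s hs]⟩

/-- Dévissage. -/
theorem DualSES.detects [Finite M] [Finite B] [Finite A'] [Finite B'] (E : DualSES PA PM PB)
    (hp : p ≠ 2) (hPB : PB.Perfect) (hM : Smooth (lvlS S) ρM) (hM' : Smooth (lvlS S) σM)
    (hB : Smooth (lvlS S) ρB) (hA' : Smooth (lvlS S) σA) (hB' : Smooth (lvlS S) σB)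
    (hA : Detects PA I) (hDB : Detects PB I) (hDB' : Detects PB.flip I) : Detects PM I := by
  classical
  intro c hc hθ
  obtain ⟨s, hs⟩ := E.π.exists_rightInverse_of_surjective (LinearMap.range_eq_top.2 E.π_surjective)
  obtain ⟨r, hr⟩ := E.i.exists_leftInverse_of_injective (LinearMap.ker_eq_bot.2 E.i_injective)
  obtain ⟨s', hs'⟩ :=
    E.i'.exists_rightInverse_of_surjective (LinearMap.range_eq_top.2 E.i'_surjective)
  obtain ⟨r', hr'⟩ := E.π'.exists_leftInverse_of_injective (LinearMap.ker_eq_bot.2 E.π'_injective)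
  have hs1 : ∀ b, E.π (s b) = b := fun b => LinearMap.congr_fun hs b
  have hr1 : ∀ a, r (E.i a) = a := fun a => LinearMap.congr_fun hr a
  have hs1' : ∀ a, E.i' (s' a) = a := fun a => LinearMap.congr_fun hs' a
  have hr1' : ∀ b, r' (E.π' b) = b := fun b => LinearMap.congr_fun hr' b
  have hir : ∀ m, E.π m = 0 → E.i (r m) = m := fun m hm => by
    obtain ⟨a, rfl⟩ : m ∈ LinearMap.range E.i := by rw [← E.exact_i]; exact hm
    rw [hr1]
  have hir' : ∀ m, E.i' m = 0 → E.π' (r' m) = m := fun m hm => by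
    obtain ⟨a, rfl⟩ : m ∈ LinearMap.range E.π' := by rw [← E.exact_i']; exact hm
    rw [hr1']
  -- a pair in `M` killed by `π` comes from `A`
  have hlift : ∀ d : CPair S M, IsCSCocycle ρM d → (∀ g, E.π (d.1 g) = 0) →
      (∀ q g, E.π (d.2 q g) = 0) →
      CPair.map E.i (CPair.map r d) = d ∧ IsCSCocycle ρA (CPair.map r d) := by
    intro d hd h1 h2
    refine ⟨Prod.ext (funext fun g => hir _ (h1 g)) (funext fun q => funext fun g => hir _ (h2 q g)),
      ⟨⟨LinearMap.mem_ker.2 (funext fun ⟨g, h, j⟩ => E.i_injective ?_), ?_⟩, fun q => ?_,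
        fun q => funext fun ⟨g, h⟩ => E.i_injective ?_⟩⟩
    · have := congrFun (LinearMap.mem_ker.1 hd.mem_Z2.1) (g, h, j)
      have e : ∀ x a, E.i (ρA x a) = ρM x (E.i a) := E.equivariant_i
      simp only [d2_apply, Pi.zero_apply, map_sub, map_add, map_zero, e, CPair.map,
        Function.comp_apply, hir _ (h1 _)] at this ⊢
      exact this
    · obtain ⟨U, hU, h⟩ := hd.mem_Z2.2
      exact ⟨U, hU, fun g g' s s' hs hs' => by simp [CPair.map, h g g' s s' hs hs']⟩
    · obtain ⟨U, hU, h⟩ := hd.const q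
      exact ⟨U, hU, fun g s hs => by simp [CPair.map, h g s hs]⟩
    · have := congrFun (hd.d1_eq q) (g, h)
      have e : ∀ x a, E.i (ρA x a) = ρM x (E.i a) := E.equivariant_i
      simp only [d1_apply, MonoidHom.comp_apply, pp2_apply, LinearMap.id_apply, map_sub, map_add, e,
        CPair.map, Function.comp_apply, hir _ (h1 _), hir _ (h2 _ _)] at this ⊢
      exact this
  have hθA : ∀ d : CPair S M, CPair.map E.i (CPair.map r d) = d → ∀ y : GQ → M',
      thetaR PA I (CPair.map r d) (E.i' ∘ y) = thetaR PM I d y := fun d hd y => by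
    rw [← thetaR_map PA PM I E.i E.i' E.equivariant_i' E.adj_i, hd]
  -- Step 1: kill the image in `B`
  obtain ⟨a, ha, h1, h2⟩ := hDB _ (hc.map E.equivariant_π) fun y hy => by
    rw [thetaR_map PM PB I E.π E.π' E.equivariant_π' E.adj_π]
    exact hθ _ (pp1_mem_Z1 (lvlLE_id _) E.equivariant_π' hy)
  choose β hβ using h2
  set C₀ : CPair S M := (d1 ρM (s ∘ a),
    fun q => rs1 p q.1 (s ∘ a) + d0 (ρM.comp (loc q.1)) (s (β q))) with hC₀
  have hC₀c : IsCSCocycle ρM C₀ :=
    IsCSCobound.isCSCocycle hM (isConst₁_comp ha s) fun q => s (β q)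
  have hC₀b : IsCSCobound ρM C₀ := isCSCobound_of (isConst₁_comp ha s) fun q => s (β q)
  have eπ : ∀ x m, E.π (ρM x m) = ρB x (E.π m) := E.equivariant_π
  obtain ⟨hc₁i, hc₁⟩ := hlift (c - C₀) (hc.sub hC₀c)
    (fun g => by
      have := congrFun h1 g
      simp only [CPair.map, Function.comp_apply] at this
      obtain ⟨g, h⟩ := g
      simp only [Prod.fst_sub, Pi.sub_apply, map_sub, this, hC₀, d1_apply, Function.comp_apply,
        map_add, eπ, hs1, sub_self])
    (fun q g => by
      have := congrFun (hβ q) g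
      simp only [CPair.map, Function.comp_apply] at this
      simp only [Prod.snd_sub, Pi.sub_apply, map_sub, this, hC₀, Pi.add_apply, d0_apply,
        MonoidHom.comp_apply, pp1_apply, LinearMap.id_apply, Function.comp_apply, map_add, eπ, hs1,
        sub_self])
  have hθ₁ : ∀ y ∈ Z1 (lvlS S) σM, thetaR PA I (CPair.map r (c - C₀)) (E.i' ∘ y) = 0 :=
    fun y hy => by
      rw [hθA _ hc₁i, map_sub, LinearMap.sub_apply, hθ y hy,
        thetaR_eq_zero_of_cobound PM I hM' hC₀b hy, sub_zero]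
  -- Step 2: the connecting map on `H¹(G_S, A')`
  haveI := finite_Z1S S σA hA'
  haveI : Module.Finite (ZMod p) (Z1 (lvlS S) σA) := Module.Finite.of_finite
  let δ : (GQ → A') →ₗ[ZMod p] (GQ × GQ → B') :=
    (pp2 (MonoidHom.id GQ) r').comp ((d1 σM).comp (pp1 (MonoidHom.id GQ) s'))
  have ei' : ∀ x m, E.i' (σM x m) = σA x (E.i' m) := E.equivariant_i'
  have eπ' : ∀ x b, E.π' (σB x b) = σM x (E.π' b) := E.equivariant_π'
  have hδ0 : ∀ y ∈ Z1 (lvlS S) σA, ∀ g h, E.π' (δ y (g, h)) = d1 σM (s' ∘ y) (g, h) := by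
    intro y hy g h
    have : E.i' (d1 σM (s' ∘ y) (g, h)) = 0 := by
      simp only [d1_apply, Function.comp_apply, map_add, map_sub, ei', hs1',
        ((mem_Z1 _ _).1 hy).1 g h]
      abel
    exact hir' _ this
  have hδ : ∀ y ∈ Z1 (lvlS S) σA, δ y ∈ Z2 (lvlS S) σB := by
    intro y hy
    refine ⟨LinearMap.mem_ker.2 (funext fun ⟨g, h, j⟩ => E.π'_injective ?_), ?_⟩
    · have := congrFun (d2_d1 σM (s' ∘ y)) (g, h, j)
      simp only [d2_apply, Pi.zero_apply, map_add, map_sub, map_zero, eπ', hδ0 y hy] at this ⊢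
      exact this
    · obtain ⟨U, hU, hUc⟩ := (IsCSCobound.isCSCocycle hM' (isConst₁_comp hy.2 s')
        (fun _ : S => 0)).mem_Z2.2
      exact ⟨U, hU, fun g g' t t' ht ht' => by
        show r' _ = r' _
        exact congrArg r' (hUc g g' t t' ht ht')⟩
  let Φ : CS1 S ρB →ₗ[ZMod p] Module.Dual (ZMod p) (Z1 (lvlS S) σA) :=
    ((theta1 I PB).compl₂ (δ.comp (Z1 (lvlS S) σA).subtype)).comp (CS1 S ρB).subtype
  let φ : Module.Dual (ZMod p) (Z1 (lvlS S) σA) :=
    (thetaR PA I (CPair.map r (c - C₀))).comp (Z1 (lvlS S) σA).subtype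
  have hφ : φ ∈ LinearMap.range Φ := by
    rw [← Subspace.dualCoannihilator_dualAnnihilator_eq (W := LinearMap.range Φ),
      Submodule.mem_dualAnnihilator]
    intro y hy
    rw [Submodule.mem_dualCoannihilator] at hy
    obtain ⟨b, hb, hdb⟩ := (mem_B2 _ _).1 (mem_B2_of_theta1_eq_zero I PB hp hPB hB hB' hDB'
      (hδ y.1 y.2) fun w hw => hy _ ⟨⟨w, hw⟩, rfl⟩)
    have hy' : (fun g => s' (y.1 g) - E.π' (b g)) ∈ Z1 (lvlS S) σM := by
      refine ⟨LinearMap.mem_ker.2 (funext fun ⟨g, h⟩ => ?_), ?_⟩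
      · have := hδ0 y.1 y.2 g h
        rw [← hdb] at this
        simp only [d1_apply, Function.comp_apply, map_add, map_sub, eπ'] at this
        simp only [d1_apply, map_sub, Pi.zero_apply]
        rw [← sub_eq_zero.2 this.symm]
        abel
      · exact (C1 (k := ZMod p) (lvlS S) M').sub_mem (isConst₁_comp y.2.2 s') (isConst₁_comp hb E.π')
    have e : E.i' ∘ (fun g => s' (y.1 g) - E.π' (b g)) = y.1 := funext fun g => by
      have : E.π' (b g) ∈ LinearMap.ker E.i' := by rw [E.exact_i']; exact ⟨_, rfl⟩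
      simp [hs1', LinearMap.mem_ker.1 this]
    have := hθ₁ _ hy'
    rwa [e] at this
  obtain ⟨⟨⟨w, α⟩, hw, hα⟩, hwα⟩ := hφ
  replace hw : w ∈ Z1 (lvlS S) ρB := hw
  replace hα : ∀ q : S, d0 (ρB.comp (loc q.1)) (α q) = rs1 p q.1 w := hα
  -- Step 3: subtract the image of `(w, α)` under the connecting map
  set D : CPair S M := (d1 ρM (s ∘ w),
    fun q => rs1 p q.1 (s ∘ w) + d0 (ρM.comp (loc q.1)) (-s (α q))) with hD
  have hDc : IsCSCocycle ρM D := IsCSCobound.isCSCocycle hM (isConst₁_comp hw.2 s) _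
  have hDb : IsCSCobound ρM D := isCSCobound_of (isConst₁_comp hw.2 s) _
  obtain ⟨hDi, hDA⟩ := hlift D hDc
    (fun ⟨g, h⟩ => by
      simp only [hD, d1_apply, Function.comp_apply, map_add, map_sub, eπ, hs1,
        ((mem_Z1 _ _).1 hw).1 g h]
      abel)
    (fun q g => by
      have := congrFun (hα q) g
      simp only [d0_apply, MonoidHom.comp_apply, pp1_apply, LinearMap.id_apply] at this
      simp only [hD, Pi.add_apply, d0_apply, MonoidHom.comp_apply, pp1_apply, LinearMap.id_apply,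
        Function.comp_apply, map_add, map_sub, map_neg, Pi.neg_apply, eπ, hs1, ← this]
      abel)
  -- `θ_A (δ (w, α)) y = θ₁ ((w, α), δ y)`
  have key : ∀ y ∈ Z1 (lvlS S) σA,
      thetaR PA I (CPair.map r D) y = theta1 I PB (w, α) (δ y) := by
    intro y hy
    conv_lhs => rw [show y = E.i' ∘ (s' ∘ y) from funext fun g => (hs1' _).symm]
    rw [hθA _ hDi, ← sub_eq_zero, thetaR_apply, theta1_apply, ← map_sub, Prod.mk_sub_mk]
    have hw' := isConst₁_comp hw.2 s
    have hy' := isConst₁_comp hy.2 s'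
    refine tau_eq_zero I _ _ (cup11 PM (s ∘ w) (s' ∘ y)) (cup11_const PM hM' hw' hy')
      (fun q => -cup01 (PM.comp (loc q.1)) (s (α q)) (rs1 p q.1 (s' ∘ y)))
      (fun q => isConst₁_neg (cup01_const _ _ (pp1_const (lvlS_le_lvlLoc S q.1) hy'))) ?_
      (fun q => ?_)
    · rw [d2_cup11]
      congr 1
      funext ⟨g, h, j⟩
      simp only [cup12]
      rw [← hδ0 y hy, ← eπ', ← E.adj_π, Function.comp_apply, hs1]
    · rw [show muLoc p q.1 = charRep ((cycloChar p).comp (loc q.1)) from rfl, map_neg, d1_cup01]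
      funext ⟨g, h⟩
      have e1 : PB.e (α q) (δ y (loc q.1 g, loc q.1 h)) =
          PM.e (s (α q)) (d1 σM (s' ∘ y) (loc q.1 g, loc q.1 h)) := by
        rw [← hδ0 y hy, ← E.adj_π, hs1]
      simp only [hD, cup11, cup02, Pairing.comp, Pi.sub_apply, Pi.neg_apply, Pi.add_apply,
        d0_apply, d1_apply, pp1_apply, pp2_apply, LinearMap.id_apply, MonoidHom.comp_apply,
        Function.comp_apply, map_add, map_sub, map_neg, LinearMap.add_apply, LinearMap.sub_apply,
        LinearMap.neg_apply, map_mul, e1]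
      abel
  have hfin : IsCSCobound ρA (CPair.map r (c - C₀) - CPair.map r D) :=
    hA _ (hc₁.sub hDA) fun y hy => by
      rw [map_sub, LinearMap.sub_apply, key y hy, sub_eq_zero]
      exact (LinearMap.congr_fun hwα ⟨y, hy⟩).symm
  have e : c = CPair.map E.i (CPair.map r (c - C₀) - CPair.map r D) + D + C₀ := by
    have : CPair.map E.i (CPair.map r (c - C₀) - CPair.map r D)
        = CPair.map E.i (CPair.map r (c - C₀)) - CPair.map E.i (CPair.map r D) := by
      refine Prod.ext (funext fun g => ?_) (funext fun q => funext fun g => ?_) <;>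
        simp [CPair.map]
    rw [this, hc₁i, hDi]
    abel
  rw [e]
  exact ((hfin.map E.equivariant_i).add hDb).add hC₀b

end ses

end FLTA.PT

end
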