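import Fermat.Agent.PoitouTate.Hasse

/-!
# The kernels of localisation
-/

set_option autoImplicit false

open ExtCitation

noncomputable section

namespace FLTA.PT

variable (p : ℕ) [Fact p.Prime] {V : Type} [AddCommGroup V] [Module (ZMod p) V]

/-- The kernel of localisation on `H¹(G_S, M)`. -/
def shaOne (S : Finset Nat.Primes) (ρ : Representation (ZMod p) GQ V) :
    Submodule (ZMod p) (H1c (lvlS S) ρ) :=
  ⨅ q ∈ S, LinearMap.ker (locH1 S ρ q)

end FLTA.PT

end
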