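import Fermat.Agent.PoitouTate.Surj
import Fermat.Agent.PoitouTate.Devissage
import Fermat.Agent.PoitouTate.ShaDefs

/-!
# The pairing `Ш¹_S(M') × Ш²_S(M) → ℤ/p`
-/

set_option autoImplicit false

open ExtCitation Module

noncomputable section

namespace FLTA.PT

variable {p : ℕ} [Fact p.Prime] {S : Finset Nat.Primes}
variable {V W : Type} [AddCommGroup V] [Module (ZMod p) V] [AddCommGroup W] [Module (ZMod p) W]
variable {ρ : Representation (ZMod p) GQ V} {σ : Representation (ZMod p) GQ W}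

theorem mem_shaOne_iff {x : H1c (lvlS S) σ} :
    x ∈ shaOne p S σ ↔ ∀ q ∈ S, locH1 S σ q x = 0 := by
  simp [shaOne, Submodule.mem_iInf]

theorem mem_shaTwo_iff {x : H2c (lvlS S) ρ} :
    x ∈ shaTwo p S ρ ↔ ∀ q ∈ S, locH2 S ρ q x = 0 := by
  simp [shaTwo, Submodule.mem_iInf]

/-- The compactly supported cocycles. -/
def CS2 (S : Finset Nat.Primes) (ρ : Representation (ZMod p) GQ V) :
    Submodule (ZMod p) (CPair S V) where
  carrier := {c | IsCSCocycle ρ c}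
  add_mem' := fun ha hb => IsCSCocycle.add ha hb
  zero_mem' := ⟨zero_mem _, fun q => (C1 (k := ZMod p) (lvlLoc q.1) V).zero_mem, fun q => by
    show d1 _ 0 = rs2 p q.1 0
    rw [map_zero, map_zero]⟩
  smul_mem' := fun r {c} hc => ⟨Submodule.smul_mem _ r hc.mem_Z2,
    fun q => (C1 (k := ZMod p) (lvlLoc q.1) V).smul_mem r (hc.const q), fun q => by
      show d1 _ (r • c.2 q) = rs2 p q.1 (r • c.1)
      rw [map_smul, map_smul, hc.d1_eq q]⟩

theorem class_mem_shaTwo {c : CPair S V} (hc : IsCSCocycle ρ c) :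
    H2cπ (lvlS S) ρ ⟨c.1, hc.mem_Z2⟩ ∈ shaTwo p S ρ := by
  refine mem_shaTwo_iff.2 fun q hq => ?_
  rw [locH2, map2_mk]
  exact (H2cπ_eq_zero (lvlLoc q) (ρ.comp (loc q))).2
    ((mem_B2 (lvlLoc q) (ρ.comp (loc q))).2 ⟨c.2 ⟨q, hq⟩, hc.const ⟨q, hq⟩, hc.d1_eq ⟨q, hq⟩⟩)

/-- The class in `Ш²` of a compactly supported cocycle. -/
def csClass (S : Finset Nat.Primes) (ρ : Representation (ZMod p) GQ V) :
    CS2 S ρ →ₗ[ZMod p] shaTwo p S ρ where
  toFun c := ⟨H2cπ (lvlS S) ρ ⟨c.1.1, c.2.mem_Z2⟩, class_mem_shaTwo c.2⟩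
  map_add' _ _ := Subtype.ext rfl
  map_smul' _ _ := Subtype.ext rfl

theorem csClass_surjective : Function.Surjective (csClass S ρ) := by
  rintro ⟨x, hx⟩
  obtain ⟨z, rfl⟩ := Submodule.mkQ_surjective _ x
  have h := mem_shaTwo_iff.1 hx
  have hz : ∀ q : S, ∃ u, IsConst₁ (lvlLoc q.1) u ∧
      d1 (ρ.comp (loc q.1)) u = rs2 p q.1 z.1 := fun q => by
    have e := h q.1 q.2
    rw [locH2, map2_mk] at e
    exact (mem_B2 _ _).1 ((H2cπ_eq_zero (lvlLoc q.1) (ρ.comp (loc q.1))).1 e)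
  choose u hu hd using hz
  exact ⟨⟨(z.1, u), ⟨z.2, hu, hd⟩⟩, rfl⟩

/-- The cocycles whose class is in `Ш¹`. -/
def Z1Sha (S : Finset Nat.Primes) (σ : Representation (ZMod p) GQ W) :
    Submodule (ZMod p) (Z1 (lvlS S) σ) :=
  (shaOne p S σ).comap (H1cπ (lvlS S) σ)

/-- The class in `Ш¹`. -/
def shaClass (S : Finset Nat.Primes) (σ : Representation (ZMod p) GQ W) :
    Z1Sha S σ →ₗ[ZMod p] shaOne p S σ where
  toFun y := ⟨H1cπ (lvlS S) σ y.1, y.2⟩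
  map_add' _ _ := Subtype.ext rfl
  map_smul' _ _ := Subtype.ext rfl

theorem shaClass_surjective : Function.Surjective (shaClass S σ) := by
  rintro ⟨x, hx⟩
  obtain ⟨y, rfl⟩ := Submodule.mkQ_surjective _ x
  exact ⟨⟨y, hx⟩, rfl⟩

theorem locZ1_eq_zero_of_mem {y : Z1 (lvlS S) σ} (hy : y ∈ Z1Sha S σ) :
    locZ1 S σ y = 0 := funext fun q => mem_shaOne_iff.1 hy q.1 q.2

variable (P : Pairing (cycloChar p) ρ σ) (I : InvSystem p S)

theorem thetaR_eq_zero_of_csClass (hσ : Smooth (lvlS S) σ) {c : CPair S V}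
    (hc : IsCSCocycle ρ c) (hb : c.1 ∈ B2 (lvlS S) ρ) {y : Z1 (lvlS S) σ}
    (hy : y ∈ Z1Sha S σ) : thetaR P I c (y : GQ → W) = 0 := by
  obtain ⟨a, ha, hda⟩ := (mem_B2 _ _).1 hb
  have h1 : c = ((d1 ρ a, fun q : S => rs1 p q.1 a + d0 (ρ.comp (loc q.1)) 0) : CPair S V) +
      (((0 : GQ × GQ → V), fun q : S => c.2 q - rs1 p q.1 a) : CPair S V) := by
    refine Prod.ext (by simp [hda]) (funext fun q => ?_)
    show c.2 q = rs1 p q.1 a + d0 (ρ.comp (loc q.1)) 0 + (c.2 q - rs1 p q.1 a)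
    rw [map_zero]; abel
  have hβ : ∀ q : S, c.2 q - rs1 p q.1 a ∈ Z1 (lvlLoc q.1) (ρ.comp (loc q.1)) := fun q => by
    refine ⟨LinearMap.mem_ker.2 ?_, (C1 (k := ZMod p) (lvlLoc q.1) V).sub_mem (hc.const q)
      (pp1_const (lvlS_le_lvlLoc S q.1) ha)⟩
    rw [map_sub, hc.d1_eq q, ← pp2_d1 (equivariant_loc ρ q.1), hda, sub_self]
  rw [h1, map_add, LinearMap.add_apply,
    thetaR_eq_zero_of_cobound P I hσ (isCSCobound_of ha fun _ => 0) y.2, zero_add,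
    thetaR_local P I hσ _ hβ y.2]
  refine Finset.sum_eq_zero fun q _ => ?_
  have hq := congrFun (locZ1_eq_zero_of_mem hy) q
  obtain ⟨v, hv⟩ := (mem_B1 _).1 ((H1cπ_eq_zero (lvlLoc q.1) (σ.comp (loc q.1))).1 hq)
  refine (invOf_eq_zero_iff I q.2 (cup11_mem_Z2 (P.comp (loc q.1)) (smooth_loc hσ q.1) (hβ q)
    (pp1_mem_Z1 (lvlS_le_lvlLoc S q.1) (equivariant_loc σ q.1) y.2))).2 ?_
  have hv' : d0 (σ.comp (loc q.1)) v = rs1 p q.1 (y : GQ → W) := hv
  rw [← hv']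
  exact cup11_d0_right_mem_B2_loc P hσ q.1 (hβ q) v

/-- The pairing on `Ш`. -/
theorem exists_shaPair [Finite V] [Finite W] (hp : p ≠ 2) (hpS : pPrime p ∈ S) (hP : P.Perfect)
    (hρ : Smooth (lvlS S) ρ) (hσ : Smooth (lvlS S) σ) :
    ∃ B : shaOne p S σ →ₗ[ZMod p] shaTwo p S ρ →ₗ[ZMod p] ZMod p,
      (∀ (c : CS2 S ρ) (y : Z1Sha S σ),
        B (shaClass S σ y) (csClass S ρ c) = thetaR P I c.1 (y.1 : GQ → W)) ∧
      ∀ y, (∀ x, B y x = 0) → y = 0 := by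
  set T : Z1Sha S σ →ₗ[ZMod p] CS2 S ρ →ₗ[ZMod p] ZMod p :=
    (((thetaR P I).compl₂ ((Z1 (lvlS S) σ).subtype.comp (Z1Sha S σ).subtype)).comp
      (CS2 S ρ).subtype).flip with hT
  have hT' : ∀ (c : CS2 S ρ) (y : Z1Sha S σ), T y c = thetaR P I c.1 (y.1 : GQ → W) :=
    fun _ _ => rfl
  have hc0 : LinearMap.ker (csClass S ρ) ≤ LinearMap.ker T.flip := fun c hc =>
    LinearMap.mem_ker.2 (LinearMap.ext fun y => by
      rw [LinearMap.flip_apply, hT', LinearMap.zero_apply]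
      exact thetaR_eq_zero_of_csClass P I hσ c.2
        ((H2cπ_eq_zero (lvlS S) ρ).1 (congrArg Subtype.val (LinearMap.mem_ker.1 hc))) y.2)
  have hy0 : LinearMap.ker (shaClass S σ) ≤ LinearMap.ker T := fun y hy =>
    LinearMap.mem_ker.2 (LinearMap.ext fun c => by
      obtain ⟨m, hm⟩ :=
        (mem_B1 _).1 ((H1cπ_eq_zero (lvlS S) σ).1 (congrArg Subtype.val (LinearMap.mem_ker.1 hy)))
      rw [hT', LinearMap.zero_apply, ← hm]
      exact thetaR_d0 P I hσ c.2 m)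
  obtain ⟨sy, hsy⟩ := (shaClass S σ).exists_rightInverse_of_surjective
    (LinearMap.range_eq_top.2 shaClass_surjective)
  obtain ⟨sc, hsc⟩ := (csClass S ρ).exists_rightInverse_of_surjective
    (LinearMap.range_eq_top.2 csClass_surjective)
  have hsy' : ∀ y, shaClass S σ (sy y) = y := fun y => LinearMap.congr_fun hsy y
  have hsc' : ∀ x, csClass S ρ (sc x) = x := fun x => LinearMap.congr_fun hsc x
  have hwd : ∀ y c, T (sy (shaClass S σ y)) (sc (csClass S ρ c)) = T y c := fun y c => by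
    have e1 : sy (shaClass S σ y) - y ∈ LinearMap.ker T :=
      hy0 (by rw [LinearMap.mem_ker, map_sub, hsy', sub_self])
    have e2 : sc (csClass S ρ c) - c ∈ LinearMap.ker T.flip :=
      hc0 (by rw [LinearMap.mem_ker, map_sub, hsc', sub_self])
    rw [LinearMap.mem_ker, map_sub, sub_eq_zero] at e1 e2
    rw [e1]
    exact LinearMap.congr_fun e2 y
  refine ⟨(T.comp sy).compl₂ sc, fun c y => hwd y c, fun y hy => ?_⟩
  obtain ⟨y', rfl⟩ := shaClass_surjective y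
  refine Subtype.ext ((H1cπ_eq_zero (lvlS S) σ).2 ?_)
  refine mem_B1_of_forall_thetaR_eq_zero I hp hpS P hP hρ hσ y'.1.2 fun c hc => ?_
  exact (hwd y' ⟨c, hc⟩).symm.trans (hy (csClass S ρ ⟨c, hc⟩))

/-- With injectivity of `θ`, the pairing on `Ш` is nondegenerate on the right. -/
theorem csClass_eq_zero_of_forall [Finite V] [Finite W] (hp : p ≠ 2) (hP : P.Perfect)
    (hρ : Smooth (lvlS S) ρ) (hσ : Smooth (lvlS S) σ) (hD : Detects P I) (c : CS2 S ρ)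
    (h : ∀ y : Z1Sha S σ, thetaR P I c.1 (y.1 : GQ → W) = 0) : csClass S ρ c = 0 := by
  let g : Z1 (lvlS S) σ →ₗ[ZMod p] ZMod p := (thetaR P I c.1).comp (Z1 (lvlS S) σ).subtype
  obtain ⟨G, hG⟩ := exists_comp_eq_of_ker_le (locZ1 S σ) g fun y hy => by
    have hy' : y ∈ Z1Sha S σ :=
      mem_shaOne_iff.2 fun q hq => congrFun (LinearMap.mem_ker.1 hy) ⟨q, hq⟩
    exact LinearMap.mem_ker.2 (h ⟨y, hy'⟩)
  obtain ⟨β, hβ⟩ := exists_pairP1_eq P I hp hP hρ hσ G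
  choose b hb using fun q : S => Submodule.mkQ_surjective _ (β q)
  have hb0 : IsCSCocycle ρ ((0, fun q : S => (b q : Gl q.1 → V)) : CPair S V) := by
    refine ⟨zero_mem _, fun q => (b q).2.2, fun q => ?_⟩
    rw [LinearMap.mem_ker.1 (b q).2.1, map_zero]
  obtain ⟨a, ha, h1, -⟩ := hD _ (c.2.sub hb0) fun y hy => by
    rw [map_sub, LinearMap.sub_apply, thetaR_local P I hσ _ (fun q => (b q).2) hy, sub_eq_zero]
    have e1 : G (locZ1 S σ ⟨y, hy⟩) = thetaR P I c.1 y := hG ⟨y, hy⟩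
    rw [← e1, ← hβ, pairP1_apply]
    refine Finset.sum_congr rfl fun q _ => ?_
    rw [← hb q]
    exact pair11_mk P I hσ q.1 (b q) ⟨rs1 p q.1 y, pp1_mem_Z1 (lvlS_le_lvlLoc S q.1)
      (equivariant_loc σ q.1) hy⟩
  refine Subtype.ext ((H2cπ_eq_zero (lvlS S) ρ).2 ((mem_B2 _ _).2 ⟨a, ha, ?_⟩))
  simpa using h1.symm

end FLTA.PT

end
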