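import Fermat.Agent.PoitouTate.Perm
import Fermat.Agent.PoitouTate.Sha
import Fermat.Agent.PoitouTate.Hasse
import Fermat.Agent.PoitouTate.Places

/-!
# Injectivity of `θ` for permutation modules

For `M = Fun(G/G₀, μ_p)` the image `W` of `H¹(G_S, M)` in the semi-local `H¹` is isotropic for the
local duality pairing. The lower bound for `H¹(G_S, M)` and the upper bound for `Ш²` show that `W`
is its own orthogonal and that the pairing of `Ш¹` with `Ш²` is perfect.
-/

set_option autoImplicit false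
set_option linter.style.haveILetI false

open ExtCitation Module

noncomputable section

namespace FLTA.PT

variable {p : ℕ} [Fact p.Prime] {S : Finset Nat.Primes}

namespace Base

variable (G₀ : Subgroup GQ)

attribute [local instance] GC.locAction

/-- Orbits of the local group on cosets are the places over `q`. -/
def orbitEquiv (q : Nat.Primes) :
    Quotient (MulAction.orbitRel (Gl q) (GQ ⧸ G₀)) ≃ PlacesAt q G₀ :=
  Quotient.congr (Equiv.refl _) fun a b => by
    show a ∈ MulAction.orbit (Gl q) b ↔ a ∈ MulAction.orbit (loc q).range b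
    constructor
    · rintro ⟨τ, hτ⟩
      exact ⟨⟨loc q τ, τ, rfl⟩, hτ⟩
    · rintro ⟨⟨_, τ, rfl⟩, hτ⟩
      exact ⟨τ, hτ⟩

theorem finrank_H1At (hp : p ≠ 2) (hG : IsOpenLvl lvlQ G₀) [Fintype (GQ ⧸ G₀)]
    (hμ : ∀ s ∈ G₀, cycloChar p s = 1) (q : Nat.Primes) :
    finrank (ZMod p) (H1At (funRep (muRep p) (GQ ⧸ G₀)) q) =
      2 * Nat.card (PlacesAt q G₀) + if (q : ℕ) = p then G₀.index else 0 := by
  have key : finrank (ZMod p) (H1c (lvlLoc q) (funRep (muLoc p q) (GQ ⧸ G₀))) =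
      2 * Nat.card (Quotient (MulAction.orbitRel (Gl q) (GQ ⧸ G₀))) +
        (if (q : ℕ) = p then Nat.card (GQ ⧸ G₀) else 0) := by
    refine finrank_H1_funRep_muLoc p q hp (GQ ⧸ G₀) (GC.isOpenLvl_stabilizer hG) fun x s hs => ?_
    induction x using QuotientGroup.induction_on with | _ g => ?_
    have h := hμ _ (mem_stabLoc.1 (GC.smul_coe_eq_iff.1 hs))
    rw [map_mul, map_mul, map_inv, mul_right_comm, inv_mul_cancel, one_mul] at h
    exact h
  rw [Nat.card_congr (orbitEquiv G₀ q), ← GC.locRep_eq] at key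
  exact key

theorem finrank_P1 (hp : p ≠ 2) (hpS : pPrime p ∈ S) (hG : IsOpenLvl lvlQ G₀)
    [Fintype (GQ ⧸ G₀)] (hμ : ∀ s ∈ G₀, cycloChar p s = 1)
    (hρ : Smooth (lvlS S) (funRep (muRep p) (GQ ⧸ G₀))) :
    finrank (ZMod p) (P1 S (funRep (muRep p) (GQ ⧸ G₀))) = 2 * numPlaces S G₀ + G₀.index := by
  classical
  haveI : ∀ q : S, Module.Finite (ZMod p) (H1At (funRep (muRep p) (GQ ⧸ G₀)) q.1) := fun q =>
    haveI := finite_localH1 (p := p) (q := q.1) (smooth_loc hρ q.1)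
    Module.Finite.of_finite
  haveI : ∀ q : S, Module.Free (ZMod p) (H1At (funRep (muRep p) (GQ ⧸ G₀)) q.1) := fun q =>
    Module.Free.of_divisionRing _ _
  have h := Module.finrank_pi_fintype (ZMod p) (M := fun q : S => H1At (funRep (muRep p) (GQ ⧸ G₀)) q.1)
  refine h.trans ?_
  rw [Finset.sum_congr rfl fun (q : S) _ => finrank_H1At G₀ hp hG hμ q.1, Finset.sum_add_distrib,
    ← Finset.mul_sum, numPlaces, ← Finset.sum_coe_sort S fun q => Nat.card (PlacesAt q G₀)]
  congr 1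
  rw [Finset.sum_eq_single (⟨pPrime p, hpS⟩ : S)]
  · exact if_pos rfl
  · intro q _ hne
    exact if_neg fun e => hne (Subtype.ext (Subtype.ext e))
  · simp

theorem natCard_eq_pow_finrank' (A : Type) [AddCommGroup A] [Module (ZMod p) A] [Finite A] :
    Nat.card A = p ^ finrank (ZMod p) A := by
  haveI : Module.Finite (ZMod p) A := Module.Finite.of_finite
  rw [Module.natCard_eq_pow_finrank (K := ZMod p) (V := A), Nat.card_zmod]

theorem even_index (hp : p ≠ 2) (hG : IsOpenLvl lvlQ G₀) (hμ : ∀ s ∈ G₀, cycloChar p s = 1) :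
    2 ∣ G₀.index := by
  haveI := numberField_fixedK G₀ hG
  obtain ⟨ζ, hζ⟩ := exists_primitiveRoot_fixedK p hμ
  have h := rank_add_one_eq_of_isPrimitiveRoot (fixedK G₀)
    (lt_of_le_of_ne (Fact.out : p.Prime).two_le (Ne.symm hp)) hζ
  rw [finrank_fixedK G₀ hG] at h
  exact ⟨_, h.symm⟩

end Base

set_option maxHeartbeats 1000000 in
/-- `θ` is injective on every `Fun(G/G₀, μ_p)`. -/
theorem permDetects (I : InvSystem p S) (hp : p ≠ 2) (hpS : pPrime p ∈ S) : PermDetects I := by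
  classical
  intro G₀ _ hG hμ c hc hθ
  have hGQ := isOpenLvl_lvlQ_of_lvlS hG
  have hρ : Smooth (lvlS S) (funRep (muRep p) (GQ ⧸ G₀)) :=
    smooth_funRep _ _ (GC.smooth_muRep_lvlS p hpS) hG.stabilizer_quotient
  set ρ := funRep (muRep p) (GQ ⧸ G₀) with hρdef
  set P := permPairing G₀ hμ with hPdef
  have hP : P.Perfect := permPairing_perfect G₀ hμ
  haveI := finite_Z1S S ρ hρ
  haveI : Finite (H1c (lvlS S) ρ) := Finite.of_surjective _ (Submodule.mkQ_surjective _)
  haveI := finite_P1 (S := S) (ρ := ρ) hρ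
  haveI : Module.Finite (ZMod p) (P1 S ρ) := Module.Finite.of_finite
  haveI : Module.Finite (ZMod p) (H1c (lvlS S) ρ) := Module.Finite.of_finite
  -- the semi-local image and its orthogonal
  let L : H1c (lvlS S) ρ →ₗ[ZMod p] P1 S ρ := LinearMap.pi fun q => locH1 S ρ q.1
  let W := LinearMap.range L
  let f := pairP1 P I hρ
  let W' := W.dualAnnihilator.comap f
  have hbij : Function.Bijective f :=
    ⟨pairP1_injective P I hp hP hρ hρ, fun g => exists_pairP1_eq P I hp hP hρ hρ g⟩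
  have hiso : W ≤ W' := by
    rintro _ ⟨x, rfl⟩
    refine Submodule.mem_comap.2 ((Submodule.mem_dualAnnihilator _).2 ?_)
    rintro _ ⟨y, rfl⟩
    obtain ⟨a, rfl⟩ := Submodule.mkQ_surjective _ x
    obtain ⟨b, rfl⟩ := Submodule.mkQ_surjective _ y
    show pairP1 P I hρ _ _ = 0
    rw [pairP1_apply]
    refine Eq.trans ?_ (sum_invOf_cup11_global P I hρ a.2 b.2)
    rw [← Finset.sum_coe_sort S]
    exact Finset.sum_congr rfl fun q _ => pair11_mk P I hρ q.1 _ _
  have hW' : finrank (ZMod p) W' + finrank (ZMod p) W = finrank (ZMod p) (P1 S ρ) := by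
    have e : finrank (ZMod p) W' = finrank (ZMod p) W.dualAnnihilator := by
      let e : P1 S ρ ≃ₗ[ZMod p] Module.Dual (ZMod p) (P1 S ρ) := LinearEquiv.ofBijective f hbij
      have he : W' = W.dualAnnihilator.map (e.symm : _ →ₗ[ZMod p] _) :=
        (Submodule.map_equiv_eq_comap_symm e.symm W.dualAnnihilator).symm
      rw [he, LinearEquiv.finrank_map_eq]
    rw [e, add_comm, Subspace.finrank_add_finrank_dualAnnihilator_eq]
  have hP1 : finrank (ZMod p) (P1 S ρ) = 2 * numPlaces S G₀ + G₀.index :=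
    Base.finrank_P1 G₀ hp hpS hGQ hμ hρ
  -- global classes
  have hker : LinearMap.ker L = shaOne p S ρ := by
    ext x
    rw [LinearMap.mem_ker, mem_shaOne_iff]
    exact ⟨fun h q hq => congrFun h ⟨q, hq⟩, fun h => funext fun q => h q.1 q.2⟩
  have hH1 : finrank (ZMod p) W + finrank (ZMod p) (shaOne p S ρ) =
      finrank (ZMod p) (H1c (lvlS S) ρ) := by
    rw [← hker]
    exact L.finrank_range_add_finrank_ker
  obtain ⟨hfin2, hcard2⟩ := card_shaTwo_funRep_le p hp S hpS G₀ hG hμ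
  haveI : Module.Finite (ZMod p) (shaTwo p S ρ) := Module.Finite.of_finite
  have hlow : numPlaces S G₀ + G₀.index / 2 + finrank (ZMod p) (shaTwo p S ρ) ≤
      finrank (ZMod p) (H1c (lvlS S) ρ) := by
    have h := (Nat.mul_le_mul_left (p ^ (numPlaces S G₀ + G₀.index / 2)) hcard2).trans
      (le_card_H1S_funRep p hp S hpS G₀ hG hμ)
    rw [← hρdef, Base.natCard_eq_pow_finrank' (p := p) (H1c (lvlS S) ρ),
      Base.natCard_eq_pow_finrank' (p := p) (shaTwo p S ρ), ← pow_add] at h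
    exact (Nat.pow_le_pow_iff_right (Fact.out : p.Prime).one_lt).1 h
  -- the pairing on `Ш` is perfect
  obtain ⟨B, hB, hleft⟩ := exists_shaPair P I hp hpS hP hρ hρ
  have hBinj : Function.Injective B :=
    (injective_iff_map_eq_zero _).2 fun y hy => hleft y fun x => by rw [hy, LinearMap.zero_apply]
  have hd : finrank (ZMod p) (shaOne p S ρ) ≤ finrank (ZMod p) (shaTwo p S ρ) :=
    (LinearMap.finrank_le_finrank_of_injective hBinj).trans_eq Subspace.dual_finrank_eq
  have hWle := Submodule.finrank_mono hiso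
  obtain ⟨k, hk⟩ := Base.even_index G₀ hp hGQ hμ
  have hsum := hW'.trans hP1
  have hWle2 : finrank (ZMod p) W + finrank (ZMod p) W ≤ 2 * numPlaces S G₀ + G₀.index :=
    (Nat.add_le_add_right hWle _).trans_eq hsum
  have h3 : 2 * numPlaces S G₀ + G₀.index ≤ finrank (ZMod p) W + finrank (ZMod p) W := by omega
  have hdim : finrank (ZMod p) W = finrank (ZMod p) W' ∧
      finrank (ZMod p) (shaOne p S ρ) = finrank (ZMod p) (Module.Dual (ZMod p) (shaTwo p S ρ)) :=
    ⟨le_antisymm hWle (Nat.le_of_add_le_add_right (hsum.trans_le h3)),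
      by rw [Subspace.dual_finrank_eq]; omega⟩
  have hWeq : W = W' := Submodule.eq_of_le_of_finrank_eq hiso hdim.1
  have hBsurj : Function.Surjective B :=
    (LinearMap.injective_iff_surjective_of_finrank_eq_finrank hdim.2).1 hBinj
  -- the class of `c`
  have h0 : csClass S ρ ⟨c, hc⟩ = 0 := by
    refine (Module.forall_dual_apply_eq_zero_iff (ZMod p) _).1 fun φ => ?_
    obtain ⟨y, rfl⟩ := hBsurj φ
    obtain ⟨y, rfl⟩ := shaClass_surjective y
    rw [hB ⟨c, hc⟩ y]
    exact hθ _ y.1.2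
  obtain ⟨a, ha, hda⟩ :=
    (mem_B2 _ _).1 ((H2cπ_eq_zero (lvlS S) ρ).1 (congrArg Subtype.val h0))
  have hda' : d1 ρ a = c.1 := hda
  have hβ : ∀ q : S, c.2 q - rs1 p q.1 a ∈ Z1 (lvlLoc q.1) (ρ.comp (loc q.1)) := fun q => by
    refine ⟨LinearMap.mem_ker.2 ?_, (C1 (k := ZMod p) (lvlLoc q.1) (GQ ⧸ G₀ → ZMod p)).sub_mem (hc.const q)
      (pp1_const (lvlS_le_lvlLoc S q.1) ha)⟩
    rw [map_sub, hc.d1_eq q, ← pp2_d1 (equivariant_loc ρ q.1), hda', sub_self]
  let b : P1 S ρ := fun q => H1cπ (lvlLoc q.1) (ρ.comp (loc q.1)) ⟨_, hβ q⟩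
  have hb : b ∈ W := by
    rw [hWeq]
    refine Submodule.mem_comap.2 ((Submodule.mem_dualAnnihilator _).2 ?_)
    rintro _ ⟨y, rfl⟩
    obtain ⟨y, rfl⟩ := Submodule.mkQ_surjective _ y
    have hsplit : c = ((d1 ρ a, fun q : S => rs1 p q.1 a + d0 (ρ.comp (loc q.1)) 0) : CPair S _) +
        (((0 : GQ × GQ → GQ ⧸ G₀ → ZMod p), fun q : S => c.2 q - rs1 p q.1 a) : CPair S _) := by
      refine Prod.ext (by simp [hda']) (funext fun q => ?_)
      show c.2 q = rs1 p q.1 a + d0 (ρ.comp (loc q.1)) 0 + (c.2 q - rs1 p q.1 a)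
      rw [map_zero]; abel
    have h := hθ _ y.2
    rw [hsplit, map_add, LinearMap.add_apply,
      thetaR_eq_zero_of_cobound P I hρ (isCSCobound_of ha fun _ => 0) y.2, zero_add,
      thetaR_local P I hρ _ hβ y.2] at h
    show pairP1 P I hρ b _ = 0
    rw [pairP1_apply]
    refine Eq.trans (Finset.sum_congr rfl fun q _ => ?_) h
    exact pair11_mk P I hρ q.1 _ _
  obtain ⟨x, hx⟩ := hb
  obtain ⟨w, rfl⟩ := Submodule.mkQ_surjective _ x
  refine ⟨a + (w : GQ → GQ ⧸ G₀ → ZMod p), (C1 (k := ZMod p) (lvlS S) (GQ ⧸ G₀ → ZMod p)).add_mem ha w.2.2,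
    by rw [map_add, hda', LinearMap.mem_ker.1 w.2.1, add_zero], fun q => ?_⟩
  have hq : H1cπ (lvlLoc q.1) (ρ.comp (loc q.1)) ⟨rs1 p q.1 (w : GQ → GQ ⧸ G₀ → ZMod p),
      pp1_mem_Z1 (lvlS_le_lvlLoc S q.1) (equivariant_loc ρ q.1) w.2⟩ =
      H1cπ (lvlLoc q.1) (ρ.comp (loc q.1)) ⟨_, hβ q⟩ := congrFun hx q
  rw [← sub_eq_zero, ← map_sub] at hq
  obtain ⟨v, hv⟩ := (mem_B1 _).1 ((H1cπ_eq_zero _ _).1 hq)
  refine ⟨-v, ?_⟩
  rw [map_neg, hv, map_add]
  show c.2 q = rs1 p q.1 a + rs1 p q.1 (w : GQ → GQ ⧸ G₀ → ZMod p) +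
    -(rs1 p q.1 (w : GQ → GQ ⧸ G₀ → ZMod p) - (c.2 q - rs1 p q.1 a))
  abel

end FLTA.PT

end
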