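import Fermat.Agent.PoitouTate.BridgeCohom
import Fermat.Agent.PoitouTate.Main

/-!
# From the duality theorem to the frozen statement
-/

set_option autoImplicit false

open CategoryTheory ExtCitation groupCohomology FLTA.PT.Hasse

noncomputable section

namespace FLTA.PT

variable {p : ℕ} [Fact p.Prime]

theorem cycloChar_ker_mem_lvlS (S : Finset Nat.Primes) (hpS : pPrime p ∈ S) :
    (cycloChar p).ker ∈ lvlS S := by
  haveI : NeZero p := ⟨(Fact.out : p.Prime).ne_zero⟩
  obtain ⟨z, hz⟩ := HasEnoughRootsOfUnity.exists_primitiveRoot Qb p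
  haveI : FiniteDimensional ℚ (IntermediateField.adjoin ℚ {z}) :=
    IntermediateField.adjoin.finiteDimensional ((hz.isIntegral (NeZero.pos p)).tower_top)
  refine mem_lvlS_of_inertia_le ⟨inferInstance, IntermediateField.adjoin ℚ {z}, inferInstance,
    fun s hs => ?_⟩ (fun q hq A hA s hs => ?_)
  · rw [MonoidHom.mem_ker]
    refine Units.ext ?_
    show (cycloChar p s : ZMod p) = 1
    have hsz : s z = z :=
      (IntermediateField.mem_fixingSubgroup_iff _ s).mp hs z
        (IntermediateField.mem_adjoin_simple_self ℚ z)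
    have hz0 : z ≠ 0 := hz.ne_zero (NeZero.ne p)
    have hmem : Units.mk0 z hz0 ∈ rootsOfUnity p Qb := by
      rw [mem_rootsOfUnity]; ext; simpa using hz.pow_eq_one
    have h := modularCyclotomicCharacter.spec Qb (card_rootsOfUnity_eq_self p)
      (s : Qb ≃+* Qb) hmem
    have h1 : z ^ 1 = z ^ (cycloChar p s : ZMod p).val := by
      rw [pow_one]
      simpa [cycloChar, hsz] using h
    have := hz.pow_inj (Fact.out : p.Prime).one_lt (ZMod.val_lt _) h1
    exact ZMod.val_injective p (by rw [← this, ZMod.val_one])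
  · rw [MonoidHom.mem_ker]
    refine Units.ext ?_
    rw [coe_cycloChar, FLTA.Galois.cycloExp_inertia p q.2 (fun h => hq ?_) hA hs, Units.val_one]
    rwa [show q = pPrime p from Subtype.ext h]

variable (M : Rep.{0, 0, 0} (ZMod p) GQ)

theorem rho_ker_mem_lvlS [Finite M] (S : Finset Nat.Primes)
    (hsm : ∀ m : M, ∃ F : IntermediateField ℚ Qb, FiniteDimensional ℚ F ∧
      ∀ s ∈ F.fixingSubgroup, M.ρ s m = m)
    (hMur : ∀ q : Nat.Primes, q ∉ S → ∀ A : ValuationSubring Qb,
      A.LiesOverPrime (q : ℕ) → ∀ g ∈ A.inertiaSubgroupIn ℚ, M.ρ g = 1) :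
    M.ρ.ker ∈ lvlS S := by
  choose F hF hfix using hsm
  letI := Fintype.ofFinite M
  haveI : ∀ m, FiniteDimensional ℚ (F m) := hF
  refine mem_lvlS_of_inertia_le ⟨inferInstance, ⨆ m, F m, inferInstance, fun s hs => ?_⟩
    (fun q hq A hA g hg => MonoidHom.mem_ker.mpr (hMur q hq A hA g hg))
  refine MonoidHom.mem_ker.mpr (LinearMap.ext fun m => ?_)
  exact hfix m s (IntermediateField.fixingSubgroup_antitone (le_iSup F m) hs)

theorem smooth_rho {S : Finset Nat.Primes} (hker : M.ρ.ker ∈ lvlS S) :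
    Smooth (lvlS S) M.ρ := fun v => ⟨_, hker, fun s hs => by
  rw [MonoidHom.mem_ker.mp hs]; rfl⟩

theorem smooth_dualTwist {S : Finset Nat.Primes} (hker : M.ρ.ker ∈ lvlS S)
    (hpS : pPrime p ∈ S) : Smooth (lvlS S) (M.dualTwist (cycloChar p)).ρ := fun w => ⟨_,
  (lvlS S).inf_mem _ hker _ (cycloChar_ker_mem_lvlS S hpS), fun s hs => by
    have h1 : M.ρ s⁻¹ = 1 := MonoidHom.mem_ker.mp (inv_mem hs.1)
    rw [Rep.dualTwist_ρ_apply, MonoidHom.mem_ker.mp hs.2, Units.val_one, h1]
    exact one_smul _ _⟩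

/-- Evaluation, as a pairing into the character. -/
def evalPairing : Pairing (cycloChar p) M.ρ (M.dualTwist (cycloChar p)).ρ where
  e := Module.Dual.eval (ZMod p) M
  equivariant g v w := by
    show (cycloChar p g : ZMod p) • w (M.ρ g⁻¹ (M.ρ g v)) = (cycloChar p g : ZMod p) * w v
    rw [Representation.inv_self_apply, smul_eq_mul]

theorem evalPairing_perfect [FiniteDimensional (ZMod p) M] : (evalPairing M).Perfect :=
  ⟨(Module.evalEquiv (ZMod p) M).bijective, Function.bijective_id⟩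

/-- The frozen duality statement from the cochain one. -/
theorem exists_sha_pairing (hp : p ≠ 2) (S : Finset Nat.Primes) (hpS : pPrime p ∈ S)
    [FiniteDimensional (ZMod p) M]
    (hsm : ∀ m : M, ∃ F : IntermediateField ℚ Qb, FiniteDimensional ℚ F ∧
      ∀ s ∈ F.fixingSubgroup, M.ρ s m = m)
    (hMur : ∀ q : Nat.Primes, q ∉ S → ∀ A : ValuationSubring Qb,
      A.LiesOverPrime (q : ℕ) → ∀ g ∈ A.inertiaSubgroupIn ℚ, M.ρ g = 1) :
    ∃ B : sha₁ S (M.dualTwist (cycloChar p)) →ₗ[ZMod p] sha₂ S M →ₗ[ZMod p] ZMod p,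
      (∀ y, (∀ x, B y x = 0) → y = 0) ∧ (∀ x, (∀ y, B y x = 0) → x = 0) := by
  haveI : Finite M := Module.finite_of_finite (ZMod p)
  haveI : Finite (Module.Dual (ZMod p) M) := Module.finite_of_finite (ZMod p)
  have hker := rho_ker_mem_lvlS M S hsm hMur
  obtain ⟨B, hB1, hB2⟩ := exists_sha_pairing_nondegenerate p hp S hpS (evalPairing M)
    (evalPairing_perfect M) (smooth_rho M hker) (smooth_dualTwist M hker hpS)
  let e1 := shaOneEquiv S (M.dualTwist (cycloChar p)) hp
  let e2 := shaTwoEquiv S M hp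
  refine ⟨(LinearMap.lcomp (ZMod p) (ZMod p) e2.symm.toLinearMap) ∘ₗ B ∘ₗ e1.symm.toLinearMap,
    fun y hy => ?_, fun x hx => ?_⟩
  · refine e1.symm.map_eq_zero_iff.mp (hB1 _ fun x => ?_)
    simpa using hy (e2 x)
  · refine e2.symm.map_eq_zero_iff.mp (hB2 _ fun y => ?_)
    simpa using hx (e1 y)

end FLTA.PT

end
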