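import Fermat.Agent.PoitouTate.BridgeLevels
import Fermat.Agent.PoitouTate.ShaDefs

/-!
# `Ш` in the cochain framework versus the frozen `sha₁`, `sha₂`
-/

set_option autoImplicit false

open CategoryTheory ExtCitation groupCohomology

noncomputable section

namespace FLTA.PT

variable {p : ℕ} [Fact p.Prime] (S : Finset Nat.Primes) (A : Rep.{0, 0, 0} (ZMod p) GQ)

theorem zOne_mem_cocycles₁ (f : Z1 (lvlS S) A.ρ) : (f : GQ → A) ∈ cocycles₁ A :=
  (mem_cocycles₁_iff _).mpr ((mem_Z1 (lvlS S) A.ρ).mp f.2).1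

theorem zOne_levelConstant (f : Z1 (lvlS S) A.ρ) : IsLevelConstantS₁ S (f : GQ → A) :=
  (isConst₁_lvlS_iff S _).mp ((mem_Z1 (lvlS S) A.ρ).mp f.2).2

/-- From continuous cocycles to cocycles. -/
def zOneToCocycles : Z1 (lvlS S) A.ρ →ₗ[ZMod p] cocycles₁ A where
  toFun f := ⟨(f : GQ → A), zOne_mem_cocycles₁ S A f⟩
  map_add' _ _ := rfl
  map_smul' _ _ := rfl

theorem mem_coboundaries₁_iff_B1 (f : GQ → A) : f ∈ coboundaries₁ A ↔ f ∈ B1 A.ρ := by
  rw [mem_B1]
  constructor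
  · rintro ⟨v, rfl⟩
    exact ⟨v, funext fun g => by simp [d₀₁_hom_apply]⟩
  · rintro ⟨v, rfl⟩
    exact ⟨v, funext fun g => by simp [d₀₁_hom_apply]⟩

/-- The comparison map on `H¹`. -/
def h1Compare : H1c (lvlS S) A.ρ →ₗ[ZMod p] H1 A :=
  Submodule.liftQ _ ((H1π A).hom ∘ₗ zOneToCocycles S A) fun f hf => by
    rw [LinearMap.mem_ker, LinearMap.comp_apply]
    exact (H1π_eq_zero_iff _).mpr ((mem_coboundaries₁_iff_B1 A _).mpr hf)

theorem h1Compare_mk (f : Z1 (lvlS S) A.ρ) :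
    h1Compare S A (H1cπ (lvlS S) A.ρ f) = H1π A (zOneToCocycles S A f) := rfl

theorem h1Compare_injective : Function.Injective (h1Compare S A) := by
  rw [injective_iff_map_eq_zero]
  intro c hc
  obtain ⟨f, rfl⟩ := Submodule.mkQ_surjective _ c
  exact (H1cπ_eq_zero _ _).mpr
    ((mem_coboundaries₁_iff_B1 A _).mp ((H1π_eq_zero_iff _).mp hc))

theorem locRes_H1π_eq_zero_iff {G : Type} [Group G] (f : G →* GQ) (x : cocycles₁ A) :
    (groupCohomology.map f (𝟙 (Rep.res f A)) 1).hom (H1π A x) = 0 ↔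
      ∃ v : A, ∀ g : G, A.ρ (f g) v - v = x (f g) := by
  rw [show (groupCohomology.map f (𝟙 (Rep.res f A)) 1).hom (H1π A x) =
    H1π (Rep.res f A) (mapCocycles₁ f (𝟙 (Rep.res f A)) x) from H1π_comp_map_apply f _ x,
    H1π_eq_zero_iff]
  constructor
  · rintro ⟨v, hv⟩
    exact ⟨v, fun g => congrFun hv g⟩
  · rintro ⟨v, hv⟩
    exact ⟨v, funext hv⟩

theorem locH1_mk_eq_zero_iff (q : Nat.Primes) (f : Z1 (lvlS S) A.ρ) :
    locH1 S A.ρ q (H1cπ (lvlS S) A.ρ f) = 0 ↔
      ∃ v : A, ∀ g : Gl q, A.ρ (loc q g) v - v = (f : GQ → A) (loc q g) := by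
  refine (H1cπ_eq_zero (lvlLoc q) (A.ρ.comp (loc q))).trans ?_
  rw [mem_B1]
  exact exists_congr fun v => funext_iff

omit [Fact p.Prime] in
theorem natCard_archimedean :
    ∀ [Fact p.Prime], p ≠ 2 → ((Nat.card archimedeanDecomposition : ℕ) : ZMod p) ≠ 0 := by
  intro _ hp h
  have h2 : orderOf complexConjugation ∣ 2 :=
    orderOf_dvd_of_pow_eq_one complexConjugation_sq
  rw [ZMod.natCast_eq_zero_iff, archimedeanDecomposition, Nat.card_zpowers] at h
  exact hp ((Nat.prime_dvd_prime_iff_eq Fact.out Nat.prime_two).mp (h.trans h2))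

theorem finite_archimedean : Finite archimedeanDecomposition :=
  Finite.of_equiv _ (finEquivZPowers (x := complexConjugation)
    (isOfFinOrder_iff_pow_eq_one.mpr ⟨2, two_pos, complexConjugation_sq⟩))

theorem arch_h1 (hp : p ≠ 2) (x : cocycles₁ A) :
    ∃ v : A, ∀ g : archimedeanDecomposition,
      A.ρ (archimedeanLoc g) v - v = x (archimedeanLoc g) := by
  haveI := finite_archimedean
  letI := Fintype.ofFinite archimedeanDecomposition
  have hn := natCard_archimedean (p := p) hp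
  rw [Nat.card_eq_fintype_card] at hn
  refine ⟨(-(Fintype.card archimedeanDecomposition : ZMod p)⁻¹) •
    ∑ h : archimedeanDecomposition, x (archimedeanLoc h), fun g => ?_⟩
  set T := ∑ h : archimedeanDecomposition, x (archimedeanLoc h) with hT
  have key : A.ρ (archimedeanLoc g) T +
      (Fintype.card archimedeanDecomposition : ZMod p) • x (archimedeanLoc g) = T := by
    rw [hT, map_sum, Nat.cast_smul_eq_nsmul, ← Finset.card_univ, ← Finset.sum_const,
      ← Finset.sum_add_distrib]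
    refine Fintype.sum_equiv (Equiv.mulLeft g) _ _ fun h => ?_
    rw [Equiv.coe_mulLeft, map_mul, (mem_cocycles₁_iff (x : GQ → A)).mp x.2]
  rw [map_smul, ← smul_sub]
  rw [show A.ρ (archimedeanLoc g) T - T =
    -((Fintype.card archimedeanDecomposition : ZMod p) • x (archimedeanLoc g)) from by
      nth_rewrite 2 [← key]; abel, neg_smul, smul_neg, neg_neg, smul_smul, inv_mul_cancel₀ hn,
    one_smul]

theorem map_shaOne (hp : p ≠ 2) :
    (shaOne p S A.ρ).map (h1Compare S A) = sha₁ S A := by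
  ext x
  constructor
  · rintro ⟨c, hc, rfl⟩
    obtain ⟨f, rfl⟩ := Submodule.mkQ_surjective _ c
    simp only [SetLike.mem_coe, shaOne, Submodule.mem_iInf, LinearMap.mem_ker] at hc
    refine ⟨(mem_continuousH1S_iff S A _).mpr ⟨_, zOne_levelConstant S A f, rfl⟩, ?_⟩
    rw [SetLike.mem_coe, LinearMap.mem_ker]
    funext v
    rw [locTotal_apply, Pi.zero_apply]
    rcases v with u | q
    · exact (locRes_H1π_eq_zero_iff A archimedeanLoc _).mpr (arch_h1 A hp _)
    · exact (locRes_H1π_eq_zero_iff A (loc q.1) _).mpr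
        ((locH1_mk_eq_zero_iff S A q.1 f).mp (hc q.1 q.2))
  · rintro ⟨hx1, hx2⟩
    obtain ⟨c, hc, rfl⟩ := (mem_continuousH1S_iff S A x).mp hx1
    have hf : (c : GQ → A) ∈ Z1 (lvlS S) A.ρ :=
      (mem_Z1 _ _).mpr ⟨(mem_cocycles₁_iff _).mp c.2, (isConst₁_lvlS_iff S _).mpr hc⟩
    refine ⟨H1cπ (lvlS S) A.ρ ⟨_, hf⟩, ?_, rfl⟩
    simp only [SetLike.mem_coe, shaOne, Submodule.mem_iInf, LinearMap.mem_ker]
    intro q hq
    rw [SetLike.mem_coe, LinearMap.mem_ker] at hx2
    exact (locH1_mk_eq_zero_iff S A q ⟨_, hf⟩).mpr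
      ((locRes_H1π_eq_zero_iff A (loc q) c).mp (congrFun hx2 (Sum.inr ⟨q, hq⟩)))

/-- `Ш¹` in both senses agree. -/
def shaOneEquiv (hp : p ≠ 2) : shaOne p S A.ρ ≃ₗ[ZMod p] sha₁ S A :=
  (Submodule.equivMapOfInjective _ (h1Compare_injective S A) _).trans
    (LinearEquiv.ofEq _ _ (map_shaOne S A hp))

theorem Z2_eq : Z2 (lvlS S) A.ρ = levelCocyclesS₂ S A := by
  ext f
  rw [mem_Z2, mem_levelCocyclesS₂_iff, mem_cocycles₂_iff, isConst₂_lvlS_iff]

theorem d12_eq_d1 (x : GQ → A) : (d₁₂ A).hom x = d1 A.ρ x := by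
  funext g
  rfl

theorem B2_eq : B2 (lvlS S) A.ρ = levelCoboundariesS₂ S A := by
  ext f
  rw [mem_B2, mem_levelCoboundariesS₂_iff]
  simp only [isConst₁_lvlS_iff]
  exact exists_congr fun x => and_congr_right fun _ => by rw [d12_eq_d1]

/-- The comparison map on `H²`. -/
def h2Compare : H2c (lvlS S) A.ρ ≃ₗ[ZMod p] continuousH2S S A :=
  Submodule.Quotient.equiv _ _ (LinearEquiv.ofEq _ _ (Z2_eq S A)) (by
    ext f
    simp only [Submodule.mem_map, Submodule.mem_comap, Submodule.subtype_apply]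
    constructor
    · rintro ⟨g, hg, rfl⟩
      rw [← B2_eq S A]
      exact hg
    · intro hf
      refine ⟨(LinearEquiv.ofEq _ _ (Z2_eq S A)).symm f, ?_, LinearEquiv.apply_symm_apply _ f⟩
      rw [B2_eq S A]
      exact hf)

theorem locRes₂S_mk_eq_zero_iff {G : Type} [Group G] (f : G →* GQ) (c : levelCocyclesS₂ S A) :
    locRes₂S S A f (continuousH2Sπ S A c) = 0 ↔
      ∃ x : G → A, IsLevelConstant₁ f x ∧ ∀ g h : G,
        A.ρ (f g) (x h) - x (g * h) + x g = (c : GQ × GQ → A) (f g, f h) := by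
  show continuousH2π f (Rep.res f A) _ = 0 ↔ _
  rw [continuousH2π_eq_zero_iff, mem_levelCoboundaries₂_iff]
  refine exists_congr fun x => and_congr_right fun _ => ?_
  rw [funext_iff, Prod.forall]
  rfl

theorem locH2_mk_eq_zero_iff (q : Nat.Primes) (c : Z2 (lvlS S) A.ρ) :
    locH2 S A.ρ q (H2cπ (lvlS S) A.ρ c) = 0 ↔
      ∃ x : Gl q → A, IsLevelConstant₁ (loc q) x ∧ ∀ g h : Gl q,
        A.ρ (loc q g) (x h) - x (g * h) + x g = (c : GQ × GQ → A) (loc q g, loc q h) := by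
  refine (H2cπ_eq_zero (lvlLoc q) (A.ρ.comp (loc q))).trans ?_
  rw [mem_B2]
  refine exists_congr fun x => and_congr (isConst₁_lvlLoc_iff q x) ?_
  rw [funext_iff, Prod.forall]
  rfl

theorem arch_h2 (hp : p ≠ 2) (c : levelCocyclesS₂ S A) :
    ∃ x : archimedeanDecomposition → A, IsLevelConstant₁ archimedeanLoc x ∧ ∀ g h,
      A.ρ (archimedeanLoc g) (x h) - x (g * h) + x g =
        (c : GQ × GQ → A) (archimedeanLoc g, archimedeanLoc h) := by
  haveI := finite_archimedean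
  letI := Fintype.ofFinite archimedeanDecomposition
  have hn := natCard_archimedean (p := p) hp
  rw [Nat.card_eq_fintype_card] at hn
  obtain ⟨hc, F, hF, hconst⟩ := c.2
  set n : ZMod p := (Fintype.card archimedeanDecomposition : ZMod p)
  refine ⟨fun g => n⁻¹ • ∑ j, (c : GQ × GQ → A) (archimedeanLoc g, archimedeanLoc j),
    ⟨F, hF.1, fun g s hs => ?_⟩, fun g h => ?_⟩
  · refine congrArg (n⁻¹ • ·) (Finset.sum_congr rfl fun j _ => ?_)
    simpa [map_mul] using hconst (archimedeanLoc g) (archimedeanLoc j) (archimedeanLoc s) 1 hs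
      (one_mem _)
  · replace hc := (mem_cocycles₂_iff (c : GQ × GQ → A)).mp hc
    rw [map_smul, ← smul_sub, ← smul_add, inv_smul_eq_iff₀ hn, map_sum]
    rw [show ∑ j, (c : GQ × GQ → A) (archimedeanLoc g, archimedeanLoc j) =
        ∑ j, (c : GQ × GQ → A) (archimedeanLoc g, archimedeanLoc (h * j)) from
      (Fintype.sum_equiv (Equiv.mulLeft h) _ _ fun j => rfl).symm]
    rw [Nat.cast_smul_eq_nsmul, ← Finset.card_univ, ← Finset.sum_const, ← Finset.sum_sub_distrib,
      ← Finset.sum_add_distrib]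
    refine Finset.sum_congr rfl fun j _ => ?_
    have := hc (archimedeanLoc g) (archimedeanLoc h) (archimedeanLoc j)
    rw [map_mul, map_mul]
    linear_combination (norm := abel) -this

theorem map_shaTwo (hp : p ≠ 2) :
    (shaTwo p S A.ρ).map (h2Compare S A).toLinearMap = sha₂ S A := by
  ext x
  constructor
  · rintro ⟨c, hc, rfl⟩
    obtain ⟨f, rfl⟩ := Submodule.mkQ_surjective _ c
    simp only [SetLike.mem_coe, shaTwo, Submodule.mem_iInf, LinearMap.mem_ker] at hc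
    rw [sha₂, LinearMap.mem_ker]
    funext v
    rw [locTotal₂S_apply, Pi.zero_apply]
    rcases v with u | q
    · exact (locRes₂S_mk_eq_zero_iff S A archimedeanLoc _).mpr (arch_h2 S A hp _)
    · exact (locRes₂S_mk_eq_zero_iff S A (loc q.1) _).mpr
        ((locH2_mk_eq_zero_iff S A q.1 f).mp (hc q.1 q.2))
  · intro hx
    obtain ⟨f, rfl⟩ := Submodule.mkQ_surjective _ x
    refine ⟨H2cπ (lvlS S) A.ρ ((LinearEquiv.ofEq _ _ (Z2_eq S A)).symm f), ?_, ?_⟩
    · simp only [SetLike.mem_coe, shaTwo, Submodule.mem_iInf, LinearMap.mem_ker]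
      intro q hq
      rw [sha₂, LinearMap.mem_ker] at hx
      exact (locH2_mk_eq_zero_iff S A q _).mpr
        ((locRes₂S_mk_eq_zero_iff S A (loc q) f).mp (congrFun hx (Sum.inr ⟨q, hq⟩)))
    · rfl

/-- `Ш²` in both senses agree. -/
def shaTwoEquiv (hp : p ≠ 2) : shaTwo p S A.ρ ≃ₗ[ZMod p] sha₂ S A :=
  (Submodule.equivMapOfInjective _ (h2Compare S A).injective _).trans
    (LinearEquiv.ofEq _ _ (map_shaTwo S A hp))

end FLTA.PT

end
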