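import Mathlib

/-!
# Level-constant cochains in degree ≤ 2

A light framework: `Lvl Γ` is a family of normal finite-index subgroups playing the role of the
open normal subgroups. Cochains are plain functions.
-/

set_option autoImplicit false

noncomputable section

namespace FLTA.PT

/-- A family of normal finite index subgroups, closed under intersection. -/
structure Lvl (Γ : Type*) [Group Γ] where
  sets : Set (Subgroup Γ)
  normal_of_mem : ∀ U ∈ sets, U.Normal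
  finiteIndex_of_mem : ∀ U ∈ sets, U.FiniteIndex
  top_mem : ⊤ ∈ sets
  inf_mem : ∀ U ∈ sets, ∀ V ∈ sets, U ⊓ V ∈ sets

section

variable {Γ Γ' : Type*} [Group Γ] [Group Γ']

instance : Membership (Subgroup Γ) (Lvl Γ) := ⟨fun L U => U ∈ L.sets⟩

theorem Lvl.mem_def {L : Lvl Γ} {U : Subgroup Γ} : U ∈ L ↔ U ∈ L.sets := Iff.rfl

/-- Pullback of a level family along a homomorphism. -/
def Lvl.comap (L : Lvl Γ) (f : Γ' →* Γ) : Lvl Γ' where
  sets := {U | ∃ V ∈ L, V.comap f = U}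
  normal_of_mem := by
    rintro U ⟨V, hV, rfl⟩
    have := L.normal_of_mem V hV
    infer_instance
  finiteIndex_of_mem := by
    rintro U ⟨V, hV, rfl⟩
    have := L.finiteIndex_of_mem V hV
    have := L.normal_of_mem V hV
    exact ⟨by
      rw [Subgroup.index_comap]
      exact ne_zero_of_dvd_ne_zero Subgroup.FiniteIndex.index_ne_zero
        (Subgroup.relIndex_dvd_index_of_normal V f.range)⟩
  top_mem := ⟨⊤, L.top_mem, Subgroup.comap_top f⟩
  inf_mem := by
    rintro U ⟨V, hV, rfl⟩ U' ⟨V', hV', rfl⟩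
    exact ⟨V ⊓ V', L.inf_mem V hV V' hV', Subgroup.comap_inf V V' f⟩

/-- A function of one variable which is constant on the right cosets of some level. -/
def IsConst₁ (L : Lvl Γ) {X : Type*} (f : Γ → X) : Prop :=
  ∃ U ∈ L, ∀ g s : Γ, s ∈ U → f (g * s) = f g

/-- A function of two variables which is constant on cosets of some level. -/
def IsConst₂ (L : Lvl Γ) {X : Type*} (f : Γ × Γ → X) : Prop :=
  ∃ U ∈ L, ∀ g g' s s' : Γ, s ∈ U → s' ∈ U → f (g * s, g' * s') = f (g, g')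

end

section cochains

variable {k : Type*} [CommRing k] {Γ : Type*} [Group Γ] (L : Lvl Γ)
variable {V : Type*} [AddCommGroup V] [Module k V] (ρ : Representation k Γ V)

/-- The action is continuous for the levels `L`. -/
def Smooth : Prop := ∀ v : V, ∃ U ∈ L, ∀ s ∈ U, ρ s v = v

variable (V) in
/-- Level-constant 1-cochains. -/
def C1 : Submodule k (Γ → V) where
  carrier := {f | IsConst₁ L f}
  add_mem' := by
    rintro f g ⟨U, hU, hf⟩ ⟨U', hU', hg⟩
    refine ⟨U ⊓ U', L.inf_mem U hU U' hU', fun a s hs => ?_⟩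
    simp [hf a s hs.1, hg a s hs.2]
  zero_mem' := ⟨⊤, L.top_mem, fun _ _ _ => rfl⟩
  smul_mem' := by
    rintro c f ⟨U, hU, hf⟩
    exact ⟨U, hU, fun a s hs => by simp [hf a s hs]⟩

variable (V) in
/-- Level-constant 2-cochains. -/
def C2 : Submodule k (Γ × Γ → V) where
  carrier := {f | IsConst₂ L f}
  add_mem' := by
    rintro f g ⟨U, hU, hf⟩ ⟨U', hU', hg⟩
    refine ⟨U ⊓ U', L.inf_mem U hU U' hU', fun a b s t hs ht => ?_⟩
    simp [hf a b s t hs.1 ht.1, hg a b s t hs.2 ht.2]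
  zero_mem' := ⟨⊤, L.top_mem, fun _ _ _ _ _ _ => rfl⟩
  smul_mem' := by
    rintro c f ⟨U, hU, hf⟩
    exact ⟨U, hU, fun a b s t hs ht => by simp [hf a b s t hs ht]⟩

theorem mem_C1 {f : Γ → V} : f ∈ C1 (k := k) L V ↔ IsConst₁ L f := Iff.rfl

theorem mem_C2 {f : Γ × Γ → V} : f ∈ C2 (k := k) L V ↔ IsConst₂ L f := Iff.rfl

/-- Differential in degree 0. -/
def d0 : V →ₗ[k] (Γ → V) where
  toFun v g := ρ g v - v
  map_add' x y := by funext g; simp; abel
  map_smul' c x := by funext g; simp [smul_sub]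

@[simp] theorem d0_apply (v : V) (g : Γ) : d0 ρ v g = ρ g v - v := rfl

/-- Differential in degree 1. -/
def d1 : (Γ → V) →ₗ[k] (Γ × Γ → V) where
  toFun f g := ρ g.1 (f g.2) - f (g.1 * g.2) + f g.1
  map_add' x y := by funext g; simp; abel
  map_smul' c x := by funext g; simp [smul_sub, smul_add]

@[simp] theorem d1_apply (f : Γ → V) (g h : Γ) :
    d1 ρ f (g, h) = ρ g (f h) - f (g * h) + f g := rfl

/-- Differential in degree 2. -/
def d2 : (Γ × Γ → V) →ₗ[k] (Γ × Γ × Γ → V) where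
  toFun f g := ρ g.1 (f (g.2.1, g.2.2)) - f (g.1 * g.2.1, g.2.2) + f (g.1, g.2.1 * g.2.2)
    - f (g.1, g.2.1)
  map_add' x y := by funext g; simp; abel
  map_smul' c x := by funext g; simp [smul_sub, smul_add]

@[simp] theorem d2_apply (f : Γ × Γ → V) (g h j : Γ) :
    d2 ρ f (g, h, j) = ρ g (f (h, j)) - f (g * h, j) + f (g, h * j) - f (g, h) := rfl

theorem d1_d0 (v : V) : d1 ρ (d0 ρ v) = 0 := by
  funext ⟨g, h⟩
  simp [map_mul]

theorem d2_d1 (f : Γ → V) : d2 ρ (d1 ρ f) = 0 := by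
  funext ⟨g, h, j⟩
  simp [map_mul, mul_assoc]
  abel

/-- Continuous 1-cocycles. -/
def Z1 : Submodule k (Γ → V) := LinearMap.ker (d1 ρ) ⊓ C1 L V

/-- 1-coboundaries. -/
def B1 : Submodule k (Γ → V) := LinearMap.range (d0 ρ)

/-- Continuous 2-cocycles. -/
def Z2 : Submodule k (Γ × Γ → V) := LinearMap.ker (d2 ρ) ⊓ C2 L V

/-- Coboundaries of continuous 1-cochains. -/
def B2 : Submodule k (Γ × Γ → V) := (C1 L V).map (d1 ρ)

theorem mem_B1 {f : Γ → V} : f ∈ B1 ρ ↔ ∃ v, d0 ρ v = f := Iff.rfl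

theorem mem_B2 {f : Γ × Γ → V} : f ∈ B2 L ρ ↔ ∃ x, IsConst₁ L x ∧ d1 ρ x = f := by
  simp [B2, mem_C1]

theorem mem_Z1 {f : Γ → V} :
    f ∈ Z1 L ρ ↔ (∀ g h, f (g * h) = ρ g (f h) + f g) ∧ IsConst₁ L f := by
  refine and_congr ⟨fun h g g' => ?_, fun h => ?_⟩ Iff.rfl
  · have := congrFun (LinearMap.mem_ker.1 h) (g, g')
    simp only [d1_apply, Pi.zero_apply] at this
    rwa [sub_add_eq_add_sub, sub_eq_zero, eq_comm] at this
  · refine LinearMap.mem_ker.2 (funext fun ⟨g, g'⟩ => ?_)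
    simp [h g g']

theorem mem_Z2 {f : Γ × Γ → V} :
    f ∈ Z2 L ρ ↔ (∀ g h j, f (g * h, j) + f (g, h) = ρ g (f (h, j)) + f (g, h * j)) ∧
      IsConst₂ L f := by
  refine and_congr ⟨fun h g g' j => ?_, fun h => ?_⟩ Iff.rfl
  · have := congrFun (LinearMap.mem_ker.1 h) (g, g', j)
    simp only [d2_apply, Pi.zero_apply] at this
    have e : f (g * g', j) + f (g, g') - (ρ g (f (g', j)) + f (g, g' * j)) =
        -(ρ g (f (g', j)) - f (g * g', j) + f (g, g' * j) - f (g, g')) := by abel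
    rw [← sub_eq_zero, e, this, neg_zero]
  · refine LinearMap.mem_ker.2 (funext fun ⟨g, g', j⟩ => ?_)
    simp only [d2_apply, Pi.zero_apply]
    rw [← sub_eq_zero.2 (h g g' j).symm]
    abel

/-- Continuous `H¹`. -/
abbrev H1c := Z1 L ρ ⧸ (B1 ρ).comap (Z1 L ρ).subtype

/-- Continuous `H²`. -/
abbrev H2c := Z2 L ρ ⧸ (B2 L ρ).comap (Z2 L ρ).subtype

abbrev H1cπ : Z1 L ρ →ₗ[k] H1c L ρ := Submodule.mkQ _

abbrev H2cπ : Z2 L ρ →ₗ[k] H2c L ρ := Submodule.mkQ _

theorem H1cπ_eq_zero {f : Z1 L ρ} : H1cπ L ρ f = 0 ↔ (f : Γ → V) ∈ B1 ρ :=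
  Submodule.Quotient.mk_eq_zero _

theorem H2cπ_eq_zero {f : Z2 L ρ} : H2cπ L ρ f = 0 ↔ (f : Γ × Γ → V) ∈ B2 L ρ :=
  Submodule.Quotient.mk_eq_zero _

end cochains

end FLTA.PT

end
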