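import Fermat.Agent.PoitouTate.Theta

/-!
# Nondegeneracy predicates for `θ` and their functoriality
-/

set_option autoImplicit false

open ExtCitation

noncomputable section

namespace FLTA.PT

variable {p : ℕ} [Fact p.Prime] {S : Finset Nat.Primes}
variable {V W V' W' : Type} [AddCommGroup V] [Module (ZMod p) V] [AddCommGroup W] [Module (ZMod p) W]
  [AddCommGroup V'] [Module (ZMod p) V'] [AddCommGroup W'] [Module (ZMod p) W']
variable {ρ : Representation (ZMod p) GQ V} {σ : Representation (ZMod p) GQ W}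
  {ρ' : Representation (ZMod p) GQ V'} {σ' : Representation (ZMod p) GQ W'}

/-- `H²_c(G_S, M) → H¹(G_S, M')^*` is injective. -/
def Detects (P : Pairing (cycloChar p) ρ σ) (I : InvSystem p S) : Prop :=
  ∀ c : CPair S V, IsCSCocycle ρ c →
    (∀ y ∈ Z1 (lvlS S) σ, thetaR P I c y = 0) → IsCSCobound ρ c

/-- The image of a pair under a map of coefficients. -/
def CPair.map (φ : V →ₗ[ZMod p] V') (c : CPair S V) : CPair S V' :=
  (φ ∘ c.1, fun q => φ ∘ c.2 q)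

theorem IsCSCocycle.map {φ : V →ₗ[ZMod p] V'} (hφ : Equivariant ρ ρ' (MonoidHom.id GQ) φ)
    {c : CPair S V} (hc : IsCSCocycle ρ c) : IsCSCocycle ρ' (CPair.map φ c) where
  mem_Z2 := pp2_mem_Z2 (lvlLE_id _) hφ hc.mem_Z2
  const q := by
    obtain ⟨U, hU, h⟩ := hc.const q
    exact ⟨U, hU, fun g s hs => by simp [CPair.map, h g s hs]⟩
  d1_eq q := by
    funext ⟨g, h⟩
    have := congrArg φ (congrFun (hc.d1_eq q) (g, h))
    have e : φ (ρ (loc q.1 g) (c.2 q h)) = ρ' (loc q.1 g) (φ (c.2 q h)) := hφ _ _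
    simp only [d1_apply, MonoidHom.comp_apply, map_add, map_sub, e, pp2_apply,
      LinearMap.id_apply] at this
    simpa [CPair.map] using this

theorem IsCSCobound.map {φ : V →ₗ[ZMod p] V'} (hφ : Equivariant ρ ρ' (MonoidHom.id GQ) φ)
    {c : CPair S V} (hc : IsCSCobound ρ c) : IsCSCobound ρ' (CPair.map φ c) := by
  obtain ⟨a, ⟨U, hU, ha⟩, h1, h2⟩ := hc
  refine ⟨φ ∘ a, ⟨U, hU, fun g s hs => by simp [ha g s hs]⟩, ?_, fun q => ?_⟩
  · funext ⟨g, h⟩
    have e : φ (ρ g (a h)) = ρ' g (φ (a h)) := hφ _ _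
    simp [CPair.map, h1, e]
  · obtain ⟨β, hβ⟩ := h2 q
    refine ⟨φ β, funext fun g => ?_⟩
    have e : φ (ρ (loc q.1 g) β) = ρ' (loc q.1 g) (φ β) := hφ _ _
    simp [CPair.map, hβ, e]

theorem IsCSCocycle.add {c c' : CPair S V} (hc : IsCSCocycle ρ c) (hc' : IsCSCocycle ρ c') :
    IsCSCocycle ρ (c + c') where
  mem_Z2 := add_mem hc.mem_Z2 hc'.mem_Z2
  const q := (C1 (k := ZMod p) (lvlLoc q.1) V).add_mem (hc.const q) (hc'.const q)
  d1_eq q := by
    show d1 _ (c.2 q + c'.2 q) = _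
    rw [map_add, hc.d1_eq, hc'.d1_eq, ← map_add]
    rfl

theorem IsCSCocycle.neg {c : CPair S V} (hc : IsCSCocycle ρ c) : IsCSCocycle ρ (-c) where
  mem_Z2 := neg_mem hc.mem_Z2
  const q := isConst₁_neg (hc.const q)
  d1_eq q := by
    show d1 _ (-c.2 q) = _
    rw [map_neg, hc.d1_eq, ← map_neg]
    rfl

theorem IsCSCocycle.sub {c c' : CPair S V} (hc : IsCSCocycle ρ c) (hc' : IsCSCocycle ρ c') :
    IsCSCocycle ρ (c - c') := by
  rw [sub_eq_add_neg]; exact hc.add hc'.neg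

theorem IsCSCobound.add {c c' : CPair S V} (hc : IsCSCobound ρ c) (hc' : IsCSCobound ρ c') :
    IsCSCobound ρ (c + c') := by
  obtain ⟨a, ha, h1, h2⟩ := hc
  obtain ⟨a', ha', h1', h2'⟩ := hc'
  refine ⟨a + a', (C1 (k := ZMod p) (lvlS S) V).add_mem ha ha', ?_, fun q => ?_⟩
  · show c.1 + c'.1 = _
    rw [map_add, h1, h1']
  · obtain ⟨β, hβ⟩ := h2 q
    obtain ⟨β', hβ'⟩ := h2' q
    refine ⟨β + β', ?_⟩
    show c.2 q + c'.2 q = _
    rw [hβ, hβ', map_add, map_add]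
    abel

theorem isCSCobound_of {a : GQ → V} (ha : IsConst₁ (lvlS S) a) (β : S → V) :
    IsCSCobound ρ ((d1 ρ a, fun q => rs1 p q.1 a + d0 (ρ.comp (loc q.1)) (β q)) : CPair S V) :=
  ⟨a, ha, rfl, fun q => ⟨β q, rfl⟩⟩

theorem IsCSCobound.isCSCocycle (hρ : Smooth (lvlS S) ρ) {a : GQ → V}
    (ha : IsConst₁ (lvlS S) a) (β : S → V) :
    IsCSCocycle ρ ((d1 ρ a, fun q => rs1 p q.1 a + d0 (ρ.comp (loc q.1)) (β q)) : CPair S V) where
  mem_Z2 := by
    refine ⟨LinearMap.mem_ker.2 (d2_d1 ρ a), ?_⟩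
    obtain ⟨U, hU, hUa⟩ := ha
    obtain ⟨U', hU', hfix⟩ := exists_level_forall_eq hρ hU hUa
    refine ⟨U ⊓ U', (lvlS S).inf_mem U hU U' hU', fun g g' s s' hs hs' => ?_⟩
    obtain ⟨t, ht, he⟩ := mul_mem_conj (g := g) (h := g') ((lvlS S).normal_of_mem U hU) hs.1
    simp only [d1_apply]
    rw [hUa g s hs.1, hUa g' s' hs'.1, ← mul_assoc, he, mul_assoc (g * g'),
      hUa _ _ (U.mul_mem ht hs'.1), rep_mul_apply (σ := ρ), hfix g' s hs.2]
  const q := by
    obtain ⟨U, hU, h⟩ := smooth_loc hρ q.1 (β q)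
    refine (C1 (k := ZMod p) (lvlLoc q.1) V).add_mem (pp1_const (lvlS_le_lvlLoc S q.1) ha)
      ⟨U, hU, fun g s hs => ?_⟩
    simp only [d0_apply, rep_mul_apply (σ := ρ.comp (loc q.1)), h s hs]
  d1_eq q := by
    rw [map_add, d1_d0, add_zero, ← pp2_d1 (equivariant_loc ρ q.1)]

/-- `θ` is natural for adjoint maps of coefficients. -/
theorem thetaR_map (P : Pairing (cycloChar p) ρ σ) (P' : Pairing (cycloChar p) ρ' σ')
    (I : InvSystem p S) (φ : V →ₗ[ZMod p] V') (ψ : W' →ₗ[ZMod p] W)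
    (hψ : Equivariant σ' σ (MonoidHom.id GQ) ψ)
    (hadj : ∀ v w, P'.e (φ v) w = P.e v (ψ w)) (c : CPair S V) (y : GQ → W') :
    thetaR P' I (CPair.map φ c) y = thetaR P I c (ψ ∘ y) := by
  rw [thetaR_apply, thetaR_apply]
  congr 1
  refine Prod.ext (funext fun g => ?_) (funext fun q => funext fun g => ?_)
  · have e : ∀ a w, ψ (σ' a w) = σ a (ψ w) := hψ
    simp [cup21, CPair.map, hadj, e]
  · have e : ψ (σ' (loc q.1 g.1) (y (loc q.1 g.2))) = σ (loc q.1 g.1) (ψ (y (loc q.1 g.2))) :=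
      hψ _ _
    simp [cup11, CPair.map, Pairing.comp, hadj, e]

/-- Detection passes to direct summands. -/
theorem Detects.of_retract {P : Pairing (cycloChar p) ρ σ} {P' : Pairing (cycloChar p) ρ' σ'}
    {I : InvSystem p S} (h' : Detects P' I)
    (φ : V →ₗ[ZMod p] V') (ψ : W' →ₗ[ZMod p] W) (r : V' →ₗ[ZMod p] V)
    (hφ : Equivariant ρ ρ' (MonoidHom.id GQ) φ) (hψ : Equivariant σ' σ (MonoidHom.id GQ) ψ)
    (hr : Equivariant ρ' ρ (MonoidHom.id GQ) r)
    (hadj : ∀ v w, P'.e (φ v) w = P.e v (ψ w)) (hrφ : ∀ v, r (φ v) = v) :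
    Detects P I := by
  intro c hc hθ
  have h := (h' (CPair.map φ c) (hc.map hφ) fun y hy => by
    rw [thetaR_map P P' I φ ψ hψ hadj]
    exact hθ _ (pp1_mem_Z1 (lvlLE_id _) hψ hy)).map hr
  have e : CPair.map r (CPair.map φ c) = c := by
    refine Prod.ext (funext fun g => ?_) (funext fun q => funext fun g => ?_) <;>
      simp [CPair.map, hrφ]
  rwa [e] at h

/-- Detection is invariant under isomorphisms of pairings. -/
theorem Detects.of_equiv {P : Pairing (cycloChar p) ρ σ} {P' : Pairing (cycloChar p) ρ' σ'}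
    {I : InvSystem p S} (h' : Detects P' I)
    (φ : V ≃ₗ[ZMod p] V') (ψ : W' →ₗ[ZMod p] W)
    (hφ : Equivariant ρ ρ' (MonoidHom.id GQ) φ.toLinearMap)
    (hψ : Equivariant σ' σ (MonoidHom.id GQ) ψ)
    (hadj : ∀ v w, P'.e (φ v) w = P.e v (ψ w)) : Detects P I := by
  refine h'.of_retract φ.toLinearMap ψ φ.symm.toLinearMap hφ hψ (fun g v => ?_) hadj
    φ.symm_apply_apply
  apply φ.injective
  have e : φ (ρ g (φ.symm v)) = ρ' g (φ (φ.symm v)) := hφ g _
  simp [e]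

end FLTA.PT

end
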