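import Fermat.Agent.PoitouTate.Cochains

/-!
# Functoriality, permutation-induced modules, cup products
-/

set_option autoImplicit false

noncomputable section

namespace FLTA.PT

section maps

variable {k : Type*} [CommRing k] {Γ Γ' : Type*} [Group Γ] [Group Γ'] (L : Lvl Γ) (L' : Lvl Γ')
variable {V W : Type*} [AddCommGroup V] [Module k V] [AddCommGroup W] [Module k W]
variable (ρ : Representation k Γ V) (σ : Representation k Γ' W) (f : Γ' →* Γ)
variable (φ : V →ₗ[k] W)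

/-- `f` respects levels. -/
def LvlLE : Prop := ∀ U ∈ L, U.comap f ∈ L'

/-- `φ` is equivariant along `f`. -/
def Equivariant : Prop := ∀ g v, φ (ρ (f g) v) = σ g (φ v)

theorem lvlLE_comap : LvlLE L (L.comap f) f := fun U hU => ⟨U, hU, rfl⟩

theorem lvlLE_id : LvlLE L L (MonoidHom.id Γ) := fun U hU => by rwa [Subgroup.comap_id]

/-- Pull back along `f`, push along `φ`, degree 1. -/
def pp1 : (Γ → V) →ₗ[k] (Γ' → W) where
  toFun x := φ ∘ x ∘ f
  map_add' x y := by funext; simp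
  map_smul' c x := by funext; simp

/-- Pull back along `f`, push along `φ`, degree 2. -/
def pp2 : (Γ × Γ → V) →ₗ[k] (Γ' × Γ' → W) where
  toFun x := φ ∘ x ∘ Prod.map f f
  map_add' x y := by funext; simp
  map_smul' c x := by funext; simp

@[simp] theorem pp1_apply (x : Γ → V) (g : Γ') : pp1 f φ x g = φ (x (f g)) := rfl

@[simp] theorem pp2_apply (x : Γ × Γ → V) (g h : Γ') :
    pp2 f φ x (g, h) = φ (x (f g, f h)) := rfl

variable {L L' ρ σ f φ}

theorem pp1_const (hL : LvlLE L L' f) {x : Γ → V} (hx : IsConst₁ L x) :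
    IsConst₁ L' (pp1 f φ x) := by
  obtain ⟨U, hU, h⟩ := hx
  refine ⟨U.comap f, hL U hU, fun g s hs => ?_⟩
  simp [h (f g) (f s) hs]

theorem pp2_const (hL : LvlLE L L' f) {x : Γ × Γ → V} (hx : IsConst₂ L x) :
    IsConst₂ L' (pp2 f φ x) := by
  obtain ⟨U, hU, h⟩ := hx
  refine ⟨U.comap f, hL U hU, fun g g' s s' hs hs' => ?_⟩
  simp [h (f g) (f g') (f s) (f s') hs hs']

theorem pp1_d0 (hφ : Equivariant ρ σ f φ) (v : V) : pp1 f φ (d0 ρ v) = d0 σ (φ v) := by
  funext g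
  simp [hφ g v]

theorem pp2_d1 (hφ : Equivariant ρ σ f φ) (x : Γ → V) :
    pp2 f φ (d1 ρ x) = d1 σ (pp1 f φ x) := by
  funext ⟨g, h⟩
  simp [hφ g]

theorem pp1_mem_Z1 (hL : LvlLE L L' f) (hφ : Equivariant ρ σ f φ) {x : Γ → V}
    (hx : x ∈ Z1 L ρ) : pp1 f φ x ∈ Z1 L' σ := by
  rw [mem_Z1] at hx ⊢
  exact ⟨fun g h => by simp [hx.1, hφ g], pp1_const hL hx.2⟩

theorem pp2_mem_Z2 (hL : LvlLE L L' f) (hφ : Equivariant ρ σ f φ) {x : Γ × Γ → V}
    (hx : x ∈ Z2 L ρ) : pp2 f φ x ∈ Z2 L' σ := by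
  rw [mem_Z2] at hx ⊢
  refine ⟨fun g h j => ?_, pp2_const hL hx.2⟩
  simp only [pp2_apply, map_mul, ← hφ g, ← map_add, hx.1]

theorem pp1_mem_B1 (hφ : Equivariant ρ σ f φ) {x : Γ → V} (hx : x ∈ B1 ρ) :
    pp1 f φ x ∈ B1 σ := by
  obtain ⟨v, rfl⟩ := hx
  exact ⟨φ v, (pp1_d0 hφ v).symm⟩

theorem pp2_mem_B2 (hL : LvlLE L L' f) (hφ : Equivariant ρ σ f φ) {x : Γ × Γ → V}
    (hx : x ∈ B2 L ρ) : pp2 f φ x ∈ B2 L' σ := by
  obtain ⟨y, hy, rfl⟩ := (mem_B2 L ρ).1 hx
  exact (mem_B2 L' σ).2 ⟨pp1 f φ y, pp1_const hL hy, (pp2_d1 hφ y).symm⟩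

/-- The map on continuous `H¹`. -/
def map1 (hL : LvlLE L L' f) (hφ : Equivariant ρ σ f φ) : H1c L ρ →ₗ[k] H1c L' σ :=
  Submodule.mapQ _ _ ((pp1 f φ).restrict fun _ hx => pp1_mem_Z1 hL hφ hx)
    fun _ hx => pp1_mem_B1 hφ hx

/-- The map on continuous `H²`. -/
def map2 (hL : LvlLE L L' f) (hφ : Equivariant ρ σ f φ) : H2c L ρ →ₗ[k] H2c L' σ :=
  Submodule.mapQ _ _ ((pp2 f φ).restrict fun _ hx => pp2_mem_Z2 hL hφ hx)
    fun _ hx => pp2_mem_B2 hL hφ hx

@[simp] theorem map1_mk (hL : LvlLE L L' f) (hφ : Equivariant ρ σ f φ) (x : Z1 L ρ) :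
    map1 hL hφ (H1cπ L ρ x) = H1cπ L' σ ⟨pp1 f φ x, pp1_mem_Z1 hL hφ x.2⟩ := rfl

@[simp] theorem map2_mk (hL : LvlLE L L' f) (hφ : Equivariant ρ σ f φ) (x : Z2 L ρ) :
    map2 hL hφ (H2cπ L ρ x) = H2cπ L' σ ⟨pp2 f φ x, pp2_mem_Z2 hL hφ x.2⟩ := rfl

variable (L) (ρ) (f)

/-- Restriction in degree 1. -/
def res1 : H1c L ρ →ₗ[k] H1c (L.comap f) (ρ.comp f) :=
  map1 (σ := ρ.comp f) (φ := LinearMap.id) (lvlLE_comap L f) (fun _ _ => rfl)

/-- Restriction in degree 2. -/
def res2 : H2c L ρ →ₗ[k] H2c (L.comap f) (ρ.comp f) :=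
  map2 (σ := ρ.comp f) (φ := LinearMap.id) (lvlLE_comap L f) (fun _ _ => rfl)

/-- Change of coefficients in degree 1. -/
def coeff1 {ρ' : Representation k Γ W} (hφ : Equivariant ρ ρ' (MonoidHom.id Γ) φ) :
    H1c L ρ →ₗ[k] H1c L ρ' :=
  map1 (lvlLE_id L) hφ

/-- Change of coefficients in degree 2. -/
def coeff2 {ρ' : Representation k Γ W} (hφ : Equivariant ρ ρ' (MonoidHom.id Γ) φ) :
    H2c L ρ →ₗ[k] H2c L ρ' :=
  map2 (lvlLE_id L) hφ

end maps

section funRep

variable {k : Type*} [CommRing k] {Γ : Type*} [Group Γ] {V : Type*} [AddCommGroup V] [Module k V]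
variable (ρ : Representation k Γ V) (X : Type*) [MulAction Γ X]

/-- Functions `X → V` with `(σ F) x = σ (F (σ⁻¹ x))`. -/
def funRep : Representation k Γ (X → V) where
  toFun g :=
    { toFun := fun F x => ρ g (F (g⁻¹ • x))
      map_add' := fun F F' => by funext x; simp
      map_smul' := fun c F => by funext x; simp }
  map_one' := by ext F x; simp
  map_mul' g h := by ext F x; simp [map_mul, mul_smul]

@[simp] theorem funRep_apply (g : Γ) (F : X → V) (x : X) :
    funRep ρ X g F x = ρ g (F (g⁻¹ • x)) := rfl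

/-- Constant functions. -/
def constMap : V →ₗ[k] (X → V) where
  toFun v _ := v
  map_add' _ _ := rfl
  map_smul' _ _ := rfl

theorem equivariant_constMap :
    Equivariant ρ (funRep ρ X) (MonoidHom.id Γ) (constMap (k := k) (V := V) X) :=
  fun _ _ => rfl

variable {X}

theorem equivariant_proj (x : X) :
    Equivariant (funRep ρ X) (ρ.comp (MulAction.stabilizer Γ x).subtype)
      (MulAction.stabilizer Γ x).subtype (LinearMap.proj x) := by
  rintro ⟨g, hg⟩ F
  show ρ g (F (g⁻¹ • x)) = ρ g (F x)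
  rw [inv_smul_eq_iff.2 hg.symm]

variable (X) [Fintype X]

/-- The sum map. -/
def sumMap : (X → V) →ₗ[k] V := ∑ x, LinearMap.proj x

@[simp] theorem sumMap_apply (F : X → V) : sumMap (k := k) X F = ∑ x, F x := by
  simp [sumMap]

theorem equivariant_sumMap :
    Equivariant (funRep ρ X) ρ (MonoidHom.id Γ) (sumMap (k := k) (V := V) X) := by
  intro g F
  simp only [MonoidHom.id_apply, sumMap_apply, funRep_apply, map_sum]
  exact (MulAction.bijective g⁻¹).sum_comp fun x => ρ g (F x)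

variable {X} (L : Lvl Γ)

/-- Shapiro evaluation in degree 1. -/
def eval1 (x : X) : H1c L (funRep ρ X) →ₗ[k]
    H1c (L.comap (MulAction.stabilizer Γ x).subtype) (ρ.comp (MulAction.stabilizer Γ x).subtype) :=
  map1 (lvlLE_comap L _) (equivariant_proj ρ x)

/-- Shapiro evaluation in degree 2. -/
def eval2 (x : X) : H2c L (funRep ρ X) →ₗ[k]
    H2c (L.comap (MulAction.stabilizer Γ x).subtype) (ρ.comp (MulAction.stabilizer Γ x).subtype) :=
  map2 (lvlLE_comap L _) (equivariant_proj ρ x)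

end funRep

section cup

variable {k : Type*} [CommRing k] {Γ : Type*} [Group Γ]
variable {V W : Type*} [AddCommGroup V] [Module k V] [AddCommGroup W] [Module k W]

/-- Scalar action by a character. -/
def charRep (χ : Γ →* kˣ) : Representation k Γ k where
  toFun g := (χ g : k) • LinearMap.id
  map_one' := by ext; simp
  map_mul' g h := by ext; simp [mul_comm]

@[simp] theorem charRep_apply (χ : Γ →* kˣ) (g : Γ) (a : k) : charRep χ g a = (χ g : k) * a := rfl

/-- A bilinear form with values in the character `χ`. -/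
structure Pairing (χ : Γ →* kˣ) (ρ : Representation k Γ V) (σ : Representation k Γ W) where
  e : V →ₗ[k] W →ₗ[k] k
  equivariant : ∀ g v w, e (ρ g v) (σ g w) = (χ g : k) * e v w

variable {χ : Γ →* kˣ} {ρ : Representation k Γ V} {σ : Representation k Γ W}

/-- A pairing is perfect. -/
def Pairing.Perfect (P : Pairing χ ρ σ) : Prop :=
  Function.Bijective P.e ∧ Function.Bijective P.e.flip

/-- The flipped pairing. -/
def Pairing.flip (P : Pairing χ ρ σ) : Pairing χ σ ρ :=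
  ⟨P.e.flip, fun g v w => P.equivariant g w v⟩

/-- Restriction of a pairing. -/
def Pairing.comp {Γ' : Type*} [Group Γ'] (P : Pairing χ ρ σ) (f : Γ' →* Γ) :
    Pairing (χ.comp f) (ρ.comp f) (σ.comp f) :=
  ⟨P.e, fun g v w => P.equivariant (f g) v w⟩

/-- The pairing on functions given by summing pointwise. -/
def Pairing.funPairing (P : Pairing χ ρ σ) (X : Type*) [MulAction Γ X] [Fintype X] :
    Pairing χ (funRep ρ X) (funRep σ X) where
  e := ∑ x : X, P.e.compl₁₂ (LinearMap.proj x) (LinearMap.proj x)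
  equivariant g F F' := by
    simp only [LinearMap.sum_apply, LinearMap.compl₁₂_apply, LinearMap.proj_apply, funRep_apply,
      P.equivariant, Finset.mul_sum]
    exact (MulAction.bijective g⁻¹).sum_comp fun x => (χ g : k) * P.e (F x) (F' x)

variable (P : Pairing χ ρ σ)

/-- Degree (1,1) cup product. -/
def cup11 (a : Γ → V) (b : Γ → W) : Γ × Γ → k :=
  fun g => P.e (a g.1) (σ g.1 (b g.2))

/-- Degree (2,0) cup product. -/
def cup20 (a : Γ × Γ → V) (w : W) : Γ × Γ → k :=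
  fun g => P.e (a g) (σ (g.1 * g.2) w)

/-- Degree (0,2) cup product. -/
def cup02 (v : V) (b : Γ × Γ → W) : Γ × Γ → k :=
  fun g => P.e v (b g)

/-- Degree (1,0) cup product. -/
def cup10 (a : Γ → V) (w : W) : Γ → k :=
  fun g => P.e (a g) (σ g w)

/-- Degree (0,1) cup product. -/
def cup01 (v : V) (b : Γ → W) : Γ → k :=
  fun g => P.e v (b g)

/-- Degree (2,1) cup product. -/
def cup21 (a : Γ × Γ → V) (b : Γ → W) : Γ × Γ × Γ → k :=
  fun g => P.e (a (g.1, g.2.1)) (σ (g.1 * g.2.1) (b g.2.2))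

/-- Degree (1,2) cup product. -/
def cup12 (a : Γ → V) (b : Γ × Γ → W) : Γ × Γ × Γ → k :=
  fun g => P.e (a g.1) (σ g.1 (b g.2))

end cup

end FLTA.PT

end
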