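import Fermat.Agent.PoitouTate.LocalDualityCup
import Fermat.Agent.PoitouTate.Shapiro

/-!
# Transitive permutation modules: one-point evaluation, sums and transfer of cup products
-/

set_option autoImplicit false

noncomputable section

namespace FLTA.PT

variable {k : Type*} [CommRing k] {Γ : Type*} [Group Γ] {L : Lvl Γ}
variable {V W : Type*} [AddCommGroup V] [Module k V] [AddCommGroup W] [Module k W]
variable {χ : Γ →* kˣ} {ρ : Representation k Γ V} {σ : Representation k Γ W}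
variable {X : Type*} [MulAction Γ X]

theorem mul_mem_Z2_conj {U : Subgroup Γ} (hU : U.Normal) {g s : Γ} (hs : s ∈ U) :
    g⁻¹ * s * g ∈ U := by
  simpa using hU.conj_mem s hs g⁻¹

/-- Two-variable invariance of a level-constant function. -/
theorem const₂_left {X' : Type*} {U : Subgroup Γ} {f : Γ × Γ → X'}
    (h : ∀ g g' s s', s ∈ U → s' ∈ U → f (g * s, g' * s') = f (g, g')) {g g' s : Γ} (hs : s ∈ U) :
    f (g * s, g') = f (g, g') := by
  simpa using h g g' s 1 hs U.one_mem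

theorem const₂_right {X' : Type*} {U : Subgroup Γ} {f : Γ × Γ → X'}
    (h : ∀ g g' s s', s ∈ U → s' ∈ U → f (g * s, g' * s') = f (g, g')) {g g' s : Γ} (hs : s ∈ U) :
    f (g, g' * s) = f (g, g') := by
  simpa using h g g' 1 s U.one_mem hs

section point

variable {Γ' : Type*} [Group Γ'] (f : Γ' →* Γ) (x : X)

theorem equivariant_projPt (hfix : ∀ τ, f τ • x = x) :
    Equivariant (funRep ρ X) (ρ.comp f) f (LinearMap.proj (R := k) (φ := fun _ : X => V) x) := by
  intro τ F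
  show ρ (f τ) (F ((f τ)⁻¹ • x)) = ρ (f τ) (F x)
  rw [inv_smul_eq_iff.2 (hfix τ).symm]

theorem equivariant_projStab :
    Equivariant (funRep ρ X) (ρ.comp (MulAction.stabilizer Γ x).subtype)
      (MulAction.stabilizer Γ x).subtype (LinearMap.proj (R := k) (φ := fun _ : X => V) x) :=
  equivariant_proj ρ x

/-- `f` identifies `Γ'` with the stabiliser of `x`. -/
structure IsPoint : Prop where
  inj : Function.Injective f
  fix : ∀ τ, f τ • x = x
  surj : ∀ g : Γ, g • x = x → ∃ τ, f τ = g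

variable {f x}

/-- `f` as an isomorphism onto the stabiliser. -/
def IsPoint.equiv (h : IsPoint f x) : Γ' ≃* MulAction.stabilizer Γ x :=
  MulEquiv.ofBijective (f.codRestrict _ h.fix)
    ⟨fun a b e => h.inj (Subtype.ext_iff.1 e), fun g => by
      obtain ⟨τ, hτ⟩ := h.surj g g.2
      exact ⟨τ, Subtype.ext hτ⟩⟩

@[simp] theorem IsPoint.coe_equiv (h : IsPoint f x) (τ : Γ') : (h.equiv τ : Γ) = f τ := rfl

@[simp] theorem IsPoint.apply_symm (h : IsPoint f x) (g : MulAction.stabilizer Γ x) :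
    f (h.equiv.symm g) = g := by
  rw [← h.coe_equiv, MulEquiv.apply_symm_apply]

theorem IsPoint.lvlLE_symm (h : IsPoint f x) :
    LvlLE (L.comap f) (L.comap (MulAction.stabilizer Γ x).subtype) h.equiv.symm.toMonoidHom := by
  rintro U ⟨V', hV, rfl⟩
  refine ⟨V', hV, ?_⟩
  ext g
  simp [Subgroup.mem_comap, Subgroup.mem_subgroupOf]

theorem IsPoint.stab_mem_B2 (h : IsPoint f x) {C : Γ × Γ → X → V}
    (hC : pp2 f (LinearMap.proj (R := k) (φ := fun _ : X => V) x) C ∈ B2 (L.comap f) (ρ.comp f)) :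
    pp2 (MulAction.stabilizer Γ x).subtype (LinearMap.proj (R := k) (φ := fun _ : X => V) x) C ∈
      B2 (L.comap (MulAction.stabilizer Γ x).subtype)
        (ρ.comp (MulAction.stabilizer Γ x).subtype) := by
  have := pp2_mem_B2 (σ := ρ.comp (MulAction.stabilizer Γ x).subtype)
    (φ := (LinearMap.id : V →ₗ[k] V)) h.lvlLE_symm (fun g v => by simp) hC
  convert this using 1
  funext ⟨g, g'⟩
  simp

theorem IsPoint.stab_mem_B1 (h : IsPoint f x) {C : Γ → X → V}
    (hC : pp1 f (LinearMap.proj (R := k) (φ := fun _ : X => V) x) C ∈ B1 (ρ.comp f)) :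
    pp1 (MulAction.stabilizer Γ x).subtype (LinearMap.proj (R := k) (φ := fun _ : X => V) x) C ∈
      B1 (ρ.comp (MulAction.stabilizer Γ x).subtype) := by
  obtain ⟨v, hv⟩ := hC
  refine ⟨v, funext fun g => ?_⟩
  have := congrFun hv (h.equiv.symm g)
  simpa using this

/-- Evaluation at one point detects classes when the action is transitive. -/
theorem IsPoint.mem_B2_of_eval [Finite X] (h : IsPoint f x)
    (hX : ∀ y : X, IsOpenLvl L (MulAction.stabilizer Γ y)) (htr : ∀ y : X, ∃ g : Γ, g • x = y)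
    (hρ : Smooth L ρ) {C : Γ × Γ → X → V} (hC : C ∈ Z2 L (funRep ρ X))
    (he : pp2 f (LinearMap.proj (R := k) (φ := fun _ : X => V) x) C ∈ B2 (L.comap f) (ρ.comp f)) :
    C ∈ B2 L (funRep ρ X) := by
  obtain ⟨y, ⟨U, ⟨U₀, hU₀, rfl⟩, hy⟩, hyd⟩ := (mem_B2 _ _).1 (h.stab_mem_B2 he)
  obtain ⟨U₁, hU₁, hC₁⟩ := ((mem_Z2 _ _).1 hC).2
  have key : H2cπ L (funRep ρ X) ⟨C, hC⟩ = 0 := by
    refine eq_zero_of_forall_eval2_eq_zero L ρ hρ hX _ fun z => ?_
    rw [eval2, map2_mk, H2cπ_eq_zero]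
    obtain ⟨g, rfl⟩ := htr z
    have hconj : ∀ a : MulAction.stabilizer Γ (g • x),
        g⁻¹ * a * g ∈ MulAction.stabilizer Γ x := fun a => by
      rw [MulAction.mem_stabilizer_iff, mul_smul, mul_smul, a.2, inv_smul_smul]
    let c : MulAction.stabilizer Γ (g • x) →* MulAction.stabilizer Γ x :=
      MonoidHom.mk' (fun a => ⟨g⁻¹ * a * g, hconj a⟩) fun a b => by ext; simp [mul_assoc]
    refine (mem_B2 _ _).2 ⟨fun a => ρ g (y (c a)) -
      (C (g, g⁻¹ * a * g) (g • x) - C ((a : Γ), g) (g • x)), ?_, ?_⟩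
    · refine ⟨(U₀ ⊓ U₁).comap (MulAction.stabilizer Γ (g • x)).subtype,
        lvlLE_comap L _ _ (L.inf_mem U₀ hU₀ U₁ hU₁), fun a s hs => ?_⟩
      have hs₀ : (s : Γ) ∈ U₀ := (Subgroup.mem_comap.1 hs).1
      have hs₁ : (s : Γ) ∈ U₁ := (Subgroup.mem_comap.1 hs).2
      have e1 : y (c (a * s)) = y (c a) := by
        rw [map_mul]
        exact hy _ _ (Subgroup.mem_comap.2 (mul_mem_Z2_conj (L.normal_of_mem U₀ hU₀) hs₀))
      have e2 : C (g, g⁻¹ * ((a * s : MulAction.stabilizer Γ (g • x)) : Γ) * g)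
          = C (g, g⁻¹ * a * g) := by
        rw [Subgroup.coe_mul, show g⁻¹ * ((a : Γ) * s) * g = g⁻¹ * a * g * (g⁻¹ * s * g) by group]
        exact const₂_right hC₁ (mul_mem_Z2_conj (L.normal_of_mem U₁ hU₁) hs₁)
      have e3 : C (((a * s : MulAction.stabilizer Γ (g • x)) : Γ), g) = C ((a : Γ), g) := by
        rw [Subgroup.coe_mul]
        exact const₂_left hC₁ hs₁
      show ρ g (y (c (a * s))) - (_ - _) = _
      rw [e1, e2, e3]
    · funext ⟨a, b⟩
      have hab := congrFun hyd (c a, c b)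
      simp only [d1_apply, MonoidHom.comp_apply, Subgroup.coe_subtype, pp2_apply,
        LinearMap.proj_apply, ← map_mul] at hab
      have hc : ∀ a, ((c a : MulAction.stabilizer Γ x) : Γ) = g⁻¹ * a * g := fun a => rfl
      rw [hc, hc] at hab
      have hfixa : (a : Γ)⁻¹ • g • x = g • x := inv_smul_eq_iff.2 a.2.symm
      have hgc : ∀ v, ρ g (ρ (g⁻¹ * (a : Γ) * g) v) = ρ (a : Γ) (ρ g v) := fun v => by
        rw [← Module.End.mul_apply, ← map_mul, ← Module.End.mul_apply (ρ (a : Γ)), ← map_mul]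
        simp [mul_assoc]
      have hz := ((mem_Z2 _ _).1 hC).1
      have E1 := congrFun (hz g (g⁻¹ * a * g) (g⁻¹ * b * g)) (g • x)
      have E2 := congrFun (hz a g (g⁻¹ * b * g)) (g • x)
      have E3 := congrFun (hz a b g) (g • x)
      simp only [Pi.add_apply, funRep_apply, inv_smul_smul, hfixa,
        show g * (g⁻¹ * (a : Γ) * g) = a * g by group,
        show g * (g⁻¹ * (b : Γ) * g) = b * g by group,
        show g⁻¹ * (a : Γ) * g * (g⁻¹ * b * g) = g⁻¹ * (a * b) * g by group] at E1 E2 E3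
      rw [← hab, map_add, map_sub, hgc] at E1
      simp only [d1_apply, MonoidHom.comp_apply, Subgroup.coe_subtype, pp2_apply,
        LinearMap.proj_apply, Subgroup.coe_mul, map_sub]
      rw [← sub_eq_zero] at E1 E2 E3 ⊢
      refine Eq.trans ?_ ((congrArg₂ (· - ·) E2 (congrArg₂ (· + ·) E1 E3)).trans (by simp))
      abel
  simpa using (H2cπ_eq_zero L _).1 key

/-- Evaluation at one point detects `H¹` classes when the action is transitive. -/
theorem IsPoint.mem_B1_of_eval [Finite X] (h : IsPoint f x)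
    (hX : ∀ y : X, IsOpenLvl L (MulAction.stabilizer Γ y)) (htr : ∀ y : X, ∃ g : Γ, g • x = y)
    (hρ : Smooth L ρ) {C : Γ → X → V} (hC : C ∈ Z1 L (funRep ρ X))
    (he : pp1 f (LinearMap.proj (R := k) (φ := fun _ : X => V) x) C ∈ B1 (ρ.comp f)) :
    C ∈ B1 (funRep ρ X) := by
  obtain ⟨v, hv⟩ := h.stab_mem_B1 he
  have key : H1cπ L (funRep ρ X) ⟨C, hC⟩ = 0 := by
    refine eq_zero_of_forall_eval1_eq_zero L ρ hρ hX _ fun z => ?_
    rw [eval1, map1_mk, H1cπ_eq_zero]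
    obtain ⟨g, rfl⟩ := htr z
    refine ⟨ρ g v - C g (g • x), funext fun a => ?_⟩
    have ha : g⁻¹ * a * g ∈ MulAction.stabilizer Γ x := by
      rw [MulAction.mem_stabilizer_iff, mul_smul, mul_smul, a.2, inv_smul_smul]
    have hva := congrFun hv ⟨_, ha⟩
    have hfixa : (a : Γ)⁻¹ • g • x = g • x := inv_smul_eq_iff.2 a.2.symm
    have hz := ((mem_Z1 _ _).1 hC).1
    have E1 := congrFun (hz g (g⁻¹ * a * g)) (g • x)
    have E2 := congrFun (hz a g) (g • x)
    simp only [Pi.add_apply, funRep_apply, inv_smul_smul, hfixa,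
      show g * (g⁻¹ * (a : Γ) * g) = a * g by group] at E1 E2
    simp only [d0_apply, MonoidHom.comp_apply, Subgroup.coe_subtype, pp1_apply,
      LinearMap.proj_apply] at hva ⊢
    rw [← hva, map_sub, ← Module.End.mul_apply, ← map_mul,
      show g * (g⁻¹ * (a : Γ) * g) = a * g by group, map_mul, Module.End.mul_apply] at E1
    rw [E2] at E1
    rw [← sub_eq_zero] at E1 ⊢
    rw [← neg_eq_zero, ← E1, map_sub]
    abel
  simpa using (H1cπ_eq_zero L _).1 key

theorem IsPoint.exists_eval2 [Finite X] (h : IsPoint f x)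
    (hX : ∀ y : X, IsOpenLvl L (MulAction.stabilizer Γ y)) (hρ : Smooth L ρ) {a : Γ' × Γ' → V}
    (ha : a ∈ Z2 (L.comap f) (ρ.comp f)) :
    ∃ C ∈ Z2 L (funRep ρ X),
      pp2 f (LinearMap.proj (R := k) (φ := fun _ : X => V) x) C - a ∈ B2 (L.comap f) (ρ.comp f) := by
  have h0 : pp2 h.equiv.symm.toMonoidHom LinearMap.id a ∈
      Z2 (L.comap (MulAction.stabilizer Γ x).subtype)
        (ρ.comp (MulAction.stabilizer Γ x).subtype) :=
    pp2_mem_Z2 (σ := ρ.comp (MulAction.stabilizer Γ x).subtype) h.lvlLE_symm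
      (fun g v => by simp) ha
  obtain ⟨c, hc, -⟩ := exists_eval2_eq L ρ hρ hX x
    (H2cπ (L.comap (MulAction.stabilizer Γ x).subtype)
      (ρ.comp (MulAction.stabilizer Γ x).subtype) ⟨_, h0⟩)
  obtain ⟨⟨C, hC⟩, rfl⟩ := Submodule.mkQ_surjective _ c
  refine ⟨C, hC, ?_⟩
  rw [eval2, map2_mk, ← sub_eq_zero, ← map_sub, H2cπ_eq_zero] at hc
  have hL : LvlLE (L.comap (MulAction.stabilizer Γ x).subtype) (L.comap f)
      h.equiv.toMonoidHom := by
    rintro U ⟨V', hV, rfl⟩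
    exact ⟨V', hV, rfl⟩
  have := pp2_mem_B2 (σ := ρ.comp f) (φ := (LinearMap.id : V →ₗ[k] V)) hL (fun _ _ => rfl) hc
  convert this using 1
  funext ⟨g, g'⟩
  simp

theorem IsPoint.exists_eval1 [Finite X] (h : IsPoint f x)
    (hX : ∀ y : X, IsOpenLvl L (MulAction.stabilizer Γ y)) (hρ : Smooth L ρ) {a : Γ' → V}
    (ha : a ∈ Z1 (L.comap f) (ρ.comp f)) :
    ∃ C ∈ Z1 L (funRep ρ X), pp1 f (LinearMap.proj (R := k) (φ := fun _ : X => V) x) C - a ∈ B1 (ρ.comp f) := by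
  have h0 : pp1 h.equiv.symm.toMonoidHom LinearMap.id a ∈
      Z1 (L.comap (MulAction.stabilizer Γ x).subtype)
        (ρ.comp (MulAction.stabilizer Γ x).subtype) :=
    pp1_mem_Z1 (σ := ρ.comp (MulAction.stabilizer Γ x).subtype) h.lvlLE_symm
      (fun g v => by simp) ha
  obtain ⟨c, hc, -⟩ := exists_eval1_eq L ρ hρ hX x
    (H1cπ (L.comap (MulAction.stabilizer Γ x).subtype)
      (ρ.comp (MulAction.stabilizer Γ x).subtype) ⟨_, h0⟩)
  obtain ⟨⟨C, hC⟩, rfl⟩ := Submodule.mkQ_surjective _ c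
  refine ⟨C, hC, ?_⟩
  rw [eval1, map1_mk, ← sub_eq_zero, ← map_sub, H1cπ_eq_zero] at hc
  have := pp1_mem_B1 (σ := ρ.comp f) (f := h.equiv.toMonoidHom) (φ := (LinearMap.id : V →ₗ[k] V))
    (fun _ _ => rfl) hc
  convert this using 1
  funext g
  simp

end point

section pointwise

variable (P : Pairing χ ρ σ)

/-- Pointwise cup product in degree (2,0). -/
def pw20 (C : Γ × Γ → X → V) (F : X → W) : Γ × Γ → X → k := fun g x => P.e (C g x) (F x)

/-- Pointwise cup product in degree (1,1). -/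
def pw11 (C : Γ → X → V) (B : Γ → X → W) : Γ × Γ → X → k :=
  fun g x => P.e (C g.1 x) (funRep σ X g.1 (B g.2) x)

theorem pw20_mem_Z2 {C : Γ × Γ → X → V} (hC : C ∈ Z2 L (funRep ρ X)) {F : X → W}
    (hF : ∀ g, funRep σ X g F = F) : pw20 P C F ∈ Z2 L (funRep (charRep χ) X) := by
  rw [mem_Z2] at hC ⊢
  obtain ⟨U, hU, hc⟩ := hC.2
  refine ⟨fun g h j => funext fun x => ?_, U, hU, fun g g' s s' hs hs' => by
    funext x; simp [pw20, hc g g' s s' hs hs']⟩
  have hFg : σ g (F (g⁻¹ • x)) = F x := congrFun (hF g) x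
  have e := congrArg (fun v => P.e v (F x)) (congrFun (hC.1 g h j) x)
  simp only [Pi.add_apply, funRep_apply, map_add, LinearMap.add_apply] at e
  simp only [pw20, Pi.add_apply, funRep_apply, charRep_apply, P.equivariant']
  rw [hFg]
  exact e

theorem pw11_mem_Z2 (hσX : Smooth L (funRep σ X)) {C : Γ → X → V} (hC : C ∈ Z1 L (funRep ρ X))
    {B : Γ → X → W} (hB : B ∈ Z1 L (funRep σ X)) :
    pw11 P C B ∈ Z2 L (funRep (charRep χ) X) := by
  rw [mem_Z1] at hC hB
  obtain ⟨U, hU, hc⟩ := hC.2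
  obtain ⟨U₁, hU₁, hb⟩ := hB.2
  obtain ⟨U₂, hU₂, hfix⟩ := exists_level_forall_eq hσX hU₁ hb
  rw [mem_Z2]
  refine ⟨fun g h j => funext fun x => ?_, U ⊓ (U₁ ⊓ U₂),
    L.inf_mem U hU _ (L.inf_mem U₁ hU₁ U₂ hU₂), fun g g' s s' hs hs' => funext fun x => ?_⟩
  · simp only [pw11, Pi.add_apply, funRep_apply, charRep_apply, P.equivariant', hC.1 g h,
      hB.1 h j, map_add, LinearMap.add_apply, map_mul, Module.End.mul_apply, mul_inv_rev,
      mul_smul]
    abel
  · show P.e (C (g * s) x) (funRep σ X (g * s) (B (g' * s')) x) = _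
    rw [hc g s hs.1, hb g' s' hs'.2.1, map_mul, Module.End.mul_apply, hfix g' s hs.2.2]
    rfl

theorem pp2_proj_pw20 {Γ' : Type*} [Group Γ'] {f : Γ' →* Γ} {x : X} (C : Γ × Γ → X → V)
    {F : X → W} {w : W} (hw : F x = w) (hfix : ∀ τ, σ (f τ) w = w) :
    pp2 f (LinearMap.proj (R := k) (φ := fun _ : X => k) x) (pw20 P C F) =
      cup20 (P.comp f) (pp2 f (LinearMap.proj (R := k) (φ := fun _ : X => V) x) C) w := by
  funext ⟨a, b⟩
  simp [cup20, pw20, hw, Pairing.comp, hfix, ← map_mul]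

theorem pp2_proj_pw11 {Γ' : Type*} [Group Γ'] {f : Γ' →* Γ} {x : X} (hfix : ∀ τ, f τ • x = x)
    (C : Γ → X → V) (B : Γ → X → W) :
    pp2 f (LinearMap.proj (R := k) (φ := fun _ : X => k) x) (pw11 P C B) =
      cup11 (P.comp f) (pp1 f (LinearMap.proj (R := k) (φ := fun _ : X => V) x) C)
        (pp1 f (LinearMap.proj (R := k) (φ := fun _ : X => W) x) B) := by
  funext ⟨a, b⟩
  simp [cup11, pw11, Pairing.comp, inv_smul_eq_iff.2 (hfix a).symm]

variable [Fintype X]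

theorem sum_pw20 (C : Γ × Γ → X → V) {w : W} (hw : ∀ g, σ g w = w) :
    pp2 (MonoidHom.id Γ) (sumMap (k := k) X) (pw20 P C fun _ => w) =
      cup20 P (pp2 (MonoidHom.id Γ) (sumMap (k := k) X) C) w := by
  funext ⟨a, b⟩
  simp [cup20, pw20, hw, map_sum, LinearMap.sum_apply]

theorem sum_pw20_const (a : Γ × Γ → V) {F : X → W} (hF : ∀ g, σ g (∑ x, F x) = ∑ x, F x) :
    pp2 (MonoidHom.id Γ) (sumMap (k := k) X)
        (pw20 P (pp2 (MonoidHom.id Γ) (constMap (k := k) X) a) F) =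
      cup20 P a (∑ x, F x) := by
  funext ⟨g, h⟩
  simp only [pp2_apply, sumMap_apply, cup20, pw20, hF, MonoidHom.id_apply]
  simp [constMap, map_sum]

theorem sum_pw11_const (a : Γ → V) (B : Γ → X → W) :
    pp2 (MonoidHom.id Γ) (sumMap (k := k) X)
        (pw11 P (pp1 (MonoidHom.id Γ) (constMap (k := k) X) a) B) =
      cup11 P a (pp1 (MonoidHom.id Γ) (sumMap (k := k) X) B) := by
  funext ⟨g, h⟩
  simp only [pp2_apply, pp1_apply, sumMap_apply, cup11, pw11, MonoidHom.id_apply, funRep_apply,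
    map_sum]
  exact (MulAction.bijective g⁻¹).sum_comp fun x => P.e (a g) (σ g (B h x))

end pointwise

section transfer

variable [Fintype X]

/-- The sum map is injective on `H²` of functions on `X`. -/
def SumInj (L : Lvl Γ) (ν : Representation k Γ V) (X : Type*) [MulAction Γ X] [Fintype X] : Prop :=
  ∀ C ∈ Z2 L (funRep ν X),
    pp2 (MonoidHom.id Γ) (sumMap (k := k) X) C ∈ B2 L ν → C ∈ B2 L (funRep ν X)

variable {Γ' : Type*} [Group Γ'] {f : Γ' →* Γ} {x : X}

theorem IsPoint.exists_fixed (h : IsPoint f x) (htr : ∀ y : X, ∃ g : Γ, g • x = y) {w : W}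
    (hw : ∀ τ, σ (f τ) w = w) : ∃ F : X → W, (∀ g, funRep σ X g F = F) ∧ F x = w := by
  choose g hg using htr
  refine ⟨fun y => σ (g y) w, fun a => funext fun y => ?_, ?_⟩
  · rw [funRep_apply, ← Module.End.mul_apply, ← map_mul]
    obtain ⟨τ, hτ⟩ := h.surj ((g y)⁻¹ * (a * g (a⁻¹ • y)))
      (by rw [mul_smul, mul_smul, hg, smul_inv_smul, inv_smul_eq_iff, hg])
    conv_lhs => rw [show a * g (a⁻¹ • y) = g y * f τ by rw [hτ, mul_inv_cancel_left]]
    rw [map_mul, Module.End.mul_apply, hw]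
  · obtain ⟨τ, hτ⟩ := h.surj (g x) (hg x)
    show σ (g x) w = w
    rw [← hτ, hw]

variable (P : Pairing χ ρ σ)

theorem IsPoint.res_forall_cup20 (h : IsPoint f x) (htr : ∀ y : X, ∃ g : Γ, g • x = y)
    (hinj : SumInj L (charRep χ) X) {a : Γ × Γ → V} (ha : a ∈ Z2 L ρ)
    (hyp : ∀ w, (∀ g, σ g w = w) → cup20 P a w ∈ B2 L (charRep χ)) {w : W}
    (hw : ∀ τ, σ (f τ) w = w) :
    cup20 (P.comp f) (pp2 f (LinearMap.id : V →ₗ[k] V) a) w ∈
      B2 (L.comap f) (charRep (χ.comp f)) := by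
  obtain ⟨F, hF, hFx⟩ := h.exists_fixed htr hw
  have hsum : ∀ g, σ g (∑ x, F x) = ∑ x, F x := fun g => by
    have e := congrArg (sumMap (k := k) X) (hF g)
    rw [show sumMap (k := k) X (funRep σ X g F) = σ g (sumMap (k := k) X F) from
      equivariant_sumMap σ X g F, sumMap_apply] at e
    exact e
  have hC : pw20 P (pp2 (MonoidHom.id Γ) (constMap (k := k) X) a) F ∈ Z2 L (funRep (charRep χ) X) :=
    pw20_mem_Z2 P (pp2_mem_Z2 (lvlLE_id L) (equivariant_constMap ρ X) ha) hF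
  have hB := hinj _ hC (by rw [sum_pw20_const P a hsum]; exact hyp _ hsum)
  have := pp2_mem_B2 (σ := (charRep χ).comp f) (lvlLE_comap L f)
    (equivariant_projPt f x h.fix) hB
  rw [pp2_proj_pw20 P _ hFx hw] at this
  exact this

theorem IsPoint.res_forall_cup11 (h : IsPoint f x)
    (hX : ∀ y : X, IsOpenLvl L (MulAction.stabilizer Γ y))
    (hσ : Smooth L σ) (hinj : SumInj L (charRep χ) X) {a : Γ → V} (ha : a ∈ Z1 L ρ)
    (hyp : ∀ b ∈ Z1 L σ, cup11 P a b ∈ B2 L (charRep χ)) {b : Γ' → W}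
    (hb : b ∈ Z1 (L.comap f) (σ.comp f)) :
    cup11 (P.comp f) (pp1 f (LinearMap.id : V →ₗ[k] V) a) b ∈
      B2 (L.comap f) (charRep (χ.comp f)) := by
  obtain ⟨B, hB, w, hw⟩ := h.exists_eval1 hX hσ hb
  have hC : pw11 P (pp1 (MonoidHom.id Γ) (constMap (k := k) X) a) B ∈
      Z2 L (funRep (charRep χ) X) :=
    pw11_mem_Z2 P (smooth_funRep L σ hσ hX)
      (pp1_mem_Z1 (lvlLE_id L) (equivariant_constMap ρ X) ha) hB
  have hbB := hinj _ hC (by
    rw [sum_pw11_const P a B]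
    exact hyp _ (pp1_mem_Z1 (lvlLE_id L) (equivariant_sumMap σ X) hB))
  have h1 := pp2_mem_B2 (σ := (charRep χ).comp f) (lvlLE_comap L f)
    (equivariant_projPt f x h.fix) hbB
  rw [pp2_proj_pw11 P h.fix,
    show pp1 f (LinearMap.proj (R := k) (φ := fun _ : X => V) x)
      (pp1 (MonoidHom.id Γ) (constMap (k := k) X) a) = pp1 f (LinearMap.id : V →ₗ[k] V) a
      from rfl] at h1
  have h2 := cup11_d0_right_mem_B2 (P.comp f) (smooth_comap hσ f)
    (a := pp1 f (LinearMap.id : V →ₗ[k] V) a)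
    (pp1_mem_Z1 (σ := ρ.comp f) (lvlLE_comap L f) (equivariant_id_comp ρ f) ha) w
  rw [hw, cup11_sub_right] at h2
  have h3 := Submodule.sub_mem _ h1 h2
  rw [sub_sub_self] at h3
  exact h3

theorem IsPoint.exists_cup20_not_mem (h : IsPoint f x)
    (hX : ∀ y : X, IsOpenLvl L (MulAction.stabilizer Γ y))
    (hρ : Smooth L ρ) (hσ : Smooth L σ)
    (hinj : SumInj L (charRep χ) X) {w : W} (hw : ∀ g, σ g w = w)
    (hne : ∃ a ∈ Z2 (L.comap f) (ρ.comp f),
      cup20 (P.comp f) a w ∉ B2 (L.comap f) (charRep (χ.comp f))) :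
    ∃ a ∈ Z2 L ρ, cup20 P a w ∉ B2 L (charRep χ) := by
  obtain ⟨a', ha', hne⟩ := hne
  obtain ⟨C, hC, hCa⟩ := h.exists_eval2 hX hρ ha'
  refine ⟨_, pp2_mem_Z2 (lvlLE_id L) (equivariant_sumMap ρ X) hC, fun hmem => hne ?_⟩
  rw [← sum_pw20 P C hw] at hmem
  have hF : ∀ g, funRep σ X g (fun _ => w) = fun _ => w := fun g => funext fun _ => hw g
  have h1 := pp2_mem_B2 (σ := (charRep χ).comp f) (lvlLE_comap L f)
    (equivariant_projPt f x h.fix) (hinj _ (pw20_mem_Z2 P hC hF) hmem)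
  rw [pp2_proj_pw20 P C (w := w) rfl fun τ => hw _] at h1
  have h2 := cup20_mem_B2_of_mem_B2 (P.comp f) (smooth_comap hσ f) hCa (w := w) fun τ => hw _
  rw [cup20_sub_left] at h2
  have h3 := Submodule.sub_mem _ h1 h2
  rw [sub_sub_self] at h3
  exact h3

/-- Restriction is injective on `H²` if the number of points is invertible. -/
theorem IsPoint.mem_B2_of_res (h : IsPoint f x)
    (hX : ∀ y : X, IsOpenLvl L (MulAction.stabilizer Γ y)) (htr : ∀ y : X, ∃ g : Γ, g • x = y)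
    (hρ : Smooth L ρ) (hunit : IsUnit (Fintype.card X : k)) {a : Γ × Γ → V} (ha : a ∈ Z2 L ρ)
    (hres : pp2 f (LinearMap.id : V →ₗ[k] V) a ∈ B2 (L.comap f) (ρ.comp f)) : a ∈ B2 L ρ := by
  have h1 := pp2_mem_B2 (lvlLE_id L) (equivariant_sumMap ρ X)
    (h.mem_B2_of_eval hX htr hρ (pp2_mem_Z2 (lvlLE_id L) (equivariant_constMap ρ X) ha) hres)
  have h2 : (Fintype.card X : k) • a ∈ B2 L ρ := by
    convert h1 using 1
    funext ⟨g, g'⟩
    simp [constMap, Nat.cast_smul_eq_nsmul]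
  obtain ⟨u, hu⟩ := hunit
  have h3 := (B2 L ρ).smul_mem (↑u⁻¹ : k) h2
  rwa [smul_smul, ← hu, Units.inv_mul, one_smul] at h3

/-- Restriction is injective on `H¹` if the number of points is invertible. -/
theorem IsPoint.mem_B1_of_res (h : IsPoint f x)
    (hX : ∀ y : X, IsOpenLvl L (MulAction.stabilizer Γ y)) (htr : ∀ y : X, ∃ g : Γ, g • x = y)
    (hρ : Smooth L ρ) (hunit : IsUnit (Fintype.card X : k)) {a : Γ → V} (ha : a ∈ Z1 L ρ)
    (hres : pp1 f (LinearMap.id : V →ₗ[k] V) a ∈ B1 (ρ.comp f)) : a ∈ B1 ρ := by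
  have h1 := pp1_mem_B1 (equivariant_sumMap ρ X)
    (h.mem_B1_of_eval hX htr hρ (pp1_mem_Z1 (lvlLE_id L) (equivariant_constMap ρ X) ha) hres)
  have h2 : (Fintype.card X : k) • a ∈ B1 ρ := by
    convert h1 using 1
    funext g
    simp [constMap, Nat.cast_smul_eq_nsmul]
  obtain ⟨u, hu⟩ := hunit
  have h3 := (B1 ρ).smul_mem (↑u⁻¹ : k) h2
  rwa [smul_smul, ← hu, Units.inv_mul, one_smul] at h3

end transfer

end FLTA.PT

end
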