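import Fermat.Agent.PoitouTate.GlobalClassesConj
import Fermat.Agent.PoitouTate.GlobalClassesLevel
import Fermat.Agent.PoitouTate.LocalDuality
import Fermat.Agent.PoitouTate.LocalDualityFun

/-!
# Evaluation of classes of `Fun(GQ/G₀, μ_p)` at the places of the fixed field of `G₀`
-/

set_option autoImplicit false
set_option linter.unusedSectionVars false
set_option linter.style.haveILetI false

open ExtCitation Module

noncomputable section

namespace FLTA.PT.GC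

variable (p : ℕ) [Fact p.Prime] (q : Nat.Primes) (G₀ : Subgroup GQ)

/-- The action of the local group on the cosets. -/
@[instance_reducible] def locAction : MulAction (Gl q) (GQ ⧸ G₀) :=
  MulAction.compHom (GQ ⧸ G₀) (loc q)

attribute [local instance] locAction

theorem locAction_smul (τ : Gl q) (x : GQ ⧸ G₀) : τ • x = loc q τ • x := rfl

/-- The coefficients at `q`. -/
abbrev locRep : Representation (ZMod p) (Gl q) (GQ ⧸ G₀ → ZMod p) :=
  (funRep (muRep p) (GQ ⧸ G₀)).comp (loc q)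

theorem locRep_eq : locRep p q G₀ = funRep (muLoc p q) (GQ ⧸ G₀) := by
  refine MonoidHom.ext fun τ => LinearMap.ext fun F => funext fun x => ?_
  show muRep p (loc q τ) (F ((loc q τ)⁻¹ • x)) = muLoc p q τ (F (loc q τ⁻¹ • x))
  rw [map_inv]
  rfl

theorem equivariant_toLoc :
    Equivariant (locRep p q G₀) (funRep (muLoc p q) (GQ ⧸ G₀)) (MonoidHom.id (Gl q))
      (LinearMap.id : (GQ ⧸ G₀ → ZMod p) →ₗ[ZMod p] _) := fun τ F => by
  rw [locRep_eq]; rfl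

theorem equivariant_ofLoc :
    Equivariant (funRep (muLoc p q) (GQ ⧸ G₀)) (locRep p q G₀) (MonoidHom.id (Gl q))
      (LinearMap.id : (GQ ⧸ G₀ → ZMod p) →ₗ[ZMod p] _) := fun τ F => by
  rw [locRep_eq]; rfl

/-- The two descriptions of the local coefficients give the same classes. -/
def toLoc : H2c (lvlLoc q) (locRep p q G₀) ≃ₗ[ZMod p]
    H2c (lvlLoc q) (funRep (muLoc p q) (GQ ⧸ G₀)) :=
  LinearEquiv.ofLinearMap (map2 (lvlLE_id _) (equivariant_toLoc p q G₀))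
    (map2 (lvlLE_id _) (equivariant_ofLoc p q G₀))
    (Submodule.linearMap_qext _ (LinearMap.ext fun _ => rfl))
    (Submodule.linearMap_qext _ (LinearMap.ext fun _ => rfl))

/-- The place `(q, g)` lies in the orbit of the place `(q, g₁)`. -/
def InOrbit (g₁ g : GQ) : Prop := ∃ τ : Gl q, g⁻¹ * loc q τ * g₁ ∈ G₀

variable {q G₀}

theorem smul_coe_eq_iff {τ : Gl q} {g : GQ} :
    τ • (g : GQ ⧸ G₀) = g ↔ τ ∈ stabLoc q G₀ g := by
  rw [locAction_smul, MulAction.Quotient.smul_coe, eq_comm, QuotientGroup.eq, mem_stabLoc,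
    smul_eq_mul, mul_assoc]

theorem isPoint_stabLoc (g : GQ) :
    IsPoint (stabLoc q G₀ g).subtype (g : GQ ⧸ G₀) where
  inj := (stabLoc q G₀ g).subtype_injective
  fix τ := smul_coe_eq_iff.2 τ.2
  surj τ hτ := ⟨⟨τ, smul_coe_eq_iff.1 hτ⟩, rfl⟩

theorem isOpenLvl_stabilizer (hG : IsOpenLvl lvlQ G₀) (x : GQ ⧸ G₀) :
    IsOpenLvl (lvlLoc q) (MulAction.stabilizer (Gl q) x) := by
  obtain ⟨U, hU, hle⟩ := hG
  induction x using QuotientGroup.induction_on with | _ g => ?_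
  refine ⟨U.comap (loc q), ⟨U, hU, rfl⟩, fun τ hτ => smul_coe_eq_iff.2 (mem_stabLoc.2 (hle ?_))⟩
  exact (lvlQ.normal_of_mem U hU).conj_mem' _ hτ g

theorem smooth_muLoc_lvlLoc {S : Finset Nat.Primes} (hpS : pPrime p ∈ S) :
    Smooth (lvlLoc q) (muLoc p q) := fun v => by
  refine ⟨(cycLvl p 1).comap (loc q),
    ⟨_, by simpa using lvlS_le_lvlQ S _ (cycLvl_mem_lvlS S hpS 1), rfl⟩, fun s hs => ?_⟩
  have : cycloChar p (loc q s) = 1 := cycloChar_eq_one hs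
  simp [this]

theorem smooth_muRep_lvlS {S : Finset Nat.Primes} (hpS : pPrime p ∈ S) :
    Smooth (lvlS S) (muRep p) := fun v =>
  ⟨cycLvl p 1, cycLvl_mem_lvlS S hpS 1, fun s hs => by simp [cycloChar_eq_one hs]⟩

theorem equivariant_ev (g : GQ) :
    Equivariant (locRep p q G₀) ((muLoc p q).comp (stabLoc q G₀ g).subtype)
      (stabLoc q G₀ g).subtype
      (LinearMap.proj (R := ZMod p) (φ := fun _ : GQ ⧸ G₀ => ZMod p) (g : GQ ⧸ G₀)) := by
  rw [locRep_eq]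
  exact equivariant_projPt (ρ := muLoc p q) _ (g : GQ ⧸ G₀) (isPoint_stabLoc g).fix

variable (q G₀) in
/-- Evaluation at the place `(q, g)`. -/
def ev (g : GQ) : H2c (lvlLoc q) (locRep p q G₀) →ₗ[ZMod p]
    H2c ((lvlLoc q).comap (stabLoc q G₀ g).subtype) ((muLoc p q).comp (stabLoc q G₀ g).subtype) :=
  map2 (lvlLE_comap _ _) (equivariant_ev p g)

theorem ev_mk_eq_zero_iff (g : GQ) (z : Z2 (lvlLoc q) (locRep p q G₀)) :
    ev p q G₀ g (H2cπ (lvlLoc q) (locRep p q G₀) z) = 0 ↔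
      pp2 (stabLoc q G₀ g).subtype
          (LinearMap.proj (R := ZMod p) (φ := fun _ : GQ ⧸ G₀ => ZMod p) (g : GQ ⧸ G₀)) z.1 ∈
        B2 ((lvlLoc q).comap (stabLoc q G₀ g).subtype)
          ((muLoc p q).comp (stabLoc q G₀ g).subtype) := by
  rw [ev, map2_mk, H2cπ_eq_zero]

theorem eval2_eq_zero_iff (g : GQ) (c : H2c (lvlLoc q) (locRep p q G₀)) :
    eval2 (muLoc p q) (lvlLoc q) (g : GQ ⧸ G₀) (toLoc p q G₀ c) = 0 ↔ ev p q G₀ g c = 0 := by
  obtain ⟨z, rfl⟩ := Submodule.mkQ_surjective _ c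
  have h := isPoint_stabLoc (q := q) (G₀ := G₀) g
  rw [ev_mk_eq_zero_iff, eval2]
  refine Iff.trans (H2cπ_eq_zero _ _) ⟨fun hz => ?_, fun hz => h.stab_mem_B2 hz⟩
  have hL : LvlLE ((lvlLoc q).comap (MulAction.stabilizer (Gl q) (g : GQ ⧸ G₀)).subtype)
      ((lvlLoc q).comap (stabLoc q G₀ g).subtype) h.equiv.toMonoidHom := by
    rintro U ⟨V', hV, rfl⟩
    exact ⟨V', hV, rfl⟩
  exact pp2_mem_B2 (σ := (muLoc p q).comp (stabLoc q G₀ g).subtype)
    (φ := (LinearMap.id : ZMod p →ₗ[ZMod p] ZMod p)) hL (fun _ _ => rfl) hz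

/-- Evaluations detect local classes. -/
theorem eq_zero_of_forall_ev [Finite (GQ ⧸ G₀)] {S : Finset Nat.Primes} (hpS : pPrime p ∈ S)
    (hG : IsOpenLvl lvlQ G₀) (c : H2c (lvlLoc q) (locRep p q G₀))
    (h : ∀ g, ev p q G₀ g c = 0) : c = 0 := by
  refine (toLoc p q G₀).map_eq_zero_iff.1 (eq_zero_of_forall_eval2_eq_zero (lvlLoc q) (muLoc p q)
    (smooth_muLoc_lvlLoc p hpS) (isOpenLvl_stabilizer hG) _ fun x => ?_)
  induction x using QuotientGroup.induction_on with | _ g => ?_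
  exact (eval2_eq_zero_iff p g c).2 (h g)

/-- Vanishing of an evaluation only depends on the place. -/
theorem ev_eq_zero_of_inOrbit {g₁ g : GQ} (hgg : InOrbit q G₀ g₁ g)
    {c : H2c (lvlLoc q) (locRep p q G₀)} (hc : ev p q G₀ g₁ c = 0) : ev p q G₀ g c = 0 := by
  obtain ⟨τ, hτ⟩ := hgg
  obtain ⟨z, rfl⟩ := Submodule.mkQ_surjective _ c
  rw [ev_mk_eq_zero_iff] at hc ⊢
  have hx : (τ • (g₁ : GQ ⧸ G₀)) = g := by
    rw [locAction_smul, MulAction.Quotient.smul_coe, smul_eq_mul, QuotientGroup.eq]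
    simpa [mul_assoc] using G₀.inv_mem hτ
  have hmem : ∀ t : stabLoc q G₀ g, τ⁻¹ * (t : Gl q) * τ ∈ stabLoc q G₀ g₁ := fun t => by
    rw [← smul_coe_eq_iff, mul_smul, mul_smul, hx, smul_coe_eq_iff.2 t.2, ← hx, inv_smul_smul]
  let f : stabLoc q G₀ g →* stabLoc q G₀ g₁ :=
    { toFun := fun t => ⟨τ⁻¹ * t * τ, hmem t⟩
      map_one' := Subtype.ext (by simp)
      map_mul' := fun a b => Subtype.ext (by simp [mul_assoc]) }
  have hL : LvlLE ((lvlLoc q).comap (stabLoc q G₀ g₁).subtype)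
      ((lvlLoc q).comap (stabLoc q G₀ g).subtype) f := by
    rintro U ⟨V, hV, rfl⟩
    refine ⟨V, hV, ?_⟩
    ext t
    have hn := (lvlLoc q).normal_of_mem V hV
    show (t : Gl q) ∈ V ↔ τ⁻¹ * (t : Gl q) * τ ∈ V
    exact ⟨fun ht => hn.conj_mem' _ ht τ, fun ht => by
      simpa [mul_assoc] using hn.conj_mem _ ht τ⟩
  have hφ : Equivariant ((muLoc p q).comp (stabLoc q G₀ g₁).subtype)
      ((muLoc p q).comp (stabLoc q G₀ g).subtype) f (muLoc p q τ) := fun t v => by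
    show muLoc p q τ (muLoc p q (τ⁻¹ * (t : Gl q) * τ) v) = muLoc p q (t : Gl q) (muLoc p q τ v)
    rw [← Module.End.mul_apply, ← map_mul, ← Module.End.mul_apply, ← map_mul]
    simp [mul_assoc]
  have h1 := pp2_mem_B2 (σ := (muLoc p q).comp (stabLoc q G₀ g).subtype) hL hφ hc
  have hfix : ∀ t : stabLoc q G₀ g, (stabLoc q G₀ g).subtype t • τ • (g₁ : GQ ⧸ G₀) =
      τ • (g₁ : GQ ⧸ G₀) := fun t => by rw [hx]; exact smul_coe_eq_iff.2 t.2
  have h2 := eval_smul_eq (lvlLoc q) (muLoc p q) z.1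
    (pp2_mem_Z2 (lvlLE_id _) (equivariant_toLoc p q G₀) z.2) τ (g₁ : GQ ⧸ G₀)
    (stabLoc q G₀ g).subtype hfix
  rw [hx] at h2
  have h3 : d1 ((muLoc p q).comp (stabLoc q G₀ g).subtype)
      (fun t => conjHtpy τ z.1 ((stabLoc q G₀ g).subtype t) (g : GQ ⧸ G₀)) ∈
      B2 ((lvlLoc q).comap (stabLoc q G₀ g).subtype)
        ((muLoc p q).comp (stabLoc q G₀ g).subtype) :=
    (mem_B2 _ _).2 ⟨_, pp1_const (f := (stabLoc q G₀ g).subtype)
      (φ := LinearMap.proj (R := ZMod p) (φ := fun _ : GQ ⧸ G₀ => ZMod p) (g : GQ ⧸ G₀))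
      (lvlLE_comap _ _) (conjHtpy_const _ τ ((mem_Z2 _ _).1 z.2).2), rfl⟩
  rw [← h2] at h3
  have h4 := sub_mem h1 h3
  convert h4 using 1
  funext ⟨a, b⟩
  simp [f]

/-- Evaluation of the localisation of a global class. -/
theorem ev_locH2_eq_zero_iff {S : Finset Nat.Primes} (g : GQ)
    (F : Z2 (lvlS S) (funRep (muRep p) (GQ ⧸ G₀))) :
    ev p q G₀ g (locH2 S (funRep (muRep p) (GQ ⧸ G₀)) q
        (H2cπ (lvlS S) (funRep (muRep p) (GQ ⧸ G₀)) F)) = 0 ↔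
      pp2 (placeHom q G₀ g) (LinearMap.id : ZMod p →ₗ[ZMod p] ZMod p)
          (pp2 G₀.subtype (LinearMap.proj (R := ZMod p) (φ := fun _ : GQ ⧸ G₀ => ZMod p)
            ((1 : GQ) : GQ ⧸ G₀)) F.1) ∈
        B2 ((lvlLoc q).comap (stabLoc q G₀ g).subtype)
          ((muLoc p q).comp (stabLoc q G₀ g).subtype) := by
  set D := stabLoc q G₀ g
  set L := (lvlLoc q).comap D.subtype
  set μD := (muLoc p q).comp D.subtype
  set f : D →* GQ := (loc q).comp D.subtype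
  set w := pp2 (placeHom q G₀ g) (LinearMap.id : ZMod p →ₗ[ZMod p] ZMod p)
    (pp2 G₀.subtype (LinearMap.proj (R := ZMod p) (φ := fun _ : GQ ⧸ G₀ => ZMod p)
      ((1 : GQ) : GQ ⧸ G₀)) F.1)
  rw [show locH2 S (funRep (muRep p) (GQ ⧸ G₀)) q (H2cπ (lvlS S) (funRep (muRep p) (GQ ⧸ G₀)) F) =
    H2cπ (lvlLoc q) (locRep p q G₀) ⟨pp2 (loc q) (LinearMap.id : (GQ ⧸ G₀ → ZMod p) →ₗ[ZMod p] _) F.1,
      pp2_mem_Z2 (lvlS_le_lvlLoc S q) (fun _ _ => rfl) F.2⟩ from rfl, ev_mk_eq_zero_iff]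
  set v : D × D → ZMod p := pp2 D.subtype
    (LinearMap.proj (R := ZMod p) (φ := fun _ : GQ ⧸ G₀ => ZMod p) (g : GQ ⧸ G₀))
    (pp2 (loc q) (LinearMap.id : (GQ ⧸ G₀ → ZMod p) →ₗ[ZMod p] _) F.1)
  have hg : g • ((1 : GQ) : GQ ⧸ G₀) = (g : GQ ⧸ G₀) := by simp
  have hfix : ∀ t : D, f t • g • ((1 : GQ) : GQ ⧸ G₀) = g • ((1 : GQ) : GQ ⧸ G₀) := fun t => by
    rw [hg]; exact (isPoint_stabLoc g).fix t
  have h2 := eval_smul_eq (lvlS S) (muRep p) F.1 F.2 g ((1 : GQ) : GQ ⧸ G₀) f hfix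
  rw [hg] at h2
  have hLf : LvlLE (lvlS S) L f := fun U hU => ⟨_, lvlS_le_lvlLoc S q U hU, rfl⟩
  have hc : IsConst₁ L (fun t => conjHtpy g F.1 (f t) (g : GQ ⧸ G₀)) :=
    pp1_const (f := f) (φ := LinearMap.proj (R := ZMod p) (φ := fun _ : GQ ⧸ G₀ => ZMod p)
      (g : GQ ⧸ G₀))
      hLf (conjHtpy_const _ g ((mem_Z2 _ _).1 F.2).2)
  have hd : d1 μD (fun t => conjHtpy g F.1 (f t) (g : GQ ⧸ G₀)) ∈ B2 L μD :=
    (mem_B2 _ _).2 ⟨_, hc, rfl⟩
  have e : (cycloChar p g : ZMod p) • w - v =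
      d1 μD (fun t => conjHtpy g F.1 (f t) (g : GQ ⧸ G₀)) := by
    show _ = d1 ((muRep p).comp f) _
    rw [← h2]
    funext ⟨a, b⟩
    simp [w, v, f, placeHom]
  constructor
  · intro hv
    have h1 := add_mem hd hv
    rw [← e, sub_add_cancel] at h1
    have h3 := Submodule.smul_mem _ (((cycloChar p g)⁻¹ : (ZMod p)ˣ) : ZMod p) h1
    rwa [smul_smul, Units.inv_mul, one_smul] at h3
  · intro hw
    have h1 := sub_mem (Submodule.smul_mem _ (cycloChar p g : ZMod p) hw) hd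
    rwa [← e, sub_sub_cancel] at h1

variable (q G₀) in
/-- Summing a local class over the cosets. -/
abbrev sumC [Fintype (GQ ⧸ G₀)] :
    H2c (lvlLoc q) (locRep p q G₀) →ₗ[ZMod p] H2c (lvlLoc q) (muLoc p q) :=
  map2 (L := lvlLoc q) (L' := lvlLoc q) (f := MonoidHom.id (Gl q))
    (ρ := locRep p q G₀) (σ := muLoc p q)
    (φ := sumMap (k := ZMod p) (V := ZMod p) (GQ ⧸ G₀)) (lvlLE_id _)
    (fun g F => equivariant_sumMap (muRep p) (GQ ⧸ G₀) (loc q g) F)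

/-- Changing the coefficients twice, the first time by the identity. -/
theorem coeff2_map2_id {Γ : Type} [Group Γ] {L : Lvl Γ} {V W : Type} [AddCommGroup V]
    [Module (ZMod p) V] [AddCommGroup W] [Module (ZMod p) W]
    {ρ ρ' : Representation (ZMod p) Γ V} {σ : Representation (ZMod p) Γ W}
    {ψ : V →ₗ[ZMod p] W}
    (e1 : Equivariant ρ ρ' (MonoidHom.id Γ) (LinearMap.id : V →ₗ[ZMod p] V))
    (e2 : Equivariant ρ' σ (MonoidHom.id Γ) ψ) (e3 : Equivariant ρ σ (MonoidHom.id Γ) ψ)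
    (c : H2c L ρ) :
    coeff2 L ρ' e2 (map2 (lvlLE_id L) e1 c) = map2 (lvlLE_id L) e3 c := by
  obtain ⟨z, rfl⟩ := Submodule.mkQ_surjective _ c
  rfl

/-- A local class supported at one place with vanishing sum is zero. -/
theorem eq_zero_of_support [Fintype (GQ ⧸ G₀)] (hp : p ≠ 2) (hG : IsOpenLvl lvlQ G₀) (g₁ : GQ)
    (c : H2c (lvlLoc q) (locRep p q G₀))
    (hsupp : ∀ g, ¬ InOrbit q G₀ g₁ g → ev p q G₀ g c = 0)
    (hsum : sumC p q G₀ c = 0) : c = 0 := by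
  refine (toLoc p q G₀).map_eq_zero_iff.1 (eq_zero_of_sumMap_eq_zero_of_support p q hp (GQ ⧸ G₀)
    (isOpenLvl_stabilizer hG) (g₁ : GQ ⧸ G₀) _ (fun y hy => ?_) ?_)
  swap
  · exact (coeff2_map2_id p (equivariant_toLoc p q G₀) (equivariant_sumMap (muLoc p q) (GQ ⧸ G₀))
      (fun g F => equivariant_sumMap (muRep p) (GQ ⧸ G₀) (loc q g) F) c).trans hsum
  induction y using QuotientGroup.induction_on with | _ g => ?_
  refine (eval2_eq_zero_iff p g c).2 (hsupp g fun ⟨τ, hτ⟩ => hy ⟨τ, ?_⟩)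
  show τ • (g₁ : GQ ⧸ G₀) = g
  rw [locAction_smul, MulAction.Quotient.smul_coe, smul_eq_mul, QuotientGroup.eq]
  simpa [mul_assoc] using G₀.inv_mem hτ

/-- The target of an evaluation is at most one-dimensional on global-to-local images. -/
theorem exists_smul_ev_eq [Fintype (GQ ⧸ G₀)] {S : Finset Nat.Primes} (hp : p ≠ 2)
    (hpS : pPrime p ∈ S) (hG : IsOpenLvl lvlQ G₀) (g : GQ)
    (c c' : H2c (lvlLoc q) (locRep p q G₀)) (hc : ev p q G₀ g c ≠ 0) :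
    ∃ t : ZMod p, ev p q G₀ g (c' - t • c) = 0 := by
  have hρ : Smooth (lvlLoc q) (muLoc p q) := smooth_muLoc_lvlLoc p hpS
  have key : ∀ d : H2c (lvlLoc q) (locRep p q G₀), ∃ d₀ : H2c (lvlLoc q) (locRep p q G₀),
      ev p q G₀ g (d - d₀) = 0 ∧ ∀ g', ¬ InOrbit q G₀ g g' → ev p q G₀ g' d₀ = 0 := by
    intro d
    obtain ⟨e₀, h1, h2⟩ := exists_eval2_eq (lvlLoc q) (muLoc p q) hρ (isOpenLvl_stabilizer hG)
      (g : GQ ⧸ G₀) (eval2 (muLoc p q) (lvlLoc q) (g : GQ ⧸ G₀) (toLoc p q G₀ d))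
    obtain ⟨d₀, rfl⟩ := (toLoc p q G₀).surjective e₀
    refine ⟨d₀, (eval2_eq_zero_iff p g _).1 ?_, fun g' hg' => (eval2_eq_zero_iff p g' _).1
      (h2 _ fun ⟨τ, hτ⟩ => hg' ⟨τ, ?_⟩)⟩
    · rw [map_sub, map_sub, h1, sub_self]
    · have e : τ • (g : GQ ⧸ G₀) = g' := hτ
      rw [locAction_smul, MulAction.Quotient.smul_coe, smul_eq_mul, QuotientGroup.eq] at e
      simpa [mul_assoc] using G₀.inv_mem e
  obtain ⟨c₀, hc₀, hc₀s⟩ := key c
  obtain ⟨c₀', hc₀', hc₀s'⟩ := key c'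
  have hne : (sumC p q G₀) c₀ ≠ 0 := fun h0 => hc (by
    rw [eq_zero_of_support p hp hG g c₀ hc₀s h0, sub_zero] at hc₀
    exact hc₀)
  obtain ⟨t, ht⟩ := exists_smul_eq_of_finrank_eq_one (finrank_H2_muLoc p q hp) hne ((sumC p q G₀) c₀')
  have h0 : c₀' - t • c₀ = 0 := by
    refine eq_zero_of_support p hp hG g _ (fun g' hg' => ?_) ?_
    · rw [map_sub, map_smul, hc₀s' g' hg', hc₀s g' hg', smul_zero, sub_zero]
    · show (sumC p q G₀) (c₀' - t • c₀) = 0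
      rw [map_sub, map_smul, ht, sub_self]
  refine ⟨t, ?_⟩
  have e : c' - t • c = (c' - c₀') - t • (c - c₀) + (c₀' - t • c₀) := by
    rw [smul_sub]; abel
  rw [e, h0, add_zero, map_sub, map_smul, hc₀', hc₀, smul_zero, sub_zero]

end FLTA.PT.GC

end
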