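import Fermat.Agent.PoitouTate.NormAux

/-!
# The second inequality
-/

set_option autoImplicit false

open ExtCitation

noncomputable section

namespace FLTA.PT.NT

variable {p : ℕ} [hp : Fact p.Prime] {G₁ G₀ : Subgroup GQ}

/-- The local degrees over a prime add up to the degree. -/
theorem sum_index_stab {G : Subgroup GQ} (hG : IsOpenLvl lvlQ G) (q : Nat.Primes)
    [Fintype (PlacesAt q G)] :
    ∑ o : PlacesAt q G, (stabLoc q G (Pl.rep (⟨q, o⟩ : Pl G))).index = G.index := by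
  classical
  haveI := finiteIndex_of_isOpenLvl hG
  let rep : PlacesAt q G → GQ := fun o => Pl.rep (⟨q, o⟩ : Pl G)
  let Φ : (Σ o : PlacesAt q G, Gl q ⧸ stabLoc q G (rep o)) → GQ ⧸ G := fun x =>
    Quotient.liftOn' x.2 (fun τ => QuotientGroup.mk (loc q τ * rep x.1)) (fun τ τ' h => by
      rw [QuotientGroup.leftRel_apply, mem_stabLoc] at h
      refine QuotientGroup.eq.2 ?_
      simpa [mul_assoc] using h)
  have hinj : Function.Injective Φ := by
    rintro ⟨o, x⟩ ⟨o', x'⟩ h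
    induction x using QuotientGroup.induction_on with | _ τ => ?_
    induction x' using QuotientGroup.induction_on with | _ τ' => ?_
    have h' : (loc q τ * rep o)⁻¹ * (loc q τ' * rep o') ∈ G := QuotientGroup.eq.1 h
    have ho : plOf G q (rep o) = plOf G q (rep o') :=
      plOf_eq_iff.2 ⟨τ⁻¹ * τ', by simpa [mul_assoc] using h'⟩
    rw [show plOf G q (rep o) = ⟨q, o⟩ from plOf_rep (⟨q, o⟩ : Pl G),
      show plOf G q (rep o') = ⟨q, o'⟩ from plOf_rep (⟨q, o'⟩ : Pl G)] at ho
    obtain rfl : o = o' := eq_of_heq (Sigma.mk.inj ho).2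
    refine Sigma.ext rfl (heq_of_eq ?_)
    show (QuotientGroup.mk τ : Gl q ⧸ stabLoc q G (rep o)) = QuotientGroup.mk τ'
    rw [QuotientGroup.eq, mem_stabLoc]
    simpa [mul_assoc] using h'
  have hsurj : Function.Surjective Φ := by
    intro y
    induction y using QuotientGroup.induction_on with | _ g => ?_
    obtain ⟨τ, h, hh, e⟩ := rep_plOf (G₀ := G) q g
    refine ⟨⟨(plOf G q g).2, QuotientGroup.mk τ⟩, QuotientGroup.eq.2 ?_⟩
    have e' : rep (plOf G q g).2 = (plOf G q g).rep := rfl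
    rw [e']
    generalize (plOf G q g).rep = P at e ⊢
    subst e
    simpa [mul_assoc] using hh
  haveI hfin : ∀ o : PlacesAt q G, Finite (Gl q ⧸ stabLoc q G (rep o)) := fun o =>
    Finite.of_injective (fun x => Φ ⟨o, x⟩) (hinj.comp sigma_mk_injective)
  have := Nat.card_eq_of_bijective Φ ⟨hinj, hsurj⟩
  rw [Nat.card_sigma] at this
  exact this

/-- `|∏_{v ∈ T} K_v^*/p| = p ^ (2 #T + [K:ℚ])` when `T` contains the places over `p`. -/
theorem card_pi_locMod (hG : IsOpenLvl lvlQ G₀) (hμ : ∀ s ∈ G₀, cycloChar p s = 1)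
    {T : Finset (Pl G₀)} (hpT : ∀ v : Pl G₀, (v.1 : ℕ) = p → v ∈ T) :
    Nat.card (∀ v : T, LocMod p v.1) = p ^ (2 * T.card + G₀.index) := by
  classical
  haveI := finite_placesAt hG (pPrime p)
  haveI := Fintype.ofFinite (PlacesAt (pPrime p) G₀)
  have hcard : ∀ v : T, Nat.card (LocMod p v.1) =
      p ^ (2 + if (v.1.1 : ℕ) = p then v.1.stab.index else 0) := fun v =>
    card_fixed_quot_pow v.1.1 p v.1.stab (isOpenLvl_stabLoc hG _ _)
      (fun s hs => cycloChar_loc hμ hs)
  rw [Nat.card_pi, Finset.prod_congr rfl fun v _ => hcard v, Finset.prod_pow_eq_pow_sum,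
    Finset.sum_coe_sort T (fun v : Pl G₀ => 2 + if (v.1 : ℕ) = p then v.stab.index else 0),
    Finset.sum_add_distrib, Finset.sum_const, smul_eq_mul, mul_comm T.card 2, ← Finset.sum_filter]
  have himg : (T.filter fun v : Pl G₀ => (v.1 : ℕ) = p) =
      Finset.univ.map ⟨fun o => (⟨pPrime p, o⟩ : Pl G₀), fun a b h => eq_of_heq (Sigma.mk.inj h).2⟩ := by
    ext v
    simp only [Finset.mem_filter, Finset.mem_map, Finset.mem_univ, true_and]
    constructor
    · rintro ⟨-, hv⟩
      obtain ⟨q, o⟩ := v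
      obtain rfl : q = pPrime p := Subtype.ext hv
      exact ⟨o, rfl⟩
    · rintro ⟨o, rfl⟩
      exact ⟨hpT _ rfl, rfl⟩
  rw [himg, Finset.sum_map, ← sum_index_stab hG (pPrime p)]
  rfl

/-- The map `T'`-units to `∏_{v ∈ T} K_v^*/p`. -/
def locModPi (p : ℕ) [Fact p.Prime] (T T' : Finset (Pl G₀)) :
    tUnits G₀ T' →+ (∀ v : T, LocMod p v.1) :=
  AddMonoidHom.mk' (fun e v => locModMap p T' v.1 e) (fun e f => funext fun v => map_add _ e f)

/-- With auxiliary places, a `T'`-unit which is locally a `p`-th power at `T` is a `p`-th power. -/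
theorem ker_locModPi (hp2 : p ≠ 2) [DecidableEq (Pl G₀)] (hC : CycStep p G₁ G₀)
    {T U : Finset (Pl G₀)} (hT : GoodT hC T) (hUT : ∀ v ∈ U, v ∉ T)
    (hU : ∀ d : ∀ v : Pl G₀, Ml v.1,
        (∀ v ∈ U, d v ∈ fixedBy (unitsRepLoc v.1) v.stab ∧ absv v.1 (d v) = 1) →
        ∃ e ∈ tUnits G₀ T, ∀ v ∈ U, ∃ b ∈ fixedBy (unitsRepLoc v.1) v.stab,
          v.at e = d v + p • b) :
    (locModPi p T (T ∪ U)).ker ≤
      (nsmulAddMonoidHom p : tUnits G₀ (T ∪ U) →+ tUnits G₀ (T ∪ U)).range := by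
  classical
  intro x hx
  obtain ⟨R, hR⟩ := exists_nsmul_eq p (x : Mq)
  by_cases hR0 : R ∈ fixedBy unitsRep G₀
  · refine ⟨⟨R, hR0, fun v hv => ?_⟩, Subtype.ext hR⟩
    have h1 := x.2.2 v hv
    have e1 : v.at (x : Mq) = p • v.at R := by
      rw [← hR]; unfold Pl.at atPlace; rw [map_nsmul, map_nsmul]
    rw [Pl.abs, e1, absv_nsmul] at h1
    exact (pow_left_inj₀ (absv_pos _).le zero_le_one hp.out.ne_zero).1 (by rw [one_pow]; exact h1)
  exfalso
  have hxR : p • R ∈ fixedBy unitsRep G₀ := by rw [hR]; exact x.2.1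
  obtain ⟨G', hC', hmem, -⟩ := exists_cycStep_of_root hC.open₀ hC.mu hxR hR0
  obtain ⟨T'', hsub, hT''⟩ := exists_goodT hC' (T ∪ U)
  refine hC'.not_surjective_normResidue hp2 hT'' fun c => ?_
  choose d hd using fun v : T'' => Submodule.Quotient.mk_surjective _ (c v)
  let c' : ∀ v : Pl G₀, Ml v.1 := fun v => if hv : v ∈ T'' then (d ⟨v, hv⟩ : Ml v.1) else 0
  have hc' : ∀ v, c' v ∈ fixedBy (unitsRepLoc v.1) v.stab := fun v => by
    simp only [c']; split_ifs with hv
    · exact (d ⟨v, hv⟩).2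
    · exact zero_mem _
  have hfin : Set.Finite {v : Pl G₀ | absv v.1 (c' v) ≠ 1} := by
    refine T''.finite_toSet.subset fun v hv => ?_
    by_contra h
    exact hv (by simp only [c', dif_neg (show v ∉ T'' from h)]; exact absv_zero _)
  obtain ⟨y, hy, hya⟩ := hT.class₀ c' hc' hfin
  have hunit : ∀ v, v ∉ T → absv v.1 (c' v - v.at y) = 1 := fun v hv => by
    rw [absv_sub, show absv v.1 (v.at y) = _ from hya v hv, div_self (absv_pos _).ne']
  obtain ⟨e, he, heU⟩ := hU (fun v => c' v - v.at y) fun v hv =>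
    ⟨sub_mem (hc' v) (atPlace_mem_fixedBy hy), hunit v (hUT v hv)⟩
  have hadd : ∀ v : Pl G₀, v.at (y + e) = v.at y + v.at e := fun v => atPlace_add _ _ _ _
  have hmem'' : y + e ∈ tUnits G₀ T'' := ⟨add_mem hy he.1, fun v hv => by
    have hvT : v ∉ T := fun h => hv (hsub (Finset.mem_union_left _ h))
    rw [Pl.abs, hadd, absv_add, show absv v.1 (v.at y) = _ from hya v hvT,
      show absv v.1 (v.at e) = 1 from he.2 v hvT, mul_one]
    simp only [c', dif_neg hv]
    exact absv_zero _⟩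
  refine ⟨⟨y + e, hmem''⟩, funext fun v => ?_⟩
  rw [← hd v]
  refine (Submodule.Quotient.eq _).2 ?_
  show v.1.at (y + e) - (d v : Ml v.1.1) ∈
    normsFrom (unitsRepLoc v.1.1) (stabLoc v.1.1 G' v.1.rep) v.1.stab
  have hdc : (d v : Ml v.1.1) = c' v.1 := by simp only [c', dif_pos v.2]
  have hfix : v.1.at (y + e) - c' v.1 ∈ fixedBy (unitsRepLoc v.1.1) v.1.stab :=
    sub_mem (atPlace_mem_fixedBy (add_mem hy he.1)) (hc' _)
  rw [hdc]
  by_cases hvT : v.1 ∈ T
  · have hsplit : ¬ NonSplit G' v.1 := by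
      have h0 : locModMap p (T ∪ U) v.1 x = Submodule.Quotient.mk 0 :=
        congrFun (show locModPi p T (T ∪ U) x = 0 from hx) ⟨v.1, hvT⟩
      obtain ⟨b, hb, hb'⟩ := (locMod_mk_eq_iff _ _).1 h0
      simp only [ZeroMemClass.coe_zero, zero_add] at hb'
      refine not_not.2 (le_antisymm (hC'.stab_le _ _) (stab_le_of_root hC.mu hmem hb ?_))
      rw [hR]; exact hb'
    rw [hC'.normsFrom_eq_top_of_split hsplit]
    exact hfix
  by_cases hvU : v.1 ∈ U
  · obtain ⟨b, hb, hb'⟩ := heU v.1 hvU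
    rw [hadd, hb', show v.1.at y + (c' v.1 - v.1.at y + p • b) - c' v.1 = p • b by abel]
    exact hC'.nsmul_mem_local v.1 hb
  · by_cases hns : NonSplit G' v.1
    · haveI := hC'.stab_normal v.1.1 v.1.rep
      have hvp : (v.1.1 : ℕ) ≠ p := fun h => hvT (hT.pmem v.1 h)
      refine mem_normsFrom_of_absv_eq_one (hC'.open_stab _ _) (hC'.stab_le _ _) ?_ hfix ?_
      · refine inertia_le_of_root hC.mu hmem hxR hvp ?_
        rw [hR]
        exact x.2.2 v.1 (by simp [hvT, hvU])
      · rw [absv_sub, hadd, absv_add, show absv v.1.1 (v.1.at y) = _ from hya v.1 hvT,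
          show absv v.1.1 (v.1.at e) = 1 from he.2 v.1 hvT, mul_one, div_self (absv_pos _).ne']
    · rw [hC'.normsFrom_eq_top_of_split hns]
      exact hfix

/-- Second inequality. -/
theorem index_range_normResidue_dvd (hp2 : p ≠ 2) (hC : CycStep p G₁ G₀) {T : Finset (Pl G₀)}
    (hT : GoodT hC T) : (normResidue G₁ T).range.index ∣ p := by
  classical
  obtain ⟨U, hUcard, hUT, hU⟩ := exists_aux_places hp2 hC hT
  set ψ := locModPi p T (T ∪ U) with hψ
  have hker : ψ.ker = (nsmulAddMonoidHom p : tUnits G₀ (T ∪ U) →+ tUnits G₀ (T ∪ U)).range := by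
    refine le_antisymm (ker_locModPi hp2 hC hT (fun v hv => (hUT v hv).1) hU) ?_
    rintro _ ⟨x, rfl⟩
    refine funext fun v => (Submodule.Quotient.mk_eq_zero _).2
      ⟨⟨v.1.at x.1, atPlace_mem_fixedBy x.2.1⟩, Subtype.ext ?_⟩
    simp only [LinearMap.smul_apply, LinearMap.id_apply, SetLike.val_smul, natCast_zsmul,
      nsmulAddMonoidHom_apply]
    unfold Pl.at atPlace
    have e : ((p • x : tUnits G₀ (T ∪ U)) : Mq) = p • (x : Mq) := rfl
    rw [e, map_nsmul, map_nsmul]
    rfl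
  have hrange : Nat.card ψ.range = p ^ (Module.finrank ℤ (tUnits G₀ (T ∪ U)) + 1) := by
    rw [← AddSubgroup.index_ker, hker, index_nsmul_tUnits hC.open₀ hC.mu]
  have rk := finrank_tUnits G₀ p hp2 hC.open₀ hC.mu T
  have rk' := finrank_tUnits G₀ p hp2 hC.open₀ hC.mu (T ∪ U)
  rw [Finset.card_union_of_disjoint (Finset.disjoint_right.2 fun v hv => (hUT v hv).1), hUcard]
    at rk'
  have hidx : ψ.range.index = p := by
    have h := ψ.range.card_mul_index
    rw [hrange, card_pi_locMod hC.open₀ hC.mu hT.pmem,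
      show 2 * T.card + G₀.index = (Module.finrank ℤ (tUnits G₀ (T ∪ U)) + 1) + 1 by omega,
      pow_succ p (Module.finrank ℤ (tUnits G₀ (T ∪ U)) + 1)] at h
    exact Nat.eq_of_mul_eq_mul_left (pow_pos hp.out.pos _) h
  let π : (∀ v : T, LocMod p v.1) →+ (∀ v : T, NormQuot G₁ v.1) :=
    AddMonoidHom.mk' (fun c v => Submodule.mapQ _ _ LinearMap.id (by
      rintro z ⟨b, rfl⟩
      show ((((p : ℤ) • LinearMap.id : fixedBy (unitsRepLoc v.1.1) v.1.stab →ₗ[ℤ]
        fixedBy (unitsRepLoc v.1.1) v.1.stab) b : fixedBy (unitsRepLoc v.1.1) v.1.stab) : Ml v.1.1) ∈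
        normsFrom (unitsRepLoc v.1.1) (stabLoc v.1.1 G₁ v.1.rep) v.1.stab
      simp only [LinearMap.smul_apply, LinearMap.id_apply, SetLike.val_smul, natCast_zsmul]
      exact hC.nsmul_mem_local v.1 b.2) (c v))
      (fun a b => funext fun v => map_add _ _ _)
  have hπ : Function.Surjective π := by
    intro c
    choose d hd using fun v : T => Submodule.Quotient.mk_surjective _ (c v)
    exact ⟨fun v => Submodule.Quotient.mk (d v), funext fun v => hd v⟩
  rw [← hidx]
  refine dvd_trans (AddSubgroup.index_dvd_of_le ?_) (ψ.range.index_map_dvd hπ)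
  rintro _ ⟨_, ⟨x, rfl⟩, rfl⟩
  obtain ⟨e, he, y, hy, hxe⟩ := hC.exists_tUnit_add_norm hT x.2.1 (fun v hv hns => by
    refine ⟨0, zero_mem _, ?_⟩
    rw [x.2.2 v (Finset.notMem_union.2 ⟨hv, fun h => (hUT v h).2 hns⟩), absv_zero, one_pow])
  exact ⟨⟨e, he⟩, funext fun v => hC.normResidue_eq_of_norm ⟨e, he⟩ x.2.1 hy hxe v⟩

/-- The norm-residue map has index `p`. -/
theorem index_range_normResidue (hp2 : p ≠ 2) (hC : CycStep p G₁ G₀) {T : Finset (Pl G₀)}
    (hT : GoodT hC T) : (normResidue G₁ T).range.index = p := by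
  refine (hp.out.eq_one_or_self_of_dvd _ (index_range_normResidue_dvd hp2 hC hT)).resolve_left ?_
  intro h
  exact hC.not_surjective_normResidue hp2 hT
    (AddMonoidHom.range_eq_top.1 (AddSubgroup.index_eq_one.1 h))

/-- The kernel of the norm-residue map consists of norms. -/
theorem ker_normResidue (hp2 : p ≠ 2) (hC : CycStep p G₁ G₀) {T : Finset (Pl G₀)}
    (hT : GoodT hC T) :
    (normResidue G₁ T).ker = (normTUnits hC T).addSubgroupOf (tUnits G₀ T) := by
  classical
  set N := (normTUnits hC T).addSubgroupOf (tUnits G₀ T) with hN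
  have h1 : N.index * p = p ^ (T.filter (NonSplit G₁)).card := relIndex_normTUnits hp2 hC hT
  have h2 : (normResidue G₁ T).ker.index * p = p ^ (T.filter (NonSplit G₁)).card := by
    have h := (normResidue G₁ T).range.card_mul_index
    rw [index_range_normResidue hp2 hC hT, hC.card_pi_normQuot] at h
    rw [AddSubgroup.index_ker]
    exact h
  have h3 : N.index = (normResidue G₁ T).ker.index :=
    Nat.eq_of_mul_eq_mul_right hp.out.pos (h1.trans h2.symm)
  refine le_antisymm ?_ hC.normTUnits_le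
  rw [← AddSubgroup.relIndex_eq_one]
  have h5 := AddSubgroup.relIndex_mul_index (hC.normTUnits_le (T := T))
  rw [← hN, h3] at h5
  refine Nat.eq_of_mul_eq_mul_right (Nat.pos_of_ne_zero ?_) (h5.trans (one_mul _).symm)
  intro h0
  rw [h0, zero_mul] at h2
  exact pow_ne_zero _ hp.out.ne_zero h2.symm

end FLTA.PT.NT

end
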