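import Fermat.Agent.PoitouTate.Places
import Fermat.Agent.PoitouTate.LocalUnits
import Fermat.Agent.PoitouTate.NormSecond

/-!
# The Hasse norm theorem for cyclic extensions of degree `p` of fields containing `μ_p`
-/

set_option autoImplicit false

open ExtCitation

noncomputable section

namespace FLTA.PT

/-- `a` is a local norm from the fixed field of `G₁` at the place `(q, g)` of that of `G₀`. -/
def IsLocalNormAt (G₁ G₀ : Subgroup GQ) (q : Nat.Primes) (g : GQ) (a : Mq) : Prop :=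
  atPlace q g a ∈ normsFrom (unitsRepLoc q) (stabLoc q G₁ g) (stabLoc q G₀ g)

namespace NT

section conj

variable {Γ : Type*} [Group Γ] {k : Type*} [CommRing k] {V : Type*} [AddCommGroup V] [Module k V]
  (ρ : Representation k Γ V)

/-- Norms are compatible with conjugation. -/
theorem apply_mem_normsFrom_of_conj {H D H' D' : Subgroup Γ} (τ : Γ)
    (hH : ∀ s, s ∈ H' ↔ τ⁻¹ * s * τ ∈ H) (hD : ∀ s, s ∈ D' ↔ τ⁻¹ * s * τ ∈ D) {x : V}
    (hx : x ∈ normsFrom ρ H D) : ρ τ x ∈ normsFrom ρ H' D' := by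
  obtain ⟨w, hw, rfl⟩ := hx
  have hw' : ρ τ w ∈ fixedBy ρ H' := fun s hs => by
    rw [← Module.End.mul_apply, ← map_mul, show s * τ = τ * (τ⁻¹ * s * τ) by simp [mul_assoc],
      map_mul, Module.End.mul_apply, hw _ ((hH s).1 hs)]
  by_cases hf : Finite (D ⧸ H.subgroupOf D)
  · classical
    haveI := Fintype.ofFinite (D ⧸ H.subgroupOf D)
    refine ⟨ρ τ w, hw', ?_⟩
    let e : (D ⧸ H.subgroupOf D) → D' := fun x => ⟨τ * (x.out : Γ) * τ⁻¹, (hD _).2 (by
      simp [mul_assoc])⟩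
    have he : Function.Bijective fun x => (e x : D' ⧸ H'.subgroupOf D') := by
      constructor
      · intro x y hxy
        have h := QuotientGroup.eq.1 hxy
        rw [Subgroup.mem_subgroupOf] at h
        have h2 := (hH _).1 h
        rw [← QuotientGroup.out_eq' x, ← QuotientGroup.out_eq' y, QuotientGroup.eq,
          Subgroup.mem_subgroupOf]
        simpa [e, mul_assoc] using h2
      · intro y
        induction y using QuotientGroup.induction_on with | _ s => ?_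
        obtain ⟨u, hu⟩ := QuotientGroup.mk_out_eq_mul (H.subgroupOf D)
          (⟨τ⁻¹ * s * τ, (hD _).1 s.2⟩ : D)
        refine ⟨QuotientGroup.mk ⟨τ⁻¹ * s * τ, (hD _).1 s.2⟩, ?_⟩
        rw [QuotientGroup.eq, Subgroup.mem_subgroupOf, hH]
        have hu1 := Subgroup.inv_mem _ (Subgroup.mem_subgroupOf.1 u.2)
        set z := (QuotientGroup.mk (⟨τ⁻¹ * s * τ, (hD _).1 s.2⟩ : D) : D ⧸ H.subgroupOf D) with hz
        have hu2 : ((z.out : D) : Γ) = τ⁻¹ * s * τ * ((u : D) : Γ) := congrArg Subtype.val hu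
        show τ⁻¹ * ((τ * ((z.out : D) : Γ) * τ⁻¹)⁻¹ * (s : Γ)) * τ ∈ H
        rw [hu2]
        simpa [mul_assoc] using hu1
    rw [relNorm_eq_sum ρ e he hw', relNorm_apply ρ w, map_sum]
    refine Finset.sum_congr rfl fun x _ => ?_
    rw [← Module.End.mul_apply, ← map_mul, ← Module.End.mul_apply, ← map_mul]
    simp [e]
  · have h0 : relNorm ρ H D w = 0 := by rw [relNorm, dif_neg hf]; rfl
    rw [h0, map_zero]
    exact zero_mem _

end conj

variable (p : ℕ) [Fact p.Prime]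

/-- `a` is a local norm at the place `v`. -/
def LocNorm (G₁ : Subgroup GQ) {G₀ : Subgroup GQ} (v : Pl G₀) (a : Mq) : Prop :=
  v.at a ∈ normsFrom (unitsRepLoc v.1) (stabLoc v.1 G₁ v.rep) v.stab

theorem isLocalNormAt_iff_plOf {G₁ G₀ : Subgroup GQ} (hC : CycStep p G₁ G₀) (q : Nat.Primes)
    (g : GQ) {a : Mq} (ha : a ∈ fixedBy unitsRep G₀) :
    IsLocalNormAt G₁ G₀ q g a ↔ LocNorm G₁ (plOf G₀ q g) a := by
  obtain ⟨τ, h, hh, e⟩ := rep_plOf (G₀ := G₀) q g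
  set P := (plOf G₀ q g).rep with hP
  have h0 : ∀ x, h⁻¹ * x * h ∈ G₀ ↔ x ∈ G₀ := fun x =>
    ⟨fun hx => by simpa [mul_assoc] using mul_mem (mul_mem hh hx) (G₀.inv_mem hh),
      fun hx => mul_mem (mul_mem (G₀.inv_mem hh) hx) hh⟩
  have hs₁ : ∀ s, s ∈ stabLoc q G₁ g ↔ τ⁻¹ * s * τ ∈ stabLoc q G₁ P := fun s => by
    rw [e]; exact mem_stabLoc_translate τ s P (fun x => hC.conj_iff hh x)
  have hs₀ : ∀ s, s ∈ stabLoc q G₀ g ↔ τ⁻¹ * s * τ ∈ stabLoc q G₀ P := fun s => by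
    rw [e]; exact mem_stabLoc_translate τ s P h0
  have hat : atPlace q g a = unitsRepLoc q τ (atPlace q P a) := by
    rw [e]; exact atPlace_translate τ P hh ha
  show atPlace q g a ∈ _ ↔ atPlace q P a ∈
    normsFrom (unitsRepLoc q) (stabLoc q G₁ P) (stabLoc q G₀ P)
  rw [hat]
  constructor
  · intro hx
    have h1 := apply_mem_normsFrom_of_conj (unitsRepLoc q) (H' := stabLoc q G₁ P)
      (D' := stabLoc q G₀ P) τ⁻¹
      (fun s => by rw [hs₁]; simp [mul_assoc]) (fun s => by rw [hs₀]; simp [mul_assoc]) hx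
    rwa [← Module.End.mul_apply, ← map_mul, inv_mul_cancel, map_one, Module.End.one_apply] at h1
  · exact apply_mem_normsFrom_of_conj (unitsRepLoc q) τ hs₁ hs₀

end NT

open NT

variable (p : ℕ) [Fact p.Prime]

/-- Hasse norm theorem. -/
theorem mem_normsFrom_of_forall_isLocalNormAt (hp : p ≠ 2) (G₁ G₀ : Subgroup GQ)
    (hG : IsOpenLvl lvlQ G₁) (hle : G₁ ≤ G₀) [(G₁.subgroupOf G₀).Normal]
    (hidx : G₁.relIndex G₀ = p) (hμ : ∀ s ∈ G₀, cycloChar p s = 1) (a : Mq)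
    (ha : a ∈ fixedBy unitsRep G₀) (h : ∀ q g, IsLocalNormAt G₁ G₀ q g a) :
    a ∈ normsFrom unitsRep G₁ G₀ := by
  have hC : CycStep p G₁ G₀ := ⟨hG, hle, inferInstance, hidx, hμ⟩
  obtain ⟨T, hsub, hT⟩ := exists_goodT hC (finite_setOf_abs_ne_one G₀ hC.open₀ a ha).toFinset
  have haT : a ∈ tUnits G₀ T := ⟨ha, fun v hv => by
    by_contra h1
    exact hv (hsub ((Set.Finite.mem_toFinset _).2 h1))⟩
  have hker : (⟨a, haT⟩ : tUnits G₀ T) ∈ (normResidue G₁ T).ker :=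
    funext fun v => (normQuot_mk_eq_zero _).2 (by
      have h1 := (isLocalNormAt_iff_plOf p hC v.1.1 v.1.rep ha).1 (h v.1.1 v.1.rep)
      rw [plOf_rep] at h1
      exact h1)
  rw [ker_normResidue hp hC hT] at hker
  obtain ⟨y, hy, hye⟩ := hker
  exact ⟨y, hy.1, hye⟩

/-- Existence of elements which fail to be local norms at one of two prescribed non-split places
and are local norms elsewhere (the cokernel of the norm-residue map has order at most `p`). -/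
theorem exists_not_isLocalNormAt_two (hp : p ≠ 2) (G₁ G₀ : Subgroup GQ)
    (hG : IsOpenLvl lvlQ G₁) (hle : G₁ ≤ G₀) [(G₁.subgroupOf G₀).Normal]
    (hidx : G₁.relIndex G₀ = p) (hμ : ∀ s ∈ G₀, cycloChar p s = 1)
    (q₁ q₂ : Nat.Primes) (g₁ g₂ : GQ)
    (hne : q₁ ≠ q₂ ∨ ∀ τ : Gl q₁, ¬ (g₂⁻¹ * loc q₁ τ * g₁ ∈ G₀))
    (h₁ : stabLoc q₁ G₁ g₁ ≠ stabLoc q₁ G₀ g₁) (h₂ : stabLoc q₂ G₁ g₂ ≠ stabLoc q₂ G₀ g₂) :
    ∃ a ∈ fixedBy unitsRep G₀,
      (¬ IsLocalNormAt G₁ G₀ q₁ g₁ a ∨ ¬ IsLocalNormAt G₁ G₀ q₂ g₂ a) ∧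
      ∀ q g, (q ≠ q₁ ∨ ∀ τ : Gl q, ¬ (g⁻¹ * loc q τ * g₁ ∈ G₀)) →
        (q ≠ q₂ ∨ ∀ τ : Gl q, ¬ (g⁻¹ * loc q τ * g₂ ∈ G₀)) → IsLocalNormAt G₁ G₀ q g a := by
  classical
  have hC : CycStep p G₁ G₀ := ⟨hG, hle, inferInstance, hidx, hμ⟩
  have hpp : p.Prime := Fact.out
  set v₁ := plOf G₀ q₁ g₁ with hv₁
  set v₂ := plOf G₀ q₂ g₂ with hv₂
  have hns : ∀ q g, stabLoc q G₁ g ≠ stabLoc q G₀ g → NonSplit G₁ (plOf G₀ q g) := by
    intro q g hne hh
    refine hne (le_antisymm (hC.stab_le q g) fun s hs => ?_)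
    obtain ⟨τ, h, hhm, e⟩ := rep_plOf (G₀ := G₀) q g
    rw [e, mem_stabLoc_translate τ s _ (fun x => hC.conj_iff hhm x)]
    rw [e, mem_stabLoc_translate τ s _ (fun x =>
      ⟨fun hx => by simpa [mul_assoc] using mul_mem (mul_mem hhm hx) (G₀.inv_mem hhm),
        fun hx => mul_mem (mul_mem (G₀.inv_mem hhm) hx) hhm⟩)] at hs
    exact hh.symm ▸ hs
  have hv12 : v₁ ≠ v₂ := by
    intro h
    rcases hne with hq | hq
    · exact hq (congrArg Sigma.fst h)
    · obtain rfl : q₁ = q₂ := congrArg Sigma.fst h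
      obtain ⟨τ, hτ⟩ := plOf_eq_iff.1 h.symm
      exact hq τ hτ
  obtain ⟨T, hsub, hT⟩ := exists_goodT hC {v₁, v₂}
  have h1T : v₁ ∈ T := hsub (by simp)
  have h2T : v₂ ∈ T := hsub (by simp)
  -- families supported on `v₁`, `v₂`
  let H : AddSubgroup (∀ v : T, NormQuot G₁ v.1) :=
    { carrier := {c | ∀ v : T, v.1 ≠ v₁ → v.1 ≠ v₂ → c v = 0}
      zero_mem' := fun v _ _ => rfl
      add_mem' := fun {a b} ha hb v u w => by rw [Pi.add_apply, ha v u w, hb v u w, add_zero]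
      neg_mem' := fun {a} ha v u w => by rw [Pi.neg_apply, ha v u w, neg_zero] }
  have hcardH : p ^ 2 ≤ Nat.card H := by
    haveI : ∀ v : T, Finite (NormQuot G₁ v.1) := fun v => hC.finite_normQuot v.1
    have h12 : (⟨v₁, h1T⟩ : T) ≠ ⟨v₂, h2T⟩ := fun h => hv12 (congrArg Subtype.val h)
    let ι : NormQuot G₁ v₁ × NormQuot G₁ v₂ → H := fun c =>
      ⟨Pi.single (⟨v₁, h1T⟩ : T) c.1 + Pi.single (⟨v₂, h2T⟩ : T) c.2, fun v u w => by
        rw [Pi.add_apply, Pi.single_eq_of_ne (fun h => u (congrArg Subtype.val h)),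
          Pi.single_eq_of_ne (fun h => w (congrArg Subtype.val h)), add_zero]⟩
    have hι : Function.Injective ι := by
      rintro ⟨a, b⟩ ⟨a', b'⟩ h
      have h' := congrArg Subtype.val h
      have ha := congrFun h' ⟨v₁, h1T⟩
      have hb := congrFun h' ⟨v₂, h2T⟩
      simp only [ι, Pi.add_apply, Pi.single_eq_same, Pi.single_eq_of_ne h12, add_zero] at ha
      simp only [ι, Pi.add_apply, Pi.single_eq_same, Pi.single_eq_of_ne h12.symm, zero_add] at hb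
      exact Prod.ext ha hb
    refine le_trans ?_ (Nat.card_le_card_of_injective ι hι)
    rw [Nat.card_prod, hC.card_normQuot, hC.card_normQuot, if_pos (hns q₁ g₁ h₁),
      if_pos (hns q₂ g₂ h₂), sq]
  set W := (normResidue G₁ T).range with hW
  obtain ⟨c, hcW, hcH, hc0⟩ : ∃ c, c ∈ W ∧ c ∈ H ∧ c ≠ 0 := by
    by_contra hcon
    push Not at hcon
    have hbot : W ⊓ H = ⊥ := (AddSubgroup.eq_bot_iff_forall _).2 fun c hc => hcon c hc.1 hc.2
    have hdvd : W.relIndex H ∣ p := by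
      rw [hW]
      exact (AddSubgroup.relIndex_dvd_index_of_normal _ _).trans
        (index_range_normResidue hp hC hT).dvd
    rw [← AddSubgroup.inf_relIndex_right, hbot, AddSubgroup.relIndex_bot_left] at hdvd
    have h3 := Nat.le_of_dvd hpp.pos hdvd
    nlinarith [hpp.two_le]
  obtain ⟨a, rfl⟩ := hcW
  refine ⟨a, a.2.1, ?_, ?_⟩
  · by_contra hcon
    push Not at hcon
    refine hc0 (funext fun v => ?_)
    by_cases hvv₁ : v.1 = v₁
    · obtain ⟨v, hv⟩ := v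
      subst hvv₁
      exact (normQuot_mk_eq_zero _).2 ((isLocalNormAt_iff_plOf p hC q₁ g₁ a.2.1).1 hcon.1)
    by_cases hvv₂ : v.1 = v₂
    · obtain ⟨v, hv⟩ := v
      subst hvv₂
      exact (normQuot_mk_eq_zero _).2 ((isLocalNormAt_iff_plOf p hC q₂ g₂ a.2.1).1 hcon.2)
    exact hcH v hvv₁ hvv₂
  · intro q g hn₁ hn₂
    rw [isLocalNormAt_iff_plOf p hC q g a.2.1]
    have hvall : ∀ v : Pl G₀, v ≠ v₁ → v ≠ v₂ → LocNorm G₁ v (a : Mq) := by
      intro v hw₁ hw₂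
      by_cases hvT : v ∈ T
      · exact (normQuot_mk_eq_zero _).1 (hcH ⟨v, hvT⟩ hw₁ hw₂)
      by_cases hsp : NonSplit G₁ v
      · haveI := hC.stab_normal v.1 v.rep
        exact mem_normsFrom_of_absv_eq_one (hC.open_stab v.1 v.rep) (hC.stab_le v.1 v.rep)
          (hT.unram v hvT) (atPlace_mem_fixedBy a.2.1) (a.2.2 v hvT)
      · show v.at (a : Mq) ∈ normsFrom (unitsRepLoc v.1) (stabLoc v.1 G₁ v.rep) v.stab
        rw [hC.normsFrom_eq_top_of_split hsp]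
        exact atPlace_mem_fixedBy a.2.1
    set v := plOf G₀ q g with hv
    have hne' : ∀ (q' : Nat.Primes) (g' : GQ),
        (q ≠ q' ∨ ∀ τ : Gl q, ¬ (g⁻¹ * loc q τ * g' ∈ G₀)) → v ≠ plOf G₀ q' g' := by
      intro q' g' hor h
      rcases hor with hq | hq
      · exact hq (congrArg Sigma.fst h)
      · obtain rfl : q = q' := congrArg Sigma.fst h
        obtain ⟨τ, hτ⟩ := plOf_eq_iff.1 h
        exact hq τ hτ
    exact hvall v (hne' q₁ g₁ hn₁) (hne' q₂ g₂ hn₂)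

end FLTA.PT

end
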