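import Fermat.Agent.PoitouTate.GlobalClassesLocal
import Fermat.Agent.PoitouTate.GlobalClassesShapiro
import Fermat.Agent.PoitouTate.NormTheorem

/-!
# Global classes supported at two places
-/

set_option autoImplicit false
set_option linter.style.haveILetI false

open ExtCitation

noncomputable section

namespace FLTA.PT.GC

variable {p : ℕ} [Fact p.Prime] {S : Finset Nat.Primes} {U : Subgroup GQ}

theorem inOrbit_of_coe_eq {q : Nat.Primes} {G₀ : Subgroup GQ} {g g' : GQ}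
    (h : (g : GQ ⧸ G₀) = g') : InOrbit q G₀ g g' := by
  refine ⟨1, ?_⟩
  rw [map_one, mul_one]
  exact QuotientGroup.eq.1 h.symm

theorem InOrbit.symm {q : Nat.Primes} {G₀ : Subgroup GQ} {g g' : GQ} (h : InOrbit q G₀ g g') :
    InOrbit q G₀ g' g := by
  obtain ⟨τ, hτ⟩ := h
  exact ⟨τ⁻¹, by simpa [mul_assoc] using G₀.inv_mem hτ⟩

/-- For two different places over `S` there is a global class which is non-trivial at one of them
and trivial at all the other places. -/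
theorem exists_pair_class (hp : p ≠ 2) (hpS : pPrime p ∈ S) (D : Layer p S U) (q₁ q₂ : Nat.Primes)
    (hq₁ : q₁ ∈ S) (hq₂ : q₂ ∈ S) (g₁ g₂ : GQ)
    (hne : ¬ (q₁ = q₂ ∧ InOrbit q₁ D.G₀ g₁ g₂)) :
    ∃ F : H2c (lvlS S) (funRep (muRep p) (GQ ⧸ D.G₀)),
      (ev p q₁ D.G₀ g₁ (locH2 S (funRep (muRep p) (GQ ⧸ D.G₀)) q₁ F) ≠ 0 ∨
        ev p q₂ D.G₀ g₂ (locH2 S (funRep (muRep p) (GQ ⧸ D.G₀)) q₂ F) ≠ 0) ∧
      ∀ q g, ¬ (q = q₁ ∧ InOrbit q D.G₀ g₁ g) → ¬ (q = q₂ ∧ InOrbit q D.G₀ g₂ g) →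
        ev p q D.G₀ g (locH2 S (funRep (muRep p) (GQ ⧸ D.G₀)) q F) = 0 := by
  classical
  haveI : NeZero p := ⟨(Fact.out : p.Prime).ne_zero⟩
  have hker : ∀ s : D.G₀, D.χ s = 1 ↔ (s : GQ) ∈ D.G₁ := fun s => by
    rw [← MonoidHom.mem_ker, D.ker_eq, Subgroup.mem_subgroupOf]
  obtain ⟨σ, hσ⟩ := D.surjective (Multiplicative.ofAdd 1)
  have hσ₁ : (σ : GQ) ∉ D.G₁ := fun h => by
    rw [(hker σ).2 h, eq_comm, ofAdd_eq_one] at hσ
    exact one_ne_zero hσ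
  let C : CycLayer p S :=
    { G₀ := D.G₀, G₁ := D.G₁, mem₀ := D.mem₀, mem₁ := D.mem₁, le₁ := D.le₁
      relIndex := D.relIndex_eq, mem_S := hpS, σ := σ, σ_mem := σ.2, σ_not_mem := hσ₁ }
  have hG₁ : IsOpenLvl lvlQ D.G₁ := isOpenLvl_lvlQ_of_lvlS ⟨_, D.mem₁, le_rfl⟩
  haveI : (D.G₁.subgroupOf D.G₀).Normal := D.ker_eq ▸ MonoidHom.normal_ker _
  obtain ⟨a, ha, hor, hout⟩ := exists_not_isLocalNormAt_two p hp D.G₁ D.G₀ hG₁ D.le₁
    D.relIndex_eq D.cyclo q₁ q₂ g₁ g₂ (by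
      by_cases e : q₁ = q₂
      · exact Or.inr fun τ hτ => hne ⟨e, τ, hτ⟩
      · exact Or.inl e)
    (D.nonsplit q₁ hq₁ g₁) (D.nonsplit q₂ hq₂ g₂)
  obtain ⟨h, W, γ, hh, hW, hW₁, hγ, hcong, hnorm⟩ := C.exists_gamma a ha fun q hq g =>
    hout q g (Or.inl fun e => hq (e ▸ hq₁)) (Or.inl fun e => hq (e ▸ hq₂))
  have hha : h • a ∈ fixedBy unitsRep D.G₀ := Submodule.smul_of_tower_mem _ h ha
  obtain ⟨z, η, hz, hη, hzη⟩ := exists_cocycle C D.χ hker hσ hW hW₁ hha hγ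
    (fun s hs => mem_sUnits_sub fun q hq g => hcong q hq g s hs)
    (mem_sUnits_sub fun q hq g => hnorm q hq g)
  have hηQ : IsConst₁ (lvlQ.comap D.G₀.subtype) η := by
    obtain ⟨_, ⟨V, hV, rfl⟩, hVη⟩ := hη
    exact ⟨_, ⟨V, by simpa using lvlS_le_lvlQ S V hV, rfl⟩, hVη⟩
  have hloc : ∀ q g, pp2 (placeHom q D.G₀ g) (LinearMap.id : ZMod p →ₗ[ZMod p] ZMod p) z ∈
        B2 ((lvlLoc q).comap (stabLoc q D.G₀ g).subtype)
          ((muLoc p q).comp (stabLoc q D.G₀ g).subtype) ↔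
      IsLocalNormAt D.G₁ D.G₀ q g a := fun q g =>
    (mem_B2_place_iff D.le₁ D.χ hker q g hG₁ hha z η hηQ hzη).trans
      (isLocalNormAt_nsmul_iff D.le₁ D.χ hker q g ha hh)
  -- lift to the induced module
  haveI := (lvlS S).finiteIndex_of_mem D.G₀ D.mem₀
  have hn := (lvlS S).normal_of_mem D.G₀ D.mem₀
  have hpt : IsPoint D.G₀.subtype ((1 : GQ) : GQ ⧸ D.G₀) :=
    { inj := D.G₀.subtype_injective
      fix := fun s => by
        rw [MulAction.Quotient.smul_coe, eq_comm, QuotientGroup.eq]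
        simp
      surj := fun g hg => by
        rw [MulAction.Quotient.smul_coe, eq_comm, QuotientGroup.eq] at hg
        exact ⟨⟨g, by simpa using hg⟩, rfl⟩ }
  have hX : ∀ x : GQ ⧸ D.G₀, IsOpenLvl (lvlS S) (MulAction.stabilizer GQ x) := fun x => by
    refine ⟨D.G₀, D.mem₀, fun s hs => ?_⟩
    induction x using QuotientGroup.induction_on with | _ g => ?_
    rw [MulAction.mem_stabilizer_iff, MulAction.Quotient.smul_coe, eq_comm, QuotientGroup.eq,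
      smul_eq_mul, ← mul_assoc]
    exact hn.conj_mem' s hs g
  obtain ⟨F, hF, hdiff⟩ := hpt.exists_eval2 hX (smooth_muRep_lvlS p hpS) hz
  have hev : ∀ q g, ev p q D.G₀ g (locH2 S (funRep (muRep p) (GQ ⧸ D.G₀)) q
      (H2cπ (lvlS S) (funRep (muRep p) (GQ ⧸ D.G₀)) ⟨F, hF⟩)) = 0 ↔
      IsLocalNormAt D.G₁ D.G₀ q g a := by
    intro q g
    rw [ev_locH2_eq_zero_iff, ← hloc]
    have hL : LvlLE ((lvlS S).comap D.G₀.subtype) ((lvlLoc q).comap (stabLoc q D.G₀ g).subtype)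
        (placeHom q D.G₀ g) := by
      rintro V' ⟨V, hV, rfl⟩
      refine ⟨V.comap (loc q), lvlS_le_lvlLoc S q V hV, ?_⟩
      ext τ
      have hVn := (lvlS S).normal_of_mem V hV
      show loc q (τ : Gl q) ∈ V ↔ g⁻¹ * loc q (τ : Gl q) * g ∈ V
      exact ⟨fun ht => hVn.conj_mem' _ ht g, fun ht => by
        simpa [mul_assoc] using hVn.conj_mem _ ht g⟩
    have hφ : Equivariant ((muRep p).comp D.G₀.subtype)
        ((muLoc p q).comp (stabLoc q D.G₀ g).subtype) (placeHom q D.G₀ g)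
        (LinearMap.id : ZMod p →ₗ[ZMod p] ZMod p) := fun τ v => by
      show (cycloChar p (g⁻¹ * loc q (τ : Gl q) * g) : ZMod p) * v =
        (cycloChar p (loc q (τ : Gl q)) : ZMod p) * v
      rw [map_mul, map_mul, map_inv, mul_comm (cycloChar p g)⁻¹, inv_mul_cancel_right]
    have hd := pp2_mem_B2 hL hφ hdiff
    rw [map_sub] at hd
    exact ⟨fun h1 => by simpa using sub_mem h1 hd, fun h1 => by simpa using add_mem hd h1⟩
  refine ⟨H2cπ (lvlS S) (funRep (muRep p) (GQ ⧸ D.G₀)) ⟨F, hF⟩,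
    hor.imp (fun h1 e => h1 ((hev q₁ g₁).1 e)) (fun h1 e => h1 ((hev q₂ g₂).1 e)),
    fun q g h1 h2 => (hev q g).2 (hout q g ?_ ?_)⟩
  · by_cases e : q = q₁
    · exact Or.inr fun τ hτ => h1 ⟨e, τ, hτ⟩
    · exact Or.inl e
  · by_cases e : q = q₂
    · exact Or.inr fun τ hτ => h2 ⟨e, τ, hτ⟩
    · exact Or.inl e

end FLTA.PT.GC

end
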