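import Fermat.Agent.PoitouTate.SumFormula
import Fermat.Agent.PoitouTate.GlobalClassesPair

/-!
# Global classes of `G_S` with prescribed local invariants
-/

set_option autoImplicit false
set_option linter.style.haveILetI false

open ExtCitation

noncomputable section

namespace FLTA.PT

variable (p : ℕ) [Fact p.Prime] (S : Finset Nat.Primes)

/-- Summing a local class over a finite permutation set. -/
def sumLoc (q : Nat.Primes) (X : Type) [MulAction GQ X] [Fintype X] :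
    H2c (lvlLoc q) ((funRep (muRep p) X).comp (loc q)) →ₗ[ZMod p] H2c (lvlLoc q) (muLoc p q) :=
  map2 (L := lvlLoc q) (L' := lvlLoc q) (f := MonoidHom.id (Gl q))
    (ρ := (funRep (muRep p) X).comp (loc q)) (σ := muLoc p q)
    (φ := sumMap (k := ZMod p) (V := ZMod p) X) (lvlLE_id _)
    (fun g F => equivariant_sumMap (muRep p) X (loc q g) F)

theorem sumLoc_locH2 (q : Nat.Primes) (X : Type) [MulAction GQ X] [Fintype X]
    (F : H2c (lvlS S) (funRep (muRep p) X)) :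
    sumLoc p q X (locH2 S (funRep (muRep p) X) q F) =
      locH2 S (muRep p) q (coeff2 (lvlS S) (funRep (muRep p) X)
        (equivariant_sumMap (muRep p) X) F) := by
  obtain ⟨z, rfl⟩ := Submodule.mkQ_surjective _ F
  rfl

variable {p S} in
/-- The invariants of a global class sum to zero. -/
theorem sum_inv_sumLoc_locH2 (I : InvSystem p S) (X : Type) [MulAction GQ X] [Fintype X]
    (F : H2c (lvlS S) (funRep (muRep p) X)) :
    ∑ q ∈ S, I.inv q (sumLoc p q X (locH2 S (funRep (muRep p) X) q F)) = 0 := by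
  simp only [sumLoc_locH2]
  exact I.sum_eq_zero _

variable {p S} in
/-- A family with invariant sum zero cannot be supported at a single place. -/
theorem eq_zero_of_single_place (hp : p ≠ 2) (hpS : pPrime p ∈ S) (I : InvSystem p S)
    {G₀ : Subgroup GQ} [Fintype (GQ ⧸ G₀)] (hG : IsOpenLvl lvlQ G₀)
    (b : ∀ q : Nat.Primes, H2c (lvlLoc q) ((funRep (muRep p) (GQ ⧸ G₀)).comp (loc q)))
    (hb : ∑ q ∈ S, I.inv q (sumLoc p q (GQ ⧸ G₀) (b q)) = 0) (q₁ : Nat.Primes) (hq₁ : q₁ ∈ S)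
    (g₁ : GQ) (h : ∀ q ∈ S, ∀ g, ¬ (q = q₁ ∧ GC.InOrbit q G₀ g₁ g) → GC.ev p q G₀ g (b q) = 0) :
    ∀ q ∈ S, b q = 0 := by
  have h0 : ∀ q ∈ S, q ≠ q₁ → b q = 0 := fun q hq hne =>
    GC.eq_zero_of_forall_ev p hpS hG (b q) fun g => h q hq g fun e => hne e.1
  intro q hq
  by_cases e : q = q₁
  · subst e
    rw [Finset.sum_eq_single_of_mem q hq fun q' hq' hne => by
      rw [h0 q' hq' hne, map_zero, map_zero]] at hb
    have hs : sumLoc p q (GQ ⧸ G₀) (b q) = 0 :=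
      (I.bijective q hq).1 (hb.trans (map_zero _).symm)
    exact GC.eq_zero_of_support p hp hG g₁ (b q) (fun g hg => h q hq g fun e => hg e.2) hs
  · exact h0 q hq e

/-- The class families with invariant sum zero are global, for cofinal levels `G₀`. -/
theorem exists_level_global_classes (hp : p ≠ 2) (hpS : pPrime p ∈ S) (I : InvSystem p S)
    (U : Subgroup GQ) (hU : U ∈ lvlS S) :
    ∃ G₀ ∈ lvlS S, G₀ ≤ U ∧ (∀ s ∈ G₀, cycloChar p s = 1) ∧
      ∃ _ : Fintype (GQ ⧸ G₀),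
        ∀ b : ∀ q : Nat.Primes, H2c (lvlLoc q) ((funRep (muRep p) (GQ ⧸ G₀)).comp (loc q)),
          ∑ q ∈ S, I.inv q (sumLoc p q (GQ ⧸ G₀) (b q)) = 0 →
          ∃ F : H2c (lvlS S) (funRep (muRep p) (GQ ⧸ G₀)),
            ∀ q ∈ S, locH2 S (funRep (muRep p) (GQ ⧸ G₀)) q F = b q := by
  classical
  obtain ⟨D⟩ := GC.nonempty_layer hp S hpS U hU
  have := (lvlS S).finiteIndex_of_mem D.G₀ D.mem₀
  letI : Fintype (GQ ⧸ D.G₀) := Fintype.ofFinite _
  refine ⟨D.G₀, D.mem₀, D.le₀, D.cyclo, inferInstance, fun b hb => ?_⟩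
  have hG : IsOpenLvl lvlQ D.G₀ := isOpenLvl_lvlQ_of_lvlS ⟨_, D.mem₀, le_rfl⟩
  let R := funRep (muRep p) (GQ ⧸ D.G₀)
  let bad : (∀ q : Nat.Primes, H2c (lvlLoc q) (R.comp (loc q))) →
      Finset ((_ : Nat.Primes) × (GQ ⧸ D.G₀)) := fun b =>
    (S.sigma fun _ => Finset.univ).filter fun v => GC.ev p v.1 D.G₀ v.2.out (b v.1) ≠ 0
  have hbad : ∀ b q (g : GQ), (⟨q, (g : GQ ⧸ D.G₀)⟩ : (_ : Nat.Primes) × (GQ ⧸ D.G₀)) ∈ bad b ↔
      q ∈ S ∧ GC.ev p q D.G₀ g (b q) ≠ 0 := by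
    intro b q g
    have hio : GC.InOrbit q D.G₀ g (g : GQ ⧸ D.G₀).out :=
      GC.inOrbit_of_coe_eq (QuotientGroup.out_eq' _).symm
    simp only [bad, Finset.mem_filter, Finset.mem_sigma, Finset.mem_univ, and_true]
    exact and_congr_right fun _ => not_congr
      ⟨fun h => GC.ev_eq_zero_of_inOrbit p hio.symm h, fun h => GC.ev_eq_zero_of_inOrbit p hio h⟩
  induction hn : (bad b).card using Nat.strong_induction_on generalizing b with
  | _ n ih => ?_
  subst hn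
  by_cases hzero : ∀ q ∈ S, ∀ g, GC.ev p q D.G₀ g (b q) = 0
  · exact ⟨0, fun q hq => by
      rw [map_zero, GC.eq_zero_of_forall_ev p hpS hG (b q) (hzero q hq)]⟩
  push Not at hzero
  obtain ⟨q₁, hq₁, g₁, h₁⟩ := hzero
  by_cases hone : ∀ q ∈ S, ∀ g, ¬ (q = q₁ ∧ GC.InOrbit q D.G₀ g₁ g) →
      GC.ev p q D.G₀ g (b q) = 0
  · refine absurd ?_ h₁
    rw [eq_zero_of_single_place hp hpS I hG b hb q₁ hq₁ g₁ hone q₁ hq₁, map_zero]
  push Not at hone
  obtain ⟨q₂, hq₂, g₂, h12, h₂⟩ := hone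
  have h12' : ¬ (q₁ = q₂ ∧ GC.InOrbit q₁ D.G₀ g₁ g₂) := fun ⟨e, ho⟩ => by
    subst e
    exact h12 rfl ho
  obtain ⟨F, hor, hF⟩ := GC.exists_pair_class hp hpS D q₁ q₂ hq₁ hq₂ g₁ g₂ h12'
  have hF₁ : GC.ev p q₁ D.G₀ g₁ (locH2 S R q₁ F) ≠ 0 := by
    intro h0
    have hall : ∀ q ∈ S, locH2 S R q F = 0 :=
      eq_zero_of_single_place hp hpS I hG (fun q => locH2 S R q F)
        (sum_inv_sumLoc_locH2 I _ F) q₂ hq₂ g₂ fun q hq g h2 => by
        by_cases e : q = q₁ ∧ GC.InOrbit q D.G₀ g₁ g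
        · obtain ⟨rfl, ho⟩ := e
          exact GC.ev_eq_zero_of_inOrbit p ho h0
        · exact hF q g e h2
    exact hor.elim (fun h => h (by rw [hall q₁ hq₁, map_zero]))
      (fun h => h (by rw [hall q₂ hq₂, map_zero]))
  obtain ⟨t, ht⟩ := GC.exists_smul_ev_eq p hp hpS hG g₁ (locH2 S R q₁ F) (b q₁) hF₁
  let b' : ∀ q : Nat.Primes, H2c (lvlLoc q) (R.comp (loc q)) := fun q => b q - t • locH2 S R q F
  have hb' : ∑ q ∈ S, I.inv q (sumLoc p q (GQ ⧸ D.G₀) (b' q)) = 0 := by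
    simp only [b', map_sub, map_smul, Finset.sum_sub_distrib, ← Finset.smul_sum]
    rw [hb, sum_inv_sumLoc_locH2 I, smul_zero, sub_zero]
  have hlt : (bad b').card < (bad b).card := by
    refine Finset.card_lt_card ⟨?_, fun hsub => ?_⟩
    · rintro ⟨q, x⟩ hv
      induction x using QuotientGroup.induction_on with | _ g => ?_
      rw [hbad] at hv ⊢
      refine ⟨hv.1, fun h0 => hv.2 ?_⟩
      by_cases e : q = q₁ ∧ GC.InOrbit q D.G₀ g₁ g
      · obtain ⟨rfl, ho⟩ := e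
        exact GC.ev_eq_zero_of_inOrbit p ho ht
      by_cases e' : q = q₂ ∧ GC.InOrbit q D.G₀ g₂ g
      · obtain ⟨rfl, ho⟩ := e'
        exact absurd (GC.ev_eq_zero_of_inOrbit p ho.symm h0) h₂
      show GC.ev p q D.G₀ g (b q - t • locH2 S R q F) = 0
      rw [map_sub, map_smul, h0, hF q g e e', smul_zero, sub_zero]
    · exact ((hbad b' q₁ g₁).1 (hsub ((hbad b q₁ g₁).2 ⟨hq₁, h₁⟩))).2 ht
  obtain ⟨F', hF'⟩ := ih _ hlt b' hb' rfl
  refine ⟨F' + t • F, fun q hq => ?_⟩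
  rw [map_add, map_smul, hF' q hq]
  exact sub_add_cancel _ _

end FLTA.PT

end
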