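import Fermat.Agent.PoitouTate.GlobalClassesGamma

/-!
# The class of `G_{K,S}` attached to an everywhere-local norm outside `S`
-/

set_option autoImplicit false
set_option linter.style.haveILetI false

open ExtCitation

noncomputable section

namespace FLTA.PT.GC

open NT

variable {S : Finset Nat.Primes} {p : ℕ} [Fact p.Prime]

/-- The elements which are units at every place outside `S`. -/
def sUnits (S : Finset Nat.Primes) : AddSubgroup Mq where
  carrier := {x | ∀ q, q ∉ S → ∀ g, absv q (atPlace q g x) = 1}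
  zero_mem' q _ g := by rw [atPlace_zero, absv_zero]
  add_mem' hx hy q hq g := by rw [atPlace_add, absv_add, hx q hq g, hy q hq g, one_mul]
  neg_mem' hx q hq g := by rw [atPlace_neg, absv_neg, hx q hq g, inv_one]

theorem mem_sUnits_sub {x y : Mq}
    (h : ∀ q, q ∉ S → ∀ g, absv q (atPlace q g x) = absv q (atPlace q g y)) :
    x - y ∈ sUnits S := fun q hq g => by
  rw [sub_eq_add_neg, atPlace_add, atPlace_neg, absv_add, absv_neg, h q hq g,
    mul_inv_cancel₀ (absv_pos _).ne']

theorem rep_mem_sUnits {x : Mq} (hx : x ∈ sUnits S) (s : GQ) : unitsRep s x ∈ sUnits S := by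
  intro q hq g
  have h : atPlace q g (unitsRep s x) = atPlace q (g * s) x := by
    unfold atPlace; rw [map_mul, Module.End.mul_apply]
  rw [h]
  exact hx q hq _

/-- A choice of `p`-th root. -/
def rootFun (p : ℕ) [Fact p.Prime] (x : Mq) : Mq := (exists_nsmul_eq_Mq p x).choose

theorem nsmul_rootFun (x : Mq) : p • rootFun p x = x := (exists_nsmul_eq_Mq p x).choose_spec

theorem rootFun_fixed_level (D : CycLayer p S) {ι : Type*} [Finite ι] (e : ι → Mq)
    {W : Subgroup GQ} (hW : W ∈ lvlS S) (he : ∀ i, e i ∈ fixedBy unitsRep W)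
    (heS : ∀ i, e i ∈ sUnits S) :
    ∃ W' ∈ lvlS S, W' ≤ W ∧ ∀ i, rootFun p (e i) ∈ fixedBy unitsRep W' := by
  classical
  have hp : p.Prime := Fact.out
  set T : Set Qb := ⋃ i, Set.range fun g : GQ => g (cv (rootFun p (e i))) with hT
  have hfin : T.Finite := Set.finite_iUnion fun i => by
    haveI hi : IsIntegral ℚ (cv (rootFun p (e i))) :=
      ((AlgebraicClosure.isAlgebraic ℚ).isAlgebraic _).isIntegral
    refine ((minpoly ℚ (cv (rootFun p (e i)))).rootSet Qb).toFinite.subset ?_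
    rintro _ ⟨g, rfl⟩
    rw [Polynomial.mem_rootSet]
    refine ⟨minpoly.ne_zero hi, ?_⟩
    show Polynomial.aeval (g.toAlgHom (cv (rootFun p (e i)))) _ = 0
    rw [Polynomial.aeval_algHom_apply, minpoly.aeval, map_zero]
  have hunr : fixer T ∈ lvlS S := by
    refine fixer_mem_lvlS T hfin ?_ ?_
    · intro g x hx
      obtain ⟨i, g', rfl⟩ := Set.mem_iUnion.1 hx
      exact Set.mem_iUnion.2 ⟨i, g * g', rfl⟩
    intro q hq A hA s hs x hx
    obtain ⟨i, g, rfl⟩ := Set.mem_iUnion.1 hx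
    obtain ⟨g', hg'⟩ := exists_plc_eq q hA
    have hsW : s ∈ W := inertia_le_of_isOpenLvl_lvlS ⟨_, hW, le_rfl⟩ hq hA hs
    have hgx : g (cv (rootFun p (e i))) ≠ 0 :=
      (map_ne_zero_iff _ g.injective).2 (cv_ne_zero _)
    have hxp : g (cv (rootFun p (e i))) ^ p = cv (unitsRep g (e i)) := by
      rw [← cv_rep, ← cv_nsmul, ← map_nsmul, nsmul_rootFun]
    refine inertia_fixes_root hA (n := p) (fun hd => hq ?_) hs hgx one_ne_zero ?_ (map_one s) hg' ?_
    · have hqp := (Nat.prime_dvd_prime_iff_eq q.2 hp).1 hd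
      have hS := D.mem_S
      rwa [show q = pPrime p from Subtype.ext hqp]
    · rw [hxp, ← cv_rep, ← Module.End.mul_apply, ← map_mul,
        show s * g = g * (g⁻¹ * s * g) by group, map_mul, Module.End.mul_apply,
        he i _ (((lvlS S).normal_of_mem W hW).conj_mem' _ hsW g)]
    · refine (pow_left_inj₀ (nv_nonneg _) (nv_nonneg _) hp.ne_zero).1 ?_
      rw [← nv_pow, hxp, ← absv_atPlace, rep_mem_sUnits (heS i) g q hq g', nv_one, one_pow]
  exact ⟨W ⊓ fixer T, (lvlS S).inf_mem W hW _ hunr, inf_le_left, fun i s hs =>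
    cv_injective (hs.2 _ (Set.mem_iUnion.2 ⟨i, 1, rfl⟩))⟩

theorem exists_cocycle (D : CycLayer p S) (χ : D.G₀ →* Multiplicative (ZMod p))
    (hker : ∀ s : D.G₀, χ s = 1 ↔ (s : GQ) ∈ D.G₁)
    (hσ : χ ⟨D.σ, D.σ_mem⟩ = Multiplicative.ofAdd 1) {W₀ : Subgroup GQ} (hW₀ : W₀ ∈ lvlS S)
    (hW₀₁ : W₀ ≤ D.G₁) {a γ : Mq} (ha : a ∈ fixedBy unitsRep D.G₀)
    (hγ : γ ∈ fixedBy unitsRep W₀)
    (hcong : ∀ s ∈ D.G₁, unitsRep s γ - γ ∈ sUnits S)
    (hnorm : a - ∑ i ∈ Finset.range p, unitsRep (D.σ ^ i) γ ∈ sUnits S) :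
    ∃ (z : D.G₀ × D.G₀ → ZMod p) (η : D.G₀ → Mq),
      z ∈ Z2 ((lvlS S).comap D.G₀.subtype) ((muRep p).comp D.G₀.subtype) ∧
      IsConst₁ ((lvlS S).comap D.G₀.subtype) η ∧
      ∀ x, muQ p (z x) = carry χ a x - d1 (unitsRep.comp D.G₀.subtype) η x := by
  classical
  haveI : NeZero p := ⟨(Fact.out : p.Prime).ne_zero⟩
  set ρ' := unitsRep.comp D.G₀.subtype with hρ'
  set E := sUnits S with hE
  have hW₀n := (lvlS S).normal_of_mem W₀ hW₀
  have hG₁n := D.normal₁
  set c : D.G₀ → ℕ := fun t => (χ t).toAdd.val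
  set Nγ : Mq := ∑ i ∈ Finset.range p, unitsRep (D.σ ^ i) γ with hNγ
  set F : ℕ → Mq := fun n => ∑ i ∈ Finset.range n, unitsRep (D.σ ^ i) γ with hF
  -- congruences
  have hcong' : ∀ (j : ℕ) (s : GQ), s ∈ D.G₁ →
      unitsRep s (unitsRep (D.σ ^ j) γ) - unitsRep (D.σ ^ j) γ ∈ E := by
    intro j s hs
    rw [← Module.End.mul_apply, ← map_mul,
      show s * D.σ ^ j = D.σ ^ j * ((D.σ ^ j)⁻¹ * s * D.σ ^ j) by group, map_mul,
      Module.End.mul_apply, ← map_sub]
    exact rep_mem_sUnits (hcong _ (hG₁n.conj_mem' _ hs _)) _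
  have hFp : ∀ n, F (n + p) - F n - Nγ ∈ E := by
    intro n
    induction n with
    | zero => simp [F, Nγ]
    | succ n ih =>
      have e : F (n + 1 + p) - F (n + 1) - Nγ = (F (n + p) - F n - Nγ) +
          (unitsRep (D.σ ^ (n + p)) γ - unitsRep (D.σ ^ n) γ) := by
        simp only [F, show n + 1 + p = n + p + 1 by omega, Finset.sum_range_succ]
        abel
      rw [e]
      refine E.add_mem ih ?_
      rw [pow_add, map_mul, Module.End.mul_apply, ← map_sub]
      exact rep_mem_sUnits (hcong _ D.pow_p_mem) _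
  have hshift : ∀ (i j : ℕ), unitsRep (D.σ ^ i) (F j) = F (i + j) - F i := by
    intro i j
    simp only [F, map_sum, Finset.sum_range_add, add_sub_cancel_left]
    exact Finset.sum_congr rfl fun k _ => by rw [← Module.End.mul_apply, ← map_mul, ← pow_add]
  have hdec : ∀ t : D.G₀, ∃ u ∈ D.G₁, (t : GQ) = D.σ ^ c t * u := by
    intro t
    obtain ⟨m, hm, e⟩ := exists_pow_mul_ker χ hσ t
    exact ⟨m, (hker m).1 hm, by simpa [c] using congrArg Subtype.val e⟩
  have hact : ∀ (t : D.G₀) (j : ℕ), ρ' t (F j) - unitsRep (D.σ ^ c t) (F j) ∈ E := by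
    intro t j
    obtain ⟨u, hu, e⟩ := hdec t
    show unitsRep (t : GQ) (F j) - _ ∈ E
    rw [e, map_mul, Module.End.mul_apply, ← map_sub]
    refine rep_mem_sUnits ?_ _
    simp only [F, map_sum, ← Finset.sum_sub_distrib]
    exact sum_mem fun i _ => hcong' i u hu
  set g : D.G₀ → Mq := fun t => F (c t) with hg
  -- `carry a - dg` consists of `S`-units
  have hz : ∀ t t', carry χ a (t, t') - d1 ρ' g (t, t') ∈ E := by
    intro t t'
    rw [carry_apply, d1_apply]
    set k := ((χ t).toAdd.val + (χ t').toAdd.val) / p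
    have hk : p * k + c (t * t') = c t + c t' := carry_num χ t t'
    have hFk : ∀ k n, F (n + p * k) - F n - k • Nγ ∈ E := by
      intro k n
      induction k with
      | zero => simp
      | succ k ih =>
        have e : F (n + p * (k + 1)) - F n - (k + 1) • Nγ =
            (F (n + p * k + p) - F (n + p * k) - Nγ) + (F (n + p * k) - F n - k • Nγ) := by
          rw [Nat.mul_succ, succ_nsmul, add_assoc]; abel
        rw [e]
        exact E.add_mem (hFp _) ih
    have h1 := hFk k (c (t * t'))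
    rw [show c (t * t') + p * k = c t + c t' by omega] at h1
    have h2 := hact t (c t')
    rw [hshift] at h2
    have h3 : k • (a - Nγ) ∈ E := E.nsmul_mem hnorm k
    have e : k • a - (ρ' t (g t') - g (t * t') + g t) = k • (a - Nγ) -
        ((F (c t + c t') - F (c (t * t')) - k • Nγ) +
          (ρ' t (F (c t')) - (F (c t + c t') - F (c t)))) := by
      simp only [g, nsmul_sub]; abel
    rw [e]
    exact E.sub_mem h3 (E.add_mem h1 h2)
  set δ : Mq := ∑ i ∈ Finset.range p, F i with hδ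
  set e : D.G₀ → Mq := fun t => c t • a - p • g t - (ρ' t δ - δ) with he
  have heS : ∀ t, e t ∈ E := by
    intro t
    set Φ : ℕ → Mq := fun m => ∑ i ∈ Finset.range p, F (m + i) with hΦ
    have hΦm : ∀ m, Φ m - Φ 0 - m • Nγ ∈ E := by
      intro m
      induction m with
      | zero => simp
      | succ m ih =>
        have e : Φ (m + 1) - Φ 0 - (m + 1) • Nγ =
            (F (m + p) - F m - Nγ) + (Φ m - Φ 0 - m • Nγ) := by
          have e1 : Φ (m + 1) - Φ m = F (m + p) - F m := by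
            have h1 := Finset.sum_range_succ (fun i => F (m + i)) p
            have h2 := Finset.sum_range_succ' (fun i => F (m + i)) p
            rw [h1] at h2
            simp only [Φ, add_zero] at h2 ⊢
            rw [Finset.sum_congr rfl fun i _ => congrArg F (show m + 1 + i = m + (i + 1) by omega),
              eq_sub_of_add_eq h2.symm]
            abel
          rw [succ_nsmul, ← sub_add_sub_cancel (Φ (m + 1)) (Φ m) (Φ 0), e1]
          abel
        rw [e]
        exact E.add_mem (hFp m) ih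
    have hδact : ρ' t δ - (Φ (c t) - p • g t) ∈ E := by
      have e1 : Φ (c t) - p • g t = ∑ i ∈ Finset.range p, unitsRep (D.σ ^ c t) (F i) := by
        simp only [Φ, g, hshift, Finset.sum_sub_distrib, Finset.sum_const, Finset.card_range]
      rw [e1, hδ, map_sum, ← Finset.sum_sub_distrib]
      exact sum_mem fun i _ => hact t i
    have h0 : Φ 0 = δ := by simp [Φ, δ]
    have h1 := hΦm (c t)
    rw [h0] at h1
    have h3 : c t • (a - Nγ) ∈ E := E.nsmul_mem hnorm _
    have e : e t = c t • (a - Nγ) -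
        ((Φ (c t) - δ - c t • Nγ) + (ρ' t δ - (Φ (c t) - p • g t))) := by
      simp only [he, nsmul_sub]; abel
    rw [e]
    exact E.sub_mem h3 (E.add_mem h1 hδact)
  -- levels
  have hFfix : ∀ j, F j ∈ fixedBy unitsRep W₀ := by
    intro j s hs
    simp only [F, map_sum]
    refine Finset.sum_congr rfl fun i _ => ?_
    rw [← Module.End.mul_apply, ← map_mul,
      show s * D.σ ^ i = D.σ ^ i * ((D.σ ^ i)⁻¹ * s * D.σ ^ i) by group, map_mul,
      Module.End.mul_apply, hγ _ (hW₀n.conj_mem' _ hs _)]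
  have hc₁ : ∀ (t s : D.G₀), (s : GQ) ∈ D.G₁ → c (t * s) = c t := fun t s hs => by
    show (χ (t * s)).toAdd.val = _
    rw [map_mul, (hker s).2 hs, mul_one]
  have hδfix : δ ∈ fixedBy unitsRep W₀ := fun s hs => by
    rw [hδ, map_sum]; exact Finset.sum_congr rfl fun i _ => hFfix i s hs
  have hgfix : ∀ t, g t ∈ fixedBy unitsRep W₀ := fun t => hFfix _
  have hTfix : ∀ t : D.G₀, ρ' t δ ∈ fixedBy unitsRep W₀ := fun t s hs => by
    show unitsRep s (unitsRep (t : GQ) δ) = unitsRep (t : GQ) δ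
    rw [← Module.End.mul_apply, ← map_mul,
      show s * (t : GQ) = (t : GQ) * ((t : GQ)⁻¹ * s * t) by group, map_mul,
      Module.End.mul_apply, hδfix _ (hW₀n.conj_mem' _ hs _)]
  have hefix : ∀ t, e t ∈ fixedBy unitsRep W₀ := fun t s hs => by
    show unitsRep s (c t • a - p • g t - (ρ' t δ - δ)) = _
    rw [map_sub, map_sub, map_sub, map_nsmul, map_nsmul, ha s (D.le₁ (hW₀₁ hs)),
      hgfix t s hs, hδfix s hs, hTfix t s hs]
  have hδt : ∀ t s : D.G₀, (s : GQ) ∈ W₀ → ρ' (t * s) δ = ρ' t δ := fun t s hs => by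
    show unitsRep ((t : GQ) * (s : GQ)) δ = unitsRep (t : GQ) δ
    rw [map_mul, Module.End.mul_apply, hδfix _ hs]
  have hec : ∀ t s : D.G₀, (s : GQ) ∈ W₀ → e (t * s) = e t := fun t s hs => by
    simp only [he, hg, hc₁ t s (hW₀₁ hs), hδt t s hs]
  haveI hfi : (W₀.subgroupOf D.G₀).FiniteIndex := by
    haveI := (lvlS S).finiteIndex_of_mem W₀ hW₀
    infer_instance
  have hrep : ∀ t : D.G₀, e t = e (QuotientGroup.mk (s := W₀.subgroupOf D.G₀) t).out := fun t => by
    obtain ⟨u, hu⟩ := QuotientGroup.mk_out_eq_mul (W₀.subgroupOf D.G₀) t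
    rw [hu]
    exact (hec t u u.2).symm
  obtain ⟨W', hW', hW'W, hroot⟩ := rootFun_fixed_level (p := p) D
    (fun x : D.G₀ ⧸ W₀.subgroupOf D.G₀ => e x.out) hW₀ (fun x => hefix _) (fun x => heS _)
  set η : D.G₀ → Mq := fun t => g t + rootFun p (e t) with hη
  have hW'n := (lvlS S).normal_of_mem W' hW'
  have hηc : ∀ t s : D.G₀, (s : GQ) ∈ W' → η (t * s) = η t := fun t s hs => by
    simp only [hη, hg, hc₁ t s (hW₀₁ (hW'W hs)), hec t s (hW'W hs)]
  have hηfix : ∀ t, η t ∈ fixedBy unitsRep W' := fun t s hs => by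
    show unitsRep s (g t + rootFun p (e t)) = _
    rw [map_add, hgfix t s (hW'W hs), hrep t, hroot _ s hs]
    simp only [hη, ← hrep t]
  set z₀ : D.G₀ × D.G₀ → Mq := fun x => carry χ a x - d1 ρ' η x with hz₀
  have hz0 : ∀ x, p • z₀ x = 0 := by
    rintro ⟨t, t'⟩
    have hpη : ∀ u, p • η u = c u • a - (ρ' u δ - δ) := fun u => by
      simp only [hη, nsmul_add, nsmul_rootFun, he]; abel
    have hk : p * (((χ t).toAdd.val + (χ t').toAdd.val) / p) + c (t * t') = c t + c t' :=
      carry_num χ t t'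
    have hfix : ρ' t a = a := ha _ t.2
    simp only [hz₀, carry_apply, d1_apply, nsmul_sub, nsmul_add, ← map_nsmul (ρ' t), hpη, map_sub,
      map_nsmul, hfix, map_mul ρ' t t', Module.End.mul_apply, ← mul_nsmul']
    have h2 : (p * (((χ t).toAdd.val + (χ t').toAdd.val) / p)) • a + c (t * t') • a =
        c t • a + c t' • a := by rw [← add_nsmul, hk, add_nsmul]
    rw [eq_sub_of_add_eq h2]
    abel
  choose z hzval using fun x => exists_muQ_eq p (z₀ x) (hz0 x)
  have hηL : IsConst₁ ((lvlS S).comap D.G₀.subtype) η :=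
    ⟨W'.comap D.G₀.subtype, ⟨W', hW', rfl⟩, fun t s hs => hηc t s hs⟩
  refine ⟨z, η, (mem_Z2 _ _).2 ⟨?_, ?_⟩, hηL, hzval⟩
  · intro t t' t''
    apply muQ_injective p
    have h1 := ((mem_Z2 _ _).1 (carry_mem_Z2 ((lvlS S).comap D.G₀.subtype) ρ' χ
      ⟨D.G₁.comap D.G₀.subtype, ⟨D.G₁, D.mem₁, rfl⟩, fun s hs => (hker s).2 hs⟩
      (fun s _ => ha _ s.2))).1 t t' t''
    have h2 := congrFun (d2_d1 ρ' η) (t, t', t'')
    simp only [d2_apply, Pi.zero_apply] at h2
    have hq : ∀ v, muQ p (((muRep p).comp D.G₀.subtype) t v) = ρ' t (muQ p v) := fun v =>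
      muQ_equivariant p _ v
    simp only [map_add, hq, hzval, hz₀, map_sub]
    linear_combination (norm := abel) h1 + h2
  · refine ⟨W'.comap D.G₀.subtype, ⟨W', hW', rfl⟩, fun t t' s s' hs hs' => muQ_injective p ?_⟩
    rw [hzval, hzval]
    have hcar : carry χ a (t * s, t' * s') = carry χ a (t, t') := by
      simp only [carry_apply, map_mul, (hker s).2 (hW₀₁ (hW'W hs)),
        (hker s').2 (hW₀₁ (hW'W hs')), mul_one]
    have hconj : t * s * (t' * s') = t * t' * ((t'⁻¹ * s * t') * s') := by group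
    have hmem : (((t'⁻¹ * s * t') * s' : D.G₀) : GQ) ∈ W' := by
      push_cast
      exact W'.mul_mem (hW'n.conj_mem' _ hs _) hs'
    have hρ : ρ' (t * s) (η t') = ρ' t (η t') := by
      rw [map_mul, Module.End.mul_apply]
      exact congrArg (ρ' t) (hηfix t' _ hs)
    simp only [hz₀, hcar, d1_apply, hηc t' s' hs', hconj, hηc _ _ hmem, hηc t s hs, hρ]

end FLTA.PT.GC

end
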