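import Fermat.Agent.PoitouTate.Setup

/-!
# Conjugation invariance of continuous 2-classes, and other generic lemmas on cochains
-/

set_option autoImplicit false

noncomputable section

namespace FLTA.PT.GC

section conj

variable {k : Type*} [CommRing k] {Γ : Type*} [Group Γ] (L : Lvl Γ)
variable {V : Type*} [AddCommGroup V] [Module k V] (ρ : Representation k Γ V)

/-- The homotopy witnessing triviality of conjugation by `g` in degree 2. -/
def conjHtpy (g : Γ) (z : Γ × Γ → V) : Γ → V :=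
  fun x => z (g, g⁻¹ * x * g) - z (x, g)

theorem conjHtpy_const (g : Γ) {z : Γ × Γ → V} (hz : IsConst₂ L z) :
    IsConst₁ L (conjHtpy g z) := by
  obtain ⟨U, hU, h⟩ := hz
  refine ⟨U, hU, fun x s hs => ?_⟩
  have hn := L.normal_of_mem U hU
  have hs' : g⁻¹ * s * g ∈ U := hn.conj_mem' s hs g
  have h1 : z (g, g⁻¹ * (x * s) * g) = z (g, g⁻¹ * x * g) := by
    rw [show g⁻¹ * (x * s) * g = g⁻¹ * x * g * (g⁻¹ * s * g) by group]
    simpa using h g (g⁻¹ * x * g) 1 _ U.one_mem hs'
  have h2 : z (x * s, g) = z (x, g) := by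
    simpa using h x g s 1 hs U.one_mem
  simp [conjHtpy, h1, h2]

/-- Conjugation acts trivially on 2-classes, with an explicit homotopy. -/
theorem conj_sub_eq_d1 {z : Γ × Γ → V} (hz : z ∈ Z2 L ρ) (g a b : Γ) :
    ρ g (z (g⁻¹ * a * g, g⁻¹ * b * g)) - z (a, b) = d1 ρ (conjHtpy g z) (a, b) := by
  have hc := ((mem_Z2 L ρ).1 hz).1
  have e1 := hc g (g⁻¹ * a * g) (g⁻¹ * b * g)
  have e2 := hc a g (g⁻¹ * b * g)
  have e3 := hc a b g
  rw [show g * (g⁻¹ * a * g) = a * g by group,
    show g⁻¹ * a * g * (g⁻¹ * b * g) = g⁻¹ * (a * b) * g by group] at e1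
  rw [show g * (g⁻¹ * b * g) = b * g by group] at e2
  rw [d1_apply]
  simp only [conjHtpy, map_sub]
  have f1 := eq_sub_of_add_eq e1.symm
  have f2 := eq_sub_of_add_eq e2
  have f3 := eq_sub_of_add_eq' e3.symm
  rw [f1, f2, f3]
  abel

end conj

section base

variable {k : Type*} [CommRing k] {Γ Γ' : Type*} [Group Γ] [Group Γ'] (L : Lvl Γ)
variable {V : Type*} [AddCommGroup V] [Module k V] (ρ : Representation k Γ V)
variable {X : Type*} [MulAction Γ X]

/-- The values at `g • x` and at `x` of a cocycle with values in `X → V` differ by conjugation. -/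
theorem eval_smul_eq (F : Γ × Γ → X → V) (hF : F ∈ Z2 L (funRep ρ X)) (g : Γ) (x : X)
    (f : Γ' →* Γ) (hf : ∀ t, f t • g • x = g • x) :
    (fun t : Γ' × Γ' => ρ g (F (g⁻¹ * f t.1 * g, g⁻¹ * f t.2 * g) x) - F (f t.1, f t.2) (g • x)) =
      d1 (ρ.comp f) (fun t => conjHtpy g F (f t) (g • x)) := by
  funext t
  obtain ⟨a, b⟩ := t
  have h := congrFun (conj_sub_eq_d1 L (funRep ρ X) hF g (f a) (f b)) (g • x)
  have ha : (f a)⁻¹ • g • x = g • x := by rw [inv_smul_eq_iff, hf a]
  simpa [ha, map_mul] using h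

end base

end FLTA.PT.GC

end
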