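import Fermat.Agent.PoitouTate.Inflation
import Fermat.Agent.PoitouTate.Cup

/-!
# `μ_p ≅ ZMod p` inside `ℚ̄ˣ` and `ℚ̄_qˣ`; Kummer injectivity on 2-classes
-/

set_option autoImplicit false

open ExtCitation

noncomputable section

namespace FLTA.PT

set_option linter.unusedSectionVars false

section generic

variable {k k' : Type*} [CommRing k] [CommRing k'] {Γ : Type*} [Group Γ] {L : Lvl Γ}
variable {V W : Type*} [AddCommGroup V] [Module k V] [AddCommGroup W] [Module k' W]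
variable {ρ : Representation k Γ V} {σ : Representation k' Γ W} {φ : V →+ W}

theorem push_mem_Z2 (hφ : ∀ g v, φ (ρ g v) = σ g (φ v)) {z : Γ × Γ → V} (hz : z ∈ Z2 L ρ) :
    (fun g => φ (z g)) ∈ Z2 L σ := by
  obtain ⟨hc, U, hU, h⟩ := (mem_Z2 L ρ).1 hz
  refine (mem_Z2 L σ).2 ⟨fun g h' j => ?_, U, hU, fun g g' s s' hs hs' => ?_⟩
  · rw [← hφ, ← map_add, hc, map_add]
  · simp only [h g g' s s' hs hs']

theorem push_mem_B2 (hφ : ∀ g v, φ (ρ g v) = σ g (φ v)) {z : Γ × Γ → V} (hz : z ∈ B2 L ρ) :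
    (fun g => φ (z g)) ∈ B2 L σ := by
  obtain ⟨x, ⟨U, hU, h⟩, rfl⟩ := (mem_B2 L ρ).1 hz
  refine (mem_B2 L σ).2 ⟨fun g => φ (x g), ⟨U, hU, fun g s hs => by simp only [h g s hs]⟩, ?_⟩
  funext ⟨g, g'⟩
  simp [hφ]

/-- Kummer injectivity: if `φ` identifies `V` with the `n`-torsion of a divisible module without
degree one classes, a 2-class dying in `W` dies in `V`. -/
theorem mem_B2_of_push (hφ : ∀ g v, φ (ρ g v) = σ g (φ v)) (hinj : Function.Injective φ)
    {n : ℕ} (htor : ∀ v, n • φ v = 0) (hrange : ∀ w, n • w = 0 → ∃ v, φ v = w)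
    (hdiv : ∀ w : W, ∃ w', n • w' = w) (hσ : Smooth L σ) (hv : ∀ c ∈ Z1 L σ, c ∈ B1 σ)
    {z : Γ × Γ → V} (hz : (fun g => φ (z g)) ∈ B2 L σ) : z ∈ B2 L ρ := by
  obtain ⟨x, ⟨U, hU, hxU⟩, hx⟩ := (mem_B2 L σ).1 hz
  have hx' : ∀ g h, σ g (x h) - x (g * h) + x g = φ (z (g, h)) := fun g h => congrFun hx (g, h)
  have hnx : (fun g => n • x g) ∈ Z1 L σ := by
    refine (mem_Z1 L σ).2 ⟨fun g h => ?_, U, hU, fun g s hs => by simp only [hxU g s hs]⟩
    have h1 := congrArg (n • ·) (hx' g h)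
    simp only [htor, smul_add, smul_sub, ← map_nsmul (σ g)] at h1
    linear_combination (norm := abel) -h1
  obtain ⟨β, hβ⟩ := hv _ hnx
  obtain ⟨γ, rfl⟩ := hdiv β
  obtain ⟨U', hU', hγ⟩ := hσ γ
  have hy : ∀ g, ∃ v, φ v = x g - (σ g γ - γ) := fun g => by
    refine hrange _ ?_
    have h := congrFun hβ g
    simp only [d0_apply, map_nsmul, ← smul_sub] at h
    rw [smul_sub, ← h, sub_self]
  choose y hy using hy
  refine (mem_B2 L ρ).2 ⟨y, ⟨U ⊓ U', L.inf_mem U hU U' hU', fun g s hs => hinj ?_⟩, ?_⟩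
  · rw [hy, hy, hxU g s hs.1, map_mul, Module.End.mul_apply, hγ s hs.2]
  · funext ⟨g, h⟩
    apply hinj
    simp only [d1_apply, map_add, map_sub, hφ, hy, ← hx', map_mul, Module.End.mul_apply]
    abel

theorem h1Vanishes_top_iff {σ : Representation k Γ V} :
    H1Vanishes L σ ⊤ → ∀ c ∈ Z1 L σ, c ∈ B1 σ := fun hv c hc => by
  obtain ⟨v, hv'⟩ := hv (fun g => c g)
    (pp1_mem_Z1 (f := (⊤ : Subgroup Γ).subtype) (σ := σ.comp (⊤ : Subgroup Γ).subtype)
      (φ := LinearMap.id) (lvlLE_comap L _) (fun _ _ => rfl) hc)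
  exact ⟨v, funext fun g => congrFun hv' ⟨g, trivial⟩⟩

end generic

section mu

variable (p : ℕ) [Fact p.Prime]

theorem exists_muGen : ∃ ζ : Qb, IsPrimitiveRoot ζ p := by
  haveI : NeZero p := ⟨(Fact.out : p.Prime).ne_zero⟩
  haveI : NeZero ((p : ℕ) : Qb) := ⟨Nat.cast_ne_zero.mpr (NeZero.ne _)⟩
  exact HasEnoughRootsOfUnity.exists_primitiveRoot Qb p

/-- A primitive `p`-th root of unity in `ℚ̄`. -/
def muGen : Qb := (exists_muGen p).choose

theorem muGen_spec : IsPrimitiveRoot (muGen p) p := (exists_muGen p).choose_spec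

/-- `muGen p` as a unit, written additively. -/
def muGenU : Mq :=
  Additive.ofMul (Units.mk0 (muGen p) ((muGen_spec p).ne_zero (Fact.out : p.Prime).ne_zero))

@[simp] theorem val_muGenU : ((Additive.toMul (muGenU p) : Qbˣ) : Qb) = muGen p := rfl

theorem nsmul_muGenU : p • muGenU p = 0 := by
  apply Additive.toMul.injective
  ext
  simp [(muGen_spec p).pow_eq_one]

/-- `ZMod p ≅ μ_p ⊆ ℚ̄ˣ`. -/
def muQ : ZMod p →+ Mq :=
  ZMod.lift p ⟨zmultiplesHom Mq (muGenU p), by simpa using nsmul_muGenU p⟩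

theorem muQ_natCast (i : ℕ) : muQ p (i : ZMod p) = i • muGenU p := by
  rw [show (i : ZMod p) = ((i : ℤ) : ZMod p) by simp, muQ, ZMod.lift_coe]
  simp

theorem val_muQ (a : ZMod p) :
    ((Additive.toMul (muQ p a) : Qbˣ) : Qb) = muGen p ^ a.val := by
  haveI : NeZero p := ⟨(Fact.out : p.Prime).ne_zero⟩
  conv_lhs => rw [← ZMod.natCast_zmod_val a, muQ_natCast]
  simp

theorem nsmul_muQ (a : ZMod p) : p • muQ p a = 0 := by
  rw [← map_nsmul, nsmul_eq_mul, ZMod.natCast_self, zero_mul, map_zero]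

theorem muQ_injective : Function.Injective (muQ p) := by
  haveI : NeZero p := ⟨(Fact.out : p.Prime).ne_zero⟩
  intro a b h
  have h1 := congrArg (fun x => ((Additive.toMul x : Qbˣ) : Qb)) h
  simp only [val_muQ] at h1
  exact ZMod.val_injective p ((muGen_spec p).pow_inj (ZMod.val_lt a) (ZMod.val_lt b) h1)

theorem exists_muQ_eq (w : Mq) (hw : p • w = 0) : ∃ a, muQ p a = w := by
  haveI : NeZero p := ⟨(Fact.out : p.Prime).ne_zero⟩
  have h1 : ((Additive.toMul w : Qbˣ) : Qb) ^ p = 1 := by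
    have := congrArg (fun x => ((Additive.toMul x : Qbˣ) : Qb)) hw
    simpa using this
  obtain ⟨i, hi, he⟩ := (muGen_spec p).eq_pow_of_pow_eq_one h1
  refine ⟨i, ?_⟩
  apply Additive.toMul.injective
  ext
  rw [val_muQ, ZMod.val_cast_of_lt hi, he]

theorem muQ_equivariant (g : GQ) (a : ZMod p) :
    muQ p (muRep p g a) = unitsRep g (muQ p a) := by
  haveI : NeZero p := ⟨(Fact.out : p.Prime).ne_zero⟩
  apply Additive.toMul.injective
  ext
  show _ = g ((Additive.toMul (muQ p a) : Qbˣ) : Qb)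
  rw [val_muQ, val_muQ, map_pow, charRep_apply]
  have ht : (Additive.toMul (muGenU p) : Qbˣ) ∈ rootsOfUnity p Qb := by
    rw [mem_rootsOfUnity]
    ext
    simpa using (muGen_spec p).pow_eq_one
  have h := modularCyclotomicCharacter.spec Qb (card_rootsOfUnity_eq_self p) (g : Qb ≃+* Qb) ht
  simp only [val_muGenU] at h
  rw [show g (muGen p) = muGen p ^ ((cycloChar p g : ZMod p)).val from h, ← pow_mul, ZMod.val_mul]
  exact (pow_eq_pow_mod _ (muGen_spec p).pow_eq_one).symm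

theorem exists_nsmul_eq_Mq (w : Mq) : ∃ w', p • w' = w := by
  obtain ⟨x, hx⟩ := IsAlgClosed.exists_pow_nat_eq ((Additive.toMul w : Qbˣ) : Qb)
    (Fact.out : p.Prime).pos
  have hx0 : x ≠ 0 := fun h => by
    rw [h, zero_pow (Fact.out : p.Prime).ne_zero] at hx
    exact Units.ne_zero _ hx.symm
  refine ⟨Additive.ofMul (Units.mk0 x hx0), ?_⟩
  apply Additive.toMul.injective
  ext
  simp [hx]

variable (q : Nat.Primes)

/-- `ZMod p ≅ μ_p ⊆ ℚ̄_qˣ`. -/
def muL : ZMod p →+ Ml q := (iotaUnits q).toAddMonoidHom.comp (muQ p)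

theorem muL_apply (a : ZMod p) : muL p q a = iotaUnits q (muQ p a) := rfl

theorem muL_equivariant (g : Gl q) (a : ZMod p) :
    muL p q (muLoc p q g a) = unitsRepLoc q g (muL p q a) := by
  rw [muL_apply, muL_apply, ← equivariant_iotaUnits q g, ← muQ_equivariant]
  rfl

theorem iotaUnits_injective : Function.Injective (iotaUnits q) := fun a b h =>
  Additive.toMul.injective (Units.map_injective (iota q).injective
    (congrArg Additive.toMul h))

theorem nsmul_muL (a : ZMod p) : p • muL p q a = 0 := by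
  rw [← map_nsmul, nsmul_eq_mul, ZMod.natCast_self, zero_mul, map_zero]

theorem muL_injective : Function.Injective (muL p q) :=
  (iotaUnits_injective q).comp (muQ_injective p)

theorem exists_muL_eq (w : Ml q) (hw : p • w = 0) : ∃ a, muL p q a = w := by
  haveI : Fact (q : ℕ).Prime := ⟨q.2⟩
  haveI : NeZero p := ⟨(Fact.out : p.Prime).ne_zero⟩
  have h1 : ((Additive.toMul w : (Ql q)ˣ) : Ql q) ^ p = 1 := by
    have := congrArg (fun x => ((Additive.toMul x : (Ql q)ˣ) : Ql q)) hw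
    simpa using this
  obtain ⟨i, hi, he⟩ :=
    ((muGen_spec p).map_of_injective (iota q).injective).eq_pow_of_pow_eq_one h1
  refine ⟨i, ?_⟩
  apply Additive.toMul.injective
  ext
  show iota q ((Additive.toMul (muQ p i) : Qbˣ) : Qb) = _
  rw [val_muQ, ZMod.val_cast_of_lt hi, map_pow, he]

theorem exists_nsmul_eq_Ml (w : Ml q) : ∃ w', p • w' = w := by
  haveI : Fact (q : ℕ).Prime := ⟨q.2⟩
  obtain ⟨x, hx⟩ := IsAlgClosed.exists_pow_nat_eq ((Additive.toMul w : (Ql q)ˣ) : Ql q)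
    (Fact.out : p.Prime).pos
  have hx0 : x ≠ 0 := fun h => by
    rw [h, zero_pow (Fact.out : p.Prime).ne_zero] at hx
    exact Units.ne_zero _ hx.symm
  refine ⟨Additive.ofMul (Units.mk0 x hx0), ?_⟩
  apply Additive.toMul.injective
  ext
  simp [hx]

/-- `H²(D, μ_p) → H²(D, ℚ̄_qˣ)` is injective. -/
theorem mem_B2_of_muL (D : Subgroup (Gl q)) (hσ : Smooth (lvlLoc q) (unitsRepLoc q))
    (hv : H1Vanishes (lvlLoc q) (unitsRepLoc q) D) {z : D × D → ZMod p}
    (hz : (fun g => muL p q (z g)) ∈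
      B2 ((lvlLoc q).comap D.subtype) ((unitsRepLoc q).comp D.subtype)) :
    z ∈ B2 ((lvlLoc q).comap D.subtype) ((muLoc p q).comp D.subtype) :=
  mem_B2_of_push (L := (lvlLoc q).comap D.subtype) (ρ := (muLoc p q).comp D.subtype)
    (σ := (unitsRepLoc q).comp D.subtype) (φ := muL p q)
    (fun g v => muL_equivariant p q g v) (muL_injective p q) (nsmul_muL p q)
    (exists_muL_eq p q) (exists_nsmul_eq_Ml p q) (smooth_comap hσ _) hv hz

/-- `H²(H, μ_p) → H²(H, ℚ̄ˣ)` is injective. -/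
theorem mem_B2_of_muQ (H : Subgroup GQ) (hσ : Smooth lvlQ unitsRep)
    (hv : H1Vanishes lvlQ unitsRep H) {z : H × H → ZMod p}
    (hz : (fun g => muQ p (z g)) ∈ B2 (lvlQ.comap H.subtype) (unitsRep.comp H.subtype)) :
    z ∈ B2 (lvlQ.comap H.subtype) ((muRep p).comp H.subtype) :=
  mem_B2_of_push (L := lvlQ.comap H.subtype) (ρ := (muRep p).comp H.subtype)
    (σ := unitsRep.comp H.subtype) (φ := muQ p)
    (fun g v => muQ_equivariant p g v) (muQ_injective p) (nsmul_muQ p)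
    (exists_muQ_eq p) (exists_nsmul_eq_Mq p) (smooth_comap hσ _) hv hz

end mu

end FLTA.PT

end
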