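import Fermat.Agent.PoitouTate.GlobalClassesNormIdeal
import Fermat.Agent.PoitouTate.MuEmb

/-!
# Capitulation: norm divisors are norms of elements of `ℚ_S`
-/

set_option autoImplicit false
set_option linter.style.haveILetI false

open ExtCitation
open scoped Pointwise NumberField nonZeroDivisors

noncomputable section

namespace FLTA.PT.GC

open NT

variable {S : Finset Nat.Primes}

/-- The automorphisms fixing a set of algebraic numbers. -/
def fixer (T : Set Qb) : Subgroup GQ where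
  carrier := {s | ∀ x ∈ T, s x = x}
  one_mem' _ _ := rfl
  mul_mem' {a b} ha hb x hx := by rw [AlgEquiv.mul_apply, hb x hx, ha x hx]
  inv_mem' {a} ha x hx := by
    exact (congrArg (⇑a⁻¹) (ha x hx)).symm.trans (a.symm_apply_apply x)

theorem fixer_mem_lvlS (T : Set Qb) (hfin : T.Finite) (hst : ∀ (g : GQ), ∀ x ∈ T, g x ∈ T)
    (hI : ∀ q : Nat.Primes, q ∉ S → ∀ A : ValuationSubring Qb, A.LiesOverPrime (q : ℕ) →
      ∀ s ∈ A.inertiaSubgroupIn ℚ, ∀ x ∈ T, s x = x) : fixer T ∈ lvlS S := by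
  refine ⟨⟨fun s hs g x hx => ?_⟩, IntermediateField.adjoin ℚ T, ⟨?_, ?_⟩, ?_⟩
  · rw [AlgEquiv.mul_apply, AlgEquiv.mul_apply, hs _ (hst g⁻¹ x hx)]
    exact g.apply_symm_apply x
  · haveI := hfin.to_subtype
    exact IntermediateField.finiteDimensional_adjoin fun x _ =>
      (AlgebraicClosure.isAlgebraic ℚ).isAlgebraic x |>.isIntegral
  · intro q hq A hA σ hσ
    have hle : IntermediateField.adjoin ℚ T ≤
        IntermediateField.fixedField (Subgroup.zpowers σ) := by
      rw [IntermediateField.adjoin_le_iff]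
      intro x hx g
      have h1 : σ ∈ MulAction.stabilizer GQ x := hI q hq A hA σ hσ x hx
      exact Subgroup.zpowers_le.2 h1 g.2
    rw [IntermediateField.mem_fixingSubgroup_iff]
    exact fun x hx => (hle hx ⟨σ, Subgroup.mem_zpowers σ⟩)
  · intro s hs x hx
    exact (IntermediateField.mem_fixingSubgroup_iff _ _).1 hs x
      (IntermediateField.subset_adjoin ℚ T hx)

/-- The underlying algebraic number of an element of `ℚ̄ˣ`. -/
abbrev cv (a : Mq) : Qb := ((Additive.toMul a : Qbˣ) : Qb)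

theorem absv_atPlace (q : Nat.Primes) (g : GQ) (a : Mq) :
    absv q (atPlace q g a) = nv q g (cv a) := rfl

theorem cv_ne_zero (a : Mq) : cv a ≠ 0 := Units.ne_zero _

theorem cv_rep (s : GQ) (a : Mq) : cv (unitsRep s a) = s (cv a) := rfl

theorem cv_add (a b : Mq) : cv (a + b) = cv a * cv b := rfl

theorem cv_nsmul (n : ℕ) (a : Mq) : cv (n • a) = cv a ^ n := by
  simp [cv]

theorem cv_sum {ι : Type*} (s : Finset ι) (f : ι → Mq) : cv (∑ i ∈ s, f i) = ∏ i ∈ s, cv (f i) := by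
  simp [cv]

theorem nv_cv_sum {q : Nat.Primes} {g : GQ} {ι : Type*} (s : Finset ι) (f : ι → Mq) :
    nv q g (cv (∑ i ∈ s, f i)) = ∏ i ∈ s, nv q g (cv (f i)) := by
  classical
  induction s using Finset.induction with
  | empty => rw [Finset.sum_empty, Finset.prod_empty]; exact nv_one
  | insert a s ha ih => rw [Finset.sum_insert ha, Finset.prod_insert ha, cv_add, nv_mul, ih]

theorem cv_injective : Function.Injective cv := fun _ _ h =>
  Additive.toMul.injective (Units.ext h)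

theorem exists_root (n : ℕ) (hn : 0 < n) (w : Mq) : ∃ γ, n • γ = w := by
  obtain ⟨x, hx⟩ := IsAlgClosed.exists_pow_nat_eq (cv w) hn
  have hx0 : x ≠ 0 := fun h => by
    rw [h, zero_pow hn.ne'] at hx
    exact cv_ne_zero _ hx.symm
  exact ⟨Additive.ofMul (Units.mk0 x hx0), cv_injective (by rw [cv_nsmul]; exact hx)⟩

variable {p : ℕ} [Fact p.Prime]

/-- A radical whose power has, at a place of residue characteristic prime to the exponent, the
absolute value of a power of an unramified element, is unramified there. -/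
theorem inertia_fixes_root {q : Nat.Primes} {A : ValuationSubring Qb} (hA : A.LiesOverPrime (q : ℕ))
    {n : ℕ} (hqn : ¬ (q : ℕ) ∣ n) {s : GQ} (hs : s ∈ A.inertiaSubgroupIn ℚ) {x c : Qb}
    (hx : x ≠ 0) (hc : c ≠ 0) (hfix : s (x ^ n) = x ^ n) (hsc : s c = c)
    {g : GQ} (hg : plc q g = A) (h : nv q g x = nv q g c) : s x = x := by
  subst hg
  have hu : x / c ∈ plc q g := by
    rw [mem_plc, nv_div, h, div_self (nv_pos hc).ne']
  have h1 := (FLTA.Galois.mem_inertiaSubgroupIn_iff.1 hs).2 _ hu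
  rw [map_div₀, hsc, mem_plc_nonunits] at h1
  set η := s x / x
  have hη : η ^ n = 1 := by
    rw [div_pow, ← map_pow, hfix, div_self (pow_ne_zero _ hx)]
  have h2 : η - 1 ∈ (plc q g).nonunits := by
    rw [mem_plc_nonunits]
    have e : η - 1 = (s x / c - x / c) / (x / c) := by
      simp only [η]; field_simp
    rw [e, nv_div]
    have h3 : nv q g (x / c) = 1 := by rw [nv_div, h, div_self (nv_pos hc).ne']
    rw [h3, div_one]
    exact h1
  have := FLTA.Galois.eq_of_sub_mem_nonunits_of_pow_eq_one q.2 hA hqn hη (one_pow n) h2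
  rwa [div_eq_one_iff_eq hx] at this

theorem CycLayer.exists_gamma (D : CycLayer p S) (a : Mq) (ha : a ∈ fixedBy unitsRep D.G₀)
    (hloc : ∀ q, q ∉ S → ∀ g, IsLocalNormAt D.G₁ D.G₀ q g a) :
    ∃ (h : ℕ) (W : Subgroup GQ) (γ : Mq), ¬ p ∣ h ∧ W ∈ lvlS S ∧ W ≤ D.G₁ ∧
      γ ∈ fixedBy unitsRep W ∧
      (∀ q, q ∉ S → ∀ g, ∀ s ∈ D.G₁,
        absv q (atPlace q g (unitsRep s γ)) = absv q (atPlace q g γ)) ∧
      ∀ q, q ∉ S → ∀ g,
        absv q (atPlace q g (h • a)) =
          absv q (atPlace q g (∑ i ∈ Finset.range p, unitsRep (D.σ ^ i) γ)) := by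
  classical
  have hp : p.Prime := Fact.out
  haveI := D.normal₁
  -- reduce to an integral element
  have halg : IsAlgebraic ℤ (cv a) :=
    (IsFractionRing.isAlgebraic_iff ℤ ℚ Qb).2 ((AlgebraicClosure.isAlgebraic ℚ).isAlgebraic (cv a))
  obtain ⟨m, hm, hint⟩ := halg.exists_integral_multiple
  have hm0 : ((m : ℤ) : Qb) ≠ 0 := Int.cast_ne_zero.2 hm
  set mU : Mq := Additive.ofMul (Units.mk0 ((m : ℤ) : Qb) hm0)
  have hmfix : ∀ s : GQ, unitsRep s mU = mU := fun s =>
    cv_injective (by rw [cv_rep]; exact map_intCast s m)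
  set a' : Mq := a + p • mU with ha'
  have ha'G : a' ∈ fixedBy unitsRep D.G₀ := fun s hs => by
    rw [ha', map_add, map_nsmul, hmfix, ha s hs]
  have hint' : IsIntegral ℤ (cv a') := by
    have e : cv a' = ((m : ℤ) • cv a) * ((m : ℤ) : Qb) ^ (p - 1) := by
      rw [ha', cv_add, cv_nsmul, zsmul_eq_mul]
      show cv a * ((m : ℤ) : Qb) ^ p = _
      conv_lhs => rw [← Nat.sub_add_cancel hp.one_le, pow_succ]
      ring
    rw [e]
    exact hint.mul ((isIntegral_algebraMap (x := m)).pow _)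
  have hloc' : ∀ q, q ∉ S → ∀ g, IsLocalNormAt D.G₁ D.G₀ q g a' := by
    intro q hq g
    unfold IsLocalNormAt
    rw [ha', atPlace_add]
    refine add_mem (hloc q hq g) ?_
    have hle := stabLoc_mono D.le₁ (q := q) g
    have hdvd : (stabLoc q D.G₁ g).relIndex (stabLoc q D.G₀ g) ∣ p := by
      have e : (D.G₁.subgroupOf D.G₀).comap (placeHom q D.G₀ g) =
          (stabLoc q D.G₁ g).subgroupOf (stabLoc q D.G₀ g) := by
        ext x
        simp only [Subgroup.mem_comap, Subgroup.mem_subgroupOf, mem_stabLoc]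
        rfl
      rw [Subgroup.relIndex, ← e, Subgroup.index_comap]
      exact (Subgroup.relIndex_dvd_index_of_normal _ _).trans (dvd_of_eq D.relIndex)
    obtain ⟨c, hc⟩ := hdvd
    have hne : (stabLoc q D.G₁ g).relIndex (stabLoc q D.G₀ g) ≠ 0 := fun h0 =>
      hp.ne_zero (by rw [hc, h0, zero_mul])
    have hfix : atPlace q g mU ∈ fixedBy (unitsRepLoc q) (stabLoc q D.G₀ g) :=
      atPlace_mem_fixedBy fun s _ => hmfix s
    have hat : atPlace q g (p • mU) = c • ((stabLoc q D.G₁ g).relIndex (stabLoc q D.G₀ g) •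
        atPlace q g mU) := by
      rw [← mul_nsmul, ← hc]
      unfold atPlace
      rw [map_nsmul, map_nsmul]
    rw [hat]
    exact nsmul_mem (nsmul_mem_normsFrom _ hle hne hfix) c
  have hmem : cv a' ∈ D.L := mem_fixedK_iff.2 fun s hs =>
    (cv_rep s a').symm.trans (congrArg cv (ha'G s (D.le₁ hs)))
  let α : 𝓞 D.L := ⟨⟨cv a', hmem⟩,
    (isIntegral_algHom_iff D.L.val.toRingHom.toIntAlgHom D.L.val.injective).mp hint'⟩
  obtain ⟨I, hI0, hI⟩ := D.exists_ideal α (cv_ne_zero a') a' rfl ha'G hloc'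
  -- a power of `I` is principal
  set N := Nat.card (ClassGroup (𝓞 D.L)) with hNdef
  have hNpos : 0 < N := Nat.card_pos
  obtain ⟨k, h, hph, hN⟩ : ∃ k h, ¬ p ∣ h ∧ N = p ^ k * h :=
    Nat.exists_eq_pow_mul_and_not_dvd hNpos.ne' p hp.ne_one
  have hprinc : (I ^ N).IsPrincipal := by
    have hI' : I ^ N ∈ (Ideal (𝓞 D.L))⁰ :=
      mem_nonZeroDivisors_of_ne_zero (pow_ne_zero _ hI0)
    rw [← ClassGroup.mk0_eq_one_iff hI']
    have : (⟨I ^ N, hI'⟩ : (Ideal (𝓞 D.L))⁰) = ⟨I, mem_nonZeroDivisors_of_ne_zero hI0⟩ ^ N := rfl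
    rw [this, map_pow]
    exact pow_card_eq_one'
  obtain ⟨β, hβ⟩ := hprinc.principal
  rw [Ideal.submodule_span_eq] at hβ
  have hβ0 : ((β : D.L) : Qb) ≠ 0 := by
    intro h0
    have : β = 0 := NumberField.RingOfIntegers.coe_injective (Subtype.coe_injective h0)
    exact pow_ne_zero N hI0 (by rw [hβ, this, Ideal.span_singleton_eq_bot.2 rfl]; rfl)
  set βU : Mq := Additive.ofMul (Units.mk0 _ hβ0) with hβU
  obtain ⟨γ, hγ⟩ := exists_root (p ^ k) (pow_pos hp.pos k) βU
  have hγβ : cv γ ^ p ^ k = ((β : D.L) : Qb) := by rw [← cv_nsmul, hγ]; rfl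
  have hγv : ∀ q g, nv q g (cv γ) = idv q g I ^ h := by
    intro q g
    refine (pow_left_inj₀ (nv_nonneg _) (pow_nonneg (idv_nonneg I) h)
      (pow_pos hp.pos k).ne').1 ?_
    rw [← nv_pow, hγβ, ← idv_span_singleton, ← hβ, idv_pow, hN, ← pow_mul, mul_comm]
  -- the root is unramified outside `S`
  set T : Set Qb := Set.range fun g : GQ => g (cv γ) with hT
  have hTfin : T.Finite := by
    haveI hi : IsIntegral ℚ (cv γ) :=
      ((AlgebraicClosure.isAlgebraic ℚ).isAlgebraic (cv γ)).isIntegral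
    refine ((minpoly ℚ (cv γ)).rootSet Qb).toFinite.subset ?_
    rintro _ ⟨g, rfl⟩
    rw [Polynomial.mem_rootSet]
    exact ⟨minpoly.ne_zero hi, by
      show Polynomial.aeval (g.toAlgHom (cv γ)) (minpoly ℚ (cv γ)) = 0
      rw [Polynomial.aeval_algHom_apply, minpoly.aeval, map_zero]⟩
  have hunr : fixer T ∈ lvlS S := by
    refine fixer_mem_lvlS T hTfin ?_ ?_
    · rintro g _ ⟨g', rfl⟩
      exact ⟨g * g', rfl⟩
    rintro q hq A hA s hs _ ⟨g, rfl⟩
    have hs' : g⁻¹ * s * g ∈ (g⁻¹ • A).inertiaSubgroupIn ℚ := by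
      rw [FLTA.Galois.inertiaSubgroupIn_smul_iff]
      simpa [mul_assoc] using hs
    have hA' : (g⁻¹ • A).LiesOverPrime (q : ℕ) := (FLTA.Galois.liesOverPrime_smul_iff g⁻¹).2 hA
    have hsG₁ : g⁻¹ * s * g ∈ D.G₁ :=
      inertia_le_of_isOpenLvl_lvlS ⟨_, D.mem₁, le_rfl⟩ hq hA' hs'
    obtain ⟨g', hg'⟩ := exists_plc_eq q hA'
    obtain ⟨x, -, hx⟩ := exists_idv_eq (q := q) (g := g') (I ^ h)
    rw [idv_pow, ← hγv] at hx
    have hx0 : ((x : D.L) : Qb) ≠ 0 := fun h0 => by
      rw [h0, nv_zero] at hx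
      exact (nv_pos (cv_ne_zero γ)).ne hx
    have hqn : ¬ (q : ℕ) ∣ p ^ k := fun hd => hq (by
      have hqp := (Nat.prime_dvd_prime_iff_eq q.2 hp).1 (q.2.dvd_of_dvd_pow hd)
      have hS := D.mem_S
      rwa [show q = pPrime p from Subtype.ext hqp])
    have hkey : (g⁻¹ * s * g) (cv γ) = cv γ := by
      refine inertia_fixes_root hA' hqn hs' (cv_ne_zero γ) hx0 ?_ ?_ hg' hx.symm
      · rw [hγβ]; exact mem_fixedK_iff.1 (β : D.L).2 _ hsG₁
      · exact mem_fixedK_iff.1 (x : D.L).2 _ hsG₁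
    have h2 : g ((g⁻¹ * s * g) (cv γ)) = s (g (cv γ)) := by
      rw [AlgEquiv.mul_apply, AlgEquiv.mul_apply]
      exact g.apply_symm_apply _
    rw [hkey] at h2
    exact h2.symm
  refine ⟨h * N / N, fixer T ⊓ D.G₁, γ - h • mU, ?_, (lvlS S).inf_mem _ hunr _ D.mem₁,
    inf_le_right, ?_, ?_, ?_⟩
  · rwa [Nat.mul_div_left _ hNpos]
  · intro s hs
    rw [map_sub, map_nsmul, hmfix]
    congr 1
    exact cv_injective (hs.1 _ ⟨1, rfl⟩)
  · intro q hq g s hs
    rw [map_sub, map_nsmul, hmfix]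
    refine congrArg (fun z => z) ?_
    have key : nv q g (cv (unitsRep s γ)) = nv q g (cv γ) := by
      refine (pow_left_inj₀ (nv_nonneg _) (nv_nonneg _) (pow_pos hp.pos k).ne').1 ?_
      rw [← nv_pow, ← nv_pow, cv_rep, ← map_pow, hγβ, mem_fixedK_iff.1 (β : D.L).2 _ hs]
    unfold atPlace
    rw [map_sub, map_sub, map_sub, map_sub, absv_sub, absv_sub]
    exact congrArg (· / _) key
  · intro q hq g
    rw [Nat.mul_div_left _ hNpos]
    have hsum : ∑ i ∈ Finset.range p, unitsRep (D.σ ^ i) (γ - h • mU) =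
        (∑ i ∈ Finset.range p, unitsRep (D.σ ^ i) γ) - h • p • mU := by
      simp only [map_sub, map_nsmul, hmfix, Finset.sum_sub_distrib, Finset.sum_const,
        Finset.card_range]
      rw [smul_comm]
    have key : nv q g (cv (∑ i ∈ Finset.range p, unitsRep (D.σ ^ i) γ)) = nv q g (cv (h • a')) := by
      rw [nv_cv_sum, cv_nsmul, nv_pow, show cv a' = ((α : D.L) : Qb) from rfl, ← hI q hq g,
        ← Finset.prod_pow]
      refine Finset.prod_congr rfl fun i _ => ?_
      rw [cv_rep, nv_apply, hγv]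
    have e : h • a = h • a' - h • p • mU := by rw [ha', nsmul_add, add_sub_cancel_right]
    rw [e, hsum]
    unfold atPlace
    rw [map_sub, map_sub, map_sub, map_sub, absv_sub, absv_sub]
    exact congrArg (· / _) key.symm

end FLTA.PT.GC

end
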