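import Fermat.Agent.PoitouTate.Decomp
import Fermat.Agent.Galois.PlacesFinite

/-!
# Absolute values of ideals at the places `(q, g)`
-/

set_option autoImplicit false
set_option linter.style.haveILetI false

open ExtCitation
open scoped Pointwise NumberField nonZeroDivisors

noncomputable section

namespace FLTA.PT.GC

/-- The absolute value at `(q, g)`. -/
def nv (q : Nat.Primes) (g : GQ) (x : Qb) : ℝ :=
  haveI : Fact (q : ℕ).Prime := ⟨q.2⟩
  ‖iota q (g x)‖

variable {q : Nat.Primes} {g : GQ}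

theorem nv_mul (x y : Qb) : nv q g (x * y) = nv q g x * nv q g y := by
  haveI : Fact (q : ℕ).Prime := ⟨q.2⟩
  rw [nv, map_mul, map_mul]; exact norm_mul _ _

theorem nv_one : nv q g 1 = 1 := by
  haveI : Fact (q : ℕ).Prime := ⟨q.2⟩
  rw [nv, map_one, map_one]; exact norm_one

theorem nv_zero : nv q g 0 = 0 := by
  haveI : Fact (q : ℕ).Prime := ⟨q.2⟩
  rw [nv, map_zero, map_zero]; exact norm_zero

theorem nv_nonneg (x : Qb) : 0 ≤ nv q g x := by
  haveI : Fact (q : ℕ).Prime := ⟨q.2⟩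
  exact norm_nonneg _

theorem nv_pos {x : Qb} (hx : x ≠ 0) : 0 < nv q g x := by
  haveI : Fact (q : ℕ).Prime := ⟨q.2⟩
  exact norm_pos_iff.2 ((map_ne_zero _).2 ((map_ne_zero_iff _ g.injective).2 hx))

theorem nv_pow (x : Qb) (n : ℕ) : nv q g (x ^ n) = nv q g x ^ n := by
  induction n with
  | zero => rw [pow_zero, pow_zero, nv_one]
  | succ n ih => rw [pow_succ, pow_succ, nv_mul, ih]

theorem nv_inv (x : Qb) : nv q g x⁻¹ = (nv q g x)⁻¹ := by
  haveI : Fact (q : ℕ).Prime := ⟨q.2⟩
  rw [nv, map_inv₀, map_inv₀]; exact norm_inv _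

theorem nv_div (x y : Qb) : nv q g (x / y) = nv q g x / nv q g y := by
  rw [div_eq_mul_inv, nv_mul, nv_inv, div_eq_mul_inv]

theorem nv_add_le (x y : Qb) : nv q g (x + y) ≤ max (nv q g x) (nv q g y) := by
  haveI : Fact (q : ℕ).Prime := ⟨q.2⟩
  rw [nv, map_add, map_add]
  exact IsUltrametricDist.norm_add_le_max _ _

theorem nv_apply (σ : GQ) (x : Qb) : nv q g (σ x) = nv q (g * σ) x := rfl

/-- The place of `ℚ̄` attached to `(q, g)`. -/
def plc (q : Nat.Primes) (g : GQ) : ValuationSubring Qb := g⁻¹ • primeLocalPlace q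

theorem mem_plc {x : Qb} : x ∈ plc q g ↔ nv q g x ≤ 1 := by
  rw [plc, ValuationSubring.mem_pointwise_smul_iff_inv_smul_mem, inv_inv, AlgEquiv.smul_def,
    mem_primeLocalPlace_iff]
  exact Iff.rfl

theorem mem_plc_nonunits {x : Qb} : x ∈ (plc q g).nonunits ↔ nv q g x < 1 := by
  rw [ValuationSubring.mem_nonunits_iff_or, mem_plc, nv_inv]
  constructor
  · rintro (rfl | h)
    · rw [nv_zero]; exact one_pos
    · by_contra hc
      exact h ((inv_le_one₀ (lt_of_lt_of_le one_pos (not_lt.1 hc))).2 (not_lt.1 hc))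
  · intro h
    by_cases hx : x = 0
    · exact Or.inl hx
    · refine Or.inr fun h' => ?_
      rw [inv_le_one₀ (nv_pos hx)] at h'
      exact absurd h (not_lt.2 h')

theorem liesOverPrime_plc (q : Nat.Primes) (g : GQ) : (plc q g).LiesOverPrime (q : ℕ) :=
  (FLTA.Galois.liesOverPrime_smul_iff g⁻¹).2 (primeLocalPlace_liesOverPrime q)

theorem exists_plc_eq (q : Nat.Primes) {A : ValuationSubring Qb} (hA : A.LiesOverPrime (q : ℕ)) :
    ∃ g, plc q g = A := by
  obtain ⟨g, hg⟩ := FLTA.Galois.exists_smul_eq q.2 (primeLocalPlace_liesOverPrime q) hA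
  exact ⟨g⁻¹, by rw [plc, inv_inv, hg]⟩

theorem nv_le_one_of_isIntegral {x : Qb} (hx : IsIntegral ℤ x) : nv q g x ≤ 1 :=
  mem_plc.1 (FLTA.Galois.mem_of_isIntegral hx)

variable {L : IntermediateField ℚ Qb}

theorem nv_int_le_one (x : 𝓞 L) : nv q g ((x : L) : Qb) ≤ 1 :=
  nv_le_one_of_isIntegral (FLTA.Galois.isIntegral_coe_ringOfIntegers x)

theorem exists_max [FiniteDimensional ℚ L] (q : Nat.Primes) (g : GQ) (I : Ideal (𝓞 L)) :
    ∃ x ∈ I, ∀ y ∈ I, nv q g ((y : L) : Qb) ≤ nv q g ((x : L) : Qb) := by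
  haveI : NumberField L := { to_finiteDimensional := inferInstance }
  classical
  obtain ⟨s, hs⟩ := IsNoetherian.noetherian I
  obtain ⟨x, hx, hmax⟩ := Finset.exists_max_image (insert 0 s)
    (fun y : 𝓞 L => nv q g ((y : L) : Qb)) (Finset.insert_nonempty _ _)
  refine ⟨x, ?_, fun y hy => ?_⟩
  · rcases Finset.mem_insert.1 hx with rfl | hx
    · exact zero_mem _
    · rw [← hs]; exact Submodule.subset_span hx
  · rw [← hs] at hy
    induction hy using Submodule.span_induction with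
    | mem z hz => exact hmax z (Finset.mem_insert_of_mem hz)
    | zero => exact hmax 0 (Finset.mem_insert_self _ _)
    | add a b _ _ ha hb =>
      push_cast
      exact (nv_add_le _ _).trans (max_le ha hb)
    | smul c z _ hz =>
      rw [smul_eq_mul]
      push_cast
      rw [nv_mul]
      exact (mul_le_of_le_one_left (nv_nonneg _) (nv_int_le_one c)).trans hz

variable [FiniteDimensional ℚ L]

/-- The absolute value of an ideal. -/
def idv (q : Nat.Primes) (g : GQ) (I : Ideal (𝓞 L)) : ℝ :=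
  nv q g (((exists_max q g I).choose : L) : Qb)

theorem le_idv {I : Ideal (𝓞 L)} {x : 𝓞 L} (hx : x ∈ I) : nv q g ((x : L) : Qb) ≤ idv q g I :=
  (exists_max q g I).choose_spec.2 x hx

theorem exists_idv_eq (I : Ideal (𝓞 L)) : ∃ x ∈ I, nv q g ((x : L) : Qb) = idv q g I :=
  ⟨_, (exists_max q g I).choose_spec.1, rfl⟩

theorem idv_nonneg (I : Ideal (𝓞 L)) : 0 ≤ idv q g I := nv_nonneg _

theorem idv_span_singleton (x : 𝓞 L) : idv q g (Ideal.span {x}) = nv q g ((x : L) : Qb) := by
  refine le_antisymm ?_ (le_idv (Ideal.mem_span_singleton_self x))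
  obtain ⟨y, hy, hy'⟩ := exists_idv_eq (q := q) (g := g) (Ideal.span {x})
  obtain ⟨c, rfl⟩ := Ideal.mem_span_singleton'.1 hy
  rw [← hy']
  push_cast
  rw [nv_mul]
  exact mul_le_of_le_one_left (nv_nonneg _) (nv_int_le_one c)

theorem idv_top : idv q g (⊤ : Ideal (𝓞 L)) = 1 := by
  rw [← Ideal.span_singleton_one, idv_span_singleton]
  simpa using nv_one

theorem idv_mul (I J : Ideal (𝓞 L)) : idv q g (I * J) = idv q g I * idv q g J := by
  refine le_antisymm ?_ ?_
  · obtain ⟨z, hz, hz'⟩ := exists_idv_eq (q := q) (g := g) (I * J)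
    rw [← hz']
    clear hz'
    induction hz using Submodule.mul_induction_on' with
    | mem_mul_mem a ha b hb =>
      push_cast
      rw [nv_mul]
      exact mul_le_mul (le_idv ha) (le_idv hb) (nv_nonneg _) (idv_nonneg _)
    | add a _ b _ ha hb =>
      push_cast
      exact (nv_add_le _ _).trans (max_le ha hb)
  · obtain ⟨a, ha, ha'⟩ := exists_idv_eq (q := q) (g := g) I
    obtain ⟨b, hb, hb'⟩ := exists_idv_eq (q := q) (g := g) J
    rw [← ha', ← hb', ← nv_mul]
    have h := le_idv (q := q) (g := g) (Ideal.mul_mem_mul ha hb)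
    push_cast at h
    exact h

theorem idv_pow (I : Ideal (𝓞 L)) (n : ℕ) : idv q g (I ^ n) = idv q g I ^ n := by
  induction n with
  | zero => rw [pow_zero, pow_zero, Ideal.one_eq_top, idv_top]
  | succ n ih => rw [pow_succ, pow_succ, idv_mul, ih]

theorem idv_prod {ι : Type*} (s : Finset ι) (f : ι → Ideal (𝓞 L)) :
    idv q g (∏ i ∈ s, f i) = ∏ i ∈ s, idv q g (f i) := by
  classical
  induction s using Finset.induction with
  | empty => rw [Finset.prod_empty, Finset.prod_empty, Ideal.one_eq_top, idv_top]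
  | insert a s ha ih => rw [Finset.prod_insert ha, Finset.prod_insert ha, idv_mul, ih]

/-- Prime ideals meet a place only if they are the prime of that place. -/
theorem idv_eq_one_of_ne {P : Ideal (𝓞 L)} (hP : P.IsMaximal)
    (hne : P ≠ FLTA.Galois.placeIdeal (plc q g) L) : idv q g P = 1 := by
  have hle : ¬ P ≤ FLTA.Galois.placeIdeal (plc q g) L := fun h =>
    hne (hP.eq_of_le (FLTA.Galois.placeIdeal_isPrime).ne_top h)
  obtain ⟨x, hx, hx'⟩ := SetLike.not_le_iff_exists.1 hle
  rw [FLTA.Galois.mem_placeIdeal, mem_plc_nonunits, not_lt] at hx'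
  refine le_antisymm ?_ (hx'.trans (le_idv hx))
  obtain ⟨y, -, hy⟩ := exists_idv_eq (q := q) (g := g) P
  exact hy ▸ nv_int_le_one y

theorem idv_placeIdeal_lt_one (q : Nat.Primes) (g : GQ) :
    idv q g (FLTA.Galois.placeIdeal (plc q g) L) < 1 := by
  obtain ⟨y, hy, hy'⟩ := exists_idv_eq (q := q) (g := g) (FLTA.Galois.placeIdeal (plc q g) L)
  rw [← hy']
  exact mem_plc_nonunits.1 hy

theorem idv_placeIdeal_pos (q : Nat.Primes) (g : GQ) :
    0 < idv q g (FLTA.Galois.placeIdeal (plc q g) L) := by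
  refine lt_of_lt_of_le ?_ (le_idv (FLTA.Galois.natCast_mem_placeIdeal (liesOverPrime_plc q g)))
  refine nv_pos ?_
  simp [q.2.ne_zero]

end FLTA.PT.GC

end
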