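import Fermat.Agent.PoitouTate.NormArith

/-!
# Norms, translations of places, the type of places
-/

set_option autoImplicit false

open ExtCitation

noncomputable section

namespace FLTA.PT.NT

section relNorm

variable {Γ : Type*} [Group Γ] {k : Type*} [CommRing k] {V : Type*} [AddCommGroup V] [Module k V]
  (ρ : Representation k Γ V) {H D : Subgroup Γ}

theorem fixedBy_antitone (h : H ≤ D) : fixedBy ρ D ≤ fixedBy ρ H :=
  fun _ hv s hs => hv s (h hs)

theorem finite_quot_of_relIndex (h : H.relIndex D ≠ 0) : Finite (D ⧸ H.subgroupOf D) :=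
  Nat.finite_of_card_ne_zero h

theorem rho_eq_of_mk_eq {v : V} (hv : v ∈ fixedBy ρ H) {x y : D}
    (h : (x : D ⧸ H.subgroupOf D) = y) : ρ (x : Γ) v = ρ (y : Γ) v := by
  rw [QuotientGroup.eq, Subgroup.mem_subgroupOf] at h
  have e : (y : Γ) = x * ((x⁻¹ * y : D) : Γ) := by simp
  rw [e, map_mul, Module.End.mul_apply, hv _ h]

theorem relNorm_apply [Fintype (D ⧸ H.subgroupOf D)] (v : V) :
    relNorm ρ H D v = ∑ x : D ⧸ H.subgroupOf D, ρ (x.out : Γ) v := by
  rw [relNorm, dif_pos (inferInstance : Finite (D ⧸ H.subgroupOf D)), LinearMap.sum_apply]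
  congr!

/-- The norm as a sum over any system of representatives. -/
theorem relNorm_eq_sum {ι : Type*} [Fintype ι] (e : ι → D)
    (he : Function.Bijective fun i => (e i : D ⧸ H.subgroupOf D)) {v : V} (hv : v ∈ fixedBy ρ H) :
    relNorm ρ H D v = ∑ i, ρ (e i : Γ) v := by
  classical
  haveI := Fintype.ofEquiv ι (Equiv.ofBijective _ he)
  rw [relNorm_apply ρ v]
  refine (Fintype.sum_equiv (Equiv.ofBijective _ he) _ _ fun i => ?_).symm
  exact rho_eq_of_mk_eq ρ hv (by rw [Equiv.ofBijective_apply, QuotientGroup.out_eq'])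

theorem relNorm_of_fixed (h : H.relIndex D ≠ 0) {v : V} (hv : v ∈ fixedBy ρ D) :
    relNorm ρ H D v = H.relIndex D • v := by
  haveI := finite_quot_of_relIndex h
  haveI := Fintype.ofFinite (D ⧸ H.subgroupOf D)
  rw [relNorm_apply ρ v, Finset.sum_congr rfl fun x _ => hv (x.out : Γ) x.out.2, Finset.sum_const,
    Finset.card_univ, ← Nat.card_eq_fintype_card]
  rfl

theorem relNorm_mem_fixedBy {v : V} (hv : v ∈ fixedBy ρ H) : relNorm ρ H D v ∈ fixedBy ρ D := by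
  by_cases hf : Finite (D ⧸ H.subgroupOf D)
  · haveI := Fintype.ofFinite (D ⧸ H.subgroupOf D)
    intro s hs
    rw [relNorm_apply ρ v, map_sum]
    refine Fintype.sum_equiv (MulAction.toPerm (⟨s, hs⟩ : D)) _ _ fun x => ?_
    rw [← Module.End.mul_apply, ← map_mul]
    refine rho_eq_of_mk_eq ρ hv (x := ⟨s, hs⟩ * x.out) ?_
    rw [MulAction.toPerm_apply, QuotientGroup.out_eq']
    conv_rhs => rw [← QuotientGroup.out_eq' x]
    rfl
  · rw [relNorm, dif_neg hf]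
    exact zero_mem _

theorem normsFrom_le : normsFrom ρ H D ≤ fixedBy ρ D := by
  rintro _ ⟨v, hv, rfl⟩
  exact relNorm_mem_fixedBy ρ hv

theorem nsmul_mem_normsFrom (hle : H ≤ D) (h : H.relIndex D ≠ 0) {v : V} (hv : v ∈ fixedBy ρ D) :
    H.relIndex D • v ∈ normsFrom ρ H D :=
  ⟨v, fixedBy_antitone ρ hle hv, relNorm_of_fixed ρ h hv⟩

theorem normsFrom_self : normsFrom ρ D D = fixedBy ρ D := by
  refine le_antisymm (normsFrom_le ρ) fun v hv => ?_
  have h := nsmul_mem_normsFrom ρ (le_refl D) (by simp) hv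
  simpa using h

/-- For a normal subgroup of prime index the norm is the sum over powers of any generator. -/
theorem relNorm_eq_sum_pow [(H.subgroupOf D).Normal] {p : ℕ} [hp : Fact p.Prime]
    (hidx : H.relIndex D = p) {σ : Γ} (hσD : σ ∈ D) (hσH : σ ∉ H) {v : V} (hv : v ∈ fixedBy ρ H) :
    relNorm ρ H D v = ∑ i ∈ Finset.range p, ρ (σ ^ i) v := by
  rw [← Fin.sum_univ_eq_sum_range (fun i => ρ (σ ^ i) v) p]
  refine relNorm_eq_sum ρ (fun i : Fin p => (⟨σ, hσD⟩ : D) ^ (i : ℕ)) ?_ hv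
  haveI := finite_quot_of_relIndex (H := H) (D := D) (hidx ▸ hp.out.ne_zero)
  set x : D ⧸ H.subgroupOf D := QuotientGroup.mk ⟨σ, hσD⟩
  have hx : x ≠ 1 := by
    rw [Ne, QuotientGroup.eq_one_iff, Subgroup.mem_subgroupOf]
    exact hσH
  have hcard : Nat.card (D ⧸ H.subgroupOf D) = p := hidx
  have hord : orderOf x = p :=
    (hp.out.eq_one_or_self_of_dvd _ (hcard ▸ orderOf_dvd_natCard x)).resolve_left
      (mt orderOf_eq_one_iff.1 hx)
  refine (Nat.bijective_iff_injective_and_card _).2 ⟨fun i j hij => Fin.ext ?_, by simp [hcard]⟩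
  have hij' : x ^ (i : ℕ) = x ^ (j : ℕ) := hij
  exact pow_injOn_Iio_orderOf (by simpa [hord] using i.2) (by simpa [hord] using j.2) hij'

theorem sum_pow_mem_normsFrom [(H.subgroupOf D).Normal] {p : ℕ} [Fact p.Prime]
    (hidx : H.relIndex D = p) {σ : Γ} (hσD : σ ∈ D) (hσH : σ ∉ H) {v : V} (hv : v ∈ fixedBy ρ H) :
    ∑ i ∈ Finset.range p, ρ (σ ^ i) v ∈ normsFrom ρ H D :=
  ⟨v, hv, relNorm_eq_sum_pow ρ hidx hσD hσH hv⟩

end relNorm

section translate

variable {q : Nat.Primes} {G : Subgroup GQ}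

theorem absv_unitsRepLoc (q : Nat.Primes) (τ : Gl q) (x : Ml q) :
    absv q (unitsRepLoc q τ x) = absv q x := by
  haveI : Fact (q : ℕ).Prime := ⟨q.2⟩
  exact congrArg NNReal.toReal
    (nnnorm_padicAlgCl_algEquiv (q : ℕ) (locAut q τ) ((Additive.toMul x : (Ql q)ˣ) : Ql q))

theorem atPlace_translate (τ : Gl q) (g : GQ) {h : GQ} (hh : h ∈ G) {a : Mq}
    (ha : a ∈ fixedBy unitsRep G) :
    atPlace q (loc q τ * g * h) a = unitsRepLoc q τ (atPlace q g a) := by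
  unfold atPlace
  rw [map_mul, map_mul, Module.End.mul_apply, Module.End.mul_apply, ha h hh,
    equivariant_iotaUnits q τ]

theorem absv_atPlace_translate (τ : Gl q) (g : GQ) {h : GQ} (hh : h ∈ G) {a : Mq}
    (ha : a ∈ fixedBy unitsRep G) :
    absv q (atPlace q (loc q τ * g * h) a) = absv q (atPlace q g a) := by
  rw [atPlace_translate τ g hh ha, absv_unitsRepLoc]

theorem stabLoc_mono {H : Subgroup GQ} (h : H ≤ G) (g : GQ) : stabLoc q H g ≤ stabLoc q G g :=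
  fun _ hx => mem_stabLoc.2 (h (mem_stabLoc.1 hx))

theorem mem_stabLoc_translate (τ σ : Gl q) (g : GQ) {h : GQ}
    (hh : ∀ x, h⁻¹ * x * h ∈ G ↔ x ∈ G) :
    σ ∈ stabLoc q G (loc q τ * g * h) ↔ τ⁻¹ * σ * τ ∈ stabLoc q G g := by
  rw [mem_stabLoc, mem_stabLoc, ← hh (g⁻¹ * loc q (τ⁻¹ * σ * τ) * g)]
  simp [mul_assoc]

end translate

section placesType

variable {G₀ : Subgroup GQ}

theorem plOf_eq_iff {q : Nat.Primes} {g g' : GQ} :
    plOf G₀ q g = plOf G₀ q g' ↔ ∃ τ : Gl q, g⁻¹ * loc q τ * g' ∈ G₀ := by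
  simp only [plOf, Sigma.mk.injEq, heq_eq_eq, true_and, Quotient.eq'']
  rw [MulAction.orbitRel_apply, MulAction.mem_orbit_iff]
  constructor
  · rintro ⟨⟨_, τ, rfl⟩, hτ⟩
    have h2 := G₀.inv_mem (QuotientGroup.eq.1 hτ)
    refine ⟨τ, ?_⟩
    simpa [mul_assoc] using h2
  · rintro ⟨τ, hτ⟩
    refine ⟨⟨loc q τ, τ, rfl⟩, QuotientGroup.eq.2 ?_⟩
    simpa [mul_assoc] using G₀.inv_mem hτ

theorem plOf_rep (v : Pl G₀) : plOf G₀ v.1 v.rep = v := by
  obtain ⟨q, o⟩ := v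
  simp only [plOf, Pl.rep]
  congr 1
  rw [QuotientGroup.out_eq']
  exact Quotient.out_eq' o

theorem rep_plOf (q : Nat.Primes) (g : GQ) :
    ∃ (τ : Gl q) (h : GQ), h ∈ G₀ ∧ g = loc q τ * (plOf G₀ q g).rep * h := by
  obtain ⟨τ, hτ⟩ := plOf_eq_iff.1 ((plOf_rep (plOf G₀ q g)).symm)
  refine ⟨τ, ((plOf G₀ q g).rep⁻¹ * loc q τ⁻¹ * g), ?_, by simp [mul_assoc]⟩
  have h2 := G₀.inv_mem hτ
  simp [plOf, mul_assoc] at h2 ⊢
  exact h2

theorem absv_atPlace_eq_abs (q : Nat.Primes) (g : GQ) {a : Mq} (ha : a ∈ fixedBy unitsRep G₀) :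
    absv q (atPlace q g a) = (plOf G₀ q g).abs a := by
  obtain ⟨τ, h, hh, e⟩ := rep_plOf (G₀ := G₀) q g
  conv_lhs => rw [e]
  exact absv_atPlace_translate τ _ hh ha

end placesType

end FLTA.PT.NT

end
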