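import Fermat.Agent.PoitouTate.NormLocal
import Fermat.Agent.Galois.Finiteness
import Fermat.Agent.PoitouTate.Decomp

/-!
# Cyclic steps of degree `p` over a field containing `μ_p`
-/

set_option autoImplicit false

open ExtCitation
open scoped Pointwise

noncomputable section

namespace FLTA.PT.NT

section mu

variable (p : ℕ) [hp : Fact p.Prime]

theorem toMul_nsmul_coe (n : ℕ) (x : Mq) :
    ((Additive.toMul (n • x) : Qbˣ) : Qb) = ((Additive.toMul x : Qbˣ) : Qb) ^ n := by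
  rw [toMul_nsmul, Units.val_pow_eq_pow_val]

theorem Mq_ext {x y : Mq}
    (h : ((Additive.toMul x : Qbˣ) : Qb) = ((Additive.toMul y : Qbˣ) : Qb)) : x = y :=
  Additive.toMul.injective (Units.ext h)

/-- `μ_p` is fixed by the kernel of the cyclotomic character. -/
theorem unitsRep_eq_self_of_nsmul_eq_zero {x : Mq} (hx : p • x = 0) {s : GQ}
    (hs : cycloChar p s = 1) : unitsRep s x = x := by
  haveI : NeZero p := ⟨hp.out.ne_zero⟩
  have ht : (Additive.toMul x : Qbˣ) ∈ rootsOfUnity p Qb := by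
    rw [mem_rootsOfUnity, ← toMul_nsmul, hx, toMul_zero]
  have h1 : modularCyclotomicCharacter Qb (card_rootsOfUnity_eq_self p) (s : Qb ≃+* Qb) = 1 := hs
  have h2 := modularCyclotomicCharacter.spec (L := Qb) (card_rootsOfUnity_eq_self p) (s : Qb ≃+* Qb) ht
  rw [h1, Units.val_one, ZMod.val_one, pow_one] at h2
  exact Mq_ext h2

theorem exists_ne_zero_nsmul_eq_zero : ∃ ζ : Mq, ζ ≠ 0 ∧ p • ζ = 0 := by
  haveI : NeZero p := ⟨hp.out.ne_zero⟩
  have hcard := card_rootsOfUnity_eq_self p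
  haveI : Nontrivial (rootsOfUnity p Qb) :=
    Finite.one_lt_card_iff_nontrivial.1 (by rw [hcard]; exact hp.out.one_lt)
  obtain ⟨⟨t, ht⟩, hne⟩ := exists_ne (1 : rootsOfUnity p Qb)
  refine ⟨Additive.ofMul t, fun h => hne (Subtype.ext (congrArg Additive.toMul h)), ?_⟩
  rw [← ofMul_pow, (mem_rootsOfUnity p t).1 ht]
  rfl

theorem exists_nsmul_eq (e : Mq) : ∃ r : Mq, p • r = e := by
  obtain ⟨z, hz⟩ := IsAlgClosed.exists_pow_nat_eq ((Additive.toMul e : Qbˣ) : Qb) hp.out.pos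
  have hz0 : z ≠ 0 := fun h => (Additive.toMul e).ne_zero (by
    rw [← hz, h, zero_pow hp.out.ne_zero])
  exact ⟨Additive.ofMul (Units.mk0 z hz0), Mq_ext (by rw [toMul_nsmul_coe]; exact hz)⟩

end mu

variable {p : ℕ} [hp : Fact p.Prime]

/-- `G₁ ≤ G₀` is a cyclic step of degree `p`, over a field containing `μ_p`. -/
structure CycStep (p : ℕ) [Fact p.Prime] (G₁ G₀ : Subgroup GQ) : Prop where
  open₁ : IsOpenLvl lvlQ G₁
  le : G₁ ≤ G₀
  normal : (G₁.subgroupOf G₀).Normal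
  idx : G₁.relIndex G₀ = p
  mu : ∀ s ∈ G₀, cycloChar p s = 1

theorem isOpenLvl_stabLoc {G : Subgroup GQ} (hG : IsOpenLvl lvlQ G) (q : Nat.Primes) (g : GQ) :
    IsOpenLvl (lvlLoc q) (stabLoc q G g) := by
  obtain ⟨U, hU, hle⟩ := hG
  refine ⟨U.comap (loc q), ⟨U, hU, rfl⟩, fun τ hτ => mem_stabLoc.2 (hle ?_)⟩
  simpa using (lvlQ.normal_of_mem U hU).conj_mem _ hτ g⁻¹

theorem finiteIndex_of_isOpenLvl {G : Subgroup GQ} (hG : IsOpenLvl lvlQ G) : G.FiniteIndex := by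
  obtain ⟨U, hU, hle⟩ := hG
  haveI := lvlQ.finiteIndex_of_mem U hU
  exact Subgroup.finiteIndex_of_le hle

theorem finite_placesAt {G : Subgroup GQ} (hG : IsOpenLvl lvlQ G) (q : Nat.Primes) :
    Finite (PlacesAt q G) := by
  haveI := finiteIndex_of_isOpenLvl hG
  exact Quotient.finite _

/-- Places over finitely many primes form a finite set. -/
theorem finite_setOf_mem {G : Subgroup GQ} (hG : IsOpenLvl lvlQ G) (S : Finset Nat.Primes) :
    {v : Pl G | v.1 ∈ S}.Finite := by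
  have : {v : Pl G | v.1 ∈ S} = ⋃ q ∈ (S : Set Nat.Primes), Set.range fun o => (⟨q, o⟩ : Pl G) := by
    ext ⟨q, o⟩
    simp only [Set.mem_setOf_eq, Set.mem_iUnion, Set.mem_range]
    constructor
    · exact fun h => ⟨q, h, o, rfl⟩
    · rintro ⟨q', hq', o', h⟩
      obtain rfl : q' = q := congrArg Sigma.fst h
      exact hq'
  rw [this]
  exact S.finite_toSet.biUnion fun q _ => (haveI := finite_placesAt hG q; Set.finite_range _)

/-- The restriction of a place of `L` to `K`. -/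
def down {G₁ : Subgroup GQ} (G₀ : Subgroup GQ) (w : Pl G₁) : Pl G₀ := plOf G₀ w.1 w.rep

theorem down_plOf {G₁ G₀ : Subgroup GQ} (hle : G₁ ≤ G₀) (q : Nat.Primes) (g : GQ) :
    down G₀ (plOf G₁ q g) = plOf G₀ q g := by
  obtain ⟨τ, hτ⟩ := plOf_eq_iff.1 (plOf_rep (plOf G₁ q g))
  exact plOf_eq_iff.2 ⟨τ, hle hτ⟩

namespace CycStep

variable {G₁ G₀ : Subgroup GQ} (hC : CycStep p G₁ G₀)

include hC

theorem open₀ : IsOpenLvl lvlQ G₀ := isOpenLvl_mono hC.open₁ hC.le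

theorem mu₁ : ∀ s ∈ G₁, cycloChar p s = 1 := fun s hs => hC.mu s (hC.le hs)

theorem conj_iff {h : GQ} (hh : h ∈ G₀) (x : GQ) : h⁻¹ * x * h ∈ G₁ ↔ x ∈ G₁ := by
  constructor
  · intro hx
    have h2 := hC.normal.conj_mem ⟨h⁻¹ * x * h, hC.le hx⟩ hx ⟨h, hh⟩
    rw [Subgroup.mem_subgroupOf] at h2
    simpa [mul_assoc] using h2
  · intro hx
    have h2 := hC.normal.conj_mem ⟨x, hC.le hx⟩ hx ⟨h⁻¹, G₀.inv_mem hh⟩
    rw [Subgroup.mem_subgroupOf] at h2
    simpa using h2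

theorem unitsRep_mem {s : GQ} (hs : s ∈ G₀) {x : Mq} (hx : x ∈ fixedBy unitsRep G₁) :
    unitsRep s x ∈ fixedBy unitsRep G₁ := by
  intro u hu
  rw [← Module.End.mul_apply, ← map_mul,
    show u * s = s * (s⁻¹ * u * s) by simp [mul_assoc], map_mul, Module.End.mul_apply,
    hx _ ((hC.conj_iff hs u).2 hu)]

theorem exists_char : ∃ χ : G₀ →* Multiplicative (ZMod p),
    (∀ s : G₀, χ s = 1 ↔ (s : GQ) ∈ G₁) ∧ Function.Surjective χ := by
  haveI := hC.normal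
  have hcard : Nat.card (G₀ ⧸ G₁.subgroupOf G₀) = p := hC.idx
  have hcyc : IsCyclic (G₀ ⧸ G₁.subgroupOf G₀) := isCyclic_of_prime_card hcard
  have e := (zmodCyclicMulEquiv hcyc).symm
  rw [hcard] at e
  refine ⟨e.toMonoidHom.comp (QuotientGroup.mk' _), fun s => ?_, ?_⟩
  · simp [Subgroup.mem_subgroupOf]
  · exact e.surjective.comp (QuotientGroup.mk'_surjective _)

theorem stab_le (q : Nat.Primes) (g : GQ) : stabLoc q G₁ g ≤ stabLoc q G₀ g := stabLoc_mono hC.le g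

theorem stab_subgroupOf_eq (q : Nat.Primes) (g : GQ) :
    (stabLoc q G₁ g).subgroupOf (stabLoc q G₀ g) =
      (G₁.subgroupOf G₀).comap (placeHom q G₀ g) := by
  ext τ
  simp [Subgroup.mem_subgroupOf, mem_stabLoc, placeHom]

theorem stab_normal (q : Nat.Primes) (g : GQ) :
    ((stabLoc q G₁ g).subgroupOf (stabLoc q G₀ g)).Normal := by
  haveI := hC.normal
  rw [hC.stab_subgroupOf_eq]
  infer_instance

/-- A place is either split or has local degree `p`. -/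
theorem stab_idx {q : Nat.Primes} {g : GQ} (h : stabLoc q G₁ g ≠ stabLoc q G₀ g) :
    (stabLoc q G₁ g).relIndex (stabLoc q G₀ g) = p := by
  haveI := hC.normal
  have hdvd : (stabLoc q G₁ g).relIndex (stabLoc q G₀ g) ∣ p := by
    rw [Subgroup.relIndex, hC.stab_subgroupOf_eq, Subgroup.index_comap]
    exact hC.idx ▸ Subgroup.relIndex_dvd_index_of_normal _ _
  refine (hp.out.eq_one_or_self_of_dvd _ hdvd).resolve_left fun h1 => h ?_
  exact le_antisymm (hC.stab_le q g) (Subgroup.relIndex_eq_one.1 h1)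

theorem open_stab (q : Nat.Primes) (g : GQ) : IsOpenLvl (lvlLoc q) (stabLoc q G₁ g) :=
  isOpenLvl_stabLoc hC.open₁ q g

omit hC in
/-- Outside finitely many primes every place is unramified. -/
theorem exists_finset_unramified (hG : IsOpenLvl lvlQ G₁) : ∃ S : Finset Nat.Primes,
    ∀ q ∉ S, ∀ g : GQ, inertiaLoc q ≤ stabLoc q G₁ g := by
  obtain ⟨U, ⟨-, F, hF, hFU⟩, hU⟩ := hG
  obtain ⟨S, hS⟩ := FLTA.Galois.exists_isUnramifiedOutside F
  refine ⟨S, fun q hq g τ hτ => mem_stabLoc.2 (hU (hFU (hS.2 q hq (g⁻¹ • primeLocalPlace q) ?_ ?_)))⟩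
  · exact (FLTA.Galois.liesOverPrime_smul_iff g⁻¹).2 (primeLocalPlace_liesOverPrime q)
  · rw [FLTA.Galois.inertiaSubgroupIn_smul_iff]
    simpa [mul_assoc] using loc_inertiaLoc_le q τ hτ

/-- Hilbert 90 for a step. -/
theorem exists_eq_sub_of_relNorm_eq_zero {σ : GQ} (hσ : σ ∈ G₀) (hσ1 : σ ∉ G₁) {x : Mq}
    (hx : x ∈ fixedBy unitsRep G₁) (hN : relNorm unitsRep G₁ G₀ x = 0) :
    ∃ y ∈ fixedBy unitsRep G₁, x = unitsRep σ y - y := by
  haveI := hC.normal
  obtain ⟨χ₀, hker₀, -⟩ := hC.exists_char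
  -- normalise the character so that `σ ↦ 1`
  set c₀ := (χ₀ ⟨σ, hσ⟩).toAdd with hc₀
  have hc0 : c₀ ≠ 0 := fun h => hσ1 ((hker₀ ⟨σ, hσ⟩).1
    (Multiplicative.toAdd.injective (by simpa [hc₀] using h)))
  let k : G₀ → ℕ := fun s => ((χ₀ s).toAdd * c₀⁻¹).val
  have hkσ : k ⟨σ, hσ⟩ = 1 := by simp [k, ← hc₀, mul_inv_cancel₀ hc0, ZMod.val_one]
  have hkadd : ∀ s t, k (s * t) = (k s + k t) % p := fun s t => by
    simp [k, add_mul, ZMod.val_add]
  have hkmem : ∀ s : G₀, k s = 0 → (s : GQ) ∈ G₁ := fun s hs => by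
    refine (hker₀ s).1 (Multiplicative.toAdd.injective ?_)
    simpa [k, ZMod.val_eq_zero, hc0] using hs
  have hkσn : ∀ n : ℕ, k (⟨σ, hσ⟩ ^ n) = n % p := by
    intro n
    induction n with
    | zero => simp [k]
    | succ n ih =>
      rw [pow_succ, hkadd, ih, hkσ]
      simp [Nat.add_mod]
  let P : ℕ → Mq := fun n => ∑ i ∈ Finset.range n, unitsRep (σ ^ i) x
  have hPp : P p = 0 := by rw [← hN, relNorm_eq_sum_pow _ hC.idx hσ hσ1 hx]
  have hPadd : ∀ m n, P (m + n) = P m + unitsRep (σ ^ m) (P n) := fun m n => by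
    simp only [P, Finset.sum_range_add, map_sum]
    congr 1
    exact Finset.sum_congr rfl fun i _ => by rw [pow_add, map_mul, Module.End.mul_apply]
  have hσp : σ ^ p ∈ G₁ := by
    have h := Subgroup.pow_index_mem (G₁.subgroupOf G₀) (⟨σ, hσ⟩ : G₀)
    rw [show (G₁.subgroupOf G₀).index = p from hC.idx] at h
    simpa [Subgroup.mem_subgroupOf] using h
  have hPfix : ∀ n, P n ∈ fixedBy unitsRep G₁ := fun n =>
    sum_mem fun i _ => hC.unitsRep_mem (pow_mem hσ i) hx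
  have hPmod : ∀ n, P n = P (n % p) := by
    have h1 : ∀ n, P (n + p) = P n := fun n => by rw [hPadd, hPp, map_zero, add_zero]
    have h2 : ∀ j n, P (n + p * j) = P n := by
      intro j
      induction j with
      | zero => simp
      | succ j ih => intro n; rw [Nat.mul_succ, ← add_assoc, h1, ih]
    intro n
    conv_lhs => rw [← Nat.mod_add_div n p]
    exact h2 _ _
  let c : G₀ → Mq := fun s => P (k s)
  have hc : c ∈ Z1 (lvlQ.comap G₀.subtype) (unitsRep.comp G₀.subtype) := by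
    refine (mem_Z1 _ _).2 ⟨fun s t => ?_, ?_⟩
    · show P (k (s * t)) = unitsRep (s : GQ) (P (k t)) + P (k s)
      rw [hkadd, ← hPmod, hPadd, add_comm]
      congr 1
      have hu : k ((⟨σ, hσ⟩ ^ k s)⁻¹ * s) = 0 := by
        have h3 := hkadd (⟨σ, hσ⟩ ^ k s) ((⟨σ, hσ⟩ ^ k s)⁻¹ * s)
        rw [mul_inv_cancel_left, hkσn] at h3
        have hlt : ∀ u, k u < p := fun u => ZMod.val_lt _
        have := hlt ((⟨σ, hσ⟩ ^ k s)⁻¹ * s)
        rw [Nat.mod_eq_of_lt (hlt s)] at h3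
        rcases Nat.lt_or_ge (k s + k ((⟨σ, hσ⟩ ^ k s)⁻¹ * s)) p with hl | hl
        · rw [Nat.mod_eq_of_lt hl] at h3; omega
        · rw [Nat.mod_eq_sub_mod hl, Nat.mod_eq_of_lt (by have := hlt s; omega)] at h3; omega
      have hmem := hkmem _ hu
      have es : (s : GQ) = σ ^ k s * (((⟨σ, hσ⟩ ^ k s)⁻¹ * s : G₀) : GQ) := by simp
      conv_rhs => rw [es, map_mul, Module.End.mul_apply, hPfix (k t) _ hmem]
    · obtain ⟨U, hU, hUle⟩ := hC.open₁
      refine ⟨U.comap G₀.subtype, ⟨U, hU, rfl⟩, fun s u hu => ?_⟩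
      show P (k (s * u)) = P (k s)
      have : k u = 0 := by simp [k, (hker₀ u).2 (hUle hu)]
      rw [hkadd, this, add_zero, Nat.mod_eq_of_lt (ZMod.val_lt _)]
  obtain ⟨y, hy⟩ := h1Vanishes_unitsRep G₀ hC.open₀ c hc
  refine ⟨y, fun s hs => ?_, ?_⟩
  · have h1 : unitsRep s y - y = P (k ⟨s, hC.le hs⟩) := congrFun hy ⟨s, hC.le hs⟩
    have h0 : k ⟨s, hC.le hs⟩ = 0 := by simp [k, (hker₀ ⟨s, hC.le hs⟩).2 hs]
    rw [h0] at h1
    simpa [P, sub_eq_zero] using h1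
  · have h1 : unitsRep σ y - y = P (k ⟨σ, hσ⟩) := congrFun hy ⟨σ, hσ⟩
    rw [hkσ] at h1
    simpa [P] using h1.symm

/-- Kummer generator of a step. -/
theorem exists_root : ∃ r : Mq, r ∈ fixedBy unitsRep G₁ ∧ p • r ∈ fixedBy unitsRep G₀ ∧
    r ∉ fixedBy unitsRep G₀ := by
  haveI := hC.normal
  obtain ⟨χ, hker, hsurj⟩ := hC.exists_char
  obtain ⟨s₀, hs₀⟩ := hsurj (Multiplicative.ofAdd 1)
  obtain ⟨ζ, hζ0, hζ⟩ := exists_ne_zero_nsmul_eq_zero p
  have hσ1 : (s₀ : GQ) ∉ G₁ := fun h => by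
    have h2 : (1 : ZMod p) = 0 := congrArg Multiplicative.toAdd (hs₀.symm.trans ((hker s₀).2 h))
    exact one_ne_zero h2
  have hfix : ζ ∈ fixedBy unitsRep G₀ := fun s hs =>
    unitsRep_eq_self_of_nsmul_eq_zero p hζ (hC.mu s hs)
  have hN : relNorm unitsRep G₁ G₀ ζ = 0 := by
    rw [relNorm_of_fixed _ (hC.idx ▸ hp.out.ne_zero) hfix, hC.idx, hζ]
  obtain ⟨r, hr, hζr⟩ :=
    hC.exists_eq_sub_of_relNorm_eq_zero s₀.2 hσ1 (fixedBy_antitone _ hC.le hfix) hN
  refine ⟨r, hr, fun s hs => ?_, fun h => hζ0 (by rw [hζr, h _ s₀.2, sub_self])⟩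
  -- write `s = σ ^ i * u` and use `σ (p • r) = p • r`
  have hσfix : unitsRep (s₀ : GQ) (p • r) = p • r := by
    rw [← sub_eq_zero, map_nsmul, ← nsmul_sub, ← hζr, hζ]
  obtain ⟨i, hi⟩ : ∃ i : ℕ, (((s₀ ^ i)⁻¹ * ⟨s, hs⟩ : G₀) : GQ) ∈ G₁ := by
    refine ⟨(χ ⟨s, hs⟩).toAdd.val, (hker _).1 (Multiplicative.toAdd.injective ?_)⟩
    simp [map_pow, hs₀]
  have hpow : ∀ i : ℕ, unitsRep ((s₀ : GQ) ^ i) (p • r) = p • r := by
    intro i
    induction i with
    | zero => simp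
    | succ i ih => rw [pow_succ, map_mul, Module.End.mul_apply, hσfix, ih]
  have es : s = (s₀ : GQ) ^ i * (((s₀ ^ i)⁻¹ * ⟨s, hs⟩ : G₀) : GQ) := by simp
  rw [es, map_mul, Module.End.mul_apply,
    show unitsRep (((s₀ ^ i)⁻¹ * ⟨s, hs⟩ : G₀) : GQ) (p • r) = p • r by
      rw [map_nsmul, hr _ hi], hpow]

end CycStep

/-- The step cut out by a root. -/
theorem exists_cycStep_of_root {G₀ : Subgroup GQ} (hG : IsOpenLvl lvlQ G₀)
    (hμ : ∀ s ∈ G₀, cycloChar p s = 1) {r : Mq} (he : p • r ∈ fixedBy unitsRep G₀)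
    (hr : r ∉ fixedBy unitsRep G₀) :
    ∃ G₁, CycStep p G₁ G₀ ∧ (∀ s : GQ, s ∈ G₁ ↔ s ∈ G₀ ∧ unitsRep s r = r) ∧
      r ∈ fixedBy unitsRep G₁ := by
  have htor : ∀ s ∈ G₀, p • (unitsRep s r - r) = 0 := fun s hs => by
    rw [nsmul_sub, ← map_nsmul, he s hs, sub_self]
  have hfix : ∀ s ∈ G₀, ∀ t ∈ G₀, unitsRep t (unitsRep s r - r) = unitsRep s r - r := fun s hs t ht =>
    unitsRep_eq_self_of_nsmul_eq_zero p (htor s hs) (hμ t ht)
  let f : G₀ →* Multiplicative Mq := MonoidHom.mk' (fun s => Multiplicative.ofAdd (unitsRep s r - r))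
    (fun s t => by
      apply Multiplicative.toAdd.injective
      show unitsRep ((s : GQ) * t) r - r = (unitsRep s r - r) + (unitsRep t r - r)
      have := hfix t t.2 s s.2
      rw [map_sub] at this
      rw [map_mul, Module.End.mul_apply, ← this]
      abel)
  let G₁ : Subgroup GQ := f.ker.map G₀.subtype
  have hmem : ∀ s : GQ, s ∈ G₁ ↔ s ∈ G₀ ∧ unitsRep s r = r := by
    intro s
    simp only [G₁, Subgroup.mem_map, MonoidHom.mem_ker, Subgroup.coe_subtype]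
    constructor
    · rintro ⟨t, ht, rfl⟩
      exact ⟨t.2, sub_eq_zero.1 (congrArg Multiplicative.toAdd ht)⟩
    · rintro ⟨h1, h2⟩
      exact ⟨⟨s, h1⟩, Multiplicative.toAdd.injective (sub_eq_zero.2 h2), rfl⟩
  have hsub : G₁.subgroupOf G₀ = f.ker :=
    Subgroup.comap_map_eq_self_of_injective G₀.subtype_injective _
  refine ⟨G₁, ⟨?_, fun s hs => ((hmem s).1 hs).1, by rw [hsub]; infer_instance, ?_, hμ⟩, hmem,
    fun s hs => ((hmem s).1 hs).2⟩
  · obtain ⟨U, hU, hUr⟩ := smooth_unitsRep r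
    obtain ⟨U', hU', hle⟩ := hG
    exact ⟨U ⊓ U', lvlQ.inf_mem U hU U' hU', fun s hs => (hmem s).2 ⟨hle hs.2, hUr s hs.1⟩⟩
  · rw [Subgroup.relIndex, hsub, Subgroup.index_ker]
    haveI : NeZero p := ⟨hp.out.ne_zero⟩
    have hsub' : ∀ x : f.range, (Additive.toMul (Multiplicative.toAdd (x : Multiplicative Mq)) : Qbˣ)
        ∈ rootsOfUnity p Qb := by
      rintro ⟨_, s, rfl⟩
      rw [mem_rootsOfUnity, ← toMul_nsmul]
      exact congrArg Additive.toMul (htor s s.2)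
    let ι : f.range →* rootsOfUnity p Qb :=
      MonoidHom.mk' (fun x => ⟨_, hsub' x⟩) (fun x y => Subtype.ext rfl)
    have hι : Function.Injective ι := fun x y h => by
      have h2 : ((ι x : rootsOfUnity p Qb) : Qbˣ) = ((ι y : rootsOfUnity p Qb) : Qbˣ) := by rw [h]
      exact Subtype.ext (Multiplicative.toAdd.injective (Additive.toMul.injective h2))
    have hdvd : Nat.card f.range ∣ p := by
      have := Subgroup.card_dvd_of_injective ι hι
      rwa [card_rootsOfUnity_eq_self p] at this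
    refine (hp.out.eq_one_or_self_of_dvd _ hdvd).resolve_left fun h1 => hr fun s hs => ?_
    have h2 : f ⟨s, hs⟩ = 1 := by
      have := Subgroup.card_eq_one.1 h1
      exact Subgroup.mem_bot.1 (this ▸ ⟨⟨s, hs⟩, rfl⟩)
    exact sub_eq_zero.1 (congrArg Multiplicative.toAdd h2)

end FLTA.PT.NT

end
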