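import Fermat.Agent.PoitouTate.GlobalClassesClass
import Fermat.Agent.PoitouTate.NormBasics
import Fermat.Agent.PoitouTate.NormStep
import Fermat.Agent.PoitouTate.LocalUnits

/-!
# Local behaviour of the Kummer class of a norm
-/

set_option autoImplicit false
set_option linter.style.haveILetI false

open ExtCitation

noncomputable section

namespace FLTA.PT.GC

open NT

variable {p : ℕ} [Fact p.Prime]

/-- `x ↦ ι_q (g x)`. -/
def atMap (q : Nat.Primes) (g : GQ) : Mq →ₗ[ℤ] Ml q := (iotaUnits q).comp (unitsRep g)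

theorem atMap_apply (q : Nat.Primes) (g : GQ) (a : Mq) : atMap q g a = atPlace q g a := rfl

theorem atMap_equivariant (G₀ : Subgroup GQ) (q : Nat.Primes) (g : GQ) (τ : stabLoc q G₀ g)
    (v : Mq) :
    atMap q g (unitsRep (placeHom q G₀ g τ : GQ) v) = unitsRepLoc q τ (atMap q g v) := by
  show iotaUnits q (unitsRep g (unitsRep (g⁻¹ * loc q τ * g) v)) =
    unitsRepLoc q τ (iotaUnits q (unitsRep g v))
  rw [← equivariant_iotaUnits q τ, ← Module.End.mul_apply, ← map_mul,
    ← Module.End.mul_apply, ← map_mul]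
  simp [mul_assoc]

/-- A character of `G₀` with kernel `G₁` seen in the decomposition group of `(q, g)`. -/
def chiAt {G₀ : Subgroup GQ} (χ : G₀ →* Multiplicative (ZMod p)) (q : Nat.Primes) (g : GQ) :
    stabLoc q G₀ g →* Multiplicative (ZMod p) :=
  χ.comp (placeHom q G₀ g)

section carry

variable {G₁ G₀ : Subgroup GQ} (hle : G₁ ≤ G₀) (χ : G₀ →* Multiplicative (ZMod p))
  (hker : ∀ s : G₀, χ s = 1 ↔ (s : GQ) ∈ G₁) (q : Nat.Primes) (g : GQ)

include hker in
theorem chiAt_eq_one_iff (τ : stabLoc q G₀ g) :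
    chiAt χ q g τ = 1 ↔ (τ : Gl q) ∈ stabLoc q G₁ g := by
  rw [chiAt, MonoidHom.comp_apply, hker, mem_stabLoc]
  rfl

include hker in
theorem chiAt_ker : (chiAt χ q g).ker = (stabLoc q G₁ g).subgroupOf (stabLoc q G₀ g) :=
  Subgroup.ext fun τ => by
    rw [MonoidHom.mem_ker, chiAt_eq_one_iff χ hker, Subgroup.mem_subgroupOf]

include hker in
theorem relIndex_stab_of_surjective (hs : Function.Surjective (chiAt χ q g)) :
    (stabLoc q G₁ g).relIndex (stabLoc q G₀ g) = p := by
  rw [Subgroup.relIndex, ← chiAt_ker χ hker, Subgroup.index_ker, MonoidHom.range_eq_top.2 hs,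
    Subgroup.card_top]
  simp

include hker in
theorem stab_le_of_not_surjective (hs : ¬ Function.Surjective (chiAt χ q g)) :
    (∀ τ, chiAt χ q g τ = 1) ∧ stabLoc q G₀ g ≤ stabLoc q G₁ g := by
  have hbot : (chiAt χ q g).range = ⊥ := by
    have hp' : (Nat.card (Multiplicative (ZMod p))).Prime := by
      simpa using (Fact.out : p.Prime)
    have := Fact.mk hp'
    exact (Subgroup.eq_bot_or_eq_top_of_prime_card _).resolve_right
      fun h => hs (MonoidHom.range_eq_top.1 h)
  have h1 : ∀ τ, chiAt χ q g τ = 1 := fun τ =>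
    Subgroup.mem_bot.1 (hbot ▸ MonoidHom.mem_range.2 ⟨τ, rfl⟩)
  exact ⟨h1, fun τ hτ => (chiAt_eq_one_iff χ hker q g ⟨τ, hτ⟩).1 (h1 _)⟩

include hle hker in
/-- The local carry class is trivial exactly on the local norms. -/
theorem carry_chiAt_mem_B2_iff (hG₁ : IsOpenLvl lvlQ G₁) {a : Mq}
    (ha : a ∈ fixedBy unitsRep G₀) :
    carry (chiAt χ q g) (atMap q g a) ∈
        B2 ((lvlLoc q).comap (stabLoc q G₀ g).subtype)
          ((unitsRepLoc q).comp (stabLoc q G₀ g).subtype) ↔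
      IsLocalNormAt G₁ G₀ q g a := by
  haveI : NeZero p := ⟨(Fact.out : p.Prime).ne_zero⟩
  set D := stabLoc q G₀ g with hD
  set D₁ := stabLoc q G₁ g with hD1
  set ρD := (unitsRepLoc q).comp D.subtype with hρD
  set χD := chiAt χ q g with hχD
  have hD₁le : D₁ ≤ D := stabLoc_mono hle g
  have hkerD : ∀ τ : D, χD τ = 1 ↔ (τ : Gl q) ∈ D₁ := chiAt_eq_one_iff χ hker q g
  have hfix : atMap q g a ∈ fixedBy (unitsRepLoc q) D := atPlace_mem_fixedBy ha
  show _ ↔ atMap q g a ∈ normsFrom (unitsRepLoc q) D₁ D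
  by_cases hs : Function.Surjective χD
  · obtain ⟨σD, hσD⟩ := hs (Multiplicative.ofAdd 1)
    have hσD₁ : (σD : Gl q) ∉ D₁ := fun h => by
      rw [(hkerD σD).2 h, eq_comm, ofAdd_eq_one] at hσD
      exact one_ne_zero hσD
    haveI : (D₁.subgroupOf D).Normal := by
      rw [← chiAt_ker χ hker q g]; exact MonoidHom.normal_ker _
    have hidx : D₁.relIndex D = p := relIndex_stab_of_surjective χ hker q g hs
    have hD₁o : IsOpenLvl (lvlLoc q) D₁ := isOpenLvl_stabLoc hG₁ q g
    have hopen : IsOpenLvl ((lvlLoc q).comap D.subtype) χD.ker := by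
      obtain ⟨U, hU, hUle⟩ := hD₁o
      exact ⟨U.comap D.subtype, ⟨U, hU, rfl⟩, fun τ hτ => by
        rw [MonoidHom.mem_ker, hkerD]; exact hUle hτ⟩
    have hv : H1Vanishes ((lvlLoc q).comap D.subtype) ρD χD.ker := by
      intro c hc
      let f : D₁ →* χD.ker :=
        { toFun := fun τ => ⟨⟨τ, hD₁le τ.2⟩, (hkerD _).2 τ.2⟩
          map_one' := rfl
          map_mul' := fun _ _ => rfl }
      have hc' : (fun τ => c (f τ)) ∈
          Z1 ((lvlLoc q).comap D₁.subtype) ((unitsRepLoc q).comp D₁.subtype) := by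
        obtain ⟨h1, U, ⟨U', ⟨W, hW, rfl⟩, rfl⟩, h2⟩ := (mem_Z1 _ _).1 hc
        exact (mem_Z1 _ _).2 ⟨fun x y => h1 (f x) (f y), W.comap D₁.subtype, ⟨W, hW, rfl⟩,
          fun x s hs => h2 (f x) (f s) hs⟩
      obtain ⟨v, hv⟩ := h1Vanishes_unitsRepLoc q D₁ hD₁o _ hc'
      exact ⟨v, funext fun τ => congrFun hv ⟨((τ : D) : Gl q), (hkerD τ).1 τ.2⟩⟩
    rw [carry_mem_B2_iff_exists_norm ((lvlLoc q).comap D.subtype) ρD
      (smooth_comap (smooth_unitsRepLoc q) D.subtype) χD hopen hv σD hσD (fun τ _ => hfix τ τ.2)]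
    constructor
    · rintro ⟨b, hb, hab⟩
      have hb' : b ∈ fixedBy (unitsRepLoc q) D₁ := fun τ hτ =>
        hb ⟨τ, hD₁le hτ⟩ ((hkerD _).2 hτ)
      rw [hab]
      exact sum_pow_mem_normsFrom _ hidx σD.2 hσD₁ hb'
    · rintro ⟨b, hb, hab⟩
      refine ⟨b, fun τ hτ => hb _ ((hkerD τ).1 hτ), ?_⟩
      rw [← hab, relNorm_eq_sum_pow _ hidx σD.2 hσD₁ hb]
      rfl
  · obtain ⟨h1, h2⟩ := stab_le_of_not_surjective χ hker q g hs
    have e : D₁ = D := le_antisymm hD₁le h2
    refine iff_of_true ?_ ?_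
    · have : carry χD (atMap q g a) = 0 := by
        funext ⟨x, y⟩
        simp [carry_apply, h1 x, h1 y, hχD]
      rw [this]
      exact zero_mem _
    · rw [e, normsFrom_self]
      exact hfix

include hle hker in
/-- The class `z` dies at `(q, g)` exactly when `a` is a local norm there. -/
theorem mem_B2_place_iff (hG₁ : IsOpenLvl lvlQ G₁) {a : Mq} (ha : a ∈ fixedBy unitsRep G₀)
    (z : G₀ × G₀ → ZMod p) (η : G₀ → Mq) (hη : IsConst₁ (lvlQ.comap G₀.subtype) η)
    (hz : ∀ x, muQ p (z x) = carry χ a x - d1 (unitsRep.comp G₀.subtype) η x) :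
    pp2 (placeHom q G₀ g) (LinearMap.id : ZMod p →ₗ[ZMod p] ZMod p) z ∈
        B2 ((lvlLoc q).comap (stabLoc q G₀ g).subtype)
          ((muLoc p q).comp (stabLoc q G₀ g).subtype) ↔
      IsLocalNormAt G₁ G₀ q g a := by
  set D := stabLoc q G₀ g with hD
  set L := (lvlLoc q).comap D.subtype with hL
  set ρD := (unitsRepLoc q).comp D.subtype with hρD
  set μD := (muLoc p q).comp D.subtype with hμD
  set u : (ZMod p)ˣ := cycloChar p g with hu
  have hDo : IsOpenLvl (lvlLoc q) D := isOpenLvl_stabLoc (isOpenLvl_mono hG₁ hle) q g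
  set w : D × D → ZMod p := pp2 (placeHom q G₀ g) (LinearMap.id : ZMod p →ₗ[ZMod p] ZMod p) z
    with hw
  set η' : D → Ml q := fun τ => atMap q g (η (placeHom q G₀ g τ)) with hη'
  have key : (fun x => muL p q (((u : ZMod p) • w) x)) =
      carry (chiAt χ q g) (atMap q g a) - d1 ρD η' := by
    funext ⟨x, y⟩
    have h1 : muL p q ((u : ZMod p) * w (x, y)) =
        atMap q g (muQ p (z (placeHom q G₀ g x, placeHom q G₀ g y))) := by
      show iotaUnits q (muQ p _) = iotaUnits q (unitsRep g _)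
      rw [← muQ_equivariant]
      rfl
    show muL p q ((u : ZMod p) * w (x, y)) = _
    rw [h1, hz, map_sub, Pi.sub_apply, carry_apply, carry_apply, map_nsmul, d1_apply, d1_apply,
      map_add, map_sub, MonoidHom.comp_apply, Subgroup.coe_subtype, atMap_equivariant,
      ← map_mul (placeHom q G₀ g)]
    rfl
  have hη'c : IsConst₁ L η' := by
    obtain ⟨_, ⟨U, hU, rfl⟩, hUη⟩ := hη
    refine ⟨(U.comap (loc q)).comap D.subtype, ⟨_, ⟨U, hU, rfl⟩, rfl⟩, fun x s hs => ?_⟩
    show atMap q g (η _) = atMap q g (η _)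
    rw [map_mul, hUη]
    exact (lvlQ.normal_of_mem U hU).conj_mem' _ hs g
  have hd : d1 ρD η' ∈ B2 L ρD := (mem_B2 _ _).2 ⟨η', hη'c, rfl⟩
  rw [← carry_chiAt_mem_B2_iff hle χ hker q g hG₁ ha]
  constructor
  · intro h
    have h1 : (fun x => muL p q (((u : ZMod p) • w) x)) ∈ B2 L ρD :=
      push_mem_B2 (L := L) (ρ := μD) (σ := ρD) (φ := muL p q)
        (fun τ v => muL_equivariant p q τ v) (Submodule.smul_mem _ (u : ZMod p) h)
    rw [key] at h1
    simpa using add_mem h1 hd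
  · intro h
    have h1 : (fun x => muL p q (((u : ZMod p) • w) x)) ∈ B2 L ρD := by
      rw [key]; exact sub_mem h hd
    have h2 := mem_B2_of_muL p q D (smooth_unitsRepLoc q) (h1Vanishes_unitsRepLoc q D hDo) h1
    have h3 := Submodule.smul_mem _ ((u⁻¹ : (ZMod p)ˣ) : ZMod p) h2
    rwa [smul_smul, Units.inv_mul, one_smul] at h3

include hle hker in
theorem isLocalNormAt_nsmul_iff {a : Mq} (ha : a ∈ fixedBy unitsRep G₀) {h : ℕ} (hh : ¬ p ∣ h) :
    IsLocalNormAt G₁ G₀ q g (h • a) ↔ IsLocalNormAt G₁ G₀ q g a := by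
  set N := normsFrom (unitsRepLoc q) (stabLoc q G₁ g) (stabLoc q G₀ g) with hN
  show atPlace q g (h • a) ∈ N ↔ atPlace q g a ∈ N
  rw [← atMap_apply, map_nsmul, atMap_apply]
  have hfix : atPlace q g a ∈ fixedBy (unitsRepLoc q) (stabLoc q G₀ g) := atPlace_mem_fixedBy ha
  refine ⟨fun h1 => ?_, fun h1 => N.smul_of_tower_mem h h1⟩
  have hp : p • atPlace q g a ∈ N := by
    by_cases hs : Function.Surjective (chiAt χ q g)
    · have hidx := relIndex_stab_of_surjective χ hker q g hs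
      have := nsmul_mem_normsFrom (unitsRepLoc q) (stabLoc_mono hle g)
        (by rw [hidx]; exact (Fact.out : p.Prime).ne_zero) hfix
      rwa [hidx] at this
    · have e := le_antisymm (stabLoc_mono hle g) (stab_le_of_not_surjective χ hker q g hs).2
      rw [hN, e, normsFrom_self]
      exact (fixedBy _ _).smul_of_tower_mem p hfix
  obtain ⟨k, m, hkm⟩ := Nat.Coprime.isCoprime ((Nat.Prime.coprime_iff_not_dvd Fact.out).2 hh)
  have gen : ∀ {M : Type} [AddCommGroup M] (v : M), v = k • (p • v) + m • (h • v) := fun v => by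
    rw [← natCast_zsmul v p, ← natCast_zsmul v h, smul_smul, smul_smul, ← add_zsmul, hkm,
      one_zsmul]
  have e : atPlace q g a = k • (p • atPlace q g a) + m • (h • atPlace q g a) := gen _
  rw [e]
  exact N.add_mem (N.smul_mem k hp) (N.smul_mem m h1)

end carry

end FLTA.PT.GC

end
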