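import Fermat.Agent.PoitouTate.NormBasics

/-!
# Local facts for the norm theorem
-/

set_option autoImplicit false

open ExtCitation

noncomputable section

namespace FLTA.PT.NT

variable {q : Nat.Primes}

theorem absv_pos (a : Ml q) : 0 < absv q a := by
  haveI : Fact (q : ℕ).Prime := ⟨q.2⟩
  exact norm_pos_iff.2 (Units.ne_zero _)

theorem absv_nsmul (n : ℕ) (a : Ml q) : absv q (n • a) = absv q a ^ n := by
  induction n with
  | zero => rw [zero_nsmul, absv_zero, pow_zero]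
  | succ n ih => rw [succ_nsmul, absv_add, ih, pow_succ]

theorem absv_zsmul (n : ℤ) (a : Ml q) : absv q (n • a) = absv q a ^ n := by
  cases n with
  | ofNat n => rw [Int.ofNat_eq_natCast, natCast_zsmul, absv_nsmul, zpow_natCast]
  | negSucc n => rw [negSucc_zsmul, absv_neg, absv_nsmul, zpow_negSucc]

theorem absv_sum {ι : Type*} (s : Finset ι) (f : ι → Ml q) :
    absv q (∑ i ∈ s, f i) = ∏ i ∈ s, absv q (f i) := by
  classical
  induction s using Finset.induction with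
  | empty => rw [Finset.sum_empty, Finset.prod_empty, absv_zero]
  | insert a s ha ih => rw [Finset.sum_insert ha, Finset.prod_insert ha, absv_add, ih]

theorem absv_sub (a b : Ml q) : absv q (a - b) = absv q a / absv q b := by
  rw [sub_eq_add_neg, absv_add, absv_neg, div_eq_mul_inv]

theorem isOpenLvl_mono {Γ : Type*} [Group Γ] {L : Lvl Γ} {H D : Subgroup Γ}
    (h : IsOpenLvl L H) (hle : H ≤ D) : IsOpenLvl L D := by
  obtain ⟨U, hU, hUH⟩ := h
  exact ⟨U, hU, hUH.trans hle⟩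

theorem isOpenLvl_inf {Γ : Type*} [Group Γ] {L : Lvl Γ} {H D : Subgroup Γ}
    (h : IsOpenLvl L H) (h' : IsOpenLvl L D) : IsOpenLvl L (H ⊓ D) := by
  obtain ⟨U, hU, hUH⟩ := h
  obtain ⟨U', hU', hUD⟩ := h'
  exact ⟨U ⊓ U', L.inf_mem U hU U' hU', inf_le_inf hUH hUD⟩

variable {p : ℕ} [hp : Fact p.Prime] {H D : Subgroup (Gl q)}

theorem isCyclic_quot_of_relIndex [(H.subgroupOf D).Normal] (hidx : H.relIndex D = p) :
    IsCyclic (D ⧸ H.subgroupOf D) :=
  isCyclic_of_prime_card hidx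

/-- The norm index is `p` for a cyclic extension of degree `p`. -/
theorem relIndex_normsFrom_of_prime (hH : IsOpenLvl (lvlLoc q) H) (hle : H ≤ D)
    [(H.subgroupOf D).Normal] (hidx : H.relIndex D = p) :
    (normsFrom (unitsRepLoc q) H D).toAddSubgroup.relIndex
        (fixedBy (unitsRepLoc q) D).toAddSubgroup = p := by
  haveI := isCyclic_quot_of_relIndex (H := H) (D := D) hidx
  rw [relIndex_normsFrom q H D hH hle, hidx]

/-- Units are norms in unramified extensions. -/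
theorem mem_normsFrom_of_absv_eq_one (hH : IsOpenLvl (lvlLoc q) H) (hle : H ≤ D)
    [(H.subgroupOf D).Normal] (hI : inertiaLoc q ⊓ D ≤ H) {a : Ml q}
    (ha : a ∈ fixedBy (unitsRepLoc q) D) (h1 : absv q a = 1) :
    a ∈ normsFrom (unitsRepLoc q) H D :=
  (mem_normsFrom_iff_of_unramified q H D hH hle hI a ha).2
    ⟨0, zero_mem _, by rw [h1, absv_zero, one_pow]⟩

/-- Unramified extensions do not change the value group. -/
theorem exists_absv_eq_of_unramified (hH : IsOpenLvl (lvlLoc q) H) (hle : H ≤ D)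
    [(H.subgroupOf D).Normal] (hI : inertiaLoc q ⊓ D ≤ H) (hidx : H.relIndex D = p) {w : Ml q}
    (hw : w ∈ fixedBy (unitsRepLoc q) H) :
    ∃ b ∈ fixedBy (unitsRepLoc q) D, absv q w = absv q b := by
  have hN : relNorm (unitsRepLoc q) H D w ∈ normsFrom (unitsRepLoc q) H D := ⟨w, hw, rfl⟩
  obtain ⟨b, hb, heq⟩ :=
    (mem_normsFrom_iff_of_unramified q H D hH hle hI _ (normsFrom_le _ hN)).1 hN
  refine ⟨b, hb, ?_⟩
  haveI := finite_quot_of_relIndex (H := H) (D := D) (hidx ▸ hp.out.ne_zero)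
  haveI := Fintype.ofFinite (D ⧸ H.subgroupOf D)
  rw [relNorm_apply _ w, absv_sum, Finset.prod_congr rfl fun x _ => absv_unitsRepLoc q _ w,
    Finset.prod_const, Finset.card_univ, ← Nat.card_eq_fintype_card] at heq
  exact (pow_left_inj₀ (absv_pos w).le (absv_pos b).le (show H.relIndex D ≠ 0 from hidx ▸ hp.out.ne_zero)).1 heq

/-- Some element has an absolute value which is not a `p`-th power. -/
theorem exists_absv_ne_pow (hD : IsOpenLvl (lvlLoc q) D) :
    ∃ π ∈ fixedBy (unitsRepLoc q) D, ∀ b ∈ fixedBy (unitsRepLoc q) D,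
      absv q π ≠ absv q b ^ p := by
  haveI : NeZero p := ⟨hp.out.ne_zero⟩
  obtain ⟨χ, hs, hI, hopen⟩ := exists_unramified_char q D hD p
  set H := χ.ker.map D.subtype with hH
  have hle : H ≤ D := Subgroup.map_subtype_le _
  have hsub : H.subgroupOf D = χ.ker :=
    Subgroup.comap_map_eq_self_of_injective D.subtype_injective _
  haveI : (H.subgroupOf D).Normal := by rw [hsub]; infer_instance
  have hidx : H.relIndex D = p := by
    rw [Subgroup.relIndex, hsub, Subgroup.index_ker, MonoidHom.range_eq_top.2 hs, Subgroup.card_top,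
      Nat.card_congr (Multiplicative.toAdd), Nat.card_zmod]
  have hHopen : IsOpenLvl (lvlLoc q) H := by
    obtain ⟨U, ⟨V, hV, rfl⟩, hU⟩ := hopen
    obtain ⟨V', hV', hVD⟩ := hD
    refine ⟨V ⊓ V', (lvlLoc q).inf_mem V hV V' hV', fun x hx => ?_⟩
    exact ⟨⟨x, hVD hx.2⟩, hU hx.1, rfl⟩
  have hIH : inertiaLoc q ⊓ D ≤ H := fun x hx =>
    ⟨⟨x, hx.2⟩, hI ⟨x, hx.2⟩ hx.1, rfl⟩
  have hr := relIndex_normsFrom_of_prime (p := p) hHopen hle hidx
  have hnle : ¬ (fixedBy (unitsRepLoc q) D ≤ normsFrom (unitsRepLoc q) H D) := by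
    intro h
    rw [AddSubgroup.relIndex_eq_one.2 h] at hr
    exact hp.out.ne_one hr.symm
  obtain ⟨π, hπ, hπn⟩ := SetLike.not_le_iff_exists.1 hnle
  refine ⟨π, hπ, fun b hb h => hπn ?_⟩
  exact (mem_normsFrom_iff_of_unramified q H D hHopen hle hIH π hπ).2 ⟨b, hb, by rw [hidx]; exact h⟩

/-- Away from `p`, units modulo `p`-th powers form a line. -/
theorem exists_eq_zsmul_add (hD : IsOpenLvl (lvlLoc q) D) (hμ : ∀ s ∈ D, cycloChar p (loc q s) = 1)
    (hqp : (q : ℕ) ≠ p) {a e : Ml q} (ha : a ∈ fixedBy (unitsRepLoc q) D) (ha1 : absv q a = 1)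
    (hna : ∀ b ∈ fixedBy (unitsRepLoc q) D, a ≠ p • b) (he : e ∈ fixedBy (unitsRepLoc q) D)
    (he1 : absv q e = 1) :
    ∃ k : ℤ, ∃ b ∈ fixedBy (unitsRepLoc q) D, e = k • a + p • b := by
  classical
  have hcard := card_fixed_quot_pow q p D hD hμ
  rw [if_neg hqp, add_zero] at hcard
  set P := LinearMap.range ((p : ℤ) • (LinearMap.id :
    fixedBy (unitsRepLoc q) D →ₗ[ℤ] fixedBy (unitsRepLoc q) D)) with hP
  have hmemP : ∀ x : fixedBy (unitsRepLoc q) D,
      x ∈ P ↔ ∃ b ∈ fixedBy (unitsRepLoc q) D, (x : Ml q) = p • b := by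
    intro x
    constructor
    · rintro ⟨b, rfl⟩
      exact ⟨b, b.2, by simp⟩
    · rintro ⟨b, hb, hxb⟩
      exact ⟨⟨b, hb⟩, Subtype.ext (by simp [hxb])⟩
  -- the units subgroup
  let U : AddSubgroup (fixedBy (unitsRepLoc q) D) :=
    { carrier := {x | absv q (x : Ml q) = 1}
      zero_mem' := absv_zero q
      add_mem' := fun {x y} hx hy => by
        show absv q ((x : Ml q) + y) = 1
        rw [absv_add, hx, hy, one_mul]
      neg_mem' := fun {x} hx => by
        show absv q (-(x : Ml q)) = 1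
        rw [absv_neg, hx, inv_one] }
  set π := (P.mkQ).toAddMonoidHom
  set W := U.map π with hW
  have hWne : W ≠ ⊤ := by
    intro h
    obtain ⟨w, hw, hwn⟩ := exists_absv_ne_pow (p := p) hD
    obtain ⟨u, hu, hux⟩ := (h.symm ▸ AddSubgroup.mem_top _ : π ⟨w, hw⟩ ∈ W)
    obtain ⟨b, hb, hxb⟩ := (hmemP _).1 ((Submodule.Quotient.eq P).1 hux.symm)
    apply hwn b hb
    have : w = (u : Ml q) + p • b := eq_add_of_sub_eq' hxb
    rw [this, absv_add, hu, one_mul, absv_nsmul]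
  haveI hfin : Finite (fixedBy (unitsRepLoc q) D ⧸ P) :=
    Nat.finite_of_card_ne_zero (by rw [hcard]; exact pow_ne_zero _ hp.out.ne_zero)
  have hWcard : Nat.card W ∣ p := by
    obtain ⟨i, hi, hWi⟩ := (Nat.dvd_prime_pow hp.out).1 (hcard ▸ W.card_addSubgroup_dvd_card)
    rw [hWi]
    have hi2 : i ≠ 2 := fun h2 => hWne (W.eq_top_of_card_eq (by rw [hWi, h2, hcard]))
    exact (pow_dvd_pow p (show i ≤ 1 by omega)).trans (pow_one p).dvd
  set α := π ⟨a, ha⟩ with hα
  have hαW : AddSubgroup.zmultiples α ≤ W :=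
    AddSubgroup.zmultiples_le_of_mem ⟨⟨a, ha⟩, ha1, rfl⟩
  have hα0 : α ≠ 0 := by
    intro h
    obtain ⟨b, hb, hab⟩ := (hmemP ⟨a, ha⟩).1 ((Submodule.Quotient.mk_eq_zero P).1 h)
    exact hna b hb hab
  have hαp : Nat.card (AddSubgroup.zmultiples α) = p := by
    refine (hp.out.eq_one_or_self_of_dvd _ ((AddSubgroup.card_dvd_of_le hαW).trans hWcard)).resolve_left ?_
    rw [AddSubgroup.card_eq_one, AddSubgroup.zmultiples_eq_bot]
    exact hα0
  have hWeq : AddSubgroup.zmultiples α = W := by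
    refine AddSubgroup.eq_of_le_of_card_ge hαW ?_
    rw [hαp]
    exact Nat.le_of_dvd hp.out.pos hWcard
  obtain ⟨k, hk⟩ := AddSubgroup.mem_zmultiples_iff.1
    (hWeq.symm ▸ ⟨⟨e, he⟩, he1, rfl⟩ : π ⟨e, he⟩ ∈ AddSubgroup.zmultiples α)
  rw [hα, ← map_zsmul] at hk
  obtain ⟨b, hb, hb'⟩ := (hmemP _).1 ((Submodule.Quotient.eq P).1 hk.symm)
  exact ⟨k, b, hb, eq_add_of_sub_eq' hb'⟩

end FLTA.PT.NT

end
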