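import Fermat.Agent.PoitouTate.GlobalClassesIdeal
import Fermat.Agent.PoitouTate.NormTheorem
import Fermat.Agent.PoitouTate.NormLocal
import Fermat.Agent.PoitouTate.LocalFields

/-!
# Everywhere-local norms have divisors which are norms
-/

set_option autoImplicit false
set_option linter.style.haveILetI false

open ExtCitation
open scoped Pointwise NumberField nonZeroDivisors

noncomputable section

namespace FLTA.PT.GC

open NT

/-- The hypotheses shared by the `S`-unit construction. -/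
structure CycLayer (p : ℕ) [Fact p.Prime] (S : Finset Nat.Primes) where
  G₀ : Subgroup GQ
  G₁ : Subgroup GQ
  mem₀ : G₀ ∈ lvlS S
  mem₁ : G₁ ∈ lvlS S
  le₁ : G₁ ≤ G₀
  relIndex : G₁.relIndex G₀ = p
  mem_S : pPrime p ∈ S
  σ : GQ
  σ_mem : σ ∈ G₀
  σ_not_mem : σ ∉ G₁

variable {p : ℕ} [Fact p.Prime] {S : Finset Nat.Primes} (D : CycLayer p S)

theorem CycLayer.normal₀ : D.G₀.Normal := (lvlS S).normal_of_mem _ D.mem₀

theorem CycLayer.normal₁ : D.G₁.Normal := (lvlS S).normal_of_mem _ D.mem₁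

theorem CycLayer.open₁ : IsOpenLvl lvlQ D.G₁ :=
  isOpenLvl_lvlQ_of_lvlS ⟨_, D.mem₁, le_rfl⟩

theorem CycLayer.open₀ : IsOpenLvl lvlQ D.G₀ :=
  isOpenLvl_lvlQ_of_lvlS ⟨_, D.mem₀, le_rfl⟩

/-- The top field. -/
abbrev CycLayer.L : IntermediateField ℚ Qb := fixedK D.G₁

instance CycLayer.finite_L : FiniteDimensional ℚ D.L := finiteDimensional_fixedK _ D.open₁

instance CycLayer.numberField_L : NumberField D.L := numberField_fixedK _ D.open₁

instance CycLayer.normal_L : Normal ℚ D.L := by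
  haveI := FLTA.Galois.qbar_isGalois
  haveI : D.L.fixingSubgroup.Normal := by
    rw [fixingSubgroup_fixedK _ D.open₁]; exact D.normal₁
  haveI : IsGalois ℚ D.L := (InfiniteGalois.normal_iff_isGalois D.L).1 inferInstance
  infer_instance

local notation "res" L => AlgEquiv.restrictNormalHom (F := ℚ) (K₁ := Qb) L

theorem CycLayer.mem_zpow_mul (s : GQ) (hs : s ∈ D.G₀) : ∃ i : ℕ, (D.σ ^ i)⁻¹ * s ∈ D.G₁ := by
  haveI := D.normal₁
  haveI hn : (D.G₁.subgroupOf D.G₀).Normal := inferInstance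
  have hcard : Nat.card (D.G₀ ⧸ D.G₁.subgroupOf D.G₀) = p := D.relIndex
  set x : D.G₀ ⧸ D.G₁.subgroupOf D.G₀ := QuotientGroup.mk ⟨D.σ, D.σ_mem⟩
  have hx : x ≠ 1 := by
    rw [Ne, QuotientGroup.eq_one_iff, Subgroup.mem_subgroupOf]
    exact D.σ_not_mem
  haveI : Finite (D.G₀ ⧸ D.G₁.subgroupOf D.G₀) :=
    Nat.finite_of_card_ne_zero (by rw [hcard]; exact (Fact.out : p.Prime).ne_zero)
  obtain ⟨i, hi⟩ : (QuotientGroup.mk ⟨s, hs⟩ : D.G₀ ⧸ D.G₁.subgroupOf D.G₀) ∈ Submonoid.powers x :=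
    mem_powers_of_prime_card hcard hx
  have h := QuotientGroup.eq.1
    (show ((⟨D.σ, D.σ_mem⟩ ^ i : D.G₀) : D.G₀ ⧸ D.G₁.subgroupOf D.G₀) = _ from hi)
  rw [Subgroup.mem_subgroupOf] at h
  exact ⟨i, by simpa using h⟩

theorem CycLayer.pow_p_mem : D.σ ^ p ∈ D.G₁ := by
  haveI := D.normal₁
  haveI hn : (D.G₁.subgroupOf D.G₀).Normal := inferInstance
  have h : ((⟨D.σ, D.σ_mem⟩ : D.G₀) : D.G₀ ⧸ D.G₁.subgroupOf D.G₀) ^ p = 1 := by
    have hcard : Nat.card (D.G₀ ⧸ D.G₁.subgroupOf D.G₀) = p := D.relIndex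
    conv_lhs => arg 2; rw [← hcard]
    exact pow_card_eq_one'
  rw [← QuotientGroup.mk_pow, QuotientGroup.eq_one_iff, Subgroup.mem_subgroupOf] at h
  exact h

variable {q : Nat.Primes}

theorem CycLayer.placeIdeal_eq (P : Ideal (𝓞 D.L)) [P.IsPrime] (hP : ((q : ℕ) : 𝓞 D.L) ∈ P) :
    ∃ g, FLTA.Galois.placeIdeal (plc q g) D.L = P := by
  obtain ⟨A, hA, hAP⟩ := FLTA.Galois.exists_placeIdeal_eq q.2 P hP
  obtain ⟨g, rfl⟩ := exists_plc_eq q hA
  exact ⟨g, hAP⟩

/-- A prime fixed by `σ` gives a non-split place. -/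
theorem CycLayer.stabLoc_relIndex {g : GQ}
    (h : (res D.L) D.σ • FLTA.Galois.placeIdeal (plc q g) D.L =
      FLTA.Galois.placeIdeal (plc q g) D.L) :
    (stabLoc q D.G₁ g).relIndex (stabLoc q D.G₀ g) = p := by
  obtain ⟨s, hs, hres⟩ := FLTA.Galois.exists_decomposition_restrict_eq q.2 (liesOverPrime_plc q g) h
  have hs₁ : s * D.σ⁻¹ ∈ D.G₁ := by
    rw [← fixingSubgroup_fixedK _ D.open₁, ← FLTA.Galois.restrict_eq_one_iff, map_mul, map_inv,
      hres, mul_inv_cancel]
  have hs₀ : s ∈ D.G₀ := by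
    simpa using D.G₀.mul_mem (D.le₁ hs₁) D.σ_mem
  have hs₁' : s ∉ D.G₁ := fun hc => D.σ_not_mem (by
    simpa using D.G₁.mul_mem (D.G₁.inv_mem hs₁) hc)
  have hd : g * s * g⁻¹ ∈ (primeLocalPlace q).decompositionSubgroup ℚ := by
    have h' : s • g⁻¹ • primeLocalPlace q = g⁻¹ • primeLocalPlace q :=
      MulAction.mem_stabilizer_iff.1 hs
    rw [MulAction.mem_stabilizer_iff, mul_smul, mul_smul, h', smul_inv_smul]
  have hQ : D.G₁ ∈ lvlQ := by
    have h := lvlS_le_lvlQ S D.G₁ D.mem₁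
    rwa [Subgroup.comap_id] at h
  obtain ⟨τ, hτ⟩ := exists_loc_inv_mul_mem q hd hQ
  have h1 : g⁻¹ * loc q τ * g * (g⁻¹ * ((loc q τ)⁻¹ * (g * s * g⁻¹)) * g) = s := by group
  have hu : g⁻¹ * ((loc q τ)⁻¹ * (g * s * g⁻¹)) * g ∈ D.G₁ := D.normal₁.conj_mem' _ hτ g
  have ht : g⁻¹ * loc q τ * g = s * (g⁻¹ * ((loc q τ)⁻¹ * (g * s * g⁻¹)) * g)⁻¹ :=
    eq_mul_inv_of_mul_eq h1
  have ht₀ : τ ∈ stabLoc q D.G₀ g := mem_stabLoc.2 (by
    rw [ht]; exact D.G₀.mul_mem hs₀ (D.G₀.inv_mem (D.le₁ hu)))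
  have ht₁ : τ ∉ stabLoc q D.G₁ g := fun hc => hs₁' (by
    rw [← h1]; exact D.G₁.mul_mem (mem_stabLoc.1 hc) hu)
  have hle : stabLoc q D.G₁ g ≤ stabLoc q D.G₀ g := stabLoc_mono D.le₁ g
  have hne : (stabLoc q D.G₁ g).relIndex (stabLoc q D.G₀ g) ≠ 1 := fun hc =>
    ht₁ (Subgroup.relIndex_eq_one.1 hc ht₀)
  have hdvd : (stabLoc q D.G₁ g).relIndex (stabLoc q D.G₀ g) ∣ p := by
    haveI := D.normal₁
    have e : (D.G₁.subgroupOf D.G₀).comap (placeHom q D.G₀ g) =
        (stabLoc q D.G₁ g).subgroupOf (stabLoc q D.G₀ g) := by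
      ext x
      simp only [Subgroup.mem_comap, Subgroup.mem_subgroupOf, mem_stabLoc]
      rfl
    rw [Subgroup.relIndex, ← e, Subgroup.index_comap]
    exact (Subgroup.relIndex_dvd_index_of_normal _ _).trans (dvd_of_eq D.relIndex)
  exact ((Fact.out : p.Prime).eq_one_or_self_of_dvd _ hdvd).resolve_left hne

theorem CycLayer.inertia_le (hq : q ∉ S) (g : GQ) :
    inertiaLoc q ⊓ stabLoc q D.G₀ g ≤ stabLoc q D.G₁ g := fun τ hτ => by
  have h := inertia_le_of_isOpenLvl_lvlS ⟨_, D.mem₁, le_rfl⟩ hq (primeLocalPlace_liesOverPrime q)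
    (loc_inertiaLoc_le q τ hτ.1)
  exact mem_stabLoc.2 (D.normal₁.conj_mem' _ h g)

/-- The value group of the completion is that of the field. -/
theorem exists_nv_eq {G : Subgroup GQ} (hG : IsOpenLvl lvlQ G) (g : GQ) (b : Ml q)
    (hb : b ∈ fixedBy (unitsRepLoc q) (stabLoc q G g)) :
    ∃ c ∈ fixedK G, c ≠ 0 ∧ nv q g c = absv q b := by
  haveI : Fact (q : ℕ).Prime := ⟨q.2⟩
  haveI := isGalois_ql q
  let f : fixedK G →+* Ql q := (iota q).comp ((g : Qb →+* Qb).comp (fixedK G).val.toRingHom)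
  let C : Subring (Ql q) := f.range.topologicalClosure
  have hC : ∀ r : ℚ_[(q : ℕ)], algebraMap ℚ_[(q : ℕ)] (Ql q) r ∈ C := by
    intro r
    have hcl : r ∈ closure (Set.range ((↑) : ℚ → ℚ_[(q : ℕ)])) := by
      rw [Metric.mem_closure_iff]
      intro ε hε
      obtain ⟨t, ht⟩ := Padic.rat_dense (q : ℕ) r hε
      exact ⟨t, ⟨t, rfl⟩, by rwa [dist_eq_norm]⟩
    refine map_mem_closure (continuous_algebraMap ℚ_[(q : ℕ)] (Ql q)) hcl ?_
    rintro _ ⟨t, rfl⟩
    exact ⟨(t : fixedK G), by rw [map_ratCast, map_ratCast]⟩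
  have hint : ∀ x ∈ Set.range f, IsIntegral ℚ_[(q : ℕ)] x := fun x _ =>
    (Algebra.IsAlgebraic.isAlgebraic x).isIntegral
  let E := IntermediateField.adjoin ℚ_[(q : ℕ)] (Set.range f)
  have hEC : ∀ x ∈ E, x ∈ C := by
    intro x hx
    have hx' : x ∈ E.toSubalgebra := hx
    rw [IntermediateField.adjoin_toSubalgebra_of_isAlgebraic fun y hy => (hint y hy).isAlgebraic] at hx'
    clear hx
    induction hx' using Algebra.adjoin_induction with
    | mem y hy => exact Subring.le_topologicalClosure _ hy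
    | algebraMap r => exact hC r
    | add a b _ _ ha hb => exact C.add_mem ha hb
    | mul a b _ _ ha hb => exact C.mul_mem ha hb
  set x : Ql q := ((Additive.toMul b : (Ql q)ˣ) : Ql q)
  have hxE : x ∈ E := by
    rw [← InfiniteGalois.fixedField_fixingSubgroup E]
    rintro ⟨s, hs⟩
    obtain ⟨τ, rfl⟩ := locAut_surjective q s
    refine congrArg (fun z => ((Additive.toMul z : (Ql q)ˣ) : Ql q)) (hb τ (mem_stabLoc.2 ?_))
    rw [← fixingSubgroup_fixedK G hG, IntermediateField.mem_fixingSubgroup_iff]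
    intro y hy
    have h : locAut q τ (iota q (g y)) = iota q (g y) :=
      (IntermediateField.mem_fixingSubgroup_iff _ _).1 hs _
        (IntermediateField.subset_adjoin _ _ ⟨⟨y, hy⟩, rfl⟩)
    rw [← iota_loc] at h
    rw [AlgEquiv.mul_apply, AlgEquiv.mul_apply, (iota q).injective h]
    exact g.symm_apply_apply y
  have hxC := hEC x hxE
  have hx0 : x ≠ 0 := Units.ne_zero _
  obtain ⟨_, ⟨c, rfl⟩, hc⟩ := Metric.mem_closure_iff.1 hxC ‖x‖ (norm_pos_iff.2 hx0)
  rw [dist_eq_norm] at hc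
  have hnorm : ‖f c‖ = ‖x‖ := by
    have h := IsUltrametricDist.norm_add_eq_max_of_norm_ne_norm (x := x) (y := f c - x)
      (by rw [norm_sub_rev]; exact hc.ne')
    rw [add_sub_cancel, norm_sub_rev, max_eq_left hc.le] at h
    exact h
  refine ⟨c, c.2, fun h => ?_, hnorm⟩
  rw [show c = 0 from Subtype.ext h, map_zero, norm_zero] at hnorm
  exact hx0 (norm_eq_zero.1 hnorm.symm)

/-- The action of `σ` on primes of the top field. -/
theorem CycLayer.idv_smul (s : GQ) (g : GQ) (I : Ideal (𝓞 D.L)) :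
    idv q g ((res D.L) s • I) = idv q (g * s) I := by
  refine le_antisymm ?_ ?_
  · obtain ⟨x, hx, hx'⟩ := exists_idv_eq (q := q) (g := g) ((res D.L) s • I)
    rw [← hx']
    rw [Ideal.mem_pointwise_smul_iff_inv_smul_mem] at hx
    have h := le_idv (q := q) (g := g * s) hx
    rw [← nv_apply, ← map_inv, FLTA.Galois.coe_restrict_smul] at h
    rwa [show s (s⁻¹ ((x : D.L) : Qb)) = ((x : D.L) : Qb) from s.apply_symm_apply _] at h
  · obtain ⟨x, hx, hx'⟩ := exists_idv_eq (q := q) (g := g * s) I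
    rw [← hx', ← nv_apply, ← FLTA.Galois.coe_restrict_smul]
    exact le_idv (Ideal.smul_mem_pointwise_smul _ _ I hx)

theorem pow_dvd_of_idv {L : IntermediateField ℚ Qb} [FiniteDimensional ℚ L] {g : GQ}
    {I : Ideal (𝓞 L)} (hI : I ≠ ⊥) :
    ∃ n : ℕ, idv q g I = idv q g (FLTA.Galois.placeIdeal (plc q g) L) ^ n ∧
      FLTA.Galois.placeIdeal (plc q g) L ^ n ∣ I := by
  haveI : NumberField L := { to_finiteDimensional := inferInstance }
  induction I using UniqueFactorizationMonoid.induction_on_prime with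
  | h₁ => exact absurd rfl hI
  | h₂ x hx =>
    rw [Ideal.isUnit_iff] at hx
    exact ⟨0, by rw [hx, idv_top, pow_zero], by rw [pow_zero]; exact one_dvd _⟩
  | h₃ a P ha hP ih =>
    obtain ⟨n, hn, hdvd⟩ := ih ha
    have hPm : P.IsMaximal :=
      (Ideal.isPrime_of_prime hP).isMaximal hP.ne_zero
    by_cases hPe : P = FLTA.Galois.placeIdeal (plc q g) L
    · refine ⟨n + 1, by rw [idv_mul, hn, hPe, pow_succ'], ?_⟩
      rw [pow_succ', hPe]
      exact mul_dvd_mul_left _ hdvd
    · exact ⟨n, by rw [idv_mul, idv_eq_one_of_ne hPm hPe, one_mul, hn],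
        hdvd.mul_left P⟩

/-- An integral element which is a local norm everywhere outside `S` has, outside `S`, the divisor
of the norm of an ideal. -/
theorem CycLayer.exists_ideal (α : 𝓞 D.L) (hα0 : ((α : D.L) : Qb) ≠ 0) (a : Mq)
    (hα : ((Additive.toMul a : Qbˣ) : Qb) = ((α : D.L) : Qb))
    (ha : a ∈ fixedBy unitsRep D.G₀)
    (hloc : ∀ q, q ∉ S → ∀ g, IsLocalNormAt D.G₁ D.G₀ q g a) :
    ∃ I : Ideal (𝓞 D.L), I ≠ ⊥ ∧ ∀ q, q ∉ S → ∀ g,
      ∏ i ∈ Finset.range p, idv q (g * D.σ ^ i) I = nv q g ((α : D.L) : Qb) := by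
  classical
  have hp : p.Prime := Fact.out
  set t := (res D.L) D.σ with ht
  have htp : t ^ p = 1 := by
    rw [ht, ← map_pow, FLTA.Galois.restrict_eq_one_iff, fixingSubgroup_fixedK _ D.open₁]
    exact D.pow_p_mem
  have hαne : α ≠ 0 := fun h => hα0 (by simp [h])
  -- stable ideals whose fixed primes outside `S` have exponents divisible by `p`
  suffices key : ∀ B : Ideal (𝓞 D.L), B ≠ ⊥ → t • B = B →
      (∀ q, q ∉ S → ∀ g, t • FLTA.Galois.placeIdeal (plc q g) D.L = FLTA.Galois.placeIdeal (plc q g) D.L →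
        ∃ k : ℕ, idv q g B = idv q g (FLTA.Galois.placeIdeal (plc q g) D.L) ^ (p * k)) →
      ∃ I : Ideal (𝓞 D.L), I ≠ ⊥ ∧ ∀ q, q ∉ S → ∀ g,
        ∏ i ∈ Finset.range p, idv q g (t ^ i • I) = idv q g B by
    have hσα : t • α = α := by
      apply NumberField.RingOfIntegers.coe_injective
      apply Subtype.coe_injective
      show (((t • α : 𝓞 D.L) : D.L) : Qb) = ((α : D.L) : Qb)
      rw [ht, FLTA.Galois.coe_restrict_smul, ← hα]
      exact congrArg (fun z : Mq => ((Additive.toMul z : Qbˣ) : Qb)) (ha _ D.σ_mem)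
    have hBα : ∀ q, q ∉ S → ∀ g, t • FLTA.Galois.placeIdeal (plc q g) D.L = FLTA.Galois.placeIdeal (plc q g) D.L →
        ∃ k : ℕ, idv q g (Ideal.span {α}) = idv q g (FLTA.Galois.placeIdeal (plc q g) D.L) ^ (p * k) := by
      intro q hq g hfix
      haveI : Fact (q : ℕ).Prime := ⟨q.2⟩
      have hidx := D.stabLoc_relIndex hfix
      haveI : ((stabLoc q D.G₁ g).subgroupOf (stabLoc q D.G₀ g)).Normal := by
        haveI := D.normal₁
        have : (stabLoc q D.G₁ g).Normal := by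
          unfold stabLoc
          haveI : (D.G₁.map (MulAut.conj g).toMonoidHom).Normal :=
            Subgroup.Normal.map D.normal₁ _ (MulAut.conj g).surjective
          infer_instance
        infer_instance
      have hopen : IsOpenLvl (lvlLoc q) (stabLoc q D.G₁ g) := by
        refine ⟨D.G₁.comap (loc q), lvlS_le_lvlLoc S q D.G₁ D.mem₁, fun x hx => ?_⟩
        exact mem_stabLoc.2 (D.normal₁.conj_mem' _ hx g)
      obtain ⟨b, hb, hab⟩ := (mem_normsFrom_iff_of_unramified q _ _ hopen (stabLoc_mono D.le₁ g)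
        (D.inertia_le hq g) _ (atPlace_mem_fixedBy ha)).1 (hloc q hq g)
      rw [hidx] at hab
      obtain ⟨c, hc, hc0, hcb⟩ := exists_nv_eq D.open₀ g b hb
      have hc₁ : c ∈ D.L := IntermediateField.fixedField_antitone D.le₁ hc
      haveI : IsFractionRing (𝓞 D.L) D.L := inferInstance
      obtain ⟨x, y, hy, hxy⟩ := IsFractionRing.div_surjective (A := 𝓞 D.L) (⟨c, hc₁⟩ : D.L)
      have hy0 : y ≠ 0 := nonZeroDivisors.ne_zero hy
      have hxy' : ((x : D.L) : Qb) / ((y : D.L) : Qb) = c := congrArg Subtype.val hxy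
      have hx0 : x ≠ 0 := fun h => hc0 (by rw [← hxy', h]; simp)
      obtain ⟨nx, hnx, -⟩ := pow_dvd_of_idv (q := q) (g := g)
        (I := Ideal.span {x}) (by rwa [Ne, Ideal.span_singleton_eq_bot])
      obtain ⟨ny, hny, -⟩ := pow_dvd_of_idv (q := q) (g := g)
        (I := Ideal.span {y}) (by rwa [Ne, Ideal.span_singleton_eq_bot])
      obtain ⟨na, hna, -⟩ := pow_dvd_of_idv (q := q) (g := g)
        (I := Ideal.span {α}) (by rwa [Ne, Ideal.span_singleton_eq_bot])
      rw [idv_span_singleton] at hnx hny hna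
      set r := idv q g (FLTA.Galois.placeIdeal (plc q g) D.L) with hr
      have hr0 : 0 < r := idv_placeIdeal_pos q g
      have hr1 : r < 1 := idv_placeIdeal_lt_one q g
      have hA : nv q g ((α : D.L) : Qb) = absv q (atPlace q g a) := by rw [← hα]; rfl
      rw [← hA, ← hcb, ← hxy', nv_div, hna, hnx, hny, div_pow, ← pow_mul, ← pow_mul,
        eq_div_iff (pow_ne_zero _ hr0.ne'), ← pow_add] at hab
      have h := (pow_right_inj₀ hr0 hr1.ne).1 hab
      have hdvd : p ∣ na := by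
        have h1 : p ∣ na + ny * p := h ▸ dvd_mul_left p nx
        exact (Nat.dvd_add_left (dvd_mul_left p ny)).1 h1
      obtain ⟨k, rfl⟩ := hdvd
      exact ⟨k, by rw [idv_span_singleton, hna]⟩
    obtain ⟨I, hI0, hI⟩ := key (Ideal.span {α})
      (by rwa [Ne, Ideal.span_singleton_eq_bot])
      (by rw [Ideal.pointwise_smul_def, Ideal.map_span, Set.image_singleton,
            MulSemiringAction.toRingHom_apply, hσα]) hBα
    refine ⟨I, hI0, fun q hq g => ?_⟩
    rw [← idv_span_singleton, ← hI q hq g]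
    refine Finset.prod_congr rfl fun i _ => ?_
    rw [ht, ← map_pow, D.idv_smul]
  intro B
  induction B using WellFoundedGT.induction with
  | ind B ih =>
  intro hB0 hBt hB
  by_cases hex : ∀ q, q ∉ S → ∀ g, idv q g B = 1
  · refine ⟨⊤, top_ne_bot, fun q hq g => ?_⟩
    rw [hex q hq g]
    refine Finset.prod_eq_one fun i _ => ?_
    rw [Ideal.pointwise_smul_def, Ideal.map_top, idv_top]
  push Not at hex
  obtain ⟨q, hq, g, hne⟩ := hex
  set P := FLTA.Galois.placeIdeal (plc q g) D.L with hP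
  haveI hPm : P.IsMaximal := FLTA.Galois.placeIdeal_isMaximal q.2 (liesOverPrime_plc q g)
  have hP0 : P ≠ ⊥ := fun h => by
    have h1 := FLTA.Galois.natCast_mem_placeIdeal (L := D.L) (liesOverPrime_plc q g)
    rw [← hP, h, Ideal.mem_bot] at h1
    exact q.2.ne_zero (by exact_mod_cast h1)
  obtain ⟨n, hn, hdvd⟩ := pow_dvd_of_idv (q := q) (g := g) hB0
  rw [← hP] at hn hdvd
  have hn0 : n ≠ 0 := by rintro rfl; exact hne (by rw [hn, pow_zero])
  have hPB : P ∣ B := (dvd_pow_self P hn0).trans hdvd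
  have hBi : ∀ i : ℕ, t ^ i • B = B := fun i => by
    induction i with
    | zero => rw [pow_zero, one_smul]
    | succ i ih => rw [pow_succ, mul_smul, hBt, ih]
  have hPi : ∀ i : ℕ, t ^ i • P ∣ B := fun i => by
    obtain ⟨C, hC⟩ := hPB
    refine ⟨t ^ i • C, ?_⟩
    rw [← smul_mul', ← hC, hBi]
  have hNdvd : (∏ i ∈ Finset.range p, t ^ i • P) ∣ B := by
    by_cases hfix : t • P = P
    · have hfixi : ∀ i : ℕ, t ^ i • P = P := fun i => by
        induction i with
        | zero => rw [pow_zero, one_smul]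
        | succ i ih => rw [pow_succ, mul_smul, hfix, ih]
      obtain ⟨k, hk⟩ := hB q hq g hfix
      rw [← hP, hn] at hk
      have hnk : n = p * k :=
        (pow_right_inj₀ (idv_placeIdeal_pos q g) (idv_placeIdeal_lt_one q g).ne).1 hk
      have hle : p ≤ n := by
        rcases Nat.eq_zero_or_pos k with rfl | hk
        · simp [hnk] at hn0
        · rw [hnk]; exact Nat.le_mul_of_pos_right p hk
      rw [Finset.prod_congr rfl fun i _ => hfixi i, Finset.prod_const, Finset.card_range]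
      exact (pow_dvd_pow P hle).trans hdvd
    · have hinj : Set.InjOn (fun i : ℕ => t ^ i • P) (Finset.range p : Set ℕ) := ?_
      rw [← Finset.prod_image (f := fun J : Ideal (𝓞 D.L) => J) hinj]
      refine Finset.prod_primes_dvd B (fun J hJ => ?_) (fun J hJ => ?_)
      rotate_left 2
      · intro i hi j hj hij
        simp only at hij
        rw [Finset.coe_range, Set.mem_Iio] at hi hj
        by_contra hne'
        apply hfix
        have hstab : ∀ u : ℕ, t ^ u • P = P → ¬ p ∣ u → t • P = P := by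
          intro u hu hpu
          obtain ⟨w, hw⟩ := Nat.exists_mul_mod_eq_one_of_coprime
            ((hp.coprime_iff_not_dvd.2 hpu).symm) hp.one_lt
          have hpow : ∀ m : ℕ, t ^ (u * m) • P = P := fun m => by
            induction m with
            | zero => rw [mul_zero, pow_zero, one_smul]
            | succ m ih => rw [Nat.mul_succ, pow_add, mul_smul, hu, ih]
          have := hpow w
          rwa [pow_eq_pow_mod (u * w) htp, hw.2, pow_one] at this
        rcases lt_or_gt_of_ne hne' with hlt | hlt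
        · refine hstab (j - i) ?_ (fun h => absurd (Nat.le_of_dvd (by omega) h) (by omega))
          apply MulAction.injective (t ^ i)
          show t ^ i • t ^ (j - i) • P = t ^ i • P
          rw [← mul_smul, ← pow_add, Nat.add_sub_cancel' hlt.le, hij]
        · refine hstab (i - j) ?_ (fun h => absurd (Nat.le_of_dvd (by omega) h) (by omega))
          apply MulAction.injective (t ^ j)
          show t ^ j • t ^ (i - j) • P = t ^ j • P
          rw [← mul_smul, ← pow_add, Nat.add_sub_cancel' hlt.le, hij]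
      rotate_left
      · obtain ⟨i, -, rfl⟩ := Finset.mem_image.1 hJ
        exact hPi i
      · obtain ⟨i, -, rfl⟩ := Finset.mem_image.1 hJ
        haveI : (t ^ i • P).IsPrime := by
          rw [Ideal.pointwise_smul_def]
          exact Ideal.map_isPrime_of_equiv (MulSemiringAction.toRingEquiv _ (𝓞 D.L) (t ^ i))
        refine Ideal.prime_of_isPrime (fun h => hP0 ?_) inferInstance
        have h' := congrArg (fun J : Ideal (𝓞 D.L) => (t ^ i)⁻¹ • J) h
        simpa [Ideal.pointwise_smul_def (a := (t ^ i)⁻¹) (S := (⊥ : Ideal (𝓞 D.L)))] using h'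
  set N := ∏ i ∈ Finset.range p, t ^ i • P with hN
  obtain ⟨B', hB'⟩ := hNdvd
  have hB'0 : B' ≠ ⊥ := fun h => hB0 (by rw [hB', h, Ideal.mul_bot])
  have hN0 : N ≠ 0 := fun h => hB0 (by rw [hB', h, zero_mul]; rfl)
  have hNP : N ≤ P := by
    refine Ideal.le_of_dvd ?_
    have := Finset.dvd_prod_of_mem (fun i => t ^ i • P) (Finset.mem_range.2 hp.pos)
    simpa using this
  have hlt : B < B' := by
    refine lt_of_le_of_ne (hB' ▸ Ideal.mul_le_right) fun h => ?_
    have h2 : (1 : Ideal (𝓞 D.L)) * B' = N * B' := by rw [one_mul, ← hB', h]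
    rw [mul_right_cancel₀ hB'0 h2 |>.symm] at hNP
    exact hPm.ne_top (top_le_iff.1 (by rwa [Ideal.one_eq_top] at hNP))
  have hNt : t • N = N := by
    rw [hN, Finset.smul_prod']
    simp_rw [← mul_smul, ← pow_succ']
    have h := Finset.prod_range_succ' (fun i => t ^ i • P) p
    rw [Finset.prod_range_succ, pow_zero, htp, one_smul, ← hN] at h
    exact (mul_right_cancel₀ hP0 h).symm
  have hB't : t • B' = B' := by
    refine mul_left_cancel₀ hN0 ?_
    conv_lhs => rw [← hNt]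
    rw [← smul_mul', ← hB', hBt]
  have hrec : ∀ q', q' ∉ S → ∀ g', t • FLTA.Galois.placeIdeal (plc q' g') D.L =
      FLTA.Galois.placeIdeal (plc q' g') D.L →
      ∃ k : ℕ, idv q' g' B' = idv q' g' (FLTA.Galois.placeIdeal (plc q' g') D.L) ^ (p * k) := by
    intro q' hq' g' hfix'
    obtain ⟨k, hk⟩ := hB q' hq' g' hfix'
    set P' := FLTA.Galois.placeIdeal (plc q' g') D.L
    obtain ⟨m, hm, -⟩ := pow_dvd_of_idv (q := q') (g := g') hB'0
    by_cases hmem : ∃ i < p, t ^ i • P = P'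
    · obtain ⟨i, hi, hiP⟩ := hmem
      have hfi : ∀ j : ℕ, t ^ j • P' = P' := fun j => by
        induction j with
        | zero => rw [pow_zero, one_smul]
        | succ j ih => rw [pow_succ, mul_smul, hfix', ih]
      have hPP : P = P' := by
        have h := congrArg (fun J : Ideal (𝓞 D.L) => t ^ (p - i) • J) hiP
        simp only [← mul_smul, ← pow_add, Nat.sub_add_cancel hi.le, htp, one_smul, hfi] at h
        exact h
      have hN' : idv q' g' N = idv q' g' P' ^ p := by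
        rw [hN, idv_prod, Finset.prod_congr rfl (g := fun _ => idv q' g' P'), Finset.prod_const,
          Finset.card_range]
        intro j _
        rw [hPP, hfi j]
      rw [hB', idv_mul, hN', hm, ← pow_add] at hk
      have h := (pow_right_inj₀ (idv_placeIdeal_pos q' g') (idv_placeIdeal_lt_one q' g').ne).1 hk
      obtain ⟨k', rfl⟩ : p ∣ m := (Nat.dvd_add_right (dvd_refl p)).1 (h ▸ dvd_mul_right p k)
      exact ⟨k', hm⟩
    · push Not at hmem
      have hN' : idv q' g' N = 1 := by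
        rw [hN, idv_prod]
        refine Finset.prod_eq_one fun i hi => idv_eq_one_of_ne ?_ (hmem i (Finset.mem_range.1 hi))
        rw [Ideal.pointwise_smul_def]
        exact Ideal.map_isMaximal_of_equiv (MulSemiringAction.toRingEquiv _ (𝓞 D.L) (t ^ i))
      rw [hB', idv_mul, hN', one_mul] at hk
      exact ⟨k, hk⟩
  obtain ⟨I', hI'0, hI'⟩ := ih B' hlt hB'0 hB't hrec
  refine ⟨P * I', mul_ne_zero hP0 hI'0, fun q' hq' g' => ?_⟩
  simp only [smul_mul', idv_mul, Finset.prod_mul_distrib]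
  rw [hI' q' hq' g', hB', idv_mul, hN, idv_prod]

end FLTA.PT.GC

end
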