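import Fermat.Agent.PoitouTate.LocalPairing
import Fermat.Agent.PoitouTate.GlobalClasses

/-!
# Global classes with coefficients in an induced module `Fun(G/G₀, M)`
-/

set_option autoImplicit false

open ExtCitation Module

noncomputable section

namespace FLTA.PT

variable {p : ℕ} [Fact p.Prime] {S : Finset Nat.Primes}
variable {V W : Type} [AddCommGroup V] [Module (ZMod p) V] [AddCommGroup W] [Module (ZMod p) W]
variable {ρ : Representation (ZMod p) GQ V} {σ : Representation (ZMod p) GQ W}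

/-- A common level killing a finite smooth module. -/
theorem exists_level_forall_apply_eq [Finite V] (hρ : Smooth (lvlS S) ρ) :
    ∃ U ∈ lvlS S, ∀ s ∈ U, ∀ v, ρ s v = v := by
  classical
  haveI := Fintype.ofFinite V
  choose U hU hfix using hρ
  have : ∀ s : Finset V, ∃ U₀ ∈ lvlS S, ∀ v ∈ s, U₀ ≤ U v := fun s => by
    induction s using Finset.induction with
    | empty => exact ⟨⊤, (lvlS S).top_mem, by simp⟩
    | insert v s hv ih =>
      obtain ⟨U₀, hU₀, hle⟩ := ih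
      refine ⟨U₀ ⊓ U v, (lvlS S).inf_mem U₀ hU₀ _ (hU v), fun w hw => ?_⟩
      rcases Finset.mem_insert.1 hw with rfl | hw
      · exact inf_le_right
      · exact inf_le_left.trans (hle w hw)
  obtain ⟨U₀, hU₀, hle⟩ := this Finset.univ
  exact ⟨U₀, hU₀, fun s hs v => hfix v s (hle v (Finset.mem_univ v) hs)⟩

/-- Pairing against an invariant is an equivariant map to `μ_p`. -/
theorem Pairing.equivariant_right (P : Pairing (cycloChar p) ρ σ) {w : W}
    (hw : ∀ g, σ g w = w) : Equivariant ρ (muRep p) (MonoidHom.id GQ) (P.e.flip w) := by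
  intro g v
  simp only [LinearMap.flip_apply, MonoidHom.id_apply, charRep_apply]
  conv_lhs => rw [← hw g]
  exact P.equivariant g v w

/-- Local `H²` of a `G_ℚ`-module. -/
abbrev H2At (ρ : Representation (ZMod p) GQ V) (q : Nat.Primes) : Type :=
  H2c (lvlLoc q) (ρ.comp (loc q))

/-- Change of coefficients on local `H²`. -/
def coeff2At {ρ' : Representation (ZMod p) GQ W} (q : Nat.Primes) (φ : V →ₗ[ZMod p] W)
    (hφ : Equivariant ρ ρ' (MonoidHom.id GQ) φ) : H2At ρ q →ₗ[ZMod p] H2At ρ' q :=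
  map2 (L := lvlLoc q) (L' := lvlLoc q) (f := MonoidHom.id (Gl q)) (φ := φ)
    (ρ := ρ.comp (loc q)) (σ := ρ'.comp (loc q)) (lvlLE_id _) (fun g v => hφ (loc q g) v)

theorem coeff2At_comp {U : Type} [AddCommGroup U] [Module (ZMod p) U]
    {ρ' : Representation (ZMod p) GQ W} {ρ'' : Representation (ZMod p) GQ U} (q : Nat.Primes)
    (φ : V →ₗ[ZMod p] W) (hφ : Equivariant ρ ρ' (MonoidHom.id GQ) φ)
    (ψ : W →ₗ[ZMod p] U) (hψ : Equivariant ρ' ρ'' (MonoidHom.id GQ) ψ)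
    (h : Equivariant ρ ρ'' (MonoidHom.id GQ) (ψ ∘ₗ φ)) (x : H2At ρ q) :
    coeff2At q ψ hψ (coeff2At q φ hφ x) = coeff2At q (ψ ∘ₗ φ) h x := by
  induction x using Submodule.Quotient.induction_on with
  | _ a => rfl

theorem coeff2At_congr {ρ' : Representation (ZMod p) GQ W} (q : Nat.Primes)
    {φ ψ : V →ₗ[ZMod p] W} (e : φ = ψ) (hφ : Equivariant ρ ρ' (MonoidHom.id GQ) φ)
    (hψ : Equivariant ρ ρ' (MonoidHom.id GQ) ψ) (x : H2At ρ q) :
    coeff2At q φ hφ x = coeff2At q ψ hψ x := by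
  subst e; rfl

theorem locH2_coeff2 {ρ' : Representation (ZMod p) GQ W} (q : Nat.Primes) (φ : V →ₗ[ZMod p] W)
    (hφ : Equivariant ρ ρ' (MonoidHom.id GQ) φ) (x : H2c (lvlS S) ρ) :
    locH2 S ρ' q (coeff2 (lvlS S) ρ hφ x) = coeff2At q φ hφ (locH2 S ρ q x) := by
  induction x using Submodule.Quotient.induction_on with
  | _ a => rfl

/-- Classes in `Fun(G/G₀, M)` orthogonal to the invariants are global. -/
theorem exists_global_funRep [Finite V] (I : InvSystem p S) (P : Pairing (cycloChar p) ρ σ)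
    (hP : P.Perfect) (G₀ : Subgroup GQ) [Fintype (GQ ⧸ G₀)]
    (hμ : ∀ s ∈ G₀, cycloChar p s = 1) (hV : ∀ s ∈ G₀, ∀ v, ρ s v = v)
    (hW : ∀ s ∈ G₀, ∀ w, σ s w = w)
    (hglob : ∀ b : ∀ q : Nat.Primes, H2c (lvlLoc q) ((funRep (muRep p) (GQ ⧸ G₀)).comp (loc q)),
      ∑ q ∈ S, I.inv q (sumLoc p q (GQ ⧸ G₀) (b q)) = 0 →
      ∃ F : H2c (lvlS S) (funRep (muRep p) (GQ ⧸ G₀)),
        ∀ q ∈ S, locH2 S (funRep (muRep p) (GQ ⧸ G₀)) q F = b q)
    (β : ∀ q : Nat.Primes, H2At (funRep ρ (GQ ⧸ G₀)) q)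
    (hβ : ∀ (r : GQ ⧸ G₀ → W) (hr : ∀ g, funRep σ (GQ ⧸ G₀) g r = r), ∑ q ∈ S,
      I.inv q (coeff2At q _ ((P.funPairing (GQ ⧸ G₀)).equivariant_right hr) (β q)) = 0) :
    ∃ F : H2c (lvlS S) (funRep ρ (GQ ⧸ G₀)),
      ∀ q ∈ S, locH2 S (funRep ρ (GQ ⧸ G₀)) q F = β q := by
  classical
  haveI : Module.Finite (ZMod p) V := Module.Finite.of_finite
  set bas := Module.finBasis (ZMod p) V
  choose w hw using fun i => hP.2.2 (bas.coord i)
  have hout : ∀ (g : GQ) (x : GQ ⧸ G₀), ∃ h ∈ G₀, x.out = g * (g⁻¹ • x).out * h := fun g x => by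
    refine ⟨(g * (g⁻¹ • x).out)⁻¹ * x.out, ?_, by group⟩
    rw [← QuotientGroup.eq]
    exact (MulAction.Quotient.smul_mk G₀ g (g⁻¹ • x).out).symm.trans
      (by rw [QuotientGroup.out_eq', QuotientGroup.out_eq', smul_inv_smul])
  have hχ : ∀ (g : GQ) (x : GQ ⧸ G₀),
      cycloChar p x.out = cycloChar p g * cycloChar p (g⁻¹ • x).out := fun g x => by
    obtain ⟨h, hh, e⟩ := hout g x
    rw [e, map_mul, map_mul, hμ h hh, mul_one]
  let π : Fin (finrank (ZMod p) V) → (GQ ⧸ G₀ → V) →ₗ[ZMod p] (GQ ⧸ G₀ → ZMod p) := fun i =>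
    LinearMap.pi fun x =>
      (cycloChar p x.out : ZMod p) • ((bas.coord i) ∘ₗ (ρ x.out⁻¹) ∘ₗ LinearMap.proj x)
  let φ : Fin (finrank (ZMod p) V) → (GQ ⧸ G₀ → ZMod p) →ₗ[ZMod p] (GQ ⧸ G₀ → V) := fun i =>
    LinearMap.pi fun x =>
      (((cycloChar p x.out)⁻¹ : (ZMod p)ˣ) : ZMod p) •
        (LinearMap.toSpanSingleton (ZMod p) V (ρ x.out (bas i)) ∘ₗ LinearMap.proj x)
  have hπ : ∀ i, Equivariant (funRep ρ (GQ ⧸ G₀)) (funRep (muRep p) (GQ ⧸ G₀))
      (MonoidHom.id GQ) (π i) := fun i g F => by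
    funext x
    obtain ⟨h, hh, e⟩ := hout g x
    have hinv : ∀ v, ρ x.out⁻¹ (ρ g v) = ρ (g⁻¹ • x).out⁻¹ v := fun v => by
      rw [← rep_mul_apply, show x.out⁻¹ * g = h⁻¹ * (g⁻¹ • x).out⁻¹ by rw [e]; group,
        rep_mul_apply, hV _ (inv_mem hh)]
    simp only [π, LinearMap.pi_apply, LinearMap.smul_apply, LinearMap.comp_apply,
      LinearMap.proj_apply, MonoidHom.id_apply, funRep_apply, charRep_apply, hinv, smul_eq_mul]
    rw [hχ g x, Units.val_mul, mul_assoc]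
  have hφ : ∀ i, Equivariant (funRep (muRep p) (GQ ⧸ G₀)) (funRep ρ (GQ ⧸ G₀))
      (MonoidHom.id GQ) (φ i) := fun i g f => by
    funext x
    obtain ⟨h, hh, e⟩ := hout g x
    simp only [φ, LinearMap.pi_apply, LinearMap.smul_apply, LinearMap.comp_apply,
      LinearMap.proj_apply, MonoidHom.id_apply, funRep_apply, charRep_apply,
      LinearMap.toSpanSingleton_apply, map_smul, smul_smul]
    rw [hχ g x, mul_inv, Units.val_mul, e, rep_mul_apply, rep_mul_apply, hV h hh]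
    congr 1
    rw [mul_comm ((cycloChar p g)⁻¹ : (ZMod p)ˣ).1, mul_assoc, ← mul_assoc _ (cycloChar p g : ZMod p),
      Units.inv_mul, one_mul]
  have hid : ∀ F, (∑ i, φ i (π i F)) = F := fun F => by
    funext x
    simp only [Finset.sum_apply, φ, π, LinearMap.pi_apply, LinearMap.smul_apply,
      LinearMap.comp_apply, LinearMap.proj_apply, LinearMap.toSpanSingleton_apply, smul_eq_mul,
      smul_smul, ← mul_assoc, Units.inv_mul, one_mul]
    simp only [← map_smul, ← map_sum, Basis.coord_apply, bas.sum_repr]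
    rw [← rep_mul_apply, mul_inv_cancel, map_one, Module.End.one_apply]
  let r : Fin (finrank (ZMod p) V) → (GQ ⧸ G₀ → W) := fun i x => σ x.out (w i)
  have hr : ∀ i g, funRep σ (GQ ⧸ G₀) g (r i) = r i := fun i g => by
    funext x
    obtain ⟨h, hh, e⟩ := hout g x
    simp only [funRep_apply, r]
    conv_rhs => rw [e, rep_mul_apply, rep_mul_apply, hW h hh]
  have hsum : ∀ i, (sumMap (k := ZMod p) (V := ZMod p) (GQ ⧸ G₀)) ∘ₗ π i =
      (P.funPairing (GQ ⧸ G₀)).e.flip (r i) := fun i => LinearMap.ext fun F => by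
    simp only [LinearMap.comp_apply, sumMap_apply, LinearMap.flip_apply, Pairing.funPairing,
      LinearMap.sum_apply, LinearMap.compl₁₂_apply, LinearMap.proj_apply, π, r, LinearMap.pi_apply,
      LinearMap.smul_apply, smul_eq_mul]
    refine Finset.sum_congr rfl fun x _ => ?_
    rw [← hw i, LinearMap.flip_apply, ← P.equivariant x.out, ← rep_mul_apply, mul_inv_cancel,
      map_one, Module.End.one_apply]
  choose Fc hF using fun i => hglob (fun q => coeff2At q (π i) (hπ i) (β q)) (by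
    refine Eq.trans (Finset.sum_congr rfl fun q _ => ?_) (hβ (r i) (hr i))
    congr 1
    have h : Equivariant (funRep ρ (GQ ⧸ G₀)) (muRep p) (MonoidHom.id GQ)
        ((sumMap (k := ZMod p) (V := ZMod p) (GQ ⧸ G₀)) ∘ₗ π i) := by
      rw [hsum i]; exact Pairing.equivariant_right _ (hr i)
    exact (coeff2At_comp q (π i) (hπ i) _ (equivariant_sumMap (muRep p) _) h (β q)).trans
      (coeff2At_congr q (hsum i) h _ _))
  refine ⟨∑ i, coeff2 (lvlS S) _ (hφ i) (Fc i), fun q hq => ?_⟩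
  rw [map_sum]
  simp only [locH2_coeff2, hF _ q hq]
  obtain ⟨b, hb⟩ := Submodule.mkQ_surjective _ (β q)
  rw [← hb]
  let z : Fin (finrank (ZMod p) V) → Z2 (lvlLoc q) ((funRep ρ (GQ ⧸ G₀)).comp (loc q)) := fun i =>
    ⟨pp2 (MonoidHom.id (Gl q)) (φ i) (pp2 (MonoidHom.id (Gl q)) (π i) b.1),
      pp2_mem_Z2 (lvlLE_id _) (fun g v => hφ i (loc q g) v)
        (pp2_mem_Z2 (σ := (funRep (muRep p) (GQ ⧸ G₀)).comp (loc q)) (lvlLE_id _)
          (fun g v => hπ i (loc q g) v) b.2)⟩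
  refine Eq.trans (b := ∑ i, H2cπ (lvlLoc q) ((funRep ρ (GQ ⧸ G₀)).comp (loc q)) (z i))
    (Finset.sum_congr rfl fun i _ => rfl) ?_
  rw [← map_sum (H2cπ (lvlLoc q) ((funRep ρ (GQ ⧸ G₀)).comp (loc q)))]
  refine congrArg (H2cπ (lvlLoc q) ((funRep ρ (GQ ⧸ G₀)).comp (loc q))) (Subtype.ext (funext fun g => ?_))
  rw [Submodule.coe_sum, Finset.sum_apply]
  exact hid (b.1 g)

end FLTA.PT

end
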