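import Fermat.Agent.PoitouTate.HasseBase
import Fermat.Agent.PoitouTate.Shapiro
import Fermat.Agent.PoitouTate.NormTheorem

/-!
# The local-global principle for `H²(G_K, μ_p)`
-/

set_option autoImplicit false

open ExtCitation

noncomputable section

namespace FLTA.PT.Hasse

section general

variable {k k' : Type*} [CommRing k] [CommRing k'] {Γ Γ' : Type*} [Group Γ] [Group Γ']
variable {L : Lvl Γ} {L' : Lvl Γ'} {V W : Type*} [AddCommGroup V] [Module k V]
variable [AddCommGroup W] [Module k' W]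
variable {ρ : Representation k Γ V} {σ : Representation k' Γ' W}

/-- Pushing coboundaries along an additive equivariant map, changing the base ring. -/
theorem map_mem_B2 (f : Γ' →* Γ) (hL : LvlLE L L' f) (φ : V →+ W)
    (hφ : ∀ g v, φ (ρ (f g) v) = σ g (φ v)) {x : Γ × Γ → V} (hx : x ∈ B2 L ρ) :
    (fun g => φ (x (f g.1, f g.2))) ∈ B2 L' σ := by
  obtain ⟨y, ⟨U, hU, hy⟩, rfl⟩ := (mem_B2 L ρ).1 hx
  refine (mem_B2 L' σ).2 ⟨fun g => φ (y (f g)), ⟨U.comap f, hL U hU, fun g s hs => ?_⟩,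
    funext fun ⟨g, h⟩ => ?_⟩
  · simp only [map_mul, hy (f g) (f s) hs]
  · simp only [d1_apply, map_sub, map_add, map_mul, ← hφ]

/-- Pushing cocycles along an additive equivariant map, changing the base ring. -/
theorem map_mem_Z2 (f : Γ' →* Γ) (hL : LvlLE L L' f) (φ : V →+ W)
    (hφ : ∀ g v, φ (ρ (f g) v) = σ g (φ v)) {x : Γ × Γ → V} (hx : x ∈ Z2 L ρ) :
    (fun g => φ (x (f g.1, f g.2))) ∈ Z2 L' σ := by
  obtain ⟨h1, U, hU, h2⟩ := (mem_Z2 L ρ).1 hx
  refine (mem_Z2 L' σ).2 ⟨fun g h j => ?_, U.comap f, hL U hU, fun g g' s s' hs hs' => ?_⟩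
  · simp only [map_mul, ← hφ, ← map_add, h1]
  · simp only [map_mul, h2 _ _ _ _ hs hs']

theorem smooth_comp (f : Γ' →* Γ) (hρ : Smooth L ρ) : Smooth (L.comap f) (ρ.comp f) := by
  intro v
  obtain ⟨U, hU, h⟩ := hρ v
  exact ⟨U.comap f, ⟨U, hU, rfl⟩, fun s hs => h (f s) hs⟩

theorem d0_const (hρ : Smooth L ρ) (v : V) : IsConst₁ L (d0 ρ v) := by
  obtain ⟨U, hU, h⟩ := hρ v
  exact ⟨U, hU, fun g s hs => by simp [h s hs]⟩

/-- The norm along a cyclic quotient is the sum over powers of a generator. -/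
theorem relNorm_eq_sum_pow (τ : Representation k Γ V) (H D : Subgroup Γ) {n : ℕ} [NeZero n]
    (χ : D →* Multiplicative (ZMod n)) (hker : ∀ d : D, χ d = 1 ↔ (d : Γ) ∈ H)
    (σ₀ : D) (hσ : χ σ₀ = Multiplicative.ofAdd 1) {b : V} (hb : b ∈ fixedBy τ H) :
    relNorm τ H D b = ∑ i ∈ Finset.range n, τ ((σ₀ ^ i : D) : Γ) b := by
  have hk : ∀ x y : D, (x : D ⧸ H.subgroupOf D) = (y : D ⧸ H.subgroupOf D) ↔ χ x = χ y := by
    intro x y
    rw [QuotientGroup.eq, Subgroup.mem_subgroupOf, ← hker, map_mul, map_inv, inv_mul_eq_one]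
  let e : Fin n → D ⧸ H.subgroupOf D := fun i => ((σ₀ ^ (i : ℕ) : D) : D ⧸ H.subgroupOf D)
  have hval : ∀ i : ℕ, χ (σ₀ ^ i) = Multiplicative.ofAdd (i : ZMod n) := fun i => by
    rw [map_pow, hσ, ← ofAdd_nsmul, nsmul_one]
  have he : Function.Bijective e := by
    constructor
    · intro i j h
      rw [hk, hval, hval] at h
      have h' := congrArg (fun z : Multiplicative (ZMod n) => z.toAdd.val) h
      simp only [toAdd_ofAdd, ZMod.val_natCast, Nat.mod_eq_of_lt i.2, Nat.mod_eq_of_lt j.2] at h'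
      exact Fin.ext h'
    · intro x
      obtain ⟨d, rfl⟩ := QuotientGroup.mk_surjective x
      refine ⟨⟨(χ d).toAdd.val, ZMod.val_lt _⟩, ?_⟩
      rw [hk, hval, ZMod.natCast_zmod_val, ofAdd_toAdd]
  have hfin : Finite (D ⧸ H.subgroupOf D) := Finite.of_surjective e he.2
  rw [relNorm, dif_pos hfin, LinearMap.sum_apply, Finset.sum_range fun i => τ ((σ₀ ^ i : D) : Γ) b]
  letI := Fintype.ofFinite (D ⧸ H.subgroupOf D)
  refine (Fintype.sum_bijective e he _ _ fun i => ?_).symm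
  have hout : ((e i).out : D ⧸ H.subgroupOf D) = ((σ₀ ^ (i : ℕ) : D) : D ⧸ H.subgroupOf D) :=
    QuotientGroup.out_eq' _
  have hmem : (((σ₀ ^ (i : ℕ))⁻¹ * (e i).out : D) : Γ) ∈ H := by
    rw [← hker, map_mul, map_inv, inv_mul_eq_one]
    exact ((hk _ _).1 hout).symm
  conv_rhs =>
    rw [show ((e i).out : Γ) = ((σ₀ ^ (i : ℕ) : D) : Γ) *
      (((σ₀ ^ (i : ℕ))⁻¹ * (e i).out : D) : Γ) by simp, map_mul, Module.End.mul_apply,
      hb _ hmem]

/-- Relative norms from `H` to a smaller group are trivial. -/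
theorem mem_normsFrom_of_le (τ : Representation k Γ V) {H D : Subgroup Γ} (h : D ≤ H) {a : V}
    (ha : a ∈ fixedBy τ D) (ha' : a ∈ fixedBy τ H) : a ∈ normsFrom τ H D := by
  refine ⟨a, ha', ?_⟩
  have hsub : Subsingleton (D ⧸ H.subgroupOf D) := ⟨fun x y => by
    obtain ⟨x, rfl⟩ := QuotientGroup.mk_surjective x
    obtain ⟨y, rfl⟩ := QuotientGroup.mk_surjective y
    rw [QuotientGroup.eq, Subgroup.mem_subgroupOf]
    exact h (x⁻¹ * y : D).2⟩
  have hfin : Finite (D ⧸ H.subgroupOf D) := inferInstance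
  letI := Fintype.ofFinite (D ⧸ H.subgroupOf D)
  rw [relNorm, dif_pos hfin, LinearMap.sum_apply, Fintype.sum_subsingleton _ ((1 : D) : D ⧸ H.subgroupOf D),
    ha _ (Quotient.out _ : D).2]

end general

variable (p : ℕ) [Fact p.Prime]

theorem h1Vanishes_subgroupOf (H : Subgroup GQ) (K : Subgroup H)
    (hK : IsOpenLvl lvlQ (K.map H.subtype)) :
    H1Vanishes (lvlQ.comap H.subtype) (unitsRep.comp H.subtype) K := by
  intro c hc
  let f : K.map H.subtype →* K :=
    ((K.equivMapOfInjective H.subtype Subtype.val_injective).symm.toMonoidHom)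
  have hf : ∀ s : K.map H.subtype, (((f s : K) : H) : GQ) = s := fun s => by
    obtain ⟨t, rfl⟩ := (K.equivMapOfInjective H.subtype Subtype.val_injective).surjective s
    simp only [f, MulEquiv.coe_toMonoidHom, MulEquiv.symm_apply_apply]
    rfl
  have hc' : (fun s => c (f s)) ∈
      Z1 (lvlQ.comap (K.map H.subtype).subtype) (unitsRep.comp (K.map H.subtype).subtype) := by
    obtain ⟨h1, U, ⟨U', ⟨W, hW, rfl⟩, rfl⟩, h2⟩ := (mem_Z1 _ _).1 hc
    refine (mem_Z1 _ _).2 ⟨fun a b => ?_, W.comap (K.map H.subtype).subtype, ⟨W, hW, rfl⟩,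
      fun a s hs => ?_⟩
    · show c (f (a * b)) = _
      rw [map_mul, h1]
      show unitsRep (((f a : K) : H) : GQ) _ + _ = unitsRep (a : GQ) _ + _
      rw [hf]
    · show c (f (a * s)) = c (f a)
      rw [map_mul, h2]
      show (((f s : K) : H) : GQ) ∈ W
      rw [hf]; exact hs
  obtain ⟨v, hv⟩ := h1Vanishes_unitsRep (K.map H.subtype) hK _ hc'
  refine ⟨v, funext fun k => ?_⟩
  have hk := congrFun hv (K.equivMapOfInjective H.subtype Subtype.val_injective k)
  simp only [d0_apply] at hk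
  rw [show f (K.equivMapOfInjective H.subtype Subtype.val_injective k) = k from
    MulEquiv.symm_apply_apply _ _] at hk
  exact hk

/-- `μ_p → ℚ̄ˣ` is injective on `H²`. -/
theorem mem_B2_of_muIncl (H : Subgroup GQ) (hH : IsOpenLvl lvlQ H) (z : H × H → ZMod p)
    (h : (fun g => muIncl p (z g)) ∈ B2 (lvlQ.comap H.subtype) (unitsRep.comp H.subtype)) :
    z ∈ B2 (lvlQ.comap H.subtype) ((muRep p).comp H.subtype) := by
  obtain ⟨x, hx, hd⟩ := (mem_B2 _ _).1 h
  have hd' : ∀ a b : H, unitsRep (a : GQ) (x b) - x (a * b) + x a = muIncl p (z (a, b)) :=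
    fun a b => congrFun hd (a, b)
  have hy : (p : ℤ) • x ∈ Z1 (lvlQ.comap H.subtype) (unitsRep.comp H.subtype) := by
    refine (mem_Z1 _ _).2 ⟨fun a b => ?_, ?_⟩
    · show (p : ℤ) • x (a * b) = unitsRep (a : GQ) ((p : ℤ) • x b) + (p : ℤ) • x a
      rw [map_zsmul, ← zsmul_add, ← sub_eq_zero, ← zsmul_sub,
        show x (a * b) - (unitsRep (a : GQ) (x b) + x a) = -muIncl p (z (a, b)) by
          rw [← hd']; abel, zsmul_neg, zsmul_muIncl, neg_zero]
    · obtain ⟨U, hU, hxU⟩ := hx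
      exact ⟨U, hU, fun g s hs => by simp [hxU g s hs]⟩
  obtain ⟨y, hy⟩ := h1Vanishes_unitsRep H hH _ (by exact hy)
  obtain ⟨w, hw⟩ := exists_zsmul_eq p (prime_ne_zero' p) y
  let x' : H → Mq := x - d0 (unitsRep.comp H.subtype) w
  have hx' : ∀ a, (p : ℤ) • x' a = 0 := fun a => by
    have := congrFun hy a
    simp only [d0_apply, Pi.smul_apply] at this
    simp only [x', Pi.sub_apply, d0_apply, zsmul_sub, ← map_zsmul, hw]
    rw [← this, sub_self]
  choose x'' hx'' using fun a => exists_muIncl_eq p (hx' a)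
  refine (mem_B2 _ _).2 ⟨x'', ?_, ?_⟩
  · obtain ⟨U, hU, hxU⟩ := hx
    obtain ⟨U', hU', hwU⟩ := d0_const (smooth_comp H.subtype smooth_unitsRep) w
    refine ⟨U ⊓ U', Lvl.inf_mem _ U hU U' hU', fun g s hs => muIncl_injective p ?_⟩
    rw [hx'', hx'']
    simp only [x', Pi.sub_apply, hxU g s hs.1, hwU g s hs.2]
  · funext ⟨a, b⟩
    apply muIncl_injective p
    rw [d1_apply, map_add, map_sub]
    show muIncl p ((cycloChar p (a : GQ) : ZMod p) * x'' b) - _ + _ = _
    rw [← unitsRep_muIncl, hx'', hx'', hx'']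
    have := congrFun (d1_d0 (unitsRep.comp H.subtype) w) (a, b)
    rw [d1_apply] at this
    rw [← hd' a b]
    simp only [x', Pi.sub_apply, map_sub]
    rw [← sub_eq_zero]
    calc _ = -((unitsRep.comp H.subtype) a (d0 (unitsRep.comp H.subtype) w b) -
        d0 (unitsRep.comp H.subtype) w (a * b) + d0 (unitsRep.comp H.subtype) w a) := by
          simp only [MonoidHom.comp_apply, Subgroup.coe_subtype]; abel
      _ = 0 := by rw [this, Pi.zero_apply, neg_zero]

/-- The decomposition map respects levels. -/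
theorem lvlLE_placeHom (H : Subgroup GQ) (q : Nat.Primes) (g : GQ) :
    LvlLE (lvlQ.comap H.subtype) ((lvlLoc q).comap (stabLoc q H g).subtype) (placeHom q H g) := by
  rintro U ⟨W, hW, rfl⟩
  refine ⟨W.comap (loc q), ⟨W, hW, rfl⟩, ?_⟩
  ext τ
  have := lvlQ.normal_of_mem W hW
  show loc q τ ∈ W ↔ g⁻¹ * loc q τ * g ∈ W
  constructor
  · intro h
    simpa using this.conj_mem _ h g⁻¹
  · intro h
    simpa [mul_assoc] using this.conj_mem _ h g

/-- A global element seen at a place, as a linear map. -/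
def atPlaceMap (q : Nat.Primes) (g : GQ) : Mq →ₗ[ℤ] Ml q := iotaUnits q ∘ₗ unitsRep g

theorem atPlaceMap_apply (q : Nat.Primes) (g : GQ) (a : Mq) :
    atPlaceMap q g a = atPlace q g a := rfl

theorem atPlaceMap_equivariant (H : Subgroup GQ) (q : Nat.Primes) (g : GQ) (τ : stabLoc q H g)
    (v : Mq) :
    atPlaceMap q g ((unitsRep.comp H.subtype) (placeHom q H g τ) v) =
      ((unitsRepLoc q).comp (stabLoc q H g).subtype) τ (atPlaceMap q g v) := by
  show iotaUnits q (unitsRep g (unitsRep (g⁻¹ * loc q τ * g) v)) =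
    unitsRepLoc q τ (iotaUnits q (unitsRep g v))
  rw [← equivariant_iotaUnits q τ, ← Module.End.mul_apply, ← map_mul,
    ← Module.End.mul_apply, ← map_mul]
  simp [mul_assoc]

/-- Local triviality of `z` makes the carry element a local norm. -/
theorem isLocalNormAt_of_carry (H₁ H : Subgroup GQ) (hH₁ : IsOpenLvl lvlQ H₁)
    (hle : H₁ ≤ H) (χ : H →* Multiplicative (ZMod p)) (hker : ∀ s : H, χ s = 1 ↔ (s : GQ) ∈ H₁)
    (a : Mq) (haH : a ∈ fixedBy unitsRep H) (z : H × H → ZMod p)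
    (hza : ((fun x => muIncl p (z x)) - carry χ a) ∈
      B2 (lvlQ.comap H.subtype) (unitsRep.comp H.subtype))
    (q : Nat.Primes) (g : GQ)
    (h : pp2 (placeHom q H g) (LinearMap.id : ZMod p →ₗ[ZMod p] ZMod p) z ∈
      B2 ((lvlLoc q).comap (stabLoc q H g).subtype) ((muLoc p q).comp (stabLoc q H g).subtype)) :
    IsLocalNormAt H₁ H q g a := by
  set D := stabLoc q H g with hD
  set D₁ := stabLoc q H₁ g with hD1
  set ρD := (unitsRepLoc q).comp D.subtype with hρD
  set Φ := atPlaceMap q g with hΦdef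
  have hΦ : ∀ (τ : D) (v : Mq),
      Φ ((unitsRep.comp H.subtype) (placeHom q H g τ) v) = ρD τ (Φ v) :=
    atPlaceMap_equivariant H q g
  let χD : D →* Multiplicative (ZMod p) := χ.comp (placeHom q H g)
  have hkerD : ∀ τ : D, χD τ = 1 ↔ (τ : Gl q) ∈ D₁ := fun τ => by
    rw [MonoidHom.comp_apply, hker, hD1, mem_stabLoc]; rfl
  have hψ : ∀ (τ : D) (v : ZMod p),
      Φ (muIncl p (((muLoc p q).comp D.subtype) τ v)) = ρD τ (Φ (muIncl p v)) := by
    intro τ v
    rw [← hΦ τ]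
    refine congrArg Φ ?_
    rw [MonoidHom.comp_apply, MonoidHom.comp_apply, charRep_apply, MonoidHom.comp_apply,
      Subgroup.coe_subtype, Subgroup.coe_subtype, unitsRep_muIncl]
    have e : cycloChar p (g⁻¹ * loc q τ * g) = cycloChar p (loc q τ) := by
      rw [map_mul, map_mul, map_inv, mul_comm ((cycloChar p g)⁻¹), inv_mul_cancel_right]
    rw [← e]
    rfl
  have hloc1 := map_mem_B2 (V := ZMod p) (L := (lvlLoc q).comap D.subtype)
    (L' := (lvlLoc q).comap D.subtype) (ρ := (muLoc p q).comp D.subtype) (σ := ρD)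
    (MonoidHom.id D) (lvlLE_id _) (Φ.toAddMonoidHom.comp (muIncl p)) hψ
    (x := fun y : D × D => z (placeHom q H g y.1, placeHom q H g y.2)) h
  have hloc2 := map_mem_B2 (L := lvlQ.comap H.subtype)
    (L' := (lvlLoc q).comap D.subtype) (σ := ρD) (placeHom q H g) (lvlLE_placeHom H q g)
    Φ.toAddMonoidHom hΦ hza
  have hcarry : carry χD (Φ a) ∈ B2 ((lvlLoc q).comap D.subtype) ρD := by
    have h3 := sub_mem hloc1 hloc2
    have e3 : carry χD (Φ a) = (fun x : D × D => (Φ.toAddMonoidHom.comp (muIncl p))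
        (z (placeHom q H g x.1, placeHom q H g x.2))) -
          fun x : D × D => Φ.toAddMonoidHom (((fun x => muIncl p (z x)) - carry χ a)
            (placeHom q H g x.1, placeHom q H g x.2)) := by
      funext x
      simp only [Pi.sub_apply, map_sub, AddMonoidHom.coe_comp, Function.comp_apply,
        LinearMap.toAddMonoidHom_coe, sub_sub_cancel]
      simp only [carry, χD, MonoidHom.comp_apply, map_nsmul]
    rw [e3]
    exact h3
  have hfix : Φ a ∈ fixedBy (unitsRepLoc q) D := atPlace_mem_fixedBy haH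
  show Φ a ∈ normsFrom (unitsRepLoc q) D₁ D
  by_cases hsD : Function.Surjective χD
  · obtain ⟨σD, hσD⟩ := hsD (Multiplicative.ofAdd 1)
    have hD₁ : IsOpenLvl (lvlLoc q) D₁ := by
      obtain ⟨U, hU, hUle⟩ := hH₁
      refine ⟨U.comap (loc q), ⟨U, hU, rfl⟩, fun τ hτ => mem_stabLoc.2 (hUle ?_)⟩
      simpa [mul_assoc] using (lvlQ.normal_of_mem U hU).conj_mem _ hτ g⁻¹
    have hχDopen : IsOpenLvl ((lvlLoc q).comap D.subtype) χD.ker := by
      obtain ⟨U, hU, hUle⟩ := hD₁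
      exact ⟨U.comap D.subtype, ⟨U, hU, rfl⟩, fun τ hτ => by
        rw [MonoidHom.mem_ker, hkerD]; exact hUle hτ⟩
    have hvD : H1Vanishes ((lvlLoc q).comap D.subtype) ρD χD.ker := by
      intro c hc
      let fD : D₁ →* χD.ker :=
        { toFun := fun τ => ⟨⟨τ, mem_stabLoc.2 (hle (mem_stabLoc.1 τ.2))⟩, (hkerD _).2 τ.2⟩
          map_one' := rfl
          map_mul' := fun _ _ => rfl }
      have hc' : (fun τ => c (fD τ)) ∈
          Z1 ((lvlLoc q).comap D₁.subtype) ((unitsRepLoc q).comp D₁.subtype) := by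
        obtain ⟨h1, U, ⟨U', ⟨W, hW, rfl⟩, rfl⟩, h2⟩ := (mem_Z1 _ _).1 hc
        exact (mem_Z1 _ _).2 ⟨fun x y => h1 (fD x) (fD y), W.comap D₁.subtype, ⟨W, hW, rfl⟩,
          fun x s hs => h2 (fD x) (fD s) hs⟩
      obtain ⟨v, hv⟩ := h1Vanishes_unitsRepLoc q D₁ hD₁ _ hc'
      exact ⟨v, funext fun τ => congrFun hv ⟨((τ : D) : Gl q), (hkerD τ).1 τ.2⟩⟩
    obtain ⟨b, hb, hab⟩ := (carry_mem_B2_iff_exists_norm ((lvlLoc q).comap D.subtype) ρD
      (smooth_comp D.subtype (smooth_unitsRepLoc q)) χD hχDopen hvD σD hσD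
      (fun τ _ => hfix τ τ.2)).1 hcarry
    have hb' : b ∈ fixedBy (unitsRepLoc q) D₁ := fun τ hτ =>
      hb ⟨τ, mem_stabLoc.2 (hle (mem_stabLoc.1 hτ))⟩ ((hkerD _).2 hτ)
    refine ⟨b, hb', ?_⟩
    rw [relNorm_eq_sum_pow (unitsRepLoc q) D₁ D χD hkerD σD hσD hb', hab]
    rfl
  · have hbot : χD.range = ⊥ := by
      have hp' : (Nat.card (Multiplicative (ZMod p))).Prime := by
        simpa using (Fact.out : p.Prime)
      have := Fact.mk hp'
      refine (Subgroup.eq_bot_or_eq_top_of_prime_card _).resolve_right fun h => hsD ?_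
      exact MonoidHom.range_eq_top.1 h
    have hDD : D ≤ D₁ := fun τ hτ =>
      (hkerD ⟨τ, hτ⟩).1 (Subgroup.mem_bot.1 (hbot ▸ MonoidHom.mem_range.2 ⟨_, rfl⟩))
    exact mem_normsFrom_of_le (unitsRepLoc q) hDD hfix fun τ hτ =>
      hfix τ (mem_stabLoc.2 (hle (mem_stabLoc.1 hτ)))

/-- The cyclic step of the local-global principle. -/
theorem mem_B2_cyclic_step (hp : p ≠ 2) (H₁ H : Subgroup GQ) (hH₁ : IsOpenLvl lvlQ H₁)
    (hle : H₁ ≤ H) [(H₁.subgroupOf H).Normal] (hidx : H₁.relIndex H = p)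
    (hμ : ∀ s ∈ H, cycloChar p s = 1) (z : H × H → ZMod p)
    (hz : z ∈ Z2 (lvlQ.comap H.subtype) ((muRep p).comp H.subtype))
    (hres : pp2 (Subgroup.inclusion hle) (LinearMap.id : ZMod p →ₗ[ZMod p] ZMod p) z ∈
      B2 (lvlQ.comap H₁.subtype) ((muRep p).comp H₁.subtype))
    (h : ∀ q g, pp2 (placeHom q H g) (LinearMap.id : ZMod p →ₗ[ZMod p] ZMod p) z ∈
      B2 ((lvlLoc q).comap (stabLoc q H g).subtype) ((muLoc p q).comp (stabLoc q H g).subtype)) :
    z ∈ B2 (lvlQ.comap H.subtype) ((muRep p).comp H.subtype) := by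
  classical
  have hH : IsOpenLvl lvlQ H := isOpenLvl_mono hH₁ hle
  refine mem_B2_of_muIncl p H hH z ?_
  set ρH := unitsRep.comp H.subtype with hρH
  have hequiv : ∀ (g : H) (v : ZMod p),
      muIncl p ((muRep p).comp H.subtype g v) = ρH g (muIncl p v) := fun g v =>
    (unitsRep_muIncl p (g : GQ) v).symm
  have hcard : Nat.card (H ⧸ H₁.subgroupOf H) = p := hidx
  have : IsCyclic (H ⧸ H₁.subgroupOf H) := isCyclic_of_prime_card hcard
  let e : Multiplicative (ZMod p) ≃* H ⧸ H₁.subgroupOf H := hcard ▸ zmodCyclicMulEquiv ‹_›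
  let χ : H →* Multiplicative (ZMod p) := e.symm.toMonoidHom.comp (QuotientGroup.mk' _)
  have hker : ∀ s : H, χ s = 1 ↔ (s : GQ) ∈ H₁ := fun s => by
    simp [χ, Subgroup.mem_subgroupOf]
  have hsurj : Function.Surjective χ :=
    e.symm.surjective.comp (QuotientGroup.mk'_surjective _)
  have hχopen : IsOpenLvl (lvlQ.comap H.subtype) χ.ker := by
    obtain ⟨U, hU, hUle⟩ := hH₁
    exact ⟨U.comap H.subtype, ⟨U, hU, rfl⟩, fun s hs => by
      rw [MonoidHom.mem_ker, hker]; exact hUle hs⟩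
  have hv : H1Vanishes (lvlQ.comap H.subtype) ρH χ.ker := by
    refine h1Vanishes_subgroupOf H χ.ker ?_
    have hkereq : χ.ker = H₁.subgroupOf H := Subgroup.ext fun s => by
      rw [MonoidHom.mem_ker, hker, Subgroup.mem_subgroupOf]
    rw [hkereq, Subgroup.map_subgroupOf_eq_of_le hle]
    exact hH₁
  have hz' : (fun g => muIncl p (z g)) ∈ Z2 (lvlQ.comap H.subtype) ρH :=
    map_mem_Z2 (MonoidHom.id H) (lvlLE_id _) (muIncl p) hequiv hz
  let f : χ.ker →* H₁ :=
    { toFun := fun s => ⟨((s : H) : GQ), (hker _).1 s.2⟩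
      map_one' := rfl
      map_mul' := fun _ _ => rfl }
  have hres' : pp2 χ.ker.subtype (LinearMap.id : Mq →ₗ[ℤ] Mq) (fun g => muIncl p (z g)) ∈
      B2 ((lvlQ.comap H.subtype).comap χ.ker.subtype) (ρH.comp χ.ker.subtype) :=
    map_mem_B2 (L := lvlQ.comap H₁.subtype) (L' := (lvlQ.comap H.subtype).comap χ.ker.subtype)
      (σ := ρH.comp χ.ker.subtype) f
      (by rintro U ⟨W, hW, rfl⟩; exact ⟨W.comap H.subtype, ⟨W, hW, rfl⟩, rfl⟩)
      (muIncl p) (fun g v => hequiv (g : H) v) hres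
  obtain ⟨a, ha, hza⟩ := exists_carry_of_res_mem_B2 (lvlQ.comap H.subtype) ρH
    (smooth_comp H.subtype smooth_unitsRep) χ hsurj hχopen hv ⟨_, hz'⟩ hres'
  have haH : a ∈ fixedBy unitsRep H := fun s hs => ha ⟨s, hs⟩ trivial
  obtain ⟨σ₀, hσ₀⟩ := hsurj (Multiplicative.ofAdd 1)
  have hnorm : a ∈ normsFrom unitsRep H₁ H :=
    mem_normsFrom_of_forall_isLocalNormAt p hp H₁ H hH₁ hle hidx hμ a haH fun q g =>
      isLocalNormAt_of_carry p H₁ H hH₁ hle χ hker a haH z hza q g (h q g)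
  obtain ⟨b, hb, hab⟩ := hnorm
  have hcarry : carry χ a ∈ B2 (lvlQ.comap H.subtype) ρH := by
    refine (carry_mem_B2_iff_exists_norm (lvlQ.comap H.subtype) ρH
      (smooth_comp H.subtype smooth_unitsRep) χ hχopen hv σ₀ hσ₀ ha).2
      ⟨b, fun s hs => hb _ ((hker s).1 hs), ?_⟩
    rw [← hab, relNorm_eq_sum_pow unitsRep H₁ H χ hker σ₀ hσ₀ hb]
    rfl
  have := add_mem hza hcarry
  simpa using this

theorem lvlLE_inclusion {H H' : Subgroup GQ} (hle : H' ≤ H) :
    LvlLE (lvlQ.comap H.subtype) (lvlQ.comap H'.subtype) (Subgroup.inclusion hle) := by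
  rintro U ⟨W, hW, rfl⟩
  exact ⟨W, hW, rfl⟩

/-- Restriction of a 2-cocycle to a smaller subgroup. -/
theorem restr_mem_Z2 {H H' : Subgroup GQ} (hle : H' ≤ H) {z : H × H → ZMod p}
    (hz : z ∈ Z2 (lvlQ.comap H.subtype) ((muRep p).comp H.subtype)) :
    (fun x => z (Subgroup.inclusion hle x.1, Subgroup.inclusion hle x.2)) ∈
      Z2 (lvlQ.comap H'.subtype) ((muRep p).comp H'.subtype) :=
  pp2_mem_Z2 (σ := (muRep p).comp H'.subtype) (φ := LinearMap.id) (lvlLE_inclusion hle)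
    (fun _ _ => rfl) hz

theorem mem_B2_sylow_induction (hp : p ≠ 2) (U G₀ : Subgroup GQ) [U.Normal]
    (hU : IsOpenLvl lvlQ U) (hμ : ∀ s ∈ G₀, cycloChar p s = 1) (z : G₀ × G₀ → ZMod p)
    (hz : z ∈ Z2 (lvlQ.comap G₀.subtype) ((muRep p).comp G₀.subtype))
    (hzU : ∀ (hle : U ≤ G₀), (fun x : U × U =>
      z (Subgroup.inclusion hle x.1, Subgroup.inclusion hle x.2)) ∈
      B2 (lvlQ.comap U.subtype) ((muRep p).comp U.subtype))
    (h : ∀ q g, pp2 (placeHom q G₀ g) (LinearMap.id : ZMod p →ₗ[ZMod p] ZMod p) z ∈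
      B2 ((lvlLoc q).comap (stabLoc q G₀ g).subtype) ((muLoc p q).comp (stabLoc q G₀ g).subtype))
    (m : ℕ) : ∀ (H : Subgroup GQ), U ≤ H → ∀ (hle : H ≤ G₀), U.relIndex H = p ^ m →
      (fun x : H × H => z (Subgroup.inclusion hle x.1, Subgroup.inclusion hle x.2)) ∈
        B2 (lvlQ.comap H.subtype) ((muRep p).comp H.subtype) := by
  induction m with
  | zero =>
    intro H hUH hle hidx
    obtain rfl : U = H := le_antisymm hUH (Subgroup.relIndex_eq_one.1 (by simpa using hidx))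
    exact hzU hle
  | succ m ih =>
    intro H hUH hle hidx
    have hp' : p.Prime := Fact.out
    let N : Subgroup H := U.subgroupOf H
    have hN : Nat.card (H ⧸ N) = p ^ (m + 1) := hidx
    have : Finite (H ⧸ N) := Nat.finite_of_card_ne_zero (by rw [hN]; exact pow_ne_zero _ hp'.ne_zero)
    obtain ⟨K, hK⟩ := Sylow.exists_subgroup_card_pow_prime p (n := m) (G := H ⧸ N)
      (by rw [hN]; exact pow_dvd_pow p m.le_succ)
    have hKidx : K.index = p := by
      have := K.card_mul_index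
      rw [hK, hN, pow_succ] at this
      exact Nat.eq_of_mul_eq_mul_left (pow_pos hp'.pos m) this
    have hKn : K.Normal := Subgroup.normal_of_index_eq_minFac_card (by
      rw [hKidx, hN, Nat.pow_minFac m.succ_ne_zero, hp'.minFac_eq])
    let H₁ : Subgroup GQ := (K.comap (QuotientGroup.mk' N)).map H.subtype
    have hH₁le : H₁ ≤ H := Subgroup.map_subtype_le _
    have hH₁sub : H₁.subgroupOf H = K.comap (QuotientGroup.mk' N) :=
      Subgroup.comap_map_eq_self_of_injective Subtype.val_injective _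
    have hUH₁ : U ≤ H₁ := fun u hu =>
      ⟨⟨u, hUH hu⟩, by
        show (QuotientGroup.mk' N) ⟨u, hUH hu⟩ ∈ K
        rw [show (QuotientGroup.mk' N) ⟨u, hUH hu⟩ = 1 from (QuotientGroup.eq_one_iff _).2 hu]
        exact one_mem K, rfl⟩
    have : (H₁.subgroupOf H).Normal := by rw [hH₁sub]; infer_instance
    have hidx₁ : H₁.relIndex H = p := by
      rw [Subgroup.relIndex, hH₁sub,
        Subgroup.index_comap_of_surjective _ (QuotientGroup.mk'_surjective N), hKidx]
    have hidxU : U.relIndex H₁ = p ^ m := by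
      have := Subgroup.relIndex_mul_relIndex U H₁ H hUH₁ hH₁le
      rw [hidx₁, hidx, pow_succ] at this
      exact Nat.eq_of_mul_eq_mul_right hp'.pos this
    refine mem_B2_cyclic_step p hp H₁ H (isOpenLvl_mono hU hUH₁) hH₁le hidx₁
      (fun s hs => hμ s (hle hs)) _ (restr_mem_Z2 p hle hz)
      (ih H₁ hUH₁ (hH₁le.trans hle) hidxU) fun q g => ?_
    have hsle : stabLoc q H g ≤ stabLoc q G₀ g := fun τ hτ => mem_stabLoc.2 (hle (mem_stabLoc.1 hτ))
    exact pp2_mem_B2 (σ := (muLoc p q).comp (stabLoc q H g).subtype) (φ := LinearMap.id)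
      (f := Subgroup.inclusion hsle) (by rintro V ⟨W, hW, rfl⟩; exact ⟨W, hW, rfl⟩)
      (fun _ _ => rfl) (h q g)

/-- A class in `H²(G_K, μ_p)` vanishing at all places is zero. -/
theorem mem_B2_of_forall_place_aux (hp : p ≠ 2) (G₀ : Subgroup GQ) (hG : IsOpenLvl lvlQ G₀)
    (hμ : ∀ s ∈ G₀, cycloChar p s = 1) (z : G₀ × G₀ → ZMod p)
    (hz : z ∈ Z2 (lvlQ.comap G₀.subtype) ((muRep p).comp G₀.subtype))
    (h : ∀ q g, pp2 (placeHom q G₀ g) (LinearMap.id : ZMod p →ₗ[ZMod p] ZMod p) z ∈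
      B2 ((lvlLoc q).comap (stabLoc q G₀ g).subtype) ((muLoc p q).comp (stabLoc q G₀ g).subtype)) :
    z ∈ B2 (lvlQ.comap G₀.subtype) ((muRep p).comp G₀.subtype) := by
  classical
  have hp' : p.Prime := Fact.out
  obtain ⟨-, U', ⟨W₀, hW₀, rfl⟩, hzconst⟩ := (mem_Z2 _ _).1 hz
  obtain ⟨W₁, hW₁, hW₁le⟩ := hG
  set U := W₀ ⊓ W₁ with hUdef
  have hUmem : U ∈ lvlQ := lvlQ.inf_mem W₀ hW₀ W₁ hW₁
  have hUn : U.Normal := lvlQ.normal_of_mem U hUmem
  have hUfi : U.FiniteIndex := lvlQ.finiteIndex_of_mem U hUmem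
  have hUG : U ≤ G₀ := inf_le_right.trans hW₁le
  let N : Subgroup G₀ := U.subgroupOf G₀
  have : N.FiniteIndex := Subgroup.instFiniteIndex_subgroupOf (H := U) (K := G₀)
  obtain ⟨P⟩ : Nonempty (Sylow p (G₀ ⧸ N)) := inferInstance
  let H : Subgroup GQ := ((P : Subgroup (G₀ ⧸ N)).comap (QuotientGroup.mk' N)).map G₀.subtype
  have hHle : H ≤ G₀ := Subgroup.map_subtype_le _
  have hHsub : H.subgroupOf G₀ = (P : Subgroup (G₀ ⧸ N)).comap (QuotientGroup.mk' N) :=
    Subgroup.comap_map_eq_self_of_injective Subtype.val_injective _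
  have hUH : U ≤ H := fun u hu => ⟨⟨u, hUG hu⟩, by
    show (QuotientGroup.mk' N) ⟨u, hUG hu⟩ ∈ (P : Subgroup (G₀ ⧸ N))
    rw [show (QuotientGroup.mk' N) ⟨u, hUG hu⟩ = 1 from (QuotientGroup.eq_one_iff _).2 hu]
    exact one_mem _, rfl⟩
  obtain ⟨m, hm⟩ := (IsPGroup.iff_card).1 P.isPGroup'
  have hidx : (H.subgroupOf G₀).index = (P : Subgroup (G₀ ⧸ N)).index := by
    rw [hHsub, Subgroup.index_comap_of_surjective _ (QuotientGroup.mk'_surjective N)]
  have hUHidx : U.relIndex H = p ^ m := by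
    have h1 := Subgroup.relIndex_mul_relIndex U H G₀ hUH hHle
    have h2 := (P : Subgroup (G₀ ⧸ N)).card_mul_index
    rw [hm] at h2
    have h3 : U.relIndex G₀ = Nat.card (G₀ ⧸ N) := rfl
    have h4 : H.relIndex G₀ = (P : Subgroup (G₀ ⧸ N)).index := hidx
    rw [h3, h4, ← h2] at h1
    exact Nat.eq_of_mul_eq_mul_right (Nat.pos_of_ne_zero Subgroup.FiniteIndex.index_ne_zero) h1
  have hresH := mem_B2_sylow_induction p hp U G₀ ⟨U, hUmem, le_rfl⟩ hμ z hz
    (fun hle => by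
      have e : (fun x : U × U => z (Subgroup.inclusion hle x.1, Subgroup.inclusion hle x.2)) =
          fun _ => z (1, 1) := funext fun x => by
        have h0 := hzconst 1 1 (Subgroup.inclusion hle x.1) (Subgroup.inclusion hle x.2)
          (Subgroup.mem_inf.1 x.1.2).1 (Subgroup.mem_inf.1 x.2.2).1
        rwa [one_mul, one_mul] at h0
      rw [e]
      exact const_mem_B2 _ _ fun s => by
        rw [MonoidHom.comp_apply, Subgroup.coe_subtype, charRep_apply, hμ _ (hle s.2),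
          Units.val_one, one_mul])
    h m H hUH hHle hUHidx
  have hunit : IsUnit ((H.subgroupOf G₀).index : ZMod p) := by
    rw [ZMod.isUnit_iff_coprime, Nat.coprime_comm, hp'.coprime_iff_not_dvd, hidx]
    exact P.not_dvd_index
  have hinj := res2_injective_of_isUnit_index (lvlQ.comap G₀.subtype)
    ((muRep p).comp G₀.subtype)
    (fun v => ⟨⊤, (lvlQ.comap G₀.subtype).top_mem, fun s _ => by
      rw [MonoidHom.comp_apply, Subgroup.coe_subtype, charRep_apply, hμ _ s.2, Units.val_one,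
        one_mul]⟩)
    (H.subgroupOf G₀)
    ⟨U.comap G₀.subtype, ⟨U, hUmem, rfl⟩, fun s hs => hUH hs⟩ hunit
  have hzero : H2cπ (lvlQ.comap G₀.subtype) ((muRep p).comp G₀.subtype) ⟨z, hz⟩ = 0 := by
    refine hinj (Eq.trans ?_ (map_zero _).symm)
    refine (Submodule.Quotient.mk_eq_zero _).2 ?_
    exact pp2_mem_B2 (σ := ((muRep p).comp G₀.subtype).comp (H.subgroupOf G₀).subtype)
      (φ := LinearMap.id)
      (f := (Subgroup.subgroupOfEquivOfLe hHle).toMonoidHom)
      (by rintro V ⟨W, hW, rfl⟩; exact ⟨W.comap G₀.subtype, ⟨W, hW, rfl⟩, rfl⟩)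
      (fun _ _ => rfl) hresH
  exact (H2cπ_eq_zero _ _).1 hzero

end FLTA.PT.Hasse

end
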