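import Mathlib

/-!
# Counting elements with valuations divisible by `p` outside a finite set of primes

For a Dedekind domain `R` with fraction field `K`, a prime `p` and a finite set `T` of primes, the
group `{a : Kˣ | p ∣ v(a) for v ∉ T} / Kˣᵖ` has order `[Rˣ : Rˣᵖ] * p^|T| * |Cl/⟨Clᵖ, T⟩|`.
-/

set_option autoImplicit false

open IsDedekindDomain
open scoped nonZeroDivisors

noncomputable section

namespace FLTA.PT

variable (R : Type*) [CommRing R] [IsDedekindDomain R] (K : Type*) [Field K] [Algebra R K]
  [IsFractionRing R K]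

/-- The group of fractional ideals. -/
abbrev DivGrp : Type _ := (FractionalIdeal R⁰ K)ˣ

variable {R}

/-- The exponent of a prime in a fractional ideal. -/
def cnt (v : HeightOneSpectrum R) : Additive (DivGrp R K) →+ ℤ :=
  AddMonoidHom.mk' (fun I => FractionalIdeal.count K v ((Additive.toMul I : DivGrp R K) : FractionalIdeal R⁰ K))
    fun I J => by
      simp only [toMul_add, Units.val_mul]
      exact FractionalIdeal.count_mul K v (Units.ne_zero _) (Units.ne_zero _)

theorem cnt_ofMul (v : HeightOneSpectrum R) (I : DivGrp R K) :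
    cnt K v (Additive.ofMul I) = FractionalIdeal.count K v (I : FractionalIdeal R⁰ K) := rfl

/-- A prime as an invertible fractional ideal. -/
def primeDiv (v : HeightOneSpectrum R) : DivGrp R K :=
  FractionalIdeal.mk0 K ⟨v.asIdeal, mem_nonZeroDivisors_of_ne_zero v.ne_bot⟩

theorem cnt_primeDiv [DecidableEq (HeightOneSpectrum R)] (v w : HeightOneSpectrum R) :
    cnt K v (Additive.ofMul (primeDiv K w)) = if w = v then 1 else 0 :=
  FractionalIdeal.count_maximal K v w

/-- The fractional ideal with given exponents. -/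
def expsHom : (HeightOneSpectrum R →₀ ℤ) →+ Additive (DivGrp R K) :=
  Finsupp.liftAddHom fun v => zmultiplesHom _ (Additive.ofMul (primeDiv K v))

theorem expsHom_single (v : HeightOneSpectrum R) (n : ℤ) :
    expsHom K (Finsupp.single v n) = n • Additive.ofMul (primeDiv K v) := by
  simp [expsHom]

theorem cnt_expsHom (v : HeightOneSpectrum R) (n : HeightOneSpectrum R →₀ ℤ) :
    cnt K v (expsHom K n) = n v := by
  classical
  induction n using Finsupp.induction_linear with
  | zero => simp
  | add f g hf hg => simp [hf, hg]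
  | single w m =>
    rw [expsHom_single, map_zsmul, cnt_primeDiv, Finsupp.single_apply]
    split <;> simp

theorem div_ext {I J : Additive (DivGrp R K)} (h : ∀ v, cnt K v I = cnt K v J) : I = J := by
  refine Additive.toMul.injective (Units.ext ?_)
  rw [← FractionalIdeal.finprod_heightOneSpectrum_factorization' K (Units.ne_zero (Additive.toMul I)),
    ← FractionalIdeal.finprod_heightOneSpectrum_factorization' K (Units.ne_zero (Additive.toMul J))]
  exact finprod_congr fun v => by rw [show FractionalIdeal.count K v _ = cnt K v I from rfl, h v]; rfl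

theorem exists_expsHom_eq (I : Additive (DivGrp R K)) : ∃ n, expsHom K n = I := by
  refine ⟨Finsupp.ofSupportFinite (fun v => cnt K v I) ?_, div_ext K fun v => ?_⟩
  · exact Filter.eventually_cofinite.1
      (FractionalIdeal.finite_factors ((Additive.toMul I : DivGrp R K) : FractionalIdeal R⁰ K))
  · rw [cnt_expsHom]; rfl

variable (p : ℕ) (T : Finset (HeightOneSpectrum R))

/-- Fractional ideals with exponents divisible by `p` outside `T`. -/
def divModSubgroup : Subgroup (DivGrp R K) where
  carrier := {I | ∀ v ∉ T, (p : ℤ) ∣ cnt K v (Additive.ofMul I)}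
  one_mem' v _ := by simp
  mul_mem' hI hJ v hv := by
    rw [ofMul_mul, map_add]; exact dvd_add (hI v hv) (hJ v hv)
  inv_mem' hI v hv := by rw [ofMul_inv, map_neg]; exact (hI v hv).neg_right

theorem mem_divModSubgroup {I : DivGrp R K} :
    I ∈ divModSubgroup K p T ↔ ∀ v ∉ T, (p : ℤ) ∣ cnt K v (Additive.ofMul I) := Iff.rfl

/-- The elements with valuations divisible by `p` outside `T`. -/
def selmerUnits : Subgroup Kˣ := (divModSubgroup K p T).comap (toPrincipalIdeal R K)

variable (R) in
theorem powMonoidHom_div_injective [NeZero p] :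
    Function.Injective (powMonoidHom p : DivGrp R K →* DivGrp R K) := by
  refine (injective_iff_map_eq_one _).2 fun I hI => ?_
  have h : Additive.ofMul I = 0 := div_ext K fun v => by
    have h1 : cnt K v (p • Additive.ofMul I) = 0 := by
      rw [← ofMul_pow, show I ^ p = 1 from hI]; exact map_zero _
    rw [map_nsmul, smul_eq_zero] at h1
    simpa [NeZero.ne p] using h1
  exact h

variable [Fact p.Prime]

theorem relIndex_pow_divModSubgroup :
    (powMonoidHom p).range.relIndex (divModSubgroup K p T) = p ^ T.card := by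
  classical
  let θ : divModSubgroup K p T →* (T → Multiplicative (ZMod p)) :=
    MonoidHom.mk' (fun I v => Multiplicative.ofAdd
        ((cnt K (v : HeightOneSpectrum R) (Additive.ofMul (I : DivGrp R K)) : ℤ) : ZMod p))
      fun I J => by
        funext v
        simp only [Subgroup.coe_mul, ofMul_mul, map_add, Int.cast_add, ofAdd_add, Pi.mul_apply]
  have hker : θ.ker = (powMonoidHom p).range.subgroupOf (divModSubgroup K p T) := by
    ext I
    rw [MonoidHom.mem_ker, Subgroup.mem_subgroupOf]
    constructor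
    · intro h
      have hdvd : ∀ v, (p : ℤ) ∣ cnt K v (Additive.ofMul (I : DivGrp R K)) := fun v => by
        by_cases hv : v ∈ T
        · exact (ZMod.intCast_zmod_eq_zero_iff_dvd _ _).1
            (Multiplicative.ofAdd.injective (congrFun h ⟨v, hv⟩))
        · exact I.2 v hv
      obtain ⟨n, hn⟩ := exists_expsHom_eq K (Additive.ofMul (I : DivGrp R K))
      refine ⟨Additive.toMul (expsHom K (n.mapRange (· / (p : ℤ)) (Int.zero_ediv _))), ?_⟩
      apply Additive.ofMul.injective
      refine div_ext K fun v => ?_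
      rw [powMonoidHom_apply, ofMul_pow, ofMul_toMul, map_nsmul, cnt_expsHom, Finsupp.mapRange_apply]
      have hv := hdvd v
      rw [← hn, cnt_expsHom] at hv ⊢
      rw [nsmul_eq_mul, Int.mul_ediv_cancel' hv]
    · rintro ⟨J, hJ⟩
      funext v
      show Multiplicative.ofAdd _ = _
      rw [← hJ, powMonoidHom_apply, ofMul_pow, map_nsmul]
      simp
  have hsurj : Function.Surjective θ := by
    intro f
    let n : HeightOneSpectrum R →₀ ℤ :=
      ∑ v : T, Finsupp.single (v : HeightOneSpectrum R) ((Multiplicative.toAdd (f v)).val : ℤ)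
    have hn : ∀ w, n w = if h : w ∈ T then ((Multiplicative.toAdd (f ⟨w, h⟩)).val : ℤ) else 0 := by
      intro w
      simp only [n, Finsupp.finsetSum_apply, Finsupp.single_apply]
      split
      · rename_i h
        rw [Finset.sum_eq_single ⟨w, h⟩]
        · simp
        · intro b _ hb
          rw [if_neg fun e => hb (Subtype.ext e)]
        · simp
      · rename_i h
        exact Finset.sum_eq_zero fun b _ => if_neg fun e : (b : HeightOneSpectrum R) = w => h (e ▸ b.2)
    refine ⟨⟨Additive.toMul (expsHom K n), fun v hv => ?_⟩, ?_⟩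
    · rw [ofMul_toMul, cnt_expsHom, hn, dif_neg hv]; exact dvd_zero _
    · funext v
      show Multiplicative.ofAdd _ = f v
      rw [ofMul_toMul, cnt_expsHom, hn, dif_pos v.2, Int.cast_natCast, ZMod.natCast_zmod_val]
      rfl
  rw [Subgroup.relIndex, ← hker, Subgroup.index_ker, MonoidHom.range_eq_top.2 hsurj,
    Subgroup.card_top, Nat.card_pi]
  simp

variable (R) in
/-- The subgroup of the class group generated by `p`-th powers and the primes in `T`. -/
def clTRel : Subgroup (ClassGroup R) :=
  (powMonoidHom p).range ⊔ Subgroup.closure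
    {c | ∃ v ∈ T, ClassGroup.mk0 ⟨v.asIdeal, mem_nonZeroDivisors_of_ne_zero v.ne_bot⟩ = c}

theorem mk_primeDiv (v : HeightOneSpectrum R) :
    ClassGroup.mk K (primeDiv K v) =
      ClassGroup.mk0 ⟨v.asIdeal, mem_nonZeroDivisors_of_ne_zero v.ne_bot⟩ :=
  ClassGroup.mk_mk0 (K := K) _

theorem map_divModSubgroup :
    (divModSubgroup K p T).map (ClassGroup.mk K) = clTRel R p T := by
  classical
  refine le_antisymm ?_ (sup_le ?_ ?_)
  · rintro _ ⟨I, hI, rfl⟩
    obtain ⟨n, hn⟩ := exists_expsHom_eq K (Additive.ofMul I)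
    have hI' : ∀ v ∉ T, (p : ℤ) ∣ n v := fun v hv => by rw [← cnt_expsHom K v n, hn]; exact hI v hv
    rw [← toMul_ofMul I, ← hn, ← n.sum_single, map_finsuppSum, Finsupp.sum, toMul_sum, map_prod]
    refine Subgroup.prod_mem _ fun v _ => ?_
    rw [expsHom_single, toMul_zsmul, toMul_ofMul, map_zpow, mk_primeDiv]
    by_cases hv : v ∈ T
    · refine Subgroup.zpow_mem _ (Subgroup.mem_sup_right (Subgroup.subset_closure ?_)) _
      exact ⟨v, hv, rfl⟩
    · obtain ⟨k, hk⟩ := hI' v hv
      refine Subgroup.mem_sup_left (MonoidHom.mem_range.2 ⟨(ClassGroup.mk0 (⟨v.asIdeal, mem_nonZeroDivisors_of_ne_zero v.ne_bot⟩ : (Ideal R)⁰)) ^ k, ?_⟩)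
      rw [powMonoidHom_apply, ← zpow_natCast, ← zpow_mul, hk, mul_comm]
  · rintro _ ⟨c, rfl⟩
    refine ClassGroup.induction (R := R) K (fun I => ?_) c
    refine ⟨I ^ p, fun v _ => ?_, map_pow _ _ _⟩
    rw [ofMul_pow, map_nsmul]
    simp
  · rw [Subgroup.closure_le]
    rintro _ ⟨v, hv, rfl⟩
    refine ⟨primeDiv K v, fun w hw => ?_, mk_primeDiv K v⟩
    rw [cnt_primeDiv, if_neg fun e : v = w => hw (e ▸ hv)]
    exact dvd_zero _

theorem ker_classGroupMk : (ClassGroup.mk (R := R) K).ker = (toPrincipalIdeal R K).range := by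
  ext I
  rw [MonoidHom.mem_ker, ClassGroup.mk_eq_one_iff, mem_principal_ideals_iff,
    FractionalIdeal.isPrincipal_iff]
  exact exists_congr fun x => eq_comm

theorem classGroupMk_surjective : Function.Surjective (ClassGroup.mk (R := R) K) := fun c => by
  refine ClassGroup.induction (R := R) K (fun I => ?_) c
  exact ⟨I, rfl⟩

variable (R) in
theorem ker_toPrincipalIdeal :
    (toPrincipalIdeal R K).ker = (Units.map (algebraMap R K : R →* K)).range := by
  ext x
  rw [MonoidHom.mem_ker, toPrincipalIdeal_eq_iff, Units.val_one, ← FractionalIdeal.spanSingleton_one,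
    FractionalIdeal.spanSingleton_eq_spanSingleton, MonoidHom.mem_range]
  constructor
  · rintro ⟨z, hz⟩
    refine ⟨z⁻¹, Units.ext ?_⟩
    rw [Units.smul_def, Algebra.smul_def] at hz
    show algebraMap R K ((z⁻¹ : Rˣ) : R) = (x : K)
    rw [← mul_one (algebraMap R K _), ← hz, ← mul_assoc, ← map_mul, Units.inv_mul, map_one, one_mul]
  · rintro ⟨z, rfl⟩
    refine ⟨z⁻¹, ?_⟩
    rw [Units.smul_def, Algebra.smul_def]
    show algebraMap R K _ * algebraMap R K (z : R) = 1
    rw [← map_mul, Units.inv_mul, map_one]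

theorem relIndex_selmerUnits [Finite (ClassGroup R)] :
    (powMonoidHom p : Kˣ →* Kˣ).range.relIndex (selmerUnits K p T) =
      (powMonoidHom p : Rˣ →* Rˣ).range.index * (p ^ T.card * (clTRel R p T).index) := by
  have hp : NeZero p := ⟨(Fact.out : p.Prime).ne_zero⟩
  set φ := ClassGroup.mk (R := R) K with hφ
  set ι := toPrincipalIdeal R K with hι
  set P := ι.range with hP
  set X := divModSubgroup K p T with hX
  let π : DivGrp R K →* DivGrp R K := powMonoidHom p
  have hh : P.index = Nat.card (ClassGroup R) := by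
    rw [hP, ← ker_classGroupMk, Subgroup.index_ker,
      MonoidHom.range_eq_top.2 (classGroupMk_surjective K), Subgroup.card_top]
  have hh0 : P.index ≠ 0 := by rw [hh]; exact Nat.card_pos.ne'
  have hc : (X ⊔ P).index = (clTRel R p T).index := by
    rw [← map_divModSubgroup K, Subgroup.index_map, ker_classGroupMk,
      MonoidHom.range_eq_top.2 (classGroupMk_surjective K), Subgroup.index_top, mul_one]
  have h1 : P.relIndex X * (X ⊔ P).index = P.index := by
    rw [← Subgroup.relIndex_sup_right X P, Subgroup.relIndex_mul_index le_sup_right]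
  have hle1 : P.map π ≤ π.range := Subgroup.map_le_range π P
  have hle2 : π.range ≤ X := by
    rintro _ ⟨I, rfl⟩ v _
    rw [powMonoidHom_apply, ofMul_pow, map_nsmul]
    simp
  have hle3 : P.map π ≤ P := by
    rintro _ ⟨I, ⟨x, rfl⟩, rfl⟩
    exact ⟨x ^ p, map_pow _ _ _⟩
  have h2 : (P.map π).relIndex X = P.index * p ^ T.card := by
    rw [← Subgroup.relIndex_mul_relIndex _ _ _ hle1 hle2, relIndex_pow_divModSubgroup K p T,
      MonoidHom.range_eq_map π, Subgroup.relIndex_map_map_of_injective P ⊤
        (powMonoidHom_div_injective R K p), Subgroup.relIndex_top_right]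
  have h3 : (P.map π).relIndex (P ⊓ X) * P.relIndex X = (P.map π).relIndex X := by
    rw [← Subgroup.inf_relIndex_right P X]
    exact Subgroup.relIndex_mul_relIndex _ _ _ (le_inf hle3 (hle1.trans hle2)) inf_le_right
  have hPX : P.relIndex X ≠ 0 := fun h => hh0 (by rw [← h1, h, zero_mul])
  have h4 : (P.map π).relIndex (P ⊓ X) = p ^ T.card * (clTRel R p T).index := by
    refine mul_right_cancel₀ hPX ?_
    rw [h3, h2, ← h1, hc]; ring
  -- pull back to `Kˣ`
  let Kp : Subgroup Kˣ := (powMonoidHom p).range
  have hKp : Kp.map ι = P.map π := by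
    rw [hP, MonoidHom.range_eq_map ι, Subgroup.map_map, show Kp = (powMonoidHom p).range from rfl,
      MonoidHom.range_eq_map, Subgroup.map_map]
    congr 1
    exact MonoidHom.ext fun x => map_pow ι x p
  have hA : (selmerUnits K p T).map ι = P ⊓ X := Subgroup.map_comap_eq ι X
  have hker : ι.ker ≤ selmerUnits K p T := fun x hx => by
    show ι x ∈ X
    rw [MonoidHom.mem_ker.1 hx]; exact one_mem _
  have hKpA : Kp ≤ selmerUnits K p T := by
    rintro _ ⟨x, rfl⟩
    show ι (x ^ p) ∈ X
    rw [map_pow]; exact hle2 ⟨_, rfl⟩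
  have h5 := Subgroup.relIndex_map_map ι Kp (selmerUnits K p T)
  rw [hKp, hA, sup_of_le_left hker, h4] at h5
  let j : Rˣ →* Kˣ := Units.map (algebraMap R K : R →* K)
  have hj : Function.Injective j := Units.map_injective (IsFractionRing.injective R K)
  have h6 : Kp.relIndex (Kp ⊔ ι.ker) = (powMonoidHom p : Rˣ →* Rˣ).range.index := by
    rw [sup_comm, Subgroup.relIndex_sup_right, ← Subgroup.inf_relIndex_right,
      ← Subgroup.relIndex_top_right, ← Subgroup.relIndex_map_map_of_injective _ ⊤ hj,
      ← MonoidHom.range_eq_map j, hι, ker_toPrincipalIdeal]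
    congr 1
    ext x
    constructor
    · rintro ⟨⟨y, rfl⟩, hy⟩
      have hy' : y ∈ ι.ker := by
        rw [MonoidHom.mem_ker]
        apply powMonoidHom_div_injective R K p
        rw [powMonoidHom_apply, powMonoidHom_apply, ← map_pow, one_pow, ← MonoidHom.mem_ker, hι,
          ker_toPrincipalIdeal]
        exact hy
      rw [hι, ker_toPrincipalIdeal] at hy'
      obtain ⟨z, rfl⟩ := hy'
      exact ⟨z ^ p, ⟨z, rfl⟩, map_pow _ _ _⟩
    · rintro ⟨_, ⟨z, rfl⟩, rfl⟩
      exact ⟨⟨j z, (map_pow j z p).symm⟩, ⟨_, rfl⟩⟩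
  rw [← Subgroup.relIndex_mul_relIndex _ (Kp ⊔ ι.ker) _ le_sup_left (sup_le hKpA hker), h6, h5]

end FLTA.PT

end
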