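import Fermat.Agent.PoitouTate.PlacesPrimes
import Fermat.Agent.PoitouTate.PlacesDivisors
import Fermat.Agent.PoitouTate.HasseBase
import Mathlib.NumberTheory.RamificationInertia.Valuation

/-!
# Orders of algebraic numbers at places, and their behaviour in unramified extensions
-/

set_option autoImplicit false

open ExtCitation IsDedekindDomain NumberField
open scoped Pointwise nonZeroDivisors

noncomputable section

namespace FLTA.PT.Hasse

/-- The adic valuation in terms of the exponent of the principal fractional ideal. -/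
theorem valuation_eq_exp_neg_cnt {R : Type*} [CommRing R] [IsDedekindDomain R] (K : Type*)
    [Field K] [Algebra R K] [IsFractionRing R K] (v : HeightOneSpectrum R) (x : Kˣ) :
    v.valuation K (x : K) =
      WithZero.exp (-(cnt K v (Additive.ofMul (toPrincipalIdeal R K x)))) := by
  classical
  obtain ⟨a, s, hs, hx⟩ := IsFractionRing.div_surjective (A := R) (x : K)
  have hs0 : s ≠ 0 := nonZeroDivisors.ne_zero hs
  have ha0 : a ≠ 0 := by
    rintro rfl
    rw [map_zero, zero_div] at hx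
    exact x.ne_zero hx.symm
  have key : ∀ (r : R) (hr : r ≠ 0) (u : Kˣ), (u : K) = algebraMap R K r →
      cnt K v (Additive.ofMul (toPrincipalIdeal R K u)) =
        ((Associates.mk v.asIdeal).count (Associates.mk (Ideal.span {r})).factors : ℤ) := by
    intro r hr u hu
    rw [cnt_ofMul, coe_toPrincipalIdeal, hu, ← FractionalIdeal.coeIdeal_span_singleton,
      FractionalIdeal.count_coe]
    simpa using hr
  let ua : Kˣ := Units.mk0 (algebraMap R K a) (by simpa using ha0)
  let us : Kˣ := Units.mk0 (algebraMap R K s) (by simpa using hs0)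
  have hxu : x = ua / us := by
    apply Units.ext
    rw [Units.val_div_eq_div_val]
    exact hx.symm
  have h1 : cnt K v (Additive.ofMul (toPrincipalIdeal R K x)) =
      cnt K v (Additive.ofMul (toPrincipalIdeal R K ua)) -
        cnt K v (Additive.ofMul (toPrincipalIdeal R K us)) := by
    rw [hxu, map_div, ofMul_div, map_sub]
  rw [h1, key a ha0 ua rfl, key s hs0 us rfl, ← hx, map_div₀, v.valuation_of_algebraMap,
    v.valuation_of_algebraMap, v.intValuation_if_neg ha0, v.intValuation_if_neg hs0,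
    ← WithZero.exp_sub]
  congr 1
  ring

section ordAt

variable (U : Subgroup GQ) [NumberField (fixedK U)]

/-- An element fixed by `U` as a unit of the fixed field. -/
def kUnit (a : fixedBy unitsRep U) : (fixedK U)ˣ :=
  Units.mk0 ⟨((Additive.toMul (a : Mq) : Qbˣ) : Qb), mem_fixedK_iff.2 fun s hs =>
    congrArg (fun z : Mq => ((Additive.toMul z : Qbˣ) : Qb)) (a.2 s hs)⟩
    fun h => Units.ne_zero _ (congrArg Subtype.val h)

@[simp] theorem coe_kUnit (a : fixedBy unitsRep U) :
    (((kUnit U a : fixedK U)) : Qb) = ((Additive.toMul (a : Mq) : Qbˣ) : Qb) := rfl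

theorem kUnit_add (a b : fixedBy unitsRep U) : kUnit U (a + b) = kUnit U a * kUnit U b := by
  apply Units.ext
  apply Subtype.ext
  rfl

theorem exists_kUnit_eq (x : (fixedK U)ˣ) : ∃ a : fixedBy unitsRep U, kUnit U a = x := by
  refine ⟨⟨Additive.ofMul (Units.mk0 ((x : fixedK U) : Qb) fun h => x.ne_zero (Subtype.ext h)),
    fun s hs => mq_ext (mem_fixedK_iff.1 (x : fixedK U).2 s hs)⟩, ?_⟩
  apply Units.ext
  apply Subtype.ext
  rfl

/-- The order at a prime of an element fixed by `U`. -/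
def ordAt (v : HeightOneSpectrum (𝓞 (fixedK U))) : fixedBy unitsRep U →+ ℤ :=
  (cnt (fixedK U) v).comp
    (AddMonoidHom.mk' (fun a => Additive.ofMul (toPrincipalIdeal (𝓞 (fixedK U)) (fixedK U) (kUnit U a)))
      fun a b => by rw [kUnit_add, map_mul, ofMul_mul])

theorem ordAt_apply (v : HeightOneSpectrum (𝓞 (fixedK U))) (a : fixedBy unitsRep U) :
    ordAt U v a =
      cnt (fixedK U) v (Additive.ofMul (toPrincipalIdeal (𝓞 (fixedK U)) (fixedK U) (kUnit U a))) :=
  rfl

theorem valuation_kUnit (v : HeightOneSpectrum (𝓞 (fixedK U))) (a : fixedBy unitsRep U) :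
    v.valuation (fixedK U) (kUnit U a : fixedK U) = WithZero.exp (-(ordAt U v a)) :=
  valuation_eq_exp_neg_cnt (fixedK U) v (kUnit U a)

theorem exists_ordAt_eq_one (v : HeightOneSpectrum (𝓞 (fixedK U))) :
    ∃ a : fixedBy unitsRep U, ordAt U v a = 1 := by
  obtain ⟨π, hπ⟩ := v.valuation_exists_uniformizer (fixedK U)
  have hπ0 : π ≠ 0 := by
    rintro rfl
    rw [map_zero] at hπ
    exact WithZero.exp_ne_zero hπ.symm
  obtain ⟨a, ha⟩ := exists_kUnit_eq U (Units.mk0 π hπ0)
  refine ⟨a, ?_⟩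
  have h := valuation_kUnit U v a
  rw [ha, Units.val_mk0, hπ, WithZero.exp_inj] at h
  omega

theorem finite_ordAt_ne_zero (a : fixedBy unitsRep U) :
    {v : HeightOneSpectrum (𝓞 (fixedK U)) | ordAt U v a ≠ 0}.Finite := by
  obtain ⟨n, hn⟩ := exists_expsHom_eq (fixedK U)
    (Additive.ofMul (toPrincipalIdeal (𝓞 (fixedK U)) (fixedK U) (kUnit U a)))
  refine n.finite_support.subset fun v hv => ?_
  rw [Set.mem_setOf_eq, ordAt_apply, ← hn, cnt_expsHom] at hv
  exact hv

theorem mem_place_iff_ordAt_nonneg {A : ValuationSubring Qb} {q : Nat.Primes}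
    (hA : A.LiesOverPrime (q : ℕ)) (a : fixedBy unitsRep U) :
    ((Additive.toMul (a : Mq) : Qbˣ) : Qb) ∈ A ↔
      0 ≤ ordAt U (placeSpec A (fixedK U) q hA).1 a := by
  rw [← coe_kUnit U a, mem_place_iff_valuation_le_one hA, valuation_kUnit, ← WithZero.exp_zero,
    WithZero.exp_le_exp, neg_nonpos]

end ordAt

/-- The order of the rational prime `q` at an unramified place is one. -/
theorem ordAt_natCast_eq_one {U : Subgroup GQ} [NumberField (fixedK U)] (hU : U ∈ lvlQ)
    {q : Nat.Primes} {A : ValuationSubring Qb} (hA : A.LiesOverPrime (q : ℕ))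
    (hI : ∀ B : ValuationSubring Qb, B.LiesOverPrime (q : ℕ) → B.inertiaSubgroupIn ℚ ≤ U)
    (a : fixedBy unitsRep U) (ha : ((Additive.toMul (a : Mq) : Qbˣ) : Qb) = ((q : ℕ) : Qb)) :
    ordAt U (placeSpec A (fixedK U) q hA).1 a = 1 := by
  classical
  have := FLTA.Galois.qbar_isGalois
  have hUn : U.Normal := lvlQ.normal_of_mem U hU
  have hfix : (fixedK U).fixingSubgroup = U := fixingSubgroup_fixedK U ⟨U, hU, le_rfl⟩
  have := finiteDimensional_fixedK U ⟨U, hU, le_rfl⟩
  have hnorm : Normal ℚ (fixedK U) := by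
    have h : IsGalois ℚ (fixedK U) :=
      (InfiniteGalois.normal_iff_isGalois (fixedK U)).1 (by rw [hfix]; exact hUn)
    exact h.to_normal
  have hunr : Algebra.IsUnramifiedIn (𝓞 (fixedK U)) (Ideal.span {((q : ℕ) : ℤ)}) :=
    (FLTA.Galois.isUnramifiedIn_iff_inertia_le q.2).2 fun B hB => by rw [hfix]; exact hI B hB
  set w := (placeSpec A (fixedK U) q hA).1 with hwdef
  have hqz : ((q : ℕ) : ℤ) ≠ 0 := by exact_mod_cast q.2.ne_zero
  let v : HeightOneSpectrum ℤ :=
    ⟨Ideal.span {((q : ℕ) : ℤ)},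
      (Ideal.span_singleton_prime hqz).2 (Nat.prime_iff_prime_int.1 q.2),
      by simpa using q.2.ne_zero⟩
  have hlo : w.asIdeal.LiesOver v.asIdeal := FLTA.Galois.placeIdeal_liesOver q.2 hA
  have he : v.asIdeal.ramificationIdx' w.asIdeal = 1 := by
    rw [Algebra.isUnramifiedIn_iff_forall_ramificationIdx_eq_one] at hunr
    have h2 := hunr w.asIdeal hlo
    rw [← h2]
    exact Ideal.ramificationIdx'_eq_ramificationIdx v.asIdeal w.asIdeal v.ne_bot
  have hval := HeightOneSpectrum.intValuation_liesOver v w ((q : ℕ) : ℤ)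
  rw [he, pow_one, v.intValuation_if_neg hqz, Associates.count_self] at hval
  · rw [map_natCast] at hval
    have hka : (kUnit U a : fixedK U) =
        algebraMap (𝓞 (fixedK U)) (fixedK U) (((q : ℕ) : 𝓞 (fixedK U))) := by
      rw [map_natCast]
      apply Subtype.ext
      simpa using ha
    have h3 := valuation_kUnit U w a
    rw [hka, w.valuation_of_algebraMap, ← hval, WithZero.exp_inj] at h3
    omega
  · exact v.associates_irreducible

/-- In a tower with no ramification over `q`, orders do not change. -/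
theorem ordAt_eq_of_le {U G₀ : Subgroup GQ} [NumberField (fixedK U)] [NumberField (fixedK G₀)]
    (hU : U ∈ lvlQ) (hle : U ≤ G₀) {q : Nat.Primes} {A : ValuationSubring Qb}
    (hA : A.LiesOverPrime (q : ℕ))
    (hI : ∀ B : ValuationSubring Qb, B.LiesOverPrime (q : ℕ) → B.inertiaSubgroupIn ℚ ≤ U)
    (a : fixedBy unitsRep G₀) :
    ordAt U (placeSpec A (fixedK U) q hA).1 ⟨a, fun s hs => a.2 s (hle hs)⟩ =
      ordAt G₀ (placeSpec A (fixedK G₀) q hA).1 a := by
  set fU : fixedBy unitsRep G₀ →+ ℤ :=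
    (ordAt U (placeSpec A (fixedK U) q hA).1).comp
      (AddMonoidHom.mk' (fun a : fixedBy unitsRep G₀ =>
        (⟨a, fun s hs => a.2 s (hle hs)⟩ : fixedBy unitsRep U)) fun _ _ => rfl) with hfU
  set fK := ordAt G₀ (placeSpec A (fixedK G₀) q hA).1 with hfK
  show fU a = fK a
  have hiff : ∀ b : fixedBy unitsRep G₀, 0 ≤ fU b ↔ 0 ≤ fK b := fun b => by
    rw [hfK, ← mem_place_iff_ordAt_nonneg G₀ hA b]
    exact (mem_place_iff_ordAt_nonneg U hA _).symm
  obtain ⟨π, hπ⟩ := exists_ordAt_eq_one G₀ (placeSpec A (fixedK G₀) q hA).1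
  rw [← hfK] at hπ
  have hlin : ∀ b, fU b = fK b * fU π := by
    intro b
    have h0 : fK (b - (fK b) • π) = 0 := by simp [hπ]
    have h1 : 0 ≤ fU (b - (fK b) • π) := (hiff _).2 h0.ge
    have h2 : 0 ≤ fU (-(b - (fK b) • π)) := (hiff _).2 (by rw [map_neg, h0, neg_zero])
    rw [map_neg] at h2
    have h3 : fU (b - (fK b) • π) = 0 := by omega
    rw [map_sub, map_zsmul, sub_eq_zero, smul_eq_mul] at h3
    exact h3
  have hq0 : ((q : ℕ) : Qb) ≠ 0 := Nat.cast_ne_zero.2 q.2.ne_zero
  let aq : fixedBy unitsRep G₀ :=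
    ⟨Additive.ofMul (Units.mk0 _ hq0), fun s _ => mq_ext (by simp)⟩
  have hone : fU aq = 1 := ordAt_natCast_eq_one hU hA hI _ rfl
  have hpos : 0 ≤ fU π := (hiff π).2 (by rw [hπ]; exact zero_le_one)
  have hdvd : fU π ∣ 1 := ⟨fK aq, by rw [← hone, hlin aq, mul_comm]⟩
  rw [hlin a, Int.eq_one_of_dvd_one hpos hdvd, mul_one]

end FLTA.PT.Hasse

end
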