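import Fermat.Agent.PoitouTate.HasseBrauer
import Fermat.Agent.PoitouTate.MuEmb
import Fermat.Agent.PoitouTate.Decomp

/-!
# Unramified classes in `H²` of a local group with values in `μ_p` vanish
-/

set_option autoImplicit false

open ExtCitation
open scoped Pointwise

noncomputable section

namespace FLTA.PT.Hasse

/-- The image of a decomposition group modulo an unramified level is generated by Frobenius. -/
theorem exists_zpowers_of_inertia_le {U : Subgroup GQ} (hU : U ∈ lvlQ) (q : Nat.Primes) (g : GQ)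
    (hI : ∀ A : ValuationSubring Qb, A.LiesOverPrime (q : ℕ) → A.inertiaSubgroupIn ℚ ≤ U) :
    ∃ φ : GQ, ∀ τ : Gl q, ∃ k : ℕ, (φ ^ k)⁻¹ * (g⁻¹ * loc q τ * g) ∈ U := by
  obtain ⟨hn, F, hF, hFU⟩ := hU
  set A : ValuationSubring Qb := g⁻¹ • primeLocalPlace q with hAdef
  have hA : A.LiesOverPrime (q : ℕ) :=
    (FLTA.Galois.liesOverPrime_smul_iff _).2 (primeLocalPlace_liesOverPrime q)
  obtain ⟨φ, hφ⟩ := FLTA.Galois.exists_isFrobeniusAt q.2 hA
  refine ⟨φ, fun τ => ?_⟩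
  have hd : g⁻¹ * loc q τ * g ∈ A.decompositionSubgroup ℚ := by
    rw [FLTA.Galois.decompositionSubgroup_smul_iff]
    simpa [mul_assoc] using loc_mem_decompositionSubgroup q τ
  obtain ⟨k, ι, hι, h⟩ := FLTA.Galois.exists_pow_mul_inertia_eq q.2 hA hφ hd F
  refine ⟨k, ?_⟩
  have h1 : (φ ^ k * ι)⁻¹ * (g⁻¹ * loc q τ * g) ∈ F.fixingSubgroup := by
    rw [IntermediateField.mem_fixingSubgroup_iff]
    intro x hx
    rw [AlgEquiv.mul_apply, h x hx]
    exact (φ ^ k * ι).symm_apply_apply x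
  have h2 := U.mul_mem (hI A hA hι) (hFU h1)
  simpa [mul_assoc] using h2

theorem loc_conj_inertia_le {U : Subgroup GQ} (q : Nat.Primes) (g : GQ)
    (hI : ∀ A : ValuationSubring Qb, A.LiesOverPrime (q : ℕ) → A.inertiaSubgroupIn ℚ ≤ U)
    {τ : Gl q} (hτ : τ ∈ inertiaLoc q) : g⁻¹ * loc q τ * g ∈ U := by
  refine hI (g⁻¹ • primeLocalPlace q)
    ((FLTA.Galois.liesOverPrime_smul_iff _).2 (primeLocalPlace_liesOverPrime q)) ?_
  rw [FLTA.Galois.inertiaSubgroupIn_smul_iff]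
  simpa [mul_assoc] using loc_inertiaLoc_le q τ hτ

/-- An element with `p • S = 0` is a unit at the place. -/
theorem absv_eq_one_of_nsmul_eq_zero (q : Nat.Primes) {p : ℕ} (hp : p ≠ 0) {x : Ml q}
    (h : p • x = 0) : absv q x = 1 := by
  have : Fact (q : ℕ).Prime := ⟨q.2⟩
  have h' : ((Additive.toMul x : (Ql q)ˣ) : Ql q) ^ p = 1 := by
    rw [← Units.val_pow_eq_pow_val, ← toMul_nsmul, h, toMul_zero, Units.val_one]
  have h2 : ‖((Additive.toMul x : (Ql q)ˣ) : Ql q)‖ ^ p = 1 := by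
    rw [← norm_pow, h', norm_one]
  exact (pow_eq_one_iff_of_nonneg (norm_nonneg _) hp).1 h2

variable (p : ℕ) [Fact p.Prime]

/-- An unramified class in `H²` of a local group is trivial. -/
theorem mem_B2_placeHom_of_unramified (G₀ U : Subgroup GQ) (hG : IsOpenLvl lvlQ G₀)
    (hU : U ∈ lvlQ) (q : Nat.Primes) (g : GQ)
    (hI : ∀ A : ValuationSubring Qb, A.LiesOverPrime (q : ℕ) → A.inertiaSubgroupIn ℚ ≤ U)
    (hμ : ∀ s ∈ G₀, cycloChar p s = 1) (w : G₀ × G₀ → ZMod p)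
    (hw : w ∈ Z2 (lvlQ.comap G₀.subtype) ((muRep p).comp G₀.subtype))
    (hwU : ∀ a b s t : G₀, (s : GQ) ∈ U → (t : GQ) ∈ U → w (a * s, b * t) = w (a, b)) :
    pp2 (placeHom q G₀ g) (LinearMap.id : ZMod p →ₗ[ZMod p] ZMod p) w ∈
      B2 ((lvlLoc q).comap (stabLoc q G₀ g).subtype) ((muLoc p q).comp (stabLoc q G₀ g).subtype) := by
  classical
  have hUn : U.Normal := lvlQ.normal_of_mem U hU
  have hUfi : U.FiniteIndex := lvlQ.finiteIndex_of_mem U hU
  set D := stabLoc q G₀ g with hD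
  have hμD : ∀ τ : D, cycloChar p (loc q τ) = 1 := fun τ => by
    have h := hμ _ (mem_stabLoc.1 τ.2)
    rwa [map_mul, map_mul, map_inv, mul_comm ((cycloChar p g)⁻¹), inv_mul_cancel_right] at h
  -- the finite cyclic quotient
  let θ : D →* GQ ⧸ U := (QuotientGroup.mk' U).comp (G₀.subtype.comp (placeHom q G₀ g))
  obtain ⟨φ, hφ⟩ := exists_zpowers_of_inertia_le hU q g hI
  have hrange : θ.range ≤ Subgroup.zpowers ((φ : GQ) : GQ ⧸ U) := by
    rintro _ ⟨τ, rfl⟩
    obtain ⟨k, hk⟩ := hφ (τ : Gl q)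
    refine ⟨(k : ℤ), ?_⟩
    show ((φ : GQ) : GQ ⧸ U) ^ (k : ℤ) = ((g⁻¹ * loc q τ * g : GQ) : GQ ⧸ U)
    rw [zpow_natCast, ← QuotientGroup.mk_pow, QuotientGroup.eq]
    exact hk
  have hcyc : IsCyclic θ.range := Subgroup.isCyclic_of_le hrange
  let e : Multiplicative (ZMod (Nat.card θ.range)) ≃* θ.range := zmodCyclicMulEquiv hcyc
  let χ : D →* Multiplicative (ZMod (Nat.card θ.range)) :=
    e.symm.toMonoidHom.comp θ.rangeRestrict
  have : NeZero (Nat.card θ.range) := ⟨Nat.card_pos.ne'⟩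
  have hker : ∀ τ : D, χ τ = 1 ↔ g⁻¹ * loc q τ * g ∈ U := fun τ => by
    simp only [χ, MonoidHom.comp_apply, MulEquiv.coe_toMonoidHom, EmbeddingLike.map_eq_one_iff]
    rw [← MonoidHom.mem_ker, MonoidHom.ker_rangeRestrict, MonoidHom.mem_ker]
    exact QuotientGroup.eq_one_iff _
  have hker' : ∀ τ : D, χ τ = 1 ↔ (τ : Gl q) ∈ U.comap (loc q) := fun τ => by
    rw [hker, Subgroup.mem_comap]
    refine ⟨fun h => ?_, fun h => by simpa using hUn.conj_mem _ h g⁻¹⟩
    simpa [mul_assoc] using hUn.conj_mem _ h g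
  have hsurj : Function.Surjective χ :=
    e.symm.surjective.comp θ.rangeRestrict_surjective
  obtain ⟨σ, hσ⟩ := hsurj (Multiplicative.ofAdd 1)
  let W : Subgroup (Gl q) := D ⊓ U.comap (loc q)
  have hχW : ∀ τ : D, χ τ = 1 ↔ (τ : Gl q) ∈ W := fun τ => by
    rw [hker', Subgroup.mem_inf]
    exact ⟨fun h => ⟨τ.2, h⟩, fun h => h.2⟩
  have hWopen : IsOpenLvl (lvlLoc q) W := by
    obtain ⟨V, hV, hVG⟩ := hG
    refine ⟨(V ⊓ U).comap (loc q), ⟨V ⊓ U, lvlQ.inf_mem V hV U hU, rfl⟩, fun τ hτ => ⟨?_, hτ.2⟩⟩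
    refine mem_stabLoc.2 (hVG ?_)
    simpa using (lvlQ.normal_of_mem V hV).conj_mem _ hτ.1 g⁻¹
  have hχopen : IsOpenLvl ((lvlLoc q).comap D.subtype) χ.ker := by
    obtain ⟨V, hV, hVW⟩ := hWopen
    exact ⟨V.comap D.subtype, ⟨V, hV, rfl⟩, fun τ hτ => by
      rw [MonoidHom.mem_ker, hχW]; exact hVW hτ⟩
  -- the normalised cocycle with values in units
  set c := w (1, 1) with hc
  set ρD := (unitsRepLoc q).comp D.subtype
  let f : D × D → Ml q := fun x => muL p q (w (placeHom q G₀ g x.1, placeHom q G₀ g x.2) - c)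
  have hfix : ∀ (τ : D) (v : ZMod p), ρD τ (muL p q v) = muL p q v := fun τ v => by
    show unitsRepLoc q τ _ = _
    rw [← muL_equivariant, charRep_apply, MonoidHom.comp_apply, hμD τ, Units.val_one, one_mul]
  have hwc : ∀ a b j : G₀, w (a * b, j) + w (a, b) = w (b, j) + w (a, b * j) := fun a b j => by
    have h := ((mem_Z2 _ _).1 hw).1 a b j
    rwa [MonoidHom.comp_apply, Subgroup.coe_subtype, charRep_apply, hμ _ a.2, Units.val_one,
      one_mul] at h
  have hfc : ∀ a b j, f (a * b, j) + f (a, b) = ρD a (f (b, j)) + f (a, b * j) := by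
    intro a b j
    simp only [f, hfix, ← map_add, map_mul]
    congr 1
    linear_combination hwc (placeHom q G₀ g a) (placeHom q G₀ g b) (placeHom q G₀ g j)
  have hfinv : ∀ a b s t, s ∈ χ.ker → t ∈ χ.ker → f (a * s, b * t) = f (a, b) := by
    intro a b s t hs ht
    rw [MonoidHom.mem_ker, hker] at hs ht
    simp only [f, map_mul]
    rw [hwU _ _ _ _ hs ht]
  have hf00 : f (1, 1) = 0 := by simp [f, hc]
  let T : Ml q := ∑ i ∈ Finset.range (Nat.card θ.range), f (σ ^ i, σ)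
  have hT : absv q T = 1 := absv_eq_one_of_nsmul_eq_zero q (Fact.out : p.Prime).ne_zero (by
    simp only [T, f, ← Finset.sum_nsmul, nsmul_muL, Finset.sum_const_zero])
  have hTfix : T ∈ fixedBy (unitsRepLoc q) D := fun τ hτ => by
    simp only [T, map_sum, f]
    exact Finset.sum_congr rfl fun i _ => hfix ⟨τ, hτ⟩ _
  have hWle : W ≤ D := inf_le_left
  have hWn : (W.subgroupOf D).Normal := by
    have e' : W.subgroupOf D = χ.ker := Subgroup.ext fun τ => by
      rw [Subgroup.mem_subgroupOf, MonoidHom.mem_ker, hχW]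
    rw [e']; infer_instance
  have hTnorm : T ∈ normsFrom (unitsRepLoc q) W D :=
    (mem_normsFrom_iff_of_unramified q W D hWopen hWle (fun τ hτ => ⟨hτ.2, by
      simpa [mul_assoc] using hUn.conj_mem _ (loc_conj_inertia_le q g hI hτ.1) g⟩) T hTfix).2
      ⟨0, zero_mem _, by
        rw [hT, absv_eq_one_of_nsmul_eq_zero q one_ne_zero (one_nsmul _), one_pow]⟩
  obtain ⟨b, hb, hbT⟩ := hTnorm
  rw [relNorm_eq_sum_pow (unitsRepLoc q) W D χ hχW σ hσ hb] at hbT
  have hf : f ∈ B2 ((lvlLoc q).comap D.subtype) ρD :=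
    mem_B2_of_trace ((lvlLoc q).comap D.subtype) ρD χ hχopen hσ hfc hfinv hf00
      (b := b) (fun τ hτ => hb _ ((hχW τ).1 hτ)) hbT.symm
  have h1 := mem_B2_of_muL p q D (smooth_unitsRepLoc q)
    (h1Vanishes_unitsRepLoc q D (isOpenLvl_mono hWopen hWle))
    (z := fun x => w (placeHom q G₀ g x.1, placeHom q G₀ g x.2) - c) hf
  have h2 := const_mem_B2 ((lvlLoc q).comap D.subtype) ((muLoc p q).comp D.subtype) (c := c)
    fun τ => by
      rw [MonoidHom.comp_apply, Subgroup.coe_subtype, charRep_apply, MonoidHom.comp_apply, hμD τ,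
        Units.val_one, one_mul]
  have h3 := add_mem h1 h2
  have e3 : pp2 (placeHom q G₀ g) (LinearMap.id : ZMod p →ₗ[ZMod p] ZMod p) w =
      (fun x : D × D => w (placeHom q G₀ g x.1, placeHom q G₀ g x.2) - c) + fun _ => c := by
    funext ⟨a, b⟩
    simp
  rw [e3]
  exact h3

end FLTA.PT.Hasse

end
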