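import Fermat.Agent.PoitouTate.HasseDivisor
import Fermat.Agent.PoitouTate.HasseUnramified
import Fermat.Agent.PoitouTate.GlobalClassesConj

/-!
# `Ш²` of induced `μ_p` and the `S`-class group: local and divisorial preparations
-/

set_option autoImplicit false

open ExtCitation IsDedekindDomain NumberField
open scoped Pointwise nonZeroDivisors

noncomputable section

namespace FLTA.PT.Hasse

/-- Two homomorphisms to `ℤ` with the same non-negative cone which both attain `1` agree. -/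
theorem intHom_eq_of_nonneg_iff {M : Type*} [AddCommGroup M] (f₁ f₂ : M →+ ℤ)
    (h : ∀ x, 0 ≤ f₁ x ↔ 0 ≤ f₂ x) (h₁ : ∃ x, f₁ x = 1) (h₂ : ∃ x, f₂ x = 1) (x : M) :
    f₁ x = f₂ x := by
  obtain ⟨a, ha⟩ := h₁
  obtain ⟨b, hb⟩ := h₂
  have hlin : ∀ y, f₁ y = f₂ y * f₁ b := by
    intro y
    have h0 : f₂ (y - (f₂ y) • b) = 0 := by simp [hb]
    have p1 : 0 ≤ f₁ (y - (f₂ y) • b) := (h _).2 h0.ge
    have p2 : 0 ≤ f₁ (-(y - (f₂ y) • b)) := (h _).2 (by rw [map_neg, h0, neg_zero])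
    rw [map_neg] at p2
    have h3 : f₁ (y - (f₂ y) • b) = 0 := by omega
    rw [map_sub, map_zsmul, sub_eq_zero, smul_eq_mul] at h3
    exact h3
  have hpos : 0 ≤ f₁ b := (h b).2 (by rw [hb]; exact zero_le_one)
  have hdvd : f₁ b ∣ 1 := ⟨f₂ a, by rw [← ha, hlin a, mul_comm]⟩
  rw [hlin x, Int.eq_one_of_dvd_one hpos hdvd, mul_one]

theorem ordAt_smul {U : Subgroup GQ} [NumberField (fixedK U)] {q : Nat.Primes}
    (hn : U.Normal) {A : ValuationSubring Qb} (hA : A.LiesOverPrime (q : ℕ)) (g : GQ)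
    (b : fixedBy unitsRep U) (hgb : unitsRep g⁻¹ (b : Mq) ∈ fixedBy unitsRep U) :
    ordAt U (placeSpec (g • A) (fixedK U) q ((FLTA.Galois.liesOverPrime_smul_iff g).2 hA)).1 b =
      ordAt U (placeSpec A (fixedK U) q hA).1 ⟨unitsRep g⁻¹ (b : Mq), hgb⟩ := by
  let T : fixedBy unitsRep U →+ fixedBy unitsRep U :=
    AddMonoidHom.mk' (fun x => ⟨unitsRep g⁻¹ (x : Mq), fun s hs => by
      rw [← Module.End.mul_apply, ← map_mul,
        show s * g⁻¹ = g⁻¹ * (g * s * g⁻¹) by group, map_mul, Module.End.mul_apply,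
        x.2 _ (hn.conj_mem s hs g)]⟩)
      fun x y => Subtype.ext (map_add _ _ _)
  refine intHom_eq_of_nonneg_iff
    (ordAt U (placeSpec (g • A) (fixedK U) q ((FLTA.Galois.liesOverPrime_smul_iff g).2 hA)).1)
    ((ordAt U (placeSpec A (fixedK U) q hA).1).comp T) (fun x => ?_)
    (exists_ordAt_eq_one U _) ?_ b
  · show _ ↔ 0 ≤ ordAt U _ (T x)
    rw [← mem_place_iff_ordAt_nonneg U _ x, ← mem_place_iff_ordAt_nonneg U hA (T x),
      ValuationSubring.mem_pointwise_smul_iff_inv_smul_mem]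
    exact Iff.rfl
  · obtain ⟨y, hy⟩ := exists_ordAt_eq_one U (placeSpec A (fixedK U) q hA).1
    refine ⟨⟨unitsRep g (y : Mq), fun s hs => ?_⟩, ?_⟩
    · rw [← Module.End.mul_apply, ← map_mul,
        show s * g = g * (g⁻¹ * s * g) by group, map_mul, Module.End.mul_apply,
        y.2 _ (hn.conj_mem' s hs g)]
    · refine Eq.trans ?_ hy
      rw [AddMonoidHom.comp_apply]
      congr 1
      refine Subtype.ext ?_
      show unitsRep g⁻¹ (unitsRep g (y : Mq)) = (y : Mq)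
      rw [← Module.End.mul_apply, ← map_mul, inv_mul_cancel, map_one, Module.End.one_apply]

/-- An element fixed by `U` with order divisible by `p` has inertia-fixed `p`-th roots. -/
theorem inertia_fixes_root {U : Subgroup GQ} [NumberField (fixedK U)] {p : ℕ} (hp : p.Prime)
    {q : Nat.Primes} (hqp : (q : ℕ) ≠ p) {A : ValuationSubring Qb}
    (hA : A.LiesOverPrime (q : ℕ)) (hI : A.inertiaSubgroupIn ℚ ≤ U)
    {b : fixedBy unitsRep U} (hb : (p : ℤ) ∣ ordAt U (placeSpec A (fixedK U) q hA).1 b)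
    {θ : Mq} (hθ : (p : ℤ) • θ = (b : Mq)) {σ : GQ} (hσ : σ ∈ A.inertiaSubgroupIn ℚ) :
    unitsRep σ θ = θ := by
  obtain ⟨k, hk⟩ := hb
  obtain ⟨π, hπ⟩ := exists_ordAt_eq_one U (placeSpec A (fixedK U) q hA).1
  set η : Mq := θ - k • (π : Mq) with hη
  set c : fixedBy unitsRep U := b - ((p : ℤ) * k) • π with hc
  have hc0 : ordAt U (placeSpec A (fixedK U) q hA).1 c = 0 := by
    rw [hc, map_sub, map_zsmul, hπ, hk, smul_eq_mul, mul_one, sub_self]
  have hcη : (p : ℤ) • η = (c : Mq) := by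
    rw [hη, zsmul_sub, hθ, ← mul_zsmul']
    rw [hc, Submodule.coe_sub, Submodule.coe_smul_of_tower, mul_comm]
  have hval : ∀ (x : Mq), ((Additive.toMul ((p : ℤ) • x) : Qbˣ) : Qb) =
      ((Additive.toMul x : Qbˣ) : Qb) ^ p := fun x => by
    rw [natCast_zsmul, toMul_nsmul, Units.val_pow_eq_pow_val]
  have hmem : ∀ (x : Mq) (d : fixedBy unitsRep U), (p : ℤ) • x = (d : Mq) →
      ordAt U (placeSpec A (fixedK U) q hA).1 d = 0 → ((Additive.toMul x : Qbˣ) : Qb) ∈ A := by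
    intro x d hxd hd
    have h1 : ((Additive.toMul x : Qbˣ) : Qb) ^ p ∈ A := by
      rw [← hval, hxd]
      exact (mem_place_iff_ordAt_nonneg U hA d).2 hd.ge
    rcases A.mem_or_inv_mem ((Additive.toMul x : Qbˣ) : Qb) with h | h
    · exact h
    · have h2 := mul_mem h1 (pow_mem h (p - 1))
      rwa [inv_pow, ← div_eq_mul_inv, div_eq_mul_inv,
        show p = (p - 1) + 1 from (Nat.succ_pred_eq_of_pos hp.pos).symm, pow_succ',
        Nat.add_sub_cancel, mul_assoc, mul_inv_cancel₀ (pow_ne_zero _ (Units.ne_zero _)),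
        mul_one] at h2
  have hηA := hmem η c hcη hc0
  have hηA' : ((Additive.toMul (-η) : Qbˣ) : Qb) ∈ A :=
    hmem (-η) (-c) (by rw [zsmul_neg, hcη, Submodule.coe_neg]) (by rw [map_neg, hc0, neg_zero])
  have hσc : unitsRep σ (c : Mq) = (c : Mq) := c.2 σ (hI hσ)
  set e : Qb := ((Additive.toMul η : Qbˣ) : Qb) with he
  have he0 : e ≠ 0 := Units.ne_zero _
  have hinv : e⁻¹ ∈ A := by
    rwa [toMul_neg, Units.val_inv_eq_inv_val] at hηA'
  have hpow : (σ e / e) ^ p = 1 := by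
    rw [div_pow, ← map_pow, he, ← hval, hcη, ← unitsRep_val, hσc, div_self (Units.ne_zero _)]
  have hnon : σ e / e - 1 ∈ A.nonunits := by
    have h1 := (FLTA.Galois.mem_inertiaSubgroupIn_iff.mp hσ).2 e hηA
    have h2 := FLTA.Galois.mul_mem_nonunits_of_mem h1 hinv
    rwa [sub_mul, ← div_eq_mul_inv, mul_inv_cancel₀ he0] at h2
  have hone : σ e / e = 1 :=
    FLTA.Galois.eq_of_sub_mem_nonunits_of_pow_eq_one q.2 hA
      (fun h => hqp ((Nat.prime_dvd_prime_iff_eq q.2 hp).1 h)) hpow (one_pow p) hnon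
  rw [div_eq_one_iff_eq he0] at hone
  have hfixη : unitsRep σ η = η := mq_ext (by rw [unitsRep_val, ← he, hone])
  have e2 : θ = η + k • (π : Mq) := by rw [hη, sub_add_cancel]
  rw [e2, map_add, map_zsmul, hfixη, π.2 σ (hI hσ)]

variable (p : ℕ) [Fact p.Prime]

theorem exists_prime_mem (K : IntermediateField ℚ Qb) [NumberField K]
    (v : HeightOneSpectrum (𝓞 K)) : ∃ q : Nat.Primes, ((q : ℕ) : 𝓞 K) ∈ v.asIdeal := by
  have hprime : (v.asIdeal.under ℤ).IsPrime := Ideal.IsPrime.under ℤ v.asIdeal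
  have hne : v.asIdeal.under ℤ ≠ ⊥ := by
    intro h
    exact v.ne_bot (Ideal.eq_bot_of_comap_eq_bot h)
  obtain ⟨n, hn⟩ : ∃ n : ℤ, v.asIdeal.under ℤ = Ideal.span {n} :=
    ⟨_, (Ideal.span_singleton_generator _).symm⟩
  have hn0 : n ≠ 0 := by
    rintro rfl
    exact hne (by rw [hn, Ideal.span_singleton_eq_bot])
  rw [hn, Ideal.span_singleton_prime hn0, Int.prime_iff_natAbs_prime] at hprime
  refine ⟨⟨n.natAbs, hprime⟩, ?_⟩
  have h : ((n.natAbs : ℕ) : ℤ) ∈ v.asIdeal.under ℤ := by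
    rw [hn, Ideal.mem_span_singleton, Int.dvd_natAbs]
  have h' : (algebraMap ℤ (𝓞 K)) ((n.natAbs : ℕ) : ℤ) ∈ v.asIdeal := h
  rwa [map_natCast] at h'

/-- Coboundary of `w` at a place in `S`, from local triviality of `z`. -/
theorem eval_mem_B2_placeHom (G₀ : Subgroup GQ) (hμ : ∀ s ∈ G₀, cycloChar p s = 1)
    {z : GQ × GQ → GQ ⧸ G₀ → ZMod p} {L : Lvl GQ} (hL : LvlLE L lvlQ (MonoidHom.id GQ))
    (hz : z ∈ Z2 L (funRep (muRep p) (GQ ⧸ G₀))) (q : Nat.Primes) (g : GQ)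
    (hloc : pp2 (loc q) (LinearMap.id : (GQ ⧸ G₀ → ZMod p) →ₗ[ZMod p] GQ ⧸ G₀ → ZMod p) z ∈
      B2 (lvlLoc q) ((funRep (muRep p) (GQ ⧸ G₀)).comp (loc q))) :
    pp2 (placeHom q G₀ g) (LinearMap.id : ZMod p →ₗ[ZMod p] ZMod p)
        (fun x : G₀ × G₀ => z ((x.1 : GQ), (x.2 : GQ)) ((1 : GQ) : GQ ⧸ G₀)) ∈
      B2 ((lvlLoc q).comap (stabLoc q G₀ g).subtype) ((muLoc p q).comp (stabLoc q G₀ g).subtype) := by
  set D := stabLoc q G₀ g
  set x₀ : GQ ⧸ G₀ := ((1 : GQ) : GQ ⧸ G₀) with hx₀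
  let f : D →* GQ := (loc q).comp D.subtype
  have hf : ∀ t : D, f t • g • x₀ = g • x₀ := fun t => by
    show ((loc q t * (g * 1) : GQ) : GQ ⧸ G₀) = ((g * 1 : GQ) : GQ ⧸ G₀)
    rw [QuotientGroup.eq]
    simpa [mul_assoc] using inv_mem (mem_stabLoc.1 t.2)
  have hhom := GC.eval_smul_eq L (muRep p) z hz g x₀ f hf
  have h1 : (fun t : D × D => z (f t.1, f t.2) (g • x₀)) ∈
      B2 ((lvlLoc q).comap D.subtype) ((muLoc p q).comp D.subtype) := by
    refine map_mem_B2 (L := lvlLoc q) (L' := (lvlLoc q).comap D.subtype) D.subtype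
      (lvlLE_comap _ _) (Pi.evalAddMonoidHom (fun _ => ZMod p) (g • x₀)) (fun t F => ?_) hloc
    show muRep p (loc q t) (F ((loc q t)⁻¹ • g • x₀)) = _
    have hfix : (loc q t)⁻¹ • g • x₀ = g • x₀ := inv_smul_eq_iff.2 (hf t).symm
    rw [hfix]
    rfl
  have h2 : (fun t : D × D =>
      muRep p g (z (g⁻¹ * f t.1 * g, g⁻¹ * f t.2 * g) x₀) - z (f t.1, f t.2) (g • x₀)) ∈
      B2 ((lvlLoc q).comap D.subtype) ((muLoc p q).comp D.subtype) := by
    rw [hhom]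
    refine (mem_B2 _ _).2 ⟨fun t => GC.conjHtpy g z (f t) (g • x₀), ?_, rfl⟩
    obtain ⟨T, hT, hTc⟩ := GC.conjHtpy_const L g ((mem_Z2 _ _).1 hz).2
    refine ⟨(T.comap (loc q)).comap D.subtype,
      ⟨T.comap (loc q), ⟨T, by have h := hL T hT; rwa [Subgroup.comap_id] at h, rfl⟩, rfl⟩,
      fun t s hs => ?_⟩
    simp only [map_mul]
    rw [hTc (f t) (f s) hs]
  have h3 := Submodule.smul_mem _ ((cycloChar p g)⁻¹ : (ZMod p)ˣ).val (add_mem h2 h1)
  have e : pp2 (placeHom q G₀ g) (LinearMap.id : ZMod p →ₗ[ZMod p] ZMod p)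
      (fun x : G₀ × G₀ => z ((x.1 : GQ), (x.2 : GQ)) x₀) =
      ((cycloChar p g)⁻¹ : (ZMod p)ˣ).val • ((fun t : D × D =>
        muRep p g (z (g⁻¹ * f t.1 * g, g⁻¹ * f t.2 * g) x₀) - z (f t.1, f t.2) (g • x₀)) +
          fun t : D × D => z (f t.1, f t.2) (g • x₀)) := by
    funext ⟨a, b⟩
    simp only [Pi.smul_apply, Pi.add_apply, sub_add_cancel, charRep_apply, smul_eq_mul,
      Units.inv_mul_cancel_left]
    rfl
  rw [e]
  exact h3

end FLTA.PT.Hasse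

end
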