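import Mathlib.GroupTheory.Index
import Mathlib.GroupTheory.QuotientGroup.Basic
import Mathlib.Algebra.Exact.Basic
import Mathlib.SetTheory.Cardinal.Finite
import Mathlib.LinearAlgebra.Quotient.Basic
import Mathlib.Algebra.Module.Submodule.Equiv
import Mathlib.Tactic

/-!
# Herbrand quotients for a pair of endomorphisms with `a ∘ b = b ∘ a = 0`
-/

set_option autoImplicit false

namespace FLTA.PoitouTate.Herbrand

open Function

universe u v

section Exact

theorem card_eq_card_range_mul {A B C : Type*} [AddCommGroup A] [AddCommGroup B] [AddCommGroup C]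
    {f : A →+ B} {g : B →+ C} (h : Exact f g) :
    Nat.card B = Nat.card f.range * Nat.card g.range := by
  rw [AddSubgroup.card_eq_card_quotient_mul_card_addSubgroup g.ker,
    Nat.card_congr (QuotientAddGroup.quotientKerEquivRange g).toEquiv,
    AddMonoidHom.exact_iff.1 h, mul_comm]

/-- An exact hexagon of abelian groups has alternating product of cardinalities equal to one. -/
theorem card_hexagon {A₁ A₂ A₃ A₄ A₅ A₆ : Type*} [AddCommGroup A₁] [AddCommGroup A₂]
    [AddCommGroup A₃] [AddCommGroup A₄] [AddCommGroup A₅] [AddCommGroup A₆]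
    {f₁ : A₁ →+ A₂} {f₂ : A₂ →+ A₃} {f₃ : A₃ →+ A₄} {f₄ : A₄ →+ A₅} {f₅ : A₅ →+ A₆} {f₆ : A₆ →+ A₁}
    (h₁ : Exact f₁ f₂) (h₂ : Exact f₂ f₃) (h₃ : Exact f₃ f₄) (h₄ : Exact f₄ f₅) (h₅ : Exact f₅ f₆)
    (h₆ : Exact f₆ f₁) :
    Nat.card A₁ * Nat.card A₃ * Nat.card A₅ = Nat.card A₂ * Nat.card A₄ * Nat.card A₆ := by
  rw [card_eq_card_range_mul h₁, card_eq_card_range_mul h₂, card_eq_card_range_mul h₃,
    card_eq_card_range_mul h₄, card_eq_card_range_mul h₅, card_eq_card_range_mul h₆]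
  ring

end Exact

variable {X : Type u} [AddCommGroup X]

/-- The homology group `ker a / im b`. -/
abbrev H (a b : X →+ X) : Type u := a.ker ⧸ b.range.addSubgroupOf a.ker

/-- The order of `ker a / im b` (zero when infinite). -/
noncomputable def hcard (a b : X →+ X) : ℕ := Nat.card (H a b)

theorem hcard_eq_relIndex (a b : X →+ X) : hcard a b = b.range.relIndex a.ker := rfl

variable {A B C : Type u} [AddCommGroup A] [AddCommGroup B] [AddCommGroup C]
  (aA bA : A →+ A) (aB bB : B →+ B) (aC bC : C →+ C)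

/-- The map on `ker a / im b` induced by an equivariant map. -/
def map (f : A →+ B) (ha : ∀ x, f (aA x) = aB (f x)) (hb : ∀ x, f (bA x) = bB (f x)) :
    H aA bA →+ H aB bB :=
  QuotientAddGroup.map _ _
    ((f.comp aA.ker.subtype).codRestrict aB.ker (fun x => by
      have hx : aA x.1 = 0 := x.2
      show aB (f x.1) = 0
      rw [← ha, hx, map_zero]))
    (by
      rintro x ⟨y, hy⟩
      exact ⟨f y, by
        show bB (f y) = f x.1
        rw [← hb]; exact congrArg f hy⟩)

@[simp] theorem map_mk (f : A →+ B) (ha : ∀ x, f (aA x) = aB (f x))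
    (hb : ∀ x, f (bA x) = bB (f x)) (x : aA.ker) :
    map aA bA aB bB f ha hb (x : H aA bA) =
      ((⟨f x.1, by
        have hx : aA x.1 = 0 := x.2
        show aB (f x.1) = 0
        rw [← ha, hx, map_zero]⟩ : aB.ker) : H aB bB) := rfl

theorem mk_eq_zero_iff (a b : X →+ X) (x : a.ker) : (x : H a b) = 0 ↔ ∃ y, b y = x.1 := by
  rw [QuotientAddGroup.eq_zero_iff, AddSubgroup.mem_addSubgroupOf, AddMonoidHom.mem_range]

variable (f : A →+ B) (g : B →+ C)
  (fa : ∀ x, f (aA x) = aB (f x)) (fb : ∀ x, f (bA x) = bB (f x))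
  (ga : ∀ x, g (aB x) = aC (g x)) (gb : ∀ x, g (bB x) = bC (g x))
  (hfg : Exact f g) (hf : Injective f) (hg : Surjective g)

include hfg hf in
theorem exact_mid (hg' : Surjective g) (hab : ∀ x, aB (bB x) = 0) :
    Exact (map aA bA aB bB f fa fb) (map aB bB aC bC g ga gb) := by
  intro y
  induction y using QuotientAddGroup.induction_on with | _ y => ?_
  constructor
  · intro h
    rw [map_mk, mk_eq_zero_iff] at h
    obtain ⟨c, hc⟩ := h
    obtain ⟨b₀, rfl⟩ := hg' c
    obtain ⟨x, hx⟩ := (hfg (y.1 - bB b₀)).1 (by simp [gb, hc])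
    have h0 : aA x = 0 := hf (by
      have hy : aB y.1 = 0 := y.2
      rw [fa, hx, map_sub, hab, hy, sub_zero, map_zero])
    refine ⟨((⟨x, h0⟩ : aA.ker) : H aA bA), ?_⟩
    rw [map_mk, ← sub_eq_zero, ← QuotientAddGroup.mk_sub, mk_eq_zero_iff]
    exact ⟨-b₀, by simp [hx]⟩
  · rintro ⟨x, hx⟩
    rw [← hx]
    induction x using QuotientAddGroup.induction_on with | _ x => ?_
    rw [map_mk, map_mk, mk_eq_zero_iff]
    exact ⟨0, by simp [hfg.apply_apply_eq_zero]⟩

include hfg hf hg fa fb ga gb in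
/-- The connecting map, built with a choice of preimages, and its exactness. -/
theorem exists_connecting (hbaA : ∀ x, bA (aA x) = 0) (habA : ∀ x, aA (bA x) = 0)
    (habB : ∀ x, aB (bB x) = 0) (hbaB : ∀ x, bB (aB x) = 0) :
    ∃ δ : H aC bC →+ H bA aA, Exact (map aB bB aC bC g ga gb) δ ∧
      Exact δ (map bA aA bB aB f fb fa) := by
  have hpre : ∀ c : aC.ker, ∃ b x, g b = c.1 ∧ f x = aB b := by
    intro c
    obtain ⟨b, hb⟩ := hg c.1
    obtain ⟨x, hx⟩ := (hfg (aB b)).1 (by rw [ga, hb]; exact c.2)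
    exact ⟨b, x, hb, hx⟩
  choose b x hb hx using hpre
  have hxker : ∀ c, bA (x c) = 0 := fun c => hf (by rw [fb, hx, hbaB, map_zero])
  -- the class does not depend on the choice of preimages
  have huniq : ∀ (c : aC.ker) (b' : B) (x' : A) (hx'0 : bA x' = 0), g b' = c.1 → f x' = aB b' →
      ((⟨x c, hxker c⟩ : bA.ker) : H bA aA) = ((⟨x', hx'0⟩ : bA.ker) : H bA aA) := by
    intro c b' x' hx'0 hb' hx'
    obtain ⟨z, hz⟩ := (hfg (b c - b')).1 (by simp [hb, hb'])
    rw [← sub_eq_zero, ← QuotientAddGroup.mk_sub, mk_eq_zero_iff]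
    exact ⟨z, hf (by simp [fa, hz, hx, hx'])⟩
  let δ₀ : aC.ker →+ H bA aA :=
    AddMonoidHom.mk' (fun c => ((⟨x c, hxker c⟩ : bA.ker) : H bA aA)) (fun c d => by
      rw [huniq (c + d) (b c + b d) (x c + x d) (by simp [hxker]) (by simp [hb]) (by simp [hx]),
        ← QuotientAddGroup.mk_add]
      rfl)
  have hkill : bC.range.addSubgroupOf aC.ker ≤ δ₀.ker := by
    rintro c ⟨c', hc'⟩
    obtain ⟨b', rfl⟩ := hg c'
    show δ₀ c = 0
    show ((⟨x c, hxker c⟩ : bA.ker) : H bA aA) = 0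
    rw [huniq c (bB b') 0 (map_zero _) (by rw [gb]; exact hc') (by simp [habB])]
    rfl
  let δ := QuotientAddGroup.lift _ δ₀ hkill
  have hδ : ∀ c : aC.ker, δ (c : H aC bC) = ((⟨x c, hxker c⟩ : bA.ker) : H bA aA) := fun c => rfl
  refine ⟨δ, ?_, ?_⟩
  · intro y
    induction y using QuotientAddGroup.induction_on with | _ c => ?_
    constructor
    · intro h
      rw [hδ, mk_eq_zero_iff] at h
      obtain ⟨z, hz⟩ := h
      have hk : aB (b c - f z) = 0 := by rw [map_sub, ← fa, hz, hx, sub_self]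
      refine ⟨((⟨b c - f z, hk⟩ : aB.ker) : H aB bB), ?_⟩
      rw [map_mk, ← sub_eq_zero, ← QuotientAddGroup.mk_sub, mk_eq_zero_iff]
      exact ⟨0, by simp [hb, hfg.apply_apply_eq_zero]⟩
    · rintro ⟨y, hy⟩
      induction y using QuotientAddGroup.induction_on with | _ y => ?_
      rw [map_mk] at hy
      rw [← hy, hδ, huniq _ y.1 0 (map_zero _) rfl (by
        rw [map_zero]; exact (y.2 : aB y.1 = 0).symm)]
      rfl
  · intro y
    induction y using QuotientAddGroup.induction_on with | _ a => ?_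
    constructor
    · intro h
      rw [map_mk, mk_eq_zero_iff] at h
      obtain ⟨b', hb'⟩ := h
      have hc : aC (g b') = 0 := by rw [← ga, hb', hfg.apply_apply_eq_zero]
      refine ⟨((⟨g b', hc⟩ : aC.ker) : H aC bC), ?_⟩
      rw [hδ, huniq _ b' a.1 a.2 rfl hb'.symm]
    · rintro ⟨c, hc⟩
      induction c using QuotientAddGroup.induction_on with | _ c => ?_
      rw [← hc, hδ, map_mk, mk_eq_zero_iff]
      exact ⟨b c, (hx c).symm⟩

include hfg hf hg fa fb ga gb in
/-- Multiplicativity of the Herbrand quotient in short exact sequences. -/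
theorem hcard_mul_of_exact (hbaA : ∀ x, bA (aA x) = 0) (habA : ∀ x, aA (bA x) = 0)
    (habB : ∀ x, aB (bB x) = 0) (hbaB : ∀ x, bB (aB x) = 0) :
    hcard aA bA * hcard aC bC * hcard bB aB = hcard aB bB * hcard bA aA * hcard bC aC := by
  obtain ⟨δ, h₂, h₃⟩ := exists_connecting aA bA aB bB aC bC f g fa fb ga gb hfg hf hg
    hbaA habA habB hbaB
  obtain ⟨δ', h₅, h₆⟩ := exists_connecting bA aA bB aB bC aC f g fb fa gb ga hfg hf hg
    habA hbaA hbaB habB
  exact card_hexagon (exact_mid aA bA aB bB aC bC f g fa fb ga gb hfg hf hg habB) h₂ h₃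
    (exact_mid bA aA bB aB bC aC f g fb fa gb ga hfg hf hg hbaB) h₅ h₆

include hfg hf hg fa fb ga gb in
theorem hcard_ne_zero_of_exact (habB : ∀ x, aB (bB x) = 0) (hA : hcard aA bA ≠ 0)
    (hC : hcard aC bC ≠ 0) : hcard aB bB ≠ 0 := by
  haveI : Finite (H aA bA) := Nat.finite_of_card_ne_zero hA
  haveI : Finite (H aC bC) := Nat.finite_of_card_ne_zero hC
  rw [hcard, card_eq_card_range_mul (exact_mid aA bA aB bB aC bC f g fa fb ga gb hfg hf hg habB)]
  haveI : Finite (map aA bA aB bB f fa fb).range :=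
    Finite.of_surjective _ (map aA bA aB bB f fa fb).rangeRestrict_surjective
  exact Nat.mul_ne_zero Nat.card_pos.ne' Nat.card_pos.ne'

theorem hcard_ne_zero_of_finite [Finite X] (a b : X →+ X) : hcard a b ≠ 0 :=
  Nat.card_pos.ne'

theorem hcard_eq_of_finite [Finite X] (a b : X →+ X) (hab : ∀ x, a (b x) = 0)
    (hba : ∀ x, b (a x) = 0) : hcard a b = hcard b a := by
  have k1 : ∀ a b : X →+ X, (∀ x, a (b x) = 0) →
      Nat.card b.range * hcard a b = Nat.card a.ker := fun a b h => by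
    rw [hcard_eq_relIndex, ← AddSubgroup.relIndex_bot_left, ← AddSubgroup.relIndex_bot_left,
      AddSubgroup.relIndex_mul_relIndex _ _ _ bot_le]
    rintro _ ⟨x, rfl⟩
    exact h x
  have k2 : ∀ a : X →+ X, Nat.card X = Nat.card a.range * Nat.card a.ker := fun a => by
    rw [AddSubgroup.card_eq_card_quotient_mul_card_addSubgroup a.ker,
      Nat.card_congr (QuotientAddGroup.quotientKerEquivRange a).toEquiv]
  have h := (k2 a).symm.trans (k2 b)
  rw [← k1 a b hab, ← k1 b a hba] at h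
  have hpos : 0 < Nat.card a.range * Nat.card b.range := Nat.mul_pos Nat.card_pos Nat.card_pos
  exact Nat.eq_of_mul_eq_mul_left hpos (by linarith)

end FLTA.PoitouTate.Herbrand
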