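import Fermat.Agent.PoitouTate.HerbrandBasic
import Mathlib.RingTheory.Polynomial.Cyclotomic.Basic
import Mathlib.Algebra.CharP.Lemmas
import Mathlib.FieldTheory.Finiteness
import Mathlib.LinearAlgebra.Dimension.RankNullity
import Mathlib.LinearAlgebra.FreeModule.Finite.Basic
import Mathlib.LinearAlgebra.FreeModule.PID
import Mathlib.LinearAlgebra.Dimension.Localization
import Mathlib.LinearAlgebra.Dimension.Torsion.Finite
import Mathlib.GroupTheory.FiniteAbelian.Basic

/-!
# Herbrand quotient of a finitely generated module over a group of prime order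
-/

set_option autoImplicit false

namespace FLTA.PoitouTate.Herbrand

open Polynomial Function

universe u

/-- `(X - 1) ^ (p - 1)` is congruent to `1 + X + ... + X ^ (p - 1)` modulo `p`. -/
theorem exists_sub_one_pow_eq (p : ℕ) [hp : Fact p.Prime] :
    ∃ h : ℤ[X], (X - 1 : ℤ[X]) ^ (p - 1) =
      (∑ i ∈ Finset.range p, X ^ i) + (p : ℤ[X]) * (-1 + (X - 1) * h) := by
  have key : ((X - 1 : ℤ[X]) ^ (p - 1) - ∑ i ∈ Finset.range p, X ^ i).map
      (Int.castRingHom (ZMod p)) = 0 := by
    simp only [Polynomial.map_sub, Polynomial.map_pow, map_X, Polynomial.map_one,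
      Polynomial.map_sum, sub_eq_zero]
    refine mul_right_cancel₀ (b := (X - 1 : (ZMod p)[X])) ?_ ?_
    · exact X_sub_C_ne_zero (1 : ZMod p)
    · rw [geom_sum_mul, ← pow_succ, Nat.sub_add_cancel hp.out.one_le, sub_pow_char, one_pow]
  have hdvd : (C (p : ℤ)) ∣ ((X - 1 : ℤ[X]) ^ (p - 1) - ∑ i ∈ Finset.range p, X ^ i) := by
    rw [C_dvd_iff_dvd_coeff]
    intro i
    have h := congrArg (fun q => Polynomial.coeff q i) key
    simp only [coeff_map, coeff_zero, eq_intCast] at h
    exact (ZMod.intCast_zmod_eq_zero_iff_dvd _ _).1 h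
  obtain ⟨g, hg⟩ := hdvd
  have h1 : (g + 1).eval 1 = 0 := by
    have h := congrArg (Polynomial.eval 1) hg
    simp [zero_pow (Nat.sub_pos_of_lt hp.out.one_lt).ne', eval_finset_sum] at h
    have hp0 : (p : ℤ) ≠ 0 := by exact_mod_cast hp.out.ne_zero
    simp only [eval_add, eval_one]
    apply mul_left_cancel₀ hp0
    linarith
  obtain ⟨h, hh⟩ := dvd_iff_isRoot.2 (show (g + 1).IsRoot 1 from h1)
  refine ⟨h, ?_⟩
  rw [map_natCast] at hg
  rw [map_one] at hh
  linear_combination hg + (p : ℤ[X]) * hh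

variable {X : Type u} [AddCommGroup X] (p : ℕ) [hp : Fact p.Prime]

/-- The norm element `1 + σ + ... + σ ^ (p - 1)` as an additive map. -/
noncomputable def nrm (σ : X →ₗ[ℤ] X) : X →+ X :=
  (∑ i ∈ Finset.range p, σ ^ i : X →ₗ[ℤ] X).toAddMonoidHom

/-- `σ - 1` as an additive map. -/
def tau (σ : X →ₗ[ℤ] X) : X →+ X := (σ - 1).toAddMonoidHom

theorem nrm_apply (σ : X →ₗ[ℤ] X) (x : X) :
    nrm p σ x = ∑ i ∈ Finset.range p, (σ ^ i) x := by
  simp [nrm]

omit hp in
@[simp] theorem tau_apply (σ : X →ₗ[ℤ] X) (x : X) : tau σ x = σ x - x := rfl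

theorem nrm_tau {σ : X →ₗ[ℤ] X} (hσ : σ ^ p = 1) (x : X) : nrm p σ (tau σ x) = 0 := by
  have h := LinearMap.congr_fun (geom_sum_mul σ p) x
  simp [hσ] at h
  simpa [nrm] using h

theorem tau_nrm {σ : X →ₗ[ℤ] X} (hσ : σ ^ p = 1) (x : X) : tau σ (nrm p σ x) = 0 := by
  have h := LinearMap.congr_fun (mul_geom_sum σ p) x
  simp [hσ] at h
  simpa [nrm] using h

theorem map_nrm {Y : Type u} [AddCommGroup Y] {σ : X →ₗ[ℤ] X} {σ' : Y →ₗ[ℤ] Y} (f : X →ₗ[ℤ] Y)
    (h : ∀ x, f (σ x) = σ' (f x)) (x : X) : f (nrm p σ x) = nrm p σ' (f x) := by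
  have hi : ∀ (i : ℕ) (y : X), f ((σ ^ i) y) = (σ' ^ i) (f y) := by
    intro i
    induction i with
    | zero => simp
    | succ i ih => intro y; rw [pow_succ, pow_succ, Module.End.mul_apply, Module.End.mul_apply, ih, h]
  simp [nrm_apply, hi]

theorem nrm_apply_of_fixed {σ : X →ₗ[ℤ] X} {x : X} (hx : σ x = x) : nrm p σ x = p • x := by
  have hi : ∀ i : ℕ, (σ ^ i) x = x := by
    intro i
    induction i with
    | zero => simp
    | succ i ih => rw [pow_succ, Module.End.mul_apply, hx, ih]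
  simp [nrm_apply, hi]

section Free

variable [Module.Finite ℤ X] [Module.Free ℤ X] (σ : X →ₗ[ℤ] X)

omit hp in
theorem index_range_nsmul (n : ℕ) :
    (nsmulAddMonoidHom n : X →+ X).range.index = n ^ Module.finrank ℤ X := by
  classical
  let b := Module.Free.chooseBasis ℤ X
  let φ : X →+ (Module.Free.ChooseBasisIndex ℤ X → ZMod n) :=
    { toFun := fun x i => ((b.equivFun x i : ℤ) : ZMod n)
      map_zero' := by ext; simp
      map_add' := fun x y => by ext; simp }
  have hsurj : Surjective φ := by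
    intro c
    choose a ha using fun i => ZMod.intCast_surjective (c i)
    exact ⟨b.equivFun.symm a, funext fun i => by
      simp only [φ, AddMonoidHom.coe_mk, ZeroHom.coe_mk, LinearEquiv.apply_symm_apply, ha]⟩
  have hker : φ.ker = (nsmulAddMonoidHom n : X →+ X).range := by
    ext x
    constructor
    · intro hx
      choose a ha using fun i =>
        (ZMod.intCast_zmod_eq_zero_iff_dvd _ _).1 (congr_fun (show φ x = 0 from hx) i)
      refine ⟨b.equivFun.symm a, b.equivFun.injective ?_⟩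
      ext i
      rw [nsmulAddMonoidHom_apply, map_nsmul, LinearEquiv.apply_symm_apply, ha i]
      simp
    · rintro ⟨y, rfl⟩
      ext i
      simp [φ]
  rw [← hker, AddSubgroup.index, Nat.card_congr (QuotientAddGroup.quotientKerEquivOfSurjective φ
    hsurj).toEquiv, Nat.card_fun, Nat.card_zmod, Nat.card_eq_fintype_card,
    Module.finrank_eq_card_chooseBasisIndex]

/-- Trivial action. -/
theorem hcard_of_trivial (hσ : ∀ x, σ x = x) :
    hcard (tau σ) (nrm p σ) = p ^ Module.finrank ℤ X ∧ hcard (nrm p σ) (tau σ) = 1 := by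
  have hn : nrm p σ = nsmulAddMonoidHom p := by
    ext x; simp [nrm_apply_of_fixed p (hσ x)]
  have ht : tau σ = 0 := by ext x; simp [hσ]
  constructor
  · rw [hcard_eq_relIndex, hn, ht, AddMonoidHom.ker_zero, AddSubgroup.relIndex_top_right,
      index_range_nsmul]
  · rw [hcard_eq_relIndex, hn, ht, AddMonoidHom.range_zero, AddSubgroup.relIndex_bot_left]
    have : (nsmulAddMonoidHom p : X →+ X).ker = ⊥ := by
      rw [eq_bot_iff]
      intro x hx
      have hx' : (p : ℤ) • x = 0 := by rw [natCast_zsmul]; exact hx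
      exact (smul_eq_zero.1 hx').resolve_left (by exact_mod_cast hp.out.ne_zero)
    rw [this]; simp

/-- Fixed-point-free action. -/
theorem hcard_of_fixed_eq_zero (hσ : σ ^ p = 1) (hfix : ∀ x, σ x = x → x = 0) :
    hcard (tau σ) (nrm p σ) = 1 ∧ ∃ m, m * (p - 1) = Module.finrank ℤ X ∧
      hcard (nrm p σ) (tau σ) = p ^ m := by
  have hker : (tau σ).ker = ⊥ := by
    rw [eq_bot_iff]
    intro x hx
    exact hfix x (sub_eq_zero.1 hx)
  have hnrm : nrm p σ = 0 := by
    ext x
    exact hfix _ (sub_eq_zero.1 (tau_nrm p hσ x))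
  refine ⟨by rw [hcard_eq_relIndex, hker]; exact AddSubgroup.relIndex_bot_right _, ?_⟩
  have hH : hcard (nrm p σ) (tau σ) = (tau σ).range.index := by
    rw [hcard_eq_relIndex, hnrm, AddMonoidHom.ker_zero, AddSubgroup.relIndex_top_right]
  obtain ⟨h, hh⟩ := exists_sub_one_pow_eq p
  set g : X →ₗ[ℤ] X := -1 + (σ - 1) * aeval σ h with hg
  have hid : (σ - 1) ^ (p - 1) = (p : X →ₗ[ℤ] X) * g := by
    have e := congrArg (aeval σ) hh
    simp only [map_pow, map_sub, aeval_X, map_one, map_add, map_sum, map_mul, map_natCast,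
      map_neg] at e
    have h0 : (∑ i ∈ Finset.range p, σ ^ i : X →ₗ[ℤ] X) = 0 := by
      ext x; exact DFunLike.congr_fun hnrm x
    rwa [h0, zero_add] at e
  -- the quotient by the image of `σ - 1` is killed by `p`
  have hkill : ∀ x, ∃ y, tau σ y = p • x := by
    intro x
    have h2 : p • x = ∑ i ∈ Finset.range p, (x - (σ ^ i) x) := by
      have h0 := DFunLike.congr_fun hnrm x
      rw [nrm_apply, AddMonoidHom.zero_apply] at h0
      rw [Finset.sum_sub_distrib, h0, sub_zero, Finset.sum_const, Finset.card_range]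
    rw [h2]
    refine ⟨-∑ i ∈ Finset.range p, (∑ j ∈ Finset.range i, σ ^ j : X →ₗ[ℤ] X) x, ?_⟩
    rw [map_neg, map_sum, ← Finset.sum_neg_distrib]
    refine Finset.sum_congr rfl fun i _ => ?_
    have h3 := LinearMap.congr_fun (mul_geom_sum σ i) x
    simp only [Module.End.mul_apply, LinearMap.sub_apply, Module.End.one_apply] at h3
    rw [tau_apply, h3, neg_sub]
  set c := (tau σ).range.index with hc
  set r := Module.finrank ℤ X with hr
  -- `c` is a power of `p`
  have hle : (nsmulAddMonoidHom p : X →+ X).range ≤ (tau σ).range := by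
    rintro _ ⟨x, rfl⟩
    exact hkill x
  obtain ⟨m, hmle, hcm⟩ : ∃ m, m ≤ r ∧ c = p ^ m := by
    have hdvd := AddSubgroup.index_dvd_of_le hle
    rw [index_range_nsmul, ← hr, ← hc] at hdvd
    exact (Nat.dvd_prime_pow hp.out).1 hdvd
  -- injective endomorphisms
  have hinj : Injective (tau σ) := (AddMonoidHom.ker_eq_bot_iff _).1 hker
  have hpow : ∀ k : ℕ, ((σ - 1) ^ k : X →ₗ[ℤ] X).toAddMonoidHom.range.index = c ^ k := by
    intro k
    induction k with
    | zero =>
      rw [pow_zero, pow_zero, AddSubgroup.index_eq_one, AddMonoidHom.range_eq_top]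
      exact fun x => ⟨x, rfl⟩
    | succ k ih =>
      rw [pow_succ' c k, hc, ← ih, mul_comm, ← AddSubgroup.index_map_of_injective _ hinj,
        AddMonoidHom.map_range]
      congr 2
      ext x
      rw [pow_succ']
      rfl
  have hpinj : Injective (nsmulAddMonoidHom p : X →+ X) := by
    intro x y hxy
    have hxy' : (p : ℤ) • x = (p : ℤ) • y := by simpa [natCast_zsmul] using hxy
    exact smul_right_injective X (by exact_mod_cast hp.out.ne_zero : (p : ℤ) ≠ 0) hxy'
  have hpg : ((p : X →ₗ[ℤ] X) * g).toAddMonoidHom.range.index =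
      p ^ r * g.toAddMonoidHom.range.index := by
    rw [hr, ← index_range_nsmul (X := X) p, mul_comm,
      ← AddSubgroup.index_map_of_injective _ hpinj, AddMonoidHom.map_range]
    congr 2
  have hmain : c ^ (p - 1) = p ^ r * g.toAddMonoidHom.range.index := by
    rw [← hpow, hid, hpg]
  rw [hcm, ← pow_mul] at hmain
  -- `g` is invertible modulo `p`, hence surjective
  obtain ⟨t, -, ht⟩ : ∃ t, t ≤ m * (p - 1) ∧ g.toAddMonoidHom.range.index = p ^ t :=
    (Nat.dvd_prime_pow hp.out).1 (Dvd.intro_left _ hmain.symm)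
  set G := g.toAddMonoidHom.range with hG
  have hcomm : Commute (σ - 1) (aeval σ h) := by
    have hcc : Commute (aeval σ (Polynomial.X - 1 : ℤ[X])) (aeval σ h) := (Commute.all _ _).map _
    simpa using hcc
  have hstep : ∀ x, ∃ y, x - p • y ∈ G := by
    intro x
    have hk : ∀ k : ℕ, x - (((σ - 1) * aeval σ h) ^ k : X →ₗ[ℤ] X) x ∈ G := by
      intro k
      induction k with
      | zero => simp
      | succ k ih =>
        set v := (((σ - 1) * aeval σ h) ^ k : X →ₗ[ℤ] X) x with hv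
        have h1 : v - ((σ - 1) * aeval σ h : X →ₗ[ℤ] X) v ∈ G := ⟨-v, by
          simp [hg, LinearMap.add_apply, map_neg]
          abel⟩
        rw [pow_succ', Module.End.mul_apply, ← hv]
        convert G.add_mem ih h1 using 1
        abel
    refine ⟨g ((((aeval σ h) ^ (p - 1) : X →ₗ[ℤ] X)) x), ?_⟩
    have := hk (p - 1)
    rw [hcomm.mul_pow, hid] at this
    simpa using this
  have hiter : ∀ (k : ℕ) (x : X), ∃ y, x - p ^ k • y ∈ G := by
    intro k
    induction k with
    | zero => exact fun x => ⟨x, by simp⟩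
    | succ k ih =>
      intro x
      obtain ⟨y, hy⟩ := ih x
      obtain ⟨z, hz⟩ := hstep y
      refine ⟨z, ?_⟩
      convert G.add_mem hy (G.nsmul_mem hz (p ^ k)) using 1
      rw [pow_succ, mul_nsmul', nsmul_sub]
      abel
  have hG1 : G = ⊤ := by
    rw [eq_top_iff]
    intro x _
    obtain ⟨y, hy⟩ := hiter t x
    have h1 := G.nsmul_index_mem y
    rw [ht] at h1
    simpa using G.add_mem hy h1
  rw [hG1, AddSubgroup.index_top, mul_one] at hmain
  exact ⟨m, Nat.pow_right_injective hp.out.two_le hmain, by rw [hH]; exact hcm⟩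

theorem hcard_lattice_of_free (hσ : σ ^ p = 1) :
    hcard (tau σ) (nrm p σ) ≠ 0 ∧ hcard (nrm p σ) (tau σ) ≠ 0 ∧
    ∃ m, m * (p - 1) + Module.finrank ℤ (LinearMap.ker (σ - 1)) = Module.finrank ℤ X ∧
      hcard (tau σ) (nrm p σ) * p ^ m =
        hcard (nrm p σ) (tau σ) * p ^ Module.finrank ℤ (LinearMap.ker (σ - 1)) := by
  set F := LinearMap.ker (σ - 1) with hF
  have hmem : ∀ x, x ∈ F ↔ σ x = x := fun x => by simp [hF, sub_eq_zero]
  let σF : F →ₗ[ℤ] F := LinearMap.id
  have hle : F ≤ F.comap σ := fun x hx => by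
    rw [Submodule.mem_comap, (hmem x).1 hx]; exact hx
  let σQ : (X ⧸ F) →ₗ[ℤ] X ⧸ F := F.mapQ F σ hle
  have hQpow : σQ ^ p = 1 := by
    refine LinearMap.ext fun y => ?_
    induction y using Submodule.Quotient.induction_on with | H x => ?_
    have hk : ∀ k : ℕ, (σQ ^ k) (Submodule.Quotient.mk x) = Submodule.Quotient.mk ((σ ^ k) x) := by
      intro k
      induction k with
      | zero => rfl
      | succ k ih => rw [pow_succ', pow_succ', Module.End.mul_apply, ih]; rfl
    simp [hk, hσ]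
  haveI : Module.IsTorsionFree ℤ (X ⧸ F) := by
    refine Module.IsTorsionFree.of_smul_eq_zero fun k y hky => ?_
    induction y using Submodule.Quotient.induction_on with | H x => ?_
    rw [← Submodule.Quotient.mk_smul, Submodule.Quotient.mk_eq_zero, hmem, map_smul,
      ← sub_eq_zero, ← smul_sub] at hky
    exact (smul_eq_zero.1 hky).imp_right fun h0 =>
      (Submodule.Quotient.mk_eq_zero F).2 ((hmem x).2 (sub_eq_zero.1 h0))
  have hQfix : ∀ y, σQ y = y → y = 0 := by
    intro y
    induction y using Submodule.Quotient.induction_on with | H x => ?_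
    intro hy
    have h1 : σ x - x ∈ F := (Submodule.Quotient.eq F).1 hy
    have h2 := nrm_tau p hσ x
    rw [tau_apply, nrm_apply_of_fixed p ((hmem _).1 h1)] at h2
    have h3 : (p : ℤ) • (σ x - x) = 0 := by rw [natCast_zsmul]; exact h2
    have h4 := (smul_eq_zero.1 h3).resolve_left (by exact_mod_cast hp.out.ne_zero)
    exact (Submodule.Quotient.mk_eq_zero F).2 ((hmem x).2 (sub_eq_zero.1 h4))
  obtain ⟨hF0, hF1⟩ := hcard_of_trivial p σF (fun x => rfl)
  obtain ⟨hQ0, m, hm, hQ1⟩ := hcard_of_fixed_eq_zero p σQ hQpow hQfix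
  have hf : ∀ x, F.subtype (σF x) = σ (F.subtype x) := fun x => ((hmem x.1).1 x.2).symm
  have hg : ∀ x, F.mkQ (σ x) = σQ (F.mkQ x) := fun x => rfl
  have hex : Exact F.subtype.toAddMonoidHom F.mkQ.toAddMonoidHom := LinearMap.exact_subtype_mkQ F
  have ht : ∀ x, F.subtype.toAddMonoidHom (tau σF x) = tau σ (F.subtype.toAddMonoidHom x) :=
    fun x => by simp only [tau_apply, LinearMap.toAddMonoidHom_coe, map_sub, hf]
  have hn : ∀ x, F.subtype.toAddMonoidHom (nrm p σF x) = nrm p σ (F.subtype.toAddMonoidHom x) :=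
    map_nrm p F.subtype hf
  have ht' : ∀ x, F.mkQ.toAddMonoidHom (tau σ x) = tau σQ (F.mkQ.toAddMonoidHom x) :=
    fun x => by simp only [tau_apply, LinearMap.toAddMonoidHom_coe, map_sub, hg]
  have hn' : ∀ x, F.mkQ.toAddMonoidHom (nrm p σ x) = nrm p σQ (F.mkQ.toAddMonoidHom x) :=
    map_nrm p F.mkQ hg
  have hFpow : σF ^ p = 1 := one_pow p
  refine ⟨?_, ?_, m, by rw [hm]; exact F.finrank_quotient_add_finrank, ?_⟩
  · exact hcard_ne_zero_of_exact (tau σF) (nrm p σF) _ _ (tau σQ) (nrm p σQ) _ _ ht hn ht' hn' hex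
      (F.injective_subtype) (F.mkQ_surjective) (tau_nrm p hσ) (by simp [hF0, hp.out.ne_zero])
      (by simp [hQ0])
  · exact hcard_ne_zero_of_exact (nrm p σF) (tau σF) _ _ (nrm p σQ) (tau σQ) _ _ hn ht hn' ht' hex
      (F.injective_subtype) (F.mkQ_surjective) (nrm_tau p hσ) (by simp [hF1])
      (by simp [hQ1, hp.out.ne_zero])
  · have key := hcard_mul_of_exact (tau σF) (nrm p σF) (tau σ) (nrm p σ) (tau σQ) (nrm p σQ)
      _ _ ht hn ht' hn' hex (F.injective_subtype) (F.mkQ_surjective)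
      (nrm_tau p hFpow) (tau_nrm p hFpow) (tau_nrm p hσ) (nrm_tau p hσ)
    rw [hF0, hQ0, hF1, hQ1] at key
    linarith

end Free

/-- Finitely generated modules: the Herbrand quotient of `⟨σ⟩` in terms of the ranks. -/
theorem hcard_lattice [Module.Finite ℤ X] (σ : X →ₗ[ℤ] X) (hσ : σ ^ p = 1) :
    hcard (tau σ) (nrm p σ) ≠ 0 ∧ hcard (nrm p σ) (tau σ) ≠ 0 ∧
    ∃ m, m * (p - 1) + Module.finrank ℤ (LinearMap.ker (σ - 1)) = Module.finrank ℤ X ∧
      hcard (tau σ) (nrm p σ) * p ^ m =
        hcard (nrm p σ) (tau σ) * p ^ Module.finrank ℤ (LinearMap.ker (σ - 1)) := by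
  classical
  set T := Submodule.torsion ℤ X with hT
  haveI : Finite T := Module.finite_of_fg_torsion T (Submodule.torsion_isTorsion)
  have hle : T ≤ T.comap σ := fun x hx => by
    obtain ⟨k, hk⟩ := hx
    exact ⟨k, by rw [Submonoid.smul_def] at hk ⊢; rw [← map_smul, hk, map_zero]⟩
  let σT : T →ₗ[ℤ] T := (σ.comp T.subtype).codRestrict T (fun x => hle x.2)
  let σQ : (X ⧸ T) →ₗ[ℤ] X ⧸ T := T.mapQ T σ hle
  have hQpow : σQ ^ p = 1 := by
    refine LinearMap.ext fun y => ?_
    induction y using Submodule.Quotient.induction_on with | H x => ?_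
    have hk : ∀ k : ℕ, (σQ ^ k) (Submodule.Quotient.mk x) = Submodule.Quotient.mk ((σ ^ k) x) := by
      intro k
      induction k with
      | zero => rfl
      | succ k ih => rw [pow_succ', pow_succ', Module.End.mul_apply, ih]; rfl
    simp [hk, hσ]
  have hTpow : σT ^ p = 1 := by
    refine LinearMap.ext fun y => ?_
    have hk : ∀ k : ℕ, ((σT ^ k) y : X) = (σ ^ k) (y : X) := by
      intro k
      induction k with
      | zero => rfl
      | succ k ih => rw [pow_succ', pow_succ', Module.End.mul_apply, Module.End.mul_apply, ← ih]; rfl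
    apply Subtype.ext
    simp [hk, hσ]
  haveI : Module.IsTorsionFree ℤ (X ⧸ T) := inferInstance
  haveI : Module.Free ℤ (X ⧸ T) := inferInstance
  obtain ⟨h0, h1, m, hm, heq⟩ := hcard_lattice_of_free p σQ hQpow
  have hTrank : Module.finrank ℤ T = 0 :=
    Module.finrank_eq_zero_iff_isTorsion.2 Submodule.torsion_isTorsion
  have hrankX : Module.finrank ℤ (X ⧸ T) = Module.finrank ℤ X := by
    have := T.finrank_quotient_add_finrank
    omega
  have hrankfix : Module.finrank ℤ (LinearMap.ker (σQ - 1)) =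
      Module.finrank ℤ (LinearMap.ker (σ - 1)) := by
    set F := LinearMap.ker (σ - 1) with hF
    set F' := LinearMap.ker (σQ - 1) with hF'
    have hmemF : ∀ x, x ∈ F ↔ σ x = x := fun x => by simp [hF, sub_eq_zero]
    have hmemF' : ∀ x, x ∈ F' ↔ σQ x = x := fun x => by simp [hF', sub_eq_zero]
    let φ : F →ₗ[ℤ] F' := (T.mkQ.comp F.subtype).codRestrict F' (fun x =>
      (hmemF' _).2 (by show T.mkQ (σ x.1) = T.mkQ x.1; rw [(hmemF _).1 x.2]))
    have hker : Module.finrank ℤ (LinearMap.ker φ) = 0 := by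
      refine Module.finrank_eq_zero_iff_isTorsion.2 fun {x} => ?_
      have hx : (x.1 : X) ∈ T := (Submodule.Quotient.mk_eq_zero T).1
        (congrArg Subtype.val (show φ x.1 = 0 from x.2))
      obtain ⟨k, hk⟩ := hx
      exact ⟨k, Subtype.ext (Subtype.ext hk)⟩
    have h2 := (LinearMap.ker φ).finrank_quotient_add_finrank
    rw [φ.quotKerEquivRange.finrank_eq, hker, add_zero] at h2
    rw [← h2]
    -- the image of `φ` contains a nonzero multiple of `F'`
    have hcok : ∀ y : F', ∃ k : ℤ, k ≠ 0 ∧ k • y ∈ LinearMap.range φ := by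
      rintro ⟨y, hy⟩
      induction y using Submodule.Quotient.induction_on with | H x => ?_
      have h3 : σ x - x ∈ T := (Submodule.Quotient.eq T).1 ((hmemF' _).1 hy)
      obtain ⟨k, hk⟩ := h3
      rw [Submonoid.smul_def, smul_sub, sub_eq_zero, ← map_smul] at hk
      exact ⟨k, nonZeroDivisors.coe_ne_zero k, ⟨(k : ℤ) • x, (hmemF _).2 hk⟩, rfl⟩
    refine le_antisymm ?_ (Submodule.finrank_le _)
    have h4 : Module.finrank ℤ (F' ⧸ LinearMap.range φ) = 0 := by
      refine Module.finrank_eq_zero_iff_isTorsion.2 fun {y} => ?_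
      induction y using Submodule.Quotient.induction_on with | H y => ?_
      obtain ⟨k, hk0, hk⟩ := hcok y
      exact ⟨⟨k, mem_nonZeroDivisors_of_ne_zero hk0⟩, (Submodule.Quotient.mk_eq_zero _).2 hk⟩
    have h5 := (LinearMap.range φ).finrank_quotient_add_finrank
    omega
  have hf : ∀ x, T.subtype (σT x) = σ (T.subtype x) := fun x => rfl
  have hg : ∀ x, T.mkQ (σ x) = σQ (T.mkQ x) := fun x => rfl
  have hex : Exact T.subtype.toAddMonoidHom T.mkQ.toAddMonoidHom := LinearMap.exact_subtype_mkQ T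
  have ht : ∀ x, T.subtype.toAddMonoidHom (tau σT x) = tau σ (T.subtype.toAddMonoidHom x) :=
    fun x => rfl
  have hn : ∀ x, T.subtype.toAddMonoidHom (nrm p σT x) = nrm p σ (T.subtype.toAddMonoidHom x) :=
    map_nrm p T.subtype hf
  have ht' : ∀ x, T.mkQ.toAddMonoidHom (tau σ x) = tau σQ (T.mkQ.toAddMonoidHom x) := fun x => rfl
  have hn' : ∀ x, T.mkQ.toAddMonoidHom (nrm p σ x) = nrm p σQ (T.mkQ.toAddMonoidHom x) :=
    map_nrm p T.mkQ hg
  have hTeq := hcard_eq_of_finite (tau σT) (nrm p σT) (tau_nrm p hTpow) (nrm_tau p hTpow)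
  have hT0 : hcard (tau σT) (nrm p σT) ≠ 0 := hcard_ne_zero_of_finite _ _
  refine ⟨hcard_ne_zero_of_exact (tau σT) (nrm p σT) _ _ (tau σQ) (nrm p σQ) _ _ ht hn ht' hn' hex
      T.injective_subtype T.mkQ_surjective (tau_nrm p hσ) hT0 h0,
    hcard_ne_zero_of_exact (nrm p σT) (tau σT) _ _ (nrm p σQ) (tau σQ) _ _ hn ht hn' ht' hex
      T.injective_subtype T.mkQ_surjective (nrm_tau p hσ) (hTeq ▸ hT0) h1,
    m, by rw [← hrankfix, hm, hrankX], ?_⟩
  rw [← hrankfix]
  have key := hcard_mul_of_exact (tau σT) (nrm p σT) (tau σ) (nrm p σ) (tau σQ) (nrm p σQ)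
    _ _ ht hn ht' hn' hex T.injective_subtype T.mkQ_surjective
    (nrm_tau p hTpow) (tau_nrm p hTpow) (tau_nrm p hσ) (nrm_tau p hσ)
  rw [← hTeq] at key
  refine mul_left_cancel₀ (mul_ne_zero hT0 h1) ?_
  calc hcard (tau σT) (nrm p σT) * hcard (nrm p σQ) (tau σQ) *
        (hcard (tau σ) (nrm p σ) * p ^ m)
      = hcard (tau σ) (nrm p σ) * hcard (tau σT) (nrm p σT) * hcard (nrm p σQ) (tau σQ) * p ^ m := by
        ring
    _ = hcard (tau σT) (nrm p σT) * hcard (tau σQ) (nrm p σQ) * hcard (nrm p σ) (tau σ) * p ^ m := by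
        rw [key]
    _ = hcard (tau σT) (nrm p σT) * hcard (nrm p σ) (tau σ) *
          (hcard (tau σQ) (nrm p σQ) * p ^ m) := by ring
    _ = _ := by rw [heq]; ring

end FLTA.PoitouTate.Herbrand
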