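import Fermat.Agent.PoitouTate.Perm

/-!
# Modules induced from an open subgroup fixing `μ_p`, as functions on cosets
-/

set_option autoImplicit false
set_option linter.unusedSectionVars false
set_option linter.style.haveILetI false

open ExtCitation

noncomputable section

namespace FLTA.PT

variable {p : ℕ} [Fact p.Prime] (G₀ : Subgroup GQ)

/-- The subgroup element by which `g` moves the representatives. -/
def indCocycle (g : GQ) (x : GQ ⧸ G₀) : G₀ :=
  ⟨x.out⁻¹ * (g * (g⁻¹ • x).out), by
    obtain ⟨h, hh, e⟩ := exists_out_eq_mul_smul_out G₀ g x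
    have : x.out⁻¹ * (g * (g⁻¹ • x).out) = h⁻¹ := by rw [e]; group
    rw [this]
    exact G₀.inv_mem hh⟩

theorem indCocycle_coe (g : GQ) (x : GQ ⧸ G₀) :
    (indCocycle G₀ g x : GQ) = x.out⁻¹ * (g * (g⁻¹ • x).out) := rfl

theorem indCocycle_one (x : GQ ⧸ G₀) : indCocycle G₀ 1 x = 1 :=
  Subtype.ext (by simp [indCocycle_coe])

theorem indCocycle_mul (g h : GQ) (x : GQ ⧸ G₀) :
    indCocycle G₀ (g * h) x = indCocycle G₀ g x * indCocycle G₀ h (g⁻¹ • x) := by
  refine Subtype.ext ?_
  rw [Subgroup.coe_mul, indCocycle_coe, indCocycle_coe, indCocycle_coe, mul_inv_rev, mul_smul]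
  group

variable {G₀} {A B : Type} [AddCommGroup A] [Module (ZMod p) A] [AddCommGroup B] [Module (ZMod p) B]

/-- The induced representation on functions on cosets. -/
def indRep (τ : Representation (ZMod p) G₀ A) :
    Representation (ZMod p) GQ (GQ ⧸ G₀ → A) where
  toFun g :=
    { toFun := fun F x => τ (indCocycle G₀ g x) (F (g⁻¹ • x))
      map_add' := fun F F' => by funext x; simp
      map_smul' := fun c F => by funext x; simp }
  map_one' := LinearMap.ext fun F => funext fun x => by
    simp [indCocycle_one]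
  map_mul' g h := LinearMap.ext fun F => funext fun x => by
    simp [indCocycle_mul, map_mul, mul_smul]

theorem indRep_apply (τ : Representation (ZMod p) G₀ A) (g : GQ) (F : GQ ⧸ G₀ → A) (x : GQ ⧸ G₀) :
    indRep τ g F x = τ (indCocycle G₀ g x) (F (g⁻¹ • x)) := rfl

/-- Composition with a linear map. -/
abbrev indMap (f : A →ₗ[ZMod p] B) : (GQ ⧸ G₀ → A) →ₗ[ZMod p] (GQ ⧸ G₀ → B) :=
  LinearMap.pi fun x => f.comp (LinearMap.proj x)

theorem equivariant_indMap {τ : Representation (ZMod p) G₀ A} {τ' : Representation (ZMod p) G₀ B}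
    {f : A →ₗ[ZMod p] B} (hf : ∀ h v, f (τ h v) = τ' h (f v)) :
    Equivariant (indRep τ) (indRep τ') (MonoidHom.id GQ) (indMap f) := fun g F => funext fun x => by
  simp [indRep_apply, hf]

theorem indCocycle_mem {U : Subgroup GQ} (hU : U.Normal) (hle : U ≤ G₀) {s : GQ} (hs : s ∈ U)
    (x : GQ ⧸ G₀) : s⁻¹ • x = x ∧ (indCocycle G₀ s x : GQ) ∈ U := by
  have h1 : s⁻¹ • x = x := by
    conv_rhs => rw [← QuotientGroup.out_eq' x]
    conv_lhs => rw [← QuotientGroup.out_eq' x]
    rw [MulAction.Quotient.smul_mk, QuotientGroup.eq, smul_eq_mul, mul_inv_rev, inv_inv]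
    have := hU.conj_mem s hs x.out⁻¹
    rw [inv_inv] at this
    exact hle this
  refine ⟨h1, ?_⟩
  rw [indCocycle_coe, h1]
  have := hU.conj_mem s hs x.out⁻¹
  rwa [inv_inv, mul_assoc] at this

theorem smooth_indRep {S : Finset Nat.Primes} {U : Subgroup GQ} (hU : U ∈ lvlS S) (hle : U ≤ G₀)
    {τ : Representation (ZMod p) G₀ A} (hτ : ∀ h : G₀, (h : GQ) ∈ U → τ h = 1) :
    Smooth (lvlS S) (indRep τ) := fun F => ⟨U, hU, fun s hs => funext fun x => by
  obtain ⟨h1, h2⟩ := indCocycle_mem ((lvlS S).normal_of_mem U hU) hle hs x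
  rw [indRep_apply, h1, hτ _ h2]
  rfl⟩

variable [Fintype (GQ ⧸ G₀)]
variable {τ : Representation (ZMod p) G₀ A} {τ' : Representation (ZMod p) G₀ B}

/-- `(F, F') ↦ ∑ χ(g_x) ⟨F x, F' x⟩`. -/
def indPairing (hμ : ∀ s ∈ G₀, cycloChar p s = 1)
    (Q : Pairing ((cycloChar p).comp G₀.subtype) τ τ') :
    Pairing (cycloChar p) (indRep τ) (indRep τ') where
  e := ∑ x : GQ ⧸ G₀, (cycloChar p x.out : ZMod p) •
    Q.e.compl₁₂ (LinearMap.proj x) (LinearMap.proj x)
  equivariant g F F' := by
    simp only [LinearMap.sum_apply, LinearMap.smul_apply, LinearMap.compl₁₂_apply,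
      LinearMap.proj_apply, indRep_apply, smul_eq_mul, Finset.mul_sum]
    refine Eq.trans (Finset.sum_congr rfl fun x _ => ?_)
      ((MulAction.bijective g⁻¹).sum_comp fun x : GQ ⧸ G₀ => (cycloChar p g : ZMod p) *
        ((cycloChar p x.out : ZMod p) * Q.e (F x) (F' x)))
    obtain ⟨h, hh, e⟩ := exists_out_eq_mul_smul_out G₀ g x
    have hc : (((cycloChar p).comp G₀.subtype) (indCocycle G₀ g x) : ZMod p) = 1 := by
      rw [MonoidHom.comp_apply, Subgroup.coe_subtype, hμ _ (indCocycle G₀ g x).2, Units.val_one]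
    rw [Q.equivariant, hc, one_mul]
    conv_lhs => rw [e, map_mul, map_mul, hμ h hh, mul_one, Units.val_mul]
    ring

theorem indPairing_apply (hμ : ∀ s ∈ G₀, cycloChar p s = 1)
    (Q : Pairing ((cycloChar p).comp G₀.subtype) τ τ') (F : GQ ⧸ G₀ → A) (F' : GQ ⧸ G₀ → B) :
    (indPairing hμ Q).e F F' = ∑ x, (cycloChar p x.out : ZMod p) * Q.e (F x) (F' x) := by
  simp [indPairing]

theorem indPairing_flip (hμ : ∀ s ∈ G₀, cycloChar p s = 1)
    (Q : Pairing ((cycloChar p).comp G₀.subtype) τ τ') :
    (indPairing hμ Q).flip = indPairing hμ Q.flip := by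
  unfold Pairing.flip
  congr 1
  exact LinearMap.ext fun F => LinearMap.ext fun F' => by
    simp [indPairing_apply]

theorem indPairing_perfect [Finite A] [Finite B] (hμ : ∀ s ∈ G₀, cycloChar p s = 1)
    (Q : Pairing ((cycloChar p).comp G₀.subtype) τ τ') (hQ : Q.Perfect) :
    (indPairing hμ Q).Perfect := by
  classical
  have h1 : Function.Injective (indPairing hμ Q).e :=
    (injective_iff_map_eq_zero _).2 fun F hF => funext fun x => hQ.1.1 <| by
      rw [Pi.zero_apply, map_zero]
      refine LinearMap.ext fun b => ?_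
      have := LinearMap.congr_fun hF (Pi.single x b)
      rw [indPairing_apply, Finset.sum_eq_single x
        (fun y _ h => by rw [Pi.single_eq_of_ne h, map_zero, mul_zero])
        (fun h => absurd (Finset.mem_univ x) h), Pi.single_eq_same, LinearMap.zero_apply] at this
      exact (mul_eq_zero.1 this).resolve_left (Units.ne_zero _)
  have h2 : Function.Injective (indPairing hμ Q).e.flip := by
    show Function.Injective (indPairing hμ Q).flip.e
    rw [indPairing_flip]
    refine (injective_iff_map_eq_zero _).2 fun F hF => funext fun x => hQ.2.1 <| by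
      rw [Pi.zero_apply, map_zero]
      refine LinearMap.ext fun b => ?_
      have := LinearMap.congr_fun hF (Pi.single x b)
      rw [indPairing_apply, Finset.sum_eq_single x
        (fun y _ h => by rw [Pi.single_eq_of_ne h, map_zero, mul_zero])
        (fun h => absurd (Finset.mem_univ x) h), Pi.single_eq_same, LinearMap.zero_apply] at this
      exact (mul_eq_zero.1 this).resolve_left (Units.ne_zero _)
  exact ⟨⟨h1, (surjective_of_nondegenerate_of_finite _ h1 h2).1⟩,
    ⟨h2, (surjective_of_nondegenerate_of_finite _ h1 h2).2⟩⟩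

end FLTA.PT

end
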