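import Fermat.Agent.PoitouTate.LocalDualityInduct

/-!
# Local Tate duality for every open subgroup of `Gl q`
-/

set_option autoImplicit false

open ExtCitation Module

noncomputable section

namespace FLTA.PT

variable (p : ℕ) [Fact p.Prime] (q : Nat.Primes) {D : Subgroup (Gl q)}

/-- Nonvanishing: a nonzero invariant pairs nontrivially with some class in degree 2. -/
def SurjH2 {V W : Type} [AddCommGroup V] [Module (ZMod p) V] [AddCommGroup W] [Module (ZMod p) W]
    {ρ : Representation (ZMod p) D V} {σ : Representation (ZMod p) D W}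
    (P : Pairing (chiD p q D) ρ σ) : Prop :=
  ∀ w : W, w ≠ 0 → (∀ g, σ g w = w) →
    ∃ a ∈ Z2 (lvD q D) ρ, cup20 P a w ∉ B2 (lvD q D) (muD p q D)

theorem exists_step {V W : Type} [AddCommGroup V] [Module (ZMod p) V] [AddCommGroup W]
    [Module (ZMod p) W] [Finite V] [Nontrivial V] {ρ : Representation (ZMod p) D V}
    {σ : Representation (ZMod p) D W} {P : Pairing (chiD p q D) ρ σ} (hP : P.Perfect)
    (h : PAct p q ρ) : Nonempty (Step p q P) := by
  obtain ⟨v, hv, hfix⟩ := exists_fixed_ne_zero p q h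
  obtain ⟨w, hw⟩ : ∃ w, P.e v w ≠ 0 := by
    by_contra hcon
    push_neg at hcon
    exact hv (hP.1.1 (by rw [map_zero]; exact LinearMap.ext hcon))
  exact ⟨⟨v, (P.e v w)⁻¹ • w, hfix, by rw [map_smul, smul_eq_mul, inv_mul_cancel₀ hw]⟩⟩

theorem injH2_nondegH1_of_pact (hD : IsOpenLvl (lvlLoc q) D) (hμ : MuTrivial p q D) :
    ∀ (n : ℕ) {V W : Type} [AddCommGroup V] [Module (ZMod p) V] [AddCommGroup W]
      [Module (ZMod p) W] [Finite V] [Finite W] {ρ : Representation (ZMod p) D V}
      {σ : Representation (ZMod p) D W} (P : Pairing (chiD p q D) ρ σ),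
      finrank (ZMod p) V = n → P.Perfect → Smooth (lvD q D) ρ → Smooth (lvD q D) σ →
        PAct p q ρ → InjH2 p q P ∧ NondegH1 p q P := by
  intro n
  induction n using Nat.strong_induction_on with
  | _ n ih =>
    intro V W _ _ _ _ _ _ ρ σ P hn hP hρ hσ hact
    rcases subsingleton_or_nontrivial V with hV | hV
    · refine ⟨fun a _ _ => ?_, fun a _ _ => ?_⟩
      · rw [show a = 0 from funext fun g => Subsingleton.elim _ _]
        exact Submodule.zero_mem _
      · rw [show a = 0 from funext fun g => Subsingleton.elim _ _]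
        exact Submodule.zero_mem _
    · obtain ⟨s⟩ := exists_step p q hP hact
      haveI : Finite (V ⧸ s.A) := Finite.of_surjective _ s.A.mkQ_surjective
      have hlt : finrank (ZMod p) (V ⧸ s.A) < n := hn ▸ s.finrank_lt
      have hPB := s.perfect hμ hP
      have h1 := ih _ hlt (s.pairB hμ) rfl hPB (s.smoothB hρ) (s.smoothK hμ hσ) (s.pactB hact)
      have hK : finrank (ZMod p) s.K < n := by rwa [← finrank_eq_of_perfect p q hPB]
      have h2 := ih _ hK (s.pairB hμ).flip rfl hPB.flip (s.smoothK hμ hσ) (s.smoothB hρ)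
        ((s.pactB hact).of_pairing p q hμ _ hPB)
      exact ⟨s.injH2 hD hμ hρ hσ h1.1 h2.2, s.nondegH1 hD hμ hρ hσ h1.2 h2.1⟩

theorem surjH2_of_pact : ∀ (n : ℕ) {D : Subgroup (Gl q)}, IsOpenLvl (lvlLoc q) D →
    MuTrivial p q D → ∀ (U : Subgroup (Gl q)), U ∈ lvlLoc q → U ≤ D → U.relIndex D = p ^ n →
      ∀ {V W : Type} [AddCommGroup V] [Module (ZMod p) V] [AddCommGroup W] [Module (ZMod p) W]
        {ρ : Representation (ZMod p) D V} {σ : Representation (ZMod p) D W}
        (P : Pairing (chiD p q D) ρ σ), P.Perfect → Smooth (lvD q D) ρ → Smooth (lvD q D) σ →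
        (∀ g : D, (g : Gl q) ∈ U → ρ g = 1) → SurjH2 p q P := by
  intro n
  induction n with
  | zero =>
    intro D hD hμ U hU hUD hidx V W _ _ _ _ ρ σ P hP hρ hσ htriv w hw hfix
    rw [pow_zero, Subgroup.relIndex_eq_one] at hidx
    obtain ⟨v, hv⟩ : ∃ v, P.e v w ≠ 0 := by
      by_contra hcon
      push_neg at hcon
      exact hw (hP.2.1 (by rw [map_zero]; exact LinearMap.ext hcon))
    obtain ⟨z, hz, hne⟩ := exists_not_mem_B2 p q hD
    have hι : Equivariant (muD p q D) ρ (MonoidHom.id D)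
        (LinearMap.toSpanSingleton (ZMod p) V v) := fun g c => by
      simp [hμ g, htriv g (hidx g.2)]
    refine ⟨_, pp2_mem_Z2 (lvlLE_id _) hι hz, fun h => hne ?_⟩
    have e : cup20 P (pp2 (MonoidHom.id D) (LinearMap.toSpanSingleton (ZMod p) V v) z) w =
        P.e v w • z := by
      funext ⟨g, g'⟩
      simp [cup20, hfix, mul_comm]
    rw [e] at h
    simpa [smul_smul, inv_mul_cancel₀ hv] using
      Submodule.smul_mem _ (P.e v w)⁻¹ h
  | succ n ih =>
    intro D hD hμ U hU hUD hidx V W _ _ _ _ ρ σ P hP hρ hσ htriv w hw hfix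
    obtain ⟨ψ₁, hψ₁, h0, hUle, hidx'⟩ := exists_kerSub_step p q hD hμ hU hUD hidx
    set D' := kerSub q (toChar p q hμ ψ₁ hψ₁) with hD'def
    have hle : D' ≤ D := kerSub_le q _
    have hD' : IsOpenLvl (lvlLoc q) D' :=
      isOpenLvl_map q hD (isOpenLvl_ker_toChar p q hμ ψ₁ hψ₁)
    haveI : Finite (cosets q D' D) := finite_cosets q hD' D
    letI := Fintype.ofFinite (cosets q D' D)
    have hsm : ∀ {M : Type} [AddCommGroup M] [Module (ZMod p) M]
        {τ : Representation (ZMod p) D M}, Smooth (lvD q D) τ →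
        Smooth (lvD q D') (τ.comp (Subgroup.inclusion hle)) := fun hτ => by
      rw [← lvD_comap q hle]
      exact smooth_comap hτ _
    obtain ⟨a, ha, hne⟩ := ih hD' (muTrivial_mono p q hμ hle) U hU hUle hidx'
      (P.comp (Subgroup.inclusion hle)) hP (hsm hρ) (hsm hσ)
      (fun g hg => htriv (Subgroup.inclusion hle g) hg) w hw fun g => hfix _
    refine (isPoint_one q hle).exists_cup20_not_mem P (isOpenLvl_stabilizer_cosets q hD') hρ hσ
      (sumInj_kerSub p q hD hμ hψ₁ h0 hD'def hle) hfix ⟨a, ?_, ?_⟩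
    · rwa [lvD_comap]
    · rw [lvD_comap]
      exact hne

/-- A level below `D` and `μ_p`'s kernel acting trivially. -/
theorem exists_trivializing_level (hD : IsOpenLvl (lvlLoc q) D) {V : Type} [AddCommGroup V]
    [Module (ZMod p) V] [Finite V] {ρ : Representation (ZMod p) D V} (hρ : Smooth (lvD q D) ρ) :
    ∃ U ∈ lvlLoc q, U ≤ D ∧ U ≤ muKer p q ∧ ∀ g : D, (g : Gl q) ∈ U → ρ g = 1 := by
  choose U hU hfix using hρ
  choose U₀ hU₀ hUeq using hU
  obtain ⟨W, hW, hWle⟩ := (lvlLoc q).exists_mem_le_forall U₀ fun v => ⟨U₀ v, hU₀ v, le_rfl⟩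
  obtain ⟨W', hW', hW'le⟩ := isOpenLvl_inf hD (isOpenLvl_muKer p q)
  refine ⟨W ⊓ W', (lvlLoc q).inf_mem W hW W' hW', fun x hx => (hW'le hx.2).1,
    fun x hx => (hW'le hx.2).2, fun g hg => LinearMap.ext fun v => ?_⟩
  refine hfix v g ?_
  rw [← hUeq v]
  exact hWle v hg.1

theorem exists_sylow_muTrivial (hD : IsOpenLvl (lvlLoc q) D) {V : Type} [AddCommGroup V]
    [Module (ZMod p) V] [Finite V] {ρ : Representation (ZMod p) D V} (hρ : Smooth (lvD q D) ρ) :
    ∃ P : Subgroup (Gl q), ∃ hle : P ≤ D, IsOpenLvl (lvlLoc q) P ∧ MuTrivial p q P ∧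
      ¬ p ∣ P.relIndex D ∧ PAct p q (ρ.comp (Subgroup.inclusion hle)) := by
  obtain ⟨U, hU, hUD, hUμ, htriv⟩ := exists_trivializing_level p q hD hρ
  obtain ⟨P, hPD, hUP, -, hndvd, -⟩ := exists_sylow_sub p q (D := D ⊓ muKer p q) hU
    (le_inf hUD hUμ)
  obtain ⟨P', hP'P, hUP', hP'open, hndvd', hn⟩ := exists_sylow_sub p q (D := P) hU hUP
  refine ⟨P', hP'P.trans (hPD.trans inf_le_left), hP'open,
    (muTrivial_iff p q).2 (hP'P.trans (hPD.trans inf_le_right)), ?_,
    U, hU, hUP', fun g hg => htriv _ hg, hn⟩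
  rw [← Subgroup.relIndex_mul_relIndex P' P D hP'P (hPD.trans inf_le_left),
    ← Subgroup.relIndex_mul_relIndex P (D ⊓ muKer p q) D hPD inf_le_left]
  intro h
  rcases (Fact.out : p.Prime).dvd_mul.1 h with h | h
  · exact hndvd' h
  rcases (Fact.out : p.Prime).dvd_mul.1 h with h | h
  · exact hndvd h
  · exact not_dvd_relIndex_muKer p q D h

variable {V W : Type} [AddCommGroup V] [Module (ZMod p) V] [AddCommGroup W] [Module (ZMod p) W]
variable [Finite V] [Finite W] {ρ : Representation (ZMod p) D V}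
  {σ : Representation (ZMod p) D W} (P : Pairing (chiD p q D) ρ σ)
variable (hD : IsOpenLvl (lvlLoc q) D) (hP : P.Perfect) (hρ : Smooth (lvD q D) ρ)
  (hσ : Smooth (lvD q D) σ)

include hD hP hρ hσ

/-- `H² → (H⁰)^*` is injective. -/
theorem injH2 : InjH2 p q P := by
  obtain ⟨D', hle, hD', hμ', hndvd, hact⟩ := exists_sylow_muTrivial p q hD hρ
  haveI : Finite (cosets q D' D) := finite_cosets q hD' D
  letI := Fintype.ofFinite (cosets q D' D)
  have hunit : IsUnit (Fintype.card (cosets q D' D) : ZMod p) := by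
    rw [← Nat.card_eq_fintype_card]
    exact isUnit_cast_of_not_dvd p (by rwa [card_cosets])
  have hres := (injH2_nondegH1_of_pact p q hD' hμ' _ (P.comp (Subgroup.inclusion hle)) rfl hP
    (by rw [← lvD_comap q hle]; exact smooth_comap hρ _)
    (by rw [← lvD_comap q hle]; exact smooth_comap hσ _) hact).1
  intro a ha hyp
  refine (isPoint_one q hle).mem_B2_of_res (isOpenLvl_stabilizer_cosets q hD')
    (transitive_cosets q D' D) hρ hunit ha ?_
  rw [lvD_comap]
  refine hres _ (pp2_mem_Z2 (lvlLE_incl q hle) (fun _ _ => rfl) ha) fun w hw => ?_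
  have := (isPoint_one q hle).res_forall_cup20 P (transitive_cosets q D' D)
    (sumInj_of_not_dvd p q hD hD' hle hndvd) ha hyp hw
  rwa [lvD_comap] at this

/-- `H¹ × H¹ → H²` is left nondegenerate. -/
theorem nondegH1 : NondegH1 p q P := by
  obtain ⟨D', hle, hD', hμ', hndvd, hact⟩ := exists_sylow_muTrivial p q hD hρ
  haveI : Finite (cosets q D' D) := finite_cosets q hD' D
  letI := Fintype.ofFinite (cosets q D' D)
  have hunit : IsUnit (Fintype.card (cosets q D' D) : ZMod p) := by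
    rw [← Nat.card_eq_fintype_card]
    exact isUnit_cast_of_not_dvd p (by rwa [card_cosets])
  have hres := (injH2_nondegH1_of_pact p q hD' hμ' _ (P.comp (Subgroup.inclusion hle)) rfl hP
    (by rw [← lvD_comap q hle]; exact smooth_comap hρ _)
    (by rw [← lvD_comap q hle]; exact smooth_comap hσ _) hact).2
  intro a ha hyp
  refine (isPoint_one q hle).mem_B1_of_res (isOpenLvl_stabilizer_cosets q hD')
    (transitive_cosets q D' D) hρ hunit ha ?_
  refine hres _ (pp1_mem_Z1 (lvlLE_incl q hle) (fun _ _ => rfl) ha) fun b hb => ?_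
  have := (isPoint_one q hle).res_forall_cup11 P (isOpenLvl_stabilizer_cosets q hD') hσ
    (sumInj_of_not_dvd p q hD hD' hle hndvd) ha hyp (b := b) (by rw [lvD_comap]; exact hb)
  rwa [lvD_comap] at this

/-- `H⁰ → (H²)^*` is injective. -/
theorem surjH2 : SurjH2 p q P := by
  obtain ⟨D', hle, hD', hμ', hndvd, ⟨U, hU, hUD', htriv, n, hn⟩⟩ :=
    exists_sylow_muTrivial p q hD hρ
  haveI : Finite (cosets q D' D) := finite_cosets q hD' D
  letI := Fintype.ofFinite (cosets q D' D)
  intro w hw hfix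
  obtain ⟨a, ha, hne⟩ := surjH2_of_pact p q n hD' hμ' U hU hUD' hn
    (P.comp (Subgroup.inclusion hle)) hP
    (by rw [← lvD_comap q hle]; exact smooth_comap hρ _)
    (by rw [← lvD_comap q hle]; exact smooth_comap hσ _) htriv w hw fun g => hfix _
  refine (isPoint_one q hle).exists_cup20_not_mem P (isOpenLvl_stabilizer_cosets q hD') hρ hσ
    (sumInj_of_not_dvd p q hD hD' hle hndvd) hfix ⟨a, ?_, ?_⟩
  · rwa [lvD_comap]
  · rw [lvD_comap]
    exact hne

end FLTA.PT

end
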