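import Fermat.Agent.PoitouTate.Cup

/-!
# Cup products: bilinearity, commutativity, functoriality, the multiplication pairing
-/

set_option autoImplicit false

noncomputable section

namespace FLTA.PT

section algebra

variable {k : Type*} [CommRing k] {Γ : Type*} [Group Γ] {L : Lvl Γ}
variable {V W : Type*} [AddCommGroup V] [Module k V] [AddCommGroup W] [Module k W]
variable {χ : Γ →* kˣ} {ρ : Representation k Γ V} {σ : Representation k Γ W}
variable (P : Pairing χ ρ σ)

theorem Pairing.flip_flip : P.flip.flip = P := rfl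

theorem Pairing.Perfect.flip {P : Pairing χ ρ σ} (h : P.Perfect) : P.flip.Perfect :=
  ⟨h.2, by
    have e : P.flip.e.flip = P.e := by ext; rfl
    rw [e]
    exact h.1⟩

theorem cup11_add_left (a a' : Γ → V) (b : Γ → W) :
    cup11 P (a + a') b = cup11 P a b + cup11 P a' b := by
  funext g; simp [cup11]

theorem cup11_smul_left (c : k) (a : Γ → V) (b : Γ → W) :
    cup11 P (c • a) b = c • cup11 P a b := by
  funext g; simp [cup11]

theorem cup11_add_right (a : Γ → V) (b b' : Γ → W) :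
    cup11 P a (b + b') = cup11 P a b + cup11 P a b' := by
  funext g; simp [cup11]

theorem cup11_smul_right (c : k) (a : Γ → V) (b : Γ → W) :
    cup11 P a (c • b) = c • cup11 P a b := by
  funext g; simp [cup11]

/-- The cup product as a bilinear map on cochains. -/
def cup11Lin : (Γ → V) →ₗ[k] (Γ → W) →ₗ[k] (Γ × Γ → k) :=
  LinearMap.mk₂ k (cup11 P) (cup11_add_left P) (cup11_smul_left P) (cup11_add_right P)
    (cup11_smul_right P)

@[simp] theorem cup11Lin_apply (a : Γ → V) (b : Γ → W) : cup11Lin P a b = cup11 P a b := rfl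

theorem cup20_add_right (a : Γ × Γ → V) (w w' : W) :
    cup20 P a (w + w') = cup20 P a w + cup20 P a w' := by
  funext g; simp [cup20]

theorem cup20_smul_right (c : k) (a : Γ × Γ → V) (w : W) :
    cup20 P a (c • w) = c • cup20 P a w := by
  funext g; simp [cup20]

theorem cup20_add_left (a a' : Γ × Γ → V) (w : W) :
    cup20 P (a + a') w = cup20 P a w + cup20 P a' w := by
  funext g; simp [cup20]

theorem cup20_sub_left (a a' : Γ × Γ → V) (w : W) :
    cup20 P (a - a') w = cup20 P a w - cup20 P a' w := by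
  funext g; simp [cup20]

theorem cup20_smul_left (c : k) (a : Γ × Γ → V) (w : W) :
    cup20 P (c • a) w = c • cup20 P a w := by
  funext g; simp [cup20]

theorem cup11_sub_left (a a' : Γ → V) (b : Γ → W) :
    cup11 P (a - a') b = cup11 P a b - cup11 P a' b := by
  funext g; simp [cup11]

theorem cup11_sub_right (a : Γ → V) (b b' : Γ → W) :
    cup11 P a (b - b') = cup11 P a b - cup11 P a b' := by
  funext g; simp [cup11]

theorem zero_cup11 (b : Γ → W) : cup11 P 0 b = 0 := by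
  funext g; simp [cup11]

theorem cup11_zero (a : Γ → V) : cup11 P a 0 = 0 := by
  funext g; simp [cup11]

/-- The values of the pointwise product. -/
def cupDiag (a : Γ → V) (b : Γ → W) : Γ → k := fun g => P.e (a g) (b g)

theorem cupDiag_const {a : Γ → V} {b : Γ → W} (ha : IsConst₁ L a) (hb : IsConst₁ L b) :
    IsConst₁ L (cupDiag P a b) := by
  obtain ⟨U, hU, ha⟩ := ha
  obtain ⟨U', hU', hb⟩ := hb
  exact ⟨U ⊓ U', L.inf_mem U hU U' hU', fun g s hs => by
    simp [cupDiag, ha g s hs.1, hb g s hs.2]⟩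

/-- Graded commutativity. -/
theorem d1_cupDiag {a : Γ → V} {b : Γ → W} (ha : ∀ g h, a (g * h) = ρ g (a h) + a g)
    (hb : ∀ g h, b (g * h) = σ g (b h) + b g) :
    d1 (charRep χ) (cupDiag P a b) = -(cup11 P a b + cup11 P.flip b a) := by
  funext ⟨g, h⟩
  simp only [d1_apply, charRep_apply, cupDiag, cup11, Pi.neg_apply, Pi.add_apply, ha g h, hb g h,
    map_add, LinearMap.add_apply, P.equivariant, Pairing.flip, LinearMap.flip_apply]
  abel

theorem cup11_flip_mem_B2_iff {a : Γ → V} {b : Γ → W} (ha : a ∈ Z1 L ρ) (hb : b ∈ Z1 L σ) :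
    cup11 P.flip b a ∈ B2 L (charRep χ) ↔ cup11 P a b ∈ B2 L (charRep χ) := by
  have h : cup11 P a b + cup11 P.flip b a ∈ B2 L (charRep χ) := by
    refine (mem_B2 L _).2 ⟨-cupDiag P a b, ?_, ?_⟩
    · exact (C1 (k := k) L k).neg_mem (cupDiag_const P ha.2 hb.2)
    · rw [map_neg, d1_cupDiag P ((mem_Z1 L ρ).1 ha).1 ((mem_Z1 L σ).1 hb).1, neg_neg]
  constructor
  · intro h'; simpa using (B2 L (charRep χ)).sub_mem h h'
  · intro h'; simpa using (B2 L (charRep χ)).sub_mem h h'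

/-- Cup product with a coboundary in the left variable. -/
theorem cup11_d0_left_mem_B2 (v : V) {b : Γ → W} (hb : b ∈ Z1 L σ) :
    cup11 P (d0 ρ v) b ∈ B2 L (charRep χ) := by
  refine (mem_B2 L _).2 ⟨cup01 P v b, cup01_const P v hb.2, ?_⟩
  rw [d1_cup01, LinearMap.mem_ker.1 hb.1]
  funext g; simp [cup02]

/-- Cup product with a coboundary in the right variable. -/
theorem cup11_d0_right_mem_B2 (hσ : Smooth L σ) {a : Γ → V} (ha : a ∈ Z1 L ρ) (w : W) :
    cup11 P a (d0 σ w) ∈ B2 L (charRep χ) := by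
  refine (mem_B2 L _).2 ⟨-cup10 P a w, (C1 (k := k) L k).neg_mem (cup10_const P hσ ha.2 w), ?_⟩
  rw [map_neg, d1_cup10, LinearMap.mem_ker.1 ha.1]
  funext g; simp [cup20]

/-- Cup product of a coboundary with an invariant. -/
theorem cup20_d1_mem_B2 (hσ : Smooth L σ) {a : Γ → V} (ha : IsConst₁ L a) {w : W}
    (hw : ∀ g, σ g w = w) : cup20 P (d1 ρ a) w ∈ B2 L (charRep χ) := by
  refine (mem_B2 L _).2 ⟨cup10 P a w, cup10_const P hσ ha w, ?_⟩
  rw [d1_cup10]
  funext g; simp [cup11, hw]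

theorem cup20_mem_B2_of_mem_B2 (hσ : Smooth L σ) {a : Γ × Γ → V} (ha : a ∈ B2 L ρ) {w : W}
    (hw : ∀ g, σ g w = w) : cup20 P a w ∈ B2 L (charRep χ) := by
  obtain ⟨x, hx, rfl⟩ := (mem_B2 L ρ).1 ha
  exact cup20_d1_mem_B2 P hσ hx hw

theorem cup11_mem_B2_of_mem_B1_left {a : Γ → V} (ha : a ∈ B1 ρ) {b : Γ → W} (hb : b ∈ Z1 L σ) :
    cup11 P a b ∈ B2 L (charRep χ) := by
  obtain ⟨v, rfl⟩ := ha
  exact cup11_d0_left_mem_B2 P v hb

theorem cup11_mem_B2_of_mem_B1_right (hσ : Smooth L σ) {a : Γ → V} (ha : a ∈ Z1 L ρ)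
    {b : Γ → W} (hb : b ∈ B1 σ) : cup11 P a b ∈ B2 L (charRep χ) := by
  obtain ⟨w, rfl⟩ := hb
  exact cup11_d0_right_mem_B2 P hσ ha w

end algebra

section mulPairing

variable {k : Type*} [CommRing k] {Γ : Type*} [Group Γ] (χ : Γ →* kˣ)

/-- The multiplication pairing of trivial coefficients, when the character is trivial. -/
def mulPairing (hχ : ∀ g, χ g = 1) : Pairing χ (charRep χ) (charRep χ) where
  e := LinearMap.mul k k
  equivariant g v w := by simp [hχ g]

theorem charRep_of_trivial (hχ : ∀ g, χ g = 1) (g : Γ) (a : k) : charRep χ g a = a := by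
  simp [hχ g]

theorem cup11_mulPairing (hχ : ∀ g, χ g = 1) (a b : Γ → k) (g h : Γ) :
    cup11 (mulPairing χ hχ) a b (g, h) = a g * b h := by
  simp [cup11, mulPairing, hχ g]

end mulPairing

section pullback

variable {k : Type*} [CommRing k] {Γ Γ' : Type*} [Group Γ] [Group Γ'] {f : Γ' →* Γ}
variable {V W : Type*} [AddCommGroup V] [Module k V] [AddCommGroup W] [Module k W]
variable {χ : Γ →* kˣ} {ρ : Representation k Γ V} {σ : Representation k Γ W}
variable {V' W' : Type*} [AddCommGroup V'] [Module k V'] [AddCommGroup W'] [Module k W']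
variable {χ' : Γ' →* kˣ} {ρ' : Representation k Γ' V'} {σ' : Representation k Γ' W'}

theorem pp2_cup11 (P : Pairing χ ρ σ) (P' : Pairing χ' ρ' σ') {φ : V →ₗ[k] V'} {ψ : W →ₗ[k] W'}
    (hψ : Equivariant σ σ' f ψ) (he : ∀ v w, P'.e (φ v) (ψ w) = P.e v w)
    (a : Γ → V) (b : Γ → W) :
    pp2 f (LinearMap.id : k →ₗ[k] k) (cup11 P a b) = cup11 P' (pp1 f φ a) (pp1 f ψ b) := by
  funext ⟨g, h⟩
  simp [cup11, ← hψ g, he]

theorem pp2_cup20 (P : Pairing χ ρ σ) (P' : Pairing χ' ρ' σ') {φ : V →ₗ[k] V'} {ψ : W →ₗ[k] W'}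
    (hψ : Equivariant σ σ' f ψ) (he : ∀ v w, P'.e (φ v) (ψ w) = P.e v w)
    (a : Γ × Γ → V) (w : W) :
    pp2 f (LinearMap.id : k →ₗ[k] k) (cup20 P a w) = cup20 P' (pp2 f φ a) (ψ w) := by
  funext ⟨g, h⟩
  simp [cup20, ← map_mul, ← hψ (g * h), he]

theorem equivariant_id_comp (ρ : Representation k Γ V) (f : Γ' →* Γ) :
    Equivariant ρ (ρ.comp f) f LinearMap.id := fun _ _ => rfl

theorem pp2_cup11_comp (P : Pairing χ ρ σ) (a : Γ → V) (b : Γ → W) :
    pp2 f (LinearMap.id : k →ₗ[k] k) (cup11 P a b) = cup11 (P.comp f) (pp1 f (LinearMap.id : V →ₗ[k] V) a) (pp1 f (LinearMap.id : W →ₗ[k] W) b) :=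
  pp2_cup11 P (P.comp f) (φ := LinearMap.id) (ψ := LinearMap.id) (equivariant_id_comp σ f)
    (fun _ _ => rfl) a b

theorem pp2_cup20_comp (P : Pairing χ ρ σ) (a : Γ × Γ → V) (w : W) :
    pp2 f (LinearMap.id : k →ₗ[k] k) (cup20 P a w) = cup20 (P.comp f) (pp2 f (LinearMap.id : V →ₗ[k] V) a) w :=
  pp2_cup20 P (P.comp f) (φ := LinearMap.id) (ψ := LinearMap.id) (equivariant_id_comp σ f)
    (fun _ _ => rfl) a w

end pullback

end FLTA.PT

end
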