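import Fermat.Agent.PoitouTate.LocalDualitySum

/-!
# Dévissage: local duality for `p`-group actions on `μ_p`-trivial subgroups
-/

set_option autoImplicit false

open ExtCitation Module

noncomputable section

namespace FLTA.PT

variable (p : ℕ) [Fact p.Prime] (q : Nat.Primes) {D : Subgroup (Gl q)}
variable {V W : Type} [AddCommGroup V] [Module (ZMod p) V] [AddCommGroup W] [Module (ZMod p) W]
variable {ρ : Representation (ZMod p) D V} {σ : Representation (ZMod p) D W}

/-- Left nondegeneracy of the `(1,1)` cup product. -/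
def NondegH1 (P : Pairing (chiD p q D) ρ σ) : Prop :=
  ∀ a ∈ Z1 (lvD q D) ρ, (∀ b ∈ Z1 (lvD q D) σ, cup11 P a b ∈ B2 (lvD q D) (muD p q D)) →
    a ∈ B1 ρ

/-- Left nondegeneracy of the `(2,0)` cup product. -/
def InjH2 (P : Pairing (chiD p q D) ρ σ) : Prop :=
  ∀ a ∈ Z2 (lvD q D) ρ,
    (∀ w, (∀ g, σ g w = w) → cup20 P a w ∈ B2 (lvD q D) (muD p q D)) → a ∈ B2 (lvD q D) ρ

/-- `ρ` factors through a `p`-group quotient at some level. -/
def PAct (ρ : Representation (ZMod p) D V) : Prop :=
  ∃ U ∈ lvlLoc q, U ≤ D ∧ (∀ g : D, (g : Gl q) ∈ U → ρ g = 1) ∧ ∃ n, U.relIndex D = p ^ n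

theorem exists_fixed_ne_zero [Finite V] [Nontrivial V] (h : PAct p q ρ) :
    ∃ v : V, v ≠ 0 ∧ ∀ g, ρ g v = v := by
  obtain ⟨U, hU, -, htriv, n, hn⟩ := h
  haveI := (lvlLoc q).normal_of_mem U hU
  have hG : IsPGroup p (D ⧸ U.subgroupOf D) := IsPGroup.of_card hn
  haveI : Finite (D ⧸ U.subgroupOf D) := finite_cosets q ⟨U, hU, le_rfl⟩ D
  let φ : D ⧸ U.subgroupOf D →* Module.End (ZMod p) V :=
    QuotientGroup.lift (U.subgroupOf D) ρ fun g hg => MonoidHom.mem_ker.2 (htriv g hg)
  letI : MulAction (D ⧸ U.subgroupOf D) V := MulAction.compHom V φ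
  have hcard : p ∣ Nat.card V := by
    rw [Module.natCard_eq_pow_finrank (K := ZMod p), Nat.card_zmod]
    exact dvd_pow_self p Module.finrank_pos.ne'
  obtain ⟨v, hv, hne⟩ := hG.exists_fixed_point_of_prime_dvd_card_of_fixed_point V hcard
    (a := (0 : V)) (fun g => map_zero (φ g))
  exact ⟨v, Ne.symm hne, fun g => hv (g : D ⧸ U.subgroupOf D)⟩

theorem perfect_of_injective [Finite V] [Finite W] {χ : D →* (ZMod p)ˣ}
    (P : Pairing χ ρ σ) (h₁ : Function.Injective P.e) (h₂ : Function.Injective P.e.flip) :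
    P.Perfect := by
  have d₁ := LinearMap.finrank_le_finrank_of_injective h₁
  have d₂ := LinearMap.finrank_le_finrank_of_injective h₂
  simp only [Subspace.dual_finrank_eq] at d₁ d₂
  exact ⟨⟨h₁, (LinearMap.injective_iff_surjective_of_finrank_eq_finrank
      (by rw [Subspace.dual_finrank_eq]; omega)).1 h₁⟩, ⟨h₂,
    (LinearMap.injective_iff_surjective_of_finrank_eq_finrank
      (by rw [Subspace.dual_finrank_eq]; omega)).1 h₂⟩⟩

theorem finrank_eq_of_perfect [Finite V] [Finite W] {χ : D →* (ZMod p)ˣ} {P : Pairing χ ρ σ}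
    (h : P.Perfect) : finrank (ZMod p) V = finrank (ZMod p) W := by
  rw [(LinearEquiv.ofBijective P.e h.1).finrank_eq, Subspace.dual_finrank_eq]

theorem PAct.of_pairing (hμ : MuTrivial p q D) (P : Pairing (chiD p q D) ρ σ) (hP : P.Perfect)
    (h : PAct p q ρ) : PAct p q σ := by
  obtain ⟨U, hU, hUD, htriv, hn⟩ := h
  refine ⟨U, hU, hUD, fun g hg => LinearMap.ext fun w => hP.2.1 (LinearMap.ext fun v => ?_), hn⟩
  have e := P.equivariant g v w
  rw [htriv g hg, hμ g, Units.val_one, one_mul, Module.End.one_apply] at e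
  exact e

/-- The line pairing on characters, as a bilinear form. -/
theorem exists_form (hD : IsOpenLvl (lvlLoc q) D) (hμ : MuTrivial p q D) :
    ∃ β : Z1 (lvD q D) (muD p q D) →ₗ[ZMod p] Z1 (lvD q D) (muD p q D) →ₗ[ZMod p] ZMod p,
      ∀ a b, β a b = 0 ↔ cupD p q hμ a b ∈ B2 (lvD q D) (muD p q D) := by
  obtain ⟨ψ, hψ, φ, hφ, hne⟩ := exists_generator p q hD hμ
  set B := B2 (lvD q D) (muD p q D)
  set G := cupD p q hμ ψ φ
  choose t ht using fun a b : Z1 (lvD q D) (muD p q D) =>
    inLine_cupD p q hD hμ hψ hφ a.2 b.2 hne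
  have uniq : ∀ (a b : Z1 (lvD q D) (muD p q D)) (s : ZMod p),
      cupD p q hμ a b - s • G ∈ B → t a b = s := fun a b s hs => by
    by_contra hts
    have h1 := B.sub_mem hs (ht a b)
    rw [sub_sub_sub_cancel_left, ← sub_smul] at h1
    have h2 := B.smul_mem (t a b - s)⁻¹ h1
    rw [smul_smul, inv_mul_cancel₀ (sub_ne_zero.2 hts), one_smul] at h2
    exact hne h2
  refine ⟨LinearMap.mk₂ (ZMod p) t (fun a a' b => uniq _ _ _ ?_) (fun c a b => uniq _ _ _ ?_)
    (fun a b b' => uniq _ _ _ ?_) (fun c a b => uniq _ _ _ ?_), fun a b => ?_⟩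
  · have h1 := B.add_mem (ht a b) (ht a' b)
    simp only [cupD, Submodule.coe_add, cup11_add_left, add_smul]
    convert h1 using 1
    abel
  · have h1 := B.smul_mem c (ht a b)
    simp only [cupD, Submodule.coe_smul, cup11_smul_left, smul_eq_mul, ← smul_smul, ← smul_sub]
    exact h1
  · have h1 := B.add_mem (ht a b) (ht a b')
    simp only [cupD, Submodule.coe_add, cup11_add_right, add_smul]
    convert h1 using 1
    abel
  · have h1 := B.smul_mem c (ht a b)
    simp only [cupD, Submodule.coe_smul, cup11_smul_right, smul_eq_mul, ← smul_smul, ← smul_sub]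
    exact h1
  · rw [LinearMap.mk₂_apply]
    refine ⟨fun h => ?_, fun h => uniq _ _ _ (by rwa [zero_smul, sub_zero])⟩
    have := ht a b
    rwa [h, zero_smul, sub_zero] at this

/-- Double annihilators for the cup product on characters. -/
theorem mem_of_forall_annihilated (hD : IsOpenLvl (lvlLoc q) D) (hμ : MuTrivial p q D)
    (U : Submodule (ZMod p) (Z1 (lvD q D) (muD p q D))) (c : Z1 (lvD q D) (muD p q D))
    (h : ∀ y : Z1 (lvD q D) (muD p q D),
      (∀ u ∈ U, cupD p q hμ u y ∈ B2 (lvD q D) (muD p q D)) →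
      cupD p q hμ c y ∈ B2 (lvD q D) (muD p q D)) : c ∈ U := by
  obtain ⟨β, hβ⟩ := exists_form p q hD hμ
  haveI := finite_Z1_muD p q hD hμ
  have hinj : Function.Injective β.flip := fun y y' hy => by
    by_contra hne
    obtain ⟨φ, hφ, hφ'⟩ := exists_cupD_not_mem p q hD hμ (y - y').2
      (fun h0 => hne (sub_eq_zero.1 (Subtype.ext h0)))
    apply hφ'
    have h1 : β ⟨φ, hφ⟩ (y - y') = 0 := by
      rw [map_sub, sub_eq_zero]
      exact LinearMap.congr_fun hy ⟨φ, hφ⟩
    simpa using (B2 (lvD q D) (muD p q D)).sub_mem (cupD_symm p q hμ hφ (y - y').2)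
      ((hβ _ _).1 h1)
  have hsurj := (LinearMap.injective_iff_surjective_of_finrank_eq_finrank
    Subspace.dual_finrank_eq.symm).1 hinj
  by_contra hc
  obtain ⟨f, hf, hfU⟩ := Submodule.exists_dual_map_eq_bot_of_notMem hc inferInstance
  obtain ⟨y, rfl⟩ := hsurj f
  refine hf ((hβ c y).2 (h y fun u hu => (hβ u y).1 ?_))
  have : β.flip y u ∈ U.map (β.flip y) := ⟨u, hu, rfl⟩
  rwa [hfU] at this

/-- The hypotheses and auxiliary data of one dévissage step. -/
structure Step (P : Pairing (chiD p q D) ρ σ) where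
  v₀ : V
  w₀ : W
  fixed : ∀ g, ρ g v₀ = v₀
  e_eq : P.e v₀ w₀ = 1

variable {p q} {P : Pairing (chiD p q D) ρ σ} (s : Step p q P)

/-- The fixed line. -/
abbrev Step.A : Submodule (ZMod p) V := Submodule.span (ZMod p) {s.v₀}

/-- The orthogonal of the fixed line. -/
abbrev Step.K : Submodule (ZMod p) W := LinearMap.ker (P.e s.v₀)

theorem Step.stableA (g : D) : s.A ≤ s.A.comap (ρ g) := by
  rw [Submodule.span_le, Set.singleton_subset_iff]
  show ρ g s.v₀ ∈ s.A
  rw [s.fixed g]
  exact Submodule.mem_span_singleton_self _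

theorem Step.stableK (hμ : MuTrivial p q D) (g : D) : ∀ w ∈ s.K, σ g w ∈ s.K := fun w hw => by
  rw [LinearMap.mem_ker] at hw ⊢
  rw [← s.fixed g, P.equivariant, hw, mul_zero]

/-- The quotient representation. -/
def Step.repB : Representation (ZMod p) D (V ⧸ s.A) where
  toFun g := Submodule.mapQ s.A s.A (ρ g) (s.stableA g)
  map_one' := by ext x; simp
  map_mul' g h := by ext x; simp

@[simp] theorem Step.repB_mk (g : D) (v : V) :
    s.repB g (Submodule.Quotient.mk v) = Submodule.Quotient.mk (ρ g v) := rfl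

/-- The orthogonal subrepresentation. -/
def Step.repK (hμ : MuTrivial p q D) : Representation (ZMod p) D s.K where
  toFun g := (σ g).restrict (s.stableK hμ g)
  map_one' := by ext x; simp
  map_mul' g h := by ext x; simp

@[simp] theorem Step.coe_repK (hμ : MuTrivial p q D) (g : D) (w : s.K) :
    ((s.repK hμ g w : s.K) : W) = σ g w := rfl

/-- The induced pairing. -/
def Step.pairB (hμ : MuTrivial p q D) : Pairing (chiD p q D) s.repB (s.repK hμ) where
  e := Submodule.liftQ s.A (P.e.compl₂ s.K.subtype) (by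
    rw [Submodule.span_le, Set.singleton_subset_iff]
    exact LinearMap.ext fun w => w.2)
  equivariant g v w := by
    induction v using Submodule.Quotient.induction_on with
    | H v => simpa using P.equivariant g v w

@[simp] theorem Step.pairB_mk (hμ : MuTrivial p q D) (v : V) (w : s.K) :
    (s.pairB hμ).e (Submodule.Quotient.mk v) w = P.e v w := rfl

theorem Step.perfect (hμ : MuTrivial p q D) [Finite V] [Finite W] (hP : P.Perfect) :
    (s.pairB hμ).Perfect := by
  haveI : Finite (V ⧸ s.A) := Finite.of_surjective _ s.A.mkQ_surjective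
  refine perfect_of_injective p q _ ?_ ?_
  · rw [← LinearMap.ker_eq_bot, Submodule.eq_bot_iff]
    intro v hv
    induction v using Submodule.Quotient.induction_on with
    | H v =>
      rw [Submodule.Quotient.mk_eq_zero, Submodule.mem_span_singleton]
      refine ⟨P.e v s.w₀, hP.1.1 (LinearMap.ext fun w => ?_)⟩
      have hw : w - P.e s.v₀ w • s.w₀ ∈ s.K := by
        rw [LinearMap.mem_ker, map_sub, map_smul, s.e_eq, smul_eq_mul, mul_one, sub_self]
      have h0 : P.e v (w - P.e s.v₀ w • s.w₀) = 0 := LinearMap.congr_fun hv ⟨_, hw⟩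
      rw [map_sub, map_smul, sub_eq_zero] at h0
      rw [map_smul, LinearMap.smul_apply, h0, smul_eq_mul, smul_eq_mul, mul_comm]
  · intro w w' h
    refine Subtype.ext (hP.2.1 (LinearMap.ext fun v => ?_))
    exact LinearMap.congr_fun h (Submodule.Quotient.mk v)

theorem Step.finrank_lt [Finite V] [Finite W] :
    finrank (ZMod p) (V ⧸ s.A) < finrank (ZMod p) V := by
  have h0 : s.v₀ ≠ 0 := fun h => by simpa [h] using s.e_eq
  have := Submodule.finrank_quotient_add_finrank s.A
  have h1 : finrank (ZMod p) s.A = 1 := finrank_span_singleton h0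
  omega

theorem Step.smoothB (hρ : Smooth (lvD q D) ρ) : Smooth (lvD q D) s.repB := fun v => by
  induction v using Submodule.Quotient.induction_on with
  | H v =>
    obtain ⟨U, hU, h⟩ := hρ v
    exact ⟨U, hU, fun g hg => by rw [s.repB_mk, h g hg]⟩

theorem Step.smoothK (hμ : MuTrivial p q D) (hσ : Smooth (lvD q D) σ) :
    Smooth (lvD q D) (s.repK hμ) := fun w => by
  obtain ⟨U, hU, h⟩ := hσ w
  exact ⟨U, hU, fun g hg => Subtype.ext (h g hg)⟩

theorem Step.pactB (h : PAct p q ρ) : PAct p q s.repB := by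
  obtain ⟨U, hU, hUD, htriv, hn⟩ := h
  refine ⟨U, hU, hUD, fun g hg => ?_, hn⟩
  ext v
  simp [htriv g hg]

/-- The projection to the quotient. -/
theorem Step.equivariant_mkQ : Equivariant ρ s.repB (MonoidHom.id D) s.A.mkQ := fun _ _ => rfl

/-- The inclusion of the fixed line. -/
def Step.incl : ZMod p →ₗ[ZMod p] V := LinearMap.toSpanSingleton (ZMod p) V s.v₀

theorem Step.equivariant_incl (hμ : MuTrivial p q D) :
    Equivariant (muD p q D) ρ (MonoidHom.id D) s.incl := fun g c => by
  simp [Step.incl, s.fixed, hμ g]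

theorem Step.eq_incl_of_mkQ_eq_zero {v : V} (h : s.A.mkQ v = 0) :
    v = s.incl (P.e v s.w₀) := by
  rw [Submodule.mkQ_apply, Submodule.Quotient.mk_eq_zero, Submodule.mem_span_singleton] at h
  obtain ⟨c, rfl⟩ := h
  simp [Step.incl, s.e_eq]

theorem Step.incl_injective : Function.Injective s.incl := fun c c' h => by
  have := congrArg (fun v => P.e v s.w₀) h
  simpa [Step.incl, s.e_eq] using this

end FLTA.PT

end
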