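import Fermat.Agent.PoitouTate.LocalDualityLine

/-!
# `H²(D, μ_p)` is one-dimensional; injectivity of sum maps
-/

set_option autoImplicit false

open ExtCitation

noncomputable section

namespace FLTA.PT

variable (p : ℕ) [Fact p.Prime] (q : Nat.Primes)

theorem resD2_mem_Z2 {D' D : Subgroup (Gl q)} (h : D' ≤ D) {z : D × D → ZMod p}
    (hz : z ∈ Z2 (lvD q D) (muD p q D)) : resD2 (k := ZMod p) q h z ∈ Z2 (lvD q D') (muD p q D') :=
  pp2_mem_Z2 (lvlLE_incl q h) (fun _ _ => rfl) hz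

theorem resD2_mem_B2 {D' D : Subgroup (Gl q)} (h : D' ≤ D) {z : D × D → ZMod p}
    (hz : z ∈ B2 (lvD q D) (muD p q D)) : resD2 (k := ZMod p) q h z ∈ B2 (lvD q D') (muD p q D') :=
  pp2_mem_B2 (lvlLE_incl q h) (fun _ _ => rfl) hz

theorem resD1_mem_Z1 {D' D : Subgroup (Gl q)} (h : D' ≤ D) {z : D → ZMod p}
    (hz : z ∈ Z1 (lvD q D) (muD p q D)) : resD1 (k := ZMod p) q h z ∈ Z1 (lvD q D') (muD p q D') :=
  pp1_mem_Z1 (lvlLE_incl q h) (fun _ _ => rfl) hz

theorem resD2_cupD {D' D : Subgroup (Gl q)} (h : D' ≤ D) (hμ : MuTrivial p q D)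
    (ψ φ : D → ZMod p) :
    resD2 (k := ZMod p) q h (cupD p q hμ ψ φ) =
      cupD p q (muTrivial_mono p q hμ h) (resD1 (k := ZMod p) q h ψ) (resD1 (k := ZMod p) q h φ) :=
  pp2_cup11_comp (f := Subgroup.inclusion h) (mulPairing (chiD p q D) hμ) ψ φ

theorem isUnit_cast_of_not_dvd {n : ℕ} (h : ¬ p ∣ n) : IsUnit (n : ZMod p) :=
  IsUnit.mk0 _ fun h0 => h ((ZMod.natCast_eq_zero_iff n p).1 h0)

/-- Restriction to an open subgroup of index prime to `p` is injective. -/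
theorem mem_B2_of_resD2 {D' D : Subgroup (Gl q)} (hD' : IsOpenLvl (lvlLoc q) D') (hle : D' ≤ D)
    (hidx : ¬ p ∣ D'.relIndex D) {z : D × D → ZMod p} (hz : z ∈ Z2 (lvD q D) (muD p q D))
    (hres : resD2 (k := ZMod p) q hle z ∈ B2 (lvD q D') (muD p q D')) : z ∈ B2 (lvD q D) (muD p q D) := by
  haveI : Finite (cosets q D' D) := finite_cosets q hD' D
  letI := Fintype.ofFinite (cosets q D' D)
  refine (isPoint_one q hle).mem_B2_of_res (isOpenLvl_stabilizer_cosets q hD')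
    (transitive_cosets q D' D) (smooth_muD p q D) ?_ hz ?_
  · rw [← Nat.card_eq_fintype_card]
    exact isUnit_cast_of_not_dvd p (by rwa [card_cosets])
  · rw [lvD_comap]
    exact hres

theorem exists_generator {D : Subgroup (Gl q)} (hD : IsOpenLvl (lvlLoc q) D)
    (hμ : MuTrivial p q D) :
    ∃ ψ ∈ Z1 (lvD q D) (muD p q D), ∃ φ ∈ Z1 (lvD q D) (muD p q D),
      cupD p q hμ ψ φ ∉ B2 (lvD q D) (muD p q D) := by
  obtain ⟨ψ, hψ, h0⟩ := exists_Z1_ne_zero p q hD hμ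
  obtain ⟨φ, hφ, h⟩ := exists_cupD_not_mem p q hD hμ hψ h0
  exact ⟨ψ, hψ, φ, hφ, h⟩

/-- A `p`-group of order `p^(n+1)` has a normal subgroup of index `p`. -/
theorem exists_normal_index_p {G : Type*} [Group G] [Finite G] {n : ℕ}
    (hG : Nat.card G = p ^ (n + 1)) :
    ∃ χ : G →* Multiplicative (ZMod p), Function.Surjective χ := by
  haveI : NeZero p := ⟨(Fact.out : p.Prime).ne_zero⟩
  obtain ⟨K, hK⟩ := Sylow.exists_subgroup_card_pow_prime (G := G) p (n := n)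
    (by rw [hG]; exact pow_dvd_pow p n.le_succ)
  have hidx : K.index = p := by
    have := K.card_mul_index
    rw [hK, hG, pow_succ] at this
    exact mul_left_cancel₀ (pow_ne_zero _ (Fact.out : p.Prime).ne_zero) this
  haveI : K.Normal := Subgroup.normal_of_index_eq_minFac_card
    (by rw [hidx, hG, Nat.Prime.pow_minFac Fact.out (Nat.succ_ne_zero n)])
  let e : G ⧸ K ≃* Multiplicative (ZMod p) := mulEquivOfPrimeCardEq
    (p := p) hidx (by rw [Nat.card_eq_fintype_card, Fintype.card_multiplicative, ZMod.card])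
  exact ⟨e.toMonoidHom.comp (QuotientGroup.mk' K), e.surjective.comp (QuotientGroup.mk'_surjective K)⟩

/-- Evaluation of cochains of functions on cosets at the base coset. -/
abbrev evD2 {D' D : Subgroup (Gl q)} (h : D' ≤ D) :
    (D × D → cosets q D' D → ZMod p) →ₗ[ZMod p] (D' × D' → ZMod p) :=
  pp2 (Subgroup.inclusion h)
    (LinearMap.proj (R := ZMod p) (φ := fun _ : cosets q D' D => ZMod p) ((1 : D) : cosets q D' D))

/-- Evaluation in degree 1. -/
abbrev evD1 {D' D : Subgroup (Gl q)} (h : D' ≤ D) :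
    (D → cosets q D' D → ZMod p) →ₗ[ZMod p] (D' → ZMod p) :=
  pp1 (Subgroup.inclusion h)
    (LinearMap.proj (R := ZMod p) (φ := fun _ : cosets q D' D => ZMod p) ((1 : D) : cosets q D' D))

theorem equivariant_evD {D' D : Subgroup (Gl q)} (h : D' ≤ D) :
    Equivariant (funRep (muD p q D) (cosets q D' D)) (muD p q D') (Subgroup.inclusion h)
      (LinearMap.proj (R := ZMod p) (φ := fun _ : cosets q D' D => ZMod p)
        ((1 : D) : cosets q D' D)) :=
  fun g F => equivariant_projPt (ρ := muD p q D) _ _ (isPoint_one q h).fix g F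

theorem evD1_mem_Z1 {D' D : Subgroup (Gl q)} (h : D' ≤ D) {C : D → cosets q D' D → ZMod p}
    (hC : C ∈ Z1 (lvD q D) (funRep (muD p q D) (cosets q D' D))) :
    evD1 p q h C ∈ Z1 (lvD q D') (muD p q D') :=
  pp1_mem_Z1 (ρ := funRep (muD p q D) (cosets q D' D)) (σ := muD p q D') (lvlLE_incl q h)
    (equivariant_evD p q h) hC

theorem evD2_mem_B2 {D' D : Subgroup (Gl q)} (h : D' ≤ D)
    {C : D × D → cosets q D' D → ZMod p}
    (hC : C ∈ B2 (lvD q D) (funRep (muD p q D) (cosets q D' D))) :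
    evD2 p q h C ∈ B2 (lvD q D') (muD p q D') :=
  pp2_mem_B2 (ρ := funRep (muD p q D) (cosets q D' D)) (σ := muD p q D') (lvlLE_incl q h)
    (equivariant_evD p q h) hC

theorem evD2_const {D' D : Subgroup (Gl q)} (h : D' ≤ D) (z : D × D → ZMod p) :
    evD2 p q h (pp2 (MonoidHom.id D) (constMap (k := ZMod p) (cosets q D' D)) z) =
      resD2 (k := ZMod p) q h z := by
  funext ⟨g, g'⟩
  rfl

theorem inLine_fun_of_eval {D' D : Subgroup (Gl q)} (hD' : IsOpenLvl (lvlLoc q) D') (hle : D' ≤ D)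
    {C C₀ : D × D → cosets q D' D → ZMod p}
    (hC : C ∈ Z2 (lvD q D) (funRep (muD p q D) (cosets q D' D)))
    (hC₀ : C₀ ∈ Z2 (lvD q D) (funRep (muD p q D) (cosets q D' D)))
    (h : InLine (B2 (lvD q D') (muD p q D')) (evD2 p q hle C) (evD2 p q hle C₀)) :
    InLine (B2 (lvD q D) (funRep (muD p q D) (cosets q D' D))) C C₀ := by
  haveI : Finite (cosets q D' D) := finite_cosets q hD' D
  obtain ⟨t, ht⟩ := h
  refine ⟨t, (isPoint_one q hle).mem_B2_of_eval (isOpenLvl_stabilizer_cosets q hD')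
    (transitive_cosets q D' D) (smooth_muD p q D)
    (Submodule.sub_mem _ hC (Submodule.smul_mem _ t hC₀)) ?_⟩
  rw [lvD_comap, map_sub, map_smul]
  exact ht

/-- If some class has nonzero sum and the index is divisible by `p`, restriction kills. -/
theorem resD2_mem_B2_of_step {D' D : Subgroup (Gl q)} (hD' : IsOpenLvl (lvlLoc q) D')
    (hle : D' ≤ D) [Fintype (cosets q D' D)] (hidx : p ∣ D'.relIndex D)
    {C₀ : D × D → cosets q D' D → ZMod p}
    (hC₀ : C₀ ∈ Z2 (lvD q D) (funRep (muD p q D) (cosets q D' D)))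
    (hsum : pp2 (MonoidHom.id D) (sumMap (k := ZMod p) (cosets q D' D)) C₀ ∉
      B2 (lvD q D) (muD p q D))
    {z : D × D → ZMod p} (hz : z ∈ Z2 (lvD q D) (muD p q D))
    (h : InLine (B2 (lvD q D') (muD p q D')) (resD2 (k := ZMod p) q hle z) (evD2 p q hle C₀)) :
    resD2 (k := ZMod p) q hle z ∈ B2 (lvD q D') (muD p q D') := by
  have hconst : pp2 (MonoidHom.id D) (constMap (k := ZMod p) (cosets q D' D)) z ∈
      Z2 (lvD q D) (funRep (muD p q D) (cosets q D' D)) :=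
    pp2_mem_Z2 (lvlLE_id _) (equivariant_constMap (muD p q D) _) hz
  rw [← evD2_const p q hle z] at h
  obtain ⟨t, ht⟩ := inLine_fun_of_eval p q hD' hle hconst hC₀ h
  have h1 := pp2_mem_B2 (lvlLE_id _) (equivariant_sumMap (muD p q D) (cosets q D' D)) ht
  have hz0 : pp2 (MonoidHom.id D) (sumMap (k := ZMod p) (cosets q D' D))
      (pp2 (MonoidHom.id D) (constMap (k := ZMod p) (cosets q D' D)) z) = 0 := by
    funext ⟨g, g'⟩
    simp only [pp2_apply, sumMap_apply, MonoidHom.id_apply, constMap, LinearMap.coe_mk,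
      AddHom.coe_mk, Finset.sum_const, Finset.card_univ, nsmul_eq_mul, Pi.zero_apply]
    rw [← Nat.card_eq_fintype_card, card_cosets, (ZMod.natCast_eq_zero_iff _ p).2 hidx, zero_mul]
  rw [map_sub, map_smul, hz0, zero_sub, Submodule.neg_mem_iff] at h1
  have ht0 : t = 0 := by
    by_contra ht0
    exact hsum (by simpa [smul_smul, inv_mul_cancel₀ ht0] using Submodule.smul_mem _ t⁻¹ h1)
  subst ht0
  rw [zero_smul, sub_zero] at ht
  rw [← evD2_const p q hle z]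
  exact evD2_mem_B2 p q hle ht

/-- The pointwise class of a normal subgroup of index `p`. -/
theorem exists_C0 {D : Subgroup (Gl q)} (hD : IsOpenLvl (lvlLoc q) D) (hμ : MuTrivial p q D)
    {ψ₁ : D → ZMod p} (hψ₁ : ψ₁ ∈ Z1 (lvD q D) (muD p q D)) (h0 : ψ₁ ≠ 0) {D' : Subgroup (Gl q)}
    (hD'eq : D' = kerSub q (toChar p q hμ ψ₁ hψ₁)) (hle : D' ≤ D) [Fintype (cosets q D' D)] :
    ∃ C₀ ∈ Z2 (lvD q D) (funRep (muD p q D) (cosets q D' D)),
      pp2 (MonoidHom.id D) (sumMap (k := ZMod p) (cosets q D' D)) C₀ ∉ B2 (lvD q D) (muD p q D) ∧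
      ∃ a ∈ Z1 (lvD q D') (muD p q D'), ∃ b ∈ Z1 (lvD q D') (muD p q D'),
        evD2 p q hle C₀ = cupD p q (muTrivial_mono p q hμ hle) a b := by
  subst hD'eq
  obtain ⟨ψ, hψ, Φ, hΦ, hsum⟩ := exists_sum_not_mem p q hD hμ hψ₁ h0
  have hD' : IsOpenLvl (lvlLoc q) (kerSub q (toChar p q hμ ψ₁ hψ₁)) :=
    isOpenLvl_map q hD (isOpenLvl_ker_toChar p q hμ ψ₁ hψ₁)
  have hρ := smooth_muD p q D
  have hc := pp1_mem_Z1 (lvlLE_id (lvD q D))
    (equivariant_constMap (muD p q D) (cosets q (kerSub q (toChar p q hμ ψ₁ hψ₁)) D)) hψ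
  refine ⟨_, ?_, hsum, _, evD1_mem_Z1 p q hle hc, _, evD1_mem_Z1 p q hle hΦ, ?_⟩
  · exact pw11_mem_Z2 (mulPairing (chiD p q D) hμ) (smooth_funRep (lvD q D) (muD p q D) hρ
      (isOpenLvl_stabilizer_cosets q hD')) hc hΦ
  · rw [evD2, pp2_proj_pw11 (mulPairing (chiD p q D) hμ) (isPoint_one q hle).fix]
    funext ⟨g, g'⟩
    rfl

theorem inLine_of_killed : ∀ (n : ℕ) (D : Subgroup (Gl q)) (hD : IsOpenLvl (lvlLoc q) D)
    (hμ : MuTrivial p q D) (V : Subgroup (Gl q)) (_ : V ∈ lvlLoc q) (hVD : V ≤ D),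
    V.relIndex D = p ^ n → ∀ z ∈ Z2 (lvD q D) (muD p q D),
      resD2 (k := ZMod p) q hVD z ∈ B2 (lvD q V) (muD p q V) → ∀ ψ ∈ Z1 (lvD q D) (muD p q D),
      ∀ φ ∈ Z1 (lvD q D) (muD p q D), cupD p q hμ ψ φ ∉ B2 (lvD q D) (muD p q D) →
      InLine (B2 (lvD q D) (muD p q D)) z (cupD p q hμ ψ φ) := by
  intro n
  induction n with
  | zero =>
    intro D hD hμ V hV hVD hidx z hz hres ψ _ φ _ _
    rw [pow_zero, Subgroup.relIndex_eq_one] at hidx
    obtain rfl : V = D := le_antisymm hVD hidx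
    refine ⟨0, ?_⟩
    rw [zero_smul, sub_zero]
    exact hres
  | succ n ih =>
    intro D hD hμ V hV hVD hidx z hz hres ψ hψ φ hφ hne
    haveI := (lvlLoc q).normal_of_mem V hV
    have hVopen : IsOpenLvl (lvlLoc q) V := ⟨V, hV, le_rfl⟩
    haveI : Finite (D ⧸ V.subgroupOf D) := finite_cosets q hVopen D
    obtain ⟨χ₀, hs₀⟩ := exists_normal_index_p p (G := D ⧸ V.subgroupOf D) (n := n) hidx
    have hχ : IsOpenLvl (lvD q D) (χ₀.comp (QuotientGroup.mk' (V.subgroupOf D))).ker :=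
      isOpenLvl_mono (isOpenLvl_subgroupOf q hVopen) fun s hs => by
        rw [MonoidHom.mem_ker, MonoidHom.comp_apply, QuotientGroup.mk'_apply,
          (QuotientGroup.eq_one_iff s).2 hs, map_one]
    obtain ⟨ψ₁, hψ₁, hfun⟩ : ∃ ψ₁ ∈ Z1 (lvD q D) (muD p q D), ∀ g,
        ψ₁ g = ((χ₀.comp (QuotientGroup.mk' (V.subgroupOf D))) g).toAdd :=
      ⟨_, toAdd_mem_Z1 p q hD hμ hχ, fun _ => rfl⟩
    have hs : Function.Surjective (toChar p q hμ ψ₁ hψ₁) := fun y => by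
      obtain ⟨g, hg⟩ := (hs₀.comp (QuotientGroup.mk'_surjective _)) y
      exact ⟨g, Multiplicative.toAdd.injective ((hfun g).trans (congrArg _ hg))⟩
    have hVker : ∀ s : D, (s : Gl q) ∈ V → s ∈ (toChar p q hμ ψ₁ hψ₁).ker := fun s hs' => by
      rw [MonoidHom.mem_ker]
      apply Multiplicative.toAdd.injective
      refine (hfun s).trans ?_
      rw [MonoidHom.comp_apply, QuotientGroup.mk'_apply,
        (QuotientGroup.eq_one_iff s).2 hs', map_one]
    have h0 : ψ₁ ≠ 0 := fun h => by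
      haveI : Fact (1 < p) := ⟨(Fact.out : p.Prime).one_lt⟩
      obtain ⟨g, hg⟩ := hs (Multiplicative.ofAdd 1)
      have hg' : ψ₁ g = 1 := congrArg Multiplicative.toAdd hg
      rw [h, Pi.zero_apply] at hg'
      exact zero_ne_one hg'
    haveI : NeZero p := ⟨(Fact.out : p.Prime).ne_zero⟩
    set D' := kerSub q (toChar p q hμ ψ₁ hψ₁)
    have hle : D' ≤ D := kerSub_le q _
    have hD' : IsOpenLvl (lvlLoc q) D' :=
      isOpenLvl_map q hD (isOpenLvl_ker_toChar p q hμ ψ₁ hψ₁)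
    have hVD' : V ≤ D' := fun s hs' => ⟨⟨s, hVD hs'⟩, hVker _ hs', rfl⟩
    have hidxp : D'.relIndex D = p := relIndex_kerSub q _ hs
    have hidx' : V.relIndex D' = p ^ n := by
      have := Subgroup.relIndex_mul_relIndex V D' D hVD' hle
      rw [hidx, hidxp, pow_succ] at this
      exact mul_right_cancel₀ (Fact.out : p.Prime).ne_zero this
    haveI : Finite (cosets q D' D) := finite_cosets q hD' D
    letI := Fintype.ofFinite (cosets q D' D)
    obtain ⟨C₀, hC₀, hsum, ea, hea, eb, heb, heq⟩ := exists_C0 p q hD hμ hψ₁ h0 (D' := D') rfl hle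
    have hne0 : evD2 p q hle C₀ ∉ B2 (lvD q D') (muD p q D') := fun h =>
      hsum (pp2_mem_B2 (lvlLE_id _) (equivariant_sumMap (muD p q D) (cosets q D' D))
        ((isPoint_one q hle).mem_B2_of_eval (isOpenLvl_stabilizer_cosets q hD')
          (transitive_cosets q D' D) (smooth_muD p q D) hC₀ (by rw [lvD_comap]; exact h)))
    have hline := ih D' hD' (muTrivial_mono p q hμ hle) V hV hVD' hidx'
      (resD2 (k := ZMod p) q hle z) (resD2_mem_Z2 p q hle hz) hres ea hea eb heb (heq ▸ hne0)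
    rw [← heq] at hline
    have ht := resD2_mem_B2_of_step p q hD' hle (hidxp ▸ dvd_rfl) hC₀ hsum hz hline
    let e : (toChar p q hμ ψ₁ hψ₁).ker →* D' :=
      MonoidHom.mk' (fun g => ⟨(g : D), ⟨g, g.2, rfl⟩⟩) fun _ _ => rfl
    have hres' : pp2 (toChar p q hμ ψ₁ hψ₁).ker.subtype
        (LinearMap.id : ZMod p →ₗ[ZMod p] ZMod p) z ∈
        B2 ((lvD q D).comap (toChar p q hμ ψ₁ hψ₁).ker.subtype)
          ((muD p q D).comp (toChar p q hμ ψ₁ hψ₁).ker.subtype) :=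
      pp2_mem_B2 (f := e) (φ := (LinearMap.id : ZMod p →ₗ[ZMod p] ZMod p))
        (by rintro U ⟨W, hW, rfl⟩; exact ⟨W.comap D.subtype, ⟨W, hW, rfl⟩, rfl⟩)
        (fun _ _ => rfl) ht
    obtain ⟨φ₁, hφ₁, hzφ⟩ := exists_cupD_of_killed p q hD hμ hψ₁ h0 hz hres'
    exact (inLine_of_sub_mem hzφ).trans (inLine_cupD p q hD hμ hψ hφ hψ₁ hφ₁ hne)

theorem exists_killing_level {D : Subgroup (Gl q)} (hD : IsOpenLvl (lvlLoc q) D)
    (hμ : MuTrivial p q D) {z : D × D → ZMod p} (hz : z ∈ Z2 (lvD q D) (muD p q D)) :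
    ∃ V ∈ lvlLoc q, ∃ hV : V ≤ D, resD2 (k := ZMod p) q hV z ∈ B2 (lvD q V) (muD p q V) := by
  obtain ⟨_, ⟨V₀, hV₀, rfl⟩, hc⟩ := ((mem_Z2 _ _).1 hz).2
  obtain ⟨W, hW, hWD⟩ := hD
  refine ⟨V₀ ⊓ W, (lvlLoc q).inf_mem _ hV₀ _ hW, inf_le_right.trans hWD,
    (mem_B2 _ _).2 ⟨fun _ => z (1, 1), ⟨⊤, (lvD q _).top_mem, fun _ _ _ => rfl⟩, ?_⟩⟩
  funext ⟨g, g'⟩
  have h := hc 1 1 (Subgroup.inclusion (inf_le_right.trans hWD) g)
    (Subgroup.inclusion (inf_le_right.trans hWD) g') g.2.1 g'.2.1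
  simp only [one_mul] at h
  rw [pp2_apply, h, d1_apply, muD_apply_of_trivial p q
    (muTrivial_mono p q hμ (inf_le_right.trans hWD))]
  simp

theorem inLine_cupD_of_trivial {D : Subgroup (Gl q)} (hD : IsOpenLvl (lvlLoc q) D)
    (hμ : MuTrivial p q D) {z : D × D → ZMod p} (hz : z ∈ Z2 (lvD q D) (muD p q D))
    {ψ φ : D → ZMod p} (hψ : ψ ∈ Z1 (lvD q D) (muD p q D)) (hφ : φ ∈ Z1 (lvD q D) (muD p q D))
    (hne : cupD p q hμ ψ φ ∉ B2 (lvD q D) (muD p q D)) :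
    InLine (B2 (lvD q D) (muD p q D)) z (cupD p q hμ ψ φ) := by
  obtain ⟨V, hV, hVD, hres⟩ := exists_killing_level p q hD hμ hz
  haveI := (lvlLoc q).normal_of_mem V hV
  have hVopen : IsOpenLvl (lvlLoc q) V := ⟨V, hV, le_rfl⟩
  haveI : Finite (D ⧸ V.subgroupOf D) := finite_cosets q hVopen D
  obtain ⟨P⟩ : Nonempty (Sylow p (D ⧸ V.subgroupOf D)) := inferInstance
  set H := P.toSubgroup.comap (QuotientGroup.mk' (V.subgroupOf D))
  set D' := H.map D.subtype
  have hle : D' ≤ D := Subgroup.map_subtype_le _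
  have hVH : ∀ s : D, (s : Gl q) ∈ V → s ∈ H := fun s hs => by
    rw [Subgroup.mem_comap, QuotientGroup.mk'_apply, (QuotientGroup.eq_one_iff s).2 hs]
    exact P.one_mem
  have hVD' : V ≤ D' := fun s hs => ⟨⟨s, hVD hs⟩, hVH _ hs, rfl⟩
  have hD' : IsOpenLvl (lvlLoc q) D' := ⟨V, hV, hVD'⟩
  have hidx : D'.relIndex D = P.toSubgroup.index := by
    rw [Subgroup.relIndex, Subgroup.subgroupOf,
      Subgroup.comap_map_eq_self_of_injective D.subtype_injective,
      Subgroup.index_comap_of_surjective _ (QuotientGroup.mk'_surjective _)]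
  have hndvd : ¬ p ∣ D'.relIndex D := hidx ▸ P.not_dvd_index'
    (Subgroup.FiniteIndex.index_ne_zero)
  obtain ⟨n, hn⟩ := IsPGroup.iff_card.1 P.2
  have hidx' : V.relIndex D' = p ^ n := by
    have h := Subgroup.relIndex_mul_relIndex V D' D hVD' hle
    rw [hidx, show V.relIndex D = Nat.card (D ⧸ V.subgroupOf D) from rfl,
      ← P.toSubgroup.card_mul_index, hn] at h
    exact mul_right_cancel₀ Subgroup.FiniteIndex.index_ne_zero h
  obtain ⟨t, ht⟩ := inLine_of_killed p q n D' hD' (muTrivial_mono p q hμ hle) V hV hVD' hidx'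
    (resD2 (k := ZMod p) q hle z) (resD2_mem_Z2 p q hle hz) hres _ (resD1_mem_Z1 p q hle hψ) _
    (resD1_mem_Z1 p q hle hφ) (fun h => hne (mem_B2_of_resD2 p q hD' hle hndvd
      (cupD_mem_Z2 p q hμ hψ hφ) (by rw [resD2_cupD p q hle hμ]; exact h)))
  refine ⟨t, mem_B2_of_resD2 p q hD' hle hndvd
    ((Z2 (lvD q D) (muD p q D)).sub_mem hz ((Z2 (lvD q D) (muD p q D)).smul_mem t (cupD_mem_Z2 p q hμ hψ hφ))) ?_⟩
  rw [map_sub, map_smul, resD2_cupD p q hle hμ]
  exact ht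

theorem not_dvd_relIndex_muKer (D : Subgroup (Gl q)) :
    ¬ p ∣ (D ⊓ muKer p q).relIndex D := by
  rw [Subgroup.inf_relIndex_left, Subgroup.relIndex,
    show (muKer p q).subgroupOf D = (chiD p q D).ker from rfl, Subgroup.index_ker]
  intro h
  have := h.trans (Subgroup.card_subgroup_dvd_card (chiD p q D).range)
  rw [Nat.card_eq_fintype_card, ZMod.card_units] at this
  have h1 := Nat.le_of_dvd (by have := (Fact.out : p.Prime).two_le; omega) this
  have := (Fact.out : p.Prime).two_le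
  omega

/-- `H²(D, μ_p)` is at most a line. -/
theorem inLine_muD {D : Subgroup (Gl q)} (hD : IsOpenLvl (lvlLoc q) D) {z z' : D × D → ZMod p}
    (hz : z ∈ Z2 (lvD q D) (muD p q D)) (hz' : z' ∈ Z2 (lvD q D) (muD p q D))
    (hne : z' ∉ B2 (lvD q D) (muD p q D)) : InLine (B2 (lvD q D) (muD p q D)) z z' := by
  set D₀ := D ⊓ muKer p q
  have hle : D₀ ≤ D := inf_le_left
  have hD₀ : IsOpenLvl (lvlLoc q) D₀ := isOpenLvl_inf hD (isOpenLvl_muKer p q)
  have hμ₀ : MuTrivial p q D₀ := (muTrivial_iff p q).2 inf_le_right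
  have hndvd := not_dvd_relIndex_muKer p q D
  obtain ⟨ψ, hψ, φ, hφ, hg⟩ := exists_generator p q hD₀ hμ₀
  have h1 := inLine_cupD_of_trivial p q hD₀ hμ₀ (resD2_mem_Z2 p q hle hz) hψ hφ hg
  have h2 := (inLine_cupD_of_trivial p q hD₀ hμ₀ (resD2_mem_Z2 p q hle hz') hψ hφ hg).symm_of_not_mem
    fun h => hne (mem_B2_of_resD2 p q hD₀ hle hndvd hz' h)
  obtain ⟨t, ht⟩ := h1.trans h2
  refine ⟨t, mem_B2_of_resD2 p q hD₀ hle hndvd ((Z2 (lvD q D) (muD p q D)).sub_mem hz ((Z2 (lvD q D) (muD p q D)).smul_mem t hz')) ?_⟩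
  rw [map_sub, map_smul]
  exact ht

/-- `H²(D, μ_p)` is nonzero. -/
theorem exists_not_mem_B2 {D : Subgroup (Gl q)} (hD : IsOpenLvl (lvlLoc q) D) :
    ∃ z ∈ Z2 (lvD q D) (muD p q D), z ∉ B2 (lvD q D) (muD p q D) := by
  haveI : NeZero p := ⟨(Fact.out : p.Prime).ne_zero⟩
  obtain ⟨χ, hs, hχ⟩ := exists_char_ne_zero p q hD
  have hidx := relIndex_norms_kerSub q χ hD hχ hs
  obtain ⟨a, ha, hna⟩ := SetLike.not_le_iff_exists.1 fun hle =>
    (Fact.out : p.Prime).one_lt.ne (hidx ▸ (AddSubgroup.relIndex_eq_one.2 hle).symm :)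
  have ha' : a ∈ fixedBy (unitsD q D) ⊤ := fun s _ => ha s s.2
  have hpa : carry χ (p • a) ∈ B2 (lvD q D) (unitsD q D) := by
    obtain ⟨σ, hσ⟩ := hs (Multiplicative.ofAdd 1)
    rw [carry_mem_B2_iff_exists_norm (lvD q D) (unitsD q D) (smooth_unitsD q D) χ hχ
      (h1Vanishes_unitsD q hD hχ) σ hσ (Submodule.smul_of_tower_mem _ p ha')]
    exact ⟨a, fun s _ => ha s s.2, by
      rw [Finset.sum_congr rfl fun i _ => ha' (σ ^ i) trivial, Finset.sum_const,
        Finset.card_range]⟩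
  obtain ⟨y, ⟨U, hU, hy⟩, hyc⟩ := (mem_B2 _ _).1 hpa
  choose r hr using exists_pRoot p q
  set y' : D → Ml q := fun g => r (y g)
  have hy' : IsConst₁ (lvD q D) y' := ⟨U, hU, fun g s hs => congrArg r (hy g s hs)⟩
  set c := carry χ a - d1 (unitsD q D) y'
  have hc : c ∈ Z2 (lvD q D) (unitsD q D) := by
    obtain ⟨U₁, hU₁, h₁⟩ := (carry_mem_Z2 (lvD q D) (unitsD q D) χ hχ ha').2
    obtain ⟨U₂, hU₂, h₂⟩ := hy'
    refine ⟨LinearMap.mem_ker.2 (by
      rw [map_sub, LinearMap.mem_ker.1 (carry_mem_Z2 (lvD q D) (unitsD q D) χ hχ ha').1, d2_d1,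
        sub_zero]), ?_⟩
    obtain ⟨U₃, hU₃, h₃⟩ := exists_level_forall_eq (smooth_unitsD q D) hU₂ h₂
    refine ⟨U₁ ⊓ (U₂ ⊓ U₃), (lvD q D).inf_mem _ hU₁ _ ((lvD q D).inf_mem _ hU₂ _ hU₃),
      fun g g' s s' hs' hs'' => ?_⟩
    simp only [c, Pi.sub_apply, d1_apply, h₁ g g' s s' hs'.1 hs''.1]
    rw [h₂ g s hs'.2.1, h₂ g' s' hs''.2.1, map_mul, Module.End.mul_apply, h₃ g' s hs'.2.2]
    obtain ⟨s₁, hs₁, he⟩ := mul_mem_conj (g := g) (h := g') ((lvD q D).normal_of_mem U₂ hU₂) hs'.2.1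
    rw [← mul_assoc, he, mul_assoc, h₂ _ _ (U₂.mul_mem hs₁ hs''.2.1)]
  have hpc : ∀ g, p • c g = 0 := fun g => by
    have e : p • y' = y := funext fun g => hr (y g)
    have e2 : (p • d1 (unitsD q D) y') g = (carry χ (p • a) : D × D → Ml q) g := by
      rw [← map_nsmul, e, hyc]
    simp only [c, Pi.sub_apply, nsmul_sub]
    rw [Pi.smul_apply] at e2
    rw [e2]
    simp only [carry]
    rw [smul_comm, sub_self]
  choose w hw using fun g => exists_muU_of_nsmul_eq_zero p q (hpc g)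
  refine ⟨w, ?_, fun h => hna ?_⟩
  · obtain ⟨hc1, U', hU', hc2⟩ := (mem_Z2 _ _).1 hc
    refine (mem_Z2 _ _).2 ⟨fun g h j => muU_injective p q ?_, U', hU', fun g g' s s' hs hs' =>
      muU_injective p q ?_⟩
    · rw [map_add, map_add, ← unitsD_muU, hw, hw, hw, hw]
      exact hc1 g h j
    · rw [hw, hw]
      exact hc2 g g' s s' hs hs'
  · rw [Submodule.mem_toAddSubgroup, ← carry_mem_B2_iff_normsFrom q χ hD hχ hs ha]
    have h' : c ∈ B2 (lvD q D) (unitsD q D) := by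
      have := toU2_mem_B2 p q h
      rwa [show toU2 p q D w = c from funext hw] at this
    have hd : d1 (unitsD q D) y' ∈ B2 (lvD q D) (unitsD q D) := (mem_B2 _ _).2 ⟨y', hy', rfl⟩
    exact (Submodule.sub_mem_iff_left _ hd).1 h'

end FLTA.PT

end
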