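import Fermat.Agent.PoitouTate.LocalDualityDev

/-!
# Local duality by induction, for `p`-group actions
-/

set_option autoImplicit false

open ExtCitation Module

noncomputable section

namespace FLTA.PT

variable {p : ℕ} [Fact p.Prime] {q : Nat.Primes} {D : Subgroup (Gl q)}
variable {V W : Type} [AddCommGroup V] [Module (ZMod p) V] [AddCommGroup W] [Module (ZMod p) W]
variable {ρ : Representation (ZMod p) D V} {σ : Representation (ZMod p) D W}
variable {P : Pairing (chiD p q D) ρ σ} (s : Step p q P)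

theorem Step.cup11_pairB (hμ : MuTrivial p q D) (a : D → V) (b : D → s.K) :
    cup11 (s.pairB hμ) (pp1 (MonoidHom.id D) s.A.mkQ a) b =
      cup11 P a (pp1 (MonoidHom.id D) s.K.subtype b) := rfl

theorem Step.cup20_pairB (hμ : MuTrivial p q D) (a : D × D → V) (w : s.K) :
    cup20 (s.pairB hμ) (pp2 (MonoidHom.id D) s.A.mkQ a) w = cup20 P a (w : W) := rfl

/-- A set-theoretic section of the quotient map. -/
def Step.sec (x : V ⧸ s.A) : V := (Submodule.Quotient.mk_surjective s.A x).choose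

theorem Step.mkQ_sec (x : V ⧸ s.A) : s.A.mkQ (s.sec x) = x :=
  (Submodule.Quotient.mk_surjective s.A x).choose_spec

/-- Coordinates along the fixed line. -/
def Step.coord : V →ₗ[ZMod p] ZMod p := (LinearMap.applyₗ s.w₀).comp P.e

@[simp] theorem Step.coord_apply (v : V) : s.coord v = P.e v s.w₀ := rfl

theorem Step.incl_coord2 {a : D × D → V} (h : pp2 (MonoidHom.id D) s.A.mkQ a = 0) :
    pp2 (MonoidHom.id D) s.incl (fun g => s.coord (a g)) = a := by
  funext ⟨g, g'⟩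
  exact (s.eq_incl_of_mkQ_eq_zero (congrFun h (g, g'))).symm

theorem Step.incl_coord1 {a : D → V} (h : pp1 (MonoidHom.id D) s.A.mkQ a = 0) :
    pp1 (MonoidHom.id D) s.incl (fun g => s.coord (a g)) = a := by
  funext g
  exact (s.eq_incl_of_mkQ_eq_zero (congrFun h g)).symm

theorem Step.coord_mem_Z2 (hμ : MuTrivial p q D) {a : D × D → V} (ha : a ∈ Z2 (lvD q D) ρ)
    (h : pp2 (MonoidHom.id D) s.A.mkQ a = 0) :
    (fun g => s.coord (a g)) ∈ Z2 (lvD q D) (muD p q D) := by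
  obtain ⟨hz, U, hU, hc⟩ := (mem_Z2 _ _).1 ha
  refine (mem_Z2 _ _).2 ⟨fun g g' j => s.incl_injective ?_, U, hU,
    fun g g' t t' ht ht' => by simp [hc g g' t t' ht ht']⟩
  have e := fun x y => congrFun (s.incl_coord2 h) (x, y)
  simp only [pp2_apply, MonoidHom.id_apply] at e
  rw [map_add, map_add, show s.incl (muD p q D g _) = ρ g (s.incl _) from s.equivariant_incl hμ g _, e, e, e, e]
  exact hz g g' j

theorem Step.coord_mem_Z1 (hμ : MuTrivial p q D) {a : D → V} (ha : a ∈ Z1 (lvD q D) ρ)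
    (h : pp1 (MonoidHom.id D) s.A.mkQ a = 0) :
    (fun g => s.coord (a g)) ∈ Z1 (lvD q D) (muD p q D) := by
  obtain ⟨hz, U, hU, hc⟩ := (mem_Z1 _ _).1 ha
  refine (mem_Z1 _ _).2 ⟨fun g g' => s.incl_injective ?_, U, hU,
    fun g t ht => by simp [hc g t ht]⟩
  have e := fun x => congrFun (s.incl_coord1 h) x
  simp only [pp1_apply, MonoidHom.id_apply] at e
  rw [map_add, show s.incl (muD p q D g _) = ρ g (s.incl _) from s.equivariant_incl hμ g _, e, e, e]
  exact hz g g'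

theorem Step.cup20_incl (c : D × D → ZMod p) (w : W) (hw : ∀ g, σ g w = w) :
    cup20 P (pp2 (MonoidHom.id D) s.incl c) w = P.e s.v₀ w • c := by
  funext ⟨g, g'⟩
  simp [cup20, Step.incl, hw, mul_comm]

theorem Step.cup11_incl (hμ : MuTrivial p q D) (c : D → ZMod p) (b : D → W) :
    cup11 P (pp1 (MonoidHom.id D) s.incl c) b =
      cupD p q hμ c (fun g => P.e s.v₀ (b g)) := by
  funext ⟨g, g'⟩
  rw [cupD, cup11_mulPairing]
  have e := P.equivariant g s.v₀ (b g')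
  rw [s.fixed, hμ g, Units.val_one, one_mul] at e
  simp [cup11, Step.incl, e]

variable [Finite V] [Finite W]

theorem Step.injH2 (hD : IsOpenLvl (lvlLoc q) D) (hμ : MuTrivial p q D)
    (hρ : Smooth (lvD q D) ρ) (hσ : Smooth (lvD q D) σ)
    (IH2 : InjH2 p q (s.pairB hμ)) (IH1 : NondegH1 p q (s.pairB hμ).flip) : InjH2 p q P := by
  intro a ha hyp
  set B := B2 (lvD q D) (muD p q D)
  obtain ⟨x, hx, hxd⟩ := (mem_B2 _ _).1 (IH2 _ (pp2_mem_Z2 (lvlLE_id _) s.equivariant_mkQ ha)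
    fun w hw => by
      rw [s.cup20_pairB hμ]
      exact hyp _ fun g => congrArg Subtype.val (hw g))
  set x' : D → V := fun g => s.sec (x g)
  have hx' : IsConst₁ (lvD q D) x' := by
    obtain ⟨U, hU, h⟩ := hx
    exact ⟨U, hU, fun g t ht => by simp [x', h g t ht]⟩
  have hdx : d1 ρ x' ∈ B2 (lvD q D) ρ := (mem_B2 _ _).2 ⟨x', hx', rfl⟩
  have hproj : pp2 (MonoidHom.id D) s.A.mkQ (a - d1 ρ x') = 0 := by
    rw [map_sub, pp2_d1 s.equivariant_mkQ, sub_eq_zero]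
    refine hxd.symm.trans (congrArg _ (funext fun g => (s.mkQ_sec (x g)).symm))
  have hdxZ : d1 ρ x' ∈ Z2 (lvD q D) ρ := by
    refine ⟨LinearMap.mem_ker.2 (d2_d1 ρ x'), ?_⟩
    obtain ⟨U, hU, h⟩ := hx'
    obtain ⟨U', hU', h'⟩ := exists_level_forall_eq hρ hU h
    refine ⟨U ⊓ U', (lvD q D).inf_mem U hU U' hU', fun g g' t t' ht ht' => ?_⟩
    simp only [d1_apply]
    obtain ⟨t₁, ht₁, he⟩ := mul_mem_conj (g := g) (h := g') ((lvD q D).normal_of_mem U hU) ht.1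
    rw [h g t ht.1, h g' t' ht'.1, map_mul, Module.End.mul_apply, h' g' t ht.2, ← mul_assoc, he,
      mul_assoc, h _ _ (U.mul_mem ht₁ ht'.1)]
  have ha₁ : a - d1 ρ x' ∈ Z2 (lvD q D) ρ := (Z2 _ ρ).sub_mem ha hdxZ
  set c : D × D → ZMod p := fun g => s.coord ((a - d1 ρ x') g)
  have hc : c ∈ Z2 (lvD q D) (muD p q D) := s.coord_mem_Z2 hμ ha₁ hproj
  have hac : pp2 (MonoidHom.id D) s.incl c = a - d1 ρ x' := s.incl_coord2 hproj
  suffices hfin : pp2 (MonoidHom.id D) s.incl c ∈ B2 (lvD q D) ρ by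
    rw [hac] at hfin
    exact (Submodule.sub_mem_iff_left _ hdx).1 hfin
  by_cases hex : ∃ w : W, (∀ g, σ g w = w) ∧ P.e s.v₀ w ≠ 0
  · obtain ⟨w, hw, hne⟩ := hex
    have h1 : cup20 P (pp2 (MonoidHom.id D) s.incl c) w ∈ B := by
      rw [hac, cup20_sub_left]
      exact B.sub_mem (hyp w hw) (cup20_mem_B2_of_mem_B2 P hσ hdx hw)
    rw [s.cup20_incl c w hw] at h1
    refine pp2_mem_B2 (lvlLE_id _) (s.equivariant_incl hμ) ?_
    simpa [smul_smul, inv_mul_cancel₀ hne] using B.smul_mem (P.e s.v₀ w)⁻¹ h1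
  · push_neg at hex
    have hval : ∀ g, σ g s.w₀ - s.w₀ ∈ s.K := fun g => by
      have e := P.equivariant g s.v₀ s.w₀
      rw [s.fixed, hμ g, Units.val_one, one_mul, s.e_eq] at e
      rw [LinearMap.mem_ker, map_sub, e, s.e_eq, sub_self]
    set y : D → s.K := fun g => ⟨σ g s.w₀ - s.w₀, hval g⟩
    have hy : y ∈ Z1 (lvD q D) (s.repK hμ) := by
      obtain ⟨U, hU, h⟩ := hσ s.w₀
      refine (mem_Z1 _ _).2 ⟨fun g g' => Subtype.ext ?_, U, hU, fun g t ht => Subtype.ext ?_⟩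
      · simp [y, map_mul]
      · simp [y, map_mul, h t ht]
    have hyB : y ∉ B1 (s.repK hμ) := by
      rintro ⟨b, hb⟩
      have h1 := hex (s.w₀ - (b : W)) fun g => by
        have := congrArg Subtype.val (congrFun hb g)
        simp only [d0_apply, Submodule.coe_sub, s.coe_repK, y] at this
        rw [map_sub, ← sub_eq_zero]
        rw [eq_comm, ← sub_eq_zero] at this
        rw [← this]
        abel
      rw [map_sub, s.e_eq, LinearMap.mem_ker.1 b.2, sub_zero] at h1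
      exact one_ne_zero h1
    obtain ⟨ξ, hξ, hne⟩ : ∃ ξ ∈ Z1 (lvD q D) s.repB,
        cup11 (s.pairB hμ) ξ y ∉ B := by
      by_contra hcon
      push_neg at hcon
      exact hyB (IH1 y hy fun ξ hξ => (cup11_flip_mem_B2_iff (s.pairB hμ) hξ hy).2 (hcon ξ hξ))
    set ξ' : D → V := fun g => s.sec (ξ g)
    have hξ' : IsConst₁ (lvD q D) ξ' := by
      obtain ⟨U, hU, h⟩ := ((mem_Z1 _ _).1 hξ).2
      exact ⟨U, hU, fun g t ht => by simp [ξ', h g t ht]⟩
    have hprojξ : pp2 (MonoidHom.id D) s.A.mkQ (d1 ρ ξ') = 0 := by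
      rw [pp2_d1 s.equivariant_mkQ,
        show pp1 (MonoidHom.id D) s.A.mkQ ξ' = ξ from funext fun g => s.mkQ_sec (ξ g)]
      exact LinearMap.mem_ker.1 hξ.1
    have hdξ : d1 ρ ξ' ∈ B2 (lvD q D) ρ := (mem_B2 _ _).2 ⟨ξ', hξ', rfl⟩
    have hdξZ : d1 ρ ξ' ∈ Z2 (lvD q D) ρ := by
      refine ⟨LinearMap.mem_ker.2 (d2_d1 ρ ξ'), ?_⟩
      obtain ⟨U, hU, h⟩ := hξ'
      obtain ⟨U', hU', h'⟩ := exists_level_forall_eq hρ hU h
      refine ⟨U ⊓ U', (lvD q D).inf_mem U hU U' hU', fun g g' t t' ht ht' => ?_⟩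
      simp only [d1_apply]
      obtain ⟨t₁, ht₁, he⟩ := mul_mem_conj (g := g) (h := g') ((lvD q D).normal_of_mem U hU) ht.1
      rw [h g t ht.1, h g' t' ht'.1, map_mul, Module.End.mul_apply, h' g' t ht.2, ← mul_assoc, he,
        mul_assoc, h _ _ (U.mul_mem ht₁ ht'.1)]
    set c₁ : D × D → ZMod p := fun g => s.coord (d1 ρ ξ' g)
    have hc₁ : c₁ ∈ Z2 (lvD q D) (muD p q D) := s.coord_mem_Z2 hμ hdξZ hprojξ
    have hc₁' : pp2 (MonoidHom.id D) s.incl c₁ = d1 ρ ξ' := s.incl_coord2 hprojξ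
    have hne₁ : c₁ ∉ B := fun hB => hne (by
      have h1 : cup20 P (d1 ρ ξ') s.w₀ = c₁ := by
        funext ⟨g, g'⟩
        have e := congrFun hc₁' (g, g')
        have e2 := P.equivariant (g * g') s.v₀ s.w₀
        rw [s.fixed, hμ (g * g'), Units.val_one, one_mul, s.e_eq] at e2
        simp only [cup20, ← e, pp2_apply, MonoidHom.id_apply, Step.incl,
          LinearMap.toSpanSingleton_apply, map_smul, LinearMap.smul_apply, smul_eq_mul, e2, mul_one]
      have h2 : cup11 (s.pairB hμ) ξ y = cup11 P ξ' (d0 σ s.w₀) := by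
        rw [show ξ = pp1 (MonoidHom.id D) s.A.mkQ ξ' from
          funext fun g => (s.mkQ_sec (ξ g)).symm, s.cup11_pairB hμ]
        rfl
      rw [h2]
      have h3 : d1 (muD p q D) (cup10 P ξ' s.w₀) ∈ B :=
        (mem_B2 _ _).2 ⟨_, cup10_const P hσ hξ' s.w₀, rfl⟩
      rw [d1_cup10, h1] at h3
      exact (Submodule.sub_mem_iff_right _ hB).1 h3)
    obtain ⟨t, ht⟩ := inLine_muD p q hD hc hc₁ hne₁
    have h1 := pp2_mem_B2 (lvlLE_id _) (s.equivariant_incl hμ) ht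
    rw [map_sub, map_smul, hc₁'] at h1
    exact (Submodule.sub_mem_iff_left _ (Submodule.smul_mem _ t hdξ)).1 h1

theorem Step.nondegH1 (hD : IsOpenLvl (lvlLoc q) D) (hμ : MuTrivial p q D)
    (hρ : Smooth (lvD q D) ρ) (hσ : Smooth (lvD q D) σ)
    (IH1 : NondegH1 p q (s.pairB hμ)) (IH2 : InjH2 p q (s.pairB hμ).flip) : NondegH1 p q P := by
  intro a ha hyp
  set B := B2 (lvD q D) (muD p q D)
  obtain ⟨b₀, hb₀⟩ := IH1 _ (pp1_mem_Z1 (lvlLE_id _) s.equivariant_mkQ ha) fun b hb => by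
    rw [s.cup11_pairB hμ]
    exact hyp _ (pp1_mem_Z1 (lvlLE_id _) (fun _ _ => rfl) hb)
  set v := s.sec b₀
  have hdv : d0 ρ v ∈ Z1 (lvD q D) ρ := by
    refine ⟨LinearMap.mem_ker.2 (d1_d0 ρ v), ?_⟩
    obtain ⟨U, hU, h⟩ := hρ v
    exact ⟨U, hU, fun g t ht => by simp [map_mul, h t ht]⟩
  have hproj : pp1 (MonoidHom.id D) s.A.mkQ (a - d0 ρ v) = 0 := by
    rw [map_sub, pp1_d0 s.equivariant_mkQ, s.mkQ_sec, hb₀, sub_self]
  have ha₁ : a - d0 ρ v ∈ Z1 (lvD q D) ρ := (Z1 _ ρ).sub_mem ha hdv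
  set c : D → ZMod p := fun g => s.coord ((a - d0 ρ v) g)
  have hc : c ∈ Z1 (lvD q D) (muD p q D) := s.coord_mem_Z1 hμ ha₁ hproj
  have hac : pp1 (MonoidHom.id D) s.incl c = a - d0 ρ v := s.incl_coord1 hproj
  let U : Submodule (ZMod p) (Z1 (lvD q D) (muD p q D)) :=
    { carrier := {u | ∃ v' : V, pp1 (MonoidHom.id D) s.incl (u : D → ZMod p) = d0 ρ v'}
      add_mem' := fun ⟨v₁, h₁⟩ ⟨v₂, h₂⟩ => ⟨v₁ + v₂, by
        rw [Submodule.coe_add, map_add, h₁, h₂, map_add]⟩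
      zero_mem' := ⟨0, by simp⟩
      smul_mem' := fun r u ⟨v₁, h₁⟩ => ⟨r • v₁, by
        rw [Submodule.coe_smul, map_smul, h₁, map_smul]⟩ }
  suffices hcU : (⟨c, hc⟩ : Z1 (lvD q D) (muD p q D)) ∈ U by
    obtain ⟨v', hv'⟩ := hcU
    refine ⟨v' + v, ?_⟩
    rw [map_add, ← hv', show pp1 (MonoidHom.id D) s.incl
      ((⟨c, hc⟩ : Z1 (lvD q D) (muD p q D)) : D → ZMod p) = a - d0 ρ v from hac, sub_add_cancel]
  refine mem_of_forall_annihilated p q hD hμ U _ fun y hy => ?_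
  set y' : D → W := fun g => (y : D → ZMod p) g • s.w₀
  have hy' : IsConst₁ (lvD q D) y' := by
    obtain ⟨U', hU', h⟩ := ((mem_Z1 _ _).1 y.2).2
    exact ⟨U', hU', fun g t ht => by simp [y', h g t ht]⟩
  have hev : ∀ g w, P.e s.v₀ (σ g w) = P.e s.v₀ w := fun g w => by
    have e := P.equivariant g s.v₀ w
    rwa [s.fixed, hμ g, Units.val_one, one_mul] at e
  have hval : ∀ g, d1 σ y' g ∈ s.K := fun g => by
    obtain ⟨g, g'⟩ := g
    rw [LinearMap.mem_ker, d1_apply, map_add, map_sub, hev]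
    simp only [y', map_smul, s.e_eq, smul_eq_mul, mul_one]
    rw [((mem_Z1 _ _).1 y.2).1 g g', muD_apply_of_trivial p q hμ]
    abel
  set z : D × D → s.K := fun g => ⟨d1 σ y' g, hval g⟩
  have hz : z ∈ Z2 (lvD q D) (s.repK hμ) := by
    obtain ⟨U', hU', h⟩ := hy'
    obtain ⟨U'', hU'', h'⟩ := exists_level_forall_eq hσ hU' h
    refine (mem_Z2 _ _).2 ⟨fun g g' j => Subtype.ext ?_, U' ⊓ U'',
      (lvD q D).inf_mem _ hU' _ hU'', fun g g' t t' ht ht' => Subtype.ext ?_⟩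
    · simp only [z, Submodule.coe_add, s.coe_repK, d1_apply, map_mul, Module.End.mul_apply,
        map_add, map_sub, mul_assoc]
      abel
    · simp only [z, d1_apply]
      obtain ⟨t₁, ht₁, he⟩ := mul_mem_conj (g := g) (h := g') ((lvD q D).normal_of_mem U' hU') ht.1
      rw [h g t ht.1, h g' t' ht'.1, map_mul, Module.End.mul_apply, h' g' t ht.2, ← mul_assoc, he,
        mul_assoc, h _ _ (U'.mul_mem ht₁ ht'.1)]
  obtain ⟨r, hr, hrz⟩ := (mem_B2 _ _).1 (IH2 z hz fun vb hvb => by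
    set v' := s.sec vb
    have hproj' : pp1 (MonoidHom.id D) s.A.mkQ (d0 ρ v') = 0 := by
      rw [pp1_d0 s.equivariant_mkQ, s.mkQ_sec]
      funext g
      simp [hvb g]
    have hdv' : d0 ρ v' ∈ Z1 (lvD q D) ρ := by
      refine ⟨LinearMap.mem_ker.2 (d1_d0 ρ v'), ?_⟩
      obtain ⟨U', hU', h⟩ := hρ v'
      exact ⟨U', hU', fun g t ht => by simp [map_mul, h t ht]⟩
    set u : D → ZMod p := fun g => s.coord (d0 ρ v' g)
    have hu : u ∈ Z1 (lvD q D) (muD p q D) := s.coord_mem_Z1 hμ hdv' hproj'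
    have huv : pp1 (MonoidHom.id D) s.incl u = d0 ρ v' := s.incl_coord1 hproj'
    have h1 : cupD p q hμ u y ∈ B := hy ⟨u, hu⟩ ⟨v', huv⟩
    have h2 : cupD p q hμ y u ∈ B := by
      simpa using B.sub_mem (cupD_symm p q hμ hu y.2) h1
    have h3 : cup20 (s.pairB hμ).flip z vb = cup20 P.flip (d1 σ y') v' := by
      rw [← s.mkQ_sec vb]
      rfl
    rw [h3]
    have h4 : d1 (muD p q D) (cup10 P.flip y' v') ∈ B :=
      (mem_B2 _ _).2 ⟨_, cup10_const P.flip hρ hy' v', rfl⟩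
    rw [d1_cup10, ← huv] at h4
    have h5 : cup11 P.flip y' (pp1 (MonoidHom.id D) s.incl u) = cupD p q hμ y u := by
      funext ⟨g, g'⟩
      rw [cupD, cup11_mulPairing]
      simp [cup11, Pairing.flip, y', Step.incl, s.fixed, s.e_eq, mul_comm]
    rw [h5] at h4
    exact (Submodule.sub_mem_iff_left _ h2).1 h4)
  set b : D → W := fun g => y' g - (r g : W)
  have hb : b ∈ Z1 (lvD q D) σ := by
    refine ⟨LinearMap.mem_ker.2 (funext fun ⟨g, g'⟩ => ?_),
      (C1 (k := ZMod p) (lvD q D) W).sub_mem hy' ?_⟩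
    swap
    · obtain ⟨U', hU', h⟩ := hr
      exact ⟨U', hU', fun g t ht => congrArg Subtype.val (h g t ht)⟩
    have e := congrArg Subtype.val (congrFun hrz (g, g'))
    simp only [z, d1_apply, Submodule.coe_add, Submodule.coe_sub, s.coe_repK] at e
    simp only [b, d1_apply, Pi.zero_apply, map_sub]
    rw [eq_comm, ← sub_eq_zero] at e
    rw [← e]
    abel
  have h1 : cup11 P (pp1 (MonoidHom.id D) s.incl c) b ∈ B := by
    rw [hac, cup11_sub_left]
    exact B.sub_mem (hyp b hb) (cup11_d0_left_mem_B2 P v hb)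
  rw [s.cup11_incl hμ] at h1
  have hby : (fun g => P.e s.v₀ (b g)) = (y : D → ZMod p) := funext fun g => by
    simp [b, y', s.e_eq, LinearMap.mem_ker.1 (r g).2]
  rwa [hby] at h1

end FLTA.PT

end
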