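import Fermat.Agent.PoitouTate.LocalDualityPairs

/-!
# The characters of a `μ_p`-trivial open subgroup, counted by Kummer theory
-/

set_option autoImplicit false

open ExtCitation

noncomputable section

namespace FLTA.PT

variable (p : ℕ) [Fact p.Prime] (q : Nat.Primes) {D : Subgroup (Gl q)}
variable (hD : IsOpenLvl (lvlLoc q) D)

include hD

/-- Kummer theory: characters are the fixed elements modulo `p`-th powers. -/
theorem card_Z1_muD (hμ : MuTrivial p q D) :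
    Nat.card (Z1 (lvD q D) (muD p q D)) = p ^ (2 + if (q : ℕ) = p then D.index else 0) := by
  have hμ' : ∀ s ∈ D, cycloChar p (loc q s) = 1 := fun s hs => hμ ⟨s, hs⟩
  rw [← card_fixed_quot_pow q p D hD hμ']
  set R := LinearMap.range ((p : ℤ) • (LinearMap.id :
    fixedBy (unitsRepLoc q) D →ₗ[ℤ] fixedBy (unitsRepLoc q) D))
  choose a α hK using fun φ : Z1 (lvD q D) (muD p q D) => exists_kummer_of_mem_Z1 p q hD φ.2
  refine Nat.card_eq_of_bijective
    (fun φ => (Submodule.Quotient.mk ⟨a φ, (hK φ).1⟩ : _ ⧸ R)) ⟨fun φ φ' h => ?_, fun x => ?_⟩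
  · obtain ⟨⟨b, hb⟩, he⟩ := (Submodule.Quotient.eq R).1 h
    simp only [LinearMap.smul_apply, LinearMap.id_apply, Subtype.ext_iff, Submodule.coe_smul,
      Submodule.coe_sub, natCast_zsmul] at he
    change p • b = a φ - a φ' at he
    have hp : p • (α φ - α φ' - b) = 0 := by
      rw [nsmul_sub, nsmul_sub, (hK φ).2.1, (hK φ').2.1, he, sub_self]
    obtain ⟨w, hw⟩ := exists_muU_of_nsmul_eq_zero p q hp
    refine Subtype.ext (funext fun g => muU_injective p q ?_)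
    have h0 : unitsD q D g (α φ - α φ' - b) = α φ - α φ' - b := by
      rw [← hw, unitsD_muU, muD_apply_of_trivial p q hμ]
    have hbg : unitsD q D g b = b := hb _ g.2
    rw [map_sub, map_sub, hbg] at h0
    rw [(hK φ).2.2, (hK φ').2.2, ← sub_eq_zero]
    rw [← sub_eq_zero] at h0
    rw [← h0]
    abel
  · obtain ⟨⟨c, hc⟩, rfl⟩ := Submodule.Quotient.mk_surjective R x
    obtain ⟨β, φ, hφ⟩ := exists_isKummer p q hc
    refine ⟨⟨φ, isKummer_mem_Z1 p q hφ⟩, ?_⟩
    set φ₀ : Z1 (lvD q D) (muD p q D) := ⟨φ, isKummer_mem_Z1 p q hφ⟩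
    rw [Submodule.Quotient.eq]
    refine ⟨⟨α φ₀ - β, fun s hs => ?_⟩, Subtype.ext ?_⟩
    · have h1 : muU p q (φ ⟨s, hs⟩) = unitsD q D ⟨s, hs⟩ (α φ₀) - α φ₀ := (hK φ₀).2.2 ⟨s, hs⟩
      rw [hφ.2.2 ⟨s, hs⟩] at h1
      change unitsRepLoc q s β - β = unitsRepLoc q s (α φ₀) - α φ₀ at h1
      rw [map_sub, ← sub_eq_zero]
      rw [eq_comm, ← sub_eq_zero] at h1
      rw [← h1]
      abel
    · simp only [LinearMap.smul_apply, LinearMap.id_apply, Submodule.coe_smul, Submodule.coe_sub,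
        natCast_zsmul]
      show p • (α φ₀ - β) = a φ₀ - c
      rw [nsmul_sub, (hK φ₀).2.1, hφ.2.1]

theorem finite_Z1_muD (hμ : MuTrivial p q D) : Finite (Z1 (lvD q D) (muD p q D)) :=
  Nat.finite_of_card_ne_zero (by
    rw [card_Z1_muD p q hD hμ]
    exact pow_ne_zero _ (Fact.out : p.Prime).ne_zero)

theorem exists_char_ne_zero :
    ∃ χ : D →* Multiplicative (ZMod p), Function.Surjective χ ∧ IsOpenLvl (lvD q D) χ.ker := by
  haveI : NeZero p := ⟨(Fact.out : p.Prime).ne_zero⟩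
  obtain ⟨χ, hs, -, hopen⟩ := exists_unramified_char q D hD p
  exact ⟨χ, hs, hopen⟩

/-- A character as a cocycle. -/
theorem toAdd_mem_Z1 (hμ : MuTrivial p q D) {χ : D →* Multiplicative (ZMod p)}
    (hχ : IsOpenLvl (lvD q D) χ.ker) :
    (fun g => (χ g).toAdd) ∈ Z1 (lvD q D) (muD p q D) := by
  obtain ⟨U, hU, hle⟩ := hχ
  rw [mem_Z1]
  refine ⟨fun g h => ?_, U, hU, fun g s hs => ?_⟩
  · rw [muD_apply_of_trivial p q hμ, map_mul, toAdd_mul, add_comm]
  · simp [MonoidHom.mem_ker.1 (hle hs)]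

theorem exists_Z1_ne_zero (hμ : MuTrivial p q D) :
    ∃ ψ ∈ Z1 (lvD q D) (muD p q D), ψ ≠ 0 := by
  obtain ⟨χ, hs, hopen⟩ := exists_char_ne_zero p q hD
  refine ⟨_, toAdd_mem_Z1 p q hD hμ hopen, fun h => ?_⟩
  obtain ⟨g, hg⟩ := hs (Multiplicative.ofAdd 1)
  have := congrFun h g
  simp [hg] at this

/-- `H¹(D, 𝔽_p)` is at least two-dimensional. -/
theorem exists_Z1_not_mem_span (hμ : MuTrivial p q D) (ψ₁ : D → ZMod p) :
    ∃ ψ ∈ Z1 (lvD q D) (muD p q D), ∀ t : ZMod p, ψ ≠ t • ψ₁ := by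
  by_contra hcon
  push_neg at hcon
  choose t ht using hcon
  haveI : NeZero p := ⟨(Fact.out : p.Prime).ne_zero⟩
  have hinj : Function.Injective fun φ : Z1 (lvD q D) (muD p q D) => t φ φ.2 := fun φ φ' h => by
    apply Subtype.ext
    rw [ht φ φ.2, ht φ' φ'.2]
    exact congrArg (· • ψ₁) h
  have hle := Nat.card_le_card_of_injective _ hinj
  rw [card_Z1_muD p q hD hμ, Nat.card_zmod] at hle
  have hlt : p ^ 1 < p ^ (2 + if (q : ℕ) = p then D.index else 0) :=
    Nat.pow_lt_pow_right (Fact.out : p.Prime).one_lt (by omega)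
  rw [pow_one] at hlt
  omega

end FLTA.PT

end
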