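import Fermat.Agent.PoitouTate.LocalDualityKummerCount

/-!
# `H²(D, μ_p)` is a line for open `D ≤ Gl q`
-/

set_option autoImplicit false

open ExtCitation

noncomputable section

namespace FLTA.PT

/-- `x` is a scalar multiple of `y` modulo `B`. -/
def InLine {k M : Type*} [CommRing k] [AddCommGroup M] [Module k M] (B : Submodule k M)
    (x y : M) : Prop :=
  ∃ t : k, x - t • y ∈ B

theorem InLine.trans {k M : Type*} [CommRing k] [AddCommGroup M] [Module k M] {B : Submodule k M}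
    {x y z : M} (h : InLine B x y) (h' : InLine B y z) : InLine B x z := by
  obtain ⟨t, ht⟩ := h
  obtain ⟨s, hs⟩ := h'
  refine ⟨t * s, ?_⟩
  have := B.add_mem ht (B.smul_mem t hs)
  rwa [smul_sub, smul_smul, sub_add_sub_cancel] at this

theorem inLine_of_sub_mem {k M : Type*} [CommRing k] [AddCommGroup M] [Module k M]
    {B : Submodule k M} {x y : M} (h : x - y ∈ B) : InLine B x y :=
  ⟨1, by rwa [one_smul]⟩

theorem InLine.symm_of_not_mem {k M : Type*} [Field k] [AddCommGroup M] [Module k M]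
    {B : Submodule k M} {x y : M} (h : InLine B x y) (hx : x ∉ B) : InLine B y x := by
  obtain ⟨t, ht⟩ := h
  have ht0 : t ≠ 0 := by rintro rfl; exact hx (by simpa using ht)
  refine ⟨t⁻¹, ?_⟩
  have := B.smul_mem (-t⁻¹) ht
  rwa [smul_sub, smul_smul, neg_mul, inv_mul_cancel₀ ht0, neg_smul, neg_smul, one_smul,
    sub_neg_eq_add, neg_add_eq_sub] at this

variable (p : ℕ) [Fact p.Prime] (q : Nat.Primes) {D : Subgroup (Gl q)}
variable (hD : IsOpenLvl (lvlLoc q) D)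

include hD

/-- All cup products of characters are proportional. -/
theorem inLine_cupD (hμ : MuTrivial p q D) {ψ φ ψ' φ' : D → ZMod p}
    (hψ : ψ ∈ Z1 (lvD q D) (muD p q D)) (hφ : φ ∈ Z1 (lvD q D) (muD p q D))
    (hψ' : ψ' ∈ Z1 (lvD q D) (muD p q D)) (hφ' : φ' ∈ Z1 (lvD q D) (muD p q D))
    (hne : cupD p q hμ ψ φ ∉ B2 (lvD q D) (muD p q D)) :
    InLine (B2 (lvD q D) (muD p q D)) (cupD p q hμ ψ' φ') (cupD p q hμ ψ φ) := by
  set B := B2 (lvD q D) (muD p q D)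
  rcases eq_or_ne ψ' 0 with rfl | h0
  · refine ⟨0, ?_⟩
    rw [zero_smul, sub_zero, cupD, zero_cup11]
    exact B.zero_mem
  obtain ⟨ω', hω', hne'⟩ := exists_cupD_not_mem p q hD hμ hψ' h0
  obtain ⟨ω, hω, h1, h2⟩ : ∃ ω ∈ Z1 (lvD q D) (muD p q D),
      cupD p q hμ ψ ω ∉ B ∧ cupD p q hμ ψ' ω ∉ B := by
    by_cases h : cupD p q hμ ψ ω' ∈ B
    · by_cases h' : cupD p q hμ ψ' φ ∈ B
      · refine ⟨φ + ω', (Z1 (lvD q D) (muD p q D)).add_mem hφ hω', fun hh => hne ?_,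
          fun hh => hne' ?_⟩
        · rw [cupD, cup11_add_right] at hh
          simpa using B.sub_mem hh h
        · rw [cupD, cup11_add_right] at hh
          simpa using B.sub_mem hh h'
      · exact ⟨φ, hφ, hne, h'⟩
    · exact ⟨ω', hω', h, hne'⟩
  have hsym : ∀ {a b : D → ZMod p}, a ∈ Z1 (lvD q D) (muD p q D) →
      b ∈ Z1 (lvD q D) (muD p q D) → InLine B (cupD p q hμ a b) (cupD p q hμ b a) := by
    intro a b ha hb
    refine ⟨-1, ?_⟩
    rw [neg_one_smul, sub_neg_eq_add]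
    exact cupD_symm p q hμ ha hb
  have hωψ : cupD p q hμ ω ψ ∉ B := fun hh => h1 (by
    simpa using B.sub_mem (cupD_symm p q hμ hψ hω) hh)
  exact InLine.trans (exists_cupD_sub_smul p q hD hμ hψ' hω hφ' h2) <|
    InLine.trans (hsym hψ' hω) <| InLine.trans (exists_cupD_sub_smul p q hD hμ hω hψ hψ' hωψ) <|
    InLine.trans (hsym hω hψ) (exists_cupD_sub_smul p q hD hμ hψ hφ hω hne)

/-- A class killed by a cyclic extension of degree `p` is a cup product. -/
theorem exists_cupD_of_killed (hμ : MuTrivial p q D) {ψ : D → ZMod p}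
    (hψ : ψ ∈ Z1 (lvD q D) (muD p q D)) (h0 : ψ ≠ 0) {z : D × D → ZMod p}
    (hz : z ∈ Z2 (lvD q D) (muD p q D))
    (hres : pp2 (toChar p q hμ ψ hψ).ker.subtype (LinearMap.id : ZMod p →ₗ[ZMod p] ZMod p) z ∈
      B2 ((lvD q D).comap (toChar p q hμ ψ hψ).ker.subtype)
        ((muD p q D).comp (toChar p q hμ ψ hψ).ker.subtype)) :
    ∃ φ ∈ Z1 (lvD q D) (muD p q D), z - cupD p q hμ ψ φ ∈ B2 (lvD q D) (muD p q D) := by
  haveI : NeZero p := ⟨(Fact.out : p.Prime).ne_zero⟩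
  have hχ := isOpenLvl_ker_toChar p q hμ ψ hψ
  obtain ⟨y, ⟨U, hU, hy⟩, hyz⟩ := (mem_B2 _ _).1 hres
  have hu : pp2 (toChar p q hμ ψ hψ).ker.subtype (LinearMap.id : Ml q →ₗ[ℤ] Ml q) (toU2 p q D z) ∈
      B2 ((lvD q D).comap (toChar p q hμ ψ hψ).ker.subtype)
        ((unitsD q D).comp (toChar p q hμ ψ hψ).ker.subtype) := by
    refine (mem_B2 _ _).2 ⟨fun g => muU p q (y g), ⟨U, hU, fun g s hs => by simp [hy g s hs]⟩, ?_⟩
    funext ⟨g, g'⟩
    have := congrArg (muU p q) (congrFun hyz (g, g'))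
    simp only [pp2_apply, d1_apply, LinearMap.id_apply, map_add, map_sub] at this
    simp only [toU2, pp2_apply, d1_apply, LinearMap.id_apply]
    rw [← this]
    congr 2
    exact unitsD_muU p q D g (y g')
  obtain ⟨a, ha, hc⟩ := exists_carry_of_res_mem_B2 (lvD q D) (unitsD q D) (smooth_unitsD q D)
    (toChar p q hμ ψ hψ) (toChar_surjective p q hμ hψ h0) hχ (h1Vanishes_unitsD q hD hχ)
    ⟨_, toU2_mem_Z2 p q hz⟩ hu
  obtain ⟨α, φ, hK⟩ := exists_isKummer p q (D := D) (a := a) fun s hs => ha ⟨s, hs⟩ trivial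
  refine ⟨φ, isKummer_mem_Z1 p q hK, mem_B2_of_toU2 p q hD ?_⟩
  rw [toU2_sub]
  simpa using Submodule.sub_mem _ hc (toU2_cup11_sub_carry_mem_B2 p q hμ hψ hK)

/-- A class of `H²(Fun)` with nonzero sum, for a normal subgroup of index `p`. -/
theorem exists_sum_not_mem (hμ : MuTrivial p q D) {ψ₁ : D → ZMod p}
    (hψ₁ : ψ₁ ∈ Z1 (lvD q D) (muD p q D)) (h0 : ψ₁ ≠ 0)
    [Fintype (cosets q (kerSub q (toChar p q hμ ψ₁ hψ₁)) D)] :
    ∃ ψ ∈ Z1 (lvD q D) (muD p q D), ∃ Φ ∈ Z1 (lvD q D)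
        (funRep (muD p q D) (cosets q (kerSub q (toChar p q hμ ψ₁ hψ₁)) D)),
      pp2 (MonoidHom.id D) (sumMap (k := ZMod p) (cosets q (kerSub q (toChar p q hμ ψ₁ hψ₁)) D))
          (pw11 (mulPairing (chiD p q D) hμ)
            (pp1 (MonoidHom.id D) (constMap (k := ZMod p) _) ψ) Φ)
        ∉ B2 (lvD q D) (muD p q D) := by
  haveI : NeZero p := ⟨(Fact.out : p.Prime).ne_zero⟩
  set B := B2 (lvD q D) (muD p q D)
  set χ := toChar p q hμ ψ₁ hψ₁
  set X := cosets q (kerSub q χ) D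
  have hχ : IsOpenLvl (lvD q D) χ.ker := isOpenLvl_ker_toChar p q hμ ψ₁ hψ₁
  have hs : Function.Surjective χ := toChar_surjective p q hμ hψ₁ h0
  obtain ⟨ψ, hψ, hψns⟩ := exists_Z1_not_mem_span p q hD hμ ψ₁
  obtain ⟨ω, hω, hω1, hω2⟩ : ∃ ω ∈ Z1 (lvD q D) (muD p q D),
      cupD p q hμ ψ₁ ω ∈ B ∧ cupD p q hμ ψ ω ∉ B := by
    by_contra hcon
    push_neg at hcon
    obtain ⟨ω₀, hω₀, hne⟩ := exists_cupD_not_mem p q hD hμ hψ₁ h0
    obtain ⟨t, ht⟩ := inLine_cupD p q hD hμ hψ₁ hω₀ hψ hω₀ hne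
    have hzero : ψ - t • ψ₁ ≠ 0 := sub_ne_zero.2 (hψns t)
    obtain ⟨ω, hω, hω'⟩ := exists_cupD_not_mem p q hD hμ
      ((Z1 (lvD q D) (muD p q D)).sub_mem hψ (Submodule.smul_mem _ t hψ₁)) hzero
    apply hω'
    obtain ⟨s, hsω⟩ := exists_cupD_sub_smul p q hD hμ hψ₁ hω₀ hω hne
    have h2 : cupD p q hμ ψ (ω - s • ω₀) ∈ B := hcon _
      ((Z1 (lvD q D) (muD p q D)).sub_mem hω (Submodule.smul_mem _ s hω₀))
      (by rw [cupD, cup11_sub_right, cup11_smul_right]; exact hsω)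
    rw [cupD, cup11_sub_right, cup11_smul_right] at h2
    have h3 := B.add_mem h2 (B.sub_mem (B.smul_mem s ht) (B.smul_mem t hsω))
    rw [cupD, cup11_sub_left, cup11_smul_left]
    convert h3 using 1
    simp only [smul_sub, smul_smul, mul_comm s t]
    abel
  obtain ⟨a, α₀, hK⟩ := exists_kummer_of_mem_Z1 p q hD hω
  obtain ⟨b, hb, hba⟩ := Submodule.mem_map.1
    ((cupD_mem_B2_iff p q hD hμ hψ₁ h0 hK).1 hω1)
  have hop : IsOpenLvl (lvlLoc q) (kerSub q χ) := isOpenLvl_map q hD hχ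
  haveI : Finite X := finite_cosets q hop D
  have hpt := isPoint_one q (kerSub_le q χ)
  obtain ⟨F, hF, hF1⟩ := hpt.exists_fixed (σ := unitsD q D) (transitive_cosets q (kerSub q χ) D)
    (w := b) fun τ => hb _ τ.2
  choose r hr using fun x : X => exists_pRoot p q (F x)
  have hfix : ∀ (g : D) (x : X), p • (funRep (unitsD q D) X g r x - r x) = 0 := fun g x => by
    rw [nsmul_sub, funRep_apply, ← map_nsmul, hr, hr]
    exact sub_eq_zero.2 (congrFun (hF g) x)
  choose Φ hΦ using fun g x => exists_muU_of_nsmul_eq_zero p q (hfix g x)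
  have hΦZ : Φ ∈ Z1 (lvD q D) (funRep (muD p q D) X) := by
    rw [mem_Z1]
    refine ⟨fun g h => funext fun x => muU_injective p q ?_, ?_⟩
    · rw [Pi.add_apply, funRep_apply, map_add, ← unitsD_muU, hΦ, hΦ, hΦ, map_sub]
      simp only [funRep_apply, map_mul, Module.End.mul_apply, mul_inv_rev, mul_smul]
      abel
    · obtain ⟨U, hU, hU'⟩ := smooth_funRep (lvD q D) (unitsD q D) (smooth_unitsD q D)
        (isOpenLvl_stabilizer_cosets q hop) r
      refine ⟨U, hU, fun g s hs => funext fun x => muU_injective p q ?_⟩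
      rw [hΦ, hΦ, map_mul, Module.End.mul_apply, hU' s hs]
  refine ⟨ψ, hψ, Φ, hΦZ, fun hmem => hω2 ?_⟩
  rw [sum_pw11_const] at hmem
  have hval : ∀ g : D, F (g : X) = unitsD q D g b := fun g => by
    have h1 := congrFun (hF g) (g : X)
    rw [funRep_apply, MulAction.Quotient.smul_coe, smul_eq_mul, inv_mul_cancel, hF1] at h1
    exact h1.symm
  have hsumF : ∑ x : X, F x = a := by
    rw [← hba]
    obtain ⟨σ, hσ⟩ := hs (Multiplicative.ofAdd 1)
    rw [relNorm_kerSub q χ hs hσ hb, ← Fin.sum_univ_eq_sum_range (fun i => unitsD q D (σ ^ i) b)]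
    exact (Fintype.sum_bijective _ (bijective_powers q χ hs hσ)
      (fun i : Fin p => unitsD q D (σ ^ (i : ℕ)) b) F fun i => (hval _).symm).symm
  have hK' : IsKummer p q D a (∑ x : X, r x)
      (pp1 (MonoidHom.id D) (sumMap (k := ZMod p) X) Φ) := by
    refine ⟨hK.1, ?_, fun g => ?_⟩
    · rw [← Finset.sum_nsmul, Finset.sum_congr rfl fun x _ => hr x, hsumF]
    · simp only [pp1_apply, MonoidHom.id_apply, sumMap_apply, map_sum, hΦ, Finset.sum_sub_distrib,
        funRep_apply]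
      congr 1
      exact (MulAction.bijective g⁻¹).sum_comp fun x => unitsD q D g (r x)
  refine mem_B2_of_toU2 p q hD ?_
  have h1 := toU2_cup11_sub_carry_mem_B2 p q hμ hψ hK
  have h2 := toU2_cup11_sub_carry_mem_B2 p q hμ hψ hK'
  have h3 := toU2_mem_B2 p q hmem
  have h4 := Submodule.sub_mem _ h1 h2
  rw [sub_sub_sub_cancel_right] at h4
  exact (Submodule.sub_mem_iff_left _ h3).1 (by convert h4)

end FLTA.PT

end
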