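import Fermat.Agent.PoitouTate.LocalDualitySub

/-!
# The Kummer pairing `H¹(D, 𝔽_p) × H¹(D, 𝔽_p) → H²(D, μ_p)` for `μ_p`-trivial `D`
-/

set_option autoImplicit false

open ExtCitation

noncomputable section

namespace FLTA.PT

variable (p : ℕ) [Fact p.Prime] (q : Nat.Primes) {D : Subgroup (Gl q)}

/-- The cup product of two characters. -/
abbrev cupD (hμ : MuTrivial p q D) (ψ φ : D → ZMod p) : D × D → ZMod p :=
  cup11 (mulPairing (chiD p q D) hμ) ψ φ

theorem cupD_mem_Z2 (hμ : MuTrivial p q D) {ψ φ : D → ZMod p}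
    (hψ : ψ ∈ Z1 (lvD q D) (muD p q D)) (hφ : φ ∈ Z1 (lvD q D) (muD p q D)) :
    cupD p q hμ ψ φ ∈ Z2 (lvD q D) (muD p q D) :=
  cup11_mem_Z2 _ (smooth_muD p q D) hψ hφ

theorem cupD_symm (hμ : MuTrivial p q D) {ψ φ : D → ZMod p}
    (hψ : ψ ∈ Z1 (lvD q D) (muD p q D)) (hφ : φ ∈ Z1 (lvD q D) (muD p q D)) :
    cupD p q hμ ψ φ + cupD p q hμ φ ψ ∈ B2 (lvD q D) (muD p q D) := by
  have e : cupD p q hμ φ ψ = cup11 (mulPairing (chiD p q D) hμ).flip φ ψ := by
    funext g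
    simp [cup11, mulPairing, Pairing.flip, mul_comm]
  rw [e]
  refine (mem_B2 _ _).2 ⟨-cupDiag (mulPairing (chiD p q D) hμ) ψ φ,
    (C1 (k := ZMod p) (lvD q D) (ZMod p)).neg_mem (cupDiag_const _ hψ.2 hφ.2), ?_⟩
  rw [map_neg, d1_cupDiag _ ((mem_Z1 _ _).1 hψ).1 ((mem_Z1 _ _).1 hφ).1, neg_neg]

theorem B1_muD_eq_zero (hμ : MuTrivial p q D) {f : D → ZMod p} (hf : f ∈ B1 (muD p q D)) :
    f = 0 := by
  obtain ⟨v, rfl⟩ := hf
  funext g
  simp [hμ g]

theorem toChar_surjective (hμ : MuTrivial p q D) {ψ : D → ZMod p}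
    (hψ : ψ ∈ Z1 (lvD q D) (muD p q D)) (h0 : ψ ≠ 0) :
    Function.Surjective (toChar p q hμ ψ hψ) := by
  obtain ⟨g, hg⟩ := Function.ne_iff.1 h0
  intro y
  have hu : IsUnit (ψ g) := IsUnit.mk0 _ hg
  refine ⟨g ^ ((hu.unit⁻¹ : (ZMod p)ˣ) * y.toAdd : ZMod p).val, ?_⟩
  rw [map_pow]
  apply Multiplicative.toAdd.injective
  show (_ : ℕ) • ψ g = y.toAdd
  rw [nsmul_eq_mul, ZMod.natCast_zmod_val, mul_comm, ← mul_assoc, IsUnit.mul_val_inv, one_mul]

section norms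

variable {n : ℕ} [NeZero n] (χ : D →* Multiplicative (ZMod n))

/-- The subgroup of `Gl q` cut out by a character of `D`. -/
abbrev kerSub : Subgroup (Gl q) := χ.ker.map D.subtype

theorem kerSub_le : kerSub q χ ≤ D := Subgroup.map_subtype_le _

theorem kerSub_subgroupOf : (kerSub q χ).subgroupOf D = χ.ker :=
  Subgroup.comap_map_eq_self_of_injective D.subtype_injective _

theorem relIndex_kerSub (hs : Function.Surjective χ) : (kerSub q χ).relIndex D = n := by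
  rw [Subgroup.relIndex, kerSub_subgroupOf, Subgroup.index_ker,
    MonoidHom.range_eq_top.2 hs, Subgroup.card_top, Nat.card_eq_fintype_card,
    Fintype.card_multiplicative, ZMod.card]

theorem fixedBy_kerSub {b : Ml q} :
    b ∈ fixedBy (unitsRepLoc q) (kerSub q χ) ↔ b ∈ fixedBy (unitsD q D) χ.ker :=
  ⟨fun h s hs => h _ ⟨s, hs, rfl⟩, by rintro h _ ⟨s, hs, rfl⟩; exact h s hs⟩

theorem out_smul_eq {b : Ml q} (hb : b ∈ fixedBy (unitsRepLoc q) (kerSub q χ)) (g : D) :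
    unitsRepLoc q (((g : D ⧸ (kerSub q χ).subgroupOf D).out : D) : Gl q) b =
      unitsD q D g b := by
  obtain ⟨k, hk⟩ := QuotientGroup.mk_out_eq_mul ((kerSub q χ).subgroupOf D) g
  rw [hk, Subgroup.coe_mul, map_mul, Module.End.mul_apply]
  exact congrArg _ (hb _ k.2)

theorem bijective_powers {σ : D} (hs : Function.Surjective χ) (hσ : χ σ = Multiplicative.ofAdd 1) :
    Function.Bijective fun i : Fin n => ((σ ^ (i : ℕ) : D) : D ⧸ (kerSub q χ).subgroupOf D) := by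
  have hidx : ((kerSub q χ).subgroupOf D).index = n := relIndex_kerSub q χ hs
  haveI : ((kerSub q χ).subgroupOf D).FiniteIndex := ⟨by rw [hidx]; exact NeZero.ne n⟩
  haveI := Fintype.ofFinite (D ⧸ (kerSub q χ).subgroupOf D)
  rw [Fintype.bijective_iff_injective_and_card, Fintype.card_fin, ← Nat.card_eq_fintype_card,
    ← Subgroup.index, hidx]
  refine ⟨fun i j h => ?_, rfl⟩
  rw [QuotientGroup.eq, kerSub_subgroupOf, MonoidHom.mem_ker, map_mul, map_inv, map_pow, map_pow,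
    hσ, inv_mul_eq_one, ← ofAdd_nsmul, ← ofAdd_nsmul] at h
  have := congrArg (fun x => (Multiplicative.toAdd x).val) h
  simp only [toAdd_ofAdd, nsmul_one, ZMod.val_natCast] at this
  rwa [Nat.mod_eq_of_lt i.2, Nat.mod_eq_of_lt j.2, ← Fin.ext_iff] at this

/-- The relative norm to `D` from the kernel of a character, as a sum over powers. -/
theorem relNorm_kerSub {σ : D} (hs : Function.Surjective χ)
    (hσ : χ σ = Multiplicative.ofAdd 1) {b : Ml q}
    (hb : b ∈ fixedBy (unitsRepLoc q) (kerSub q χ)) :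
    relNorm (unitsRepLoc q) (kerSub q χ) D b =
      ∑ i ∈ Finset.range n, unitsD q D (σ ^ i) b := by
  have hbij := bijective_powers q χ hs hσ
  have hfin : Finite (D ⧸ (kerSub q χ).subgroupOf D) := Finite.of_surjective _ hbij.2
  haveI := Fintype.ofFinite (D ⧸ (kerSub q χ).subgroupOf D)
  rw [relNorm, dif_pos hfin, LinearMap.sum_apply, ← Fin.sum_univ_eq_sum_range
    (fun i => unitsD q D (σ ^ i) b)]
  convert (Fintype.sum_bijective _ hbij (fun i : Fin n => unitsD q D (σ ^ (i : ℕ)) b)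
    (fun x => unitsRepLoc q ((x.out : D) : Gl q) b) fun i => (out_smul_eq q χ hb _).symm).symm using 2
  ext x
  simp

/-- The carry class is trivial exactly on norms. -/
theorem carry_mem_B2_iff_normsFrom (hD : IsOpenLvl (lvlLoc q) D)
    (hχ : IsOpenLvl (lvD q D) χ.ker) (hs : Function.Surjective χ) {a : Ml q}
    (ha : a ∈ fixedBy (unitsRepLoc q) D) :
    carry χ a ∈ B2 (lvD q D) (unitsD q D) ↔ a ∈ normsFrom (unitsRepLoc q) (kerSub q χ) D := by
  obtain ⟨σ, hσ⟩ := hs (Multiplicative.ofAdd 1)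
  have ha' : a ∈ fixedBy (unitsD q D) ⊤ := fun s _ => ha s s.2
  rw [carry_mem_B2_iff_exists_norm (lvD q D) (unitsD q D) (smooth_unitsD q D) χ hχ
    (h1Vanishes_unitsD q hD hχ) σ hσ ha', normsFrom, Submodule.mem_map]
  constructor
  · rintro ⟨b, hb, rfl⟩
    exact ⟨b, (fixedBy_kerSub q χ).2 hb, relNorm_kerSub q χ hs hσ ((fixedBy_kerSub q χ).2 hb)⟩
  · rintro ⟨b, hb, rfl⟩
    exact ⟨b, (fixedBy_kerSub q χ).1 hb, relNorm_kerSub q χ hs hσ hb⟩

/-- The norm group of a cyclic extension has index equal to the degree. -/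
theorem relIndex_norms_kerSub (hD : IsOpenLvl (lvlLoc q) D)
    (hχ : IsOpenLvl (lvD q D) χ.ker) (hs : Function.Surjective χ) :
    (normsFrom (unitsRepLoc q) (kerSub q χ) D).toAddSubgroup.relIndex
        (fixedBy (unitsRepLoc q) D).toAddSubgroup = n := by
  haveI : ((kerSub q χ).subgroupOf D).Normal := by rw [kerSub_subgroupOf]; infer_instance
  haveI : IsCyclic (D ⧸ (kerSub q χ).subgroupOf D) := by
    obtain ⟨σ, hσ⟩ := hs (Multiplicative.ofAdd 1)
    refine ⟨⟨(σ : D ⧸ _), fun x => ?_⟩⟩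
    obtain ⟨i, rfl⟩ := (bijective_powers q χ hs hσ).2 x
    exact ⟨(i : ℕ), by simp⟩
  rw [relIndex_normsFrom q (kerSub q χ) D (isOpenLvl_map q hD hχ) (kerSub_le q χ),
    relIndex_kerSub q χ hs]

end norms

variable (hD : IsOpenLvl (lvlLoc q) D) (hμ : MuTrivial p q D)

include hD

/-- The relation between cup products and norms. -/
theorem cupD_mem_B2_iff {ψ φ : D → ZMod p} (hψ : ψ ∈ Z1 (lvD q D) (muD p q D)) (h0 : ψ ≠ 0)
    {a α : Ml q} (hK : IsKummer p q D a α φ) :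
    cupD p q hμ ψ φ ∈ B2 (lvD q D) (muD p q D) ↔
      a ∈ normsFrom (unitsRepLoc q) (kerSub q (toChar p q hμ ψ hψ)) D := by
  haveI : NeZero p := ⟨(Fact.out : p.Prime).ne_zero⟩
  rw [← carry_mem_B2_iff_normsFrom q _ hD (isOpenLvl_ker_toChar p q hμ ψ hψ)
    (toChar_surjective p q hμ hψ h0) hK.1]
  have h := toU2_cup11_sub_carry_mem_B2 p q hμ hψ hK
  constructor
  · intro hB
    have h' := Submodule.sub_mem _ (toU2_mem_B2 p q hB) h
    rwa [sub_sub_self] at h'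
  · intro hB
    refine mem_B2_of_toU2 p q hD ?_
    have h' := Submodule.add_mem _ h hB
    rwa [sub_add_cancel] at h'

/-- The cup product is nondegenerate on characters. -/
theorem exists_cupD_not_mem {ψ : D → ZMod p} (hψ : ψ ∈ Z1 (lvD q D) (muD p q D)) (h0 : ψ ≠ 0) :
    ∃ φ ∈ Z1 (lvD q D) (muD p q D), cupD p q hμ ψ φ ∉ B2 (lvD q D) (muD p q D) := by
  haveI : NeZero p := ⟨(Fact.out : p.Prime).ne_zero⟩
  have hidx := relIndex_norms_kerSub q (toChar p q hμ ψ hψ) hD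
    (isOpenLvl_ker_toChar p q hμ ψ hψ) (toChar_surjective p q hμ hψ h0)
  obtain ⟨a, ha, hna⟩ := SetLike.not_le_iff_exists.1 fun hle =>
    (Fact.out : p.Prime).one_lt.ne (hidx ▸ (AddSubgroup.relIndex_eq_one.2 hle).symm :)
  obtain ⟨α, φ, hK⟩ := exists_isKummer p q (Submodule.mem_toAddSubgroup _ |>.1 ha)
  exact ⟨φ, isKummer_mem_Z1 p q hK, fun h => hna ((cupD_mem_B2_iff p q hD hμ hψ h0 hK).1 h)⟩

/-- For fixed `ψ` the values `ψ ∪ φ` form at most a line. -/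
theorem exists_cupD_sub_smul {ψ ω φ : D → ZMod p} (hψ : ψ ∈ Z1 (lvD q D) (muD p q D))
    (hω : ω ∈ Z1 (lvD q D) (muD p q D)) (hφ : φ ∈ Z1 (lvD q D) (muD p q D))
    (hne : cupD p q hμ ψ ω ∉ B2 (lvD q D) (muD p q D)) :
    ∃ t : ZMod p, cupD p q hμ ψ φ - t • cupD p q hμ ψ ω ∈ B2 (lvD q D) (muD p q D) := by
  haveI : NeZero p := ⟨(Fact.out : p.Prime).ne_zero⟩
  have h0 : ψ ≠ 0 := fun h => hne (by
    have : cupD p q hμ ψ ω = 0 := by rw [h]; exact zero_cup11 _ ω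
    rw [this]; exact Submodule.zero_mem _)
  obtain ⟨a₀, α₀, hK₀⟩ := exists_kummer_of_mem_Z1 p q hD hω
  obtain ⟨a, α, hK⟩ := exists_kummer_of_mem_Z1 p q hD hφ
  have hna : a₀ ∉ normsFrom (unitsRepLoc q) (kerSub q (toChar p q hμ ψ hψ)) D :=
    fun h => hne ((cupD_mem_B2_iff p q hD hμ hψ h0 hK₀).2 h)
  have hidx := relIndex_norms_kerSub q (toChar p q hμ ψ hψ) hD
    (isOpenLvl_ker_toChar p q hμ ψ hψ) (toChar_surjective p q hμ hψ h0)
  set N := normsFrom (unitsRepLoc q) (kerSub q (toChar p q hμ ψ hψ)) D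
  set K := (fixedBy (unitsRepLoc q) D).toAddSubgroup with hKdef
  rw [AddSubgroup.relIndex] at hidx
  have hzmem : ((⟨a, hK.1⟩ : K) : K ⧸ N.toAddSubgroup.addSubgroupOf K) ∈
      AddSubgroup.zmultiples
        ((⟨a₀, hK₀.1⟩ : K) : K ⧸ N.toAddSubgroup.addSubgroupOf K) := by
    refine mem_zmultiples_of_prime_card (p := p) hidx ?_
    rw [Ne, QuotientAddGroup.eq_zero_iff]
    exact hna
  obtain ⟨m, hm⟩ := hzmem
  have hm' : a - m • a₀ ∈ N := by
    have e : ((m • (⟨a₀, hK₀.1⟩ : K) : K) : K ⧸ N.toAddSubgroup.addSubgroupOf K) =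
        ((⟨a, hK.1⟩ : K) : K ⧸ N.toAddSubgroup.addSubgroupOf K) := by
      rw [QuotientAddGroup.mk_zsmul]
      exact hm
    rw [QuotientAddGroup.eq, AddSubgroup.mem_addSubgroupOf] at e
    rwa [show a - m • a₀ = -(m • a₀) + a by abel]
  refine ⟨(m : ZMod p), ?_⟩
  have hK' : IsKummer p q D (a - m • a₀) (α - m • α₀) (φ - (m : ZMod p) • ω) := by
    refine ⟨(fixedBy (unitsRepLoc q) D).sub_mem hK.1 (Submodule.smul_mem _ m hK₀.1), ?_, fun g => ?_⟩
    · rw [nsmul_sub, hK.2.1, ← hK₀.2.1]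
      simp only [← natCast_zsmul, smul_smul, mul_comm]
    · rw [Pi.sub_apply, Pi.smul_apply, smul_eq_mul, ← zsmul_eq_mul, map_sub, map_zsmul, hK.2.2,
        hK₀.2.2, map_sub, map_zsmul, zsmul_sub]
      abel
  have := (cupD_mem_B2_iff p q hD hμ hψ h0 hK').2 hm'
  rwa [cupD, cup11_sub_right, cup11_smul_right] at this

end FLTA.PT

end
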