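import Fermat.Agent.PoitouTate.LocalDualityH2

/-!
# Injectivity of the sum maps on `H²(D, Fun(D/D', μ_p))`
-/

set_option autoImplicit false

open ExtCitation

noncomputable section

namespace FLTA.PT

variable (p : ℕ) [Fact p.Prime] (q : Nat.Primes) {D' D : Subgroup (Gl q)}

theorem evD2_mem_Z2 (h : D' ≤ D) {C : D × D → cosets q D' D → ZMod p}
    (hC : C ∈ Z2 (lvD q D) (funRep (muD p q D) (cosets q D' D))) :
    evD2 p q h C ∈ Z2 (lvD q D') (muD p q D') :=
  pp2_mem_Z2 (ρ := funRep (muD p q D) (cosets q D' D)) (σ := muD p q D') (lvlLE_incl q h)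
    (equivariant_evD p q h) hC

theorem evD2_not_mem_of_sum_not_mem (hD' : IsOpenLvl (lvlLoc q) D') (h : D' ≤ D)
    [Fintype (cosets q D' D)] {C : D × D → cosets q D' D → ZMod p}
    (hC : C ∈ Z2 (lvD q D) (funRep (muD p q D) (cosets q D' D)))
    (hsum : pp2 (MonoidHom.id D) (sumMap (k := ZMod p) (cosets q D' D)) C ∉
      B2 (lvD q D) (muD p q D)) :
    evD2 p q h C ∉ B2 (lvD q D') (muD p q D') := fun hev =>
  hsum (pp2_mem_B2 (lvlLE_id _) (equivariant_sumMap (muD p q D) (cosets q D' D))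
    ((isPoint_one q h).mem_B2_of_eval (isOpenLvl_stabilizer_cosets q hD')
      (transitive_cosets q D' D) (smooth_muD p q D) hC (by rw [lvD_comap]; exact hev)))

theorem sumInj_of_exists (hD' : IsOpenLvl (lvlLoc q) D') (h : D' ≤ D) [Fintype (cosets q D' D)]
    (hex : ∃ C₁ ∈ Z2 (lvD q D) (funRep (muD p q D) (cosets q D' D)),
      pp2 (MonoidHom.id D) (sumMap (k := ZMod p) (cosets q D' D)) C₁ ∉
        B2 (lvD q D) (muD p q D)) :
    SumInj (lvD q D) (muD p q D) (cosets q D' D) := by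
  obtain ⟨C₁, hC₁, hsum⟩ := hex
  intro C hC hCsum
  obtain ⟨t, ht⟩ := inLine_fun_of_eval p q hD' h hC hC₁
    (inLine_muD p q hD' (evD2_mem_Z2 p q h hC) (evD2_mem_Z2 p q h hC₁)
      (evD2_not_mem_of_sum_not_mem p q hD' h hC₁ hsum))
  have h1 := pp2_mem_B2 (lvlLE_id _) (equivariant_sumMap (muD p q D) (cosets q D' D)) ht
  rw [map_sub, map_smul] at h1
  have h2 := (Submodule.sub_mem_iff_right _ hCsum).1 h1
  have ht0 : t = 0 := by
    by_contra ht0
    exact hsum (by simpa [smul_smul, inv_mul_cancel₀ ht0] using Submodule.smul_mem _ t⁻¹ h2)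
  subst ht0
  rwa [zero_smul, sub_zero] at ht

theorem sumInj_of_not_dvd (hD : IsOpenLvl (lvlLoc q) D) (hD' : IsOpenLvl (lvlLoc q) D')
    (h : D' ≤ D) [Fintype (cosets q D' D)] (hidx : ¬ p ∣ D'.relIndex D) :
    SumInj (lvD q D) (muD p q D) (cosets q D' D) := by
  refine sumInj_of_exists p q hD' h ?_
  obtain ⟨z, hz, hne⟩ := exists_not_mem_B2 p q hD
  refine ⟨_, pp2_mem_Z2 (lvlLE_id _) (equivariant_constMap (muD p q D) (cosets q D' D)) hz,
    fun hmem => hne ?_⟩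
  have hu : IsUnit (D'.relIndex D : ZMod p) := isUnit_cast_of_not_dvd p hidx
  have hmem' : (D'.relIndex D : ZMod p) • z ∈ B2 (lvD q D) (muD p q D) := by
    convert hmem using 1
    funext ⟨g, g'⟩
    simp only [Pi.smul_apply, smul_eq_mul, pp2_apply, sumMap_apply, MonoidHom.id_apply, constMap,
      LinearMap.coe_mk, AddHom.coe_mk, Finset.sum_const, Finset.card_univ, nsmul_eq_mul]
    rw [← Nat.card_eq_fintype_card, card_cosets]
  have h1 := Submodule.smul_mem _ ((hu.unit⁻¹ : (ZMod p)ˣ) : ZMod p) hmem'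
  rwa [smul_smul, IsUnit.val_inv_mul, one_smul] at h1

theorem sumInj_kerSub (hD : IsOpenLvl (lvlLoc q) D) (hμ : MuTrivial p q D) {ψ₁ : D → ZMod p}
    (hψ₁ : ψ₁ ∈ Z1 (lvD q D) (muD p q D)) (h0 : ψ₁ ≠ 0)
    (heq : D' = kerSub q (toChar p q hμ ψ₁ hψ₁)) (h : D' ≤ D) [Fintype (cosets q D' D)] :
    SumInj (lvD q D) (muD p q D) (cosets q D' D) := by
  have hD' : IsOpenLvl (lvlLoc q) D' :=
    heq ▸ isOpenLvl_map q hD (isOpenLvl_ker_toChar p q hμ ψ₁ hψ₁)
  obtain ⟨C₀, hC₀, hsum, -⟩ := exists_C0 p q hD hμ hψ₁ h0 heq h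
  exact sumInj_of_exists p q hD' h ⟨C₀, hC₀, hsum⟩

/-- An open subgroup with a smaller level has a normal open subgroup of index `p` above it. -/
theorem exists_kerSub_step (hD : IsOpenLvl (lvlLoc q) D) (hμ : MuTrivial p q D)
    {V : Subgroup (Gl q)} (hV : V ∈ lvlLoc q) (hVD : V ≤ D) {n : ℕ}
    (hidx : V.relIndex D = p ^ (n + 1)) :
    ∃ ψ₁, ∃ hψ₁ : ψ₁ ∈ Z1 (lvD q D) (muD p q D), ψ₁ ≠ 0 ∧
      V ≤ kerSub q (toChar p q hμ ψ₁ hψ₁) ∧
      V.relIndex (kerSub q (toChar p q hμ ψ₁ hψ₁)) = p ^ n := by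
  haveI : NeZero p := ⟨(Fact.out : p.Prime).ne_zero⟩
  haveI : Fact (1 < p) := ⟨(Fact.out : p.Prime).one_lt⟩
  haveI := (lvlLoc q).normal_of_mem V hV
  have hVopen : IsOpenLvl (lvlLoc q) V := ⟨V, hV, le_rfl⟩
  haveI : Finite (D ⧸ V.subgroupOf D) := finite_cosets q hVopen D
  obtain ⟨χ₀, hs₀⟩ := exists_normal_index_p p (G := D ⧸ V.subgroupOf D) (n := n) hidx
  have hχ : IsOpenLvl (lvD q D) (χ₀.comp (QuotientGroup.mk' (V.subgroupOf D))).ker :=
    isOpenLvl_mono (isOpenLvl_subgroupOf q hVopen) fun s hs => by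
      rw [MonoidHom.mem_ker, MonoidHom.comp_apply, QuotientGroup.mk'_apply,
        (QuotientGroup.eq_one_iff s).2 hs, map_one]
  refine ⟨_, toAdd_mem_Z1 p q hD hμ hχ, fun h => ?_, fun s hs => ?_, ?_⟩
  · obtain ⟨g, hg⟩ := (hs₀.comp (QuotientGroup.mk'_surjective _)) (Multiplicative.ofAdd 1)
    have hg' : ((χ₀.comp (QuotientGroup.mk' (V.subgroupOf D))) g).toAdd = 1 :=
      congrArg Multiplicative.toAdd hg
    exact zero_ne_one ((congrFun h g).symm.trans hg')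
  · refine ⟨⟨s, hVD hs⟩, ?_, rfl⟩
    show (toChar p q hμ _ _) ⟨s, hVD hs⟩ = 1
    apply Multiplicative.toAdd.injective
    show ((χ₀.comp (QuotientGroup.mk' (V.subgroupOf D))) ⟨s, hVD hs⟩).toAdd = _
    have hs' : (⟨s, hVD hs⟩ : D) ∈ V.subgroupOf D := hs
    rw [MonoidHom.comp_apply, QuotientGroup.mk'_apply, (QuotientGroup.eq_one_iff _).2 hs', map_one]
  · have hVle : V ≤ kerSub q (toChar p q hμ _ (toAdd_mem_Z1 p q hD hμ hχ)) := fun s hs => by
      refine ⟨⟨s, hVD hs⟩, ?_, rfl⟩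
      apply Multiplicative.toAdd.injective
      show ((χ₀.comp (QuotientGroup.mk' (V.subgroupOf D))) ⟨s, hVD hs⟩).toAdd = _
      have hs' : (⟨s, hVD hs⟩ : D) ∈ V.subgroupOf D := hs
      rw [MonoidHom.comp_apply, QuotientGroup.mk'_apply, (QuotientGroup.eq_one_iff _).2 hs',
        map_one]
    have hmul := Subgroup.relIndex_mul_relIndex V _ D hVle (kerSub_le q _)
    rw [hidx, relIndex_kerSub q _ (fun y => by
      obtain ⟨g, hg⟩ := (hs₀.comp (QuotientGroup.mk'_surjective _)) y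
      exact ⟨g, Multiplicative.toAdd.injective (congrArg Multiplicative.toAdd hg :)⟩), pow_succ]
      at hmul
    exact mul_right_cancel₀ (Fact.out : p.Prime).ne_zero hmul

/-- A subgroup of index prime to `p` in which a given level has `p`-power index. -/
theorem exists_sylow_sub {V : Subgroup (Gl q)} (hV : V ∈ lvlLoc q) (hVD : V ≤ D) :
    ∃ P : Subgroup (Gl q), P ≤ D ∧ V ≤ P ∧ IsOpenLvl (lvlLoc q) P ∧ ¬ p ∣ P.relIndex D ∧
      ∃ n, V.relIndex P = p ^ n := by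
  haveI := (lvlLoc q).normal_of_mem V hV
  have hVopen : IsOpenLvl (lvlLoc q) V := ⟨V, hV, le_rfl⟩
  haveI : Finite (D ⧸ V.subgroupOf D) := finite_cosets q hVopen D
  obtain ⟨Q⟩ : Nonempty (Sylow p (D ⧸ V.subgroupOf D)) := inferInstance
  set H := Q.toSubgroup.comap (QuotientGroup.mk' (V.subgroupOf D))
  have hVH : ∀ s : D, (s : Gl q) ∈ V → s ∈ H := fun s hs => by
    rw [Subgroup.mem_comap, QuotientGroup.mk'_apply, (QuotientGroup.eq_one_iff s).2 hs]
    exact Q.one_mem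
  have hle : H.map D.subtype ≤ D := Subgroup.map_subtype_le _
  have hVP : V ≤ H.map D.subtype := fun s hs => ⟨⟨s, hVD hs⟩, hVH _ hs, rfl⟩
  have hidx : (H.map D.subtype).relIndex D = Q.toSubgroup.index := by
    rw [Subgroup.relIndex, Subgroup.subgroupOf,
      Subgroup.comap_map_eq_self_of_injective D.subtype_injective,
      Subgroup.index_comap_of_surjective _ (QuotientGroup.mk'_surjective _)]
  refine ⟨H.map D.subtype, hle, hVP, ⟨V, hV, hVP⟩,
    hidx ▸ Q.not_dvd_index' Subgroup.FiniteIndex.index_ne_zero, ?_⟩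
  obtain ⟨n, hn⟩ := IsPGroup.iff_card.1 Q.2
  refine ⟨n, ?_⟩
  have h := Subgroup.relIndex_mul_relIndex V _ D hVP hle
  rw [hidx, show V.relIndex D = Nat.card (D ⧸ V.subgroupOf D) from rfl,
    ← Q.toSubgroup.card_mul_index, hn] at h
  exact mul_right_cancel₀ Subgroup.FiniteIndex.index_ne_zero h

end FLTA.PT

end
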