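import Fermat.Agent.PoitouTate.HerbrandBasic

/-!
# Herbrand quotients of subgroups and successive approximation
-/

set_option autoImplicit false

namespace FLTA.PT

open FLTA.PoitouTate.Herbrand

universe u

variable {X : Type u} [AddCommGroup X]

/-- Successive approximation along a complete separated filtration. -/
theorem exact_of_filtration {X' Y : Type*} [AddCommGroup X'] [AddCommGroup Y]
    (F : ℕ → AddSubgroup X) (F' : ℕ → AddSubgroup X') (hF0 : F 0 = ⊤)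
    (hsep : ∀ x, (∀ j, x ∈ F j) → x = 0)
    (hcomplete : ∀ y : ℕ → X', (∀ j, y j ∈ F' j) →
      ∃ Y₀, ∀ j, Y₀ - ∑ i ∈ Finset.range j, y i ∈ F' j)
    (a : X →+ Y) (b : X' →+ X) (hab : ∀ x, a (b x) = 0) (hb : ∀ j, ∀ x ∈ F' j, b x ∈ F j)
    (step : ∀ j, ∀ x ∈ F j, a x = 0 → ∃ y ∈ F' j, x - b y ∈ F (j + 1)) :
    ∀ x, a x = 0 → ∃ y, b y = x := by
  intro x hx
  have step' : ∀ j, ∀ z : X, ∃ y ∈ F' j, (z ∈ F j → a z = 0 → z - b y ∈ F (j + 1)) := by
    intro j z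
    by_cases h : z ∈ F j ∧ a z = 0
    · obtain ⟨y, hy, hy'⟩ := step j z h.1 h.2
      exact ⟨y, hy, fun _ _ => hy'⟩
    · exact ⟨0, zero_mem _, fun h1 h2 => absurd ⟨h1, h2⟩ h⟩
  choose g hg hg' using step'
  let z : ℕ → X := fun j => Nat.rec x (fun k zk => zk - b (g k zk)) j
  have hz0 : z 0 = x := rfl
  have hzs : ∀ j, z (j + 1) = z j - b (g j (z j)) := fun j => rfl
  have hz : ∀ j, z j ∈ F j ∧ a (z j) = 0 := by
    intro j
    induction j with
    | zero => exact ⟨hF0 ▸ trivial, hx⟩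
    | succ j ih =>
      rw [hzs]
      exact ⟨hg' j _ ih.1 ih.2, by rw [map_sub, ih.2, hab, sub_zero]⟩
  have hsum : ∀ j, z j = x - b (∑ i ∈ Finset.range j, g i (z i)) := by
    intro j
    induction j with
    | zero => simp [hz0]
    | succ j ih => rw [hzs, Finset.sum_range_succ, map_add, ← sub_sub, ← ih]
  obtain ⟨Y₀, hY⟩ := hcomplete (fun i => g i (z i)) (fun i => hg i _)
  refine ⟨Y₀, (sub_eq_zero.1 (hsep _ fun j => ?_)).symm⟩
  have := AddSubgroup.sub_mem _ (hz j).1 (hb j _ (hY j))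
  rw [hsum, map_sub] at this
  simpa [sub_sub] using this

/-- The order of `ker a / im b` is one when the kernel is the image. -/
theorem hcard_eq_one (a b : X →+ X) (h : ∀ x, a x = 0 → ∃ y, b y = x) : hcard a b = 1 := by
  rw [hcard_eq_relIndex, AddSubgroup.relIndex_eq_one]
  intro x hx
  exact h x hx

/-- An endomorphism restricted to an invariant subgroup. -/
def resEnd (f : X →+ X) (Y : AddSubgroup X) (h : ∀ x ∈ Y, f x ∈ Y) : Y →+ Y :=
  (f.comp Y.subtype).codRestrict Y fun x => h x x.2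

@[simp] theorem coe_resEnd (f : X →+ X) (Y : AddSubgroup X) (h : ∀ x ∈ Y, f x ∈ Y) (x : Y) :
    ((resEnd f Y h x : Y) : X) = f x := rfl

/-- Herbrand quotients of commensurable subgroups agree (cross-multiplied form). -/
theorem hcard_mul_of_finiteIndex (a b : X →+ X) (Y Z : AddSubgroup X) (hle : Y ≤ Z)
    (haY : ∀ x ∈ Y, a x ∈ Y) (hbY : ∀ x ∈ Y, b x ∈ Y)
    (haZ : ∀ x ∈ Z, a x ∈ Z) (hbZ : ∀ x ∈ Z, b x ∈ Z)
    (hab : ∀ x ∈ Z, a (b x) = 0) (hba : ∀ x ∈ Z, b (a x) = 0)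
    [Finite (Z ⧸ Y.addSubgroupOf Z)] :
    hcard (resEnd a Z haZ) (resEnd b Z hbZ) * hcard (resEnd b Y hbY) (resEnd a Y haY) =
      hcard (resEnd a Y haY) (resEnd b Y hbY) * hcard (resEnd b Z hbZ) (resEnd a Z haZ) := by
  let aC : Z ⧸ Y.addSubgroupOf Z →+ Z ⧸ Y.addSubgroupOf Z :=
    QuotientAddGroup.map _ _ (resEnd a Z haZ) fun x hx => haY _ hx
  let bC : Z ⧸ Y.addSubgroupOf Z →+ Z ⧸ Y.addSubgroupOf Z :=
    QuotientAddGroup.map _ _ (resEnd b Z hbZ) fun x hx => hbY _ hx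
  have habZ : ∀ x, resEnd a Z haZ (resEnd b Z hbZ x) = 0 := fun x => Subtype.ext (hab x x.2)
  have hbaZ : ∀ x, resEnd b Z hbZ (resEnd a Z haZ x) = 0 := fun x => Subtype.ext (hba x x.2)
  have key := hcard_mul_of_exact (resEnd a Y haY) (resEnd b Y hbY) (resEnd a Z haZ)
    (resEnd b Z hbZ) aC bC (AddSubgroup.inclusion hle) (QuotientAddGroup.mk' (Y.addSubgroupOf Z))
    (fun _ => rfl) (fun _ => rfl) (fun _ => rfl) (fun _ => rfl)
    (fun z => by
      rw [QuotientAddGroup.mk'_apply, QuotientAddGroup.eq_zero_iff]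
      exact ⟨fun h => ⟨⟨z, h⟩, Subtype.ext rfl⟩, by rintro ⟨y, rfl⟩; exact y.2⟩)
    (AddSubgroup.inclusion_injective hle) (QuotientAddGroup.mk'_surjective _)
    (fun x => Subtype.ext (hba x (hle x.2))) (fun x => Subtype.ext (hab x (hle x.2))) habZ hbaZ
  have hC : hcard aC bC = hcard bC aC := hcard_eq_of_finite _ _
    (fun x => by
      induction x using QuotientAddGroup.induction_on with | _ x => ?_
      exact congrArg (QuotientAddGroup.mk' (Y.addSubgroupOf Z)) (habZ x))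
    (fun x => by
      induction x using QuotientAddGroup.induction_on with | _ x => ?_
      exact congrArg (QuotientAddGroup.mk' (Y.addSubgroupOf Z)) (hbaZ x))
  have hpos : 0 < hcard aC bC := Nat.pos_of_ne_zero (hcard_ne_zero_of_finite _ _)
  rw [← hC] at key
  refine Nat.eq_of_mul_eq_mul_left hpos ?_
  linarith

/-- Finiteness of `ker a / im b` passes to a finite-index overgroup. -/
theorem hcard_ne_zero_of_finiteIndex (a b : X →+ X) (Y Z : AddSubgroup X) (hle : Y ≤ Z)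
    (haY : ∀ x ∈ Y, a x ∈ Y) (hbY : ∀ x ∈ Y, b x ∈ Y)
    (haZ : ∀ x ∈ Z, a x ∈ Z) (hbZ : ∀ x ∈ Z, b x ∈ Z)
    (hab : ∀ x ∈ Z, a (b x) = 0) (hY : hcard (resEnd a Y haY) (resEnd b Y hbY) ≠ 0)
    [Finite (Z ⧸ Y.addSubgroupOf Z)] :
    hcard (resEnd a Z haZ) (resEnd b Z hbZ) ≠ 0 := by
  let aC : Z ⧸ Y.addSubgroupOf Z →+ Z ⧸ Y.addSubgroupOf Z :=
    QuotientAddGroup.map _ _ (resEnd a Z haZ) fun x hx => haY _ hx
  let bC : Z ⧸ Y.addSubgroupOf Z →+ Z ⧸ Y.addSubgroupOf Z :=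
    QuotientAddGroup.map _ _ (resEnd b Z hbZ) fun x hx => hbY _ hx
  exact hcard_ne_zero_of_exact (resEnd a Y haY) (resEnd b Y hbY) (resEnd a Z haZ)
    (resEnd b Z hbZ) aC bC (AddSubgroup.inclusion hle) (QuotientAddGroup.mk' (Y.addSubgroupOf Z))
    (fun _ => rfl) (fun _ => rfl) (fun _ => rfl) (fun _ => rfl)
    (fun z => by
      rw [QuotientAddGroup.mk'_apply, QuotientAddGroup.eq_zero_iff]
      exact ⟨fun h => ⟨⟨z, h⟩, Subtype.ext rfl⟩, by rintro ⟨y, rfl⟩; exact y.2⟩)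
    (AddSubgroup.inclusion_injective hle) (QuotientAddGroup.mk'_surjective _)
    (fun x => Subtype.ext (hab x x.2)) hY (hcard_ne_zero_of_finite _ _)

/-- Herbrand quotient of a subgroup with quotient `ℤ`. -/
theorem hcard_mul_of_valuation {X : Type} [AddCommGroup X] (a b : X →+ X) (Y Z : AddSubgroup X)
    (haY : ∀ x ∈ Y, a x ∈ Y) (hbY : ∀ x ∈ Y, b x ∈ Y)
    (haZ : ∀ x ∈ Z, a x ∈ Z) (hbZ : ∀ x ∈ Z, b x ∈ Z)
    (hab : ∀ x ∈ Z, a (b x) = 0) (hba : ∀ x ∈ Z, b (a x) = 0)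
    (v : Z →+ ℤ) (hv : Function.Surjective v) (hker : ∀ x : Z, v x = 0 ↔ (x : X) ∈ Y)
    (hle : Y ≤ Z) (n : ℕ) (hn : n ≠ 0)
    (hva : ∀ x, v (resEnd a Z haZ x) = 0) (hvb : ∀ x, v (resEnd b Z hbZ x) = n * v x) :
    n * hcard (resEnd a Y haY) (resEnd b Y hbY) * hcard (resEnd b Z hbZ) (resEnd a Z haZ) =
      hcard (resEnd a Z haZ) (resEnd b Z hbZ) * hcard (resEnd b Y hbY) (resEnd a Y haY) := by
  have key := hcard_mul_of_exact (resEnd a Y haY) (resEnd b Y hbY) (resEnd a Z haZ)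
    (resEnd b Z hbZ) (0 : ℤ →+ ℤ) (AddMonoidHom.mulLeft (n : ℤ)) (AddSubgroup.inclusion hle) v
    (fun _ => rfl) (fun _ => rfl) (fun x => by rw [hva]; rfl) (fun x => by rw [hvb]; rfl)
    (fun z => by
      rw [hker]
      exact ⟨fun h => ⟨⟨z, h⟩, Subtype.ext rfl⟩, by rintro ⟨y, rfl⟩; exact y.2⟩)
    (AddSubgroup.inclusion_injective hle) hv
    (fun x => Subtype.ext (hba x (hle x.2))) (fun x => Subtype.ext (hab x (hle x.2)))
    (fun x => Subtype.ext (hab x x.2)) (fun x => Subtype.ext (hba x x.2))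
  have h1 : hcard (0 : ℤ →+ ℤ) (AddMonoidHom.mulLeft (n : ℤ)) = n := by
    rw [hcard_eq_relIndex, AddMonoidHom.ker_zero, AddSubgroup.relIndex_top_right,
      show (AddMonoidHom.mulLeft (n : ℤ)).range = AddSubgroup.zmultiples (n : ℤ) from ?_,
      Int.index_zmultiples, Int.natAbs_natCast]
    ext x
    simp [AddSubgroup.mem_zmultiples_iff, mul_comm, eq_comm]
  have h2 : hcard (AddMonoidHom.mulLeft (n : ℤ)) (0 : ℤ →+ ℤ) = 1 :=
    hcard_eq_one _ _ fun x hx => ⟨0, by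
      have : x = 0 := by simpa [hn] using hx
      simp [this]⟩
  rw [h1, h2] at key
  linarith

end FLTA.PT
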