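import Fermat.Agent.PoitouTate.LocalFields
import Fermat.Agent.PoitouTate.LocalHerbrand

/-!
# Small lattice neighbourhoods of `1` in the units of a finite extension of `ℚ_q`
-/

set_option autoImplicit false
set_option linter.style.haveILetI false

open ExtCitation Filter

noncomputable section

namespace FLTA.PT

attribute [local instance] factPrime

variable {q : Nat.Primes}

/-- The underlying element of `ℚ̄_q`. -/
def mval (a : Ml q) : Ql q := ((Additive.toMul a : (Ql q)ˣ) : Ql q)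

theorem mval_add (a b : Ml q) : mval (a + b) = mval a * mval b := rfl

theorem mval_zero : mval (0 : Ml q) = 1 := rfl

theorem mval_ne_zero (a : Ml q) : mval a ≠ 0 := Units.ne_zero _

theorem mval_neg (a : Ml q) : mval (-a) = (mval a)⁻¹ := Units.val_inv_eq_inv_val _

theorem mval_injective : Function.Injective (mval (q := q)) := fun a b h =>
  Additive.toMul.injective (Units.ext h)

theorem mval_unitsRepLoc (s : Gl q) (a : Ml q) :
    mval (unitsRepLoc q s a) = locAut q s (mval a) := rfl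

theorem exists_mval_eq {x : Ql q} (hx : x ≠ 0) : ∃ a : Ml q, mval a = x :=
  ⟨Additive.ofMul (Units.mk0 x hx), rfl⟩

/-- The unit group of a subfield. -/
def unitsIn (L : IntermediateField ℚ_[(q : ℕ)] (Ql q)) : AddSubgroup (Ml q) where
  carrier := {a | mval a ∈ L ∧ ‖mval a‖ = 1}
  zero_mem' := ⟨by rw [mval_zero]; exact one_mem L, by rw [mval_zero, norm_one]⟩
  add_mem' ha hb := ⟨by rw [mval_add]; exact mul_mem ha.1 hb.1, by
    rw [mval_add, norm_mul, ha.2, hb.2, one_mul]⟩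
  neg_mem' ha := ⟨by rw [mval_neg]; exact inv_mem ha.1, by rw [mval_neg, norm_inv, ha.2, inv_one]⟩

theorem isCompact_ball_inter (L : IntermediateField ℚ_[(q : ℕ)] (Ql q))
    [FiniteDimensional ℚ_[(q : ℕ)] L] (R : ℝ) :
    IsCompact ((Subtype.val : L → Ql q) '' Metric.closedBall 0 R) := by
  haveI : ProperSpace L := FiniteDimensional.proper ℚ_[(q : ℕ)] L
  exact (isCompact_closedBall _ _).image continuous_subtype_val

theorem exists_finite_cover (L : IntermediateField ℚ_[(q : ℕ)] (Ql q))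
    [FiniteDimensional ℚ_[(q : ℕ)] L] (R : ℝ) {δ : ℝ} (hδ : 0 < δ) :
    ∃ t : Set (Ql q), t.Finite ∧ (∀ y ∈ t, y ∈ L ∧ ‖y‖ ≤ R) ∧
      ∀ x ∈ L, ‖x‖ ≤ R → ∃ y ∈ t, ‖x - y‖ < δ := by
  obtain ⟨t, ht, hfin, hcov⟩ := finite_cover_balls_of_compact (isCompact_ball_inter L R) hδ
  refine ⟨t, hfin, fun y hy => ?_, fun x hx hxR => ?_⟩
  · obtain ⟨z, hz, rfl⟩ := ht hy
    exact ⟨z.2, mem_closedBall_zero_iff.1 hz⟩
  · have h : x ∈ ⋃ y ∈ t, Metric.ball y δ :=
      hcov ⟨⟨x, hx⟩, mem_closedBall_zero_iff.2 hxR, rfl⟩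
    simp only [Set.mem_iUnion, mem_ball_iff_norm] at h
    obtain ⟨y, hy, hd⟩ := h
    exact ⟨y, hy, hd⟩

section lattice

variable {L : IntermediateField ℚ_[(q : ℕ)] (Ql q)} [FiniteDimensional ℚ_[(q : ℕ)] L]
  {ι : Type} [Fintype ι] (b : Module.Basis ι ℚ_[(q : ℕ)] L)

open Classical in
/-- Coordinates of an element. -/
def coord (z : Ql q) : ι → ℚ_[(q : ℕ)] := if h : z ∈ L then b.equivFun ⟨z, h⟩ else 0

theorem coord_coe (z : L) : coord b (z : Ql q) = b.equivFun z := by
  rw [coord, dif_pos z.2]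

theorem coord_add {x y : Ql q} (hx : x ∈ L) (hy : y ∈ L) :
    coord b (x + y) = coord b x + coord b y := by
  rw [show x + y = ((⟨x, hx⟩ + ⟨y, hy⟩ : L) : Ql q) from rfl, coord_coe, map_add,
    ← coord_coe b ⟨x, hx⟩, ← coord_coe b ⟨y, hy⟩]

theorem coord_sub {x y : Ql q} (hx : x ∈ L) (hy : y ∈ L) :
    coord b (x - y) = coord b x - coord b y := by
  rw [show x - y = ((⟨x, hx⟩ - ⟨y, hy⟩ : L) : Ql q) from rfl, coord_coe, map_sub,
    ← coord_coe b ⟨x, hx⟩, ← coord_coe b ⟨y, hy⟩]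

theorem exists_coord_bound : ∃ C : ℝ, 1 ≤ C ∧
    ∀ z ∈ L, ‖coord b z‖ ≤ C * ‖z‖ ∧ ‖z‖ ≤ C * ‖coord b z‖ := by
  let g : (ι → ℚ_[(q : ℕ)]) →L[ℚ_[(q : ℕ)]] Ql q :=
    LinearMap.toContinuousLinearMap (L.val.toLinearMap.comp b.equivFun.symm.toLinearMap)
  have hinj : LinearMap.ker (g : (ι → ℚ_[(q : ℕ)]) →ₗ[ℚ_[(q : ℕ)]] Ql q) = ⊥ := by
    rw [LinearMap.ker_eq_bot]
    exact Subtype.val_injective.comp b.equivFun.symm.injective
  obtain ⟨K, -, hK⟩ := LinearMap.exists_antilipschitzWith _ hinj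
  refine ⟨max 1 (max (K : ℝ) ‖g‖), le_max_left _ _, fun z hz => ?_⟩
  have hg : g (coord b z) = z := by
    obtain ⟨w, rfl⟩ : ∃ w : L, (w : Ql q) = z := ⟨⟨z, hz⟩, rfl⟩
    rw [coord_coe]
    exact congrArg Subtype.val (b.equivFun.symm_apply_apply w)
  have h1 : ‖coord b z‖ ≤ (K : ℝ) * ‖z‖ := by
    have := hK.le_mul_dist (coord b z) 0
    simp only [map_zero, dist_zero_right] at this
    rwa [show (g : (ι → ℚ_[(q : ℕ)]) →ₗ[ℚ_[(q : ℕ)]] Ql q) (coord b z) = z from hg] at this
  have h2 : ‖z‖ ≤ ‖g‖ * ‖coord b z‖ := by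
    have := g.le_opNorm (coord b z)
    rwa [hg] at this
  exact ⟨h1.trans (mul_le_mul_of_nonneg_right ((le_max_left _ _).trans (le_max_right _ _))
      (norm_nonneg _)),
    h2.trans (mul_le_mul_of_nonneg_right ((le_max_right _ _).trans (le_max_right _ _))
      (norm_nonneg _))⟩

/-- The bound of the coordinates. -/
def latC : ℝ := (exists_coord_bound b).choose

theorem one_le_latC : 1 ≤ latC b := (exists_coord_bound b).choose_spec.1

theorem norm_coord_le {z : Ql q} (hz : z ∈ L) : ‖coord b z‖ ≤ latC b * ‖z‖ :=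
  ((exists_coord_bound b).choose_spec.2 z hz).1

theorem norm_le_coord {z : Ql q} (hz : z ∈ L) : ‖z‖ ≤ latC b * ‖coord b z‖ :=
  ((exists_coord_bound b).choose_spec.2 z hz).2

theorem norm_coord_mul {x y : Ql q} (hx : x ∈ L) (hy : y ∈ L) :
    ‖coord b (x * y)‖ ≤ latC b ^ 3 * (‖coord b x‖ * ‖coord b y‖) := by
  have hC := one_le_latC b
  calc ‖coord b (x * y)‖ ≤ latC b * ‖x * y‖ := norm_coord_le b (mul_mem hx hy)
    _ = latC b * (‖x‖ * ‖y‖) := by rw [norm_mul]
    _ ≤ latC b * ((latC b * ‖coord b x‖) * (latC b * ‖coord b y‖)) := by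
        gcongr
        · exact norm_le_coord b hx
        · exact norm_le_coord b hy
    _ = _ := by ring

variable (q) in
/-- The inverse of `q` as a real number. -/
def invq : ℝ := ((q : ℕ) : ℝ)⁻¹

theorem invq_pos : 0 < invq q := inv_pos.2 (Nat.cast_pos.2 q.2.pos)

theorem invq_lt_one : invq q < 1 := inv_lt_one_of_one_lt₀ (by exact_mod_cast q.2.one_lt)

theorem exists_level : ∃ N : ℕ, latC b ^ 3 * invq q ^ N ≤ invq q ^ 2 := by
  have hC : 0 < latC b ^ 3 := pow_pos (lt_of_lt_of_le one_pos (one_le_latC b)) 3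
  obtain ⟨N, hN⟩ := exists_pow_lt_of_lt_one (div_pos (pow_pos (invq_pos (q := q)) 2) hC) invq_lt_one
  exact ⟨N, by rw [← le_div_iff₀' hC]; exact hN.le⟩

/-- The starting exponent. -/
def latN : ℕ := (exists_level b).choose

/-- The radii. -/
def latR (j : ℕ) : ℝ := invq q ^ (latN b + j)

theorem latR_pos (j : ℕ) : 0 < latR b j := pow_pos invq_pos _

theorem latR_anti {i j : ℕ} (h : i ≤ j) : latR b j ≤ latR b i :=
  pow_le_pow_of_le_one invq_pos.le invq_lt_one.le (by omega)

theorem latC_cube_mul_latR (i j : ℕ) : latC b ^ 3 * (latR b i * latR b j) ≤ latR b (i + j + 2) := by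
  have := (exists_level b).choose_spec
  calc latC b ^ 3 * (latR b i * latR b j)
      = (latC b ^ 3 * invq q ^ latN b) * invq q ^ (latN b + i + j) := by
        simp only [latR, pow_add]; ring
    _ ≤ invq q ^ 2 * invq q ^ (latN b + i + j) :=
        mul_le_mul_of_nonneg_right this (pow_nonneg invq_pos.le _)
    _ = latR b (i + j + 2) := by simp only [latR, pow_add]; ring

theorem latC_mul_latR_zero_lt_one : latC b * latR b 0 < 1 := by
  have h : latC b ^ 3 * latR b 0 ≤ invq q ^ 2 := (exists_level b).choose_spec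
  have h1 : latC b * latR b 0 ≤ latC b ^ 3 * latR b 0 :=
    mul_le_mul_of_nonneg_right (le_self_pow₀ (one_le_latC b) (by norm_num)) (latR_pos b 0).le
  exact lt_of_le_of_lt (h1.trans h) (pow_lt_one₀ (invq_pos (q := q)).le invq_lt_one two_ne_zero)

/-- Coordinates of `a - 1`. -/
def cd (a : Ml q) : ι → ℚ_[(q : ℕ)] := coord b (mval a - 1)

theorem cd_zero : cd b 0 = 0 := by
  rw [cd, mval_zero, sub_self, show (0 : Ql q) = ((0 : L) : Ql q) from rfl, coord_coe, map_zero]

theorem cd_add_eq {a c : Ml q} (ha : mval a ∈ L) (hc : mval c ∈ L) :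
    cd b (a + c) = cd b a + cd b c + coord b ((mval a - 1) * (mval c - 1)) := by
  have h1 := sub_mem ha (one_mem L)
  have h2 := sub_mem hc (one_mem L)
  rw [cd, mval_add, show mval a * mval c - 1 =
    (mval a - 1) + (mval c - 1) + (mval a - 1) * (mval c - 1) by ring,
    coord_add b (add_mem h1 h2) (mul_mem h1 h2), coord_add b h1 h2]
  rfl

theorem norm_cd_add_sub {a c : Ml q} (ha : mval a ∈ L) (hc : mval c ∈ L) :
    ‖cd b (a + c) - cd b a - cd b c‖ ≤ latC b ^ 3 * (‖cd b a‖ * ‖cd b c‖) := by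
  rw [cd_add_eq b ha hc, add_assoc, add_sub_cancel_left, add_sub_cancel_left]
  exact norm_coord_mul b (sub_mem ha (one_mem L)) (sub_mem hc (one_mem L))

theorem le_of_le_max_mul {s t θ : ℝ} (hθ : θ < 1) (ht : 0 ≤ t) (h : s ≤ max t (θ * s)) :
    s ≤ t := by
  rcases le_max_iff.1 h with h | h
  · exact h
  · nlinarith

theorem latC_cube_mul_lt_one {s : ℝ} (hs : s ≤ latR b 0) : latC b ^ 3 * s < 1 := by
  have hC : 0 ≤ latC b ^ 3 := pow_nonneg (zero_le_one.trans (one_le_latC b)) 3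
  refine lt_of_le_of_lt ((mul_le_mul_of_nonneg_left hs hC).trans ?_)
    (pow_lt_one₀ (invq_pos (q := q)).le invq_lt_one two_ne_zero)
  exact (exists_level b).choose_spec

/-- The filtration by lattice neighbourhoods of `1`. -/
def lat (j : ℕ) : AddSubgroup (Ml q) where
  carrier := {a | mval a ∈ L ∧ ‖cd b a‖ ≤ latR b j}
  zero_mem' := ⟨by rw [mval_zero]; exact one_mem L, by rw [cd_zero, norm_zero]; exact (latR_pos b j).le⟩
  add_mem' {a c} ha hc := by
    refine ⟨by rw [mval_add]; exact mul_mem ha.1 hc.1, ?_⟩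
    rw [cd_add_eq b ha.1 hc.1]
    refine (IsUltrametricDist.norm_add_le_max _ _).trans (max_le ((IsUltrametricDist.norm_add_le_max _ _).trans (max_le ha.2 hc.2)) ?_)
    refine (norm_coord_mul b (sub_mem ha.1 (one_mem L)) (sub_mem hc.1 (one_mem L))).trans ?_
    refine le_trans ?_ ((latC_cube_mul_latR b j j).trans (latR_anti b (by omega)))
    exact mul_le_mul_of_nonneg_left (mul_le_mul ha.2 hc.2 (norm_nonneg _) (latR_pos b j).le)
      (pow_nonneg (zero_le_one.trans (one_le_latC b)) 3)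
  neg_mem' {a} ha := by
    have hn : mval (-a) ∈ L := by rw [mval_neg]; exact inv_mem ha.1
    refine ⟨hn, ?_⟩
    have e := cd_add_eq b ha.1 hn
    rw [add_neg_cancel, cd_zero] at e
    have e' : cd b (-a) = -(cd b a + coord b ((mval a - 1) * (mval (-a) - 1))) := by
      rw [eq_neg_iff_add_eq_zero, e]; abel
    refine le_of_le_max_mul (latC_cube_mul_lt_one b (ha.2.trans (latR_anti b (Nat.zero_le j))))
      (latR_pos b j).le ?_
    conv_lhs => rw [e', norm_neg]
    refine (IsUltrametricDist.norm_add_le_max _ _).trans (max_le_max ha.2 ?_)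
    exact (norm_coord_mul b (sub_mem ha.1 (one_mem L)) (sub_mem hn (one_mem L))).trans_eq
      (mul_assoc _ _ _).symm

theorem mem_lat {j : ℕ} {a : Ml q} : a ∈ lat b j ↔ mval a ∈ L ∧ ‖cd b a‖ ≤ latR b j := Iff.rfl

theorem lat_anti {i j : ℕ} (h : i ≤ j) : lat b j ≤ lat b i :=
  fun _ ha => ⟨ha.1, ha.2.trans (latR_anti b h)⟩

theorem cd_add_err {i j : ℕ} {a c : Ml q} (ha : a ∈ lat b i) (hc : c ∈ lat b j) :
    ‖cd b (a + c) - cd b a - cd b c‖ ≤ latR b (i + j + 2) :=
  (norm_cd_add_sub b ha.1 hc.1).trans ((mul_le_mul_of_nonneg_left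
    (mul_le_mul ha.2 hc.2 (norm_nonneg _) (latR_pos b i).le)
    (pow_nonneg (zero_le_one.trans (one_le_latC b)) 3)).trans (latC_cube_mul_latR b i j))

theorem norm_mval_sub_one_lt {a : Ml q} (ha : a ∈ lat b 0) : ‖mval a - 1‖ < 1 :=
  lt_of_le_of_lt ((norm_le_coord b (sub_mem ha.1 (one_mem L))).trans
    (mul_le_mul_of_nonneg_left ha.2 (zero_le_one.trans (one_le_latC b))))
    (latC_mul_latR_zero_lt_one b)

theorem lat_le_unitsIn : lat b 0 ≤ unitsIn L := by
  intro a ha
  refine ⟨ha.1, ?_⟩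
  have h := norm_mval_sub_one_lt b ha
  rw [show mval a = (mval a - 1) + 1 by ring,
    IsUltrametricDist.norm_add_eq_max_of_norm_ne_norm (by rw [norm_one]; exact h.ne), norm_one,
    max_eq_right h.le]

theorem exists_cd_eq {j : ℕ} {c : ι → ℚ_[(q : ℕ)]} (hc : ‖c‖ ≤ latR b j) :
    ∃ a ∈ lat b j, cd b a = c := by
  set z : L := b.equivFun.symm c with hz
  have hcz : coord b (z : Ql q) = c := by rw [coord_coe, hz, LinearEquiv.apply_symm_apply]
  have h1 : ‖(z : Ql q)‖ < 1 := lt_of_le_of_lt ((norm_le_coord b z.2).trans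
    (mul_le_mul_of_nonneg_left (by rw [hcz]; exact hc.trans (latR_anti b (Nat.zero_le j)))
      (zero_le_one.trans (one_le_latC b)))) (latC_mul_latR_zero_lt_one b)
  have h0 : (z : Ql q) + 1 ≠ 0 := fun h => by
    rw [eq_neg_of_add_eq_zero_left h, norm_neg, norm_one] at h1
    exact lt_irrefl _ h1
  obtain ⟨a, ha⟩ := exists_mval_eq h0
  have hcd : cd b a = c := by rw [cd, ha, add_sub_cancel_right, hcz]
  exact ⟨a, ⟨by rw [ha]; exact add_mem z.2 (one_mem L), hcd ▸ hc⟩, hcd⟩

theorem sub_mem_lat {j : ℕ} {a c : Ml q} (ha : a ∈ lat b 0) (hc : c ∈ lat b 0)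
    (h : ‖cd b a - cd b c‖ ≤ latR b j) : a - c ∈ lat b j := by
  have hw : a - c ∈ lat b 0 := AddSubgroup.sub_mem _ ha hc
  refine ⟨hw.1, ?_⟩
  have e := cd_add_eq b hw.1 hc.1
  rw [sub_add_cancel] at e
  have e' : cd b (a - c) =
      (cd b a - cd b c) + -coord b ((mval (a - c) - 1) * (mval c - 1)) := by rw [e]; abel
  refine le_of_le_max_mul (latC_cube_mul_lt_one b hc.2) (latR_pos b j).le ?_
  conv_lhs => rw [e']
  refine (IsUltrametricDist.norm_add_le_max _ _).trans (max_le_max h ?_)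
  rw [norm_neg]
  refine (norm_coord_mul b (sub_mem hw.1 (one_mem L)) (sub_mem hc.1 (one_mem L))).trans_eq ?_
  show latC b ^ 3 * (‖cd b (a - c)‖ * ‖cd b c‖) = _
  ring

theorem eq_zero_of_forall_lat {a : Ml q} (h : ∀ j, a ∈ lat b j) : a = 0 := by
  have h0 : ‖cd b a‖ ≤ 0 := by
    have ht : Tendsto (latR b) atTop (nhds 0) := by
      have := (tendsto_pow_atTop_nhds_zero_of_lt_one invq_pos.le (invq_lt_one (q := q))).const_mul
        (invq q ^ latN b)
      rw [mul_zero] at this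
      exact this.congr fun j => (pow_add _ _ _).symm
    exact ge_of_tendsto' ht (fun j => (h j).2)
  have h1 := (norm_le_coord b (sub_mem (h 0).1 (one_mem L))).trans
    (mul_le_mul_of_nonneg_left h0 (zero_le_one.trans (one_le_latC b)))
  rw [mul_zero, norm_le_zero_iff, sub_eq_zero] at h1
  exact mval_injective (h1.trans mval_zero.symm)

theorem lat_complete (y : ℕ → Ml q) (hy : ∀ j, y j ∈ lat b j) :
    ∃ Y ∈ lat b 0, ∀ j, Y - ∑ i ∈ Finset.range j, y i ∈ lat b j := by
  set S : ℕ → Ml q := fun j => ∑ i ∈ Finset.range j, y i with hS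
  have hS0 : ∀ j, S j ∈ lat b 0 := fun j =>
    AddSubgroup.sum_mem _ fun i _ => lat_anti b (Nat.zero_le i) (hy i)
  have hstep : ∀ j, ‖cd b (S (j + 1)) - cd b (S j)‖ ≤ latR b j := by
    intro j
    rw [show S (j + 1) = S j + y j from Finset.sum_range_succ _ _,
      show cd b (S j + y j) - cd b (S j) =
        (cd b (S j + y j) - cd b (S j) - cd b (y j)) + cd b (y j) by abel]
    exact (IsUltrametricDist.norm_add_le_max _ _).trans
      (max_le ((cd_add_err b (hS0 j) (hy j)).trans (latR_anti b (by omega))) (hy j).2)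
  have hdiff : ∀ j m, ‖cd b (S (j + m)) - cd b (S j)‖ ≤ latR b j := by
    intro j m
    induction m with
    | zero => simpa using (latR_pos b j).le
    | succ m ih =>
      rw [← add_assoc, show cd b (S (j + m + 1)) - cd b (S j) =
        (cd b (S (j + m + 1)) - cd b (S (j + m))) + (cd b (S (j + m)) - cd b (S j)) by abel]
      exact (IsUltrametricDist.norm_add_le_max _ _).trans
        (max_le ((hstep _).trans (latR_anti b (by omega))) ih)
  obtain ⟨c, hc⟩ := cauchySeq_tendsto_of_complete (cauchySeq_of_le_geometric (invq q)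
    (invq q ^ latN b) invq_lt_one (f := fun j => cd b (S j)) (fun j => by
      rw [dist_comm, dist_eq_norm, ← pow_add]; exact hstep j))
  have hlim : ∀ j, ‖c - cd b (S j)‖ ≤ latR b j := fun j => by
    refine le_of_tendsto' (((hc.comp (tendsto_add_atTop_nat j)).sub_const _).norm) fun m => ?_
    simp only [Function.comp_apply]
    rw [add_comm m j]
    exact hdiff j m
  have hc0 : ‖c‖ ≤ latR b 0 := le_of_tendsto' hc.norm fun j => (hS0 j).2
  obtain ⟨Y, hY, hYc⟩ := exists_cd_eq b hc0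
  exact ⟨Y, hY, fun j => sub_mem_lat b hY (hS0 j) (hYc ▸ hlim j)⟩

theorem finite_quotient_lat : Finite (unitsIn L ⧸ (lat b 0).addSubgroupOf (unitsIn L)) := by
  classical
  obtain ⟨t, htfin, -, hcov⟩ := exists_finite_cover L 1
    (δ := min 1 (latR b 0 / latC b))
    (lt_min one_pos (div_pos (latR_pos b 0) (lt_of_lt_of_le one_pos (one_le_latC b))))
  haveI := htfin.to_subtype
  have hpick : ∀ u : unitsIn L, ∃ y : t, ‖mval (u : Ml q) - y‖ < min 1 (latR b 0 / latC b) :=
    fun u => by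
      obtain ⟨y, hy, hd⟩ := hcov _ u.2.1 u.2.2.le
      exact ⟨⟨y, hy⟩, hd⟩
  choose f hf using hpick
  refine Finite.of_injective (fun x => f x.out) fun x x' h => ?_
  simp only at h
  rw [← QuotientAddGroup.out_eq' x, ← QuotientAddGroup.out_eq' x', QuotientAddGroup.eq]
  rw [AddSubgroup.mem_addSubgroupOf, AddSubgroup.coe_add, NegMemClass.coe_neg]
  set u := (x.out : unitsIn L)
  set u' := (x'.out : unitsIn L)
  have hw : mval (-(u : Ml q) + (u' : Ml q)) ∈ L := by
    rw [mval_add, mval_neg]; exact mul_mem (inv_mem u.2.1) u'.2.1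
  refine ⟨hw, (norm_coord_le b (sub_mem hw (one_mem L))).trans ?_⟩
  have hd : ‖mval (u' : Ml q) - mval (u : Ml q)‖ ≤ latR b 0 / latC b := by
    rw [show mval (u' : Ml q) - mval (u : Ml q) =
      (mval (u' : Ml q) - (f u' : Ql q)) + -(mval (u : Ml q) - (f u : Ql q)) by
      rw [show f u = f u' from h]; ring]
    refine (IsUltrametricDist.norm_add_le_max _ _).trans (max_le ((hf u').le.trans (min_le_right _ _)) ?_)
    rw [norm_neg]
    exact (hf u).le.trans (min_le_right _ _)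
  have e : mval (-(u : Ml q) + (u' : Ml q)) - 1 =
      (mval (u : Ml q))⁻¹ * (mval (u' : Ml q) - mval (u : Ml q)) := by
    rw [mval_add, mval_neg, mul_sub, inv_mul_cancel₀ (mval_ne_zero _)]
  rw [e, norm_mul, norm_inv, u.2.2, inv_one, one_mul]
  exact (le_div_iff₀' (lt_of_lt_of_le one_pos (one_le_latC b))).1 hd

end lattice

end FLTA.PT

end
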