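import Fermat.Agent.PoitouTate.LocalLattice

/-!
# Herbrand quotients of the lattice neighbourhoods: cyclic action and `p`-th powers
-/

set_option autoImplicit false
set_option linter.style.haveILetI false

open ExtCitation Filter FLTA.PoitouTate.Herbrand

noncomputable section

namespace FLTA.PT

attribute [local instance] factPrime

variable {q : Nat.Primes}

/-- Translation by a group element. -/
def rhoEnd (s : Gl q) : Ml q →+ Ml q := (unitsRepLoc q s).toAddMonoidHom

/-- `σ - 1`. -/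
def diffEnd (σ : Gl q) : Ml q →+ Ml q := rhoEnd σ - AddMonoidHom.id _

/-- `1 + σ + ⋯ + σ^(n-1)`. -/
def normEnd (σ : Gl q) (n : ℕ) : Ml q →+ Ml q := ∑ k ∈ Finset.range n, rhoEnd (σ ^ k)

/-- Multiplication by `p`. -/
def powEnd (q : Nat.Primes) (p : ℕ) : Ml q →+ Ml q := nsmulAddMonoidHom p

theorem rhoEnd_apply (s : Gl q) (a : Ml q) : rhoEnd s a = unitsRepLoc q s a := rfl

theorem diffEnd_apply (σ : Gl q) (a : Ml q) : diffEnd σ a = unitsRepLoc q σ a - a := rfl

theorem normEnd_apply (σ : Gl q) (n : ℕ) (a : Ml q) :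
    normEnd σ n a = ∑ k ∈ Finset.range n, unitsRepLoc q (σ ^ k) a := by
  simp [normEnd, rhoEnd_apply]

theorem powEnd_apply (p : ℕ) (a : Ml q) : powEnd q p a = p • a := rfl

theorem rhoEnd_pow_succ (σ : Gl q) (k : ℕ) (a : Ml q) :
    unitsRepLoc q σ (unitsRepLoc q (σ ^ k) a) = unitsRepLoc q (σ ^ (k + 1)) a := by
  rw [pow_succ', map_mul]; rfl

theorem diffEnd_normEnd {σ : Gl q} {n : ℕ} {a : Ml q} (ha : unitsRepLoc q (σ ^ n) a = a) :
    diffEnd σ (normEnd σ n a) = 0 := by
  rw [diffEnd_apply, normEnd_apply, map_sum]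
  simp only [rhoEnd_pow_succ]
  rw [← Finset.sum_sub_distrib, Finset.sum_range_sub (fun k => unitsRepLoc q (σ ^ k) a) n, ha,
    pow_zero, map_one]
  exact sub_self a

theorem normEnd_diffEnd {σ : Gl q} {n : ℕ} {a : Ml q} (ha : unitsRepLoc q (σ ^ n) a = a) :
    normEnd σ n (diffEnd σ a) = 0 := by
  rw [diffEnd_apply, normEnd_apply]
  simp only [map_sub]
  rw [Finset.sum_sub_distrib]
  have h : ∀ k, unitsRepLoc q (σ ^ k) (unitsRepLoc q σ a) = unitsRepLoc q (σ ^ (k + 1)) a := by
    intro k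
    rw [pow_succ, map_mul]; rfl
  simp only [h]
  rw [← Finset.sum_sub_distrib, Finset.sum_range_sub (fun k => unitsRepLoc q (σ ^ k) a) n, ha,
    pow_zero, map_one]
  exact sub_self a

section lattice

variable {L : IntermediateField ℚ_[(q : ℕ)] (Ql q)} [FiniteDimensional ℚ_[(q : ℕ)] L]
  {ι : Type} [Fintype ι] (b : Module.Basis ι ℚ_[(q : ℕ)] L)

theorem norm_cd_sum_sub {κ : Type*} (s : Finset κ) (f : κ → Ml q) {j : ℕ}
    (hf : ∀ k ∈ s, f k ∈ lat b j) :
    ‖cd b (∑ k ∈ s, f k) - ∑ k ∈ s, cd b (f k)‖ ≤ latR b (j + 2) := by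
  classical
  induction s using Finset.induction with
  | empty => simpa [cd_zero] using (latR_pos b _).le
  | @insert x s hx ih =>
    have hs : ∀ k ∈ s, f k ∈ lat b j := fun k hk => hf k (Finset.mem_insert_of_mem hk)
    rw [Finset.sum_insert hx, Finset.sum_insert hx,
      show cd b (f x + ∑ k ∈ s, f k) - (cd b (f x) + ∑ k ∈ s, cd b (f k)) =
        (cd b (f x + ∑ k ∈ s, f k) - cd b (f x) - cd b (∑ k ∈ s, f k)) +
          (cd b (∑ k ∈ s, f k) - ∑ k ∈ s, cd b (f k)) by abel]
    refine (IsUltrametricDist.norm_add_le_max _ _).trans (max_le ?_ (ih hs))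
    exact (cd_add_err b (hf x (Finset.mem_insert_self _ _)) (AddSubgroup.sum_mem _ hs)).trans
      (latR_anti b (by omega))

theorem norm_cd_neg_add {j : ℕ} {a : Ml q} (ha : a ∈ lat b j) :
    ‖cd b (-a) + cd b a‖ ≤ latR b (j + 2) := by
  have h := cd_add_err b ha (AddSubgroup.neg_mem _ ha)
  rw [add_neg_cancel, cd_zero, show (0 : ι → ℚ_[(q : ℕ)]) - cd b a - cd b (-a) =
    -(cd b (-a) + cd b a) by abel, norm_neg] at h
  exact h.trans (latR_anti b (by omega))

theorem norm_cd_sub_sub {j : ℕ} {a c : Ml q} (ha : a ∈ lat b j) (hc : c ∈ lat b j) :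
    ‖cd b (a - c) - (cd b a - cd b c)‖ ≤ latR b (j + 2) := by
  rw [sub_eq_add_neg a c, show cd b (a + -c) - (cd b a - cd b c) =
    (cd b (a + -c) - cd b a - cd b (-c)) + (cd b (-c) + cd b c) by abel]
  exact (IsUltrametricDist.norm_add_le_max _ _).trans (max_le
    ((cd_add_err b ha (AddSubgroup.neg_mem _ hc)).trans (latR_anti b (by omega)))
    (norm_cd_neg_add b hc))

theorem mem_lat_succ_of_near {j : ℕ} {a c : Ml q} (ha : a ∈ lat b j) (hc : c ∈ lat b j)
    {e : ι → ℚ_[(q : ℕ)]} (h : ‖cd b a - e‖ ≤ latR b (j + 1))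
    (h' : ‖cd b c - e‖ ≤ latR b (j + 1)) : a - c ∈ lat b (j + 1) := by
  refine sub_mem_lat b (lat_anti b (Nat.zero_le j) ha) (lat_anti b (Nat.zero_le j) hc) ?_
  rw [show cd b a - cd b c = (cd b a - e) + -(cd b c - e) by abel]
  exact (IsUltrametricDist.norm_add_le_max _ _).trans (max_le h (by rwa [norm_neg]))

/-- The lattice filtration inside its first term. -/
def latF (j : ℕ) : AddSubgroup (lat b 0) := (lat b j).addSubgroupOf (lat b 0)

theorem latF_zero : latF b 0 = ⊤ := by
  ext x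
  exact iff_of_true x.2 trivial

theorem latF_sep (x : lat b 0) (h : ∀ j, x ∈ latF b j) : x = 0 :=
  Subtype.ext (eq_zero_of_forall_lat b h)

theorem latF_complete (y : ℕ → lat b 0) (hy : ∀ j, y j ∈ latF b j) :
    ∃ Y, ∀ j, Y - ∑ i ∈ Finset.range j, y i ∈ latF b j := by
  obtain ⟨Y, hY, hY'⟩ := lat_complete b (fun i => (y i : Ml q)) hy
  refine ⟨⟨Y, hY⟩, fun j => ?_⟩
  rw [latF, AddSubgroup.mem_addSubgroupOf]
  push_cast
  exact hY' j

end lattice

section cyclic

variable {L : IntermediateField ℚ_[(q : ℕ)] (Ql q)} [FiniteDimensional ℚ_[(q : ℕ)] L]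
  {κ : Type} [Fintype κ] {n : ℕ} [NeZero n]
  (b : Module.Basis (κ × ZMod n) ℚ_[(q : ℕ)] L) (σ : Gl q)
  (hσ : ∀ i k, locAut q σ (b (i, k) : Ql q) = (b (i, k + 1) : Ql q))

include hσ

theorem locAut_eq_sum (x : L) :
    locAut q σ (x : Ql q) =
      ((∑ p, b.equivFun x (p.1, p.2 - 1) • b p : L) : Ql q) := by
  conv_lhs => rw [← b.sum_equivFun x]
  simp only [IntermediateField.coe_sum, IntermediateField.coe_smul, map_sum]
  refine Fintype.sum_equiv ((Equiv.refl κ).prodCongr (Equiv.addRight (1 : ZMod n))) _ _ (fun p => ?_)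
  rw [Algebra.smul_def, map_mul, AlgEquiv.commutes, ← Algebra.smul_def, hσ]
  simp
  rfl

theorem locAut_mem {z : Ql q} (hz : z ∈ L) : locAut q σ z ∈ L := by
  rw [locAut_eq_sum b σ hσ ⟨z, hz⟩]
  exact SetLike.coe_mem _

theorem coord_locAut {z : Ql q} (hz : z ∈ L) :
    coord b (locAut q σ z) = fun p => coord b z (p.1, p.2 - 1) := by
  obtain ⟨x, rfl⟩ : ∃ w : L, (w : Ql q) = z := ⟨⟨z, hz⟩, rfl⟩
  rw [locAut_eq_sum b σ hσ x, coord_coe, coord_coe, ← b.equivFun_symm_apply,
    LinearEquiv.apply_symm_apply]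

theorem pow_locAut (k : ℕ) {z : Ql q} (hz : z ∈ L) :
    locAut q (σ ^ k) z ∈ L ∧
      coord b (locAut q (σ ^ k) z) = fun p => coord b z (p.1, p.2 - (k : ZMod n)) := by
  induction k with
  | zero => exact ⟨by simpa using hz, by simp⟩
  | succ k ih =>
    have e : locAut q (σ ^ (k + 1)) z = locAut q σ (locAut q (σ ^ k) z) := by
      rw [pow_succ', map_mul]; rfl
    refine ⟨e ▸ locAut_mem b σ hσ ih.1, ?_⟩
    rw [e, coord_locAut b σ hσ ih.1, ih.2]
    funext p
    simp only [Nat.cast_add, Nat.cast_one, sub_sub, add_comm (1 : ZMod n)]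

theorem cd_rho_pow (k : ℕ) {a : Ml q} (ha : mval a ∈ L) :
    mval (unitsRepLoc q (σ ^ k) a) ∈ L ∧
      cd b (unitsRepLoc q (σ ^ k) a) = fun p => cd b a (p.1, p.2 - (k : ZMod n)) := by
  refine ⟨(mval_unitsRepLoc (σ ^ k) a) ▸ (pow_locAut b σ hσ k ha).1, ?_⟩
  rw [cd, mval_unitsRepLoc, ← map_one (locAut q (σ ^ k)), ← map_sub]
  exact (pow_locAut b σ hσ k (sub_mem ha (one_mem L))).2

theorem rho_pow_mem_lat (k : ℕ) {j : ℕ} {a : Ml q} (ha : a ∈ lat b j) :
    unitsRepLoc q (σ ^ k) a ∈ lat b j := by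
  obtain ⟨h1, h2⟩ := cd_rho_pow b σ hσ k ha.1
  refine ⟨h1, le_trans ?_ ha.2⟩
  rw [h2]
  exact (pi_norm_le_iff_of_nonneg (norm_nonneg _)).2 fun p => norm_le_pi_norm (cd b a) _

theorem pow_card_fix {a : Ml q} (ha : mval a ∈ L) : unitsRepLoc q (σ ^ n) a = a := by
  obtain ⟨h1, h2⟩ := pow_locAut b σ hσ n ha
  apply mval_injective
  rw [mval_unitsRepLoc]
  have e : (⟨_, h1⟩ : L) = ⟨_, ha⟩ := b.equivFun.injective (by
    rw [← coord_coe, ← coord_coe]
    show coord b (locAut q (σ ^ n) (mval a)) = coord b (mval a)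
    rw [h2]
    funext p
    rw [ZMod.natCast_self, sub_zero])
  exact congrArg Subtype.val e

theorem diff_mem_lat {j : ℕ} {a : Ml q} (ha : a ∈ lat b j) : diffEnd σ a ∈ lat b j := by
  have := rho_pow_mem_lat b σ hσ 1 ha
  rw [pow_one] at this
  exact AddSubgroup.sub_mem _ this ha

theorem norm_mem_lat {j : ℕ} {a : Ml q} (ha : a ∈ lat b j) : normEnd σ n a ∈ lat b j := by
  rw [normEnd_apply]
  exact AddSubgroup.sum_mem _ fun k _ => rho_pow_mem_lat b σ hσ k ha

theorem hcard_lat_cyclic :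
    hcard (resEnd (diffEnd σ) (lat b 0) fun _ => diff_mem_lat b σ hσ)
      (resEnd (normEnd σ n) (lat b 0) fun _ => norm_mem_lat b σ hσ) = 1 ∧
    hcard (resEnd (normEnd σ n) (lat b 0) fun _ => norm_mem_lat b σ hσ)
      (resEnd (diffEnd σ) (lat b 0) fun _ => diff_mem_lat b σ hσ) = 1 := by
  constructor
  · refine hcard_eq_one _ _ (exact_of_filtration (latF b) (latF b) (latF_zero b) (latF_sep b)
      (latF_complete b) _ _ (fun x => Subtype.ext (diffEnd_normEnd (pow_card_fix b σ hσ x.2.1)))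
      (fun j x hx => norm_mem_lat b σ hσ hx) ?_)
    intro j x hx hx0
    set c := cd b (x : Ml q) with hc
    have hfix : unitsRepLoc q σ (x : Ml q) = x := sub_eq_zero.1 (congrArg Subtype.val hx0)
    have hconst : ∀ i k, c (i, k) = c (i, 0) := by
      intro i k
      have h1 := (cd_rho_pow b σ hσ k.val x.2.1).2
      have h2 : unitsRepLoc q (σ ^ k.val) (x : Ml q) = x := by
        generalize k.val = m
        induction m with
        | zero => simp
        | succ m ih => rw [← rhoEnd_pow_succ, ih, hfix]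
      rw [h2, ← hc] at h1
      have h3 := congrFun h1 (i, k)
      simp only [ZMod.natCast_val, ZMod.cast_id', id_eq, sub_self] at h3
      exact h3
    obtain ⟨y, hy, hyd⟩ := exists_cd_eq b
      (c := fun p : κ × ZMod n => if p.2 = 0 then c p else 0) (j := j)
      ((pi_norm_le_iff_of_nonneg (latR_pos b j).le).2 fun p => by
        split_ifs
        · exact (norm_le_pi_norm c p).trans hx.2
        · simpa using (latR_pos b j).le)
    refine ⟨⟨y, lat_anti b (Nat.zero_le j) hy⟩, hy, ?_⟩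
    refine mem_lat_succ_of_near b hx (norm_mem_lat b σ hσ hy) (e := c)
      (by simpa [hc] using (latR_pos b (j + 1)).le) ?_
    rw [coe_resEnd, normEnd_apply]
    have hsum : ∑ k ∈ Finset.range n, cd b (unitsRepLoc q (σ ^ k) y) = c := by
      funext p
      rw [Finset.sum_apply, Finset.sum_congr rfl fun k _ =>
        congrFun ((cd_rho_pow b σ hσ k hy.1).2) p, hyd]
      have := hconst p.1 p.2
      rw [show c p = c (p.1, 0) from this]
      rw [Finset.sum_eq_single_of_mem (p.2.val) (Finset.mem_range.2 (ZMod.val_lt _))]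
      · simp
      · intro k hk hne
        simp only
        rw [if_neg]
        intro h0
        apply hne
        rw [sub_eq_zero] at h0
        rw [h0, ZMod.val_natCast_of_lt (Finset.mem_range.1 hk)]
    have := norm_cd_sum_sub b (Finset.range n) (fun k => unitsRepLoc q (σ ^ k) y)
      (fun k _ => rho_pow_mem_lat b σ hσ k hy)
    rw [hsum] at this
    exact this.trans (latR_anti b (by omega))
  · refine hcard_eq_one _ _ (exact_of_filtration (latF b) (latF b) (latF_zero b) (latF_sep b)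
      (latF_complete b) _ _ (fun x => Subtype.ext (normEnd_diffEnd (pow_card_fix b σ hσ x.2.1)))
      (fun j x hx => diff_mem_lat b σ hσ hx) ?_)
    intro j x hx hx0
    set c := cd b (x : Ml q) with hc
    have hN : ∑ k ∈ Finset.range n, unitsRepLoc q (σ ^ k) (x : Ml q) = 0 := by
      rw [← normEnd_apply]; exact congrArg Subtype.val hx0
    have hS : ∀ i, ‖∑ m ∈ Finset.range n, c (i, -(m : ZMod n))‖ ≤ latR b (j + 2) := by
      intro i
      have h := norm_cd_sum_sub b (Finset.range n) (fun k => unitsRepLoc q (σ ^ k) (x : Ml q))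
        (fun k _ => rho_pow_mem_lat b σ hσ k hx)
      rw [hN, cd_zero, zero_sub, norm_neg] at h
      refine le_trans ?_ h
      refine le_trans ?_ (norm_le_pi_norm _ (i, (0 : ZMod n)))
      rw [Finset.sum_apply]
      refine le_of_eq (congrArg norm (Finset.sum_congr rfl fun k _ => ?_))
      rw [(cd_rho_pow b σ hσ k x.2.1).2]
      show c (i, -(k : ZMod n)) = c (i, 0 - (k : ZMod n))
      rw [zero_sub]
    -- a partial-sum primitive
    set d : κ × ZMod n → ℚ_[(q : ℕ)] := fun p =>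
      -∑ m ∈ Finset.range p.2.val, c (p.1, (m : ZMod n) + 1) with hd
    have hdn : ‖d‖ ≤ latR b j := (pi_norm_le_iff_of_nonneg (latR_pos b j).le).2 fun p => by
      rw [hd, norm_neg]
      exact IsUltrametricDist.norm_sum_le_of_forall_le_of_nonneg (latR_pos b j).le
        fun m _ => (norm_le_pi_norm c _).trans hx.2
    have hprim : ‖(fun p : κ × ZMod n => d (p.1, p.2 - 1)) - d - c‖ ≤ latR b (j + 2) := by
      refine (pi_norm_le_iff_of_nonneg (latR_pos b _).le).2 fun p => ?_
      obtain ⟨i, l⟩ := p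
      show ‖d (i, l - 1) - d (i, l) - c (i, l)‖ ≤ latR b (j + 2)
      by_cases hl : l = 0
      · subst hl
        have hv : (-1 : ZMod n).val = n - 1 := by
          obtain ⟨k, rfl⟩ := Nat.exists_eq_succ_of_ne_zero (NeZero.ne n)
          exact ZMod.val_neg_one k
        have e : ∑ m ∈ Finset.range n, c (i, -(m : ZMod n)) =
            ∑ m ∈ Finset.range (n - 1), c (i, (m : ZMod n) + 1) + c (i, 0) := by
          have h1 : ∀ f : ZMod n → ℚ_[(q : ℕ)],
              ∑ m ∈ Finset.range n, f (m : ZMod n) = ∑ z, f z := fun f =>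
            Finset.sum_nbij' (fun m => (m : ZMod n)) ZMod.val
              (fun _ _ => Finset.mem_univ _) (fun z _ => Finset.mem_range.2 (ZMod.val_lt z))
              (fun m hm => ZMod.val_natCast_of_lt (Finset.mem_range.1 hm))
              (fun z _ => ZMod.natCast_zmod_val z) (fun _ _ => rfl)
          rw [h1 (fun z => c (i, -z)), Fintype.sum_equiv (Equiv.neg (ZMod n))
            (fun z => c (i, -z)) (fun z => c (i, z)) (fun z => rfl),
            ← Fintype.sum_equiv (Equiv.addRight (1 : ZMod n)) (fun z => c (i, z + 1))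
              (fun z => c (i, z)) (fun z => rfl), ← h1 (fun z => c (i, z + 1))]
          have hn1 : n = (n - 1) + 1 := (Nat.succ_pred_eq_of_ne_zero (NeZero.ne n)).symm
          conv_lhs =>
            rw [show Finset.range n = Finset.range (n - 1 + 1) from congrArg Finset.range hn1,
              Finset.sum_range_succ]
          rw [show ((n - 1 : ℕ) : ZMod n) + 1 = 0 by
            rw [← Nat.cast_one (R := ZMod n), ← Nat.cast_add, ← hn1, ZMod.natCast_self]]
        simp only [hd, zero_sub, hv, ZMod.val_zero, Finset.range_zero, Finset.sum_empty, neg_zero,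
          sub_zero]
        rw [show -∑ m ∈ Finset.range (n - 1), c (i, (m : ZMod n) + 1) - c (i, 0) =
          -(∑ m ∈ Finset.range n, c (i, -(m : ZMod n))) by rw [e]; ring, norm_neg]
        exact hS i
      · have hpos : 0 < l.val := Nat.pos_of_ne_zero fun h => hl ((ZMod.val_eq_zero l).1 h)
        have hsub : (l - 1).val = l.val - 1 := by
          have : l - 1 = ((l.val - 1 : ℕ) : ZMod n) := by
            rw [Nat.cast_sub hpos, ZMod.natCast_zmod_val, Nat.cast_one]
          rw [this, ZMod.val_natCast_of_lt (lt_of_le_of_lt (Nat.sub_le _ _) (ZMod.val_lt l))]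
        have hlast : ((l.val - 1 : ℕ) : ZMod n) + 1 = l := by
          rw [Nat.cast_sub hpos, ZMod.natCast_zmod_val, Nat.cast_one, sub_add_cancel]
        have hval : l.val = (l.val - 1) + 1 := by omega
        simp only [hd, hsub]
        conv_lhs =>
          rw [hval, Finset.sum_range_succ, hlast]
        simp only [add_tsub_cancel_right, neg_add_rev, sub_neg_eq_add]
        rw [show (-∑ m ∈ Finset.range (l.val - 1), c (i, (m : ZMod n) + 1)) -
          (-c (i, l) + -∑ m ∈ Finset.range (l.val - 1), c (i, (m : ZMod n) + 1)) - c (i, l) = 0 by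
          ring, norm_zero]
        exact (latR_pos b _).le
    obtain ⟨y, hy, hyd⟩ := exists_cd_eq b hdn
    refine ⟨⟨y, lat_anti b (Nat.zero_le j) hy⟩, hy, ?_⟩
    refine mem_lat_succ_of_near b hx (diff_mem_lat b σ hσ hy) (e := c)
      (by simpa [hc] using (latR_pos b (j + 1)).le) ?_
    have h := cd_rho_pow b σ hσ 1 hy.1
    rw [pow_one, Nat.cast_one] at h
    have hr := rho_pow_mem_lat b σ hσ 1 hy
    rw [pow_one] at hr
    have h2 := norm_cd_sub_sub b hr hy
    rw [h.2, hyd] at h2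
    rw [coe_resEnd, diffEnd_apply, show cd b (unitsRepLoc q σ y - y) - c =
      (cd b (unitsRepLoc q σ y - y) - ((fun p : κ × ZMod n => d (p.1, p.2 - 1)) - d)) +
        ((fun p : κ × ZMod n => d (p.1, p.2 - 1)) - d - c) by abel]
    exact ((IsUltrametricDist.norm_add_le_max _ _).trans (max_le h2 hprim)).trans
      (latR_anti b (by omega))

end cyclic

section power

variable {L : IntermediateField ℚ_[(q : ℕ)] (Ql q)} [FiniteDimensional ℚ_[(q : ℕ)] L]
  {ι : Type} [Fintype ι] (b : Module.Basis ι ℚ_[(q : ℕ)] L) (p : ℕ) [hp : Fact p.Prime]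

theorem norm_natCast_ne (h : (q : ℕ) ≠ p) : ‖(p : ℚ_[(q : ℕ)])‖ = 1 := by
  rw [Padic.norm_natCast_eq_one_iff]
  exact (Nat.coprime_primes q.2 hp.out).2 h

theorem norm_natCast_eq (h : (q : ℕ) = p) : ‖(p : ℚ_[(q : ℕ)])‖ = invq q := by
  rw [← h, Padic.norm_p]; rfl

theorem natCast_prime_ne_zero : (p : ℚ_[(q : ℕ)]) ≠ 0 := Nat.cast_ne_zero.2 hp.out.ne_zero

theorem norm_cd_nsmul_sub (m : ℕ) {j : ℕ} {a : Ml q} (ha : a ∈ lat b j) :
    ‖cd b (m • a) - (m : ℚ_[(q : ℕ)]) • cd b a‖ ≤ latR b (j + 2) := by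
  have := norm_cd_sum_sub b (Finset.range m) (fun _ => a) (fun _ _ => ha)
  rwa [Finset.sum_const, Finset.sum_const, Finset.card_range, ← Nat.cast_smul_eq_nsmul ℚ_[(q : ℕ)] m
    (cd b a)] at this

theorem pow_mem_lat {j : ℕ} {a : Ml q} (ha : a ∈ lat b j) : powEnd q p a ∈ lat b j :=
  AddSubgroup.nsmul_mem _ ha _

theorem nsmul_eq_zero_lat {a : Ml q} (ha : a ∈ lat b 0) (h : p • a = 0) : a = 0 := by
  refine eq_zero_of_forall_lat b fun j => ?_
  induction j with
  | zero => exact ha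
  | succ j ih =>
    have h2 := norm_cd_nsmul_sub b p ih
    rw [h, cd_zero, zero_sub, norm_neg, norm_smul] at h2
    refine ⟨ih.1, ?_⟩
    by_cases hqp : (q : ℕ) = p
    · rw [norm_natCast_eq p hqp] at h2
      refine le_of_mul_le_mul_left (h2.trans_eq ?_) (invq_pos (q := q))
      simp only [latR, pow_add]; ring
    · rw [norm_natCast_ne p hqp, one_mul] at h2
      exact h2.trans (latR_anti b (by omega))

theorem hcard_pow_lat_left :
    hcard (resEnd (powEnd q p) (lat b 0) fun _ => pow_mem_lat b p)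
      (resEnd (0 : Ml q →+ Ml q) (lat b 0) fun _ _ => zero_mem _) = 1 :=
  hcard_eq_one _ _ fun x hx => ⟨0, Subtype.ext (by
    rw [coe_resEnd]
    exact (nsmul_eq_zero_lat b p x.2 (congrArg Subtype.val hx)).symm)⟩

theorem exists_pow_eq_of_ne (h : (q : ℕ) ≠ p) (x : lat b 0) :
    ∃ y, resEnd (powEnd q p) (lat b 0) (fun _ => pow_mem_lat b p) y = x := by
  refine exact_of_filtration (latF b) (latF b) (latF_zero b) (latF_sep b) (latF_complete b)
    (0 : lat b 0 →+ lat b 0) _ (fun _ => rfl) (fun j x hx => pow_mem_lat b p hx) ?_ x rfl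
  intro j x hx _
  have hn : ‖(p : ℚ_[(q : ℕ)])⁻¹ • cd b (x : Ml q)‖ ≤ latR b j := by
    rw [norm_smul, norm_inv, norm_natCast_ne p h, inv_one, one_mul]; exact hx.2
  obtain ⟨y, hy, hyd⟩ := exists_cd_eq b hn
  refine ⟨⟨y, lat_anti b (Nat.zero_le j) hy⟩, hy,
    mem_lat_succ_of_near b hx (pow_mem_lat b p hy) (e := cd b (x : Ml q))
      (by simpa using (latR_pos b (j + 1)).le) ?_⟩
  have h2 := norm_cd_nsmul_sub b p hy
  rw [hyd, smul_inv_smul₀ (natCast_prime_ne_zero p)] at h2
  exact h2.trans (latR_anti b (by omega))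

theorem pow_mem_lat_succ (h : (q : ℕ) = p) {j : ℕ} {a : Ml q} (ha : a ∈ lat b j) :
    powEnd q p a ∈ lat b (j + 1) := by
  refine ⟨(pow_mem_lat b p ha).1, ?_⟩
  rw [powEnd_apply, show cd b (p • a) =
    (cd b (p • a) - (p : ℚ_[(q : ℕ)]) • cd b a) + (p : ℚ_[(q : ℕ)]) • cd b a by abel]
  refine (IsUltrametricDist.norm_add_le_max _ _).trans
    (max_le ((norm_cd_nsmul_sub b p ha).trans (latR_anti b (by omega))) ?_)
  rw [norm_smul, norm_natCast_eq p h]
  refine (mul_le_mul_of_nonneg_left ha.2 invq_pos.le).trans_eq ?_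
  simp only [latR, pow_add]; ring

theorem range_pow_of_eq (h : (q : ℕ) = p) :
    (resEnd (powEnd q p) (lat b 0) fun _ => pow_mem_lat b p).range = latF b 1 := by
  apply le_antisymm
  · rintro _ ⟨y, rfl⟩
    exact pow_mem_lat_succ b p h y.2
  · intro x hx
    let F : ℕ → AddSubgroup (latF b 1) := fun j => (latF b (j + 1)).addSubgroupOf (latF b 1)
    let f : lat b 0 →+ latF b 1 :=
      (resEnd (powEnd q p) (lat b 0) fun _ => pow_mem_lat b p).codRestrict (latF b 1)
        fun y => pow_mem_lat_succ b p h y.2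
    obtain ⟨y, hy⟩ := exact_of_filtration F (latF b)
      (by ext z; exact iff_of_true z.2 trivial)
      (fun z hz => Subtype.ext (latF_sep b _ fun j => lat_anti b (Nat.le_succ j) (hz j)))
      (latF_complete b) (0 : latF b 1 →+ latF b 1) f (fun _ => rfl)
      (fun j y hy => pow_mem_lat_succ b p h hy) (fun j z hz _ => by
        have hn : ‖(p : ℚ_[(q : ℕ)])⁻¹ • cd b ((z : lat b 0) : Ml q)‖ ≤ latR b j := by
          rw [norm_smul, norm_inv, norm_natCast_eq p h, inv_mul_le_iff₀ (invq_pos (q := q))]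
          refine (hz : ((z : lat b 0) : Ml q) ∈ lat b (j + 1)).2.trans_eq ?_
          simp only [latR, pow_add]; ring
        obtain ⟨y, hy, hyd⟩ := exists_cd_eq b hn
        refine ⟨⟨y, lat_anti b (Nat.zero_le j) hy⟩, hy, ?_⟩
        show ((z : lat b 0) : Ml q) - powEnd q p y ∈ lat b (j + 1 + 1)
        refine mem_lat_succ_of_near b hz (pow_mem_lat_succ b p h hy)
          (e := cd b ((z : lat b 0) : Ml q)) (by simpa using (latR_pos b (j + 1 + 1)).le) ?_
        have h2 := norm_cd_nsmul_sub b p hy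
        rw [hyd, smul_inv_smul₀ (natCast_prime_ne_zero p)] at h2
        exact h2) ⟨x, hx⟩ rfl
    exact ⟨y, congrArg Subtype.val hy⟩

/-- The first digit of the coordinates. -/
def digit (a : lat b 0) (i : ι) : ZMod (q : ℕ) :=
  PadicInt.toZMod (⟨cd b (a : Ml q) i / ((q : ℕ) : ℚ_[(q : ℕ)]) ^ latN b, by
    rw [norm_div, norm_pow, Padic.norm_p, show ((q : ℕ) : ℝ)⁻¹ = invq q from rfl, div_le_one (pow_pos (invq_pos (q := q)) _)]
    exact (norm_le_pi_norm _ i).trans (a.2.2.trans_eq (by simp [latR, invq]))⟩ : ℤ_[(q : ℕ)])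

theorem toZMod_eq_iff {x y : ℤ_[(q : ℕ)]} :
    PadicInt.toZMod x = PadicInt.toZMod y ↔ ‖(x : ℚ_[(q : ℕ)]) - y‖ ≤ invq q := by
  rw [← sub_eq_zero, ← map_sub, ← RingHom.mem_ker, PadicInt.ker_toZMod,
    PadicInt.maximalIdeal_eq_span_p, ← PadicInt.coe_sub, ← PadicInt.norm_def]
  have := PadicInt.norm_le_pow_iff_mem_span_pow (x - y) 1
  rw [pow_one] at this
  rw [← this, invq]
  simp

theorem latR_div (j : ℕ) (z : ℚ_[(q : ℕ)]) :
    ‖z / ((q : ℕ) : ℚ_[(q : ℕ)]) ^ latN b‖ ≤ invq q ^ j ↔ ‖z‖ ≤ latR b j := by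
  rw [norm_div, norm_pow, Padic.norm_p, show ((q : ℕ) : ℝ)⁻¹ = invq q from rfl, div_le_iff₀ (pow_pos (invq_pos (q := q)) _)]
  simp [latR, pow_add, invq, mul_comm]

theorem digit_add (a c : lat b 0) : digit b (a + c) = digit b a + digit b c := by
  funext i
  rw [Pi.add_apply, digit, digit, digit]
  refine Eq.trans (toZMod_eq_iff.2 ?_) (map_add _ _ _)
  show ‖cd b ((a : Ml q) + c) i / _ - (cd b (a : Ml q) i / _ + cd b (c : Ml q) i / _)‖ ≤ _
  rw [← add_div, ← sub_div, ← pow_one (invq q), latR_div]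
  refine le_trans ?_ ((cd_add_err b a.2 c.2).trans (latR_anti b (by omega)))
  rw [← sub_sub]
  exact norm_le_pi_norm (cd b ((a : Ml q) + c) - cd b (a : Ml q) - cd b (c : Ml q)) i

theorem index_latF_one : (latF b 1).index = (q : ℕ) ^ Fintype.card ι := by
  let f : lat b 0 →+ (ι → ZMod (q : ℕ)) := AddMonoidHom.mk' (digit b) (digit_add b)
  have hsurj : Function.Surjective f := by
    intro t
    let c : ι → ℚ_[(q : ℕ)] := fun i => ((t i).val : ℚ_[(q : ℕ)]) * ((q : ℕ) : ℚ_[(q : ℕ)]) ^ latN b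
    have hc : ‖c‖ ≤ latR b 0 := (pi_norm_le_iff_of_nonneg (latR_pos b 0).le).2 fun i => by
      rw [norm_mul, norm_pow, Padic.norm_p, latR, add_zero, invq]
      refine mul_le_of_le_one_left (pow_nonneg (inv_nonneg.2 (Nat.cast_nonneg _)) _) ?_
      exact_mod_cast Padic.norm_int_le_one ((t i).val : ℤ)
    obtain ⟨a, ha, hac⟩ := exists_cd_eq b hc
    refine ⟨⟨a, ha⟩, funext fun i => ?_⟩
    show digit b ⟨a, ha⟩ i = t i
    rw [digit, ← ZMod.natCast_zmod_val (t i), ← map_natCast PadicInt.toZMod]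
    congr 1
    apply Subtype.ext
    show cd b a i / _ = _
    rw [hac]
    simp only [c, PadicInt.coe_natCast]
    rw [mul_div_cancel_right₀ _ (pow_ne_zero _ (Nat.cast_ne_zero.2 q.2.ne_zero))]
  have hker : f.ker = latF b 1 := by
    ext a
    rw [AddMonoidHom.mem_ker, latF, AddSubgroup.mem_addSubgroupOf, mem_lat, funext_iff]
    constructor
    · intro h
      refine ⟨a.2.1, (pi_norm_le_iff_of_nonneg (latR_pos b 1).le).2 fun i => ?_⟩
      have := h i
      rw [Pi.zero_apply, ← map_zero (PadicInt.toZMod (p := (q : ℕ)))] at this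
      have := toZMod_eq_iff.1 (this : digit b a i = _)
      rwa [PadicInt.coe_zero, sub_zero, ← pow_one (invq q), latR_div] at this
    · intro h i
      rw [Pi.zero_apply, ← map_zero (PadicInt.toZMod (p := (q : ℕ)))]
      refine toZMod_eq_iff.2 ?_
      rw [PadicInt.coe_zero, sub_zero, ← pow_one (invq q), latR_div]
      exact (norm_le_pi_norm _ i).trans h.2
  rw [← hker, AddSubgroup.index_ker, AddMonoidHom.range_eq_top.2 hsurj, AddSubgroup.card_top,
    Nat.card_fun, Nat.card_zmod, Nat.card_eq_fintype_card]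

theorem hcard_pow_lat_right :
    hcard (resEnd (0 : Ml q →+ Ml q) (lat b 0) fun _ _ => zero_mem _)
      (resEnd (powEnd q p) (lat b 0) fun _ => pow_mem_lat b p) =
      if (q : ℕ) = p then p ^ Fintype.card ι else 1 := by
  rw [hcard_eq_relIndex, show (resEnd (0 : Ml q →+ Ml q) (lat b 0) fun _ _ => zero_mem _) = 0 from
    rfl, AddMonoidHom.ker_zero, AddSubgroup.relIndex_top_right]
  split_ifs with h
  · rw [range_pow_of_eq b p h, index_latF_one b, h]
  · rw [AddMonoidHom.range_eq_top.2 (exists_pow_eq_of_ne b p h), AddSubgroup.index_top]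

end power

end FLTA.PT

end
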