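import Fermat.Agent.PoitouTate.LocalValue
import Fermat.Agent.PoitouTate.MuEmb

/-!
# The local norm index of a cyclic extension and the count of classes modulo `p`-th powers
-/

set_option autoImplicit false
set_option linter.style.haveILetI false

open ExtCitation FLTA.PoitouTate.Herbrand

noncomputable section

namespace FLTA.PT

attribute [local instance] factPrime

section group

variable {Γ : Type*} [Group Γ] {H D : Subgroup Γ}

/-- A generating character of a cyclic quotient. -/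
theorem exists_cyclic_char (hfi : H.FiniteIndex) [(H.subgroupOf D).Normal]
    [hc : IsCyclic (D ⧸ H.subgroupOf D)] :
    NeZero (H.relIndex D) ∧ ∃ χ : D →* Multiplicative (ZMod (H.relIndex D)),
      Function.Surjective χ ∧ χ.ker = H.subgroupOf D := by
  haveI : (H.subgroupOf D).FiniteIndex := inferInstance
  have hcard : Nat.card (D ⧸ H.subgroupOf D) = H.relIndex D := rfl
  refine ⟨⟨(Subgroup.FiniteIndex.index_ne_zero : (H.subgroupOf D).index ≠ 0)⟩, ?_⟩
  revert hcard
  generalize H.relIndex D = m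
  rintro rfl
  refine ⟨((zmodCyclicMulEquiv hc).symm.toMonoidHom).comp (QuotientGroup.mk' _), ?_, ?_⟩
  · exact (zmodCyclicMulEquiv hc).symm.surjective.comp (QuotientGroup.mk'_surjective _)
  · ext x
    rw [MonoidHom.mem_ker, MonoidHom.comp_apply, MulEquiv.coe_toMonoidHom,
      map_eq_one_iff _ (zmodCyclicMulEquiv hc).symm.injective, QuotientGroup.mk'_apply,
      QuotientGroup.eq_one_iff]

variable {n : ℕ} [NeZero n] (χ : D →* Multiplicative (ZMod n)) (σ : D)
  (hker : χ.ker = H.subgroupOf D) (hσ : χ σ = Multiplicative.ofAdd 1)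

include hker hσ

theorem chi_pow_sigma (k : ℕ) : χ (σ ^ k) = Multiplicative.ofAdd (k : ZMod n) := by
  rw [map_pow, hσ, ← ofAdd_nsmul, nsmul_eq_mul, mul_one]

theorem pow_sigma_mem_iff (k : ℕ) : ((σ : Γ) ^ k) ∈ H ↔ n ∣ k := by
  rw [← SubmonoidClass.coe_pow, ← Subgroup.mem_subgroupOf, ← hker, MonoidHom.mem_ker,
    chi_pow_sigma χ σ hker hσ, ofAdd_eq_one, ZMod.natCast_eq_zero_iff]

theorem exists_mul_mem (s : D) :
    ∃ h ∈ H, (s : Γ) = (σ : Γ) ^ ((χ s).toAdd.val) * h := by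
  refine ⟨((σ ^ (χ s).toAdd.val)⁻¹ * s : D), ?_, by simp⟩
  rw [← Subgroup.mem_subgroupOf, ← hker, MonoidHom.mem_ker, map_mul, map_inv,
    chi_pow_sigma χ σ hker hσ, ZMod.natCast_zmod_val, ofAdd_toAdd, inv_mul_cancel]

variable {V : Type*} [AddCommGroup V] {k : Type*} [CommRing k] [Module k V]
  (ρ : Representation k Γ V)

theorem rho_eq_pow_of_fixed (s : D) {v : V} (hv : v ∈ fixedBy ρ H) :
    ρ (s : Γ) v = ρ ((σ : Γ) ^ ((χ s).toAdd.val)) v := by
  obtain ⟨h, hh, e⟩ := exists_mul_mem χ σ hker hσ s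
  rw [e, map_mul, Module.End.mul_apply, hv h hh]

theorem relNorm_eq_sum_pow_char {v : V} (hv : v ∈ fixedBy ρ H) :
    relNorm ρ H D v = ∑ i ∈ Finset.range n, ρ ((σ : Γ) ^ i) v := by
  classical
  let φ : Fin n → D ⧸ H.subgroupOf D := fun i => QuotientGroup.mk (σ ^ (i : ℕ))
  have hb : Function.Bijective φ := by
    constructor
    · intro i j h
      rw [QuotientGroup.eq, ← hker, MonoidHom.mem_ker, map_mul, map_inv,
        chi_pow_sigma χ σ hker hσ, chi_pow_sigma χ σ hker hσ, inv_mul_eq_one,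
        Multiplicative.ofAdd.injective.eq_iff] at h
      have := congrArg ZMod.val h
      rw [ZMod.val_natCast_of_lt i.2, ZMod.val_natCast_of_lt j.2] at this
      exact Fin.ext this
    · intro x
      induction x using QuotientGroup.induction_on with | _ s => ?_
      refine ⟨⟨(χ s).toAdd.val, ZMod.val_lt _⟩, ?_⟩
      rw [QuotientGroup.eq, ← hker, MonoidHom.mem_ker, map_mul, map_inv,
        chi_pow_sigma χ σ hker hσ]
      simp
  have hfin : Finite (D ⧸ H.subgroupOf D) := Finite.of_surjective φ hb.2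
  letI := Fintype.ofFinite (D ⧸ H.subgroupOf D)
  rw [relNorm, dif_pos hfin, LinearMap.sum_apply, ← Fin.sum_univ_eq_sum_range
    (fun i => ρ ((σ : Γ) ^ i) v)]
  refine (Fintype.sum_bijective φ hb (fun i : Fin n => ρ ((σ : Γ) ^ (i : ℕ)) v)
    (fun x : D ⧸ H.subgroupOf D => ρ (x.out : Γ) v) (fun i => ?_)).symm
  rw [rho_eq_pow_of_fixed χ σ hker hσ ρ _ hv]
  obtain ⟨u, hu⟩ := QuotientGroup.mk_out_eq_mul (H.subgroupOf D) (σ ^ (i : ℕ))
  have hu1 : χ u = 1 := by rw [← MonoidHom.mem_ker, hker]; exact u.2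
  rw [show (φ i).out = σ ^ (i : ℕ) * u from hu, map_mul, hu1, mul_one,
    chi_pow_sigma χ σ hker hσ, toAdd_ofAdd, ZMod.val_natCast_of_lt i.2]

theorem mem_fixedBy_top_iff {v : V} (hle : H ≤ D) :
    v ∈ fixedBy ρ D ↔ v ∈ fixedBy ρ H ∧ ρ (σ : Γ) v = v := by
  refine ⟨fun h => ⟨fun s hs => h s (hle hs), h σ σ.2⟩, fun ⟨h1, h2⟩ s hs => ?_⟩
  obtain ⟨h, hh, e⟩ := exists_mul_mem χ σ hker hσ ⟨s, hs⟩
  rw [show s = _ from e, map_mul, Module.End.mul_apply, h1 h hh]
  generalize (χ ⟨s, hs⟩).toAdd.val = m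
  induction m with
  | zero => simp
  | succ m ih => rw [pow_succ', map_mul, Module.End.mul_apply, ih, h2]

end group

variable {q : Nat.Primes} {H D : Subgroup (Gl q)}

theorem locAut_mem_fld [(H.subgroupOf D).Normal] {s : Gl q} (hs : s ∈ D) (hle : H ≤ D) {x : Ql q}
    (hx : x ∈ fld q H) : locAut q s x ∈ fld q H := by
  rw [mem_fld] at hx ⊢
  intro h hh
  have hmem : s⁻¹ * h * s ∈ H := by
    have := (inferInstance : (H.subgroupOf D).Normal).conj_mem ⟨h, hle hh⟩
      (Subgroup.mem_subgroupOf.2 hh) ⟨s⁻¹, inv_mem hs⟩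
    rw [Subgroup.mem_subgroupOf] at this
    simpa using this
  have e := hx _ hmem
  calc locAut q h (locAut q s x) = locAut q (s * (s⁻¹ * h * s)) x := by
        rw [show s * (s⁻¹ * h * s) = h * s by group, map_mul]; rfl
    _ = locAut q s (locAut q (s⁻¹ * h * s) x) := by rw [map_mul]; rfl
    _ = locAut q s x := by rw [e]

/-- A normal basis of a cyclic extension over `ℚ_q`, permuted by a generator. -/
theorem exists_cyclic_basis (hH : IsOpenLvl (lvlLoc q) H) (hle : H ≤ D) [(H.subgroupOf D).Normal]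
    {n : ℕ} [NeZero n] (χ : D →* Multiplicative (ZMod n)) (σ : D)
    (hker : χ.ker = H.subgroupOf D) (hσ : χ σ = Multiplicative.ofAdd 1) :
    ∃ (d : ℕ) (b : Module.Basis (Fin d × ZMod n) ℚ_[(q : ℕ)] (fld q H)),
      ∀ i k, locAut q (σ : Gl q) (b (i, k) : Ql q) = (b (i, k + 1) : Ql q) := by
  classical
  haveI := finiteDimensional_fld hH
  let f : ∀ s : D, fld q H →ₐ[ℚ_[(q : ℕ)]] fld q H := fun s =>
    ((locAut q (s : Gl q)).toAlgHom.comp (fld q H).val).codRestrict (fld q H).toSubalgebra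
      fun x => locAut_mem_fld s.2 hle x.2
  have hf : ∀ (s : D) (x : fld q H), ((f s x : fld q H) : Ql q) = locAut q (s : Gl q) x :=
    fun _ _ => rfl
  let τ : fld q H ≃ₐ[ℚ_[(q : ℕ)]] fld q H := AlgEquiv.ofAlgHom (f σ) (f σ⁻¹)
    (AlgHom.ext fun x => Subtype.ext (by
      show locAut q (σ : Gl q) (locAut q ((σ⁻¹ : D) : Gl q) (x : Ql q)) = x
      rw [InvMemClass.coe_inv, map_inv]
      exact (locAut q (σ : Gl q)).apply_symm_apply _))
    (AlgHom.ext fun x => Subtype.ext (by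
      show locAut q ((σ⁻¹ : D) : Gl q) (locAut q (σ : Gl q) (x : Ql q)) = x
      rw [InvMemClass.coe_inv, map_inv]
      exact (locAut q (σ : Gl q)).symm_apply_apply _))
  have hτ : ∀ (k : ℕ) (x : fld q H),
      (((τ ^ k) x : fld q H) : Ql q) = locAut q ((σ : Gl q) ^ k) x := by
    intro k x
    induction k with
    | zero => simp
    | succ k ih =>
      rw [pow_succ', pow_succ', map_mul]
      show locAut q (σ : Gl q) (((τ ^ k) x : fld q H) : Ql q) = _
      rw [ih]; rfl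
  have hord : orderOf τ = n := by
    refine Nat.dvd_antisymm (orderOf_dvd_of_pow_eq_one (AlgEquiv.ext fun x => Subtype.ext ?_)) ?_
    · rw [hτ]
      exact mem_fld.1 x.2 _ ((pow_sigma_mem_iff χ σ hker hσ n).2 dvd_rfl)
    · refine (pow_sigma_mem_iff χ σ hker hσ _).1 (mem_of_forall_fld hH fun x hx => ?_)
      have := congrArg Subtype.val (AlgEquiv.congr_fun (pow_orderOf_eq_one τ) ⟨x, hx⟩)
      rw [hτ] at this
      exact this
  set G := Subgroup.zpowers τ with hGdef
  let K := IntermediateField.fixedField G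
  haveI : IsGalois K (fld q H) := IsGalois.of_card_aut_eq_finrank _ _ (by
    rw [IntermediateField.finrank_fixedField_eq_card]
    exact Nat.card_congr (IntermediateField.subgroupEquivAlgEquiv G).toEquiv.symm)
  let τ' : Gal(fld q H/K) := IntermediateField.subgroupEquivAlgEquiv G ⟨τ, Subgroup.mem_zpowers τ⟩
  have hτ' : ∀ (k : ℕ) (x : fld q H), (τ' ^ k) x = (τ ^ k) x := by
    intro k x
    rw [← map_pow]
    rfl
  have hord' : orderOf τ' = n := by
    show orderOf (IntermediateField.subgroupEquivAlgEquiv G ⟨τ, Subgroup.mem_zpowers τ⟩) = n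
    rw [MulEquiv.orderOf_eq, Subgroup.orderOf_mk, hord]
  let e : ZMod n → Gal(fld q H/K) := fun k => τ' ^ k.val
  have he : Function.Bijective e := by
    constructor
    · intro a c h
      exact ZMod.val_injective n (pow_injOn_Iio_orderOf
        (by rw [hord']; exact ZMod.val_lt a) (by rw [hord']; exact ZMod.val_lt c) h)
    · intro g
      obtain ⟨⟨g₀, hg₀⟩, rfl⟩ := (IntermediateField.subgroupEquivAlgEquiv G).surjective g
      obtain ⟨m, hm⟩ : ∃ m : ℕ, τ ^ m = g₀ :=
        (mem_powers_iff_mem_zpowers.2 hg₀)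
      refine ⟨(m : ZMod n), ?_⟩
      simp only [e, ZMod.val_natCast, τ', ← map_pow]
      congr 1
      apply Subtype.ext
      show τ ^ (m % n) = g₀
      rw [← hm, ← hord, pow_mod_orderOf]
  let nb := IsGalois.normalBasis K (fld q H)
  let bK := Module.finBasis ℚ_[(q : ℕ)] K
  let b := (bK.smulTower nb).reindex
    ((Equiv.refl (Fin (Module.finrank ℚ_[(q : ℕ)] K))).prodCongr (Equiv.ofBijective e he).symm)
  refine ⟨_, b, fun i k => ?_⟩
  have hb : ∀ i k, b (i, k) = bK i • (τ' ^ k.val) (nb 1) := by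
    intro i k
    rw [Module.Basis.reindex_apply]
    show (bK.smulTower nb) (i, (Equiv.ofBijective e he) k) = _
    rw [Module.Basis.smulTower_apply, IsGalois.normalBasis_apply]
    rfl
  have hsucc : τ' ^ (k + 1).val = τ' ^ (k.val + 1) := by
    rw [pow_inj_mod, hord', Nat.mod_eq_of_lt (ZMod.val_lt _), ← ZMod.val_natCast,
      Nat.cast_add, ZMod.natCast_zmod_val, Nat.cast_one]
  rw [hb, hb, hsucc]
  show locAut q (σ : Gl q) ((bK i : fld q H) * ((τ' ^ k.val) (nb 1) : fld q H) : Ql q) =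
    (((bK i : fld q H) * (τ' ^ (k.val + 1)) (nb 1) : fld q H) : Ql q)
  rw [map_mul, pow_succ']
  have hfix : locAut q (σ : Gl q) ((bK i : fld q H) : Ql q) = ((bK i : fld q H) : Ql q) :=
    congrArg Subtype.val ((IntermediateField.mem_fixedField_iff G _).1 (bK i).2 τ
      (Subgroup.mem_zpowers τ))
  rw [hfix]
  rfl

/-- Cyclic Hilbert 90 from the vanishing of `H¹`. -/
theorem exists_diff_of_norm_zero (hH : IsOpenLvl (lvlLoc q) H) (hle : H ≤ D)
    {n : ℕ} [NeZero n] (χ : D →* Multiplicative (ZMod n)) (σ : D)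
    (hker : χ.ker = H.subgroupOf D) (hσ : χ σ = Multiplicative.ofAdd 1)
    {x : Ml q} (hx : x ∈ fixedBy (unitsRepLoc q) H) (hN : normEnd (σ : Gl q) n x = 0) :
    ∃ y ∈ fixedBy (unitsRepLoc q) H, diffEnd (σ : Gl q) y = x := by
  set ρ := unitsRepLoc q with hρ
  rcases eq_or_ne n 1 with rfl | hn1
  · refine ⟨0, zero_mem _, ?_⟩
    rw [normEnd_apply, Finset.sum_range_one, pow_zero, map_one, Module.End.one_apply] at hN
    rw [hN, map_zero]
  set S : ℕ → Ml q := fun k => ∑ i ∈ Finset.range k, ρ ((σ : Gl q) ^ i) x with hS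
  have hadd : ∀ k l, S (k + l) = S k + ρ ((σ : Gl q) ^ k) (S l) := by
    intro k l
    rw [hS]
    simp only
    rw [Finset.sum_range_add, map_sum]
    simp only [pow_add, map_mul, Module.End.mul_apply]
  have hperiod : ∀ k, S (k + n) = S k := fun k => by
    rw [hadd, show S n = 0 from (normEnd_apply (σ : Gl q) n x).symm.trans hN, map_zero, add_zero]
  have hmod : ∀ k, S k = S (k % n) := by
    intro k
    conv_lhs => rw [← Nat.mod_add_div k n]
    generalize k / n = m
    induction m with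
    | zero => simp
    | succ m ih => rw [mul_add, mul_one, ← add_assoc, hperiod, ih]
  have hSfix : ∀ k, S k ∈ fixedBy ρ H := by
    intro k
    refine Submodule.sum_mem _ fun i _ h hh => ?_
    have hmem : (σ : Gl q) ^ i ∈ D := pow_mem σ.2 i
    have hn : χ (⟨(σ : Gl q) ^ i, hmem⟩⁻¹ * ⟨h, hle hh⟩ * ⟨(σ : Gl q) ^ i, hmem⟩) = 1 := by
      have h1 : χ ⟨h, hle hh⟩ = 1 := by rw [← MonoidHom.mem_ker, hker]; exact hh
      rw [map_mul, map_mul, h1, mul_one, ← map_mul, inv_mul_cancel, map_one]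
    rw [← MonoidHom.mem_ker, hker, Subgroup.mem_subgroupOf] at hn
    have e := hx _ hn
    rw [← Module.End.mul_apply, ← map_mul]
    rw [show h * (σ : Gl q) ^ i = (σ : Gl q) ^ i *
      ((⟨(σ : Gl q) ^ i, hmem⟩⁻¹ * ⟨h, hle hh⟩ * ⟨(σ : Gl q) ^ i, hmem⟩ : D) : Gl q) by
      simp [mul_assoc], map_mul, Module.End.mul_apply, e]
  let c : D → Ml q := fun s => S (χ s).toAdd.val
  have hc : c ∈ Z1 ((lvlLoc q).comap D.subtype) (ρ.comp D.subtype) := by
    obtain ⟨U, hU, hUH⟩ := hH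
    refine (mem_Z1 _ _).2 ⟨fun g h => ?_, _, ⟨U, hU, rfl⟩, fun g s hs => ?_⟩
    · show S (χ (g * h)).toAdd.val = ρ (g : Gl q) (S (χ h).toAdd.val) + S (χ g).toAdd.val
      rw [rho_eq_pow_of_fixed χ σ hker hσ ρ g (hSfix _), add_comm, ← hadd, hmod ((_ : ℕ) + _),
        map_mul, toAdd_mul, ZMod.val_add]
    · have h1 : χ s = 1 := by rw [← MonoidHom.mem_ker, hker]; exact hUH hs
      show S (χ (g * s)).toAdd.val = S (χ g).toAdd.val
      rw [map_mul, h1, mul_one]
  obtain ⟨β, hβ⟩ := h1Vanishes_unitsRepLoc q D (hH.of_le hle) c hc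
  refine ⟨β, fun h hh => ?_, ?_⟩
  · have h1 : χ ⟨h, hle hh⟩ = 1 := by rw [← MonoidHom.mem_ker, hker]; exact hh
    have := congrFun hβ ⟨h, hle hh⟩
    have e : ρ h β - β = S (χ ⟨h, hle hh⟩).toAdd.val := this
    rw [h1, toAdd_one, ZMod.val_zero] at e
    rw [← sub_eq_zero, e, hS]
    exact Finset.sum_range_zero _
  · have := congrFun hβ σ
    haveI hfact : Fact (1 < n) := ⟨lt_of_le_of_ne (Nat.one_le_iff_ne_zero.2 (NeZero.ne n)) hn1.symm⟩
    have e : ρ (σ : Gl q) β - β = S (χ σ).toAdd.val := this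
    rw [hσ, toAdd_ofAdd, ZMod.val_one, hS] at e
    simp only [Finset.sum_range_one, pow_zero, map_one, Module.End.one_apply] at e
    exact e

/-- For a cyclic extension the norm index is the degree. -/
theorem relIndex_normsFrom_eq (H D : Subgroup (Gl q)) (hH : IsOpenLvl (lvlLoc q) H) (hle : H ≤ D)
    [(H.subgroupOf D).Normal] [IsCyclic (D ⧸ H.subgroupOf D)] :
    (normsFrom (unitsRepLoc q) H D).toAddSubgroup.relIndex
        (fixedBy (unitsRepLoc q) D).toAddSubgroup = H.relIndex D := by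
  obtain ⟨hn0, χ, hsurj, hker⟩ := exists_cyclic_char (D := D) hH.finiteIndex
  haveI := hn0
  obtain ⟨σ, hσ⟩ := hsurj (Multiplicative.ofAdd 1)
  obtain ⟨d, b, hb⟩ := exists_cyclic_basis hH hle χ σ hker hσ
  haveI := finiteDimensional_fld hH
  have hZ : ∀ a, a ∈ fieldUnits (fld q H) ↔ a ∈ fixedBy (unitsRepLoc q) H := fun a =>
    mem_fixedBy_iff_fld.symm
  have key := hcard_fieldUnits_cyclic b (σ : Gl q) hb
  have h90 : hcard (resEnd (normEnd (σ : Gl q) (H.relIndex D)) (fieldUnits (fld q H))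
      fun _ => norm_mem_fieldUnits b (σ : Gl q) hb)
      (resEnd (diffEnd (σ : Gl q)) (fieldUnits (fld q H))
      fun _ => diff_mem_fieldUnits b (σ : Gl q) hb) = 1 := hcard_eq_one _ _ fun x hx => by
    obtain ⟨y, hy, hyx⟩ := exists_diff_of_norm_zero hH hle χ σ hker hσ ((hZ _).1 x.2)
      (congrArg Subtype.val hx)
    exact ⟨⟨y, (hZ _).2 hy⟩, Subtype.ext hyx⟩
  rw [h90, mul_one, hcard_eq_relIndex] at key
  conv_rhs => rw [← key]
  have e1 : (normsFrom (unitsRepLoc q) H D).toAddSubgroup.comap (fieldUnits (fld q H)).subtype =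
      (resEnd (normEnd (σ : Gl q) (H.relIndex D)) (fieldUnits (fld q H))
        fun _ => norm_mem_fieldUnits b (σ : Gl q) hb).range := by
    ext x
    constructor
    · rintro ⟨v, hv, hvx⟩
      exact ⟨⟨v, (hZ _).2 hv⟩, Subtype.ext (by
        rw [coe_resEnd, normEnd_apply, ← relNorm_eq_sum_pow_char χ σ hker hσ (unitsRepLoc q) hv]
        exact hvx)⟩
    · rintro ⟨v, rfl⟩
      refine ⟨v, (hZ _).1 v.2, ?_⟩
      rw [relNorm_eq_sum_pow_char χ σ hker hσ (unitsRepLoc q) ((hZ _).1 v.2)]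
      exact (normEnd_apply _ _ _).symm
  have e2 : (fixedBy (unitsRepLoc q) D).toAddSubgroup =
      AddSubgroup.map (fieldUnits (fld q H)).subtype
        (resEnd (diffEnd (σ : Gl q)) (fieldUnits (fld q H))
          fun _ => diff_mem_fieldUnits b (σ : Gl q) hb).ker := by
    ext a
    rw [Submodule.mem_toAddSubgroup, mem_fixedBy_top_iff χ σ hker hσ (unitsRepLoc q) hle,
      AddSubgroup.mem_map]
    constructor
    · rintro ⟨h1, h2⟩
      exact ⟨⟨a, (hZ _).2 h1⟩, Subtype.ext (sub_eq_zero.2 h2), rfl⟩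
    · rintro ⟨x, hx, rfl⟩
      exact ⟨(hZ _).1 x.2, sub_eq_zero.1 (congrArg Subtype.val hx)⟩
  rw [← e1, AddSubgroup.relIndex_comap, ← e2]

/-- Local fields containing `μ_p`: classes modulo `p`-th powers. -/
theorem card_fixed_quot_pow_eq (p : ℕ) [Fact p.Prime] (D : Subgroup (Gl q))
    (hD : IsOpenLvl (lvlLoc q) D) (hμ : ∀ s ∈ D, cycloChar p (loc q s) = 1) :
    Nat.card (fixedBy (unitsRepLoc q) D ⧸
        LinearMap.range ((p : ℤ) • (LinearMap.id :
          fixedBy (unitsRepLoc q) D →ₗ[ℤ] fixedBy (unitsRepLoc q) D)))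
      = p ^ (2 + if (q : ℕ) = p then D.index else 0) := by
  haveI := finiteDimensional_fld hD
  have hcount : Nat.card {x : fieldUnits (fld q D) // p • (x : Ml q) = 0} = p := by
    conv_rhs => rw [← Nat.card_zmod p]
    refine (Nat.card_congr (Equiv.ofBijective (fun a : ZMod p =>
      (⟨⟨muL p q a, mem_fixedBy_iff_fld.1 fun s hs => ?_⟩, nsmul_muL p q a⟩ :
        {x : fieldUnits (fld q D) // p • (x : Ml q) = 0})) ⟨fun a c h => ?_, fun x => ?_⟩)).symm
    · rw [← muL_equivariant, charRep_apply, MonoidHom.comp_apply, hμ s hs, Units.val_one, one_mul]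
    · exact muL_injective p q (congrArg (fun x : {x : fieldUnits (fld q D) // _} => (x.1 : Ml q)) h)
    · obtain ⟨a, ha⟩ := exists_muL_eq p q x.1 x.2
      exact ⟨a, Subtype.ext (Subtype.ext ha)⟩
  rw [← finrank_fld hD, ← hcard_fieldUnits_pow (fld q D) p hcount]
  let f := resEnd (powEnd q p) (fieldUnits (fld q D)) fun _ => pow_mem_fieldUnits (fld q D) p
  let e : fieldUnits (fld q D) ≃+ fixedBy (unitsRepLoc q) D :=
    AddEquiv.addSubgroupCongr (fieldUnits_fld D)
  rw [hcard_eq_relIndex, show (resEnd (0 : Ml q →+ Ml q) (fieldUnits (fld q D))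
    fun _ _ => zero_mem _) = 0 from rfl, AddMonoidHom.ker_zero, AddSubgroup.relIndex_top_right]
  refine Nat.card_congr (QuotientAddGroup.congr _ _ e ?_).toEquiv.symm
  ext y
  constructor
  · rintro ⟨_, ⟨x, rfl⟩, rfl⟩
    exact ⟨e x, Subtype.ext (by
      show (p : ℤ) • ((x : Ml q)) = p • (x : Ml q)
      exact natCast_zsmul _ _)⟩
  · rintro ⟨z, rfl⟩
    exact ⟨f (e.symm z), ⟨_, rfl⟩, Subtype.ext (by
      show p • ((z : Ml q)) = (p : ℤ) • (z : Ml q)
      exact (natCast_zsmul _ _).symm)⟩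

end FLTA.PT

end
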