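import Fermat.Agent.PoitouTate.LocalNormIndex

/-!
# Inertia and residue fields of finite extensions of `ℚ_q`, via roots of unity of order prime to `q`
-/

set_option autoImplicit false
set_option linter.style.haveILetI false

open ExtCitation Polynomial

noncomputable section

namespace FLTA.PT

attribute [local instance] factPrime

variable (q : Nat.Primes)

/-- The norm of an element of `ℚ̄_qˣ`. -/
def absv (a : Ml q) : ℝ :=
  haveI : Fact (q : ℕ).Prime := ⟨q.2⟩
  ‖((Additive.toMul a : (Ql q)ˣ) : Ql q)‖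

/-- The inertia subgroup of `Gl q`. -/
def inertiaLoc : Subgroup (Gl q) :=
  haveI : Fact (q : ℕ).Prime := ⟨q.2⟩
  { carrier := {s | ∀ x : Ql q, ‖x‖ ≤ 1 → ‖locAut q s x - x‖ < 1}
    one_mem' := fun x _ => by simp
    mul_mem' := by
      intro s t hs ht x hx
      rw [map_mul, show (locAut q s * locAut q t) x - x =
        locAut q s (locAut q t x - x) + (locAut q s x - x) by
        rw [map_sub, AlgEquiv.mul_apply]; ring]
      refine lt_of_le_of_lt (IsUltrametricDist.norm_add_le_max _ _) (max_lt ?_ (hs x hx))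
      rw [norm_locAut]
      exact ht x hx
    inv_mem' := by
      intro s hs x hx
      have h := hs (locAut q s⁻¹ x) (by rw [norm_locAut]; exact hx)
      rw [show locAut q s (locAut q s⁻¹ x) = x by
        rw [map_inv]; exact (locAut q s).apply_symm_apply _, norm_sub_rev] at h
      exact h }

theorem mem_inertiaLoc {s : Gl q} :
    s ∈ inertiaLoc q ↔ ∀ x : Ql q, ‖x‖ ≤ 1 → ‖locAut q s x - x‖ < 1 := Iff.rfl

theorem absv_eq_norm (a : Ml q) : absv q a = ‖mval a‖ := rfl

theorem loc_mem_inertiaSubgroupIn (s : Gl q) (hs : s ∈ inertiaLoc q) :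
    loc q s ∈ (primeLocalPlace q).inertiaSubgroupIn ℚ := by
  set A := primeLocalPlace q with hA
  have hmem : loc q s ∈ A.decompositionSubgroup ℚ :=
    localGaloisToGlobal_mem_decompositionSubgroup (q : ℕ) (locAut q s)
  refine ⟨⟨loc q s, hmem⟩, ?_, rfl⟩
  refine RingEquiv.ext fun z => ?_
  obtain ⟨⟨x, hx⟩, rfl⟩ := IsLocalRing.residue_surjective z
  show IsLocalRing.residue A ((⟨loc q s, hmem⟩ : A.decompositionSubgroup ℚ) • (⟨x, hx⟩ : A)) =
    IsLocalRing.residue A ⟨x, hx⟩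
  rw [← sub_eq_zero, ← map_sub, IsLocalRing.residue_eq_zero_iff, IsLocalRing.mem_maximalIdeal,
    mem_nonunits_iff]
  intro hu
  obtain ⟨u, hu⟩ := hu
  have h1 : ‖iota q ((u : A) : Qb)‖ < 1 := by
    rw [hu]
    show ‖iota q (loc q s x - x)‖ < 1
    rw [map_sub, iota_loc]
    exact hs _ hx
  have h2 : ‖iota q (((u⁻¹ : Aˣ) : A) : Qb)‖ ≤ 1 := ((u⁻¹ : Aˣ) : A).2
  have h3 : iota q ((u : A) : Qb) * iota q (((u⁻¹ : Aˣ) : A) : Qb) = 1 := by
    rw [← map_mul, ← MulMemClass.coe_mul, Units.mul_inv, OneMemClass.coe_one, map_one]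
  have h4 := congrArg norm h3
  rw [norm_mul, norm_one] at h4
  nlinarith [norm_nonneg (iota q ((u : A) : Qb))]

variable {q}

/-- The residue field of `ℚ̄_q`. -/
abbrev ResQ (q : Nat.Primes) : Type :=
  haveI : Fact (q : ℕ).Prime := ⟨q.2⟩
  IsLocalRing.ResidueField (padicIntegers (q : ℕ))

variable (q) in
/-- Reduction, as a ring map on the integers. -/
def redQ : padicIntegers (q : ℕ) →+* ResQ q := IsLocalRing.residue _

theorem redQ_eq_iff {x y : padicIntegers (q : ℕ)} :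
    redQ q x = redQ q y ↔ ‖(x : Ql q) - y‖ < 1 := by
  rw [← sub_eq_zero, ← map_sub]
  show IsLocalRing.residue _ _ = 0 ↔ _
  rw [IsLocalRing.residue_eq_zero_iff, IsLocalRing.mem_maximalIdeal, mem_nonunits_iff]
  show ¬ IsUnit (x - y) ↔ ‖(((x - y : padicIntegers (q : ℕ))) : Ql q)‖ < 1
  generalize x - y = z
  have hz : ‖(z : Ql q)‖ ≤ 1 := z.2
  constructor
  · intro h
    refine lt_of_le_of_ne hz fun h1 => h ?_
    have hne : (z : Ql q) ≠ 0 := norm_ne_zero_iff.1 (h1 ▸ one_ne_zero)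
    exact ⟨⟨z, ⟨(z : Ql q)⁻¹, (by rw [norm_inv, h1, inv_one] : ‖((z : Ql q))⁻¹‖ ≤ 1)⟩,
      Subtype.ext (mul_inv_cancel₀ hne), Subtype.ext (inv_mul_cancel₀ hne)⟩, rfl⟩
  · rintro h ⟨u, rfl⟩
    have h2 : ‖(((u⁻¹ : (padicIntegers (q : ℕ))ˣ) : padicIntegers (q : ℕ)) : Ql q)‖ ≤ 1 :=
      ((u⁻¹ : (padicIntegers (q : ℕ))ˣ) : padicIntegers (q : ℕ)).2
    have h3 := congrArg (fun w : padicIntegers (q : ℕ) => ‖(w : Ql q)‖) u.mul_inv
    simp only [MulMemClass.coe_mul, norm_mul, OneMemClass.coe_one, norm_one] at h3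
    nlinarith [norm_nonneg ((u : padicIntegers (q : ℕ)) : Ql q)]

theorem norm_int_le (z : padicIntegers (q : ℕ)) : ‖(z : Ql q)‖ ≤ 1 := z.2

theorem natCast_mem_int (n : ℕ) : ‖(n : Ql q)‖ ≤ 1 := by
  rw [← map_natCast (algebraMap ℚ_[(q : ℕ)] (Ql q)), norm_algebraMap']
  exact_mod_cast Padic.norm_int_le_one (n : ℤ)

theorem charP_resQ : CharP (ResQ q) (q : ℕ) := by
  refine (CharP.charP_iff_prime_eq_zero q.2).2 ?_
  rw [← map_natCast (redQ q), ← map_zero (redQ q), redQ_eq_iff, ZeroMemClass.coe_zero, sub_zero]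
  show ‖((((q : ℕ) : padicIntegers (q : ℕ))) : Ql q)‖ < 1
  push_cast
  rw [← map_natCast (algebraMap ℚ_[(q : ℕ)] (Ql q)), norm_algebraMap']
  exact Padic.norm_p_lt_one

theorem norm_eq_one_of_pow {ζ : Ql q} {m : ℕ} (hm : m ≠ 0) (h : ζ ^ m = 1) : ‖ζ‖ = 1 :=
  (pow_eq_one_iff_of_nonneg (norm_nonneg _) hm).1 (by rw [← norm_pow, h, norm_one])

theorem ne_zero_of_not_dvd {m : ℕ} (hm : ¬ (q : ℕ) ∣ m) : m ≠ 0 := fun h => hm (h ▸ dvd_zero _)

theorem root_eq_one_of_close {η : Ql q} {m : ℕ} (hm : ¬ (q : ℕ) ∣ m) (h : η ^ m = 1)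
    (hc : ‖η - 1‖ < 1) : η = 1 := by
  by_contra hne
  have hsum : ∑ i ∈ Finset.range m, η ^ i = 0 := by
    have := mul_geom_sum η m
    rw [h, sub_self, mul_eq_zero] at this
    exact this.resolve_left (sub_ne_zero.2 hne)
  have hint : ‖η‖ ≤ 1 := (norm_eq_one_of_pow (ne_zero_of_not_dvd hm) h).le
  have e : redQ q ⟨η, hint⟩ = 1 := by
    rw [← map_one (redQ q), redQ_eq_iff]
    exact hc
  have h0 : redQ q (∑ i ∈ Finset.range m, (⟨η, hint⟩ : padicIntegers (q : ℕ)) ^ i) = 0 := by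
    rw [← map_zero (redQ q)]
    congr 1
    apply Subtype.ext
    push_cast
    exact hsum
  simp only [map_sum, map_pow, e, one_pow, Finset.sum_const, Finset.card_range, nsmul_eq_mul,
    mul_one] at h0
  haveI := charP_resQ (q := q)
  exact hm ((CharP.cast_eq_zero_iff (ResQ q) (q : ℕ) m).1 h0)

theorem root_eq_of_close {ζ η : Ql q} {m : ℕ} (hm : ¬ (q : ℕ) ∣ m) (hζ : ζ ^ m = 1)
    (hη : η ^ m = 1) (hc : ‖ζ - η‖ < 1) : ζ = η := by
  have h1 := norm_eq_one_of_pow (ne_zero_of_not_dvd hm) hη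
  have hη0 : η ≠ 0 := norm_ne_zero_iff.1 (h1 ▸ one_ne_zero)
  refine (div_eq_one_iff_eq hη0).1 (root_eq_one_of_close hm (by rw [div_pow, hζ, hη, div_one]) ?_)
  rw [div_sub_one hη0, norm_div, h1, div_one]
  exact hc

/-- A primitive root of unity. -/
theorem exists_primRoot_ql (m : ℕ) (hm : m ≠ 0) : ∃ ζ : Ql q, IsPrimitiveRoot ζ m := by
  haveI : NeZero m := ⟨hm⟩
  haveI : NeZero ((m : ℕ) : Ql q) := ⟨Nat.cast_ne_zero.mpr hm⟩
  exact HasEnoughRootsOfUnity.exists_primitiveRoot (Ql q) m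

theorem exists_root_close_aux {x : Ql q} {m : ℕ} (hm : ¬ (q : ℕ) ∣ m) (hc : ‖x ^ m - 1‖ < 1) :
    ∃ η : Ql q, η ^ m = 1 ∧ ‖x - η‖ < 1 := by
  have hm0 := ne_zero_of_not_dvd hm
  obtain ⟨ζ, hζ⟩ := exists_primRoot_ql (q := q) m hm0
  have hp : (X ^ m - 1 : (Ql q)[X]) = ∏ η ∈ nthRootsFinset m (1 : Ql q), (X - C η) :=
    X_pow_sub_one_eq_prod (Nat.pos_of_ne_zero hm0) hζ
  have e := congrArg (Polynomial.eval x) hp
  simp only [eval_sub, eval_pow, eval_X, eval_one, eval_prod, eval_C] at e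
  rw [e, norm_prod] at hc
  by_contra h
  push Not at h
  refine absurd hc (not_lt.2 (Finset.one_le_prod fun η hη => ?_))
  exact h η ((mem_nthRootsFinset (Nat.pos_of_ne_zero hm0) _).1 hη)

theorem pow_prime_pow_close {y : Ql q} (hy : ‖y‖ ≤ 1) (a : ℕ) (h : ‖y ^ (q : ℕ) ^ a - 1‖ < 1) :
    ‖y - 1‖ < 1 := by
  haveI := charP_resQ (q := q)
  haveI : ExpChar (ResQ q) (q : ℕ) := ExpChar.prime q.2
  have h' : redQ q ((⟨y, hy⟩ : padicIntegers (q : ℕ)) ^ (q : ℕ) ^ a) = redQ q 1 :=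
    redQ_eq_iff.2 (by push_cast; exact h)
  rw [map_pow, map_one, ← one_pow ((q : ℕ) ^ a)] at h'
  have := iterateFrobenius_inj (ResQ q) (q : ℕ) a
    (a₁ := redQ q (⟨y, hy⟩ : padicIntegers (q : ℕ))) (a₂ := 1)
    (by rw [iterateFrobenius_def, iterateFrobenius_def]; exact h')
  rw [← map_one (redQ q), redQ_eq_iff] at this
  exact this

/-- Every unit is congruent to a root of unity of order prime to `q`. -/
theorem exists_root_close {x : Ql q} (hx : ‖x‖ = 1) :
    ∃ (m : ℕ) (η : Ql q), ¬ (q : ℕ) ∣ m ∧ η ^ m = 1 ∧ ‖x - η‖ < 1 := by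
  haveI : FiniteDimensional ℚ_[(q : ℕ)] (IntermediateField.adjoin ℚ_[(q : ℕ)] {x}) :=
    IntermediateField.adjoin.finiteDimensional (Algebra.IsAlgebraic.isAlgebraic x).isIntegral
  obtain ⟨t, htfin, -, hcov⟩ :=
    exists_finite_cover (IntermediateField.adjoin ℚ_[(q : ℕ)] {x}) 1 (δ := 1) one_pos
  haveI := htfin.to_subtype
  have hpow : ∀ i : ℕ, ∃ y : t, ‖x ^ i - y‖ < 1 := fun i => by
    obtain ⟨y, hy, hd⟩ := hcov _ (pow_mem (IntermediateField.mem_adjoin_simple_self _ x) i)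
      (by rw [norm_pow, hx, one_pow])
    exact ⟨⟨y, hy⟩, hd⟩
  choose f hf using hpow
  obtain ⟨i, j, hne, he⟩ := Finite.exists_ne_map_eq_of_infinite f
  wlog hlt : i < j generalizing i j
  · exact this j i hne.symm he.symm (lt_of_le_of_ne (not_lt.1 hlt) hne.symm)
  have hd : ‖x ^ (j - i) - 1‖ < 1 := by
    have h1 : ‖x ^ j - x ^ i‖ < 1 := by
      rw [show x ^ j - x ^ i = (x ^ j - (f j : Ql q)) + -(x ^ i - (f i : Ql q)) by rw [he]; ring]
      refine lt_of_le_of_lt (IsUltrametricDist.norm_add_le_max _ _) (max_lt (hf j) ?_)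
      rw [norm_neg]; exact hf i
    rw [show x ^ j - x ^ i = x ^ i * (x ^ (j - i) - 1) by
      rw [mul_sub, ← pow_add, mul_one, Nat.add_sub_cancel' hlt.le], norm_mul, norm_pow, hx,
      one_pow, one_mul] at h1
    exact h1
  obtain ⟨a, m, hm, hk⟩ :=
    Nat.exists_eq_pow_mul_and_not_dvd (Nat.sub_ne_zero_of_lt hlt) (q : ℕ) q.2.ne_one
  rw [hk, mul_comm, pow_mul] at hd
  have hxm := pow_prime_pow_close (by rw [norm_pow, hx, one_pow]) a hd
  obtain ⟨η, hη, hd'⟩ := exists_root_close_aux hm hxm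
  exact ⟨m, η, hm, hη, hd'⟩

theorem locAut_root_eq {s : Gl q} (hs : s ∈ inertiaLoc q) {ζ : Ql q} {m : ℕ}
    (hm : ¬ (q : ℕ) ∣ m) (hζ : ζ ^ m = 1) : locAut q s ζ = ζ :=
  root_eq_of_close hm (by rw [← map_pow, hζ, map_one]) hζ
    ((mem_inertiaLoc q).1 hs ζ (norm_eq_one_of_pow (ne_zero_of_not_dvd hm) hζ).le)

theorem mem_inertiaLoc_of_fix {s : Gl q}
    (h : ∀ (ζ : Ql q) (m : ℕ), ¬ (q : ℕ) ∣ m → ζ ^ m = 1 → locAut q s ζ = ζ) :
    s ∈ inertiaLoc q := by
  refine (mem_inertiaLoc q).2 fun x hx => ?_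
  rcases eq_or_lt_of_le hx with h1 | h1
  · obtain ⟨m, η, hm, hη, hd⟩ := exists_root_close h1
    rw [show locAut q s x - x = locAut q s (x - η) + -(x - η) by
      rw [map_sub, h η m hm hη]; ring]
    refine lt_of_le_of_lt (IsUltrametricDist.norm_add_le_max _ _) (max_lt ?_ ?_)
    · rwa [norm_locAut]
    · rwa [norm_neg]
  · rw [sub_eq_add_neg]
    refine lt_of_le_of_lt (IsUltrametricDist.norm_add_le_max _ _) (max_lt ?_ ?_)
    · rwa [norm_locAut]
    · rwa [norm_neg]

section residue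

variable (L : IntermediateField ℚ_[(q : ℕ)] (Ql q)) [FiniteDimensional ℚ_[(q : ℕ)] L]

/-- The residue field of `L`, as a subring of the residue field of `ℚ̄_q`. -/
def resL : Subring (ResQ q) :=
  (L.toSubfield.toSubring.comap (padicIntegers (q : ℕ)).subtype).map (redQ q)

variable {L} in
theorem mem_resL {z : ResQ q} :
    z ∈ resL L ↔ ∃ x : padicIntegers (q : ℕ), (x : Ql q) ∈ L ∧ redQ q x = z := Iff.rfl

theorem finite_resL : Finite (resL L) := by
  obtain ⟨t, htfin, htb, hcov⟩ := exists_finite_cover L 1 (δ := 1) one_pos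
  haveI := htfin.to_subtype
  refine Finite.of_surjective (fun y : t =>
    (⟨redQ q ⟨y, (htb y y.2).2⟩, mem_resL.2 ⟨_, (htb y y.2).1, rfl⟩⟩ : resL L)) ?_
  rintro ⟨z, hz⟩
  obtain ⟨x, hx, rfl⟩ := mem_resL.1 hz
  obtain ⟨y, hy, hd⟩ := hcov _ hx x.2
  exact ⟨⟨y, hy⟩, Subtype.ext (redQ_eq_iff.2 (by rw [norm_sub_rev]; exact hd))⟩

/-- The residue cardinality. -/
def resCard : ℕ := Nat.card (resL L)

theorem exists_resCard_eq : ∃ f : ℕ, f ≠ 0 ∧ resCard L = (q : ℕ) ^ f := by
  classical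
  haveI := finite_resL L
  letI := Fintype.ofFinite (resL L)
  letI := Fintype.fieldOfDomain (resL L)
  haveI := charP_resQ (q := q)
  haveI : CharP (resL L) (q : ℕ) := (resL L).subtype.charP Subtype.val_injective _
  obtain ⟨f, -, hf⟩ := FiniteField.card (resL L) (q : ℕ)
  exact ⟨f, f.2.ne', by rw [resCard, Nat.card_eq_fintype_card, hf]⟩

theorem one_lt_resCard : 1 < resCard L := by
  obtain ⟨f, hf, e⟩ := exists_resCard_eq L
  rw [e]
  exact Nat.one_lt_pow hf q.2.one_lt

/-- `X^Q = X` cuts out the residue field. -/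
theorem pow_resCard_iff (z : ResQ q) : z ^ resCard L = z ↔ z ∈ resL L := by
  classical
  haveI := finite_resL L
  letI := Fintype.ofFinite (resL L)
  letI := Fintype.fieldOfDomain (resL L)
  have hk : ∀ w : resL L, (w : ResQ q) ^ resCard L = w := fun w => by
    rw [resCard, Nat.card_eq_fintype_card]
    exact congrArg Subtype.val (FiniteField.pow_card w)
  refine ⟨fun h => ?_, fun h => hk ⟨z, h⟩⟩
  by_contra hz
  have hp : (X ^ resCard L - X : (ResQ q)[X]) ≠ 0 :=
    FiniteField.X_pow_card_sub_X_ne_zero _ (one_lt_resCard L)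
  have hsub : insert z (Finset.univ.image fun w : resL L => (w : ResQ q)) ⊆
      (X ^ resCard L - X : (ResQ q)[X]).roots.toFinset := by
    intro w hw
    rw [Multiset.mem_toFinset, mem_roots hp, IsRoot, eval_sub, eval_pow, eval_X, sub_eq_zero]
    rcases Finset.mem_insert.1 hw with rfl | hw
    · exact h
    · obtain ⟨v, -, rfl⟩ := Finset.mem_image.1 hw
      exact hk v
  have := (Finset.card_le_card hsub).trans ((Multiset.toFinset_card_le _).trans (card_roots' _))
  rw [FiniteField.X_pow_card_sub_X_natDegree_eq _ (one_lt_resCard L), Finset.card_insert_of_notMem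
    (fun h => by obtain ⟨v, -, hv⟩ := Finset.mem_image.1 h; exact hz (hv ▸ v.2)),
    Finset.card_image_of_injective _ Subtype.val_injective, Finset.card_univ,
    ← Nat.card_eq_fintype_card] at this
  exact absurd this (by rw [resCard]; omega)

variable (q) in
/-- The `Q`-power map of the residue field. -/
def powCardHom (Q f : ℕ) (h : Q = (q : ℕ) ^ f) : ResQ q →+* ResQ q :=
  haveI := charP_resQ (q := q)
  haveI : ExpChar (ResQ q) (q : ℕ) := ExpChar.prime q.2
  (iterateFrobenius (ResQ q) (q : ℕ) f).copy (fun z => z ^ Q) (by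
    funext z; rw [h, iterateFrobenius_def])

end residue

section orbit

variable {D : Subgroup (Gl q)} (hD : IsOpenLvl (lvlLoc q) D) {m : ℕ} (hm : ¬ (q : ℕ) ∣ m)
  {ζ : Ql q} (hζ : ζ ^ m = 1)

theorem root_mem_int : ζ ^ m = 1 → ¬ (q : ℕ) ∣ m → ζ ∈ padicIntegers (q : ℕ) := fun h h' =>
  (norm_eq_one_of_pow (ne_zero_of_not_dvd h') h).le

include hD hm hζ

/-- The Galois conjugates of a root of unity of order prime to `q` are its `Q`-power iterates. -/
theorem exists_pow_of_locAut {s : Gl q} (hs : s ∈ D) :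
    ∃ i, locAut q s ζ = ζ ^ resCard (fld q D) ^ i := by
  classical
  haveI := finiteDimensional_fld hD
  set Q := resCard (fld q D) with hQ
  obtain ⟨f, -, hf⟩ := exists_resCard_eq (fld q D)
  have hint := root_mem_int hζ hm
  set z := redQ q ⟨ζ, hint⟩ with hz
  have hzm : z ^ m = 1 := by
    rw [hz, ← map_pow, ← map_one (redQ q)]
    congr 1
    exact Subtype.ext hζ
  -- the iterates
  let T : Finset (ResQ q) := (Finset.range (m + 1)).image fun i => z ^ Q ^ i
  have hT : ∀ i, z ^ Q ^ i ∈ T := by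
    intro i
    induction i using Nat.strong_induction_on with
    | _ i ih =>
    by_cases hi : i < m + 1
    · exact Finset.mem_image_of_mem _ (Finset.mem_range.2 hi)
    · obtain ⟨a, b, hab, hb, e⟩ : ∃ a b : ℕ, a < b ∧ b ≤ m ∧ Q ^ a % m = Q ^ b % m := by
        obtain ⟨a, ha, b, hb, hne, e⟩ := Finset.exists_ne_map_eq_of_card_lt_of_maps_to
          (s := Finset.range (m + 1)) (t := Finset.range m) (f := fun i => Q ^ i % m) (by simp)
          (fun i _ => Finset.mem_range.2 (Nat.mod_lt _ (Nat.pos_of_ne_zero (ne_zero_of_not_dvd hm))))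
        rw [Finset.mem_range] at ha hb
        rcases lt_or_gt_of_ne hne with h | h
        · exact ⟨a, b, h, by omega, e⟩
        · exact ⟨b, a, h, by omega, e.symm⟩
      have e' : z ^ Q ^ i = z ^ Q ^ (a + (i - b)) := by
        rw [pow_eq_pow_mod (Q ^ i) hzm, pow_eq_pow_mod (Q ^ (a + (i - b))) hzm]
        congr 1
        conv_lhs => rw [show i = b + (i - b) by omega]
        rw [pow_add, pow_add, Nat.mul_mod, ← e, ← Nat.mul_mod]
      rw [e']
      exact ih _ (by omega)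
  let P : (ResQ q)[X] := ∏ w ∈ T, (X - C w)
  have hinj : Function.Injective (fun w : ResQ q => w ^ Q) := (powCardHom q Q f hf).injective
  have hstable : T.image (fun w => w ^ Q) = T := by
    apply Finset.eq_of_subset_of_card_le
    · intro w hw
      obtain ⟨v, hv, rfl⟩ := Finset.mem_image.1 hw
      obtain ⟨i, -, rfl⟩ := Finset.mem_image.1 hv
      rw [← pow_mul, ← pow_succ]
      exact hT _
    · rw [Finset.card_image_of_injective _ hinj]
  have hcoef : ∀ k, P.coeff k ∈ resL (fld q D) := by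
    intro k
    rw [← pow_resCard_iff]
    have hmap : P.map (powCardHom q Q f hf) = P := by
      rw [Polynomial.map_prod]
      conv_rhs => rw [show P = ∏ w ∈ T.image (fun w => w ^ Q), (X - C w) by rw [hstable]]
      rw [Finset.prod_image hinj.injOn]
      refine Finset.prod_congr rfl fun w _ => ?_
      rw [Polynomial.map_sub, map_X, map_C]
      rfl
    conv_rhs => rw [← hmap, coeff_map]
    rfl
  choose c hc hcP using fun k => mem_resL.1 (hcoef k)
  have hsint := root_mem_int (ζ := locAut q s ζ) (by rw [← map_pow, hζ, map_one]) hm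
  have hev : P.eval (redQ q ⟨locAut q s ζ, hsint⟩) = 0 := by
    have h0 : P.eval z = 0 := by
      rw [eval_prod]
      refine Finset.prod_eq_zero (hT 0) ?_
      simp
    rw [eval_eq_sum_range] at h0 ⊢
    simp only [← hcP, hz, ← map_pow, ← map_mul, ← map_sum, ← map_zero (redQ q), redQ_eq_iff] at h0 ⊢
    push_cast at h0 ⊢
    rw [sub_zero] at h0 ⊢
    rw [show ∑ x ∈ Finset.range (P.natDegree + 1), (c x : Ql q) * locAut q s ζ ^ x =
      locAut q s (∑ x ∈ Finset.range (P.natDegree + 1), (c x : Ql q) * ζ ^ x) by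
      rw [map_sum]
      exact Finset.sum_congr rfl fun k _ => by rw [map_mul, map_pow, mem_fld.1 (hc k) s hs],
      norm_locAut]
    exact h0
  rw [eval_prod, Finset.prod_eq_zero_iff] at hev
  obtain ⟨w, hw, hev⟩ := hev
  rw [eval_sub, eval_X, eval_C, sub_eq_zero] at hev
  obtain ⟨i, -, rfl⟩ := Finset.mem_image.1 hw
  refine ⟨i, root_eq_of_close hm (by rw [← map_pow, hζ, map_one])
    (by rw [← pow_mul, mul_comm, pow_mul, hζ, one_pow]) ?_⟩
  rw [hz, ← map_pow, redQ_eq_iff] at hev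
  simpa using hev

/-- A Frobenius element on a given root of unity. -/
theorem exists_frob : ∃ s ∈ D, locAut q s ζ = ζ ^ resCard (fld q D) := by
  classical
  haveI := finiteDimensional_fld hD
  set Q := resCard (fld q D) with hQ
  obtain ⟨f, -, hf⟩ := exists_resCard_eq (fld q D)
  have hfin : {η : Ql q | ∃ s ∈ D, locAut q s ζ = η}.Finite := by
    refine (nthRootsFinset m (1 : Ql q)).finite_toSet.subset ?_
    rintro η ⟨s, -, rfl⟩
    rw [Finset.mem_coe, mem_nthRootsFinset (Nat.pos_of_ne_zero (ne_zero_of_not_dvd hm)),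
      ← map_pow, hζ, map_one]
  let T := hfin.toFinset
  have hTint : ∀ η ∈ T, η ^ m = 1 := fun η hη => by
    obtain ⟨s, -, rfl⟩ := hfin.mem_toFinset.1 hη
    rw [← map_pow, hζ, map_one]
  let P : (padicIntegers (q : ℕ))[X] :=
    ∏ η ∈ T.attach, (X - C ⟨(η : Ql q), root_mem_int (hTint η η.2) hm⟩)
  have hcoef : ∀ k, redQ q (P.coeff k) ∈ resL (fld q D) := by
    intro k
    refine mem_resL.2 ⟨_, mem_fld.2 fun s hs => ?_, rfl⟩
    have himage : T.image (locAut q s) = T := by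
      apply Finset.eq_of_subset_of_card_le
      · intro η hη
        obtain ⟨η', hη', rfl⟩ := Finset.mem_image.1 hη
        obtain ⟨t, ht, rfl⟩ := hfin.mem_toFinset.1 hη'
        exact hfin.mem_toFinset.2 ⟨s * t, mul_mem hs ht, by rw [map_mul]; rfl⟩
      · rw [Finset.card_image_of_injective _ (locAut q s).injective]
    have hP : P.map (padicIntegers (q : ℕ)).subtype = ∏ η ∈ T, (X - C η) := by
      rw [Polynomial.map_prod, ← Finset.prod_attach T fun η => (X - C η)]
      refine Finset.prod_congr rfl fun η _ => ?_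
      rw [Polynomial.map_sub, map_X, map_C]
      rfl
    show locAut q s ((padicIntegers (q : ℕ)).subtype (P.coeff k)) =
      (padicIntegers (q : ℕ)).subtype (P.coeff k)
    rw [← coeff_map, hP]
    conv_rhs => rw [← himage, Finset.prod_image fun a _ b _ h => (locAut q s).injective h]
    rw [show ∏ η ∈ T, (X - C (locAut q s η)) =
      (∏ η ∈ T, (X - C η)).map (locAut q s : Ql q →+* Ql q) by simp [Polynomial.map_prod]]
    rw [coeff_map]
    rfl
  have hev : (P.map (redQ q)).eval (redQ q ⟨ζ, root_mem_int hζ hm⟩) = 0 := by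
    rw [eval_map_apply, eval_prod]
    have hmem : ζ ∈ T := hfin.mem_toFinset.2 ⟨1, one_mem _, by simp⟩
    rw [Finset.prod_eq_zero (Finset.mem_attach T ⟨ζ, hmem⟩) (by simp), map_zero]
  have hev2 : (P.map (redQ q)).eval (redQ q ⟨ζ, root_mem_int hζ hm⟩ ^ Q) = 0 := by
    have hfix : (P.map (redQ q)).map (powCardHom q Q f hf) = P.map (redQ q) := by
      ext k
      rw [coeff_map]
      show ((P.map (redQ q)).coeff k) ^ Q = _
      rw [coeff_map]
      exact (pow_resCard_iff (fld q D) _).2 (hcoef k)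
    rw [show redQ q ⟨ζ, root_mem_int hζ hm⟩ ^ Q =
      powCardHom q Q f hf (redQ q ⟨ζ, root_mem_int hζ hm⟩) from rfl, ← hfix, eval_map_apply, hev,
      map_zero]
  rw [Polynomial.map_prod, eval_prod, Finset.prod_eq_zero_iff] at hev2
  obtain ⟨η, -, hη⟩ := hev2
  rw [Polynomial.map_sub, map_X, map_C, eval_sub, eval_X, eval_C, sub_eq_zero, ← map_pow,
    redQ_eq_iff] at hη
  obtain ⟨s, hs, e⟩ := hfin.mem_toFinset.1 η.2
  refine ⟨s, hs, e.trans ?_⟩
  refine (root_eq_of_close hm (by rw [← pow_mul, mul_comm, pow_mul, hζ, one_pow]) (hTint η η.2)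
    ?_).symm
  simpa using hη

theorem exists_frob_pow : ∃ s₀ ∈ D, (∀ i, locAut q (s₀ ^ i) ζ = ζ ^ resCard (fld q D) ^ i) ∧
    ∀ s ∈ D, ∃ i : ℕ, locAut q s ζ = locAut q (s₀ ^ i) ζ := by
  obtain ⟨s₀, hs₀, e⟩ := exists_frob hD hm hζ
  have h : ∀ i, locAut q (s₀ ^ i) ζ = ζ ^ resCard (fld q D) ^ i := by
    intro i
    induction i with
    | zero => simp
    | succ i ih =>
      rw [pow_succ', map_mul]
      show locAut q s₀ (locAut q (s₀ ^ i) ζ) = _
      rw [ih, map_pow, e, ← pow_mul, ← pow_succ']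
  exact ⟨s₀, hs₀, h, fun s hs => by
    obtain ⟨i, hi⟩ := exists_pow_of_locAut hD hm hζ hs
    exact ⟨i, hi.trans (h i).symm⟩⟩

omit hD hζ in
theorem root_eq_of_redQ {x y : padicIntegers (q : ℕ)} (hx : (x : Ql q) ^ m = 1)
    (hy : (y : Ql q) ^ m = 1) (e : redQ q x = redQ q y) : x = y := by
  have h : ‖(x : Ql q) - y‖ < 1 := redQ_eq_iff.1 e
  exact Subtype.ext (root_eq_of_close hm hx hy h)

omit hζ in
/-- Roots with distinct reductions detect the largest coefficient. -/
theorem norm_sum_eq_max (hζ : ζ ^ m = 1) (T : Finset (Ql q))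
    (hT : ∀ η ∈ T, ∃ s ∈ D, locAut q s ζ = η) (N : ℕ) (hN : N ≤ T.card) (a : ℕ → Ql q)
    (ha : ∀ k, a k ∈ fld q D) {j : ℕ} (hj : j < N) (hmax : ∀ k < N, ‖a k‖ ≤ ‖a j‖) :
    ‖∑ k ∈ Finset.range N, a k * ζ ^ k‖ = ‖a j‖ := by
  classical
  by_cases hj0 : a j = 0
  · rw [hj0, norm_zero]
    refine norm_eq_zero.2 (Finset.sum_eq_zero fun k hk => ?_)
    have := hmax k (Finset.mem_range.1 hk)
    rw [hj0, norm_zero, norm_le_zero_iff] at this
    rw [this, zero_mul]
  have hint : ∀ k : ℕ, ‖if k < N then a k / a j else 0‖ ≤ 1 := fun k => by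
    split_ifs with h
    · rw [norm_div, div_le_one (norm_pos_iff.2 hj0)]; exact hmax k h
    · simp
  obtain ⟨c, hc⟩ : ∃ c : ℕ → padicIntegers (q : ℕ),
      ∀ k, (c k : Ql q) = if k < N then a k / a j else 0 := ⟨fun k => ⟨_, hint k⟩, fun k => rfl⟩
  have hζi := root_mem_int hζ hm
  obtain ⟨w, hw⟩ : ∃ w : padicIntegers (q : ℕ),
      w = ∑ k ∈ Finset.range N, c k * ⟨ζ, hζi⟩ ^ k := ⟨_, rfl⟩
  have hwc : (w : Ql q) = ∑ k ∈ Finset.range N, (c k : Ql q) * ζ ^ k := by
    rw [hw]; push_cast; rfl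
  have hsum : ∑ k ∈ Finset.range N, a k * ζ ^ k = a j * (w : Ql q) := by
    rw [hwc, Finset.mul_sum]
    refine Finset.sum_congr rfl fun k hk => ?_
    rw [hc, if_pos (Finset.mem_range.1 hk), ← mul_assoc, mul_div_cancel₀ _ hj0]
  rw [hsum, norm_mul]
  suffices h : ¬ ‖(w : Ql q)‖ < 1 by rw [le_antisymm (norm_int_le w) (not_lt.1 h), mul_one]
  intro h
  let G : (ResQ q)[X] := ∑ k ∈ Finset.range N, C (redQ q (c k)) * X ^ k
  have hTm : ∀ η : T, (η : Ql q) ^ m = 1 := fun η => by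
    obtain ⟨s, -, e⟩ := hT η η.2
    rw [← e, ← map_pow, hζ, map_one]
  let r : T → ResQ q := fun η => redQ q ⟨η, root_mem_int (hTm η) hm⟩
  have hr : Function.Injective r := by
    intro x y hab
    apply Subtype.ext
    exact congrArg (fun z : padicIntegers (q : ℕ) => (z : Ql q)) (root_eq_of_redQ hm (x := ⟨(x : Ql q), root_mem_int (hTm x) hm⟩)
      (y := ⟨(y : Ql q), root_mem_int (hTm y) hm⟩) (hTm x) (hTm y) hab)
  have hG : G.coeff j = 1 := by
    simp only [G, finsetSum_coeff, coeff_C_mul_X_pow]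
    rw [Finset.sum_ite_eq, if_pos (Finset.mem_range.2 hj), ← map_one (redQ q)]
    congr 1
    apply Subtype.ext
    rw [hc, if_pos hj, div_self hj0]
    rfl
  have hG0 : G ≠ 0 := fun h0 => by rw [h0, coeff_zero] at hG; exact zero_ne_one hG
  have hGdeg : G.natDegree < T.card := by
    refine lt_of_le_of_lt (natDegree_sum_le_of_forall_le _ _ fun k hk => ?_)
      (show N - 1 < T.card by omega)
    have := Finset.mem_range.1 hk
    exact (natDegree_C_mul_X_pow_le _ _).trans (by omega)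
  have hroots : ∀ η : T, G.eval (r η) = 0 := by
    rintro ⟨η, hη⟩
    obtain ⟨s, hs, rfl⟩ := hT η hη
    have e : G.eval (r ⟨_, hη⟩) = redQ q (∑ k ∈ Finset.range N,
        c k * (⟨locAut q s ζ, root_mem_int (hTm ⟨_, hη⟩) hm⟩ : padicIntegers (q : ℕ)) ^ k) := by
      simp only [G, r, eval_finsetSum, eval_mul, eval_C, eval_pow, eval_X, map_sum, map_mul, map_pow]
    rw [e, ← map_zero (redQ q), redQ_eq_iff]
    push_cast
    rw [sub_zero]
    rw [show ∑ k ∈ Finset.range N, (c k : Ql q) * locAut q s ζ ^ k = locAut q s (w : Ql q) by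
      rw [hwc, map_sum]
      refine Finset.sum_congr rfl fun k hk => ?_
      rw [map_mul, map_pow]
      congr 1
      rw [hc, if_pos (Finset.mem_range.1 hk)]
      rw [map_div₀, mem_fld.1 (ha k) s hs, mem_fld.1 (ha j) s hs], norm_locAut]
    exact h
  have := Finset.card_le_card (s := Finset.univ.image r) (t := G.roots.toFinset) fun z hz => by
    obtain ⟨η, -, rfl⟩ := Finset.mem_image.1 hz
    rw [Multiset.mem_toFinset, mem_roots hG0]
    exact hroots η
  rw [Finset.card_image_of_injective _ hr, Finset.card_univ, Fintype.card_coe] at this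
  exact absurd (this.trans ((Multiset.toFinset_card_le _).trans (card_roots' _))) (not_le.2 hGdeg)

/-- The polynomial of the orbit has coefficients in the base. -/
theorem exists_aeval_eq (T : Finset (Ql q)) (hT : ∀ η, η ∈ T ↔ ∃ s ∈ D, locAut q s ζ = η)
    {x : Ql q} (hx : x ∈ IntermediateField.adjoin (fld q D) ({ζ} : Set (Ql q))) :
    ∃ g : (fld q D)[X], g.natDegree < T.card ∧ aeval ζ g = x := by
  classical
  have hζT : ζ ∈ T := (hT ζ).2 ⟨1, one_mem _, by simp⟩
  let P : (Ql q)[X] := ∏ η ∈ T, (X - C η)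
  have hPL : P ∈ lifts (algebraMap (fld q D) (Ql q)) := by
    rw [lifts_iff_coeff_lifts]
    intro k
    have hfix : P.coeff k ∈ fld q D := mem_fld.2 fun s hs => by
      have himage : T.image (locAut q s) = T := by
        apply Finset.eq_of_subset_of_card_le
        · intro η hη
          obtain ⟨η', hη', rfl⟩ := Finset.mem_image.1 hη
          obtain ⟨t, ht, rfl⟩ := (hT η').1 hη'
          exact (hT _).2 ⟨s * t, mul_mem hs ht, by rw [map_mul]; rfl⟩
        · rw [Finset.card_image_of_injective _ (locAut q s).injective]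
      conv_rhs => rw [show P = ∏ η ∈ T.image (locAut q s), (X - C η) by rw [himage],
        Finset.prod_image fun a _ b _ h => (locAut q s).injective h]
      rw [show ∏ η ∈ T, (X - C (locAut q s η)) = P.map (locAut q s : Ql q →+* Ql q) by
        simp [P, Polynomial.map_prod], coeff_map]
      rfl
    exact ⟨⟨_, hfix⟩, rfl⟩
  obtain ⟨P₀, hP₀, hdeg, hmon⟩ :=
    lifts_and_natDegree_eq_and_monic hPL (monic_prod_X_sub_C _ _)
  have hroot : aeval ζ P₀ = 0 := by
    rw [← eval_map_algebraMap, hP₀, eval_prod]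
    exact Finset.prod_eq_zero hζT (by simp)
  have hint : IsIntegral (fld q D) ζ :=
    IsIntegral.of_pow (Nat.pos_of_ne_zero (ne_zero_of_not_dvd hm)) (hζ.symm ▸ isIntegral_one)
  rw [← IntermediateField.mem_toSubalgebra,
    IntermediateField.adjoin_simple_toSubalgebra_of_isAlgebraic hint.isAlgebraic,
    Algebra.adjoin_singleton_eq_range_aeval] at hx
  obtain ⟨g₀, rfl⟩ := hx
  refine ⟨g₀ %ₘ P₀, ?_, aeval_modByMonic_eq_self_of_root hroot⟩
  have := natDegree_modByMonic_lt g₀ hmon (fun h => by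
    rw [h, map_one] at hroot
    exact one_ne_zero hroot)
  rwa [hdeg, natDegree_finsetProd_X_sub_C_eq_card] at this

/-- `L(ζ)` has the same value group as `L`. -/
theorem exists_norm_eq_of_mem_adjoin {x : Ql q}
    (hx : x ∈ IntermediateField.adjoin (fld q D) ({ζ} : Set (Ql q))) :
    ∃ b ∈ fld q D, ‖x‖ = ‖b‖ := by
  classical
  have hfin : {η : Ql q | ∃ s ∈ D, locAut q s ζ = η}.Finite := by
    refine (nthRootsFinset m (1 : Ql q)).finite_toSet.subset ?_
    rintro η ⟨s, -, rfl⟩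
    rw [Finset.mem_coe, mem_nthRootsFinset (Nat.pos_of_ne_zero (ne_zero_of_not_dvd hm)),
      ← map_pow, hζ, map_one]
  obtain ⟨g, hg, rfl⟩ := exists_aeval_eq hD hm hζ hfin.toFinset (fun η => hfin.mem_toFinset) hx
  obtain ⟨j, hj, hmax⟩ := (Finset.range (g.natDegree + 1)).exists_max_image
    (fun k => ‖((g.coeff k : fld q D) : Ql q)‖) ⟨0, by simp⟩
  refine ⟨((g.coeff j : fld q D) : Ql q), SetLike.coe_mem _, ?_⟩
  rw [← norm_sum_eq_max hD hm hζ hfin.toFinset (fun η hη => hfin.mem_toFinset.1 hη)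
    (g.natDegree + 1) hg (fun k => ((g.coeff k : fld q D) : Ql q)) (fun k => SetLike.coe_mem _)
    (Finset.mem_range.1 hj) (fun k hk => hmax k (Finset.mem_range.2 hk)), aeval_eq_sum_range]
  rfl

end orbit

end FLTA.PT

end
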