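import Fermat.Agent.PoitouTate.LocalResidue

/-!
# Unramified extensions of finite extensions of `ℚ_q`
-/

set_option autoImplicit false
set_option linter.style.haveILetI false

open ExtCitation Polynomial FLTA.PoitouTate.Herbrand

noncomputable section

namespace FLTA.PT

attribute [local instance] factPrime

variable {q : Nat.Primes}

/-- An extension without inertia lies in the field generated by a root of unity of order prime
to `q`. -/
theorem exists_root_generates {H D : Subgroup (Gl q)} (hH : IsOpenLvl (lvlLoc q) H) (hle : H ≤ D)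
    (hI : inertiaLoc q ⊓ D ≤ H) :
    ∃ (m : ℕ) (ζ : Ql q), ¬ (q : ℕ) ∣ m ∧ ζ ^ m = 1 ∧
      ∀ x ∈ fld q H, x ∈ IntermediateField.adjoin (fld q D) ({ζ} : Set (Ql q)) := by
  classical
  haveI := isGalois_ql q
  haveI := finiteDimensional_fld hH
  let R : Set (Ql q) := {ζ | ∃ m : ℕ, ¬ (q : ℕ) ∣ m ∧ ζ ^ m = 1}
  set M := IntermediateField.adjoin ℚ_[(q : ℕ)] ((fld q D : Set (Ql q)) ∪ R) with hM
  have hfix : M.fixingSubgroup ≤ H.map (locAut q) := by
    intro g hg
    obtain ⟨s, rfl⟩ := locAut_surjective q g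
    rw [IntermediateField.mem_fixingSubgroup_iff] at hg
    have hsD : s ∈ D := mem_of_forall_fld (hH.of_le hle) fun x hx =>
      hg x (IntermediateField.subset_adjoin _ _ (Or.inl hx))
    exact Subgroup.mem_map_of_mem _ (hI ⟨mem_inertiaLoc_of_fix fun ζ m hm hζ =>
      hg ζ (IntermediateField.subset_adjoin _ _ (Or.inr ⟨m, hm, hζ⟩)), hsD⟩)
  have hHM : fld q H ≤ M := by
    rw [← InfiniteGalois.fixedField_fixingSubgroup M]
    exact fun x hx ⟨g, hg⟩ => hx ⟨g, hfix hg⟩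
  let b := Module.finBasis ℚ_[(q : ℕ)] (fld q H)
  choose U hU hUx using fun i =>
    IntermediateField.exists_finset_of_mem_adjoin (hHM (b i).2)
  set W : Finset (Ql q) := Finset.univ.biUnion U with hW
  let ord : Ql q → ℕ := fun u => if h : u ∈ R then h.choose else 1
  set m := ∏ u ∈ W, ord u with hm
  have hord : ∀ u, ¬ (q : ℕ) ∣ ord u := fun u h => by
    simp only [ord] at h
    split_ifs at h with hu
    · exact hu.choose_spec.1 h
    · exact q.2.one_lt.ne' (Nat.dvd_one.1 h)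
  have hqm : ¬ (q : ℕ) ∣ m := fun h => by
    obtain ⟨u, -, hu⟩ := (Prime.dvd_finsetProd_iff (Nat.prime_iff.1 q.2) _).1 h
    exact hord u hu
  obtain ⟨ζ, hζ⟩ := exists_primRoot_ql (q := q) m (ne_zero_of_not_dvd hqm)
  haveI : NeZero m := ⟨ne_zero_of_not_dvd hqm⟩
  refine ⟨m, ζ, hqm, hζ.pow_eq_one, fun x hx => ?_⟩
  set E := (IntermediateField.adjoin (fld q D) ({ζ} : Set (Ql q))).restrictScalars ℚ_[(q : ℕ)]
  have hWE : ∀ i, IntermediateField.adjoin ℚ_[(q : ℕ)] (U i : Set (Ql q)) ≤ E := by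
    intro i
    refine IntermediateField.adjoin_le_iff.2 fun u hu => ?_
    rcases hU i hu with h | h
    · exact (IntermediateField.adjoin (fld q D) ({ζ} : Set (Ql q))).algebraMap_mem ⟨u, h⟩
    · have hum : u ^ m = 1 := by
        obtain ⟨c, hc⟩ : ord u ∣ m :=
          Finset.dvd_prod_of_mem ord (Finset.mem_biUnion.2 ⟨i, Finset.mem_univ i, hu⟩)
        have h1 : u ^ ord u = 1 := by
          simp only [ord, dif_pos h]
          exact h.choose_spec.2
        rw [hc, pow_mul, h1, one_pow]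
      obtain ⟨k, -, rfl⟩ := hζ.eq_pow_of_pow_eq_one hum
      exact pow_mem (IntermediateField.mem_adjoin_simple_self (fld q D) ζ) k
  rw [show x = ((⟨x, hx⟩ : fld q H) : Ql q) from rfl, ← b.sum_repr ⟨x, hx⟩]
  show ((∑ i, b.repr ⟨x, hx⟩ i • b i : fld q H) : Ql q) ∈ E
  rw [IntermediateField.coe_sum]
  exact IntermediateField.sum_mem _ fun i _ => by
    rw [IntermediateField.coe_smul]
    exact IntermediateField.smul_mem _ (hWE i (hUx i))

theorem fix_adjoin_root {D : Subgroup (Gl q)} {s : Gl q} (hs : s ∈ D) {ζ : Ql q}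
    (hfix : locAut q s ζ = ζ) {x : Ql q}
    (hx : x ∈ IntermediateField.adjoin (fld q D) ({ζ} : Set (Ql q))) : locAut q s x = x := by
  induction hx using IntermediateField.adjoin_induction with
  | mem z hz => rw [Set.mem_singleton_iff] at hz; subst hz; exact hfix
  | algebraMap r => exact mem_fld.1 r.2 s hs
  | add a b _ _ ha hb => rw [map_add, ha, hb]
  | inv a _ ha => rw [map_inv₀, ha]
  | mul a b _ _ ha hb => rw [map_mul, ha, hb]

theorem isCyclic_of_unramified (H D : Subgroup (Gl q)) (hH : IsOpenLvl (lvlLoc q) H) (hle : H ≤ D)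
    [(H.subgroupOf D).Normal] (hI : inertiaLoc q ⊓ D ≤ H) : IsCyclic (D ⧸ H.subgroupOf D) := by
  obtain ⟨m, ζ, hm, hζ, hgen⟩ := exists_root_generates hH hle hI
  obtain ⟨s₀, hs₀, -, hall⟩ := exists_frob_pow (hH.of_le hle) hm hζ
  refine ⟨⟨((⟨s₀, hs₀⟩ : D) : D ⧸ H.subgroupOf D), fun x => ?_⟩⟩
  induction x using QuotientGroup.induction_on with | _ s => ?_
  obtain ⟨i, hi⟩ := hall s s.2
  refine ⟨i, ?_⟩
  show ((⟨s₀, hs₀⟩ : D) : D ⧸ H.subgroupOf D) ^ (i : ℤ) = _
  rw [zpow_natCast, ← QuotientGroup.mk_pow, QuotientGroup.eq, Subgroup.mem_subgroupOf]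
  have hD : (s₀ ^ i)⁻¹ * (s : Gl q) ∈ D := mul_mem (inv_mem (pow_mem hs₀ i)) s.2
  have hfix : locAut q ((s₀ ^ i)⁻¹ * (s : Gl q)) ζ = ζ := by
    rw [map_mul, AlgEquiv.mul_apply, hi, map_inv]
    exact (locAut q (s₀ ^ i)).symm_apply_apply ζ
  simpa using mem_of_forall_fld hH fun x hx => fix_adjoin_root hD hfix (hgen x hx)

theorem mem_normsFrom_iff_of_unramified_eq (H D : Subgroup (Gl q))
    (hH : IsOpenLvl (lvlLoc q) H) (hle : H ≤ D)
    [(H.subgroupOf D).Normal]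
    (hI : inertiaLoc q ⊓ D ≤ H) (a : Ml q) (ha : a ∈ fixedBy (unitsRepLoc q) D) :
    a ∈ normsFrom (unitsRepLoc q) H D ↔
      ∃ b ∈ fixedBy (unitsRepLoc q) D, absv q a = absv q b ^ H.relIndex D := by
  haveI := isCyclic_of_unramified H D hH hle hI
  obtain ⟨m, ζ, hm, hζ, hgen⟩ := exists_root_generates hH hle hI
  obtain ⟨hn0, χ, hsurj, hker⟩ := exists_cyclic_char (D := D) hH.finiteIndex
  haveI := hn0
  obtain ⟨σ, hσ⟩ := hsurj (Multiplicative.ofAdd 1)
  haveI := finiteDimensional_fld (hH.of_le hle)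
  have hfwd : ∀ c ∈ normsFrom (unitsRepLoc q) H D,
      ∃ b ∈ fixedBy (unitsRepLoc q) D, absv q c = absv q b ^ H.relIndex D := by
    rintro _ ⟨c, hc, rfl⟩
    obtain ⟨b, hb, hcb⟩ := exists_norm_eq_of_mem_adjoin (hH.of_le hle) hm hζ
      (hgen _ (mem_fixedBy_iff_fld.1 hc))
    obtain ⟨b', hb'⟩ := exists_mval_eq (q := q) (x := b) (norm_ne_zero_iff.1 (by
      rw [← hcb]; exact norm_ne_zero_iff.2 (mval_ne_zero c)))
    refine ⟨b', mem_fixedBy_iff_fld.2 (by show mval b' ∈ _; rw [hb']; exact hb), ?_⟩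
    rw [relNorm_eq_sum_pow_char χ σ hker hσ (unitsRepLoc q) hc, absv_eq_norm, absv_eq_norm, hb', ← hcb]
    have : ∀ k, ‖mval (∑ i ∈ Finset.range k, unitsRepLoc q ((σ : Gl q) ^ i) c)‖ = ‖mval c‖ ^ k := by
      intro k
      induction k with
      | zero => simp [mval_zero]
      | succ k ih =>
        rw [Finset.sum_range_succ, mval_add, norm_mul, ih, mval_unitsRepLoc, norm_locAut, pow_succ]
    exact this _
  refine ⟨hfwd a, fun hb => ?_⟩
  set n := H.relIndex D with hn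
  let Z := fieldUnits (fld q D)
  let φ : Z →+ ZMod n := (Int.castAddHom (ZMod n)).comp (ordL (fld q D))
  have hmem : ∀ z : Z, z ∈ φ.ker ↔
      ∃ b ∈ fixedBy (unitsRepLoc q) D, absv q (z : Ml q) = absv q b ^ n := by
    intro z
    show ((ordL (fld q D) z : ℤ) : ZMod n) = 0 ↔ _
    rw [ZMod.intCast_zmod_eq_zero_iff_dvd]
    constructor
    · rintro ⟨k, hk⟩
      obtain ⟨w, hw⟩ := ordL_surjective (fld q D) k
      refine ⟨w, mem_fixedBy_iff_fld.2 w.2, ?_⟩
      rw [absv_eq_norm, absv_eq_norm, norm_eq_ordL _ z, norm_eq_ordL _ w, hw, hk, ← zpow_natCast,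
        ← zpow_mul, mul_comm]
    · rintro ⟨b, hb, e⟩
      refine ⟨ordL (fld q D) ⟨b, mem_fixedBy_iff_fld.1 hb⟩, ordL_eq_of_norm _ ?_⟩
      rw [← absv_eq_norm, e, absv_eq_norm, norm_eq_ordL (fld q D) ⟨b, mem_fixedBy_iff_fld.1 hb⟩,
        ← zpow_natCast, ← zpow_mul, mul_comm]
  have hsurjφ : Function.Surjective φ := fun t => by
    obtain ⟨k, rfl⟩ := ZMod.intCast_surjective t
    obtain ⟨w, rfl⟩ := ordL_surjective (fld q D) k
    exact ⟨w, rfl⟩
  have hidx : φ.ker.index = n := by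
    rw [AddSubgroup.index_ker, AddMonoidHom.range_eq_top.2 hsurjφ, AddSubgroup.card_top,
      Nat.card_zmod]
  let N : AddSubgroup Z := (normsFrom (unitsRepLoc q) H D).toAddSubgroup.addSubgroupOf Z
  have hNidx : N.index = n := by
    have := relIndex_normsFrom_eq H D hH hle
    rwa [← fieldUnits_fld] at this
  have hle' : N ≤ φ.ker := fun z hz => (hmem z).2 (hfwd _ hz)
  have h1 : N.relIndex φ.ker = 1 := by
    have := AddSubgroup.relIndex_mul_index hle'
    rw [hidx, hNidx] at this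
    exact Nat.eq_of_mul_eq_mul_right (Nat.pos_of_ne_zero (NeZero.ne n)) (by rw [this, one_mul])
  exact (AddSubgroup.relIndex_eq_one.1 h1)
    (show (⟨a, mem_fixedBy_iff_fld.1 ha⟩ : Z) ∈ φ.ker from (hmem _).2 hb)

theorem exists_unramified_char_eq (D : Subgroup (Gl q)) (hD : IsOpenLvl (lvlLoc q) D)
    (n : ℕ) [NeZero n] :
    ∃ χ : D →* Multiplicative (ZMod n), Function.Surjective χ ∧
      (∀ s : D, (s : Gl q) ∈ inertiaLoc q → χ s = 1) ∧
      IsOpenLvl ((lvlLoc q).comap D.subtype) χ.ker := by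
  haveI := finiteDimensional_fld hD
  set Q := resCard (fld q D) with hQ
  obtain ⟨f, hf0, hf⟩ := exists_resCard_eq (fld q D)
  have hQ1 : 1 < Q := one_lt_resCard (fld q D)
  have hpow : 1 < Q ^ n := Nat.one_lt_pow (NeZero.ne n) hQ1
  set m := Q ^ n - 1 with hm
  have hqm : ¬ (q : ℕ) ∣ m := by
    intro h
    have h' : (q : ℕ) ∣ Q ^ n := by
      rw [hQ, hf, ← pow_mul]; exact dvd_pow_self _ (Nat.mul_ne_zero hf0 (NeZero.ne n))
    have := Nat.dvd_sub h' h
    rw [hm, Nat.sub_sub_self hpow.le] at this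
    exact q.2.one_lt.ne' (Nat.dvd_one.1 this)
  obtain ⟨ζ, hζ⟩ := exists_primRoot_ql (q := q) m (ne_zero_of_not_dvd hqm)
  obtain ⟨s₀, hs₀, hpows, hall⟩ := exists_frob_pow hD hqm hζ.pow_eq_one
  have hord : orderOf ζ = m := hζ.eq_orderOf.symm
  have hper : ∀ k, Q ^ k ≡ Q ^ (k % n) [MOD m] := by
    intro k
    have h1 : Q ^ n ≡ 1 [MOD m] := ((Nat.modEq_iff_dvd' hpow.le).2 dvd_rfl).symm
    have h2 := (h1.pow (k / n)).mul_left (Q ^ (k % n))
    rwa [one_pow, mul_one, ← pow_mul, ← pow_add, Nat.mod_add_div] at h2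
  have hcyc : ∀ i j : ℕ, ζ ^ Q ^ i = ζ ^ Q ^ j ↔ (i : ZMod n) = (j : ZMod n) := by
    intro i j
    rw [(IsOfFinOrder.pow_eq_pow_iff_modEq (isOfFinOrder_iff_pow_eq_one.2
      ⟨m, Nat.pos_of_ne_zero (ne_zero_of_not_dvd hqm), hζ.pow_eq_one⟩)), hord,
      ZMod.natCast_eq_natCast_iff']
    refine ⟨fun h => ?_, fun h => ((hper i).trans (by rw [h])).trans (hper j).symm⟩
    have h' : Q ^ (i % n) ≡ Q ^ (j % n) [MOD m] := (hper i).symm.trans (h.trans (hper j))
    rcases Nat.lt_or_ge n 2 with hn | hn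
    · have : n = 1 := by have := NeZero.ne n; omega
      subst this
      simp [Nat.mod_one]
    have hlt : ∀ k, k < n → Q ^ k < m := by
      intro k hk
      have h2 : Q ^ k ≤ Q ^ (n - 1) := Nat.pow_le_pow_right (by omega) (by omega)
      have h3 : 2 * Q ^ (n - 1) ≤ Q ^ n := by
        conv_rhs => rw [show n = n - 1 + 1 by omega, pow_succ']
        exact Nat.mul_le_mul_right _ hQ1
      have h4 : 1 < Q ^ (n - 1) := Nat.one_lt_pow (by omega) hQ1
      omega
    exact Nat.pow_right_injective hQ1 (Nat.ModEq.eq_of_lt_of_lt h'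
      (hlt _ (Nat.mod_lt _ (by omega))) (hlt _ (Nat.mod_lt _ (by omega))))
  choose idx hidx using fun s : D => hall s s.2
  have hval : ∀ (s : D) (i : ℕ),
      locAut q (s : Gl q) ζ = locAut q (s₀ ^ i) ζ → (idx s : ZMod n) = i := by
    intro s i h
    rw [← hcyc, ← hpows, ← hpows, ← hidx s, h]
  let χ : D →* Multiplicative (ZMod n) := MonoidHom.mk'
    (fun s => Multiplicative.ofAdd ((idx s : ZMod n))) (fun s t => by
      rw [← ofAdd_add, ← Nat.cast_add]
      congr 1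
      apply hval
      rw [hpows, pow_add, pow_mul, Subgroup.coe_mul, map_mul, AlgEquiv.mul_apply, hidx t, hpows,
        map_pow, hidx s, hpows])
  refine ⟨χ, fun t => ?_, fun s hs => ?_, ?_⟩
  · refine ⟨⟨s₀ ^ t.toAdd.val, pow_mem hs₀ _⟩, ?_⟩
    show Multiplicative.ofAdd ((idx ⟨s₀ ^ t.toAdd.val, pow_mem hs₀ _⟩ : ZMod n)) = t
    rw [hval ⟨s₀ ^ t.toAdd.val, pow_mem hs₀ _⟩ t.toAdd.val rfl, ZMod.natCast_zmod_val, ofAdd_toAdd]
  · show Multiplicative.ofAdd ((idx s : ZMod n)) = 1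
    rw [hval s 0 (by rw [pow_zero, map_one, locAut_root_eq hs hqm hζ.pow_eq_one]; rfl),
      Nat.cast_zero, ofAdd_zero]
  · obtain ⟨a, ha⟩ := exists_mval_eq (q := q) (hζ.ne_zero (ne_zero_of_not_dvd hqm))
    obtain ⟨U, hU, hfix⟩ := smooth_unitsRepLoc q a
    refine ⟨U.comap D.subtype, ⟨U, hU, rfl⟩, fun s hs => ?_⟩
    show Multiplicative.ofAdd ((idx s : ZMod n)) = 1
    have h := congrArg mval (hfix _ hs)
    rw [mval_unitsRepLoc, ha] at h
    have h' : locAut q (s : Gl q) ζ = ζ := h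
    rw [hval s 0 (by rw [pow_zero, map_one, h']; rfl), Nat.cast_zero, ofAdd_zero]

end FLTA.PT

end
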