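import Fermat.Agent.PoitouTate.LocalLatticeH

/-!
# The valuation of a finite extension of `ℚ_q` and Herbrand quotients of its multiplicative group
-/

set_option autoImplicit false
set_option linter.style.haveILetI false

open ExtCitation FLTA.PoitouTate.Herbrand

noncomputable section

namespace FLTA.PT

attribute [local instance] factPrime

variable {q : Nat.Primes}

/-- The multiplicative group of a subfield. -/
def fieldUnits (L : IntermediateField ℚ_[(q : ℕ)] (Ql q)) : AddSubgroup (Ml q) where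
  carrier := {a | mval a ∈ L}
  zero_mem' := by rw [Set.mem_ofPred_eq, mval_zero]; exact one_mem L
  add_mem' ha hb := by rw [Set.mem_ofPred_eq, mval_add]; exact mul_mem ha hb
  neg_mem' ha := by rw [Set.mem_ofPred_eq, mval_neg]; exact inv_mem ha

theorem mem_fieldUnits {L : IntermediateField ℚ_[(q : ℕ)] (Ql q)} {a : Ml q} :
    a ∈ fieldUnits L ↔ mval a ∈ L := Iff.rfl

theorem fieldUnits_fld (D : Subgroup (Gl q)) :
    fieldUnits (fld q D) = (fixedBy (unitsRepLoc q) D).toAddSubgroup := by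
  ext a
  exact mem_fixedBy_iff_fld.symm

theorem unitsIn_le_fieldUnits (L : IntermediateField ℚ_[(q : ℕ)] (Ql q)) :
    unitsIn L ≤ fieldUnits L := fun _ h => h.1

theorem norm_mval_nsmul (a : Ml q) (m : ℕ) : ‖mval (m • a)‖ = ‖mval a‖ ^ m := by
  induction m with
  | zero => simp [mval_zero]
  | succ m ih => rw [succ_nsmul, mval_add, norm_mul, ih, pow_succ]

theorem mval_pow_eq (a : Ml q) (m : ℕ) : mval (m • a) = mval a ^ m := by
  induction m with
  | zero => simp [mval_zero]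
  | succ m ih => rw [succ_nsmul, mval_add, ih, pow_succ]

section value

variable (L : IntermediateField ℚ_[(q : ℕ)] (Ql q)) [FiniteDimensional ℚ_[(q : ℕ)] L]

/-- The valuation is discrete. -/
theorem exists_unif : ∃ π ∈ L, 0 < ‖π‖ ∧ ‖π‖ < 1 ∧
    ∀ x ∈ L, x ≠ 0 → ∃ k : ℤ, ‖x‖ = ‖π‖ ^ k := by
  classical
  have hq : 0 < invq q := invq_pos
  obtain ⟨t, htfin, htL, hcov⟩ := exists_finite_cover L 1 hq
  set s : Finset ℝ := (htfin.toFinset.image fun y => ‖y‖).filter fun r => invq q ≤ r ∧ r < 1 with hs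
  have hcast : (((q : ℕ) : Ql q)) = algebraMap ℚ_[(q : ℕ)] (Ql q) (q : ℕ) := (map_natCast _ _).symm
  have hmem : ∀ x ∈ L, invq q ≤ ‖x‖ → ‖x‖ < 1 → ‖x‖ ∈ s := by
    intro x hx h1 h2
    obtain ⟨y, hy, hd⟩ := hcov x hx h2.le
    have e : ‖y‖ = ‖x‖ := by
      rw [show y = x + (y - x) by ring,
        IsUltrametricDist.norm_add_eq_max_of_norm_ne_norm
          (by rw [norm_sub_rev]; exact (lt_of_lt_of_le hd h1).ne'),
        max_eq_left (by rw [norm_sub_rev]; exact (lt_of_lt_of_le hd h1).le)]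
    rw [hs, Finset.mem_filter]
    exact ⟨Finset.mem_image.2 ⟨y, htfin.mem_toFinset.2 hy, e⟩, h1, h2⟩
  have hqn : ‖((q : ℕ) : Ql q)‖ = invq q := by
    rw [hcast, norm_algebraMap', Padic.norm_p]; rfl
  have hne : s.Nonempty := ⟨_, hmem _ (by rw [hcast]; exact L.algebraMap_mem _) hqn.ge
    (by rw [hqn]; exact invq_lt_one)⟩
  obtain ⟨hρ1, hρ2⟩ := Finset.mem_filter.1 (s.max'_mem hne)
  obtain ⟨π, hπt, hπ⟩ := Finset.mem_image.1 hρ1
  have hπL := (htL π (htfin.mem_toFinset.1 hπt)).1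
  have hπ1 : ‖π‖ < 1 := hπ ▸ hρ2.2
  have hπ0 : 0 < ‖π‖ := hπ ▸ lt_of_lt_of_le hq hρ2.1
  refine ⟨π, hπL, hπ0, hπ1, fun x hx hx0 => ?_⟩
  obtain ⟨k, hk1, hk2⟩ := exists_mem_Ioc_zpow (norm_pos_iff.2 hx0) (one_lt_inv₀ hπ0 |>.2 hπ1)
  refine ⟨-(k + 1), le_antisymm ?_ ?_⟩
  · rwa [inv_zpow', ] at hk2
  · by_contra h
    push Not at h
    have hkey : ‖x * π ^ (k + 1)‖ < 1 := by
      rw [norm_mul, norm_zpow]
      calc ‖x‖ * ‖π‖ ^ (k + 1) < ‖π‖ ^ (-(k + 1)) * ‖π‖ ^ (k + 1) :=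
            mul_lt_mul_of_pos_right h (zpow_pos hπ0 _)
        _ = 1 := by rw [← zpow_add₀ hπ0.ne']; simp
    have hlow : ‖π‖ < ‖x * π ^ (k + 1)‖ := by
      rw [norm_mul, norm_zpow]
      rw [inv_zpow'] at hk1
      calc ‖π‖ = ‖π‖ ^ (-k) * ‖π‖ ^ (k + 1) := by rw [← zpow_add₀ hπ0.ne']; simp
        _ < ‖x‖ * ‖π‖ ^ (k + 1) := mul_lt_mul_of_pos_right hk1 (zpow_pos hπ0 _)
    have := s.le_max' _ (hmem _ (mul_mem hx (zpow_mem hπL _))
      ((hπ ▸ hρ2.1 : invq q ≤ ‖π‖).trans hlow.le) hkey)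
    rw [← hπ] at this
    exact absurd this (not_le.2 hlow)

/-- A uniformiser. -/
def unif : Ql q := (exists_unif L).choose

theorem unif_mem : unif L ∈ L := (exists_unif L).choose_spec.1

theorem norm_unif_pos : 0 < ‖unif L‖ := (exists_unif L).choose_spec.2.1

theorem norm_unif_lt_one : ‖unif L‖ < 1 := (exists_unif L).choose_spec.2.2.1

theorem exists_norm_eq_zpow (a : fieldUnits L) :
    ∃ k : ℤ, ‖mval (a : Ml q)‖ = ‖unif L‖ ^ k :=
  (exists_unif L).choose_spec.2.2.2 _ a.2 (mval_ne_zero _)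

/-- The normalised valuation. -/
def ordL : fieldUnits L →+ ℤ :=
  AddMonoidHom.mk' (fun a => (exists_norm_eq_zpow L a).choose) fun a c => by
    apply zpow_right_injective₀ (norm_unif_pos L) (norm_unif_lt_one L).ne
    simp only
    rw [zpow_add₀ (norm_unif_pos L).ne', ← (exists_norm_eq_zpow L (a + c)).choose_spec,
      ← (exists_norm_eq_zpow L a).choose_spec, ← (exists_norm_eq_zpow L c).choose_spec,
      AddSubgroup.coe_add, mval_add, norm_mul]

theorem norm_eq_ordL (a : fieldUnits L) : ‖mval (a : Ml q)‖ = ‖unif L‖ ^ ordL L a :=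
  (exists_norm_eq_zpow L a).choose_spec

theorem ordL_eq_of_norm {a : fieldUnits L} {k : ℤ} (h : ‖mval (a : Ml q)‖ = ‖unif L‖ ^ k) :
    ordL L a = k :=
  zpow_right_injective₀ (norm_unif_pos L) (norm_unif_lt_one L).ne
    ((norm_eq_ordL L a).symm.trans h)

theorem ordL_eq_zero_iff (a : fieldUnits L) : ordL L a = 0 ↔ (a : Ml q) ∈ unitsIn L := by
  refine ⟨fun h => ⟨a.2, by rw [norm_eq_ordL L a, h, zpow_zero]⟩, fun h => ordL_eq_of_norm L ?_⟩
  rw [h.2, zpow_zero]

theorem ordL_surjective : Function.Surjective (ordL L) := by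
  obtain ⟨a, ha⟩ := exists_mval_eq (norm_pos_iff.1 (norm_unif_pos L))
  let π' : fieldUnits L := ⟨a, by rw [mem_fieldUnits, ha]; exact unif_mem L⟩
  have h1 : ordL L π' = 1 := ordL_eq_of_norm L (by rw [zpow_one]; exact congrArg norm ha)
  exact fun k => ⟨k • π', by rw [map_zsmul, h1, smul_eq_mul, mul_one]⟩

end value

section cyclic

variable {L : IntermediateField ℚ_[(q : ℕ)] (Ql q)} [FiniteDimensional ℚ_[(q : ℕ)] L]
  {κ : Type} [Fintype κ] {n : ℕ} [NeZero n]
  (b : Module.Basis (κ × ZMod n) ℚ_[(q : ℕ)] L) (σ : Gl q)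
  (hσ : ∀ i k, locAut q σ (b (i, k) : Ql q) = (b (i, k + 1) : Ql q))

include hσ

theorem rho_pow_mem_fieldUnits (k : ℕ) {a : Ml q} (ha : a ∈ fieldUnits L) :
    unitsRepLoc q (σ ^ k) a ∈ fieldUnits L := (cd_rho_pow b σ hσ k ha).1

theorem diff_mem_fieldUnits {a : Ml q} (ha : a ∈ fieldUnits L) :
    diffEnd σ a ∈ fieldUnits L := by
  have := rho_pow_mem_fieldUnits b σ hσ 1 ha
  rw [pow_one] at this
  exact AddSubgroup.sub_mem _ this ha

theorem norm_mem_fieldUnits {a : Ml q} (ha : a ∈ fieldUnits L) :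
    normEnd σ n a ∈ fieldUnits L := by
  rw [normEnd_apply]
  exact AddSubgroup.sum_mem _ fun k _ => rho_pow_mem_fieldUnits b σ hσ k ha

theorem rho_mem_unitsIn (k : ℕ) {a : Ml q} (ha : a ∈ unitsIn L) :
    unitsRepLoc q (σ ^ k) a ∈ unitsIn L :=
  ⟨rho_pow_mem_fieldUnits b σ hσ k ha.1, by rw [mval_unitsRepLoc, norm_locAut]; exact ha.2⟩

theorem diff_mem_unitsIn {a : Ml q} (ha : a ∈ unitsIn L) : diffEnd σ a ∈ unitsIn L := by
  have := rho_mem_unitsIn b σ hσ 1 ha
  rw [pow_one] at this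
  exact AddSubgroup.sub_mem _ this ha

theorem norm_mem_unitsIn {a : Ml q} (ha : a ∈ unitsIn L) : normEnd σ n a ∈ unitsIn L := by
  rw [normEnd_apply]
  exact AddSubgroup.sum_mem _ fun k _ => rho_mem_unitsIn b σ hσ k ha

/-- The Herbrand quotient of the multiplicative group is the degree. -/
theorem hcard_fieldUnits_cyclic :
    hcard (resEnd (diffEnd σ) (fieldUnits L) fun _ => diff_mem_fieldUnits b σ hσ)
      (resEnd (normEnd σ n) (fieldUnits L) fun _ => norm_mem_fieldUnits b σ hσ) =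
    n * hcard (resEnd (normEnd σ n) (fieldUnits L) fun _ => norm_mem_fieldUnits b σ hσ)
      (resEnd (diffEnd σ) (fieldUnits L) fun _ => diff_mem_fieldUnits b σ hσ) := by
  haveI := finite_quotient_lat b
  have hfix : ∀ x ∈ fieldUnits L, unitsRepLoc q (σ ^ n) x = x := fun x hx =>
    pow_card_fix b σ hσ hx
  obtain ⟨hV1, hV2⟩ := hcard_lat_cyclic b σ hσ
  have hU := hcard_mul_of_finiteIndex (diffEnd σ) (normEnd σ n) (lat b 0) (unitsIn L)
    (lat_le_unitsIn b) (fun _ => diff_mem_lat b σ hσ) (fun _ => norm_mem_lat b σ hσ)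
    (fun _ => diff_mem_unitsIn b σ hσ) (fun _ => norm_mem_unitsIn b σ hσ)
    (fun x hx => diffEnd_normEnd (hfix x hx.1)) (fun x hx => normEnd_diffEnd (hfix x hx.1))
  rw [hV1, hV2, mul_one, one_mul] at hU
  have hne := hcard_ne_zero_of_finiteIndex (normEnd σ n) (diffEnd σ) (lat b 0) (unitsIn L)
    (lat_le_unitsIn b) (fun _ => norm_mem_lat b σ hσ) (fun _ => diff_mem_lat b σ hσ)
    (fun _ => norm_mem_unitsIn b σ hσ) (fun _ => diff_mem_unitsIn b σ hσ)
    (fun x hx => normEnd_diffEnd (hfix x hx.1)) (by rw [hV2]; exact one_ne_zero)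
  have hnorm : ∀ (k : ℕ) (x : Ml q), ‖mval (unitsRepLoc q (σ ^ k) x)‖ = ‖mval x‖ :=
    fun k x => by rw [mval_unitsRepLoc, norm_locAut]
  have key := hcard_mul_of_valuation (diffEnd σ) (normEnd σ n) (unitsIn L) (fieldUnits L)
    (fun _ => diff_mem_unitsIn b σ hσ) (fun _ => norm_mem_unitsIn b σ hσ)
    (fun _ => diff_mem_fieldUnits b σ hσ) (fun _ => norm_mem_fieldUnits b σ hσ)
    (fun x hx => diffEnd_normEnd (hfix x hx)) (fun x hx => normEnd_diffEnd (hfix x hx))
    (ordL L) (ordL_surjective L) (ordL_eq_zero_iff L) (unitsIn_le_fieldUnits L) n (NeZero.ne n)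
    (fun x => ordL_eq_of_norm L (by
      rw [zpow_zero, coe_resEnd, diffEnd_apply, sub_eq_add_neg, mval_add, norm_mul, mval_neg,
        norm_inv, ← pow_one σ, hnorm, mul_inv_cancel₀ (norm_ne_zero_iff.2 (mval_ne_zero _))]))
    (fun x => ordL_eq_of_norm L (by
      rw [coe_resEnd, normEnd_apply]
      have : ∀ m, ‖mval (∑ k ∈ Finset.range m, unitsRepLoc q (σ ^ k) (x : Ml q))‖ =
          ‖mval (x : Ml q)‖ ^ m := by
        intro m
        induction m with
        | zero => simp [mval_zero]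
        | succ m ih => rw [Finset.sum_range_succ, mval_add, norm_mul, ih, hnorm, pow_succ]
      rw [this, norm_eq_ordL L x, ← zpow_natCast, ← zpow_mul, mul_comm]))
  rw [hU] at key
  refine Nat.eq_of_mul_eq_mul_right (Nat.pos_of_ne_zero hne) ?_
  linarith

end cyclic

section power

variable (L : IntermediateField ℚ_[(q : ℕ)] (Ql q)) [FiniteDimensional ℚ_[(q : ℕ)] L]
  (p : ℕ) [hp : Fact p.Prime]

theorem pow_mem_fieldUnits {a : Ml q} (ha : a ∈ fieldUnits L) :
    powEnd q p a ∈ fieldUnits L := AddSubgroup.nsmul_mem _ ha _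

theorem pow_mem_unitsIn {a : Ml q} (ha : a ∈ unitsIn L) :
    powEnd q p a ∈ unitsIn L := AddSubgroup.nsmul_mem _ ha _

theorem hcard_pow_left (Y : AddSubgroup (Ml q)) (hY : ∀ x ∈ Y, powEnd q p x ∈ Y) :
    hcard (resEnd (powEnd q p) Y hY) (resEnd (0 : Ml q →+ Ml q) Y fun _ _ => zero_mem _) =
      Nat.card {x : Y // p • (x : Ml q) = 0} := by
  rw [hcard_eq_relIndex,
    show (resEnd (0 : Ml q →+ Ml q) Y fun _ _ => zero_mem _) = 0 from rfl,
    AddMonoidHom.range_zero, AddSubgroup.relIndex_bot_left]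
  exact Nat.card_congr (Equiv.subtypeEquivRight fun x => by
    rw [AddMonoidHom.mem_ker, ← Subtype.coe_inj, coe_resEnd, powEnd_apply]; rfl)

theorem torsion_mem_unitsIn {x : Ml q} (hx : x ∈ fieldUnits L) (h : p • x = 0) :
    x ∈ unitsIn L := by
  refine ⟨hx, ?_⟩
  have := norm_mval_nsmul x p
  rw [h, mval_zero, norm_one] at this
  exact (pow_eq_one_iff_of_nonneg (norm_nonneg _) hp.out.ne_zero).1 this.symm

/-- The number of classes modulo `p`-th powers. -/
theorem hcard_fieldUnits_pow (hμ : Nat.card {x : fieldUnits L // p • (x : Ml q) = 0} = p) :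
    hcard (resEnd (0 : Ml q →+ Ml q) (fieldUnits L) fun _ _ => zero_mem _)
      (resEnd (powEnd q p) (fieldUnits L) fun _ => pow_mem_fieldUnits L p) =
      p ^ (2 + if (q : ℕ) = p then Module.finrank ℚ_[(q : ℕ)] L else 0) := by
  classical
  set b := Module.finBasis ℚ_[(q : ℕ)] L
  haveI := finite_quotient_lat b
  have hμU : Nat.card {x : unitsIn L // p • (x : Ml q) = 0} = p := by
    refine (Nat.card_congr ?_).trans hμ
    exact
      { toFun := fun x => ⟨⟨x.1.1, x.1.2.1⟩, x.2⟩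
        invFun := fun x => ⟨⟨x.1.1, torsion_mem_unitsIn L p x.1.2 x.2⟩, x.2⟩
        left_inv := fun _ => rfl
        right_inv := fun _ => rfl }
  have hV1 := hcard_pow_lat_left b p
  have hV2 := hcard_pow_lat_right b p
  have hU := hcard_mul_of_finiteIndex (0 : Ml q →+ Ml q) (powEnd q p) (lat b 0) (unitsIn L)
    (lat_le_unitsIn b) (fun _ _ => zero_mem _) (fun _ => pow_mem_lat b p) (fun _ _ => zero_mem _)
    (fun _ => pow_mem_unitsIn L p) (fun _ _ => rfl) (fun _ _ => map_zero _)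
  rw [hV1, hV2, mul_one, hcard_pow_left p (unitsIn L) (fun _ => pow_mem_unitsIn L p), hμU,
    Fintype.card_fin] at hU
  have key := hcard_mul_of_valuation (0 : Ml q →+ Ml q) (powEnd q p) (unitsIn L) (fieldUnits L)
    (fun _ _ => zero_mem _) (fun _ => pow_mem_unitsIn L p) (fun _ _ => zero_mem _)
    (fun _ => pow_mem_fieldUnits L p) (fun _ _ => rfl) (fun _ _ => map_zero _)
    (ordL L) (ordL_surjective L) (ordL_eq_zero_iff L) (unitsIn_le_fieldUnits L) p hp.out.ne_zero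
    (fun x => map_zero (ordL L))
    (fun x => ordL_eq_of_norm L (by
      rw [coe_resEnd, powEnd_apply, norm_mval_nsmul, norm_eq_ordL L x, ← zpow_natCast,
        ← zpow_mul, mul_comm]))
  rw [hU, hcard_pow_left p (unitsIn L) (fun _ => pow_mem_unitsIn L p), hμU,
    hcard_pow_left p (fieldUnits L) (fun _ => pow_mem_fieldUnits L p), hμ] at key
  refine Nat.eq_of_mul_eq_mul_right hp.out.pos ?_
  split_ifs with h
  · rw [if_pos h] at key
    rw [← key, pow_add, pow_two]; ring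
  · rw [if_neg h] at key
    rw [← key, add_zero, pow_two]; ring

end power

end FLTA.PT

end
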