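import Fermat.Agent.PoitouTate.NormArithPlaces

/-!
# Weak approximation up to `p`-th powers
-/

set_option autoImplicit false
set_option linter.style.haveILetI false

open ExtCitation IsDedekindDomain NumberField FLTA.PT.Hasse Filter
open scoped Polynomial

noncomputable section

namespace FLTA.PT

theorem pow_card_le_norm_prod {q : Nat.Primes} {r : ℝ} (hr : 0 ≤ r) (s : Multiset (Ql q)) :
    haveI : Fact (q : ℕ).Prime := ⟨q.2⟩
    (∀ a ∈ s, r ≤ ‖1 - a‖) → r ^ s.card ≤ ‖(s.map fun a => 1 - a).prod‖ := by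
  haveI : Fact (q : ℕ).Prime := ⟨q.2⟩
  induction s using Multiset.induction with
  | empty => intro; simp
  | cons a s ih =>
    intro h
    rw [Multiset.card_cons, Multiset.map_cons, Multiset.prod_cons, norm_mul, pow_succ']
    exact mul_le_mul (h a (Multiset.mem_cons_self _ _))
      (ih fun b hb => h b (Multiset.mem_cons_of_mem hb)) (pow_nonneg hr _) (norm_nonneg _)

/-- Units sufficiently close to `1` are `p`-th powers of elements fixed by the same group. -/
theorem exists_radius_pth_power (q : Nat.Primes) (p : ℕ) (hp : 0 < p) :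
    haveI : Fact (q : ℕ).Prime := ⟨q.2⟩
    ∃ δ : ℝ, 0 < δ ∧ δ ≤ 1 ∧ ∀ (D : Subgroup (Gl q)) (u : Ml q),
      u ∈ fixedBy (unitsRepLoc q) D → ‖((Additive.toMul u : (Ql q)ˣ) : Ql q) - 1‖ < δ →
      ∃ b ∈ fixedBy (unitsRepLoc q) D, p • b = u := by
  classical
  haveI : Fact (q : ℕ).Prime := ⟨q.2⟩
  set R : Finset ℝ := insert 1
    (((Polynomial.nthRootsFinset p (1 : Ql q)).filter (· ≠ 1)).image fun ζ => ‖ζ - 1‖) with hR
  set r := R.min' (Finset.insert_nonempty _ _) with hrdef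
  have hr0 : 0 < r := by
    refine (Finset.lt_min'_iff _ _).2 fun x hx => ?_
    rcases Finset.mem_insert.1 hx with rfl | hx
    · exact one_pos
    · obtain ⟨ζ, hζ, rfl⟩ := Finset.mem_image.1 hx
      exact norm_pos_iff.2 (sub_ne_zero.2 (Finset.mem_filter.1 hζ).2)
  have hr1 : r ≤ 1 := Finset.min'_le _ _ (Finset.mem_insert_self _ _)
  refine ⟨r ^ p, pow_pos hr0 _, pow_le_one₀ hr0.le hr1, fun D u hu hclose => ?_⟩
  set x : Ql q := ((Additive.toMul u : (Ql q)ˣ) : Ql q) with hx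
  set P : (Ql q)[X] := Polynomial.X ^ p - Polynomial.C x with hP
  have hmon : P.Monic := Polynomial.monic_X_pow_sub_C _ hp.ne'
  have hspl : P.Splits := IsAlgClosed.splits P
  obtain ⟨z, hz, hzr⟩ : ∃ z ∈ P.roots, ‖z - 1‖ < r := by
    by_contra h
    push Not at h
    have h1 := pow_card_le_norm_prod hr0.le P.roots fun a ha => by
      rw [norm_sub_rev]; exact h a ha
    rw [← hspl.eval_eq_prod_roots_of_monic hmon, ← hspl.natDegree_eq_card_roots, hP,
      Polynomial.natDegree_X_pow_sub_C, Polynomial.eval_sub, Polynomial.eval_pow,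
      Polynomial.eval_X, Polynomial.eval_C, one_pow, norm_sub_rev] at h1
    exact not_lt.2 h1 hclose
  have hzp : z ^ p = x := by
    have := (Polynomial.mem_roots'.1 hz).2
    rwa [Polynomial.IsRoot.def, hP, Polynomial.eval_sub, Polynomial.eval_pow, Polynomial.eval_X,
      Polynomial.eval_C, sub_eq_zero] at this
  have hznorm : ‖z‖ = 1 := by
    have h := IsUltrametricDist.norm_add_eq_max_of_norm_ne_norm (x := (1 : Ql q)) (y := z - 1)
      (by rw [norm_one]; exact (hzr.trans_le hr1).ne')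
    rwa [add_sub_cancel, norm_one, max_eq_left (hzr.trans_le hr1).le] at h
  have hz0 : z ≠ 0 := fun h => by rw [h, norm_zero] at hznorm; exact zero_ne_one hznorm
  refine ⟨Additive.ofMul (Units.mk0 z hz0), fun τ hτ => ?_, ?_⟩
  · apply Additive.toMul.injective
    apply Units.ext
    show locAut q τ z = z
    have hxτ : locAut q τ x = x :=
      congrArg (fun w : Ml q => ((Additive.toMul w : (Ql q)ˣ) : Ql q)) (hu τ hτ)
    set ω := locAut q τ z / z with hω
    have hωp : ω ^ p = 1 := by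
      rw [hω, div_pow, ← map_pow, hzp, hxτ, div_self (hx ▸ Units.ne_zero _)]
    have hω1 : ‖ω - 1‖ < r := by
      rw [hω, div_sub_one hz0, norm_div, hznorm, div_one]
      calc ‖locAut q τ z - z‖ = ‖(locAut q τ (z - 1)) + -(z - 1)‖ := by
            congr 1; rw [map_sub, map_one]; ring
        _ ≤ max ‖locAut q τ (z - 1)‖ ‖-(z - 1)‖ := IsUltrametricDist.norm_add_le_max _ _
        _ < r := by rw [norm_locAut, norm_neg, max_self]; exact hzr
    by_contra hne
    refine not_le.2 hω1 (Finset.min'_le _ _ (Finset.mem_insert_of_mem (Finset.mem_image.2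
      ⟨ω, Finset.mem_filter.2 ⟨(Polynomial.mem_nthRootsFinset hp 1).2 hωp, fun h => hne ?_⟩, rfl⟩)))
    exact (div_eq_one_iff_eq hz0).1 h
  · apply Additive.toMul.injective
    apply Units.ext
    rw [toMul_nsmul]
    simpa using hzp

variable {G₀ : Subgroup GQ}

theorem GC.nv_sum_lt {q : Nat.Primes} {g : GQ} {ι : Type*} (s : Finset ι) (f : ι → Qb) {η : ℝ}
    (hη : 0 < η) (h : ∀ i ∈ s, GC.nv q g (f i) < η) : GC.nv q g (∑ i ∈ s, f i) < η := by
  classical
  induction s using Finset.induction with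
  | empty => rwa [Finset.sum_empty, GC.nv_zero]
  | insert a t ha ih =>
    rw [Finset.sum_insert ha]
    exact (GC.nv_add_le _ _).trans_lt
      (max_lt (h a (Finset.mem_insert_self _ _)) (ih fun i hi => h i (Finset.mem_insert_of_mem hi)))

/-- Weak approximation at finitely many places. -/
theorem exists_weak_approx (hG : IsOpenLvl lvlQ G₀) (T : Finset (Pl G₀))
    (y : Pl G₀ → fixedK G₀) (η : Pl G₀ → ℝ) (hη : ∀ v ∈ T, 0 < η v) :
    ∃ x : fixedK G₀, ∀ v ∈ T, GC.nv v.1 v.rep ((x : Qb) - (y v : Qb)) < η v := by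
  classical
  haveI := numberField_fixedK G₀ hG
  obtain ⟨n, hn⟩ : ∃ n : ℕ, ∀ v ∈ T, ∀ w ∈ T,
      GC.nv w.1 w.rep (y v : Qb) * GC.idv w.1 w.rep w.prime.asIdeal ^ n < η w := by
    have hev : ∀ᶠ n : ℕ in atTop, ∀ v ∈ T, ∀ w ∈ T,
        GC.nv w.1 w.rep (y v : Qb) * GC.idv w.1 w.rep w.prime.asIdeal ^ n < η w := by
      refine (Finset.eventually_all T).2 fun v _ => (Finset.eventually_all T).2 fun w hw => ?_
      have h := (tendsto_pow_atTop_nhds_zero_of_lt_one (GC.idv_nonneg (q := w.1) (g := w.rep)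
        w.prime.asIdeal) (GC.idv_placeIdeal_lt_one w.1 w.rep)).const_mul
        (GC.nv w.1 w.rep (y v : Qb))
      rw [mul_zero] at h
      exact h.eventually (eventually_lt_nhds (hη w hw))
    exact hev.exists
  have hcop : ∀ i ∈ T, ∀ j ∈ T, i ≠ j → i.prime.asIdeal ≠ j.prime.asIdeal := fun i _ j _ hij h =>
    hij (Pl.prime_injective hG (HeightOneSpectrum.ext h))
  choose e he using fun v : Pl G₀ => IsDedekindDomain.exists_forall_sub_mem_ideal (s := T)
    (fun w : Pl G₀ => w.prime.asIdeal) (fun _ => n) (fun w _ => w.prime.prime) hcop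
    (fun w => if w.1 = v then 1 else 0)
  refine ⟨∑ v ∈ T, y v * (e v : fixedK G₀), fun w hw => ?_⟩
  have hval : ((∑ v ∈ T, y v * (e v : fixedK G₀) : fixedK G₀) : Qb) - (y w : Qb) =
      ∑ v ∈ T, (y v : Qb) *
        (((e v - if w = v then 1 else 0 : 𝓞 (fixedK G₀)) : fixedK G₀) : Qb) := by
    have h1 : ∀ v ∈ T, (y v : Qb) *
        (((e v - if w = v then 1 else 0 : 𝓞 (fixedK G₀)) : fixedK G₀) : Qb) =
        ((y v * (e v : fixedK G₀) : fixedK G₀) : Qb) - if w = v then (y v : Qb) else 0 := by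
      intro v _
      split_ifs <;> push_cast <;> simp [mul_sub]
    rw [Finset.sum_congr rfl h1, Finset.sum_sub_distrib, Finset.sum_ite_eq, if_pos hw]
    push_cast
    rfl
  rw [hval]
  refine GC.nv_sum_lt _ _ (hη w hw) fun v hv => ?_
  rw [GC.nv_mul]
  refine lt_of_le_of_lt (mul_le_mul_of_nonneg_left ?_ (GC.nv_nonneg _)) (hn v hv w hw)
  rw [← GC.idv_pow]
  exact GC.le_idv (he v w hw)

/-- Weak approximation up to `p`-th powers. -/
theorem exists_approx (G₀ : Subgroup GQ) (p : ℕ) [Fact p.Prime] (hG : IsOpenLvl lvlQ G₀)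
    (T : Finset (Pl G₀)) (c : ∀ v : Pl G₀, Ml v.1)
    (hc : ∀ v ∈ T, c v ∈ fixedBy (unitsRepLoc v.1) v.stab) :
    ∃ x ∈ fixedBy unitsRep G₀, ∀ v ∈ T, ∃ b ∈ fixedBy (unitsRepLoc v.1) v.stab,
      v.at x = c v + p • b := by
  classical
  rcases T.eq_empty_or_nonempty with rfl | ⟨v₁, hv₁⟩
  · exact ⟨0, zero_mem _, by simp⟩
  have hδ := fun q : Nat.Primes => exists_radius_pth_power q p (Fact.out : p.Prime).pos
  choose δ hδ0 hδ1 hδ using hδ
  have hy : ∀ v : Pl G₀, ∃ y : fixedK G₀, v ∈ T →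
      haveI : Fact (v.1 : ℕ).Prime := ⟨v.1.2⟩
      ‖((Additive.toMul (c v) : (Ql v.1)ˣ) : Ql v.1) - iota v.1 (v.rep (y : Qb))‖ <
        δ v.1 * absv v.1 (c v) := by
    intro v
    by_cases hv : v ∈ T
    · obtain ⟨y, hy⟩ := exists_near_of_fixedBy hG v.1 v.rep (c v) (hc v hv)
        (mul_pos (hδ0 v.1) (absv_pos' v.1 (c v)))
      exact ⟨y, fun _ => hy⟩
    · exact ⟨0, fun h => absurd h hv⟩
  choose y hy using hy
  obtain ⟨x, hx⟩ := exists_weak_approx hG T y (fun v => δ v.1 * absv v.1 (c v))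
    fun v _ => mul_pos (hδ0 v.1) (absv_pos' v.1 (c v))
  have key : ∀ v ∈ T,
      haveI : Fact (v.1 : ℕ).Prime := ⟨v.1.2⟩
      ‖iota v.1 (v.rep (x : Qb)) - ((Additive.toMul (c v) : (Ql v.1)ˣ) : Ql v.1)‖ <
        δ v.1 * absv v.1 (c v) := by
    intro v hv
    haveI : Fact (v.1 : ℕ).Prime := ⟨v.1.2⟩
    set cc : Ql v.1 := ((Additive.toMul (c v) : (Ql v.1)ˣ) : Ql v.1)
    set a := iota v.1 (v.rep (x : Qb))
    set b := iota v.1 (v.rep (y v : Qb))
    have h1 : ‖a - b‖ < δ v.1 * absv v.1 (c v) := by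
      have := hx v hv
      rwa [GC.nv, map_sub, map_sub] at this
    calc ‖a - cc‖ = ‖(a - b) + (b - cc)‖ := by rw [sub_add_sub_cancel]
      _ ≤ max ‖a - b‖ ‖b - cc‖ := IsUltrametricDist.norm_add_le_max _ _
      _ < _ := max_lt h1 (by rw [norm_sub_rev]; exact hy v hv)
  have hx0 : (x : Qb) ≠ 0 := fun h => by
    haveI : Fact (v₁.1 : ℕ).Prime := ⟨v₁.1.2⟩
    have h1 := key v₁ hv₁
    rw [h, map_zero, map_zero, zero_sub, norm_neg] at h1
    exact absurd h1 (not_lt.2 (mul_le_of_le_one_left (norm_nonneg _) (hδ1 v₁.1)))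
  let a : fixedBy unitsRep G₀ := ⟨Additive.ofMul (Units.mk0 (x : Qb) hx0),
    fun s hs => mq_ext (mem_fixedK_iff.1 x.2 s hs)⟩
  refine ⟨a, a.2, fun v hv => ?_⟩
  haveI : Fact (v.1 : ℕ).Prime := ⟨v.1.2⟩
  have hu : v.at (a : Mq) - c v ∈ fixedBy (unitsRepLoc v.1) v.stab :=
    sub_mem (atPlace_mem_fixedBy a.2) (hc v hv)
  obtain ⟨b, hb, hbu⟩ := hδ v.1 v.stab _ hu (by
    rw [toMul_sub, Units.val_div_eq_div_val, div_sub_one (Units.ne_zero _), norm_div]
    exact (div_lt_iff₀ (absv_pos' v.1 (c v))).2 (key v hv))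
  exact ⟨b, hb, by rw [hbu, add_sub_cancel]⟩

end FLTA.PT

end
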