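import Fermat.Agent.PoitouTate.PlacesDefs
import Fermat.Agent.PoitouTate.LocalUnits

/-!
# Places, absolute values and `T`-units of a fixed field

A place of `fixedK G₀` is a pair `v = ⟨q, orbit⟩ : Pl G₀`, with chosen representative `v.rep : GQ`.
-/

set_option autoImplicit false

open ExtCitation

noncomputable section

namespace FLTA.PT

theorem absv_zero (q : Nat.Primes) : absv q 0 = 1 := by
  haveI : Fact (q : ℕ).Prime := ⟨q.2⟩
  simp [absv]

theorem absv_add (q : Nat.Primes) (a b : Ml q) : absv q (a + b) = absv q a * absv q b := by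
  haveI : Fact (q : ℕ).Prime := ⟨q.2⟩
  unfold absv
  rw [toMul_add, Units.val_mul]
  exact norm_mul _ _

theorem absv_neg (q : Nat.Primes) (a : Ml q) : absv q (-a) = (absv q a)⁻¹ := by
  apply eq_inv_of_mul_eq_one_left
  rw [← absv_add, neg_add_cancel, absv_zero]

theorem atPlace_add (q : Nat.Primes) (g : GQ) (a b : Mq) :
    atPlace q g (a + b) = atPlace q g a + atPlace q g b := by
  unfold atPlace
  rw [map_add, map_add]

theorem atPlace_zero (q : Nat.Primes) (g : GQ) : atPlace q g 0 = 0 := by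
  unfold atPlace
  rw [map_zero, map_zero]

theorem atPlace_neg (q : Nat.Primes) (g : GQ) (a : Mq) : atPlace q g (-a) = -atPlace q g a := by
  unfold atPlace
  rw [map_neg, map_neg]

/-- The finite places of the fixed field of `G₀`. -/
abbrev Pl (G₀ : Subgroup GQ) : Type := Σ q : Nat.Primes, PlacesAt q G₀

/-- A representative of a place. -/
def Pl.rep {G₀ : Subgroup GQ} (v : Pl G₀) : GQ := v.2.out.out

/-- The decomposition group of a place. -/
abbrev Pl.stab {G₀ : Subgroup GQ} (v : Pl G₀) : Subgroup (Gl v.1) := stabLoc v.1 G₀ v.rep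

/-- A global element at a place. -/
abbrev Pl.at {G₀ : Subgroup GQ} (v : Pl G₀) (a : Mq) : Ml v.1 := atPlace v.1 v.rep a

/-- The absolute value of a global element at a place. -/
abbrev Pl.abs {G₀ : Subgroup GQ} (v : Pl G₀) (a : Mq) : ℝ := absv v.1 (v.at a)

/-- The place given by a pair `(q, g)`. -/
def plOf (G₀ : Subgroup GQ) (q : Nat.Primes) (g : GQ) : Pl G₀ :=
  ⟨q, Quotient.mk'' (QuotientGroup.mk g)⟩

/-- `T`-units of the fixed field of `G₀`. -/
def tUnits (G₀ : Subgroup GQ) (T : Finset (Pl G₀)) : AddSubgroup Mq where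
  carrier := {a | a ∈ fixedBy unitsRep G₀ ∧ ∀ v, v ∉ T → v.abs a = 1}
  zero_mem' := ⟨zero_mem _, fun v _ => by rw [Pl.abs, Pl.at, atPlace_zero, absv_zero]⟩
  add_mem' := fun {a b} ha hb => ⟨add_mem ha.1 hb.1, fun v hv => by
    rw [Pl.abs, Pl.at, atPlace_add, absv_add, show absv v.1 (atPlace v.1 v.rep a) = 1 from ha.2 v hv,
      show absv v.1 (atPlace v.1 v.rep b) = 1 from hb.2 v hv, one_mul]⟩
  neg_mem' := fun {a} ha => ⟨neg_mem ha.1, fun v hv => by
    rw [Pl.abs, Pl.at, atPlace_neg, absv_neg, show absv v.1 (atPlace v.1 v.rep a) = 1 from ha.2 v hv,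
      inv_one]⟩

end FLTA.PT

end
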