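import Fermat.Agent.PoitouTate.NormArithDefs
import Fermat.Agent.PoitouTate.HasseDivisor
import Fermat.Agent.PoitouTate.GlobalClassesIdeal
import Fermat.Agent.PoitouTate.LocalFields

/-!
# Supports, divisors and weak approximation at the places of a fixed field
-/

set_option autoImplicit false
set_option linter.style.haveILetI false

open ExtCitation IsDedekindDomain NumberField FLTA.PT.Hasse
open scoped Pointwise nonZeroDivisors

noncomputable section

namespace FLTA.PT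

variable {G₀ : Subgroup GQ}

theorem Pl.mk_rep (v : Pl G₀) :
    (Quotient.mk'' (QuotientGroup.mk v.rep) : PlacesAt v.1 G₀) = v.2 := by
  rw [Pl.rep, QuotientGroup.out_eq', Quotient.out_eq']

section prime

variable [NumberField (fixedK G₀)]

/-- The prime of a place. -/
def Pl.prime (v : Pl G₀) : HeightOneSpectrum (𝓞 (fixedK G₀)) := (placeOf v.1 G₀ v.rep).1

theorem Pl.prime_eq (hG : IsOpenLvl lvlQ G₀) (v : Pl G₀) :
    v.prime = (placesEquiv v.1 G₀ hG v.2).1 := by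
  conv_rhs => rw [← v.mk_rep]
  rfl

theorem Pl.prime_injective (hG : IsOpenLvl lvlQ G₀) :
    Function.Injective (Pl.prime (G₀ := G₀)) := by
  rintro v w h
  have hq : v.1 = w.1 :=
    primesOver_unique (placeOf v.1 G₀ v.rep).2
      (show _ ∈ v.prime.asIdeal by rw [h]; exact (placeOf w.1 G₀ w.rep).2)
  obtain ⟨q, x⟩ := v
  obtain ⟨r, y⟩ := w
  obtain rfl : q = r := hq
  congr
  apply (placesEquiv q G₀ hG).injective
  apply Subtype.ext
  exact (Pl.prime_eq hG ⟨q, x⟩).symm.trans (h.trans (Pl.prime_eq hG ⟨q, y⟩))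

theorem Pl.prime_surjective (hG : IsOpenLvl lvlQ G₀) :
    Function.Surjective (Pl.prime (G₀ := G₀)) := by
  intro P
  have h0 : P.asIdeal.under ℤ ≠ ⊥ := Ideal.under_ne_bot _ P.ne_bot
  obtain ⟨n, hn⟩ := (IsPrincipalIdealRing.principal (P.asIdeal.under ℤ)).principal
  have hpr : (Ideal.span {n} : Ideal ℤ).IsPrime := by
    have : (P.asIdeal.under ℤ).IsPrime := inferInstance
    rwa [hn] at this
  have hn0 : n ≠ 0 := by
    rintro rfl
    exact h0 (by simpa using hn)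
  have hp : Nat.Prime n.natAbs :=
    Int.prime_iff_natAbs_prime.1 ((Ideal.span_singleton_prime hn0).1 hpr)
  have hmem : ((n.natAbs : ℕ) : 𝓞 (fixedK G₀)) ∈ P.asIdeal := by
    have h1 : ((n.natAbs : ℕ) : ℤ) ∈ P.asIdeal.under ℤ := by
      rw [hn]
      exact Ideal.mem_span_singleton.2 (Int.dvd_natAbs.2 dvd_rfl)
    rw [Ideal.mem_comap, map_natCast] at h1
    exact h1
  let x := (placesEquiv ⟨n.natAbs, hp⟩ G₀ hG).symm ⟨P, hmem⟩
  refine ⟨⟨⟨n.natAbs, hp⟩, x⟩, ?_⟩
  rw [Pl.prime_eq hG]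
  simp [x]

/-- The order at a place. -/
def Pl.ord (v : Pl G₀) : fixedBy unitsRep G₀ →+ ℤ := ordAt G₀ v.prime

theorem Pl.abs_le_one_iff (v : Pl G₀) (a : fixedBy unitsRep G₀) :
    v.abs (a : Mq) ≤ 1 ↔ 0 ≤ v.ord a :=
  (GC.mem_plc (q := v.1) (g := v.rep)).symm.trans
    (mem_place_iff_ordAt_nonneg G₀ (GC.liesOverPrime_plc v.1 v.rep) a)

theorem absv_pos' (q : Nat.Primes) (a : Ml q) : 0 < absv q a := by
  haveI : Fact (q : ℕ).Prime := ⟨q.2⟩
  exact norm_pos_iff.2 (Units.ne_zero _)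

omit [NumberField (fixedK G₀)] in
theorem Pl.abs_add (v : Pl G₀) (a b : Mq) : v.abs (a + b) = v.abs a * v.abs b := by
  rw [Pl.abs, Pl.at, atPlace_add, absv_add]

omit [NumberField (fixedK G₀)] in
theorem Pl.abs_neg (v : Pl G₀) (a : Mq) : v.abs (-a) = (v.abs a)⁻¹ := by
  rw [Pl.abs, Pl.at, atPlace_neg, absv_neg]

omit [NumberField (fixedK G₀)] in
theorem Pl.abs_zero (v : Pl G₀) : v.abs 0 = 1 := by
  rw [Pl.abs, Pl.at, atPlace_zero, absv_zero]

theorem Pl.abs_eq_one_iff (v : Pl G₀) (a : fixedBy unitsRep G₀) :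
    v.abs (a : Mq) = 1 ↔ v.ord a = 0 := by
  have h1 := v.abs_le_one_iff a
  have h2 := v.abs_le_one_iff (-a)
  rw [map_neg, Submodule.coe_neg, Pl.abs_neg, inv_le_one₀ (absv_pos' _ _)] at h2
  constructor
  · intro h
    have := h1.1 h.le
    have := h2.1 h.ge
    omega
  · intro h
    exact le_antisymm (h1.2 (by omega)) (h2.2 (by omega))

theorem Pl.abs_eq_of_ord_eq (v : Pl G₀) {a b : fixedBy unitsRep G₀} (h : v.ord a = v.ord b) :
    v.abs (a : Mq) = v.abs (b : Mq) := by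
  have h1 : v.abs ((a - b : fixedBy unitsRep G₀) : Mq) = 1 :=
    (v.abs_eq_one_iff _).2 (by rw [map_sub, h, sub_self])
  rw [Submodule.coe_sub, sub_eq_add_neg, Pl.abs_add, Pl.abs_neg,
    mul_inv_eq_one₀ (absv_pos' _ _).ne'] at h1
  exact h1

theorem Pl.abs_eq_iff (v : Pl G₀) (a b : fixedBy unitsRep G₀) :
    v.abs (a : Mq) = v.abs (b : Mq) ↔ v.ord a = v.ord b := by
  refine ⟨fun h => ?_, v.abs_eq_of_ord_eq⟩
  rw [← sub_eq_zero, ← map_sub, ← Pl.abs_eq_one_iff, Submodule.coe_sub, sub_eq_add_neg,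
    Pl.abs_add, Pl.abs_neg, h, mul_inv_cancel₀ (absv_pos' _ _).ne']

end prime

theorem finite_setOf_abs_ne_one (G₀ : Subgroup GQ) (hG : IsOpenLvl lvlQ G₀) (a : Mq)
    (ha : a ∈ fixedBy unitsRep G₀) : {v : Pl G₀ | v.abs a ≠ 1}.Finite := by
  haveI := numberField_fixedK G₀ hG
  refine Set.Finite.subset ((finite_ordAt_ne_zero G₀ ⟨a, ha⟩).preimage
    (Pl.prime_injective hG).injOn) fun v hv h0 => hv ?_
  exact (v.abs_eq_one_iff ⟨a, ha⟩).2 h0

/-- The field is dense in its completions. -/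
theorem exists_near_of_fixedBy (hG : IsOpenLvl lvlQ G₀) (q : Nat.Primes) (g : GQ) (b : Ml q)
    (hb : b ∈ fixedBy (unitsRepLoc q) (stabLoc q G₀ g)) {ε : ℝ} (hε : 0 < ε) :
    haveI : Fact (q : ℕ).Prime := ⟨q.2⟩
    ∃ c : fixedK G₀, ‖((Additive.toMul b : (Ql q)ˣ) : Ql q) - iota q (g c)‖ < ε := by
  haveI : Fact (q : ℕ).Prime := ⟨q.2⟩
  haveI := isGalois_ql q
  let f : fixedK G₀ →+* Ql q := (iota q).comp ((g : Qb →+* Qb).comp (fixedK G₀).val.toRingHom)
  let C : Subring (Ql q) := f.range.topologicalClosure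
  have hC : ∀ r : ℚ_[(q : ℕ)], algebraMap ℚ_[(q : ℕ)] (Ql q) r ∈ C := by
    intro r
    have hcl : r ∈ closure (Set.range ((↑) : ℚ → ℚ_[(q : ℕ)])) := by
      rw [Metric.mem_closure_iff]
      intro ε hε
      obtain ⟨t, ht⟩ := Padic.rat_dense (q : ℕ) r hε
      exact ⟨t, ⟨t, rfl⟩, by rwa [dist_eq_norm]⟩
    refine map_mem_closure (continuous_algebraMap ℚ_[(q : ℕ)] (Ql q)) hcl ?_
    rintro _ ⟨t, rfl⟩
    exact ⟨(t : fixedK G₀), by rw [map_ratCast, map_ratCast]⟩
  have hint : ∀ x ∈ Set.range f, IsIntegral ℚ_[(q : ℕ)] x := fun x _ =>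
    (Algebra.IsAlgebraic.isAlgebraic x).isIntegral
  let E := IntermediateField.adjoin ℚ_[(q : ℕ)] (Set.range f)
  have hEC : ∀ x ∈ E, x ∈ C := by
    intro x hx
    have hx' : x ∈ E.toSubalgebra := hx
    rw [IntermediateField.adjoin_toSubalgebra_of_isAlgebraic fun y hy => (hint y hy).isAlgebraic]
      at hx'
    clear hx
    induction hx' using Algebra.adjoin_induction with
    | mem y hy => exact Subring.le_topologicalClosure _ hy
    | algebraMap r => exact hC r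
    | add a b _ _ ha hb => exact C.add_mem ha hb
    | mul a b _ _ ha hb => exact C.mul_mem ha hb
  set x : Ql q := ((Additive.toMul b : (Ql q)ˣ) : Ql q)
  have hxE : x ∈ E := by
    rw [← InfiniteGalois.fixedField_fixingSubgroup E]
    rintro ⟨s, hs⟩
    obtain ⟨τ, rfl⟩ := locAut_surjective q s
    refine congrArg (fun z => ((Additive.toMul z : (Ql q)ˣ) : Ql q)) (hb τ (mem_stabLoc.2 ?_))
    rw [← fixingSubgroup_fixedK G₀ hG, IntermediateField.mem_fixingSubgroup_iff]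
    intro y hy
    have h : locAut q τ (iota q (g y)) = iota q (g y) :=
      (IntermediateField.mem_fixingSubgroup_iff _ _).1 hs _
        (IntermediateField.subset_adjoin _ _ ⟨⟨y, hy⟩, rfl⟩)
    rw [← iota_loc] at h
    rw [AlgEquiv.mul_apply, AlgEquiv.mul_apply, (iota q).injective h]
    exact g.symm_apply_apply y
  obtain ⟨_, ⟨c, rfl⟩, hc⟩ := Metric.mem_closure_iff.1 (hEC x hxE) ε hε
  rw [dist_eq_norm] at hc
  exact ⟨c, hc⟩

/-- Elements of a completion close to a given one are units of the same absolute value. -/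
theorem exists_fixed_abs_eq (hG : IsOpenLvl lvlQ G₀) (v : Pl G₀) (b : Ml v.1)
    (hb : b ∈ fixedBy (unitsRepLoc v.1) v.stab) :
    ∃ y : fixedBy unitsRep G₀, v.abs (y : Mq) = absv v.1 b := by
  haveI : Fact (v.1 : ℕ).Prime := ⟨v.1.2⟩
  set x : Ql v.1 := ((Additive.toMul b : (Ql v.1)ˣ) : Ql v.1) with hx
  obtain ⟨c, hc⟩ := exists_near_of_fixedBy hG v.1 v.rep b hb (absv_pos' v.1 b)
  change ‖x - _‖ < ‖x‖ at hc
  have hnorm : ‖iota v.1 (v.rep (c : Qb))‖ = ‖x‖ := by
    have h := IsUltrametricDist.norm_add_eq_max_of_norm_ne_norm (x := x)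
      (y := iota v.1 (v.rep (c : Qb)) - x) (by rw [norm_sub_rev]; exact hc.ne')
    rw [add_sub_cancel, norm_sub_rev, max_eq_left hc.le] at h
    exact h
  have hc0 : (c : Qb) ≠ 0 := fun h => by
    rw [h, map_zero, map_zero, norm_zero] at hnorm
    exact (Units.ne_zero (Additive.toMul b)) (norm_eq_zero.1 hnorm.symm)
  exact ⟨⟨Additive.ofMul (Units.mk0 (c : Qb) hc0),
    fun s hs => mq_ext (mem_fixedK_iff.1 c.2 s hs)⟩, hnorm⟩

/-- Outside a finite set of places every divisor is principal (finiteness of the class number). -/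
theorem exists_finset_forall_divisor (G₀ : Subgroup GQ) (hG : IsOpenLvl lvlQ G₀) :
    ∃ T₀ : Finset (Pl G₀), ∀ T : Finset (Pl G₀), T₀ ⊆ T → ∀ c : ∀ v : Pl G₀, Ml v.1,
      (∀ v, c v ∈ fixedBy (unitsRepLoc v.1) v.stab) →
      Set.Finite {v : Pl G₀ | absv v.1 (c v) ≠ 1} →
      ∃ y ∈ fixedBy unitsRep G₀, ∀ v, v ∉ T → v.abs y = absv v.1 (c v) := by
  classical
  haveI := numberField_fixedK G₀ hG
  haveI : Fintype (ClassGroup (𝓞 (fixedK G₀))) := RingOfIntegers.instFintypeClassGroup _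
  choose J hJ using classGroupMk_surjective (R := 𝓞 (fixedK G₀)) (fixedK G₀)
  choose n hn using fun cl : ClassGroup (𝓞 (fixedK G₀)) =>
    exists_expsHom_eq (fixedK G₀) (Additive.ofMul (J cl))
  set B := (Finset.univ.biUnion fun cl => (n cl).support).preimage (Pl.prime (G₀ := G₀))
    (Pl.prime_injective hG).injOn with hB
  refine ⟨B, fun T hT c hc hfin => ?_⟩
  choose y hy using fun v => exists_fixed_abs_eq hG v (c v) (hc v)
  set D : Additive (DivGrp (𝓞 (fixedK G₀)) (fixedK G₀)) :=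
    expsHom (fixedK G₀) (∑ v ∈ hfin.toFinset, Finsupp.single v.prime (v.ord (y v))) with hD
  set cl := ClassGroup.mk (fixedK G₀) (Additive.toMul D)
  have hker : Additive.toMul D / J cl ∈ (ClassGroup.mk (R := 𝓞 (fixedK G₀)) (fixedK G₀)).ker := by
    rw [MonoidHom.mem_ker, map_div, hJ, div_self']
  rw [ker_classGroupMk] at hker
  obtain ⟨x, hx⟩ := hker
  obtain ⟨a, rfl⟩ := exists_kUnit_eq G₀ x
  refine ⟨a, a.2, fun v hv => ?_⟩
  rw [← hy v]
  refine v.abs_eq_of_ord_eq ?_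
  show ordAt G₀ v.prime a = _
  rw [ordAt_apply, hx, ofMul_div, ofMul_toMul, map_sub, hD, cnt_expsHom, ← hn, cnt_expsHom]
  have hJ0 : n cl v.prime = 0 := by
    by_contra h
    refine hv (hT (Finset.mem_preimage.2 (Finset.mem_biUnion.2 ⟨cl, Finset.mem_univ _, ?_⟩)))
    exact Finsupp.mem_support_iff.2 h
  rw [hJ0, sub_zero, Finsupp.finsetSum_apply]
  simp only [Finsupp.single_apply, (Pl.prime_injective hG).eq_iff]
  rw [Finset.sum_ite_eq']
  split_ifs with h
  · rfl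
  · rw [Set.Finite.mem_toFinset, Set.mem_ofPred_eq, not_not, ← hy v] at h
    exact ((v.abs_eq_one_iff _).1 h).symm

end FLTA.PT

end
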