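import Fermat.Agent.PoitouTate.NormArithPlaces

/-!
# `T`-units: finite generation and rank
-/

set_option autoImplicit false
set_option linter.style.haveILetI false

open ExtCitation IsDedekindDomain NumberField FLTA.PT.Hasse
open scoped nonZeroDivisors

noncomputable section

namespace FLTA.PT

variable (G₀ : Subgroup GQ)

theorem mem_fixedBy_of_mem_tUnits {T : Finset (Pl G₀)} (a : tUnits G₀ T) :
    (a : Mq) ∈ fixedBy unitsRep G₀ := a.2.1

section field

variable [NumberField (fixedK G₀)] (T : Finset (Pl G₀))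

/-- A `T`-unit as an element of the fixed module. -/
def tInFixed : tUnits G₀ T →+ fixedBy unitsRep G₀ where
  toFun a := ⟨(a : Mq), a.2.1⟩
  map_zero' := Subtype.ext rfl
  map_add' _ _ := Subtype.ext rfl

/-- The vector of orders of a `T`-unit at the places of `T`. -/
def ordT : tUnits G₀ T →ₗ[ℤ] (T → ℤ) :=
  (AddMonoidHom.pi (fun v : T => ((v : Pl G₀).ord).comp (tInFixed G₀ T))).toIntLinearMap

theorem ordT_apply (a : tUnits G₀ T) (v : T) :
    ordT G₀ T a v = (v : Pl G₀).ord ⟨a, a.2.1⟩ := rfl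

/-- The underlying element of `ℚ̄ˣ` of a unit. -/
def unitVal (u : (𝓞 (fixedK G₀))ˣ) : Mq :=
  Additive.ofMul (Units.map ((fixedK G₀).val.toRingHom.comp
    (algebraMap (𝓞 (fixedK G₀)) (fixedK G₀)) : 𝓞 (fixedK G₀) →* Qb) u)

omit [NumberField (fixedK G₀)] in
theorem unitVal_mul (u w : (𝓞 (fixedK G₀))ˣ) :
    unitVal G₀ (u * w) = unitVal G₀ u + unitVal G₀ w := by
  rw [unitVal, map_mul, ofMul_mul]
  rfl

omit [NumberField (fixedK G₀)] in
theorem unitVal_mem_fixedBy (u : (𝓞 (fixedK G₀))ˣ) : unitVal G₀ u ∈ fixedBy unitsRep G₀ :=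
  fun s hs => mq_ext (mem_fixedK_iff.1 ((u : 𝓞 (fixedK G₀)) : fixedK G₀).2 s hs)

omit [NumberField (fixedK G₀)] in
theorem abs_unitVal (v : Pl G₀) (u : (𝓞 (fixedK G₀))ˣ) : v.abs (unitVal G₀ u) = 1 := by
  have hle : ∀ w : (𝓞 (fixedK G₀))ˣ, v.abs (unitVal G₀ w) ≤ 1 := fun w =>
    GC.nv_int_le_one (q := v.1) (g := v.rep) (w : 𝓞 (fixedK G₀))
  refine le_antisymm (hle u) ?_
  have h : v.abs (unitVal G₀ u) * v.abs (unitVal G₀ u⁻¹) = 1 := by
    rw [← Pl.abs_add, ← unitVal_mul, mul_inv_cancel, unitVal, map_one, ofMul_one, Pl.abs_zero]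
  rw [← h]
  exact mul_le_of_le_one_right (absv_pos' _ _).le (hle _)

/-- Units are `T`-units. -/
def unitsToT : Additive (𝓞 (fixedK G₀))ˣ →ₗ[ℤ] tUnits G₀ T :=
  (AddMonoidHom.mk' (fun u => (⟨unitVal G₀ (Additive.toMul u), unitVal_mem_fixedBy G₀ _,
    fun v _ => abs_unitVal G₀ v _⟩ : tUnits G₀ T))
    fun _ _ => Subtype.ext (unitVal_mul G₀ _ _)).toIntLinearMap

omit [NumberField (fixedK G₀)] in
theorem unitsToT_injective : Function.Injective (unitsToT G₀ T) := by
  intro u w h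
  apply Additive.toMul.injective
  apply Units.ext
  apply RingOfIntegers.coe_injective
  apply Subtype.coe_injective
  exact congrArg (fun z : tUnits G₀ T => ((Additive.toMul (z : Mq) : Qbˣ) : Qb)) h

theorem range_unitsToT (hG : IsOpenLvl lvlQ G₀) :
    LinearMap.range (unitsToT G₀ T) = LinearMap.ker (ordT G₀ T) := by
  ext a
  constructor
  · rintro ⟨u, rfl⟩
    rw [LinearMap.mem_ker]
    funext v
    exact ((v : Pl G₀).abs_eq_one_iff _).1 (abs_unitVal G₀ v _)
  · intro ha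
    rw [LinearMap.mem_ker] at ha
    have h0 : ∀ P : HeightOneSpectrum (𝓞 (fixedK G₀)),
        P.valuation (fixedK G₀) (kUnit G₀ ⟨a, a.2.1⟩ : fixedK G₀) = 1 := by
      intro P
      obtain ⟨v, rfl⟩ := Pl.prime_surjective hG P
      rw [valuation_kUnit, show ordAt G₀ v.prime ⟨a, a.2.1⟩ = 0 from ?_, neg_zero, WithZero.exp_zero]
      by_cases hv : v ∈ T
      · exact congrFun ha ⟨v, hv⟩
      · exact (v.abs_eq_one_iff ⟨a, a.2.1⟩).1 (a.2.2 v hv)
    set x := kUnit G₀ ⟨a, a.2.1⟩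
    obtain ⟨r, hr⟩ := HeightOneSpectrum.mem_integers_of_valuation_le_one (fixedK G₀)
      (x : fixedK G₀) fun P => (h0 P).le
    obtain ⟨r', hr'⟩ := HeightOneSpectrum.mem_integers_of_valuation_le_one (fixedK G₀)
      ((x⁻¹ : (fixedK G₀)ˣ) : fixedK G₀) fun P => by
        rw [Units.val_inv_eq_inv_val, map_inv₀, h0 P, inv_one]
    have hmul : r * r' = 1 := RingOfIntegers.coe_injective (by
      rw [map_mul, map_one, hr, hr', Units.mul_inv])
    refine ⟨Additive.ofMul ⟨r, r', hmul, by rwa [mul_comm]⟩, Subtype.ext (mq_ext ?_)⟩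
    exact congrArg Subtype.val hr

theorem exists_ord_eq_classNumber (hG : IsOpenLvl lvlQ G₀) (v : Pl G₀) :
    ∃ a : fixedBy unitsRep G₀, v.ord a = (Nat.card (ClassGroup (𝓞 (fixedK G₀))) : ℤ) ∧
      ∀ w, w ≠ v → w.ord a = 0 := by
  classical
  set h := Nat.card (ClassGroup (𝓞 (fixedK G₀)))
  have hker : (primeDiv (fixedK G₀) v.prime) ^ h ∈
      (ClassGroup.mk (R := 𝓞 (fixedK G₀)) (fixedK G₀)).ker := by
    rw [MonoidHom.mem_ker, map_pow]
    exact pow_card_eq_one'
  rw [ker_classGroupMk] at hker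
  obtain ⟨x, hx⟩ := hker
  obtain ⟨a, rfl⟩ := exists_kUnit_eq G₀ x
  have key : ∀ w : Pl G₀, w.ord a = if w = v then (h : ℤ) else 0 := by
    intro w
    show ordAt G₀ w.prime a = _
    rw [ordAt_apply, hx, ofMul_pow, map_nsmul, cnt_primeDiv, nsmul_eq_mul]
    rcases eq_or_ne w v with rfl | hne
    · simp
    · rw [if_neg hne, if_neg fun e => hne (Pl.prime_injective hG e).symm, mul_zero]
  exact ⟨a, by rw [key, if_pos rfl], fun w hw => by rw [key, if_neg hw]⟩

theorem card_classGroup_smul_mem_range (hG : IsOpenLvl lvlQ G₀) (z : T → ℤ) :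
    (Nat.card (ClassGroup (𝓞 (fixedK G₀))) : ℤ) • z ∈ LinearMap.range (ordT G₀ T) := by
  classical
  rw [pi_eq_sum_univ z, Finset.smul_sum]
  refine Submodule.sum_mem _ fun v _ => ?_
  rw [smul_comm]
  refine Submodule.smul_mem _ _ ?_
  obtain ⟨a, ha, ha'⟩ := exists_ord_eq_classNumber G₀ hG (v : Pl G₀)
  refine ⟨⟨a, a.2, fun w hw => (w.abs_eq_one_iff a).2 (ha' w fun e => hw (e ▸ v.2))⟩, ?_⟩
  funext w
  rw [ordT_apply, Pi.smul_apply, smul_eq_mul]
  rcases eq_or_ne v w with rfl | hne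
  · rw [if_pos rfl, mul_one]
    exact ha
  · rw [if_neg hne, mul_zero]
    exact ha' w fun e => hne (Subtype.ext e.symm)

theorem finrank_range_ordT (hG : IsOpenLvl lvlQ G₀) :
    Module.finrank ℤ (LinearMap.range (ordT G₀ T)) = T.card := by
  refine le_antisymm ((Submodule.finrank_le _).trans (by simp)) ?_
  let f : (T → ℤ) →ₗ[ℤ] LinearMap.range (ordT G₀ T) :=
    LinearMap.codRestrict _ ((Nat.card (ClassGroup (𝓞 (fixedK G₀))) : ℤ) • LinearMap.id)
      (card_classGroup_smul_mem_range G₀ T hG)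
  have hf : Function.Injective f := fun a b h => by
    have h' : (Nat.card (ClassGroup (𝓞 (fixedK G₀))) : ℤ) • a =
        (Nat.card (ClassGroup (𝓞 (fixedK G₀))) : ℤ) • b := congrArg Subtype.val h
    exact smul_right_injective (T → ℤ) (Int.natCast_ne_zero.2 Nat.card_pos.ne') h'
  have := LinearMap.finrank_le_finrank_of_injective hf
  simpa using this

theorem finite_tUnits_aux (hG : IsOpenLvl lvlQ G₀) : Module.Finite ℤ (tUnits G₀ T) := by
  haveI : Module.Finite ℤ (LinearMap.ker (ordT G₀ T)) := by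
    rw [← range_unitsToT G₀ T hG]
    exact Module.Finite.range _
  haveI : Module.Finite ℤ ((tUnits G₀ T) ⧸ LinearMap.ker (ordT G₀ T)) :=
    Module.Finite.equiv (ordT G₀ T).quotKerEquivRange.symm
  exact Module.Finite.of_submodule_quotient (LinearMap.ker (ordT G₀ T))

theorem finrank_tUnits_aux (hG : IsOpenLvl lvlQ G₀) :
    Module.finrank ℤ (tUnits G₀ T) = T.card + Units.rank (fixedK G₀) := by
  haveI := finite_tUnits_aux G₀ T hG
  rw [← Submodule.finrank_quotient_add_finrank (LinearMap.ker (ordT G₀ T)),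
    (ordT G₀ T).quotKerEquivRange.finrank_eq, finrank_range_ordT G₀ T hG,
    ← range_unitsToT G₀ T hG, LinearMap.finrank_range_of_inj (unitsToT_injective G₀ T),
    Units.finrank_eq]

end field

/-- Dirichlet: the `T`-units are finitely generated. -/
theorem finite_tUnits (hG : IsOpenLvl lvlQ G₀) (T : Finset (Pl G₀)) :
    Module.Finite ℤ (tUnits G₀ T) := by
  haveI := numberField_fixedK G₀ hG
  exact finite_tUnits_aux G₀ T hG

/-- Dirichlet: the `T`-units have rank `#T + [K:ℚ]/2 - 1` when `K` is totally complex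
(here: contains `μ_p`, `p` odd). -/
theorem finrank_tUnits (p : ℕ) [Fact p.Prime] (hp : p ≠ 2) (hG : IsOpenLvl lvlQ G₀)
    (hμ : ∀ s ∈ G₀, cycloChar p s = 1) (T : Finset (Pl G₀)) :
    2 * (Module.finrank ℤ (tUnits G₀ T) + 1) = 2 * T.card + G₀.index := by
  classical
  haveI := numberField_fixedK G₀ hG
  have hmem : (rootP p : Qb) ∈ fixedK G₀ := mem_fixedK_iff.2 fun s hs => by
    have h := unitsRep_muIncl p s 1
    rw [hμ s hs, Units.val_one, one_mul, ← Nat.cast_one, muIncl_natCast, one_smul] at h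
    exact congrArg (fun z : Mq => ((Additive.toMul z : Qbˣ) : Qb)) h
  have hζ : IsPrimitiveRoot (⟨_, hmem⟩ : fixedK G₀) p :=
    IsPrimitiveRoot.of_map_of_injective (f := (fixedK G₀).val)
      ((IsPrimitiveRoot.coe_units_iff).2 (rootP_isPrimitive p)) Subtype.val_injective
  have hr : InfinitePlace.nrRealPlaces (fixedK G₀) = 0 :=
    InfinitePlace.IsPrimitiveRoot.nrRealPlaces_eq_zero_of_two_lt
      (lt_of_le_of_ne (Fact.out : p.Prime).two_le (Ne.symm hp)) hζ
  have h1 := InfinitePlace.card_eq_nrRealPlaces_add_nrComplexPlaces (K := fixedK G₀)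
  have h2 := InfinitePlace.card_add_two_mul_card_eq_rank (K := fixedK G₀)
  rw [finrank_fixedK G₀ hG, hr, zero_add] at h2
  rw [hr, zero_add] at h1
  have h3 : 0 < Fintype.card (InfinitePlace (fixedK G₀)) := Fintype.card_pos
  rw [finrank_tUnits_aux G₀ T hG, Units.rank]
  omega

end FLTA.PT

end
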