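import Fermat.Agent.PoitouTate.Places
import Fermat.Agent.PoitouTate.NormArithDefs
import Fermat.Agent.PoitouTate.NormArithPlaces
import Fermat.Agent.PoitouTate.NormArithApprox
import Fermat.Agent.PoitouTate.NormArithUnits

/-!
# Arithmetic input for the norm theorem: places, supports, `T`-units, approximation

A place of `fixedK G₀` is a pair `v = ⟨q, orbit⟩ : Pl G₀`, with chosen representative `v.rep : GQ`.
Finite supports, finiteness of the class number, Dirichlet's theorem for `T`-units and weak
approximation are proved in the imported files.
-/
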