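import Fermat.Agent.PoitouTate.NormKummer

/-!
# Auxiliary split places for the second inequality
-/

set_option autoImplicit false

open ExtCitation

noncomputable section

namespace FLTA.PT.NT

variable {p : ℕ} [hp : Fact p.Prime] {G₁ G₀ : Subgroup GQ}

/-- Local elements modulo `p`-th powers. -/
abbrev LocMod (p : ℕ) (v : Pl G₀) : Type :=
  fixedBy (unitsRepLoc v.1) v.stab ⧸
    LinearMap.range ((p : ℤ) • (LinearMap.id :
      fixedBy (unitsRepLoc v.1) v.stab →ₗ[ℤ] fixedBy (unitsRepLoc v.1) v.stab))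

theorem locMod_mk_eq_iff {v : Pl G₀} (x y : fixedBy (unitsRepLoc v.1) v.stab) :
    (Submodule.Quotient.mk x : LocMod p v) = Submodule.Quotient.mk y ↔
      ∃ b ∈ fixedBy (unitsRepLoc v.1) v.stab, (x : Ml v.1) = y + p • b := by
  rw [Submodule.Quotient.eq]
  constructor
  · rintro ⟨b, hb⟩
    refine ⟨b, b.2, ?_⟩
    have h := congrArg Subtype.val hb
    simp only [LinearMap.smul_apply, LinearMap.id_apply, SetLike.val_smul, natCast_zsmul,
      Submodule.coe_sub] at h
    have h' : p • (b : Ml v.1) = (x : Ml v.1) - y := h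
    rw [h', add_sub_cancel]
  · rintro ⟨b, hb, e⟩
    exact ⟨⟨b, hb⟩, Subtype.ext (by simp [e])⟩

/-- A `T`-unit modulo `p`-th powers at a place. -/
def locModMap (p : ℕ) [Fact p.Prime] (T : Finset (Pl G₀)) (v : Pl G₀) :
    tUnits G₀ T →+ LocMod p v where
  toFun e := Submodule.Quotient.mk ⟨v.at e.1, atPlace_mem_fixedBy e.2.1⟩
  map_zero' := (Submodule.Quotient.mk_eq_zero _).2
    ⟨0, Subtype.ext (by simp [Pl.at, atPlace_zero])⟩
  map_add' e f := by
    rw [← Submodule.Quotient.mk_add]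
    exact congrArg _ (Subtype.ext (atPlace_add _ _ _ _))

theorem zsmul_nsmul_comm {X : Type*} [AddCommGroup X] (k : ℤ) (n : ℕ) (x : X) :
    k • n • x = n • k • x := by
  rw [← natCast_zsmul, ← natCast_zsmul, smul_smul, smul_smul, mul_comm]

theorem atPlace_down (hle : G₁ ≤ G₀) (w : Pl G₁) :
    ∃ τ : Gl w.1, (∀ x ∈ fixedBy unitsRep G₀, w.at x =
        unitsRepLoc w.1 τ (atPlace w.1 (down G₀ w).rep x)) ∧
      ∀ s ∈ stabLoc w.1 G₁ w.rep, τ⁻¹ * s * τ ∈ stabLoc w.1 G₀ (down G₀ w).rep := by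
  obtain ⟨τ, h, hh, e⟩ := rep_plOf (G₀ := G₀) w.1 w.rep
  refine ⟨τ, fun x hx => ?_, fun s hs => ?_⟩
  · unfold Pl.at
    conv_lhs => rw [e]
    exact atPlace_translate τ _ hh hx
  · refine (mem_stabLoc_translate (G := G₀) τ s (plOf G₀ w.1 w.rep).rep (h := h) fun x =>
      ⟨fun hx => by simpa [mul_assoc] using mul_mem (mul_mem hh hx) (G₀.inv_mem hh),
        fun hx => mul_mem (mul_mem (G₀.inv_mem hh) hx) hh⟩).1 ?_
    exact e ▸ stabLoc_mono hle _ hs

/-- A `T`-unit which is not a product of a power of the Kummer generator and a `p`-th power is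
not a local `p`-th power at some split place outside `T`. -/
theorem exists_split_place (hp2 : p ≠ 2) (hC : CycStep p G₁ G₀) {T : Finset (Pl G₀)}
    (hT : GoodT hC T) {r : Mq} (hr : r ∈ fixedBy unitsRep G₁) (ha : p • r ∈ tUnits G₀ T)
    (hr0 : r ∉ fixedBy unitsRep G₀) (e : tUnits G₀ T)
    (he : ∀ k : ℤ, ∀ z ∈ tUnits G₀ T, (e : Mq) ≠ k • (p • r) + p • z) :
    ∃ v, v ∉ T ∧ ¬ NonSplit G₁ v ∧ locModMap p T v e ≠ 0 := by
  classical
  obtain ⟨σ, hσ, hσ1⟩ := hC.exists_generator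
  obtain ⟨R, hR⟩ := exists_nsmul_eq p (e : Mq)
  -- `R` is not in `L`
  have hR1 : R ∉ fixedBy unitsRep G₁ := by
    intro hR1
    set ζ := unitsRep σ r - r with hζ
    have hζ0 : ζ ≠ 0 := fun h => hr0 (hC.fixedBy_of_fixed hσ hσ1 hr (sub_eq_zero.1 h))
    have hζp : p • ζ = 0 := by rw [hζ, nsmul_sub, ← map_nsmul, ha.1 σ hσ, sub_self]
    have hη : p • (unitsRep σ R - R) = 0 := by
      rw [nsmul_sub, ← map_nsmul, hR, e.2.1 σ hσ, sub_self]
    obtain ⟨k, hk⟩ : ∃ k : ℕ, unitsRep σ R - R = k • ζ := by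
      have hne : ((Additive.toMul ζ : Qbˣ) : Qb) ≠ 1 := fun h => hζ0 (Mq_ext h)
      have hp1 : ((Additive.toMul ζ : Qbˣ) : Qb) ^ p = 1 := by rw [← toMul_nsmul_coe, hζp]; rfl
      haveI : NeZero p := ⟨hp.out.ne_zero⟩
      have hprim : IsPrimitiveRoot ((Additive.toMul ζ : Qbˣ) : Qb) p :=
        IsPrimitiveRoot.iff_orderOf.2 (orderOf_eq_prime hp1 hne)
      obtain ⟨i, -, hi⟩ := hprim.eq_pow_of_pow_eq_one
        (show ((Additive.toMul (unitsRep σ R - R) : Qbˣ) : Qb) ^ p = 1 by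
          rw [← toMul_nsmul_coe, hη]; rfl)
      exact ⟨i, Mq_ext (by rw [toMul_nsmul_coe]; exact hi.symm)⟩
    set z := R - k • r with hz
    have hz0 : z ∈ fixedBy unitsRep G₀ := by
      refine hC.fixedBy_of_fixed hσ hσ1 (sub_mem hR1 (Submodule.smul_of_tower_mem _ k hr)) ?_
      rw [hz, map_sub, map_nsmul, ← sub_eq_zero]
      calc unitsRep σ R - k • unitsRep σ r - (R - k • r)
          = (unitsRep σ R - R) - k • ζ := by rw [hζ, nsmul_sub]; abel
        _ = 0 := by rw [hk, sub_self]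
    have hzT : z ∈ tUnits G₀ T := by
      refine ⟨hz0, fun v hv => ?_⟩
      have hpz : p • z ∈ tUnits G₀ T := by
        rw [hz, nsmul_sub, hR, smul_comm]
        exact sub_mem e.2 (nsmul_mem ha k)
      have h1 := hpz.2 v hv
      have e1 : v.at (p • z) = p • v.at z := by
        unfold Pl.at atPlace; rw [map_nsmul, map_nsmul]
      rw [Pl.abs, e1, absv_nsmul] at h1
      exact (pow_left_inj₀ (absv_pos _).le zero_le_one hp.out.ne_zero).1 (by rw [one_pow]; exact h1)
    refine he (k : ℤ) z hzT ?_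
    rw [natCast_zsmul, hz, nsmul_sub, hR, smul_comm k p r]
    abel
  obtain ⟨G₂, hC₂, hmem, -⟩ := exists_cycStep_of_root hC.open₁ hC.mu₁ (r := R)
    (by rw [hR]; exact fixedBy_antitone _ hC.le e.2.1) hR1
  obtain ⟨T₂, hT₂sub, hT₂⟩ := exists_goodT hC₂ (liftPlaces hC.open₁ T)
  obtain ⟨w, hw, hwns⟩ := hC₂.exists_nonSplit_notMem hp2 hT₂
  have hwT : down G₀ w ∉ T := fun h => hw (hT₂sub (mem_liftPlaces.2 h))
  refine ⟨down G₀ w, hwT, ?_⟩
  -- it suffices to prove that `e` is not locally `k • a + p • b` when this would split `w`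
  have key : ∀ (k : ℤ) (b : Ml w.1),
      b ∈ fixedBy (unitsRepLoc w.1) (stabLoc w.1 G₀ (down G₀ w).rep) →
      atPlace w.1 (down G₀ w).rep (e : Mq) =
        k • atPlace w.1 (down G₀ w).rep (p • r) + p • b → False := by
    intro k b hb heq
    obtain ⟨τ, hτ, hτs⟩ := atPlace_down hC.le w
    refine hwns (le_antisymm (hC₂.stab_le w.1 w.rep) ?_)
    refine stab_le_of_root hC.mu₁ hmem (b := k • w.at r + unitsRepLoc w.1 τ b) ?_ ?_
    · refine add_mem (Submodule.smul_mem _ k (atPlace_mem_fixedBy hr)) fun s hs => ?_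
      rw [← Module.End.mul_apply, ← map_mul, show s * τ = τ * (τ⁻¹ * s * τ) by simp [mul_assoc],
        map_mul, Module.End.mul_apply]
      exact congrArg _ (hb _ (hτs s hs))
    · show w.at (p • R) = _
      have e1 : w.at (p • r) = p • w.at r := by unfold Pl.at atPlace; rw [map_nsmul, map_nsmul]
      rw [hR, hτ _ e.2.1, heq, map_add, map_zsmul, map_nsmul, ← hτ _ ha.1, e1, nsmul_add,
        zsmul_nsmul_comm k p]
  by_cases hns : NonSplit G₁ (down G₀ w)
  · exfalso
    set v := down G₀ w with hv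
    have hqp : (v.1 : ℕ) ≠ p := fun h => hwT (hT.pmem v h)
    have hna : ∀ b ∈ fixedBy (unitsRepLoc v.1) v.stab, v.at (p • r) ≠ p • b := by
      intro b hb h
      obtain ⟨G', hC', hmem', -⟩ := exists_cycStep_of_root hC.open₀ hC.mu ha.1 hr0
      refine hns (le_antisymm (hC.stab_le v.1 v.rep) fun s hs => ?_)
      have hs' := stab_le_of_root hC.mu hmem' hb h hs
      -- `G'` is `G₁`
      have hG' : G' ≤ G₁ := by
        intro x hx
        obtain ⟨hx0, hxr⟩ := (hmem' x).1 hx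
        by_contra hx1
        exact hr0 (hC.fixedBy_of_fixed hx0 hx1 hr hxr)
      exact stabLoc_mono hG' v.rep hs'
    obtain ⟨k, b, hb, hkb⟩ := exists_eq_zsmul_add (p := p) (isOpenLvl_stabLoc hC.open₀ v.1 v.rep)
      (fun s hs => cycloChar_loc hC.mu hs) hqp (atPlace_mem_fixedBy ha.1) (ha.2 v hwT) hna
      (atPlace_mem_fixedBy e.2.1) (e.2.2 v hwT)
    exact key k b hb hkb
  · refine ⟨hns, fun h0 => ?_⟩
    have h1 : locModMap p T (down G₀ w) e = Submodule.Quotient.mk 0 := h0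
    obtain ⟨b, hb, hb'⟩ := (locMod_mk_eq_iff _ _).1 h1
    exact key 0 b hb (by rw [zero_zsmul]; exact hb')

/-- Auxiliary places: `rank` many split places outside `T` such that the `T`-units surject onto
the units modulo `p`-th powers. -/
theorem exists_aux_places (hp2 : p ≠ 2) (hC : CycStep p G₁ G₀) {T : Finset (Pl G₀)}
    (hT : GoodT hC T) :
    ∃ U : Finset (Pl G₀), U.card = Module.finrank ℤ (tUnits G₀ T) ∧
      (∀ v ∈ U, v ∉ T ∧ ¬ NonSplit G₁ v) ∧
      ∀ d : ∀ v : Pl G₀, Ml v.1,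
        (∀ v ∈ U, d v ∈ fixedBy (unitsRepLoc v.1) v.stab ∧ absv v.1 (d v) = 1) →
        ∃ e ∈ tUnits G₀ T, ∀ v ∈ U, ∃ b ∈ fixedBy (unitsRepLoc v.1) v.stab,
          v.at e = d v + p • b := by
  classical
  obtain ⟨r, hr, ha, hr0⟩ := exists_tUnit_root hC hT
  set P := (nsmulAddMonoidHom p : tUnits G₀ T →+ tUnits G₀ T).range with hP
  set π := QuotientAddGroup.mk' P with hπ
  set α := π ⟨p • r, ha⟩ with hα
  set A := (AddSubgroup.zmultiples α).comap π with hA
  have hPidx : P.index = p ^ (Module.finrank ℤ (tUnits G₀ T) + 1) :=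
    index_nsmul_tUnits hC.open₀ hC.mu T
  have hkillp : ∀ x, p • π x = 0 := fun x => by
    rw [← map_nsmul]; exact (QuotientAddGroup.eq_zero_iff _).2 ⟨x, rfl⟩
  have hαne : α ≠ 0 := by
    intro h
    obtain ⟨z, hz⟩ := (QuotientAddGroup.eq_zero_iff _).1 h
    have hz' : p • (z : Mq) = p • r := congrArg Subtype.val hz
    refine hr0 fun s hs => ?_
    have h2 : unitsRep s (r - z) = r - z :=
      unitsRep_eq_self_of_nsmul_eq_zero p (by rw [nsmul_sub, hz', sub_self]) (hC.mu s hs)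
    rw [map_sub, z.2.1 s hs] at h2
    exact sub_left_inj.1 h2
  have hαcard : Nat.card (AddSubgroup.zmultiples α) = p := by
    rw [Nat.card_zmultiples]
    exact addOrderOf_eq_prime (hkillp _) hαne
  have hAidx : A.index = p ^ Module.finrank ℤ (tUnits G₀ T) := by
    rw [hA, AddSubgroup.index_comap_of_surjective _ (QuotientAddGroup.mk'_surjective P)]
    have h := (AddSubgroup.zmultiples α).index_mul_card
    rw [hαcard, show Nat.card (tUnits G₀ T ⧸ P) = P.index from rfl, hPidx, pow_succ] at h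
    exact Nat.eq_of_mul_eq_mul_right hp.out.pos h
  suffices H : ∀ (j : ℕ) (W : AddSubgroup (tUnits G₀ T)), A ≤ W → A.relIndex W = p ^ j →
      ∃ U : Finset (Pl G₀), U.card = j ∧ (∀ v ∈ U, v ∉ T ∧ ¬ NonSplit G₁ v) ∧
        ∀ d : ∀ v : Pl G₀, Ml v.1,
          (∀ v ∈ U, d v ∈ fixedBy (unitsRepLoc v.1) v.stab ∧ absv v.1 (d v) = 1) →
          ∃ e ∈ W, ∀ v ∈ U, ∃ b ∈ fixedBy (unitsRepLoc v.1) v.stab,
            v.at (e : Mq) = d v + p • b by
    obtain ⟨U, hU1, hU2, hU3⟩ := H _ ⊤ le_top (by rw [AddSubgroup.relIndex_top_right, hAidx])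
    refine ⟨U, hU1, hU2, fun d hd => ?_⟩
    obtain ⟨e, -, he⟩ := hU3 d hd
    exact ⟨e, e.2, he⟩
  intro j
  induction j with
  | zero =>
    intro W _ _
    exact ⟨∅, rfl, fun v hv => absurd hv (Finset.notMem_empty v),
      fun d _ => ⟨0, zero_mem _, fun v hv => absurd hv (Finset.notMem_empty v)⟩⟩
  | succ j ih =>
    intro W hAW hidx
    obtain ⟨e₀, he₀W, he₀A⟩ : ∃ e ∈ W, e ∉ A := by
      by_contra h
      push Not at h
      rw [AddSubgroup.relIndex_eq_one.2 h] at hidx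
      exact absurd hidx (by
        have : 1 < p ^ (j + 1) := Nat.one_lt_pow (Nat.succ_ne_zero j) hp.out.one_lt
        omega)
    obtain ⟨v, hvT, hvs, hv0⟩ := exists_split_place hp2 hC hT hr ha hr0 e₀ (fun k z hz h => by
      refine he₀A ?_
      refine AddSubgroup.mem_comap.2 (AddSubgroup.mem_zmultiples_iff.2 ⟨k, ?_⟩)
      have e1 : e₀ = k • (⟨p • r, ha⟩ : tUnits G₀ T) + p • (⟨z, hz⟩ : tUnits G₀ T) := Subtype.ext h
      rw [e1, map_add, map_zsmul, map_nsmul, hkillp, hα]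
      exact (add_zero (k • π (⟨p • r, ha⟩ : tUnits G₀ T))).symm)
    set f := locModMap p T v with hf
    set W' := W ⊓ f.ker with hW'
    have hqp : (v.1 : ℕ) ≠ p := fun h => hvT (hT.pmem v h)
    -- units modulo `p` at `v` are multiples of the class of `e₀`
    have hline : ∀ d ∈ fixedBy (unitsRepLoc v.1) v.stab, absv v.1 d = 1 →
        ∃ k : ℤ, ∃ b ∈ fixedBy (unitsRepLoc v.1) v.stab, d = k • v.at (e₀ : Mq) + p • b := by
      intro d hd hd1
      refine exists_eq_zsmul_add (p := p) (isOpenLvl_stabLoc hC.open₀ v.1 v.rep)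
        (fun s hs => cycloChar_loc hC.mu hs) hqp (atPlace_mem_fixedBy e₀.2.1) (e₀.2.2 v hvT) ?_ hd hd1
      intro b hb h
      exact hv0 ((Submodule.Quotient.mk_eq_zero _).2 ⟨⟨b, hb⟩, Subtype.ext (by simp [h])⟩)
    have hfe : ∀ x : tUnits G₀ T, ∃ k : ℤ, f x = k • f e₀ := by
      intro x
      obtain ⟨k, b, hb, hk⟩ := hline _ (atPlace_mem_fixedBy x.2.1) (x.2.2 v hvT)
      refine ⟨k, ?_⟩
      refine (locMod_mk_eq_iff _ _).2 ⟨b, hb, ?_⟩
      simpa using hk
    have hfkill : ∀ x : tUnits G₀ T, p • f x = 0 := fun x => by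
      rw [← map_nsmul]
      exact (Submodule.Quotient.mk_eq_zero _).2 ⟨⟨v.at x.1, atPlace_mem_fixedBy x.2.1⟩,
        Subtype.ext (by
          simp only [LinearMap.smul_apply, LinearMap.id_apply, SetLike.val_smul, natCast_zsmul]
          unfold Pl.at atPlace
          have e : ((p • x : tUnits G₀ T) : Mq) = p • (x : Mq) := rfl
          rw [e, map_nsmul, map_nsmul]
          rfl)⟩
    have himg : W.map f = AddSubgroup.zmultiples (f e₀) := by
      refine le_antisymm ?_ (AddSubgroup.zmultiples_le_of_mem ⟨e₀, he₀W, rfl⟩)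
      rintro _ ⟨x, -, rfl⟩
      obtain ⟨k, hk⟩ := hfe x
      exact AddSubgroup.mem_zmultiples_iff.2 ⟨k, hk.symm⟩
    have hWcard : W'.relIndex W = p := by
      rw [hW', AddSubgroup.inf_relIndex_left, AddSubgroup.relIndex_ker, himg, Nat.card_zmultiples]
      exact addOrderOf_eq_prime (hfkill _) hv0
    have hAker : A ≤ f.ker := by
      intro x hx
      obtain ⟨k, hk⟩ := AddSubgroup.mem_zmultiples_iff.1 (AddSubgroup.mem_comap.1 hx)
      have hk' : π (k • (⟨p • r, ha⟩ : tUnits G₀ T)) = π x := (map_zsmul π k _).trans hk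
      obtain ⟨z, hz⟩ := QuotientAddGroup.eq.1 hk'
      have hx' : x = k • (⟨p • r, ha⟩ : tUnits G₀ T) + p • z := by
        rw [show p • z = -(k • (⟨p • r, ha⟩ : tUnits G₀ T)) + x from hz, add_neg_cancel_left]
      have hr' : atPlace v.1 v.rep r ∈ fixedBy (unitsRepLoc v.1) v.stab :=
        (not_not.1 hvs : stabLoc v.1 G₁ v.rep = v.stab) ▸ atPlace_mem_fixedBy hr
      have ha0 : f ⟨p • r, ha⟩ = 0 := (Submodule.Quotient.mk_eq_zero _).2
        ⟨⟨_, hr'⟩, Subtype.ext (by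
          simp only [LinearMap.smul_apply, LinearMap.id_apply, SetLike.val_smul, natCast_zsmul]
          unfold Pl.at atPlace
          rw [map_nsmul, map_nsmul]
          rfl)⟩
      show f x = 0
      rw [hx', map_add, map_zsmul, map_nsmul, ha0, smul_zero, zero_add, hfkill]
    have hA' : A.relIndex W' = p ^ j := by
      have h := AddSubgroup.relIndex_mul_relIndex A W' W (le_inf hAW hAker) inf_le_left
      rw [hWcard, hidx, pow_succ] at h
      exact Nat.eq_of_mul_eq_mul_right hp.out.pos h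
    obtain ⟨U, hU1, hU2, hU3⟩ := ih W' (le_inf hAW hAker) hA'
    have hvU : v ∉ U := by
      intro hv
      obtain ⟨e, heW, he⟩ := hU3 (fun w => if h : w = v then h ▸ v.at (e₀ : Mq) else 0) (fun w _ => by
        by_cases h : w = v
        · subst h
          rw [dif_pos rfl]
          exact ⟨atPlace_mem_fixedBy e₀.2.1, e₀.2.2 w hvT⟩
        · rw [dif_neg h]; exact ⟨zero_mem _, absv_zero _⟩)
      obtain ⟨b, hb, hb'⟩ := he v hv
      rw [dif_pos rfl] at hb'
      have h0 : f e = f e₀ := (locMod_mk_eq_iff _ _).2 ⟨b, hb, hb'⟩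
      exact hv0 (h0.symm.trans heW.2)
    refine ⟨insert v U, by rw [Finset.card_insert_of_notMem hvU, hU1],
      fun w hw => (Finset.mem_insert.1 hw).elim (fun h => h ▸ ⟨hvT, hvs⟩) (hU2 w), fun d hd => ?_⟩
    obtain ⟨k, b, hb, hk⟩ := hline (d v) (hd v (Finset.mem_insert_self v U)).1
      (hd v (Finset.mem_insert_self v U)).2
    have hd' : ∀ w ∈ U, d w - k • w.at (e₀ : Mq) ∈ fixedBy (unitsRepLoc w.1) w.stab ∧
        absv w.1 (d w - k • w.at (e₀ : Mq)) = 1 := fun w hw =>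
      ⟨sub_mem (hd w (Finset.mem_insert_of_mem hw)).1
          (Submodule.smul_mem _ k (atPlace_mem_fixedBy e₀.2.1)), by
        rw [absv_sub, (hd w (Finset.mem_insert_of_mem hw)).2, absv_zsmul,
          show absv w.1 (w.at (e₀ : Mq)) = 1 from e₀.2.2 w (hU2 w hw).1, one_zpow, div_one]⟩
    obtain ⟨e, heW, he⟩ := hU3 (fun w => d w - k • w.at (e₀ : Mq)) hd'
    refine ⟨e + k • e₀, add_mem heW.1 (W.zsmul_mem he₀W k), fun w hw => ?_⟩
    have hsplit : w.at ((e + k • e₀ : tUnits G₀ T) : Mq) = w.at (e : Mq) + k • w.at (e₀ : Mq) := by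
      unfold Pl.at atPlace
      rw [AddSubgroup.coe_add, AddSubgroupClass.coe_zsmul, map_add, map_add, map_zsmul, map_zsmul]
    rw [hsplit]
    rcases Finset.mem_insert.1 hw with h | h
    · subst h
      obtain ⟨b', hb', hb''⟩ := (locMod_mk_eq_iff _ _).1
        (show locModMap p T w e = Submodule.Quotient.mk 0 from heW.2)
      refine ⟨b' - b, sub_mem hb' hb, ?_⟩
      simp only [ZeroMemClass.coe_zero, zero_add] at hb''
      rw [hb'', hk, nsmul_sub]
      abel
    · obtain ⟨b', hb', hb''⟩ := he w h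
      refine ⟨b', hb', ?_⟩
      rw [hb'']
      abel

end FLTA.PT.NT

end
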