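import Fermat.Agent.PoitouTate.NormStep

/-!
# Places of `L` over places of `K`, admissible sets `T`, divisors of norms
-/

set_option autoImplicit false

open ExtCitation

noncomputable section

namespace FLTA.PT.NT

variable {p : ℕ} [hp : Fact p.Prime] {G₁ G₀ : Subgroup GQ}

/-- The place does not decompose in the step. -/
def NonSplit (G₁ : Subgroup GQ) (v : Pl G₀) : Prop := stabLoc v.1 G₁ v.rep ≠ v.stab

/-- Every divisor outside `T` is principal. -/
def DivisorPrincipal (G : Subgroup GQ) (T : Finset (Pl G)) : Prop :=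
  ∀ c : ∀ v : Pl G, Ml v.1, (∀ v, c v ∈ fixedBy (unitsRepLoc v.1) v.stab) →
    Set.Finite {v : Pl G | absv v.1 (c v) ≠ 1} →
    ∃ y ∈ fixedBy unitsRep G, ∀ v, v ∉ T → v.abs y = absv v.1 (c v)

theorem down_fst (w : Pl G₁) : (down G₀ w).1 = w.1 := rfl

theorem finite_preimage_down (hG : IsOpenLvl lvlQ G₁) (T : Finset (Pl G₀)) :
    {w : Pl G₁ | down G₀ w ∈ T}.Finite := by
  classical
  refine (finite_setOf_mem hG (T.image Sigma.fst)).subset fun w hw => ?_
  exact Finset.mem_image.2 ⟨_, hw, rfl⟩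

/-- The places of `L` over `T`. -/
def liftPlaces (hG : IsOpenLvl lvlQ G₁) (T : Finset (Pl G₀)) : Finset (Pl G₁) :=
  (finite_preimage_down hG T).toFinset

theorem mem_liftPlaces {hG : IsOpenLvl lvlQ G₁} {T : Finset (Pl G₀)} {w : Pl G₁} :
    w ∈ liftPlaces hG T ↔ down G₀ w ∈ T := Set.Finite.mem_toFinset _

/-- Admissible finite sets of places for a step. -/
structure GoodT (hC : CycStep p G₁ G₀) (T : Finset (Pl G₀)) : Prop where
  class₀ : DivisorPrincipal G₀ T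
  class₁ : DivisorPrincipal G₁ (liftPlaces hC.open₁ T)
  unram : ∀ v ∉ T, inertiaLoc v.1 ⊓ v.stab ≤ stabLoc v.1 G₁ v.rep
  pmem : ∀ v : Pl G₀, (v.1 : ℕ) = p → v ∈ T

theorem exists_goodT (hC : CycStep p G₁ G₀) (extra : Finset (Pl G₀)) :
    ∃ T, extra ⊆ T ∧ GoodT hC T := by
  classical
  obtain ⟨T₀, h₀⟩ := exists_finset_forall_divisor G₀ hC.open₀
  obtain ⟨T₁, h₁⟩ := exists_finset_forall_divisor G₁ hC.open₁
  obtain ⟨S, hS⟩ := CycStep.exists_finset_unramified hC.open₁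
  set P := (finite_setOf_mem hC.open₀ (insert (pPrime p) S)).toFinset with hP
  refine ⟨extra ∪ T₀ ∪ T₁.image (down G₀) ∪ P, fun v hv => by simp [hv], ?_, ?_, ?_, ?_⟩
  · exact h₀ _ (fun v hv => by simp [hv])
  · exact h₁ _ (fun w hw => mem_liftPlaces.2
      (Finset.mem_union_left _ (Finset.mem_union_right _ (Finset.mem_image_of_mem _ hw))))
  · intro v hv
    have : v.1 ∉ S := fun h => hv (by simp [hP, h])
    exact inf_le_left.trans (hS v.1 this v.rep)
  · intro v hv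
    have : v.1 = pPrime p := Subtype.ext hv
    simp [hP, this]

namespace CycStep

variable (hC : CycStep p G₁ G₀) {σ : GQ} (hσ : σ ∈ G₀) (hσ1 : σ ∉ G₁)

include hC hσ hσ1

theorem exists_pow_mul {h : GQ} (hh : h ∈ G₀) : ∃ i < p, (σ ^ i)⁻¹ * h ∈ G₁ := by
  haveI := hC.normal
  haveI := finite_quot_of_relIndex (H := G₁) (D := G₀) (hC.idx ▸ hp.out.ne_zero)
  have hcard : Nat.card (G₀ ⧸ G₁.subgroupOf G₀) = p := hC.idx
  set x : G₀ ⧸ G₁.subgroupOf G₀ := QuotientGroup.mk ⟨σ, hσ⟩ with hx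
  have hx1 : x ≠ 1 := by
    rw [hx, Ne, QuotientGroup.eq_one_iff, Subgroup.mem_subgroupOf]; exact hσ1
  have hord : orderOf x = p :=
    (hp.out.eq_one_or_self_of_dvd _ (hcard ▸ orderOf_dvd_natCard x)).resolve_left
      (mt orderOf_eq_one_iff.1 hx1)
  have hmem : (QuotientGroup.mk (⟨h, hh⟩ : G₀) : G₀ ⧸ G₁.subgroupOf G₀) ∈ Subgroup.zpowers x := by
    rw [Subgroup.eq_top_of_card_eq (Subgroup.zpowers x) (by rw [Nat.card_zpowers, hord, hcard])]
    exact Subgroup.mem_top _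
  obtain ⟨i, hi⟩ := mem_powers_iff_mem_zpowers.2 hmem
  refine ⟨i % p, Nat.mod_lt _ hp.out.pos, ?_⟩
  have hi' : ((⟨σ, hσ⟩ ^ (i % p) : G₀) : G₀ ⧸ G₁.subgroupOf G₀) = (⟨h, hh⟩ : G₀) := by
    rw [QuotientGroup.mk_pow, ← hx, ← hord, pow_mod_orderOf]
    exact hi
  rw [QuotientGroup.eq, Subgroup.mem_subgroupOf] at hi'
  simpa using hi'

theorem eq_of_pow_mem {i j : ℕ} (hi : i < p) (hj : j < p) (h : (σ ^ i)⁻¹ * σ ^ j ∈ G₁) :
    i = j := by
  haveI := hC.normal
  haveI := finite_quot_of_relIndex (H := G₁) (D := G₀) (hC.idx ▸ hp.out.ne_zero)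
  have hcard : Nat.card (G₀ ⧸ G₁.subgroupOf G₀) = p := hC.idx
  set x : G₀ ⧸ G₁.subgroupOf G₀ := QuotientGroup.mk ⟨σ, hσ⟩ with hx
  have hx1 : x ≠ 1 := by
    rw [hx, Ne, QuotientGroup.eq_one_iff, Subgroup.mem_subgroupOf]; exact hσ1
  have hord : orderOf x = p :=
    (hp.out.eq_one_or_self_of_dvd _ (hcard ▸ orderOf_dvd_natCard x)).resolve_left
      (mt orderOf_eq_one_iff.1 hx1)
  have he : x ^ i = x ^ j := by
    rw [hx, ← QuotientGroup.mk_pow, ← QuotientGroup.mk_pow, QuotientGroup.eq,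
      Subgroup.mem_subgroupOf]
    simpa using h
  exact pow_injOn_Iio_orderOf (by simpa [hord] using hi) (by simpa [hord] using hj) he

/-- Every place over `v` is a translate by a power of `σ`. -/
theorem exists_pow_rep (w : Pl G₁) :
    ∃ i < p, w = plOf G₁ w.1 ((down G₀ w).rep * σ ^ i) := by
  obtain ⟨τ, h, hh, e⟩ := rep_plOf (G₀ := G₀) w.1 w.rep
  obtain ⟨i, hi, hu⟩ := hC.exists_pow_mul hσ hσ1 hh
  refine ⟨i, hi, ?_⟩
  conv_lhs => rw [← plOf_rep w]
  refine plOf_eq_iff.2 ⟨τ, ?_⟩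
  rw [e]
  show (loc w.1 τ * (down G₀ w).rep * h)⁻¹ * loc w.1 τ * ((down G₀ w).rep * σ ^ i) ∈ G₁
  simpa [mul_assoc] using G₁.inv_mem hu

omit hσ1 in
theorem down_translate (v : Pl G₀) (i : ℕ) :
    down G₀ (plOf G₁ v.1 (v.rep * σ ^ i)) = v := by
  rw [down_plOf hC.le]
  conv_rhs => rw [← plOf_rep v]
  exact plOf_eq_iff.2 ⟨1, by simpa using G₀.inv_mem (pow_mem hσ i)⟩

theorem translate_injective {v : Pl G₀} (hv : ¬ NonSplit G₁ v) {i j : ℕ} (hi : i < p) (hj : j < p)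
    (h : plOf G₁ v.1 (v.rep * σ ^ i) = plOf G₁ v.1 (v.rep * σ ^ j)) : i = j := by
  obtain ⟨τ, hτ⟩ := plOf_eq_iff.1 h
  set x := v.rep⁻¹ * loc v.1 τ * v.rep with hx
  have hτ' : (σ ^ i)⁻¹ * x * σ ^ j ∈ G₁ := by simpa [hx, mul_assoc] using hτ
  have hx0 : x ∈ G₀ := by
    have := mul_mem (mul_mem (pow_mem hσ i) (hC.le hτ')) (G₀.inv_mem (pow_mem hσ j))
    simpa [mul_assoc] using this
  have hx1 : x ∈ G₁ := by
    have hτ0 : τ ∈ v.stab := mem_stabLoc.2 hx0
    have e : stabLoc v.1 G₁ v.rep = v.stab := not_not.1 hv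
    rw [← e] at hτ0
    exact mem_stabLoc.1 hτ0
  refine hC.eq_of_pow_mem hσ hσ1 hi hj ?_
  have h1 := (hC.conj_iff (pow_mem hσ i) x).2 hx1
  have := mul_mem (G₁.inv_mem h1) hτ'
  simpa [mul_assoc] using this

theorem translate_eq {v : Pl G₀} (hv : NonSplit G₁ v) (i : ℕ) :
    plOf G₁ v.1 (v.rep * σ ^ i) = plOf G₁ v.1 v.rep := by
  obtain ⟨τ, hτ0, hτ1⟩ := SetLike.exists_of_lt (lt_of_le_of_ne (hC.stab_le v.1 v.rep) hv)
  set x := v.rep⁻¹ * loc v.1 τ * v.rep with hx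
  have hx0 : x ∈ G₀ := mem_stabLoc.1 hτ0
  have hx1 : x ∉ G₁ := fun h => hτ1 (mem_stabLoc.2 h)
  obtain ⟨m, -, hm⟩ := hC.exists_pow_mul hx0 hx1 (pow_mem hσ i)
  refine plOf_eq_iff.2 ⟨(τ ^ m), ?_⟩
  have hxm : x ^ m = v.rep⁻¹ * loc v.1 (τ ^ m) * v.rep := by
    rw [map_pow]
    have h2 := conj_pow (i := m) (a := v.rep⁻¹) (b := loc v.1 τ)
    rwa [inv_inv] at h2
  rw [show (v.rep * σ ^ i)⁻¹ * loc v.1 (τ ^ m) * v.rep = ((x ^ m)⁻¹ * σ ^ i)⁻¹ by
    rw [hxm]; simp [mul_assoc]]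
  exact G₁.inv_mem hm

open Classical in
theorem card_fibre (v : Pl G₀) (T : Finset (Pl G₀)) (hv : v ∈ T) :
    ((liftPlaces hC.open₁ T).filter fun w => down G₀ w = v).card =
      if NonSplit G₁ v then 1 else p := by
  have h : ((liftPlaces hC.open₁ T).filter fun w => down G₀ w = v) =
      (Finset.range p).image fun i => plOf G₁ v.1 (v.rep * σ ^ i) := by
    ext w
    simp only [Finset.mem_filter, mem_liftPlaces, Finset.mem_image, Finset.mem_range]
    constructor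
    · rintro ⟨-, rfl⟩
      obtain ⟨i, hi, e⟩ := hC.exists_pow_rep hσ hσ1 w
      exact ⟨i, hi, e.symm⟩
    · rintro ⟨i, -, rfl⟩
      rw [hC.down_translate hσ v i]
      exact ⟨hv, rfl⟩
  rw [h]
  split_ifs with hns
  · rw [Finset.image_congr (g := fun _ => plOf G₁ v.1 v.rep)
      (fun i _ => hC.translate_eq hσ hσ1 hns i),
      Finset.image_const (Finset.nonempty_range_iff.2 hp.out.ne_zero), Finset.card_singleton]
  · rw [Finset.card_image_of_injOn, Finset.card_range]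
    intro i hi j hj hij
    exact hC.translate_injective hσ hσ1 hns (Finset.mem_range.1 hi) (Finset.mem_range.1 hj) hij

open Classical in
theorem card_liftPlaces (T : Finset (Pl G₀)) :
    (liftPlaces hC.open₁ T).card + (p - 1) * (T.filter (NonSplit G₁)).card = p * T.card := by
  rw [Finset.card_eq_sum_card_fiberwise (f := down G₀) (t := T) (fun w hw => mem_liftPlaces.1 hw),
    Finset.sum_congr rfl (fun v hv => hC.card_fibre hσ hσ1 v T hv), Finset.sum_ite,
    Finset.sum_const, Finset.sum_const, smul_eq_mul, smul_eq_mul,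
    ← Finset.card_filter_add_card_filter_not (NonSplit G₁) (s := T)]
  obtain ⟨k, hk⟩ := Nat.exists_eq_add_of_le hp.out.one_le
  subst hk
  rw [Nat.add_sub_cancel_left]
  ring

/-- The absolute value of a translate. -/
theorem absv_translate (v : Pl G₀) (i : ℕ) {y : Mq} (hy : y ∈ fixedBy unitsRep G₁) :
    absv v.1 (v.at (unitsRep (σ ^ i) y)) = (plOf G₁ v.1 (v.rep * σ ^ i)).abs y := by
  rw [← absv_atPlace_eq_abs _ _ hy]
  unfold Pl.at atPlace
  rw [map_mul, Module.End.mul_apply]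

theorem abs_relNorm (v : Pl G₀) {y : Mq} (hy : y ∈ fixedBy unitsRep G₁) :
    v.abs (relNorm unitsRep G₁ G₀ y) =
      ∏ i ∈ Finset.range p, (plOf G₁ v.1 (v.rep * σ ^ i)).abs y := by
  haveI := hC.normal
  rw [relNorm_eq_sum_pow _ hC.idx hσ hσ1 hy]
  have : v.at (∑ i ∈ Finset.range p, unitsRep (σ ^ i) y) =
      ∑ i ∈ Finset.range p, v.at (unitsRep (σ ^ i) y) := by
    unfold Pl.at atPlace
    rw [map_sum, map_sum]
  rw [Pl.abs, this, absv_sum]
  exact Finset.prod_congr rfl fun i _ => hC.absv_translate hσ hσ1 v i hy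

end CycStep

/-- A divisor outside `T` which is locally a norm is the divisor of a global norm. -/
theorem exists_relNorm_abs_eq (hC : CycStep p G₁ G₀) {T : Finset (Pl G₀)} (hT : GoodT hC T)
    (c : ∀ v : Pl G₀, Ml v.1) (hc : ∀ v, c v ∈ fixedBy (unitsRepLoc v.1) v.stab)
    (hfin : Set.Finite {v : Pl G₀ | absv v.1 (c v) ≠ 1})
    (hnorm : ∀ v, v ∉ T → NonSplit G₁ v →
      ∃ b ∈ fixedBy (unitsRepLoc v.1) v.stab, absv v.1 (c v) = absv v.1 b ^ p) :
    ∃ y ∈ fixedBy unitsRep G₁, ∀ v, v ∉ T → v.abs (relNorm unitsRep G₁ G₀ y) = absv v.1 (c v) := by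
  classical
  obtain ⟨σ, hσ, hσ1⟩ : ∃ σ ∈ G₀, σ ∉ G₁ := by
    by_contra h
    push Not at h
    have := Subgroup.relIndex_eq_one.2 (show G₀ ≤ G₁ from h)
    rw [hC.idx] at this
    exact hp.out.ne_one this
  -- chosen value at the chosen place over each `v`
  have hval : ∀ v : Pl G₀, ∃ d ∈ fixedBy (unitsRepLoc v.1) v.stab, v ∉ T →
      absv v.1 (c v) = absv v.1 d ^ (if NonSplit G₁ v then p else 1) := by
    intro v
    by_cases hv : v ∈ T
    · exact ⟨0, zero_mem _, fun h => absurd hv h⟩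
    by_cases hns : NonSplit G₁ v
    · obtain ⟨b, hb, e⟩ := hnorm v hv hns
      exact ⟨b, hb, fun _ => by rw [if_pos hns, e]⟩
    · exact ⟨c v, hc v, fun _ => by rw [if_neg hns, pow_one]⟩
  choose d hd hde using hval
  have hτ : ∀ w : Pl G₁, ∃ τ : Gl w.1, ∃ h ∈ G₀, w.rep = loc w.1 τ * (down G₀ w).rep * h := fun w => by
    obtain ⟨τ, h, hh, e⟩ := rep_plOf (G₀ := G₀) w.1 w.rep
    exact ⟨τ, h, hh, e⟩
  choose τ hfac hfac0 hrep using hτ
  let c' : ∀ w : Pl G₁, Ml w.1 := fun w =>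
    if down G₀ w ∉ T ∧ w = plOf G₁ w.1 (down G₀ w).rep then unitsRepLoc w.1 (τ w) (d (down G₀ w)) else 0
  have hc' : ∀ w, c' w ∈ fixedBy (unitsRepLoc w.1) w.stab := by
    intro w
    simp only [c']
    split_ifs with h
    swap; · exact zero_mem _
    intro s hs
    have h1 : (τ w)⁻¹ * s * τ w ∈ (down G₀ w).stab := by
      refine (mem_stabLoc_translate (G := G₀) (τ w) s (down G₀ w).rep (h := hfac w)
        (fun x => ⟨fun hx => by simpa [mul_assoc] using mul_mem (mul_mem (hfac0 w) hx) (G₀.inv_mem (hfac0 w)),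
          fun hx => mul_mem (mul_mem (G₀.inv_mem (hfac0 w)) hx) (hfac0 w)⟩)).1 ?_
      exact hrep w ▸ hC.stab_le _ _ hs
    have h2 := hd (down G₀ w) _ h1
    rw [← Module.End.mul_apply, ← map_mul, show s * τ w = τ w * ((τ w)⁻¹ * s * τ w) by simp [mul_assoc],
      map_mul, Module.End.mul_apply]
    exact congrArg _ h2
  have hfin' : Set.Finite {w : Pl G₁ | absv w.1 (c' w) ≠ 1} := by
    refine (finite_preimage_down hC.open₁ hfin.toFinset).subset fun w hw => ?_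
    simp only [Set.Finite.mem_toFinset, Set.mem_setOf_eq] at hw ⊢
    intro h1
    refine hw ?_
    simp only [c']
    split_ifs with h
    swap; · exact absv_zero _
    rw [absv_unitsRepLoc]
    have he := hde (down G₀ w) h.1
    rw [h1] at he
    refine (pow_left_inj₀ (absv_pos _).le zero_le_one (?_ : (if NonSplit G₁ (down G₀ w) then p else 1) ≠ 0)).1
      (by rw [one_pow]; exact he.symm)
    split_ifs <;> simp [hp.out.ne_zero]
  obtain ⟨y, hy, hya⟩ := hT.class₁ c' hc' hfin'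
  refine ⟨y, hy, fun v hv => ?_⟩
  rw [hC.abs_relNorm hσ hσ1 v hy]
  have hwT : ∀ i, plOf G₁ v.1 (v.rep * σ ^ i) ∉ liftPlaces hC.open₁ T := fun i => by
    rw [mem_liftPlaces, hC.down_translate hσ v i]; exact hv
  have hbase : plOf G₁ v.1 v.rep = plOf G₁ v.1 (v.rep * σ ^ 0) := by simp
  -- value at a place over `v`
  have key : ∀ w : Pl G₁, down G₀ w = v → w ∉ liftPlaces hC.open₁ T →
      w.abs y = if w = plOf G₁ v.1 v.rep then absv v.1 (d v) else 1 := by
    rintro w rfl hw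
    rw [hya w hw]
    simp only [c']
    by_cases h : w = plOf G₁ w.1 (down G₀ w).rep
    · rw [if_pos ⟨hv, h⟩, absv_unitsRepLoc]
      exact (if_pos h).symm
    · rw [if_neg (fun h' => h h'.2), absv_zero]
      exact (if_neg h).symm
  rw [Finset.prod_congr rfl fun i _ => key _ (hC.down_translate hσ v i) (hwT i), hde v hv]
  split_ifs with hns
  · rw [Finset.prod_congr rfl fun i _ => if_pos (hC.translate_eq hσ hσ1 hns i), Finset.prod_const,
      Finset.card_range]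
  · rw [Finset.prod_eq_single 0, if_pos hbase.symm, pow_one]
    · intro i hi h0
      refine if_neg fun h => h0 ?_
      exact hC.translate_injective hσ hσ1 hns (Finset.mem_range.1 hi) hp.out.pos (h.trans hbase)
    · exact fun h => absurd (Finset.mem_range.2 hp.out.pos) h

end FLTA.PT.NT

end
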