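import Fermat.Agent.PoitouTate.NormDivisor
import Fermat.Agent.PoitouTate.HerbrandLattice

/-!
# The norm index of the `T`-units
-/

set_option autoImplicit false

open ExtCitation FLTA.PoitouTate.Herbrand

noncomputable section

namespace FLTA.PT.NT

variable {p : ℕ} [hp : Fact p.Prime] {G₁ G₀ : Subgroup GQ}

/-- Norms of `T`-units. -/
def normTUnits (hC : CycStep p G₁ G₀) (T : Finset (Pl G₀)) : AddSubgroup Mq :=
  (tUnits G₁ (liftPlaces hC.open₁ T)).map (relNorm unitsRep G₁ G₀).toAddMonoidHom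

namespace CycStep

variable (hC : CycStep p G₁ G₀) {σ : GQ} (hσ : σ ∈ G₀) (hσ1 : σ ∉ G₁)

include hC

theorem exists_generator : ∃ σ ∈ G₀, σ ∉ G₁ := by
  by_contra h
  push Not at h
  have := Subgroup.relIndex_eq_one.2 (show G₀ ≤ G₁ from h)
  rw [hC.idx] at this
  exact hp.out.ne_one this

include hσ

theorem pow_p_mem : σ ^ p ∈ G₁ := by
  haveI := hC.normal
  have h := Subgroup.pow_index_mem (G₁.subgroupOf G₀) (⟨σ, hσ⟩ : G₀)
  rw [show (G₁.subgroupOf G₀).index = p from hC.idx] at h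
  simpa [Subgroup.mem_subgroupOf] using h

/-- `σ` preserves the `T`-units of `L`. -/
theorem unitsRep_mem_tUnits (T : Finset (Pl G₀)) {y : Mq}
    (hy : y ∈ tUnits G₁ (liftPlaces hC.open₁ T)) :
    unitsRep σ y ∈ tUnits G₁ (liftPlaces hC.open₁ T) := by
  refine ⟨hC.unitsRep_mem hσ hy.1, fun w hw => ?_⟩
  have h1 : w.abs (unitsRep σ y) = (plOf G₁ w.1 (w.rep * σ)).abs y := by
    rw [← absv_atPlace_eq_abs _ _ hy.1]
    unfold Pl.abs Pl.at atPlace
    rw [map_mul, Module.End.mul_apply]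
  rw [h1]
  refine hy.2 _ ?_
  rw [mem_liftPlaces] at hw ⊢
  rw [down_plOf hC.le]
  convert hw using 2
  exact plOf_eq_iff.2 ⟨1, by simpa using G₀.inv_mem hσ⟩

include hσ1

theorem fixedBy_of_fixed {y : Mq} (hy : y ∈ fixedBy unitsRep G₁) (h : unitsRep σ y = y) :
    y ∈ fixedBy unitsRep G₀ := by
  intro s hs
  obtain ⟨i, -, hu⟩ := hC.exists_pow_mul hσ hσ1 hs
  have hpow : ∀ i : ℕ, unitsRep (σ ^ i) y = y := by
    intro i
    induction i with
    | zero => simp
    | succ i ih => rw [pow_succ, map_mul, Module.End.mul_apply, h, ih]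
  rw [show s = σ ^ i * ((σ ^ i)⁻¹ * s) by simp, map_mul, Module.End.mul_apply, hy _ hu, hpow]

/-- Elements of `L` whose class modulo `T`-units is fixed have divisors coming from `K`. -/
theorem exists_descent {T : Finset (Pl G₀)} (hT : GoodT hC T) {y : Mq}
    (hy : y ∈ fixedBy unitsRep G₁)
    (hd : unitsRep σ y - y ∈ tUnits G₁ (liftPlaces hC.open₁ T)) :
    ∃ c ∈ fixedBy unitsRep G₀, y - c ∈ tUnits G₁ (liftPlaces hC.open₁ T) := by
  classical
  have hwT : ∀ v : Pl G₀, v ∉ T → ∀ i, plOf G₁ v.1 (v.rep * σ ^ i) ∉ liftPlaces hC.open₁ T :=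
    fun v hv i => by rw [mem_liftPlaces, hC.down_translate hσ v i]; exact hv
  -- the absolute values over `v` are all equal
  have heq : ∀ v : Pl G₀, v ∉ T → ∀ i : ℕ,
      absv v.1 (v.at (unitsRep (σ ^ i) y)) = v.abs y := by
    intro v hv i
    induction i with
    | zero => simp
    | succ i ih =>
      have h1 : v.at (unitsRep (σ ^ (i + 1)) y) =
          v.at (unitsRep (σ ^ i) (unitsRep σ y - y)) + v.at (unitsRep (σ ^ i) y) := by
        rw [← show v.at (unitsRep (σ ^ i) (unitsRep σ y - y) + unitsRep (σ ^ i) y) = _ from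
          atPlace_add _ _ _ _, ← map_add, sub_add_cancel, pow_succ, map_mul, Module.End.mul_apply]
      rw [h1, absv_add, ih, hC.absv_translate hσ hσ1 v i hd.1, hd.2 _ (hwT v hv i), one_mul]
  have hval : ∀ v : Pl G₀, ∃ b ∈ fixedBy (unitsRepLoc v.1) v.stab, v ∉ T →
      absv v.1 b = v.abs y := by
    intro v
    by_cases hv : v ∈ T
    · exact ⟨0, zero_mem _, fun h => absurd hv h⟩
    have hy' : v.at y ∈ fixedBy (unitsRepLoc v.1) (stabLoc v.1 G₁ v.rep) := atPlace_mem_fixedBy hy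
    by_cases hns : NonSplit G₁ v
    · haveI := hC.stab_normal v.1 v.rep
      obtain ⟨b, hb, e⟩ := exists_absv_eq_of_unramified (p := p) (hC.open_stab v.1 v.rep)
        (hC.stab_le v.1 v.rep) (hT.unram v hv) (hC.stab_idx hns) hy'
      exact ⟨b, hb, fun _ => e.symm⟩
    · exact ⟨v.at y, (not_not.1 hns : stabLoc v.1 G₁ v.rep = v.stab) ▸ hy', fun _ => rfl⟩
  choose b hb hbe using hval
  -- finiteness of the support
  let c : ∀ v : Pl G₀, Ml v.1 := fun v => if v ∈ T then 0 else b v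
  have hfin : Set.Finite {v : Pl G₀ | absv v.1 (c v) ≠ 1} := by
    refine ((finite_setOf_abs_ne_one G₁ hC.open₁ y hy).image (down G₀)).subset fun v hv => ?_
    by_cases hvT : v ∈ T
    · exact absurd (by simp [c, hvT, absv_zero]) hv
    · refine ⟨plOf G₁ v.1 (v.rep * σ ^ 0), ?_, hC.down_translate hσ v 0⟩
      rw [Set.mem_setOf_eq, ← hC.absv_translate hσ hσ1 v 0 hy, heq v hvT 0, ← hbe v hvT]
      simpa [c, hvT] using hv
  obtain ⟨z, hz, hze⟩ := hT.class₀ c (fun v => by
    simp only [c]; split_ifs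
    · exact zero_mem _
    · exact hb v) hfin
  refine ⟨z, hz, sub_mem hy (fixedBy_antitone _ hC.le hz), fun w hw => ?_⟩
  have hv : down G₀ w ∉ T := fun h => hw (mem_liftPlaces.2 h)
  obtain ⟨i, -, e⟩ := hC.exists_pow_rep hσ hσ1 w
  have hz' : w.abs z = (down G₀ w).abs z := absv_atPlace_eq_abs w.1 w.rep hz
  have hy' : w.abs y = (down G₀ w).abs y := by
    have h2 := (hC.absv_translate hσ hσ1 (down G₀ w) i hy).symm.trans (heq (down G₀ w) hv i)
    conv_lhs => rw [e]
    exact h2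
  have hzv : (down G₀ w).abs z = (down G₀ w).abs y := by
    rw [hze _ hv]
    show absv _ (c (down G₀ w)) = _
    rw [show c (down G₀ w) = b (down G₀ w) from if_neg hv]
    exact hbe _ hv
  show absv w.1 (w.at (y - z)) = 1
  rw [sub_eq_add_neg, show w.at (y + -z) = w.at y + w.at (-z) from atPlace_add _ _ _ _,
    show w.at (-z) = -w.at z from atPlace_neg _ _ _, absv_add, absv_neg]
  show w.abs y * (w.abs z)⁻¹ = 1
  rw [hy', hz', hzv]
  exact mul_inv_cancel₀ (absv_pos _).ne'

end CycStep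

/-- `[E_T(K) : N E_T(L)] * p = p ^ (number of non-split places in T)`. -/
theorem relIndex_normTUnits (hp2 : p ≠ 2) (hC : CycStep p G₁ G₀) {T : Finset (Pl G₀)}
    (hT : GoodT hC T) :
    open Classical in
    (normTUnits hC T).relIndex (tUnits G₀ T) * p = p ^ (T.filter (NonSplit G₁)).card := by
  classical
  haveI := hC.normal
  obtain ⟨σ, hσ, hσ1⟩ := hC.exists_generator
  set E := tUnits G₁ (liftPlaces hC.open₁ T) with hE
  haveI hfinE : Module.Finite ℤ E := finite_tUnits G₁ hC.open₁ _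
  let s : E →ₗ[ℤ] E :=
    (((unitsRep σ).toAddMonoidHom.comp E.subtype).codRestrict E
      (fun y => hC.unitsRep_mem_tUnits hσ T y.2)).toIntLinearMap
  have hs : ∀ y : E, (s y : Mq) = unitsRep σ y := fun y => rfl
  have hsn : ∀ (i : ℕ) (y : E), (((s ^ i) y : E) : Mq) = unitsRep (σ ^ i) y := by
    intro i
    induction i with
    | zero => intro y; simp
    | succ i ih =>
      intro y
      rw [pow_succ, pow_succ, Module.End.mul_apply, ih, hs, map_mul, Module.End.mul_apply]
  have hspow : s ^ p = 1 := LinearMap.ext fun y => Subtype.ext (by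
    rw [hsn]; exact y.2.1 _ (hC.pow_p_mem hσ))
  have hnrm : ∀ y : E, ((nrm p s y : E) : Mq) = relNorm unitsRep G₁ G₀ y := fun y => by
    rw [relNorm_eq_sum_pow _ hC.idx hσ hσ1 y.2.1, nrm_apply]
    push_cast
    exact Finset.sum_congr rfl fun i _ => hsn i y
  obtain ⟨-, -, m, hm, heq⟩ := hcard_lattice p s hspow
  -- H¹ is trivial
  have h1 : hcard (nrm p s) (tau s) = 1 := by
    rw [hcard_eq_relIndex, AddSubgroup.relIndex_eq_one]
    intro x hx
    obtain ⟨y, hy, hxy⟩ := hC.exists_eq_sub_of_relNorm_eq_zero hσ hσ1 x.2.1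
      (by rw [← hnrm, show nrm p s x = 0 from hx]; rfl)
    obtain ⟨c, hc, hyc⟩ := hC.exists_descent hσ hσ1 hT hy (hxy ▸ x.2)
    refine ⟨⟨y - c, hyc⟩, Subtype.ext ?_⟩
    rw [tau_apply, AddSubgroup.coe_sub, hs]
    show unitsRep σ (y - c) - (y - c) = x.1
    rw [map_sub, hc σ hσ, hxy]
    abel
  -- fixed points are the `T`-units of `K`
  have hfixed : (tau s).ker.map E.subtype = tUnits G₀ T := by
    ext y
    simp only [AddSubgroup.mem_map, AddMonoidHom.mem_ker, tau_apply, sub_eq_zero]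
    constructor
    · rintro ⟨x, hx, rfl⟩
      have hx0 : (x : Mq) ∈ fixedBy unitsRep G₀ :=
        hC.fixedBy_of_fixed hσ hσ1 x.2.1 (by rw [← hs, hx])
      refine ⟨hx0, fun v hv => ?_⟩
      have hw : plOf G₁ v.1 (v.rep * σ ^ 0) ∉ liftPlaces hC.open₁ T := by
        rw [mem_liftPlaces, hC.down_translate hσ v 0]; exact hv
      have := x.2.2 _ hw
      rw [← hC.absv_translate hσ hσ1 v 0 x.2.1] at this
      simpa using this
    · intro hy
      refine ⟨⟨y, fixedBy_antitone _ hC.le hy.1, fun w hw => ?_⟩, Subtype.ext (hy.1 σ hσ), rfl⟩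
      have : w.abs y = (down G₀ w).abs y := absv_atPlace_eq_abs w.1 w.rep hy.1
      rw [this]
      exact hy.2 _ fun h => hw (mem_liftPlaces.2 h)
  have h0 : hcard (tau s) (nrm p s) = (normTUnits hC T).relIndex (tUnits G₀ T) := by
    rw [hcard_eq_relIndex,
      ← AddSubgroup.relIndex_map_map_of_injective (f := E.subtype) _ _ E.subtype_injective, hfixed]
    congr 1
    ext y
    simp only [normTUnits, ← hE, AddSubgroup.mem_map, AddMonoidHom.mem_range]
    constructor
    · rintro ⟨_, ⟨x, rfl⟩, rfl⟩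
      exact ⟨x, x.2, (hnrm x).symm⟩
    · rintro ⟨x, hx, rfl⟩
      exact ⟨_, ⟨⟨x, hx⟩, rfl⟩, hnrm ⟨x, hx⟩⟩
  have hrankfix : Module.finrank ℤ (LinearMap.ker (s - 1)) = Module.finrank ℤ (tUnits G₀ T) := by
    have hk : (LinearMap.ker (s - 1)).toAddSubgroup = (tau s).ker := rfl
    let e : (tau s).ker ≃+ tUnits G₀ T :=
      (AddSubgroup.equivMapOfInjective _ _ E.subtype_injective).trans
        (AddEquiv.addSubgroupCongr hfixed)
    exact (e.toIntLinearEquiv).finrank_eq
  have rk0 := finrank_tUnits G₀ p hp2 hC.open₀ hC.mu T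
  have rk1 := finrank_tUnits G₁ p hp2 hC.open₁ hC.mu₁ (liftPlaces hC.open₁ T)
  have hcount := hC.card_liftPlaces hσ hσ1 T
  have hindex : G₁.index = p * G₀.index := by
    rw [← Subgroup.relIndex_mul_index hC.le, hC.idx]
  rw [hrankfix] at hm heq
  rw [h1, one_mul, h0] at heq
  set a := Module.finrank ℤ (tUnits G₀ T)
  set b := (T.filter (NonSplit G₁)).card
  obtain ⟨k, hk⟩ := Nat.exists_eq_add_of_le hp.out.two_le
  have key : a + 1 = m + b := by
    rw [← hE] at rk1
    rw [hindex, ← hm] at rk1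
    have hp1 : p - 1 = k + 1 := by omega
    rw [hp1] at rk1 hcount
    subst hk
    have rk0' := congrArg ((2 + k) * ·) rk0
    have : (k + 1) * (a + 1) = (k + 1) * (m + b) := by nlinarith [rk0', rk1, hcount]
    exact Nat.eq_of_mul_eq_mul_left (Nat.succ_pos k) this
  have : (normTUnits hC T).relIndex (tUnits G₀ T) * p * p ^ m = p ^ b * p ^ m := by
    calc _ = (normTUnits hC T).relIndex (tUnits G₀ T) * p ^ m * p := by ring
      _ = p ^ a * p := by rw [heq]
      _ = p ^ (m + b) := by rw [← key, pow_succ]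
      _ = _ := by rw [pow_add, mul_comm]
  exact Nat.eq_of_mul_eq_mul_right (pow_pos hp.out.pos m) this

end FLTA.PT.NT

end
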