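import Fermat.Agent.PoitouTate.NormHerbrand

/-!
# The norm-residue map on `T`-units and the first inequality
-/

set_option autoImplicit false

open ExtCitation

noncomputable section

namespace FLTA.PT.NT

variable {p : ℕ} [hp : Fact p.Prime] {G₁ G₀ : Subgroup GQ}

/-- Local elements modulo local norms. -/
abbrev NormQuot (G₁ : Subgroup GQ) (v : Pl G₀) : Type :=
  fixedBy (unitsRepLoc v.1) v.stab ⧸
    (normsFrom (unitsRepLoc v.1) (stabLoc v.1 G₁ v.rep) v.stab).comap
      (fixedBy (unitsRepLoc v.1) v.stab).subtype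

theorem normQuot_mk_eq_zero {v : Pl G₀} (x : fixedBy (unitsRepLoc v.1) v.stab) :
    (Submodule.Quotient.mk x : NormQuot G₁ v) = 0 ↔
      (x : Ml v.1) ∈ normsFrom (unitsRepLoc v.1) (stabLoc v.1 G₁ v.rep) v.stab :=
  Submodule.Quotient.mk_eq_zero _

/-- The norm-residue map on `T`-units. -/
def normResidue (G₁ : Subgroup GQ) (T : Finset (Pl G₀)) :
    tUnits G₀ T →+ (∀ v : T, NormQuot G₁ v.1) where
  toFun e v := Submodule.Quotient.mk ⟨v.1.at e.1, atPlace_mem_fixedBy e.2.1⟩
  map_zero' := funext fun v => (normQuot_mk_eq_zero _).2 (by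
    simp only [Pl.at, ZeroMemClass.coe_zero, atPlace_zero]; exact zero_mem _)
  map_add' e f := funext fun v => by
    rw [Pi.add_apply, ← Submodule.Quotient.mk_add]
    exact congrArg _ (Subtype.ext (atPlace_add _ _ _ _))

namespace CycStep

variable (hC : CycStep p G₁ G₀)

include hC

theorem normsFrom_eq_top_of_split {v : Pl G₀} (hv : ¬ NonSplit G₁ v) :
    normsFrom (unitsRepLoc v.1) (stabLoc v.1 G₁ v.rep) v.stab =
      fixedBy (unitsRepLoc v.1) v.stab := by
  rw [show stabLoc v.1 G₁ v.rep = v.stab from not_not.1 hv, normsFrom_self]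

/-- `p`-th powers are local norms. -/
theorem nsmul_mem_local (v : Pl G₀) {b : Ml v.1} (hb : b ∈ fixedBy (unitsRepLoc v.1) v.stab) :
    p • b ∈ normsFrom (unitsRepLoc v.1) (stabLoc v.1 G₁ v.rep) v.stab := by
  by_cases hv : NonSplit G₁ v
  · have hidx := hC.stab_idx hv
    rw [← hidx]
    exact nsmul_mem_normsFrom _ (hC.stab_le _ _) (hidx ▸ hp.out.ne_zero) hb
  · rw [hC.normsFrom_eq_top_of_split hv]
    exact Submodule.smul_of_tower_mem _ p hb

/-- Global norms are local norms. -/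
theorem at_relNorm_mem (v : Pl G₀) {y : Mq} (hy : y ∈ fixedBy unitsRep G₁) :
    v.at (relNorm unitsRep G₁ G₀ y) ∈
      normsFrom (unitsRepLoc v.1) (stabLoc v.1 G₁ v.rep) v.stab := by
  haveI := hC.normal
  by_cases hv : NonSplit G₁ v
  · obtain ⟨τ, hτ0, hτ1⟩ := SetLike.exists_of_lt (lt_of_le_of_ne (hC.stab_le v.1 v.rep) hv)
    haveI := hC.stab_normal v.1 v.rep
    set x := v.rep⁻¹ * loc v.1 τ * v.rep with hx
    have hx0 : x ∈ G₀ := mem_stabLoc.1 hτ0
    have hx1 : x ∉ G₁ := fun h => hτ1 (mem_stabLoc.2 h)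
    rw [relNorm_eq_sum_pow _ hC.idx hx0 hx1 hy]
    have e : v.at (∑ i ∈ Finset.range p, unitsRep (x ^ i) y) =
        ∑ i ∈ Finset.range p, unitsRepLoc v.1 (τ ^ i) (v.at y) := by
      unfold Pl.at atPlace
      rw [map_sum, map_sum]
      refine Finset.sum_congr rfl fun i _ => ?_
      have h2 : x ^ i = v.rep⁻¹ * loc v.1 (τ ^ i) * v.rep := by
        have h3 := conj_pow (i := i) (a := v.rep⁻¹) (b := loc v.1 τ)
        rw [inv_inv] at h3
        rw [map_pow]; exact h3
      rw [← equivariant_iotaUnits v.1 (τ ^ i), ← Module.End.mul_apply, ← map_mul,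
        ← Module.End.mul_apply, ← map_mul, h2]
      simp [mul_assoc]
    rw [e]
    exact sum_pow_mem_normsFrom _ (hC.stab_idx hv) hτ0 hτ1 (atPlace_mem_fixedBy hy)
  · rw [hC.normsFrom_eq_top_of_split hv]
    exact atPlace_mem_fixedBy (relNorm_mem_fixedBy _ hy)

open Classical in
theorem card_normQuot (v : Pl G₀) :
    Nat.card (NormQuot G₁ v) = if NonSplit G₁ v then p else 1 := by
  have h : Nat.card (NormQuot G₁ v) =
      (normsFrom (unitsRepLoc v.1) (stabLoc v.1 G₁ v.rep) v.stab).toAddSubgroup.relIndex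
        (fixedBy (unitsRepLoc v.1) v.stab).toAddSubgroup := rfl
  rw [h]
  split_ifs with hv
  · haveI := hC.stab_normal v.1 v.rep
    exact relIndex_normsFrom_of_prime (hC.open_stab _ _) (hC.stab_le _ _) (hC.stab_idx hv)
  · rw [hC.normsFrom_eq_top_of_split hv, AddSubgroup.relIndex_self]

theorem finite_normQuot (v : Pl G₀) : Finite (NormQuot G₁ v) :=
  Nat.finite_of_card_ne_zero (by rw [hC.card_normQuot]; split_ifs <;> simp [hp.out.ne_zero])

open Classical in
theorem card_pi_normQuot (T : Finset (Pl G₀)) :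
    Nat.card (∀ v : T, NormQuot G₁ v.1) = p ^ (T.filter (NonSplit G₁)).card := by
  rw [Nat.card_pi, Finset.prod_congr rfl fun v _ => hC.card_normQuot v.1,
    Finset.prod_coe_sort T (fun v => if NonSplit G₁ v then p else 1), Finset.prod_ite,
    Finset.prod_const, Finset.prod_const, one_pow, mul_one]

theorem normTUnits_le {T : Finset (Pl G₀)} :
    (normTUnits hC T).addSubgroupOf (tUnits G₀ T) ≤ (normResidue G₁ T).ker := by
  rintro e ⟨y, hy, hye⟩
  refine funext fun v => (normQuot_mk_eq_zero _).2 ?_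
  have := hC.at_relNorm_mem v.1 hy.1
  simp only [LinearMap.toAddMonoidHom_coe] at hye
  rw [hye] at this
  exact this

open Classical in
/-- `|image| * p` divides `p ^ b`. -/
theorem card_range_mul_dvd (hp2 : p ≠ 2) {T : Finset (Pl G₀)} (hT : GoodT hC T) :
    Nat.card (normResidue G₁ T).range * p ∣ p ^ (T.filter (NonSplit G₁)).card := by
  rw [← relIndex_normTUnits hp2 hC hT, ← AddSubgroup.index_ker]
  exact Nat.mul_dvd_mul_right (AddSubgroup.index_dvd_of_le hC.normTUnits_le) p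

/-- First inequality. -/
theorem not_surjective_normResidue (hp2 : p ≠ 2) {T : Finset (Pl G₀)} (hT : GoodT hC T) :
    ¬ Function.Surjective (normResidue G₁ T) := by
  classical
  intro h
  have h1 := hC.card_range_mul_dvd hp2 hT
  rw [AddMonoidHom.range_eq_top.2 h, AddSubgroup.card_top, hC.card_pi_normQuot] at h1
  have h2 := Nat.le_of_dvd (pow_pos hp.out.pos _) h1
  nlinarith [hp.out.two_le, pow_pos hp.out.pos (T.filter (NonSplit G₁)).card]

/-- An element whose divisor outside `T` is locally a norm is a `T`-unit modulo norms. -/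
theorem exists_tUnit_add_norm {T : Finset (Pl G₀)} (hT : GoodT hC T) {x : Mq}
    (hx : x ∈ fixedBy unitsRep G₀)
    (hnorm : ∀ v, v ∉ T → NonSplit G₁ v →
      ∃ b ∈ fixedBy (unitsRepLoc v.1) v.stab, v.abs x = absv v.1 b ^ p) :
    ∃ e ∈ tUnits G₀ T, ∃ y ∈ fixedBy unitsRep G₁, x = e + relNorm unitsRep G₁ G₀ y := by
  obtain ⟨y, hy, hya⟩ := exists_relNorm_abs_eq hC hT (fun v => v.at x)
    (fun v => atPlace_mem_fixedBy hx) (finite_setOf_abs_ne_one G₀ hC.open₀ x hx) hnorm
  refine ⟨x - relNorm unitsRep G₁ G₀ y, ⟨sub_mem hx (relNorm_mem_fixedBy _ hy), fun v hv => ?_⟩,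
    y, hy, (sub_add_cancel _ _).symm⟩
  show absv v.1 (atPlace v.1 v.rep (x - relNorm unitsRep G₁ G₀ y)) = 1
  rw [sub_eq_add_neg, atPlace_add, atPlace_neg, absv_add, absv_neg]
  show v.abs x * (v.abs (relNorm unitsRep G₁ G₀ y))⁻¹ = 1
  rw [hya v hv]
  exact mul_inv_cancel₀ (absv_pos _).ne'

theorem normResidue_eq_of_norm {T : Finset (Pl G₀)} (e : tUnits G₀ T) {x y : Mq}
    (hx : x ∈ fixedBy unitsRep G₀) (hy : y ∈ fixedBy unitsRep G₁)
    (h : x = e + relNorm unitsRep G₁ G₀ y) (v : T) :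
    normResidue G₁ T e v =
      Submodule.Quotient.mk ⟨v.1.at x, atPlace_mem_fixedBy hx⟩ := by
  refine ((Submodule.Quotient.eq _).2 ?_).symm
  show (v.1.at x - v.1.at e.1) ∈
    normsFrom (unitsRepLoc v.1.1) (stabLoc v.1.1 G₁ v.1.rep) v.1.stab
  rw [h, show v.1.at ((e : Mq) + relNorm unitsRep G₁ G₀ y) =
    v.1.at e.1 + v.1.at (relNorm unitsRep G₁ G₀ y) from atPlace_add _ _ _ _, add_sub_cancel_left]
  exact hC.at_relNorm_mem v.1 hy

/-- Some place outside any admissible set does not split. -/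
theorem exists_nonSplit_notMem (hp2 : p ≠ 2) {T : Finset (Pl G₀)} (hT : GoodT hC T) :
    ∃ v, v ∉ T ∧ NonSplit G₁ v := by
  classical
  by_contra h
  push Not at h
  refine hC.not_surjective_normResidue hp2 hT fun c => ?_
  choose d hd using fun v : T => Submodule.Quotient.mk_surjective _ (c v)
  let c' : ∀ v : Pl G₀, Ml v.1 := fun v => if hv : v ∈ T then (d ⟨v, hv⟩ : Ml v.1) else 0
  have hc' : ∀ v ∈ T, c' v ∈ fixedBy (unitsRepLoc v.1) v.stab := fun v hv => by
    simp only [c', dif_pos hv]; exact (d ⟨v, hv⟩).2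
  obtain ⟨x, hx, hxa⟩ := exists_approx G₀ p hC.open₀ T c' hc'
  obtain ⟨e, he, y, hy, hxe⟩ := hC.exists_tUnit_add_norm hT hx (fun v hv hns => absurd hns (h v hv))
  refine ⟨⟨e, he⟩, funext fun v => ?_⟩
  rw [hC.normResidue_eq_of_norm ⟨e, he⟩ hx hy hxe v, ← hd v, Submodule.Quotient.eq]
  obtain ⟨b, hb, hb'⟩ := hxa v.1 v.2
  show v.1.at x - (d v : Ml v.1.1) ∈
    normsFrom (unitsRepLoc v.1.1) (stabLoc v.1.1 G₁ v.1.rep) v.1.stab
  rw [hb']
  simp only [c', dif_pos v.2, add_sub_cancel_left]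
  exact hC.nsmul_mem_local v.1 hb

end CycStep

end FLTA.PT.NT

end
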