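import Fermat.Agent.PoitouTate.NormIndex

/-!
# Kummer theory at the places
-/

set_option autoImplicit false

open ExtCitation FLTA.PoitouTate.Herbrand

noncomputable section

namespace FLTA.PT.NT

variable {p : ℕ} [hp : Fact p.Prime] {q : Nat.Primes}

theorem toMul_nsmul_coe_loc (n : ℕ) (x : Ml q) :
    ((Additive.toMul (n • x) : (Ql q)ˣ) : Ql q) =
      haveI : Fact (q : ℕ).Prime := ⟨q.2⟩
      ((Additive.toMul x : (Ql q)ˣ) : Ql q) ^ n := by
  rw [toMul_nsmul, Units.val_pow_eq_pow_val]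

theorem absv_eq_one_of_nsmul_eq_zero {z : Ml q} (hz : p • z = 0) : absv q z = 1 := by
  have h := absv_nsmul p z
  rw [hz, absv_zero] at h
  exact (pow_left_inj₀ (absv_pos z).le zero_le_one hp.out.ne_zero).1 (by rw [one_pow]; exact h.symm)

theorem iotaUnits_injective (q : Nat.Primes) : Function.Injective (iotaUnits q) := fun x y h => by
  refine Mq_ext ((iota q).injective ?_)
  exact congrArg (fun z : Ml q => ((Additive.toMul z : (Ql q)ˣ) : Ql q)) h

/-- The local `p`-torsion comes from `μ_p ⊆ ℚ̄`. -/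
theorem exists_iotaUnits_eq {z : Ml q} (hz : p • z = 0) :
    ∃ t : Mq, p • t = 0 ∧ iotaUnits q t = z := by
  haveI : Fact (q : ℕ).Prime := ⟨q.2⟩
  haveI : NeZero p := ⟨hp.out.ne_zero⟩
  obtain ⟨ζ, hζ0, hζ⟩ := exists_ne_zero_nsmul_eq_zero p
  have hζp : ((Additive.toMul ζ : Qbˣ) : Qb) ^ p = 1 := by
    rw [← toMul_nsmul_coe, hζ]; rfl
  have hne : ((Additive.toMul ζ : Qbˣ) : Qb) ≠ 1 := fun h => hζ0 (Mq_ext h)
  have hprim : IsPrimitiveRoot ((Additive.toMul ζ : Qbˣ) : Qb) p :=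
    IsPrimitiveRoot.iff_orderOf.2 (orderOf_eq_prime hζp hne)
  have hz' : ((Additive.toMul z : (Ql q)ˣ) : Ql q) ^ p = 1 := by
    rw [← toMul_nsmul_coe_loc, hz]; rfl
  obtain ⟨i, -, hi⟩ := (hprim.map_of_injective (iota q).injective).eq_pow_of_pow_eq_one hz'
  refine ⟨i • ζ, by rw [smul_comm, hζ, smul_zero], Additive.toMul.injective (Units.ext ?_)⟩
  rw [map_nsmul, toMul_nsmul_coe_loc]
  exact hi

/-- The local action on `μ_p` is trivial on the kernel of the cyclotomic character. -/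
theorem unitsRepLoc_eq_self_of_nsmul_eq_zero {z : Ml q} (hz : p • z = 0) {τ : Gl q}
    (hτ : cycloChar p (loc q τ) = 1) : unitsRepLoc q τ z = z := by
  obtain ⟨t, ht, rfl⟩ := exists_iotaUnits_eq hz
  rw [← equivariant_iotaUnits q τ, unitsRep_eq_self_of_nsmul_eq_zero p ht hτ]

theorem cycloChar_loc {G : Subgroup GQ} (hμ : ∀ s ∈ G, cycloChar p s = 1) {g : GQ} {τ : Gl q}
    (hτ : τ ∈ stabLoc q G g) : cycloChar p (loc q τ) = 1 := by
  have h := hμ _ (mem_stabLoc.1 hτ)
  rw [map_mul, map_mul, map_inv, mul_right_comm, inv_mul_cancel, one_mul] at h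
  exact h

/-- A local element fixing the `p`-th root at a place fixes the global root. -/
theorem fix_of_atPlace {g : GQ} {τ : Gl q} (hτ : cycloChar p (loc q τ) = 1) {X : Mq} {Y : Ml q}
    (hY : unitsRepLoc q τ Y = Y) (h : p • atPlace q g X = p • Y) :
    unitsRep (g⁻¹ * loc q τ * g) X = X := by
  have hz : p • (atPlace q g X - Y) = 0 := by rw [nsmul_sub, h, sub_self]
  have h1 := unitsRepLoc_eq_self_of_nsmul_eq_zero hz hτ
  rw [map_sub, hY, sub_left_inj, atPlace, ← equivariant_iotaUnits q τ] at h1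
  have h2 := iotaUnits_injective q h1
  rw [map_mul, map_mul, Module.End.mul_apply, Module.End.mul_apply, h2, ← Module.End.mul_apply,
    ← map_mul, inv_mul_cancel, map_one, Module.End.one_apply]

/-- Inertia fixes the `p`-th roots of units, away from `p`. -/
theorem inertia_fix_root (hqp : (q : ℕ) ≠ p) {R : Ml q} (hR : absv q R = 1) {τ : Gl q}
    (hτ : τ ∈ inertiaLoc q) (hfix : unitsRepLoc q τ (p • R) = p • R) : unitsRepLoc q τ R = R := by
  haveI : Fact (q : ℕ).Prime := ⟨q.2⟩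
  set z := unitsRepLoc q τ R - R with hz
  have hpz : p • z = 0 := by rw [hz, nsmul_sub, ← map_nsmul, hfix, sub_self]
  set R' : PadicAlgCl (q : ℕ) := ((Additive.toMul R : (Ql q)ˣ) : Ql q) with hR'
  set ζ : PadicAlgCl (q : ℕ) := ((Additive.toMul z : (Ql q)ˣ) : Ql q) with hζ
  have hR1 : ‖R'‖ = 1 := hR
  have hζp : ζ ^ p = 1 := by
    have e := toMul_nsmul_coe_loc (q := q) p z
    rw [hpz] at e
    exact e.symm.trans rfl
  have hlt : ‖ζ - 1‖ < 1 := by
    have hmul : ζ * R' = locAut q τ R' := by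
      have hadd : z + R = unitsRepLoc q τ R := sub_add_cancel _ _
      exact congrArg (fun w : Ml q => ((Additive.toMul w : (Ql q)ˣ) : Ql q)) hadd
    have hin := hτ R' hR1.le
    have e : ‖locAut q τ R' - R'‖ = ‖ζ - 1‖ := by
      rw [← hmul, show ζ * R' - R' = (ζ - 1) * R' by ring, norm_mul, hR1, mul_one]
    exact e ▸ hin
  have hζ1 : ζ = 1 := by
    by_contra hne
    have hsum : ∑ i ∈ Finset.range p, ζ ^ i = 0 := by
      have h := geom_sum_mul ζ p
      rw [hζp, sub_self] at h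
      exact (mul_eq_zero.1 h).resolve_right (sub_ne_zero.2 hne)
    have hnζ : ‖ζ‖ ≤ 1 := by
      have := absv_eq_one_of_nsmul_eq_zero hpz
      exact le_of_eq this
    have h2 : ∑ i ∈ Finset.range p, (ζ ^ i - 1) = -(p : PadicAlgCl (q : ℕ)) := by
      rw [Finset.sum_sub_distrib, hsum, zero_sub, Finset.sum_const, Finset.card_range, nsmul_one]
    have h3 : ‖∑ i ∈ Finset.range p, (ζ ^ i - 1)‖ ≤ ‖ζ - 1‖ := by
      refine IsUltrametricDist.norm_sum_le_of_forall_le_of_nonneg (norm_nonneg _) fun i _ => ?_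
      rw [← geom_sum_mul, norm_mul]
      refine mul_le_of_le_one_left (norm_nonneg _) ?_
      refine IsUltrametricDist.norm_sum_le_of_forall_le_of_nonneg zero_le_one fun j _ => ?_
      rw [norm_pow]
      exact pow_le_one₀ (norm_nonneg _) hnζ
    rw [h2, norm_neg, ← map_natCast (algebraMap ℚ_[(q : ℕ)] (PadicAlgCl (q : ℕ))),
      norm_algebraMap'] at h3
    have h4 : ‖(p : ℚ_[(q : ℕ)])‖ = 1 := by
      rw [Padic.norm_natCast_eq_one_iff, Nat.coprime_primes q.2 hp.out]
      exact hqp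
    rw [h4] at h3
    exact absurd (h3.trans_lt hlt) (lt_irrefl _)
  have : z = 0 := Additive.toMul.injective (Units.ext (by rw [← hζ, hζ1]; rfl))
  exact sub_eq_zero.1 this

/-- A local `p`-th power at a place gives a place that splits in the Kummer step. -/
theorem stab_le_of_root {G₁ G₀ : Subgroup GQ} (hμ : ∀ s ∈ G₀, cycloChar p s = 1) {r : Mq}
    (hmem : ∀ s : GQ, s ∈ G₁ ↔ s ∈ G₀ ∧ unitsRep s r = r) {g : GQ} {b : Ml q}
    (hb : b ∈ fixedBy (unitsRepLoc q) (stabLoc q G₀ g)) (h : atPlace q g (p • r) = p • b) :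
    stabLoc q G₀ g ≤ stabLoc q G₁ g := by
  intro τ hτ
  refine mem_stabLoc.2 ((hmem _).2 ⟨mem_stabLoc.1 hτ, ?_⟩)
  refine fix_of_atPlace (cycloChar_loc hμ hτ) (hb τ hτ) ?_
  rw [← h]
  unfold atPlace
  rw [map_nsmul, map_nsmul]

/-- Roots of units give unramified steps away from `p`. -/
theorem inertia_le_of_root {G₁ G₀ : Subgroup GQ} (hμ : ∀ s ∈ G₀, cycloChar p s = 1) {r : Mq}
    (hmem : ∀ s : GQ, s ∈ G₁ ↔ s ∈ G₀ ∧ unitsRep s r = r)
    (he : p • r ∈ fixedBy unitsRep G₀) (hqp : (q : ℕ) ≠ p) {g : GQ}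
    (h : absv q (atPlace q g (p • r)) = 1) :
    inertiaLoc q ⊓ stabLoc q G₀ g ≤ stabLoc q G₁ g := by
  rintro τ ⟨hI, hτ⟩
  refine mem_stabLoc.2 ((hmem _).2 ⟨mem_stabLoc.1 hτ, ?_⟩)
  have e : atPlace q g (p • r) = p • atPlace q g r := by
    unfold atPlace; rw [map_nsmul, map_nsmul]
  refine fix_of_atPlace (Y := atPlace q g r) (cycloChar_loc hμ hτ) ?_ rfl
  refine inertia_fix_root hqp ?_ hI ?_
  · rw [e, absv_nsmul] at h
    exact (pow_left_inj₀ (absv_pos _).le zero_le_one hp.out.ne_zero).1 (by rw [one_pow]; exact h)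
  · rw [← e]
    exact atPlace_mem_fixedBy he τ hτ

/-- A Kummer generator which is a `T`-unit. -/
theorem exists_tUnit_root {G₁ G₀ : Subgroup GQ} (hC : CycStep p G₁ G₀) {T : Finset (Pl G₀)}
    (hT : GoodT hC T) :
    ∃ r : Mq, r ∈ fixedBy unitsRep G₁ ∧ p • r ∈ tUnits G₀ T ∧ r ∉ fixedBy unitsRep G₀ := by
  classical
  obtain ⟨r, hr, ha, hr0⟩ := hC.exists_root
  have hval : ∀ v : Pl G₀, ∃ b ∈ fixedBy (unitsRepLoc v.1) v.stab, v ∉ T →
      v.abs (p • r) = absv v.1 b ^ p := by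
    intro v
    by_cases hv : v ∈ T
    · exact ⟨0, zero_mem _, fun h => absurd hv h⟩
    have hr' : v.at r ∈ fixedBy (unitsRepLoc v.1) (stabLoc v.1 G₁ v.rep) := atPlace_mem_fixedBy hr
    have e : v.abs (p • r) = absv v.1 (v.at r) ^ p := by
      rw [← absv_nsmul]
      unfold Pl.abs Pl.at atPlace
      rw [map_nsmul, map_nsmul]
    by_cases hns : NonSplit G₁ v
    · haveI := hC.stab_normal v.1 v.rep
      obtain ⟨b, hb, hb'⟩ := exists_absv_eq_of_unramified (p := p) (hC.open_stab v.1 v.rep)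
        (hC.stab_le v.1 v.rep) (hT.unram v hv) (hC.stab_idx hns) hr'
      exact ⟨b, hb, fun _ => by rw [e, hb']⟩
    · exact ⟨v.at r, (not_not.1 hns : stabLoc v.1 G₁ v.rep = v.stab) ▸ hr', fun _ => e⟩
  choose b hb hbe using hval
  let c : ∀ v : Pl G₀, Ml v.1 := fun v => if v ∈ T then 0 else b v
  have hfin : Set.Finite {v : Pl G₀ | absv v.1 (c v) ≠ 1} := by
    refine (finite_setOf_abs_ne_one G₀ hC.open₀ _ ha).subset fun v hv => ?_
    by_cases hvT : v ∈ T
    · exact absurd (by simp [c, hvT, absv_zero]) hv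
    · simp only [Set.mem_setOf_eq, c, if_neg hvT] at hv ⊢
      intro h
      rw [hbe v hvT] at h
      exact hv ((pow_left_inj₀ (absv_pos _).le zero_le_one hp.out.ne_zero).1
        (by rw [one_pow]; exact h))
  obtain ⟨y, hy, hya⟩ := hT.class₀ c (fun v => by
    simp only [c]; split_ifs
    · exact zero_mem _
    · exact hb v) hfin
  refine ⟨r - y, sub_mem hr (fixedBy_antitone _ hC.le hy), ⟨?_, fun v hv => ?_⟩, fun h => hr0 ?_⟩
  · rw [nsmul_sub]
    exact sub_mem ha (Submodule.smul_of_tower_mem _ p hy)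
  · have e : v.at (p • (r - y)) = v.at (p • r) - p • v.at y := by
      unfold Pl.at atPlace
      rw [nsmul_sub, map_sub, map_sub, map_nsmul (unitsRep v.rep) p y,
        map_nsmul (iotaUnits v.1)]
    show absv v.1 _ = 1
    rw [e, absv_sub, absv_nsmul, show absv v.1 (v.at (p • r)) = _ from hbe v hv,
      show absv v.1 (v.at y) = _ from hya v hv]
    simp only [c, if_neg hv]
    exact div_self (pow_pos (absv_pos _) p).ne'
  · simpa using add_mem h hy

/-- `|X / pX| = p ^ rank * |X[p]|`. -/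
theorem index_range_nsmul_of_finite {X : Type} [AddCommGroup X] [Module.Finite ℤ X] :
    (nsmulAddMonoidHom p : X →+ X).range.index =
      p ^ Module.finrank ℤ X * Nat.card (nsmulAddMonoidHom p : X →+ X).ker := by
  obtain ⟨-, -, m, hm, heq⟩ := hcard_lattice p (1 : X →ₗ[ℤ] X) (one_pow p)
  have hk : Module.finrank ℤ (LinearMap.ker ((1 : X →ₗ[ℤ] X) - 1)) = Module.finrank ℤ X := by
    rw [sub_self, LinearMap.ker_zero, finrank_top]
  have hn : nrm p (1 : X →ₗ[ℤ] X) = nsmulAddMonoidHom p := by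
    ext x; simp [nrm_apply_of_fixed p (σ := (1 : X →ₗ[ℤ] X)) (x := x) rfl]
  have ht : tau (1 : X →ₗ[ℤ] X) = 0 := by ext x; simp
  rw [hk] at hm heq
  have hm0 : m = 0 := by
    rcases Nat.mul_eq_zero.1 (show m * (p - 1) = 0 by omega) with h | h
    · exact h
    · have := hp.out.two_le; omega
  rw [hm0, pow_zero, mul_one, hcard_eq_relIndex, hcard_eq_relIndex, hn, ht, AddMonoidHom.ker_zero,
    AddSubgroup.relIndex_top_right, AddMonoidHom.range_zero, AddSubgroup.relIndex_bot_left] at heq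
  rw [heq, mul_comm]

/-- `|E_T / p E_T| = p ^ (rank + 1)`. -/
theorem index_nsmul_tUnits {G₀ : Subgroup GQ} (hG : IsOpenLvl lvlQ G₀)
    (hμ : ∀ s ∈ G₀, cycloChar p s = 1) (T : Finset (Pl G₀)) :
    (nsmulAddMonoidHom p : tUnits G₀ T →+ tUnits G₀ T).range.index =
      p ^ (Module.finrank ℤ (tUnits G₀ T) + 1) := by
  haveI := finite_tUnits G₀ hG T
  haveI : NeZero p := ⟨hp.out.ne_zero⟩
  have hker : Nat.card (nsmulAddMonoidHom p : tUnits G₀ T →+ tUnits G₀ T).ker = p := by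
    have hroot : ∀ t : Qbˣ, t ∈ rootsOfUnity p Qb → Additive.ofMul t ∈ tUnits G₀ T := by
      intro t ht
      have ht0 : p • Additive.ofMul t = 0 := by
        rw [← ofMul_pow, (mem_rootsOfUnity p t).1 ht]; rfl
      refine ⟨fun s hs => unitsRep_eq_self_of_nsmul_eq_zero p ht0 (hμ s hs), fun v _ => ?_⟩
      refine absv_eq_one_of_nsmul_eq_zero (p := p) ?_
      unfold Pl.at atPlace
      rw [← map_nsmul, ← map_nsmul, ht0, map_zero, map_zero]
    let e : (nsmulAddMonoidHom p : tUnits G₀ T →+ tUnits G₀ T).ker ≃ rootsOfUnity p Qb :=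
      { toFun := fun x => ⟨Additive.toMul (x.1 : Mq), by
          rw [mem_rootsOfUnity, ← toMul_nsmul]
          exact congrArg (fun z : tUnits G₀ T => Additive.toMul (z : Mq)) x.2⟩
        invFun := fun t => ⟨⟨Additive.ofMul (t : Qbˣ), hroot t t.2⟩, Subtype.ext (by
          show p • Additive.ofMul (t : Qbˣ) = 0
          rw [← ofMul_pow, (mem_rootsOfUnity p _).1 t.2]; rfl)⟩
        left_inv := fun x => rfl
        right_inv := fun t => rfl }
    rw [Nat.card_congr e, card_rootsOfUnity_eq_self]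
  rw [index_range_nsmul_of_finite, hker, pow_succ]

end FLTA.PT.NT

end
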