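import Fermat.Agent.PoitouTate.Devissage

/-!
# The self-dual permutation module `Fun(G/G₀, μ_p)`
-/

set_option autoImplicit false

open ExtCitation

noncomputable section

namespace FLTA.PT

variable {p : ℕ} [Fact p.Prime]

theorem exists_out_eq_mul_smul_out (G₀ : Subgroup GQ) (g : GQ) (x : GQ ⧸ G₀) :
    ∃ h ∈ G₀, x.out = g * (g⁻¹ • x).out * h := by
  refine ⟨(g * (g⁻¹ • x).out)⁻¹ * x.out, ?_, by group⟩
  rw [← QuotientGroup.eq]
  exact (MulAction.Quotient.smul_mk G₀ g (g⁻¹ • x).out).symm.trans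
    (by rw [QuotientGroup.out_eq', QuotientGroup.out_eq', smul_inv_smul])

/-- `(F, F') ↦ ∑ χ(g_x)⁻¹ F x F' x` on `Fun(G/G₀, μ_p)`. -/
def permPairing (G₀ : Subgroup GQ) [Fintype (GQ ⧸ G₀)] (hμ : ∀ s ∈ G₀, cycloChar p s = 1) :
    Pairing (cycloChar p) (funRep (muRep p) (GQ ⧸ G₀)) (funRep (muRep p) (GQ ⧸ G₀)) where
  e := ∑ x : GQ ⧸ G₀, (((cycloChar p x.out)⁻¹ : (ZMod p)ˣ) : ZMod p) •
    (LinearMap.mul (ZMod p) (ZMod p)).compl₁₂ (LinearMap.proj x) (LinearMap.proj x)
  equivariant g F F' := by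
    simp only [LinearMap.sum_apply, LinearMap.smul_apply, LinearMap.compl₁₂_apply,
      LinearMap.proj_apply, LinearMap.mul_apply', funRep_apply, charRep_apply, smul_eq_mul,
      Finset.mul_sum]
    refine Eq.trans (Finset.sum_congr rfl fun x _ => ?_)
      ((MulAction.bijective g⁻¹).sum_comp fun x : GQ ⧸ G₀ => (cycloChar p g : ZMod p) *
        ((((cycloChar p x.out)⁻¹ : (ZMod p)ˣ) : ZMod p) * (F x * F' x)))
    obtain ⟨h, hh, e⟩ := exists_out_eq_mul_smul_out G₀ g x
    rw [e, map_mul, map_mul, hμ h hh, mul_one, mul_inv, Units.val_mul]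
    calc ((cycloChar p g)⁻¹ : (ZMod p)ˣ).1 * ((cycloChar p (g⁻¹ • x).out)⁻¹ : (ZMod p)ˣ).1 *
          ((cycloChar p g : ZMod p) * F (g⁻¹ • x) * ((cycloChar p g : ZMod p) * F' (g⁻¹ • x)))
        = (((cycloChar p g)⁻¹ : (ZMod p)ˣ).1 * (cycloChar p g : ZMod p)) *
          ((cycloChar p g : ZMod p) * (((cycloChar p (g⁻¹ • x).out)⁻¹ : (ZMod p)ˣ).1 *
            (F (g⁻¹ • x) * F' (g⁻¹ • x)))) := by ring
      _ = _ := by rw [Units.inv_mul, one_mul]

theorem permPairing_apply (G₀ : Subgroup GQ) [Fintype (GQ ⧸ G₀)]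
    (hμ : ∀ s ∈ G₀, cycloChar p s = 1) (F F' : GQ ⧸ G₀ → ZMod p) :
    (permPairing G₀ hμ).e F F' =
      ∑ x, (((cycloChar p x.out)⁻¹ : (ZMod p)ˣ) : ZMod p) * (F x * F' x) := by
  simp only [permPairing, LinearMap.sum_apply, LinearMap.smul_apply, LinearMap.compl₁₂_apply,
    LinearMap.proj_apply, LinearMap.mul_apply', smul_eq_mul]

theorem permPairing_flip (G₀ : Subgroup GQ) [Fintype (GQ ⧸ G₀)]
    (hμ : ∀ s ∈ G₀, cycloChar p s = 1) : (permPairing G₀ hμ).flip = permPairing G₀ hμ := by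
  unfold Pairing.flip
  congr 1
  exact LinearMap.ext fun F => LinearMap.ext fun F' => by
    simp only [LinearMap.flip_apply, permPairing_apply, LinearMap.sum_apply, LinearMap.smul_apply,
      LinearMap.compl₁₂_apply, LinearMap.proj_apply, LinearMap.mul_apply', smul_eq_mul]
    exact Finset.sum_congr rfl fun x _ => by ring

theorem permPairing_perfect (G₀ : Subgroup GQ) [Fintype (GQ ⧸ G₀)]
    (hμ : ∀ s ∈ G₀, cycloChar p s = 1) : (permPairing G₀ hμ).Perfect := by
  classical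
  have h1 : Function.Injective (permPairing G₀ hμ).e :=
    (injective_iff_map_eq_zero _).2 fun F hF => funext fun x => by
      have := LinearMap.congr_fun hF (Pi.single x 1)
      rw [permPairing_apply, Finset.sum_eq_single x
        (fun y _ h => by rw [Pi.single_eq_of_ne h, mul_zero, mul_zero])
        (fun h => absurd (Finset.mem_univ x) h), Pi.single_eq_same, mul_one,
        LinearMap.zero_apply] at this
      exact (mul_eq_zero.1 this).resolve_left (Units.ne_zero _)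
  have h2 : Function.Injective (permPairing G₀ hμ).e.flip := by
    show Function.Injective (permPairing G₀ hμ).flip.e
    rw [permPairing_flip]; exact h1
  exact ⟨⟨h1, (surjective_of_nondegenerate_of_finite _ h1 h2).1⟩,
    ⟨h2, (surjective_of_nondegenerate_of_finite _ h1 h2).2⟩⟩

/-- `θ` is injective for all permutation modules. -/
def PermDetects {S : Finset Nat.Primes} (I : InvSystem p S) : Prop :=
  ∀ (G₀ : Subgroup GQ) [Fintype (GQ ⧸ G₀)] (_ : IsOpenLvl (lvlS S) G₀)
    (hμ : ∀ s ∈ G₀, cycloChar p s = 1), Detects (permPairing G₀ hμ) I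

end FLTA.PT

end
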