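import Fermat.Agent.PoitouTate.Units
import Fermat.Agent.Galois.Places

/-!
# Places and `S`-class groups of the fixed field of an open subgroup

A number field `K` is given by the open subgroup `G₀ = Gal(ℚ̄/K)`; its places over `q` are the
orbits of the local group on `GQ ⧸ G₀`.
-/

set_option autoImplicit false

open ExtCitation Module NumberField

noncomputable section

namespace FLTA.PT

/-- The decomposition group of the place `(q, g)` of the fixed field of `G₀`. -/
def stabLoc (q : Nat.Primes) (G₀ : Subgroup GQ) (g : GQ) : Subgroup (Gl q) :=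
  (G₀.map (MulAut.conj g).toMonoidHom).comap (loc q)

theorem mem_stabLoc {q : Nat.Primes} {G₀ : Subgroup GQ} {g : GQ} {τ : Gl q} :
    τ ∈ stabLoc q G₀ g ↔ g⁻¹ * loc q τ * g ∈ G₀ := by
  rw [stabLoc, Subgroup.mem_comap, Subgroup.mem_map]
  constructor
  · rintro ⟨x, hx, h⟩
    rw [← h]
    simpa [mul_assoc] using hx
  · intro h
    exact ⟨_, h, by simp [mul_assoc]⟩

/-- The homomorphism from a decomposition group to the global group. -/
def placeHom (q : Nat.Primes) (G₀ : Subgroup GQ) (g : GQ) : stabLoc q G₀ g →* G₀ where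
  toFun τ := ⟨g⁻¹ * loc q τ * g, mem_stabLoc.1 τ.2⟩
  map_one' := by ext; simp
  map_mul' a b := by apply Subtype.ext; simp [mul_assoc]

/-- The element `a` seen at the place `(q, g)`. -/
def atPlace (q : Nat.Primes) (g : GQ) (a : Mq) : Ml q := iotaUnits q (unitsRep g a)

theorem atPlace_mem_fixedBy {q : Nat.Primes} {G₀ : Subgroup GQ} {g : GQ} {a : Mq}
    (ha : a ∈ fixedBy unitsRep G₀) : atPlace q g a ∈ fixedBy (unitsRepLoc q) (stabLoc q G₀ g) := by
  intro τ hτ
  have hfix := ha _ (mem_stabLoc.1 hτ)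
  rw [atPlace, ← equivariant_iotaUnits q τ]
  congr 1
  calc unitsRep (loc q τ) (unitsRep g a) = unitsRep g (unitsRep (g⁻¹ * loc q τ * g) a) := by
        rw [← Module.End.mul_apply, ← map_mul, ← Module.End.mul_apply, ← map_mul]
        simp [mul_assoc]
    _ = unitsRep g a := by rw [hfix]

/-- The places over `q`. -/
abbrev PlacesAt (q : Nat.Primes) (G₀ : Subgroup GQ) : Type :=
  Quotient (MulAction.orbitRel (loc q).range (GQ ⧸ G₀))

/-- The number of finite places over `S`. -/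
def numPlaces (S : Finset Nat.Primes) (G₀ : Subgroup GQ) : ℕ :=
  ∑ q ∈ S, Nat.card (PlacesAt q G₀)

/-- The fixed field. -/
abbrev fixedK (G₀ : Subgroup GQ) : IntermediateField ℚ Qb := IntermediateField.fixedField G₀

open scoped nonZeroDivisors in
/-- The classes killed in `Cl_S / p`: `p`-th powers and primes over `S`. -/
def clSRel (p : ℕ) (S : Finset Nat.Primes) (G₀ : Subgroup GQ) [NumberField (fixedK G₀)] :
    Subgroup (ClassGroup (𝓞 (fixedK G₀))) :=
  (powMonoidHom p).range ⊔ Subgroup.closure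
    {c | ∃ (I : (Ideal (𝓞 (fixedK G₀)))⁰), (I : Ideal (𝓞 (fixedK G₀))).IsPrime ∧
      (∃ q ∈ S, ((q : ℕ) : 𝓞 (fixedK G₀)) ∈ (I : Ideal (𝓞 (fixedK G₀)))) ∧ ClassGroup.mk0 I = c}

open Classical in
/-- `|Cl_S(K)/p|`. -/
def cardClSp (p : ℕ) (S : Finset Nat.Primes) (G₀ : Subgroup GQ) : ℕ :=
  if h : NumberField (fixedK G₀) then (haveI := h; (clSRel p S G₀).index) else 0

theorem fixingSubgroup_fixedK (G₀ : Subgroup GQ) (hG : IsOpenLvl lvlQ G₀) :
    (fixedK G₀).fixingSubgroup = G₀ := by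
  obtain ⟨U, ⟨-, F, hF, hFU⟩, hU⟩ := hG
  have := FLTA.Galois.qbar_isGalois
  have hopen : IsOpen (G₀ : Set GQ) :=
    Subgroup.isOpen_mono (hFU.trans hU) (IntermediateField.fixingSubgroup_isOpen F)
  exact InfiniteGalois.fixingSubgroup_fixedField
    (⟨G₀, G₀.isClosed_of_isOpen hopen⟩ : ClosedSubgroup GQ)

theorem finiteDimensional_fixedK (G₀ : Subgroup GQ) (hG : IsOpenLvl lvlQ G₀) :
    FiniteDimensional ℚ (fixedK G₀) := by
  obtain ⟨U, ⟨-, F, hF, hFU⟩, hU⟩ := hG
  have := FLTA.Galois.qbar_isGalois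
  have h : fixedK G₀ ≤ F := by
    refine (IntermediateField.fixedField_antitone (hFU.trans hU)).trans ?_
    rw [InfiniteGalois.fixedField_fixingSubgroup]
  exact FiniteDimensional.of_injective (IntermediateField.inclusion h).toLinearMap
    (IntermediateField.inclusion_injective h)

theorem numberField_fixedK (G₀ : Subgroup GQ) (hG : IsOpenLvl lvlQ G₀) :
    NumberField (fixedK G₀) :=
  { to_finiteDimensional := finiteDimensional_fixedK G₀ hG }

theorem finrank_fixedK (G₀ : Subgroup GQ) (hG : IsOpenLvl lvlQ G₀) :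
    Module.finrank ℚ (fixedK G₀) = G₀.index := by
  have := finiteDimensional_fixedK G₀ hG
  have := FLTA.Galois.qbar_isGalois
  rw [IntermediateField.finrank_eq_fixingSubgroup_index, fixingSubgroup_fixedK G₀ hG]

theorem mem_fixedK_iff {G₀ : Subgroup GQ} {x : Qb} : x ∈ fixedK G₀ ↔ ∀ s ∈ G₀, s x = x :=
  IntermediateField.mem_fixedField_iff _ _

theorem isOpenLvl_lvlQ_of_lvlS {S : Finset Nat.Primes} {G₀ : Subgroup GQ}
    (hG : IsOpenLvl (lvlS S) G₀) : IsOpenLvl lvlQ G₀ := by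
  obtain ⟨U, ⟨hN, F, hF, hFU⟩, hU⟩ := hG
  exact ⟨U, ⟨hN, F, hF.1, hFU⟩, hU⟩

theorem inertia_le_of_isOpenLvl_lvlS {S : Finset Nat.Primes} {G₀ : Subgroup GQ}
    (hG : IsOpenLvl (lvlS S) G₀) {q : Nat.Primes} (hq : q ∉ S) {A : ValuationSubring Qb}
    (hA : A.LiesOverPrime (q : ℕ)) : A.inertiaSubgroupIn ℚ ≤ G₀ := by
  obtain ⟨U, ⟨-, F, hF, hFU⟩, hU⟩ := hG
  exact (hF.2 q hq A hA).trans (hFU.trans hU)

end FLTA.PT

end
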