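import Fermat.Agent.PoitouTate.PlacesPrimes
import Fermat.Agent.PoitouTate.PlacesDivisors
import Fermat.Agent.PoitouTate.Shapiro
import Fermat.Agent.Galois.Finiteness
import Fermat.Agent.Galois.Cyclotomic

/-!
# Kummer classes unramified outside `S`
-/

set_option autoImplicit false

open ExtCitation NumberField IsDedekindDomain
open scoped Pointwise nonZeroDivisors

noncomputable section

namespace FLTA.PT

/-- Adic valuation versus exponent of the principal fractional ideal. -/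
theorem valuation_eq_exp_neg_count {R : Type*} [CommRing R] [IsDedekindDomain R] {K : Type*}
    [Field K] [Algebra R K] [IsFractionRing R K] (v : HeightOneSpectrum R) (x : Kˣ) :
    v.valuation K (x : K) =
      WithZero.exp (-cnt K v (Additive.ofMul (toPrincipalIdeal R K x))) := by
  obtain ⟨r, s, hs, hx⟩ := IsFractionRing.div_surjective (A := R) (x : K)
  have hs0 : s ≠ 0 := nonZeroDivisors.ne_zero hs
  have hr0 : r ≠ 0 := fun h => x.ne_zero (by rw [← hx, h, map_zero, zero_div])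
  have hne : FractionalIdeal.spanSingleton R⁰ (x : K) ≠ 0 := by
    rw [ne_eq, FractionalIdeal.spanSingleton_eq_zero_iff]; exact x.ne_zero
  have hJ : FractionalIdeal.spanSingleton R⁰ (x : K) =
      FractionalIdeal.spanSingleton R⁰ (algebraMap R K s)⁻¹ * ↑(Ideal.span {r}) := by
    rw [FractionalIdeal.coeIdeal_span_singleton, FractionalIdeal.spanSingleton_mul_spanSingleton,
      ← hx, div_eq_inv_mul]
  rw [cnt_ofMul, coe_toPrincipalIdeal, FractionalIdeal.count_well_defined K v hne hJ, ← hx, map_div₀,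
    v.valuation_of_algebraMap, v.valuation_of_algebraMap, v.intValuation_if_neg hr0,
    v.intValuation_if_neg hs0, ← WithZero.exp_sub]
  congr 1
  ring

theorem sub_mem_B1_of_H1cπ_eq {k Γ V : Type*} [CommRing k] [Group Γ] [AddCommGroup V] [Module k V]
    (L : Lvl Γ) (ρ : Representation k Γ V) (x y : Z1 L ρ) (h : H1cπ L ρ x = H1cπ L ρ y) :
    (x : Γ → V) - (y : Γ → V) ∈ B1 ρ := by
  have h1 : H1cπ L ρ (x - y) = 0 := by rw [map_sub, h, sub_self]
  exact (H1cπ_eq_zero L ρ).1 h1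

variable (p : ℕ) [hp : Fact p.Prime]

/-- A fixed primitive `p`-th root of unity. -/
def zetaP : Qb :=
  haveI : NeZero p := ⟨hp.out.ne_zero⟩
  haveI : NeZero ((p : ℕ) : Qb) := ⟨Nat.cast_ne_zero.2 hp.out.ne_zero⟩
  (HasEnoughRootsOfUnity.exists_primitiveRoot Qb p).choose

theorem zetaP_spec : IsPrimitiveRoot (zetaP p) p :=
  haveI : NeZero p := ⟨hp.out.ne_zero⟩
  haveI : NeZero ((p : ℕ) : Qb) := ⟨Nat.cast_ne_zero.2 hp.out.ne_zero⟩
  (HasEnoughRootsOfUnity.exists_primitiveRoot Qb p).choose_spec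

theorem apply_eq_pow_cycloExp (σ : GQ) {ζ : Qb} (hζ : ζ ^ p = 1) : σ ζ = ζ ^ cycloExp p σ := by
  have : NeZero p := ⟨hp.out.ne_zero⟩
  exact modularCyclotomicCharacter.spec Qb (card_rootsOfUnity_eq_self p)
    (σ : Qb ≃+* Qb) (rootsOfUnity.mkOfPowEq ζ hζ).2

theorem apply_eq_self_of_cycloChar_eq_one {σ : GQ} (hσ : cycloChar p σ = 1) {ζ : Qb}
    (hζ : ζ ^ p = 1) : σ ζ = ζ := by
  have h : cycloExp p σ = 1 := by
    rw [← val_cycloChar, hσ, Units.val_one]
    have := hp.out.one_lt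
    exact ZMod.val_one'' this.ne'
  rw [apply_eq_pow_cycloExp p σ hζ, h, pow_one]

theorem zetaP_mem_fixedK {G₀ : Subgroup GQ} (hμ : ∀ s ∈ G₀, cycloChar p s = 1) :
    zetaP p ∈ fixedK G₀ :=
  mem_fixedK_iff.2 fun s hs => apply_eq_self_of_cycloChar_eq_one p (hμ s hs) (zetaP_spec p).pow_eq_one

theorem exists_primitiveRoot_fixedK {G₀ : Subgroup GQ} (hμ : ∀ s ∈ G₀, cycloChar p s = 1) :
    ∃ ζ : fixedK G₀, IsPrimitiveRoot ζ p :=
  ⟨⟨zetaP p, zetaP_mem_fixedK p hμ⟩,
    IsPrimitiveRoot.of_map_of_injective (f := (fixedK G₀).val) (zetaP_spec p)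
      (fixedK G₀).val.injective⟩

/-- A chosen `p`-th root. -/
def root (a : Qb) : Qb := (IsAlgClosed.exists_pow_nat_eq a hp.out.pos).choose

theorem root_spec (a : Qb) : root p a ^ p = a :=
  (IsAlgClosed.exists_pow_nat_eq a hp.out.pos).choose_spec

open Classical in
/-- The Kummer function of `a`. -/
def kummerFun (a : Qb) (s : GQ) : ZMod p :=
  if h : ∃ i : ℕ, s (root p a) = zetaP p ^ i * root p a then (h.choose : ZMod p) else 0

theorem zetaP_pow_eq_iff {i j : ℕ} : zetaP p ^ i = zetaP p ^ j ↔ (i : ZMod p) = j := by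
  have h0 : IsOfFinOrder (zetaP p) :=
    isOfFinOrder_iff_pow_eq_one.2 ⟨p, hp.out.pos, (zetaP_spec p).pow_eq_one⟩
  rw [h0.pow_eq_pow_iff_modEq, ← (zetaP_spec p).eq_orderOf, ZMod.natCast_eq_natCast_iff]

theorem natCast_eq_of_zetaP_pow_eq {i j : ℕ} (h : zetaP p ^ i = zetaP p ^ j) :
    (i : ZMod p) = j := (zetaP_pow_eq_iff p).1 h

theorem kummerFun_eq {a : Qb} (ha : a ≠ 0) {s : GQ} {i : ℕ}
    (h : s (root p a) = zetaP p ^ i * root p a) : kummerFun p a s = i := by
  have hα : root p a ≠ 0 := fun h0 => ha (by rw [← root_spec p a, h0, zero_pow hp.out.ne_zero])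
  rw [kummerFun, dif_pos ⟨i, h⟩]
  exact natCast_eq_of_zetaP_pow_eq p
    (mul_right_cancel₀ hα ((Exists.choose_spec (p := fun j : ℕ => s (root p a) = zetaP p ^ j * root p a) ⟨i, h⟩).symm.trans h))

theorem exists_apply_root {a : Qb} (ha : a ≠ 0) {s : GQ} (hs : s a = a) :
    ∃ i : ℕ, s (root p a) = zetaP p ^ i * root p a := by
  have : NeZero p := ⟨hp.out.ne_zero⟩
  have hα : root p a ≠ 0 := fun h0 => ha (by rw [← root_spec p a, h0, zero_pow hp.out.ne_zero])
  have h1 : (s (root p a) / root p a) ^ p = 1 := by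
    rw [div_pow, ← map_pow, root_spec, hs, div_self ha]
  obtain ⟨i, -, hi⟩ := (zetaP_spec p).eq_pow_of_pow_eq_one h1
  exact ⟨i, by rw [hi, div_mul_cancel₀ _ hα]⟩

/-- Inertia outside `S` fixes `p`-th roots of elements with valuations divisible by `p`. -/
theorem inertia_apply_root (K : IntermediateField ℚ Qb) [NumberField K] (q : Nat.Primes)
    (hqp : (q : ℕ) ≠ p) {A : ValuationSubring Qb} (hA : A.LiesOverPrime (q : ℕ))
    {σ : GQ} (hσ : σ ∈ A.inertiaSubgroupIn ℚ) (hσK : σ ∈ K.fixingSubgroup) (a : Kˣ)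
    (ha : (p : ℤ) ∣ cnt K (placeSpec A K q hA).1 (Additive.ofMul (toPrincipalIdeal (𝓞 K) K a))) :
    σ (root p ((a : K) : Qb)) = root p ((a : K) : Qb) := by
  set v := (placeSpec A K q hA).1
  have : NeZero p := ⟨hp.out.ne_zero⟩
  obtain ⟨k, hk⟩ := ha
  obtain ⟨π, hπ⟩ := v.valuation_exists_uniformizer K
  set b : K := π ^ k with hb
  have hb0 : b ≠ 0 := zpow_ne_zero _ fun h => by
    rw [h, map_zero] at hπ; exact WithZero.exp_ne_zero hπ.symm
  have hval : v.valuation K ((a : K) / b ^ p) = 1 := by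
    rw [map_div₀, map_pow, hb, map_zpow₀, hπ, valuation_eq_exp_neg_count, hk, ← WithZero.exp_zsmul,
      ← WithZero.exp_nsmul, ← WithZero.exp_sub, ← WithZero.exp_zero]
    congr 1
    simp
  have ha0 : ((a : K) : Qb) ≠ 0 := by exact_mod_cast a.ne_zero
  have hb0' : (b : Qb) ≠ 0 := by exact_mod_cast hb0
  set α := root p ((a : K) : Qb)
  set β := α / (b : Qb)
  have hβp : β ^ p = (((a : K) / b ^ p : K) : Qb) := by
    rw [div_pow, root_spec]; push_cast; rfl
  have hmem : β ^ p ∈ A ∧ (β ^ p)⁻¹ ∈ A := by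
    rw [hβp, ← IntermediateField.coe_inv]
    constructor
    · exact (mem_place_iff_valuation_le_one hA _).2 hval.le
    · refine (mem_place_iff_valuation_le_one hA _).2 (le_of_eq ?_)
      rw [map_inv₀]; exact inv_eq_one.2 hval
  have hβ : β ∈ A := by
    rcases A.mem_or_inv_mem β with h | h
    · exact h
    · obtain ⟨m, hm⟩ := Nat.exists_eq_succ_of_ne_zero hp.out.ne_zero
      have hm1 : β ^ (m + 1) ∈ A := by
        have h4 := hmem.1
        rw [hm] at h4
        exact h4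
      have h3 : β ^ (m + 1) * β⁻¹ ^ m ∈ A := mul_mem hm1 (pow_mem h m)
      by_cases h0 : β = 0
      · rw [h0]; exact zero_mem A
      rwa [pow_succ', inv_pow, mul_inv_cancel_right₀ (pow_ne_zero _ h0)] at h3
  obtain ⟨i, hi⟩ := exists_apply_root p ha0
    (s := σ) ((IntermediateField.mem_fixingSubgroup_iff _ _).1 hσK _ (a : K).2)
  have hβσ : σ β = zetaP p ^ i * β := by
    rw [map_div₀ σ, show σ α = zetaP p ^ i * α from hi,
      (IntermediateField.mem_fixingSubgroup_iff _ _).1 hσK _ b.2, mul_div_assoc]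
  have h1 := (FLTA.Galois.mem_inertiaSubgroupIn_iff.1 hσ).2 β hβ
  rw [hβσ, ← sub_one_mul] at h1
  have hβinv : β⁻¹ ∈ A := by
    have h3 : (β ^ p)⁻¹ * β ^ (p - 1) ∈ A := mul_mem hmem.2 (pow_mem hβ _)
    by_cases h0 : β = 0
    · rw [h0, inv_zero]; exact zero_mem A
    have e : β ^ p = β ^ (p - 1) * β := by
      rw [← pow_succ, Nat.sub_add_cancel hp.out.one_le]
    rwa [e, mul_inv_rev, inv_mul_cancel_right₀ (pow_ne_zero _ h0)] at h3
  have hβ0 : β ≠ 0 := div_ne_zero (fun h0 => ha0 (by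
    rw [← root_spec p ((a : K) : Qb)]; show α ^ p = 0; rw [h0, zero_pow hp.out.ne_zero])) hb0'
  have h2 : zetaP p ^ i - 1 ∈ A.nonunits := by
    have := FLTA.Galois.mul_mem_nonunits_of_mem h1 hβinv
    rwa [mul_inv_cancel_right₀ hβ0] at this
  have hz : zetaP p ^ i = 1 := by
    by_contra hne
    set z := zetaP p ^ i
    have hzp : z ^ p = 1 := by rw [← pow_mul, mul_comm, pow_mul, (zetaP_spec p).pow_eq_one, one_pow]
    have hsum : ∑ j ∈ Finset.range p, z ^ j = 0 := by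
      have h := geom_sum_mul z p
      rw [hzp, sub_self, mul_eq_zero] at h
      exact h.resolve_right (sub_ne_zero.2 hne)
    have hzA : z ∈ A := by
      have h := add_mem (A.nonunits_subset h2) (one_mem A)
      rwa [sub_add_cancel] at h
    have h3 : ∑ j ∈ Finset.range p, (z ^ j - 1) ∈ A.nonunits := by
      refine sum_mem fun j _ => ?_
      rw [← geom_sum_mul z j, mul_comm]
      exact FLTA.Galois.mul_mem_nonunits_of_mem h2 (sum_mem fun l _ => pow_mem hzA l)
    rw [Finset.sum_sub_distrib, hsum, zero_sub, Finset.sum_const, Finset.card_range, nsmul_one,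
      neg_mem_iff, FLTA.Galois.natCast_mem_nonunits_iff q.2 hA] at h3
    exact hqp ((Nat.prime_dvd_prime_iff_eq q.2 hp.out).1 h3)
  rw [hz, one_mul] at hi
  exact hi

variable (S : Finset Nat.Primes) (G₀ : Subgroup GQ)

theorem smooth_muRep (hG : IsOpenLvl (lvlS S) G₀) (hμ : ∀ s ∈ G₀, cycloChar p s = 1) :
    Smooth (lvlS S) (muRep p) := by
  obtain ⟨U, hU, hUG⟩ := hG
  exact fun v => ⟨U, hU, fun s hs => by simp [hμ s (hUG hs)]⟩

theorem isOpenLvl_stabilizer (hG : IsOpenLvl (lvlS S) G₀) (x : GQ ⧸ G₀) :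
    IsOpenLvl (lvlS S) (MulAction.stabilizer GQ x) := by
  obtain ⟨U, hU, hUG⟩ := hG
  refine ⟨U, hU, fun u hu => ?_⟩
  induction x using QuotientGroup.induction_on with
  | H g =>
    have hc := ((lvlS S).normal_of_mem U hU).conj_mem u hu g⁻¹
    show ((u * g : GQ) : GQ ⧸ G₀) = (g : GQ ⧸ G₀)
    rw [QuotientGroup.eq]
    have e : (u * g)⁻¹ * g = (g⁻¹ * u * g⁻¹⁻¹)⁻¹ := by group
    rw [e]
    exact inv_mem (hUG hc)

theorem mem_stabilizer_one_iff {s : GQ} :
    s ∈ MulAction.stabilizer GQ ((1 : GQ) : GQ ⧸ G₀) ↔ s ∈ G₀ := by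
  show ((s * 1 : GQ) : GQ ⧸ G₀) = ((1 : GQ) : GQ ⧸ G₀) ↔ _
  rw [QuotientGroup.eq]
  simp

/-- The Kummer cocycle on the stabiliser of the base coset. -/
def kummerCocycle (a : Qb) : MulAction.stabilizer GQ ((1 : GQ) : GQ ⧸ G₀) → ZMod p :=
  fun s => kummerFun p a (s : GQ)

theorem kummerCocycle_mem_Z1 (hG : IsOpenLvl (lvlS S) G₀) (hμ : ∀ s ∈ G₀, cycloChar p s = 1)
    (hpS : pPrime p ∈ S) [NumberField (fixedK G₀)] (a : (fixedK G₀)ˣ)
    (ha : ∀ v : HeightOneSpectrum (𝓞 (fixedK G₀)),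
      (∀ q ∈ S, ((q : ℕ) : 𝓞 (fixedK G₀)) ∉ v.asIdeal) →
      (p : ℤ) ∣ cnt (fixedK G₀) v (Additive.ofMul (toPrincipalIdeal (𝓞 (fixedK G₀)) (fixedK G₀) a))) :
    kummerCocycle p G₀ ((a : fixedK G₀) : Qb) ∈
      Z1 ((lvlS S).comap (MulAction.stabilizer GQ ((1 : GQ) : GQ ⧸ G₀)).subtype)
        ((muRep p).comp (MulAction.stabilizer GQ ((1 : GQ) : GQ ⧸ G₀)).subtype) := by
  have ha0 : ((a : fixedK G₀) : Qb) ≠ 0 := by exact_mod_cast a.ne_zero
  set c := ((a : fixedK G₀) : Qb) with hc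
  have hfix : ∀ s ∈ G₀, s c = c := mem_fixedK_iff.1 (a : fixedK G₀).2
  have hζ : ∀ s ∈ G₀, ∀ i : ℕ, s (zetaP p ^ i) = zetaP p ^ i := fun s hs i => by
    rw [map_pow, apply_eq_self_of_cycloChar_eq_one p (hμ s hs) (zetaP_spec p).pow_eq_one]
  refine (mem_Z1 _ _).2 ⟨fun g h => ?_, ?_⟩
  · have hg := (mem_stabilizer_one_iff G₀).1 g.2
    have hh := (mem_stabilizer_one_iff G₀).1 h.2
    obtain ⟨i, hi⟩ := exists_apply_root p ha0 (hfix _ hg)
    obtain ⟨j, hj⟩ := exists_apply_root p ha0 (hfix _ hh)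
    have hgh : ((g * h : _) : GQ) (root p c) = zetaP p ^ (i + j) * root p c := by
      rw [Subgroup.coe_mul, AlgEquiv.mul_apply, hj, map_mul, hζ _ hg, hi, ← mul_assoc, ← pow_add,
        add_comm]
    show kummerFun p c ((g * h : _) : GQ) = _
    rw [kummerFun_eq p ha0 hgh]
    show _ = charRep (cycloChar p) (g : GQ) (kummerFun p c (h : GQ)) + kummerFun p c (g : GQ)
    rw [charRep_apply, hμ _ hg, Units.val_one, one_mul, kummerFun_eq p ha0 hi, kummerFun_eq p ha0 hj,
      Nat.cast_add, add_comm]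
  · obtain ⟨U, hU, hUG⟩ := id hG
    obtain ⟨-, F, hF, hFU⟩ := hU
    have := hF.1
    have := FLTA.Galois.qbar_isGalois
    let α := root p c
    let E : IntermediateField ℚ Qb := F ⊔ IntermediateField.adjoin ℚ {α}
    have : FiniteDimensional ℚ (IntermediateField.adjoin ℚ {α}) :=
      IntermediateField.adjoin.finiteDimensional (Algebra.IsIntegral.isIntegral α)
    have hE : E.IsUnramifiedOutside S := by
      refine ⟨IntermediateField.finiteDimensional_sup F _, fun q hq A hA σ hσ => ?_⟩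
      rw [IntermediateField.fixingSubgroup_sup]
      refine ⟨hF.2 q hq A hA hσ, ?_⟩
      have hσK : σ ∈ (fixedK G₀).fixingSubgroup := by
        rw [fixingSubgroup_fixedK G₀ (isOpenLvl_lvlQ_of_lvlS hG)]
        exact inertia_le_of_isOpenLvl_lvlS hG hq hA hσ
      have hqp : (q : ℕ) ≠ p := fun e => hq (by
        have : q = pPrime p := Subtype.ext e
        exact this ▸ hpS)
      have hroot : σ α = α := by
        refine inertia_apply_root p (fixedK G₀) q hqp hA hσ hσK a (ha _ fun r hr hmem => ?_)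
        exact hq (primesOver_unique (placeSpec A _ q hA).2 hmem ▸ hr)
      refine (IntermediateField.mem_fixingSubgroup_iff _ _).2 fun x hx => ?_
      have hle : IntermediateField.adjoin ℚ {α} ≤ IntermediateField.fixedField (Subgroup.zpowers σ) := by
        rw [IntermediateField.adjoin_simple_le_iff, IntermediateField.mem_fixedField_iff]
        intro f hf
        obtain ⟨n, rfl⟩ := Subgroup.mem_zpowers_iff.1 hf
        exact MulAction.mem_stabilizer_iff.1
          ((MulAction.stabilizer GQ α).zpow_mem (MulAction.mem_stabilizer_iff.2 hroot) n)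
      exact (IntermediateField.mem_fixedField_iff _ _).1 (hle hx) σ (Subgroup.mem_zpowers σ)
    have hN := FLTA.Galois.isUnramifiedOutside_normalClosure hE
    set N := IntermediateField.normalClosure ℚ E Qb
    have hle : N.fixingSubgroup ≤ E.fixingSubgroup :=
      IntermediateField.fixingSubgroup_antitone E.le_normalClosure
    have hNn : N.fixingSubgroup.Normal := (InfiniteGalois.normal_iff_isGalois N).mpr inferInstance
    refine ⟨_, ⟨N.fixingSubgroup, ⟨hNn, N, hN, le_rfl⟩, rfl⟩, fun g s hs => ?_⟩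
    have hg := (mem_stabilizer_one_iff G₀).1 g.2
    obtain ⟨i, hi⟩ := exists_apply_root p ha0 (hfix _ hg)
    have hsα : (s : GQ) α = α := by
      refine (IntermediateField.mem_fixingSubgroup_iff _ _).1 (hle hs) α ?_
      exact (le_sup_right : _ ≤ E) (IntermediateField.mem_adjoin_simple_self ℚ α)
    show kummerFun p c ((g * s : _) : GQ) = kummerFun p c (g : GQ)
    rw [kummerFun_eq p ha0 hi]
    refine kummerFun_eq p ha0 ?_
    rw [Subgroup.coe_mul, AlgEquiv.mul_apply]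
    show (g : GQ) ((s : GQ) α) = _
    rw [hsα]
    exact hi

theorem div_mem_pow_of_kummerCocycle_eq [NumberField (fixedK G₀)] (a b : (fixedK G₀)ˣ)
    (h : kummerCocycle p G₀ ((a : fixedK G₀) : Qb) = kummerCocycle p G₀ ((b : fixedK G₀) : Qb)) :
    a⁻¹ * b ∈ (powMonoidHom p : (fixedK G₀)ˣ →* (fixedK G₀)ˣ).range := by
  have ha0 : ((a : fixedK G₀) : Qb) ≠ 0 := by exact_mod_cast a.ne_zero
  have hb0 : ((b : fixedK G₀) : Qb) ≠ 0 := by exact_mod_cast b.ne_zero
  set α := root p ((a : fixedK G₀) : Qb)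
  set β := root p ((b : fixedK G₀) : Qb)
  have hmem : β / α ∈ fixedK G₀ := by
    refine mem_fixedK_iff.2 fun s hs => ?_
    obtain ⟨i, hi⟩ := exists_apply_root p ha0 (mem_fixedK_iff.1 (a : fixedK G₀).2 s hs)
    obtain ⟨j, hj⟩ := exists_apply_root p hb0 (mem_fixedK_iff.1 (b : fixedK G₀).2 s hs)
    have h1 := congrFun h ⟨s, (mem_stabilizer_one_iff G₀).2 hs⟩
    change kummerFun p _ s = kummerFun p _ s at h1
    rw [kummerFun_eq p ha0 hi, kummerFun_eq p hb0 hj] at h1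
    have h2 : zetaP p ^ i = zetaP p ^ j := (zetaP_pow_eq_iff p).2 h1
    rw [map_div₀ s, show s α = _ from hi, show s β = _ from hj, h2, mul_div_mul_left]
    exact pow_ne_zero _ ((zetaP_spec p).ne_zero hp.out.ne_zero)
  have hz : (⟨β / α, hmem⟩ : fixedK G₀) ≠ 0 := fun h0 => by
    have h0' : β / α = 0 := congrArg Subtype.val h0
    rcases div_eq_zero_iff.1 h0' with h1 | h1
    · exact hb0 (by rw [← root_spec p ((b : fixedK G₀) : Qb)]; show β ^ p = 0; rw [h1, zero_pow hp.out.ne_zero])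
    · exact ha0 (by rw [← root_spec p ((a : fixedK G₀) : Qb)]; show α ^ p = 0; rw [h1, zero_pow hp.out.ne_zero])
  refine ⟨Units.mk0 _ hz, Units.ext (Subtype.ext ?_)⟩
  show (β / α) ^ p = ((((a⁻¹ * b : (fixedK G₀)ˣ)) : fixedK G₀) : Qb)
  rw [div_pow, root_spec, root_spec, Units.val_mul, Units.val_inv_eq_inv_val]
  push_cast
  rw [div_eq_inv_mul]

theorem eq_of_sub_mem_B1 (hμ : ∀ s ∈ G₀, cycloChar p s = 1)
    (f f' : MulAction.stabilizer GQ ((1 : GQ) : GQ ⧸ G₀) → ZMod p)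
    (h : f - f' ∈ B1 ((muRep p).comp (MulAction.stabilizer GQ ((1 : GQ) : GQ ⧸ G₀)).subtype)) :
    f = f' := by
  obtain ⟨v, hv⟩ := h
  funext s
  have h1 := congrFun hv s
  rw [d0_apply, Pi.sub_apply] at h1
  rw [← sub_eq_zero, ← h1]
  show charRep (cycloChar p) (s : GQ) v - v = 0
  rw [charRep_apply, hμ _ ((mem_stabilizer_one_iff G₀).1 s.2), Units.val_one, one_mul, sub_self]

theorem natCard_selmer_le [NumberField (fixedK G₀)] (hG : IsOpenLvl (lvlS S) G₀)
    (hμ : ∀ s ∈ G₀, cycloChar p s = 1) (hpS : pPrime p ∈ S)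
    (T : Finset (HeightOneSpectrum (𝓞 (fixedK G₀))))
    (hT : ∀ v, (∀ q ∈ S, ((q : ℕ) : 𝓞 (fixedK G₀)) ∉ v.asIdeal) → v ∉ T)
    [Finite (H1c (lvlS S) (funRep (muRep p) (GQ ⧸ G₀)))] :
    (powMonoidHom p : (fixedK G₀)ˣ →* (fixedK G₀)ˣ).range.relIndex
        (selmerUnits (fixedK G₀) p T) ≤
      Nat.card (H1c (lvlS S) (funRep (muRep p) (GQ ⧸ G₀))) := by
  set Sel := selmerUnits (fixedK G₀) p T
  set Kp := (powMonoidHom p : (fixedK G₀)ˣ →* (fixedK G₀)ˣ).range
  have : Finite (GQ ⧸ G₀) := by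
    obtain ⟨U, hU, hUG⟩ := id hG
    have := (lvlS S).finiteIndex_of_mem U hU
    have := Subgroup.finiteIndex_of_le hUG
    infer_instance
  let x₀ : GQ ⧸ G₀ := ((1 : GQ) : GQ ⧸ G₀)
  let κ : Sel → H1c ((lvlS S).comap (MulAction.stabilizer GQ x₀).subtype)
      ((muRep p).comp (MulAction.stabilizer GQ x₀).subtype) := fun a =>
    H1cπ ((lvlS S).comap (MulAction.stabilizer GQ x₀).subtype)
      ((muRep p).comp (MulAction.stabilizer GQ x₀).subtype) ⟨kummerCocycle p G₀ (((a : (fixedK G₀)ˣ) : fixedK G₀) : Qb),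
      kummerCocycle_mem_Z1 p S G₀ hG hμ hpS a fun v hv => a.2 v (hT v hv)⟩
  have hκ : ∀ a b, κ a = κ b → a⁻¹ * b ∈ Kp.subgroupOf Sel := by
    intro a b h
    refine div_mem_pow_of_kummerCocycle_eq p G₀ a b (eq_of_sub_mem_B1 p G₀ hμ _ _ ?_)
    exact sub_mem_B1_of_H1cπ_eq _ _ _ _ h
  choose Ψ hΨ using fun a => exists_eval1_eq (lvlS S) (muRep p) (smooth_muRep p S G₀ hG hμ)
    (isOpenLvl_stabilizer S G₀ hG) x₀ (κ a)
  refine Nat.card_le_card_of_injective (fun x : Sel ⧸ Kp.subgroupOf Sel => Ψ x.out) fun x y hxy => ?_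
  have h : κ x.out = κ y.out :=
    ((hΨ x.out).1.symm.trans (congrArg _ hxy)).trans (hΨ y.out).1
  rw [← x.out_eq', ← y.out_eq', QuotientGroup.eq]
  exact hκ _ _ h

end FLTA.PT

end
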