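import Fermat.Agent.PoitouTate.PlacesDefs
import Fermat.Agent.PoitouTate.Decomp
import Fermat.Agent.Galois.PlacesFinite

/-!
# Places of the fixed field as primes of its ring of integers
-/

set_option autoImplicit false

open ExtCitation NumberField IsDedekindDomain
open scoped Pointwise

noncomputable section

namespace FLTA.PT

/-- The primes of `𝓞 K` over `q`. -/
abbrev PrimesOver (K : IntermediateField ℚ Qb) [NumberField K] (q : Nat.Primes) : Type :=
  {v : HeightOneSpectrum (𝓞 K) // ((q : ℕ) : 𝓞 K) ∈ v.asIdeal}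

theorem primesOver_unique {K : IntermediateField ℚ Qb} [NumberField K] {q r : Nat.Primes}
    {v : HeightOneSpectrum (𝓞 K)} (hq : ((q : ℕ) : 𝓞 K) ∈ v.asIdeal)
    (hr : ((r : ℕ) : 𝓞 K) ∈ v.asIdeal) : q = r := by
  by_contra h
  have hco : IsCoprime ((q : ℕ) : ℤ) ((r : ℕ) : ℤ) :=
    Nat.Coprime.isCoprime ((Nat.coprime_primes q.2 r.2).2 fun e => h (Subtype.ext e))
  obtain ⟨a, b, hab⟩ := hco
  have h1 := congrArg (fun z : ℤ => (z : 𝓞 K)) hab
  push_cast at h1
  refine v.isPrime.ne_top ((Ideal.eq_top_iff_one _).2 ?_)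
  rw [← h1]
  exact add_mem (Ideal.mul_mem_left _ _ hq) (Ideal.mul_mem_left _ _ hr)

/-- The prime of `𝓞 K` cut out by a place of `ℚ̄`. -/
def placeSpec (A : ValuationSubring Qb) (K : IntermediateField ℚ Qb) [NumberField K] (q : Nat.Primes)
    (hA : A.LiesOverPrime (q : ℕ)) : PrimesOver K q :=
  ⟨⟨FLTA.Galois.placeIdeal A K, (FLTA.Galois.placeIdeal_isMaximal q.2 hA).isPrime, fun h => by
      have h1 := FLTA.Galois.natCast_mem_placeIdeal (L := K) hA
      rw [h, Ideal.mem_bot] at h1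
      exact q.2.ne_zero (by exact_mod_cast h1)⟩,
    FLTA.Galois.natCast_mem_placeIdeal hA⟩

@[simp] theorem placeSpec_asIdeal (A : ValuationSubring Qb) (K : IntermediateField ℚ Qb)
    [NumberField K] (q : Nat.Primes) (hA : A.LiesOverPrime (q : ℕ)) :
    (placeSpec A K q hA).1.asIdeal = FLTA.Galois.placeIdeal A K := rfl

theorem exists_placeSpec_eq {K : IntermediateField ℚ Qb} [NumberField K] {q : Nat.Primes}
    (v : PrimesOver K q) :
    ∃ (A : ValuationSubring Qb) (hA : A.LiesOverPrime (q : ℕ)), placeSpec A K q hA = v := by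
  have := v.1.isPrime
  obtain ⟨A, hA, h⟩ := FLTA.Galois.exists_placeIdeal_eq q.2 v.1.asIdeal v.2
  exact ⟨A, hA, Subtype.ext (HeightOneSpectrum.ext h)⟩

/-- Places of `ℚ̄` and adic valuations of `K`. -/
theorem mem_place_iff_valuation_le_one {A : ValuationSubring Qb} {K : IntermediateField ℚ Qb}
    [NumberField K] {q : Nat.Primes} (hA : A.LiesOverPrime (q : ℕ)) (x : K) :
    (x : Qb) ∈ A ↔ (placeSpec A K q hA).1.valuation K x ≤ 1 := by
  let v := (placeSpec A K q hA).1
  have aux : ∀ y : K, v.valuation K y ≤ 1 →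
      (y : Qb) ∈ A ∧ (v.valuation K y < 1 → (y : Qb) ∈ A.nonunits) := by
    intro y hy
    obtain ⟨a, s, hs⟩ := v.exists_primeCompl_mul_eq_of_integer y hy
    have hsn : (((s : 𝓞 K) : K) : Qb) ∉ A.nonunits := fun h => s.2 h
    have hs0 : (((s : 𝓞 K) : K) : Qb) ≠ 0 := fun h => hsn (h ▸ A.nonunits.zero_mem)
    have e : ((a : K) : Qb) / (((s : 𝓞 K) : K) : Qb) = (y : Qb) := by
      rw [div_eq_iff hs0]
      have := congrArg (fun z : K => (z : Qb)) hs
      push_cast at this
      exact this.symm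
    refine ⟨?_, fun hy1 => ?_⟩
    · rw [← e, div_eq_mul_inv]
      exact mul_mem (FLTA.Galois.mem_of_isIntegral (FLTA.Galois.isIntegral_coe_ringOfIntegers a))
        (FLTA.Galois.inv_mem_of_not_mem_nonunits hsn)
    · have ha : a ∈ v.asIdeal := by
        rw [← v.valuation_lt_one_iff_mem (K := K)]
        have h2 : v.valuation K (y * ((s : 𝓞 K) : K)) < 1 := by
          rw [map_mul]
          exact mul_lt_one_of_lt_of_le hy1 (v.valuation_le_one (K := K) _)
        have e2 : (a : K) = y * ((s : 𝓞 K) : K) := hs.symm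
        exact lt_of_eq_of_lt (congrArg (v.valuation K) e2) h2
      rw [← e, div_eq_mul_inv]
      exact FLTA.Galois.mul_mem_nonunits_of_mem ha (FLTA.Galois.inv_mem_of_not_mem_nonunits hsn)
  refine ⟨fun h => ?_, fun h => (aux x h).1⟩
  by_contra hx
  rw [not_le] at hx
  have h1 : v.valuation K x⁻¹ < 1 := by
    rw [map_inv₀]; exact inv_lt_one_of_one_lt₀ hx
  have h2 := (aux x⁻¹ h1.le).2 h1
  have hx0 : (x : Qb) ≠ 0 := fun h0 => by
    have : x = 0 := Subtype.ext h0
    simp [this] at hx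
  rw [ValuationSubring.mem_nonunits_iff_or] at h2
  simp only [IntermediateField.coe_inv, inv_eq_zero, inv_inv] at h2
  exact h2.elim hx0 fun h3 => h3 h

/-- The prime of the fixed field at the place `(q, g)`. -/
def placeOf (q : Nat.Primes) (G₀ : Subgroup GQ) [NumberField (fixedK G₀)] (g : GQ) :
    PrimesOver (fixedK G₀) q :=
  placeSpec (g⁻¹ • primeLocalPlace q) (fixedK G₀) q
    ((FLTA.Galois.liesOverPrime_smul_iff _).2 (primeLocalPlace_liesOverPrime q))

theorem norm_atPlace_le_one_iff (q : Nat.Primes) (G₀ : Subgroup GQ) [NumberField (fixedK G₀)]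
    (g : GQ) (x : fixedK G₀) :
    (haveI : Fact (q : ℕ).Prime := ⟨q.2⟩; ‖padicEmbedding (q : ℕ) (g x)‖ ≤ 1) ↔
      (placeOf q G₀ g).1.valuation (fixedK G₀) x ≤ 1 := by
  rw [← mem_primeLocalPlace_iff, placeOf, ← mem_place_iff_valuation_le_one,
    ValuationSubring.mem_pointwise_smul_iff_inv_smul_mem, inv_inv]
  rfl

theorem placeIdeal_smul_of_mem_fixingSubgroup {A : ValuationSubring Qb}
    {K : IntermediateField ℚ Qb} {h : GQ} (hh : h ∈ K.fixingSubgroup) :
    FLTA.Galois.placeIdeal (h • A) K = FLTA.Galois.placeIdeal A K := by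
  ext x
  rw [FLTA.Galois.mem_placeIdeal, FLTA.Galois.mem_placeIdeal]
  conv_lhs => rw [← (IntermediateField.mem_fixingSubgroup_iff _ _).1 hh _ (x : K).2]
  exact FLTA.Galois.smul_valuationSubring_nonunits h

theorem placeOf_eq_iff (q : Nat.Primes) (G₀ : Subgroup GQ) [NumberField (fixedK G₀)]
    (hG : IsOpenLvl lvlQ G₀) (g₁ g₂ : GQ) :
    placeOf q G₀ g₁ = placeOf q G₀ g₂ ↔
      ∃ τ : Gl q, g₂⁻¹ * loc q τ * g₁ ∈ G₀ := by
  constructor
  · intro h
    have h' := congrArg (fun v : PrimesOver (fixedK G₀) q => v.1.asIdeal) h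
    simp only [placeOf, placeSpec_asIdeal] at h'
    obtain ⟨u, hu, he⟩ := FLTA.Galois.exists_fixing_smul_eq h'
    rw [fixingSubgroup_fixedK G₀ hG] at hu
    have hd : g₂ * u * g₁⁻¹ ∈ (primeLocalPlace q).decompositionSubgroup ℚ := by
      rw [MulAction.mem_stabilizer_iff, mul_smul, mul_smul, he, smul_inv_smul]
    obtain ⟨U, hU, hUG⟩ := hG
    obtain ⟨τ, hτ⟩ := exists_loc_inv_mul_mem q hd hU
    refine ⟨τ, ?_⟩
    have hconj := (lvlQ.normal_of_mem U hU).conj_mem _ hτ g₁⁻¹
    have hs : g₁⁻¹ * ((loc q τ)⁻¹ * (g₂ * u * g₁⁻¹)) * g₁⁻¹⁻¹ ∈ G₀ := hUG hconj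
    have e : g₁⁻¹ * ((loc q τ)⁻¹ * (g₂ * u * g₁⁻¹)) * g₁⁻¹⁻¹ =
        (g₂⁻¹ * loc q τ * g₁)⁻¹ * u := by group
    rw [e, G₀.mul_mem_cancel_right hu, inv_mem_iff] at hs
    exact hs
  · rintro ⟨τ, hτ⟩
    have hτ' : g₂⁻¹ * loc q τ * g₁ ∈ (fixedK G₀).fixingSubgroup := by
      rwa [fixingSubgroup_fixedK G₀ hG]
    apply Subtype.ext; apply HeightOneSpectrum.ext
    rw [placeOf, placeOf, placeSpec_asIdeal, placeSpec_asIdeal,
      ← placeIdeal_smul_of_mem_fixingSubgroup hτ' (A := g₁⁻¹ • primeLocalPlace q), smul_smul,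
      mul_inv_cancel_right, mul_smul, loc_smul_primeLocalPlace]

/-- Places over `q` are the primes over `q`. -/
def placesEquiv (q : Nat.Primes) (G₀ : Subgroup GQ) [NumberField (fixedK G₀)]
    (hG : IsOpenLvl lvlQ G₀) : PlacesAt q G₀ ≃ PrimesOver (fixedK G₀) q :=
  Equiv.ofBijective
    (Quotient.lift
      (Quotient.lift (placeOf q G₀) fun g₁ g₂ h => (placeOf_eq_iff q G₀ hG g₁ g₂).2 ⟨1, by
        have := inv_mem (QuotientGroup.leftRel_apply.1 h)
        simpa using this⟩)
      (fun x y hxy => by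
        induction x using QuotientGroup.induction_on with
        | H g₁ =>
          induction y using QuotientGroup.induction_on with
          | H g₂ =>
            obtain ⟨⟨_, τ, rfl⟩, hτ⟩ := hxy
            exact ((placeOf_eq_iff q G₀ hG g₂ g₁).2 ⟨τ, by
              simpa [mul_assoc] using inv_mem (QuotientGroup.eq.1 hτ)⟩).symm))
    ⟨fun x y => by
      induction x using Quotient.inductionOn with
      | h x => induction y using Quotient.inductionOn with
        | h y =>
          induction x using QuotientGroup.induction_on with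
          | H g₁ =>
            induction y using QuotientGroup.induction_on with
            | H g₂ =>
              intro h
              obtain ⟨τ, hτ⟩ := (placeOf_eq_iff q G₀ hG g₁ g₂).1 h
              symm
              refine Quotient.sound ⟨⟨loc q τ, τ, rfl⟩, ?_⟩
              show ((loc q τ * g₁ : GQ) : GQ ⧸ G₀) = (g₂ : GQ ⧸ G₀)
              rw [QuotientGroup.eq]
              simpa [mul_assoc] using inv_mem hτ,
    fun v => by
      obtain ⟨A, hA, rfl⟩ := exists_placeSpec_eq v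
      obtain ⟨g, rfl⟩ := FLTA.Galois.exists_smul_eq q.2 (primeLocalPlace_liesOverPrime q) hA
      refine ⟨Quotient.mk _ ((g⁻¹ : GQ) : GQ ⧸ G₀), ?_⟩
      apply Subtype.ext; apply HeightOneSpectrum.ext
      show FLTA.Galois.placeIdeal ((g⁻¹)⁻¹ • primeLocalPlace q) (fixedK G₀) =
        FLTA.Galois.placeIdeal (g • primeLocalPlace q) (fixedK G₀)
      rw [inv_inv]⟩

theorem numPlaces_eq_card (S : Finset Nat.Primes) (G₀ : Subgroup GQ) [NumberField (fixedK G₀)]
    (hG : IsOpenLvl lvlQ G₀) :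
    numPlaces S G₀ = ∑ q ∈ S, Nat.card (PrimesOver (fixedK G₀) q) :=
  Finset.sum_congr rfl fun q _ => Nat.card_congr (placesEquiv q G₀ hG)

end FLTA.PT

end
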