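import Fermat.Agent.PoitouTate.Functorial
import Fermat.Prelude.Def_GroupCohomology_ContinuousUnramified

/-!
# The arithmetic setup: levels of `G_ℚ`, `G_S` and the local groups
-/

set_option autoImplicit false

open ExtCitation

noncomputable section

namespace FLTA.PT

/-- `AlgebraicClosure ℚ`. -/
abbrev Qb : Type := AlgebraicClosure ℚ

/-- The absolute Galois group of `ℚ`. -/
abbrev GQ : Type := Qb ≃ₐ[ℚ] Qb

/-- The local Galois group at `q`. -/
abbrev Gl (q : Nat.Primes) : Type := primeLocalGaloisGroup q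

/-- The decomposition map at `q`. -/
abbrev loc (q : Nat.Primes) : Gl q →* GQ := primeLocalToGlobal q

theorem finiteIndex_fixingSubgroup (F : IntermediateField ℚ Qb) [FiniteDimensional ℚ F] :
    F.fixingSubgroup.FiniteIndex :=
  ⟨by
    haveI : IsAlgClosure ℚ Qb := ⟨inferInstance, AlgebraicClosure.isAlgebraic ℚ⟩
    haveI : IsGalois ℚ Qb := IsAlgClosure.isGalois ℚ Qb
    rw [← IntermediateField.finrank_eq_fixingSubgroup_index]
    exact Module.finrank_pos.ne'⟩

/-- All levels: normal subgroups containing an absolute Galois group of a number field. -/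
def lvlQ : Lvl GQ where
  sets := {U | U.Normal ∧ ∃ F : IntermediateField ℚ Qb, FiniteDimensional ℚ F ∧
    F.fixingSubgroup ≤ U}
  normal_of_mem _ h := h.1
  finiteIndex_of_mem := by
    rintro U ⟨-, F, hF, h⟩
    have := finiteIndex_fixingSubgroup F
    exact Subgroup.finiteIndex_of_le h
  top_mem := ⟨inferInstance, ⊥, inferInstance, le_top⟩
  inf_mem := by
    rintro U ⟨hU, F, hF, h⟩ V ⟨hV, F', hF', h'⟩
    refine ⟨inferInstance, F ⊔ F', IntermediateField.finiteDimensional_sup F F', ?_⟩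
    rw [IntermediateField.fixingSubgroup_sup]
    exact inf_le_inf h h'

/-- The levels unramified outside `S`. -/
def lvlS (S : Finset Nat.Primes) : Lvl GQ where
  sets := {U | U.Normal ∧ ∃ F : IntermediateField ℚ Qb, F.IsUnramifiedOutside S ∧
    F.fixingSubgroup ≤ U}
  normal_of_mem _ h := h.1
  finiteIndex_of_mem := by
    rintro U ⟨-, F, hF, h⟩
    haveI := hF.1
    have := finiteIndex_fixingSubgroup F
    exact Subgroup.finiteIndex_of_le h
  top_mem := ⟨inferInstance, ⊥, IntermediateField.isUnramifiedOutside_bot S, le_top⟩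
  inf_mem := by
    rintro U ⟨hU, F, hF, h⟩ V ⟨hV, F', hF', h'⟩
    refine ⟨inferInstance, F ⊔ F', hF.sup hF', ?_⟩
    rw [IntermediateField.fixingSubgroup_sup]
    exact inf_le_inf h h'

/-- The levels of the local group. -/
def lvlLoc (q : Nat.Primes) : Lvl (Gl q) := lvlQ.comap (loc q)

theorem lvlS_le_lvlQ (S : Finset Nat.Primes) : LvlLE (lvlS S) lvlQ (MonoidHom.id GQ) := by
  rintro U ⟨hU, F, hF, h⟩
  rw [Subgroup.comap_id]
  exact ⟨hU, F, hF.1, h⟩

theorem lvlQ_le_lvlLoc (q : Nat.Primes) : LvlLE lvlQ (lvlLoc q) (loc q) :=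
  lvlLE_comap lvlQ (loc q)

theorem lvlS_le_lvlLoc (S : Finset Nat.Primes) (q : Nat.Primes) :
    LvlLE (lvlS S) (lvlLoc q) (loc q) := by
  rintro U ⟨hU, F, hF, h⟩
  exact ⟨U, ⟨hU, F, hF.1, h⟩, rfl⟩

variable {k : Type} [CommRing k] {V : Type} [AddCommGroup V] [Module k V]
  (S : Finset Nat.Primes) (ρ : Representation k GQ V)

/-- Localisation in degree 1. -/
def locH1 (q : Nat.Primes) : H1c (lvlS S) ρ →ₗ[k] H1c (lvlLoc q) (ρ.comp (loc q)) :=
  map1 (σ := ρ.comp (loc q)) (φ := LinearMap.id) (lvlS_le_lvlLoc S q) (fun _ _ => rfl)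

/-- Localisation in degree 2. -/
def locH2 (q : Nat.Primes) : H2c (lvlS S) ρ →ₗ[k] H2c (lvlLoc q) (ρ.comp (loc q)) :=
  map2 (σ := ρ.comp (loc q)) (φ := LinearMap.id) (lvlS_le_lvlLoc S q) (fun _ _ => rfl)

variable (p : ℕ) [Fact p.Prime]

/-- `μ_p` as a representation on `ZMod p`. -/
abbrev muRep : Representation (ZMod p) GQ (ZMod p) := charRep (cycloChar p)

/-- `μ_p` restricted to the local group. -/
abbrev muLoc (q : Nat.Primes) : Representation (ZMod p) (Gl q) (ZMod p) :=
  charRep ((cycloChar p).comp (loc q))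

end FLTA.PT

end
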