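import Fermat.Agent.PoitouTate.MuEmb
import Fermat.Agent.PoitouTate.NormBasics

/-!
# Characters with values in `ℤ/p^m`, nested subgroups, norms as sums over powers
-/

set_option autoImplicit false

noncomputable section

namespace FLTA.PT.Sum

set_option linter.unusedSectionVars false

section nested

variable {k : Type*} [CommRing k] {Γ : Type*} [Group Γ] {L : Lvl Γ}
variable {V : Type*} [AddCommGroup V] [Module k V] {ρ : Representation k Γ V}

/-- The inclusion into a subgroup of a subgroup. -/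
def toSubgroupOf {K H : Subgroup Γ} (h : K ≤ H) : K →* K.subgroupOf H :=
  (Subgroup.subgroupOfEquivOfLe h).symm.toMonoidHom

/-- A class on `K ≤ H` computed inside `H`. -/
theorem mem_B2_of_subgroupOf {K H : Subgroup Γ} (h : K ≤ H) {z : H × H → V}
    (hz : pp2 (K.subgroupOf H).subtype (LinearMap.id : V →ₗ[k] V) z ∈
      B2 ((L.comap H.subtype).comap (K.subgroupOf H).subtype)
        ((ρ.comp H.subtype).comp (K.subgroupOf H).subtype)) :
    pp2 (Subgroup.inclusion h) (LinearMap.id : V →ₗ[k] V) z ∈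
      B2 (L.comap K.subtype) (ρ.comp K.subtype) := by
  refine pp2_mem_B2 (σ := ρ.comp K.subtype) (f := toSubgroupOf h) (φ := LinearMap.id) ?_ ?_ hz
  · rintro _ ⟨_, ⟨U, hU, rfl⟩, rfl⟩
    exact ⟨U, hU, rfl⟩
  · intro g v; rfl

end nested

section scaled

variable {Γ : Type*} [Group Γ] {p : ℕ} [hp : Fact p.Prime] {m : ℕ}

/-- A character to `ℤ/p^m` is a multiple of a surjective one. -/
theorem exists_scaled (χ : Γ →* Multiplicative (ZMod (p ^ m))) :
    ∃ j, j ≤ m ∧ ∃ χ' : Γ →* Multiplicative (ZMod (p ^ j)), Function.Surjective χ' ∧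
      χ'.ker = χ.ker ∧
      ∀ g, ((χ g).toAdd).val = p ^ (m - j) * ((χ' g).toAdd).val := by
  classical
  have hp' : p.Prime := hp.out
  haveI : ∀ n, NeZero (p ^ n) := fun n => ⟨(pow_pos hp'.pos n).ne'⟩
  obtain ⟨j, hjm, hj⟩ : ∃ j, j ≤ m ∧ Nat.card χ.range = p ^ j :=
    (Nat.dvd_prime_pow hp').1 (by
      have h := Subgroup.card_subgroup_dvd_card χ.range
      rwa [Nat.card_congr Multiplicative.toAdd, Nat.card_zmod] at h)
  -- the image consists of multiples of `p ^ (m - j)`
  have hdiv : ∀ g, p ^ (m - j) ∣ ((χ g).toAdd).val := fun g => by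
    have h1 := pow_card_eq_one' (G := χ.range) (x := ⟨χ g, g, rfl⟩)
    rw [hj] at h1
    have h2 : p ^ j • (χ g).toAdd = 0 := congrArg (fun x => Multiplicative.toAdd (x : χ.range).1) h1
    rw [← ZMod.natCast_zmod_val (χ g).toAdd, nsmul_eq_mul, ← Nat.cast_mul,
      ZMod.natCast_eq_zero_iff] at h2
    refine Nat.dvd_of_mul_dvd_mul_left (pow_pos hp'.pos j) ?_
    rwa [← pow_add, Nat.add_sub_cancel' hjm]
  let f : Γ → Multiplicative (ZMod (p ^ j)) := fun g =>
    Multiplicative.ofAdd (((χ g).toAdd.val / p ^ (m - j) : ℕ) : ZMod (p ^ j))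
  have hval : ∀ g, ((χ g).toAdd).val = p ^ (m - j) * ((f g).toAdd).val := fun g => by
    simp only [f, toAdd_ofAdd]
    rw [ZMod.val_cast_of_lt, Nat.mul_div_cancel' (hdiv g)]
    rw [Nat.div_lt_iff_lt_mul (pow_pos hp'.pos _), ← pow_add, Nat.add_sub_cancel' hjm]
    exact ZMod.val_lt _
  have hmul : ∀ g h, f (g * h) = f g * f h := fun g h => by
    apply Multiplicative.toAdd.injective
    apply ZMod.val_injective
    apply Nat.eq_of_mul_eq_mul_left (pow_pos hp'.pos (m - j))
    rw [← hval, map_mul, toAdd_mul, toAdd_mul, ZMod.val_add, ZMod.val_add, hval g, hval h,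
      ← Nat.mul_add, ← Nat.mul_mod_mul_left, ← pow_add, Nat.sub_add_cancel hjm]
  refine ⟨j, hjm, MonoidHom.mk' f hmul, ?_, ?_, fun g => hval g⟩
  · have hker : (MonoidHom.mk' f hmul).ker = χ.ker := by
      ext g
      rw [MonoidHom.mem_ker, MonoidHom.mem_ker, MonoidHom.mk'_apply]
      constructor
      · intro h
        apply Multiplicative.toAdd.injective
        apply ZMod.val_injective
        rw [hval, h]; simp
      · intro h
        apply Multiplicative.toAdd.injective
        apply ZMod.val_injective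
        have := hval g
        rw [h] at this
        simpa [pow_ne_zero, hp'.ne_zero] using this
    rw [← MonoidHom.range_eq_top]
    apply Subgroup.eq_top_of_card_eq
    rw [← Subgroup.index_ker, hker, Subgroup.index_ker, hj,
      Nat.card_congr Multiplicative.toAdd, Nat.card_zmod]
  · ext g
    rw [MonoidHom.mem_ker, MonoidHom.mem_ker, MonoidHom.mk'_apply]
    constructor
    · intro h
      apply Multiplicative.toAdd.injective
      apply ZMod.val_injective
      rw [hval, h]; simp
    · intro h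
      apply Multiplicative.toAdd.injective
      apply ZMod.val_injective
      have := hval g
      rw [h] at this
      simpa [pow_ne_zero, hp'.ne_zero] using this

/-- Carry cocycles do not change under scaling. -/
theorem carry_scaled {V : Type*} [AddCommGroup V] (χ : Γ →* Multiplicative (ZMod (p ^ m))) {j : ℕ}
    (hj : j ≤ m) (χ' : Γ →* Multiplicative (ZMod (p ^ j)))
    (h : ∀ g, ((χ g).toAdd).val = p ^ (m - j) * ((χ' g).toAdd).val) (a : V) :
    carry χ a = carry χ' a := by
  funext ⟨g, g'⟩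
  rw [carry_apply, carry_apply, h, h, ← Nat.mul_add]
  congr 1
  conv_lhs => rw [show m = m - j + j by omega, pow_add]
  rw [show m - j + j - j = m - j by omega, Nat.mul_div_mul_left _ _ (pow_pos hp.out.pos _)]

end scaled

section carryLinear

variable {Γ : Type*} [Group Γ] {n : ℕ} {V W : Type*} [AddCommGroup V] [AddCommGroup W]
  (χ : Γ →* Multiplicative (ZMod n))

theorem carry_add (a b : V) : carry χ (a + b) = carry χ a + carry χ b := by
  funext g; simp [carry]

theorem carry_sub (a b : V) : carry χ (a - b) = carry χ a - carry χ b := by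
  funext g; simp [carry, smul_sub]

theorem carry_map (φ : V →+ W) (a : V) : (fun g => φ (carry χ a g)) = carry χ (φ a) := by
  funext g; simp [carry]

theorem carry_comp {Γ' : Type*} [Group Γ'] (f : Γ' →* Γ) (a : V) :
    carry (χ.comp f) a = fun g => carry χ a (f g.1, f g.2) := rfl

end carryLinear

section norms

variable {Γ : Type*} [Group Γ] {k : Type*} [CommRing k] {V : Type*} [AddCommGroup V] [Module k V]
  (ρ : Representation k Γ V) {n : ℕ} [NeZero n] (χ : Γ →* Multiplicative (ZMod n))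

theorem relNorm_ker_eq_sum {σ : Γ} (hσ : χ σ = Multiplicative.ofAdd 1) {b : V}
    (hb : b ∈ fixedBy ρ χ.ker) :
    relNorm ρ χ.ker ⊤ b = ∑ i ∈ Finset.range n, ρ (σ ^ i) b := by
  rw [← Fin.sum_univ_eq_sum_range (fun i => ρ (σ ^ i) b) n]
  refine NT.relNorm_eq_sum ρ (fun i : Fin n => (⟨σ ^ (i : ℕ), trivial⟩ : (⊤ : Subgroup Γ)))
    ⟨fun i i' h => ?_, fun x => ?_⟩ hb
  · simp only [QuotientGroup.eq, Subgroup.mem_subgroupOf] at h
    rw [MonoidHom.mem_ker] at h
    simp only [Subgroup.coe_mul, Subgroup.coe_inv, map_mul, map_inv, inv_mul_eq_one] at h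
    have h' := congrArg Multiplicative.toAdd h
    rw [char_pow χ hσ, char_pow χ hσ] at h'
    have := congrArg ZMod.val h'
    rw [ZMod.val_cast_of_lt i.2, ZMod.val_cast_of_lt i'.2] at this
    exact Fin.ext this
  · obtain ⟨⟨g, hg⟩, rfl⟩ := Quotient.mk_surjective x
    refine ⟨⟨(χ g).toAdd.val, ZMod.val_lt _⟩, ?_⟩
    obtain ⟨t, ht, he⟩ := exists_pow_mul_ker χ hσ g
    refine QuotientGroup.eq.2 ?_
    rw [Subgroup.mem_subgroupOf]
    have : (σ ^ (χ g).toAdd.val)⁻¹ * g ∈ χ.ker := by
      rw [show (σ ^ (χ g).toAdd.val)⁻¹ * g = t by rw [inv_mul_eq_iff_eq_mul]; exact he]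
      exact ht
    exact this

theorem mem_normsFrom_ker_iff {σ : Γ} (hσ : χ σ = Multiplicative.ofAdd 1) {a : V} :
    a ∈ normsFrom ρ χ.ker ⊤ ↔
      ∃ b ∈ fixedBy ρ χ.ker, a = ∑ i ∈ Finset.range n, ρ (σ ^ i) b := by
  constructor
  · rintro ⟨b, hb, rfl⟩
    exact ⟨b, hb, relNorm_ker_eq_sum ρ χ hσ hb⟩
  · rintro ⟨b, hb, rfl⟩
    exact ⟨b, hb, relNorm_ker_eq_sum ρ χ hσ hb⟩

end norms

end FLTA.PT.Sum

end
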