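import Fermat.Agent.PoitouTate.SumFormulaPadic
import Fermat.Agent.PoitouTate.SumFormulaGen
import Fermat.Agent.PoitouTate.LocalDuality
import Fermat.Agent.PoitouTate.LocalFields

/-!
# The local symbol of a cyclotomic layer and the local invariant it defines
-/

set_option autoImplicit false
set_option linter.style.haveILetI false

open ExtCitation

noncomputable section

namespace FLTA.PT.Sum

set_option linter.unusedSectionVars false

attribute [local instance] factPrime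

variable {p : ℕ} [Fact p.Prime] {m : ℕ} (π : Proj p m)

section symbol

/-- The symbol at `q ≠ p`. -/
def omegaNe (q : Nat.Primes) (hqp : q ≠ pPrime p) :
    Additive ℚ_[(q : ℕ)]ˣ →+ ZMod (p ^ m) :=
  (zmultiplesHom (ZMod (p ^ m)) (π.ψ (qUnit hqp (m + 1))).toAdd).comp (val q)

/-- The symbol at `p`. -/
def omegaP : Additive ℚ_[((pPrime p : Nat.Primes) : ℕ)]ˣ →+ ZMod (p ^ m) :=
  -(MonoidHom.toAdditiveLeft (π.ψ.comp (unitMod p (m + 1))))

/-- The local symbol. -/
def omega (q : Nat.Primes) : Additive ℚ_[(q : ℕ)]ˣ →+ ZMod (p ^ m) :=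
  if h : q = pPrime p then h ▸ omegaP π else omegaNe π q h

theorem omega_ne {q : Nat.Primes} (hqp : q ≠ pPrime p) (c : Additive ℚ_[(q : ℕ)]ˣ) :
    omega π q c = val q c • (π.ψ (qUnit hqp (m + 1))).toAdd := by
  rw [omega, dif_neg hqp]; rfl

theorem omega_p (c : Additive ℚ_[((pPrime p : Nat.Primes) : ℕ)]ˣ) :
    omega π (pPrime p) c = -(π.ψ (unitMod p (m + 1) (Additive.toMul c))).toAdd := by
  rw [omega, dif_pos rfl]; rfl

theorem carry_mem_B2_iff_norm (q : Nat.Primes) {j : ℕ}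
    (χ : Gl q →* Multiplicative (ZMod (p ^ j))) (hs : Function.Surjective χ)
    (hχ : IsOpenLvl (lvlLoc q) χ.ker) {a : Ml q} (ha : a ∈ fixedBy (unitsRepLoc q) ⊤) :
    carry χ a ∈ B2 (lvlLoc q) (unitsRepLoc q) ↔ a ∈ normsFrom (unitsRepLoc q) χ.ker ⊤ := by
  obtain ⟨σ, hσ⟩ := hs (Multiplicative.ofAdd 1)
  rw [carry_mem_B2_iff_exists_norm _ _ (smooth_unitsRepLoc q) χ hχ
    (h1Vanishes_unitsRepLoc q _ hχ) σ hσ ha, mem_normsFrom_ker_iff _ χ hσ]

theorem inertiaLoc_le_kerLoc {q : Nat.Primes} (hqp : q ≠ pPrime p) :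
    inertiaLoc q ≤ (π.chiLoc q).ker := fun s hs => by
  refine MonoidHom.mem_ker.2 (MonoidHom.mem_ker.1 (π.cycLvl_le_ker fun ζ hζ => ?_))
  exact FLTA.Galois.inertia_apply_rootOfUnity q.2 (primeLocalPlace_liesOverPrime q)
    (loc_inertiaLoc_le q s hs) (not_dvd_pow_of_ne hqp (m + 1)) hζ

theorem carry_emb_mem_B2_iff_ne {q : Nat.Primes} (hqp : q ≠ pPrime p)
    (c : Additive ℚ_[(q : ℕ)]ˣ) :
    carry (π.chiLoc q) (emb q c) ∈ B2 (lvlLoc q) (unitsRepLoc q) ↔
      val q c • (π.ψ (qUnit hqp (m + 1))).toAdd = 0 := by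
  obtain ⟨j, hjm, χ', hs, hker, hval⟩ := exists_scaled (π.chiLoc q)
  have hopen : IsOpenLvl (lvlLoc q) χ'.ker := hker ▸ π.isOpen_kerLoc q
  rw [carry_scaled _ hjm χ' hval, carry_mem_B2_iff_norm q χ' hs hopen (emb_mem_fixedBy q c ⊤)]
  have hidx : χ'.ker.relIndex ⊤ = p ^ j := by
    rw [Subgroup.relIndex_top_right, Subgroup.index_ker, MonoidHom.range_eq_top.2 hs,
      Nat.card_congr Subgroup.topEquiv.toEquiv, Nat.card_congr Multiplicative.toAdd, Nat.card_zmod]
  obtain ⟨τ, hτ⟩ := exists_loc_cycExp_eq_q hqp (m + 1)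
  have hrange : (π.chiLoc q).range = Subgroup.zpowers (π.ψ (qUnit hqp (m + 1))) := by
    refine le_antisymm ?_ (Subgroup.zpowers_le.2 ⟨τ, ?_⟩)
    · rintro _ ⟨g, rfl⟩
      obtain ⟨k, hk⟩ := exists_eq_qUnit_pow hqp (m + 1) g
      refine Subgroup.mem_zpowers_iff.2 ⟨k, ?_⟩
      rw [Proj.chiLoc, MonoidHom.comp_apply, π.chi_apply, hk, map_pow, zpow_natCast]
    · rw [Proj.chiLoc, MonoidHom.comp_apply, π.chi_apply, hτ]
  have hord : addOrderOf (π.ψ (qUnit hqp (m + 1))).toAdd = p ^ j := by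
    rw [← orderOf_ofAdd_eq_addOrderOf, ofAdd_toAdd, ← Nat.card_zpowers, ← hrange, ← Subgroup.index_ker, ← hker,
      ← Subgroup.relIndex_top_right, hidx]
  have hI : inertiaLoc q ⊓ ⊤ ≤ χ'.ker := by
    rw [hker]; exact inf_le_left.trans (inertiaLoc_le_kerLoc π hqp)
  rw [mem_normsFrom_iff_of_unramified q χ'.ker ⊤ hopen le_top hI _ (emb_mem_fixedBy q c ⊤), hidx,
    ← addOrderOf_dvd_iff_zsmul_eq_zero, hord]
  constructor
  · rintro ⟨b, hb, h⟩
    obtain ⟨c', rfl⟩ := exists_emb_eq q hb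
    exact ⟨val q c', (val_eq_mul_iff q _ c c').1 h⟩
  · rintro ⟨v, hv⟩
    obtain ⟨c', rfl⟩ := exists_val_eq q v
    exact ⟨emb q c', emb_mem_fixedBy q c' ⊤, (val_eq_mul_iff q _ c c').2 hv⟩

theorem surjective_chiLoc_p : Function.Surjective (π.chiLoc (pPrime p)) := fun x => by
  obtain ⟨e, rfl⟩ := π.surjective x
  obtain ⟨τ, hτ⟩ := exists_loc_cycExp_eq_p (m + 1) e
  exact ⟨τ, by rw [Proj.chiLoc, MonoidHom.comp_apply, π.chi_apply, hτ]⟩

/-- `p` as an element of `ℚˣ`. -/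
def pRat : Additive ℚˣ :=
  Additive.ofMul (Units.mk0 (p : ℚ) (Nat.cast_ne_zero.2 (Fact.out : p.Prime).ne_zero))

theorem emb_p_mem_norms :
    emb (pPrime p) (ratLoc (pPrime p) (pRat (p := p))) ∈
      normsFrom (unitsRepLoc (pPrime p)) (π.chiLoc (pPrime p)).ker ⊤ := by
  obtain ⟨b, hb, hsum⟩ := exists_norm_eq_p p π
  obtain ⟨σ, hσ⟩ := surjective_chiLoc_p π (Multiplicative.ofAdd 1)
  rw [mem_normsFrom_ker_iff _ _ hσ]
  refine ⟨iotaUnits _ b, fun s hs => ?_, ?_⟩
  · rw [← equivariant_iotaUnits, hb _ (MonoidHom.mem_ker.1 hs)]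
  · rw [← iotaUnits_ratQ, ← hsum (loc _ σ) hσ pRat rfl, map_sum]
    refine Finset.sum_congr rfl fun i _ => ?_
    rw [← map_pow, equivariant_iotaUnits]

theorem mem_of_coprime_nsmul {G : Type*} [AddCommGroup G] (N : Submodule ℤ G) {a b : ℕ}
    (hab : a.Coprime b) {x : G} (ha : a • x ∈ N) (hb : b • x ∈ N) : x ∈ N := by
  have h := Nat.gcd_eq_gcd_ab a b
  rw [hab.gcd_eq_one, Nat.cast_one] at h
  have e : x = Nat.gcdA a b • (a • x) + Nat.gcdB a b • (b • x) := by
    rw [← natCast_zsmul x a, ← natCast_zsmul x b, ← mul_zsmul', ← mul_zsmul', ← add_zsmul, ← h,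
      one_zsmul]
  rw [e]
  exact N.add_mem (N.smul_mem _ ha) (N.smul_mem _ hb)

theorem mem_norms_of_unit (hp : p ≠ 2) (u : Additive ℚ_[((pPrime p : Nat.Primes) : ℕ)]ˣ)
    (hv : val (pPrime p) u = 0) (hψ : π.ψ (unitMod p (m + 1) (Additive.toMul u)) = 1) :
    emb (pPrime p) u ∈ normsFrom (unitsRepLoc (pPrime p)) (π.chiLoc (pPrime p)).ker ⊤ := by
  have hp' : p.Prime := Fact.out
  set N := normsFrom (unitsRepLoc (pPrime p)) (π.chiLoc (pPrime p)).ker ⊤
  have hidx : (π.chiLoc (pPrime p)).ker.relIndex ⊤ = p ^ m := by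
    rw [Subgroup.relIndex_top_right, Subgroup.index_ker,
      MonoidHom.range_eq_top.2 (surjective_chiLoc_p π), Nat.card_congr Subgroup.topEquiv.toEquiv,
      Nat.card_congr Multiplicative.toAdd, Nat.card_zmod]
  have hmul : ∀ v, p ^ m • emb (pPrime p) v ∈ N := fun v => by
    rw [← hidx]
    exact NT.nsmul_mem_normsFrom _ le_top (by rw [hidx]; exact (pow_pos hp'.pos m).ne')
      (emb_mem_fixedBy _ v ⊤)
  -- the unit part is the element itself
  set a : ℤ_[p] := ((unitPart p (Additive.toMul u) : ℤ_[p]ˣ) : ℤ_[p])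
  have ha : (a : ℚ_[p]) = ((Additive.toMul u : ℚ_[p]ˣ) : ℚ_[p]) := by
    rw [coe_unitPart]
    have h0 : Padic.valuation ((Additive.toMul u : ℚ_[p]ˣ) : ℚ_[p]) = 0 := hv
    rw [h0, neg_zero, zpow_zero, one_mul]
  have hmod : PadicInt.toZModPow (m + 1) (a ^ (p - 1)) = 1 := by
    rw [map_pow]
    have := congrArg (fun e : (ZMod (p ^ (m + 1)))ˣ => (e : ZMod (p ^ (m + 1))))
      (π.pow_eq_one _ hψ)
    simpa [unitMod] using this
  obtain ⟨w, hw⟩ := exists_pow_eq p hp (a ^ (p - 1)) hmod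
  have hw0 : (w : ℚ_[p]) ≠ 0 := fun h => by
    have h1 : (w : ℚ_[p]) ^ p ^ m = (a : ℚ_[p]) ^ (p - 1) := by exact_mod_cast congrArg Subtype.val hw
    rw [h, zero_pow (pow_pos hp'.pos m).ne', ha] at h1
    exact pow_ne_zero _ (Units.ne_zero _) h1.symm
  obtain ⟨W, heq⟩ : ∃ W : Additive ℚ_[((pPrime p : Nat.Primes) : ℕ)]ˣ,
      (p - 1) • u = p ^ m • W := by
    refine ⟨Additive.ofMul (Units.mk0 (w : ℚ_[p]) hw0), ?_⟩
    apply Additive.toMul.injective
    apply Units.ext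
    show ((Additive.toMul u : ℚ_[p]ˣ) : ℚ_[p]) ^ (p - 1) = (w : ℚ_[p]) ^ p ^ m
    rw [← ha, ← PadicInt.coe_pow, ← PadicInt.coe_pow, hw]
  refine mem_of_coprime_nsmul N (a := p - 1) (b := p ^ m)
    (Nat.Coprime.pow_right m ((Nat.coprime_self_sub_left hp'.one_le).2 (Nat.coprime_one_left p)))
    ?_ (hmul u)
  rw [← map_nsmul, heq, map_nsmul]
  exact hmul W

theorem carry_emb_mem_B2_iff_p (hp : p ≠ 2)
    (c : Additive ℚ_[((pPrime p : Nat.Primes) : ℕ)]ˣ) :
    carry (π.chiLoc (pPrime p)) (emb (pPrime p) c) ∈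
        B2 (lvlLoc (pPrime p)) (unitsRepLoc (pPrime p)) ↔
      omegaP π c = 0 := by
  have hp' : p.Prime := Fact.out
  have hs := surjective_chiLoc_p π
  rw [carry_mem_B2_iff_norm (pPrime p) _ hs (π.isOpen_kerLoc (pPrime p)) (emb_mem_fixedBy (pPrime p) c ⊤)]
  let N := normsFrom (unitsRepLoc (pPrime p)) (π.chiLoc (pPrime p)).ker ⊤
  let K : AddSubgroup (Additive ℚ_[((pPrime p) : ℕ)]ˣ) := N.toAddSubgroup.comap (emb (pPrime p))
  have hPv : val (pPrime p) (ratLoc (pPrime p) (pRat (p := p))) = 1 := by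
    rw [val_ratLoc]
    exact padicValRat.self hp'.one_lt
  have hPω : omegaP π (ratLoc (pPrime p) (pRat (p := p))) = 0 := by
    show -(π.ψ (unitMod p (m + 1) (Additive.toMul (ratLoc (pPrime p) pRat)))).toAdd = 0
    rw [unitMod_prime p _ (by simp [ratLoc, pRat]; rfl), map_one, toAdd_one, neg_zero]
  have hle : (omegaP π).ker ≤ K := fun c hc => by
    set P := ratLoc (pPrime p) (pRat (p := p))
    set u := c - val (pPrime p) c • P with hu
    have hvu : val (pPrime p) u = 0 := by rw [hu, map_sub, map_zsmul, hPv, smul_eq_mul, mul_one, sub_self]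
    have hωu : omegaP π u = 0 := by
      rw [hu, map_sub, map_zsmul, hPω, smul_zero, sub_zero]; exact hc
    have hψ : π.ψ (unitMod p (m + 1) (Additive.toMul u)) = 1 :=
      Multiplicative.toAdd.injective (neg_eq_zero.1 hωu)
    have h2 := mem_norms_of_unit π hp u hvu hψ
    show emb (pPrime p) c ∈ N
    rw [show c = val (pPrime p) c • P + u by rw [hu]; abel, map_add, map_zsmul]
    exact N.add_mem (N.smul_mem _ (emb_p_mem_norms π)) h2
  have hωs : Function.Surjective (omegaP π) := fun x => by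
    obtain ⟨e, he⟩ := π.surjective (Multiplicative.ofAdd (-x))
    have hcop := ZMod.val_coe_unit_coprime e
    have hnd : ¬ p ∣ (e : ZMod (p ^ (m + 1))).val := fun h =>
      hp'.one_lt.ne' (Nat.eq_one_of_dvd_coprimes hcop h (dvd_pow_self p (Nat.succ_ne_zero m)))
    have hne : (((e : ZMod (p ^ (m + 1))).val : ℕ) : ℚ_[p]) ≠ 0 :=
      Nat.cast_ne_zero.2 fun h => hnd (h ▸ dvd_zero p)
    refine ⟨Additive.ofMul (Units.mk0 _ hne), ?_⟩
    show -(π.ψ (unitMod p (m + 1) (Units.mk0 _ hne))).toAdd = x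
    rw [unitMod_natCast p hcop hnd (Units.mk0 _ hne) rfl,
      show ZMod.unitOfCoprime _ hcop = e from Units.ext (by simp), he, toAdd_ofAdd, neg_neg]
  have hω : (omegaP π).ker.index = p ^ m := by
    rw [AddSubgroup.index_ker, AddMonoidHom.range_eq_top.2 hωs,
      Nat.card_congr AddSubgroup.topEquiv.toEquiv, Nat.card_zmod]
  haveI : IsCyclic ((⊤ : Subgroup (Gl (pPrime p))) ⧸ (π.chiLoc (pPrime p)).ker.subgroupOf ⊤) := by
    let f := (π.chiLoc (pPrime p)).comp (⊤ : Subgroup (Gl (pPrime p))).subtype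
    have e : f.ker = (π.chiLoc (pPrime p)).ker.subgroupOf ⊤ := rfl
    exact isCyclic_of_injective (QuotientGroup.lift ((π.chiLoc (pPrime p)).ker.subgroupOf ⊤) f e.ge)
      ((injective_iff_map_eq_one _).2 fun x hx => by
        induction x using QuotientGroup.induction_on with
        | H g =>
          rw [QuotientGroup.lift_mk] at hx
          exact (QuotientGroup.eq_one_iff g).2 hx)
  have hK : K.index = p ^ m := by
    rw [AddSubgroup.index_comap, show (emb (pPrime p)).range = (fixedBy (unitsRepLoc (pPrime p)) ⊤).toAddSubgroup from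
      AddSubgroup.ext fun a => ⟨by rintro ⟨c, rfl⟩; exact emb_mem_fixedBy (pPrime p) c ⊤,
        fun ha => exists_emb_eq (pPrime p) ha⟩,
      relIndex_normsFrom (pPrime p) _ ⊤ (π.isOpen_kerLoc (pPrime p)) le_top, Subgroup.relIndex_top_right,
      Subgroup.index_ker, MonoidHom.range_eq_top.2 hs, Nat.card_congr Subgroup.topEquiv.toEquiv,
      Nat.card_congr Multiplicative.toAdd, Nat.card_zmod]
  have hKle : K ≤ (omegaP π).ker := by
    have h := AddSubgroup.relIndex_mul_index hle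
    rw [hK, hω] at h
    exact AddSubgroup.relIndex_eq_one.1 (Nat.eq_of_mul_eq_mul_right (pow_pos hp'.pos m)
      (h.trans (one_mul _).symm))
  exact ⟨fun h => hKle (show c ∈ K from h), fun h => hle h⟩

/-- The symbol detects the vanishing of the carry class. -/
theorem carry_emb_mem_B2_iff (hp : p ≠ 2) (q : Nat.Primes) (c : Additive ℚ_[(q : ℕ)]ˣ) :
    carry (π.chiLoc q) (emb q c) ∈ B2 (lvlLoc q) (unitsRepLoc q) ↔ omega π q c = 0 := by
  by_cases h : q = pPrime p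
  · subst h
    rw [omega, dif_pos rfl]
    exact carry_emb_mem_B2_iff_p π hp c
  · rw [omega_ne π h]
    exact carry_emb_mem_B2_iff_ne π h c

end symbol

section classes

theorem mem_B2_of_muL_top (q : Nat.Primes) {z : Gl q × Gl q → ZMod p}
    (hz : (fun g => muL p q (z g)) ∈ B2 (lvlLoc q) (unitsRepLoc q)) :
    z ∈ B2 (lvlLoc q) (muLoc p q) :=
  mem_B2_of_push (φ := muL p q) (fun g v => muL_equivariant p q g v) (muL_injective p q)
    (nsmul_muL p q) (exists_muL_eq p q) (exists_nsmul_eq_Ml p q) (smooth_unitsRepLoc q)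
    (h1Vanishes_top_iff (h1Vanishes_unitsRepLoc q ⊤ ⟨⊤, (lvlLoc q).top_mem, le_rfl⟩)) hz

theorem exists_carry_local (hp : p ≠ 2) (q : Nat.Primes) (hne : ∃ τ : Gl q, π.chiLoc q τ ≠ 1)
    (x : Z2 (lvlLoc q) (muLoc p q)) :
    ∃ c, (fun g => muL p q ((x : Gl q × Gl q → ZMod p) g)) - carry (π.chiLoc q) (emb q c) ∈
      B2 (lvlLoc q) (unitsRepLoc q) := by
  have hp' : p.Prime := Fact.out
  obtain ⟨j, hjm, χ', hs, hker, hval⟩ := exists_scaled (π.chiLoc q)
  have hopen : IsOpenLvl (lvlLoc q) χ'.ker := hker ▸ π.isOpen_kerLoc q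
  have hidx : χ'.ker.relIndex ⊤ = p ^ j := by
    rw [Subgroup.relIndex_top_right, Subgroup.index_ker, MonoidHom.range_eq_top.2 hs,
      Nat.card_congr Subgroup.topEquiv.toEquiv, Nat.card_congr Multiplicative.toAdd, Nat.card_zmod]
  have hj : j ≠ 0 := by
    rintro rfl
    obtain ⟨τ, hτ⟩ := hne
    haveI : Subsingleton (ZMod (p ^ 0)) := by rw [pow_zero]; infer_instance
    have h1 : τ ∈ χ'.ker := Multiplicative.toAdd.injective (Subsingleton.elim _ _)
    rw [hker] at h1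
    exact hτ h1
  -- the class dies on the kernel
  have hle : χ'.ker ≤ (⊤ : Subgroup (Gl q)) := le_top
  have hx' : pp2 (⊤ : Subgroup (Gl q)).subtype (LinearMap.id : ZMod p →ₗ[ZMod p] ZMod p)
      (x : Gl q × Gl q → ZMod p) ∈ Z2 ((lvlLoc q).comap (⊤ : Subgroup (Gl q)).subtype)
        ((muLoc p q).comp (⊤ : Subgroup (Gl q)).subtype) :=
    pp2_mem_Z2 (lvlLE_comap _ _) (fun _ _ => rfl) x.2
  have h0 := res2_muLoc_eq_zero p q hp χ'.ker ⊤ hopen hle (by rw [hidx]; exact dvd_pow_self p hj)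
    (H2cπ ((lvlLoc q).comap (⊤ : Subgroup (Gl q)).subtype)
      ((muLoc p q).comp (⊤ : Subgroup (Gl q)).subtype) ⟨_, hx'⟩)
  have h0' := (H2cπ_eq_zero (((lvlLoc q).comap (⊤ : Subgroup (Gl q)).subtype).comap
      (χ'.ker.subgroupOf ⊤).subtype)
    (((muLoc p q).comp (⊤ : Subgroup (Gl q)).subtype).comp (χ'.ker.subgroupOf ⊤).subtype)
    (f := ⟨_, pp2_mem_Z2 (σ := ((muLoc p q).comp (⊤ : Subgroup (Gl q)).subtype).comp
      (χ'.ker.subgroupOf ⊤).subtype) (φ := LinearMap.id) (lvlLE_comap _ _) (fun _ _ => rfl) hx'⟩)).1 h0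
  have h1 : pp2 χ'.ker.subtype (LinearMap.id : ZMod p →ₗ[ZMod p] ZMod p)
      (x : Gl q × Gl q → ZMod p) ∈
      B2 ((lvlLoc q).comap χ'.ker.subtype) ((muLoc p q).comp χ'.ker.subtype) :=
    mem_B2_of_subgroupOf (L := lvlLoc q) (ρ := muLoc p q) hle h0'
  have hy : (fun g => muL p q ((x : Gl q × Gl q → ZMod p) g)) ∈ Z2 (lvlLoc q) (unitsRepLoc q) :=
    push_mem_Z2 (fun g v => muL_equivariant p q g v) x.2
  have h2 := push_mem_B2 (L := (lvlLoc q).comap χ'.ker.subtype)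
    (ρ := (muLoc p q).comp χ'.ker.subtype)
    (σ := (unitsRepLoc q).comp χ'.ker.subtype) (φ := muL p q)
    (fun g v => muL_equivariant p q g v) h1
  have e2 : (fun g => muL p q (pp2 χ'.ker.subtype (LinearMap.id : ZMod p →ₗ[ZMod p] ZMod p)
      (x : Gl q × Gl q → ZMod p) g)) =
      pp2 χ'.ker.subtype (LinearMap.id : Ml q →ₗ[ℤ] Ml q)
        (fun g => muL p q ((x : Gl q × Gl q → ZMod p) g)) := by
    funext ⟨g, g'⟩; simp only [pp2_apply, LinearMap.id_apply]
  rw [e2] at h2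
  obtain ⟨a, ha, h⟩ := exists_carry_of_res_mem_B2 (lvlLoc q) (unitsRepLoc q)
    (smooth_unitsRepLoc q) χ' hs hopen (h1Vanishes_unitsRepLoc q _ hopen)
    (⟨fun g => muL p q ((x : Gl q × Gl q → ZMod p) g), hy⟩ : Z2 (lvlLoc q) (unitsRepLoc q)) h2
  obtain ⟨c, rfl⟩ := exists_emb_eq q ha
  exact ⟨c, by rw [carry_scaled _ hjm χ' hval]; exact h⟩

theorem omega_eq_of_carry (hp : p ≠ 2) (q : Nat.Primes) {f : Gl q × Gl q → Ml q}
    {c c' : Additive ℚ_[(q : ℕ)]ˣ}
    (h : f - carry (π.chiLoc q) (emb q c) ∈ B2 (lvlLoc q) (unitsRepLoc q))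
    (h' : f - carry (π.chiLoc q) (emb q c') ∈ B2 (lvlLoc q) (unitsRepLoc q)) :
    omega π q c = omega π q c' := by
  have h2 := (B2 (lvlLoc q) (unitsRepLoc q)).sub_mem h' h
  rw [sub_sub_sub_cancel_left, ← carry_sub, ← map_sub, carry_emb_mem_B2_iff π hp, map_sub,
    sub_eq_zero] at h2
  exact h2

/-- Multiplication by `p ^ (m - 1)`. -/
def incl (p m : ℕ) (hm : 1 ≤ m) : ZMod p →+ ZMod (p ^ m) :=
  ZMod.lift p ⟨zmultiplesHom (ZMod (p ^ m)) ((p ^ (m - 1) : ℕ) : ZMod (p ^ m)), by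
    rw [zmultiplesHom_apply, natCast_zsmul, nsmul_eq_mul, ← Nat.cast_mul, ← pow_succ',
      Nat.sub_add_cancel hm, ZMod.natCast_self]⟩

theorem incl_natCast (hm : 1 ≤ m) (a : ℕ) :
    incl p m hm (a : ZMod p) = ((a * p ^ (m - 1) : ℕ) : ZMod (p ^ m)) := by
  rw [incl, show (a : ZMod p) = ((a : ℤ) : ZMod p) by simp, ZMod.lift_coe]
  simp

theorem incl_injective (hm : 1 ≤ m) : Function.Injective (incl p m hm) := by
  have hp' : p.Prime := Fact.out
  haveI : NeZero p := ⟨hp'.ne_zero⟩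
  rw [injective_iff_map_eq_zero]
  intro a ha
  rw [← ZMod.natCast_zmod_val a, incl_natCast, ZMod.natCast_eq_zero_iff] at ha
  nth_rewrite 1 [show m = 1 + (m - 1) by omega] at ha
  rw [pow_add, pow_one] at ha
  rw [← ZMod.natCast_zmod_val a, ZMod.natCast_eq_zero_iff]
  exact Nat.dvd_of_mul_dvd_mul_right (pow_pos hp'.pos _) ha

theorem exists_incl_eq (hm : 1 ≤ m) {t : ZMod (p ^ m)} (ht : p • t = 0) :
    ∃ a, incl p m hm a = t := by
  have hp' : p.Prime := Fact.out
  rw [← ZMod.natCast_zmod_val t, nsmul_eq_mul, ← Nat.cast_mul, ZMod.natCast_eq_zero_iff] at ht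
  nth_rewrite 1 [show m = (m - 1) + 1 by omega] at ht
  rw [pow_succ'] at ht
  obtain ⟨a, ha⟩ := Nat.dvd_of_mul_dvd_mul_left hp'.pos ht
  refine ⟨(a : ZMod p), ?_⟩
  rw [incl_natCast, mul_comm, ← ha, ZMod.natCast_zmod_val]

/-- The invariant of a local class read off from a cyclotomic layer. -/
theorem exists_invariant (hp : p ≠ 2) (hm : 1 ≤ m) (q : Nat.Primes)
    (hne : ∃ τ : Gl q, π.chiLoc q τ ≠ 1) :
    ∃ inv : H2c (lvlLoc q) (muLoc p q) →ₗ[ZMod p] ZMod p, Function.Bijective inv ∧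
      ∀ (x : Z2 (lvlLoc q) (muLoc p q)) (c : Additive ℚ_[(q : ℕ)]ˣ),
        (fun g => muL p q ((x : Gl q × Gl q → ZMod p) g)) - carry (π.chiLoc q) (emb q c) ∈
          B2 (lvlLoc q) (unitsRepLoc q) →
        incl p m hm (inv (H2cπ (lvlLoc q) (muLoc p q) x)) = omega π q c := by
  have hex : ∀ x : Z2 (lvlLoc q) (muLoc p q), ∃ a : ZMod p, ∀ c,
      (fun g => muL p q ((x : Gl q × Gl q → ZMod p) g)) - carry (π.chiLoc q) (emb q c) ∈
          B2 (lvlLoc q) (unitsRepLoc q) → incl p m hm a = omega π q c := fun x => by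
    obtain ⟨c, hc⟩ := exists_carry_local π hp q hne x
    have htor : p • omega π q c = 0 := by
      have h := (B2 (lvlLoc q) (unitsRepLoc q)).smul_mem (p : ℤ) hc
      rw [← map_nsmul, ← carry_emb_mem_B2_iff π hp, map_nsmul]
      have e : carry (π.chiLoc q) (p • emb q c) =
          -((p : ℤ) • ((fun g => muL p q ((x : Gl q × Gl q → ZMod p) g)) -
            carry (π.chiLoc q) (emb q c))) := by
        funext g
        simp only [Pi.neg_apply, Pi.smul_apply, Pi.sub_apply, carry]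
        rw [natCast_zsmul, nsmul_sub, nsmul_muL, zero_sub, neg_neg]
        exact smul_comm _ p _
      rw [e]
      exact (B2 (lvlLoc q) (unitsRepLoc q)).neg_mem h
    obtain ⟨a, ha⟩ := exists_incl_eq hm htor
    exact ⟨a, fun c' hc' => ha.trans (omega_eq_of_carry π hp q hc hc')⟩
  choose g hg using hex
  let G : Z2 (lvlLoc q) (muLoc p q) →+ ZMod p := AddMonoidHom.mk' g fun x y => by
    obtain ⟨c, hc⟩ := exists_carry_local π hp q hne x
    obtain ⟨c', hc'⟩ := exists_carry_local π hp q hne y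
    apply incl_injective hm
    rw [map_add, hg x c hc, hg y c' hc', ← map_add]
    refine hg (x + y) (c + c') ?_
    have e : (fun g => muL p q (((x + y : Z2 (lvlLoc q) (muLoc p q)) : Gl q × Gl q → ZMod p) g)) -
        carry (π.chiLoc q) (emb q (c + c')) =
        ((fun g => muL p q ((x : Gl q × Gl q → ZMod p) g)) - carry (π.chiLoc q) (emb q c)) +
        ((fun g => muL p q ((y : Gl q × Gl q → ZMod p) g)) - carry (π.chiLoc q) (emb q c')) := by
      rw [map_add, carry_add]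
      funext g
      simp only [Submodule.coe_add, Pi.add_apply, Pi.sub_apply, map_add]
      abel
    rw [e]
    exact (B2 (lvlLoc q) (unitsRepLoc q)).add_mem hc hc'
  have hB : (B2 (lvlLoc q) (muLoc p q)).comap (Z2 (lvlLoc q) (muLoc p q)).subtype ≤
      LinearMap.ker (G.toZModLinearMap p) := fun x hx => by
    apply incl_injective hm
    rw [map_zero]
    refine (hg x 0 ?_).trans (map_zero _)
    have e : carry (π.chiLoc q) (emb q 0) = 0 := by
      funext g; simp [carry]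
    rw [e, sub_zero]
    exact push_mem_B2 (fun g v => muL_equivariant p q g v) hx
  let inv := Submodule.liftQ _ (G.toZModLinearMap p) hB
  have hinv : ∀ (x : Z2 (lvlLoc q) (muLoc p q)) c, (fun g => muL p q ((x : Gl q × Gl q → ZMod p) g)) -
      carry (π.chiLoc q) (emb q c) ∈ B2 (lvlLoc q) (unitsRepLoc q) →
      incl p m hm (inv (H2cπ (lvlLoc q) (muLoc p q) x)) = omega π q c := hg
  have hinj : Function.Injective inv := by
    rw [injective_iff_map_eq_zero]
    intro ξ hξ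
    obtain ⟨x, rfl⟩ := Submodule.mkQ_surjective _ ξ
    obtain ⟨c, hc⟩ := exists_carry_local π hp q hne x
    have h0 : omega π q c = 0 := by rw [← hinv x c hc]; exact (congrArg _ hξ).trans (map_zero _)
    rw [H2cπ_eq_zero]
    refine mem_B2_of_muL_top q ?_
    have h2 := (B2 (lvlLoc q) (unitsRepLoc q)).add_mem hc ((carry_emb_mem_B2_iff π hp q c).2 h0)
    rwa [sub_add_cancel] at h2
  have hfr := finrank_H2_muLoc p q hp
  haveI : Module.Finite (ZMod p) (H2c (lvlLoc q) (muLoc p q)) :=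
    Module.finite_of_finrank_eq_succ hfr
  exact ⟨inv, ⟨hinj, (LinearMap.injective_iff_surjective_of_finrank_eq_finrank
    (by rw [hfr, Module.finrank_self])).1 hinj⟩, hinv⟩

end classes

section unramified

/-- Outside `S` a class of `G_S` with values in `μ_p` is locally trivial. -/
theorem loc_mem_B2_of_not_mem (S : Finset Nat.Primes) (hpS : pPrime p ∈ S) {q : Nat.Primes}
    (hq : q ∉ S) {z : GQ × GQ → ZMod p} (hz : z ∈ Z2 (lvlS S) (muRep p)) :
    pp2 (loc q) (LinearMap.id : ZMod p →ₗ[ZMod p] ZMod p) z ∈ B2 (lvlLoc q) (muLoc p q) := by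
  obtain ⟨hc, U₀, hU₀, hconst⟩ := (mem_Z2 _ _).1 hz
  set U := U₀ ⊓ GC.cycLvl p 1
  have hU : U ∈ lvlS S := (lvlS S).inf_mem _ hU₀ _ (GC.cycLvl_mem_lvlS S hpS 1)
  have hUQ : U ∈ lvlQ := by
    have := lvlS_le_lvlQ S U hU
    rwa [Subgroup.comap_id] at this
  haveI hUn : U.Normal := lvlQ.normal_of_mem U hUQ
  set V := U.comap (loc q)
  have hV : V ∈ lvlLoc q := ⟨U, hUQ, rfl⟩
  haveI : V.FiniteIndex := (lvlLoc q).finiteIndex_of_mem V hV
  haveI : V.Normal := (lvlLoc q).normal_of_mem V hV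
  have hI := inertia_le_of_isOpenLvl_lvlS (S := S) ⟨U, hU, le_rfl⟩ hq
    (primeLocalPlace_liesOverPrime q)
  -- the quotient is cyclic, generated by a lift of Frobenius
  haveI hcyc : IsCyclic (Gl q ⧸ V) := by
    obtain ⟨φ, hφ⟩ := FLTA.Galois.exists_isFrobeniusAt q.2 (primeLocalPlace_liesOverPrime q)
    obtain ⟨τ₀, hτ₀⟩ := exists_loc_inv_mul_mem q hφ.mem_decompositionSubgroup hUQ
    refine ⟨⟨QuotientGroup.mk τ₀, fun y => ?_⟩⟩
    obtain ⟨τ, rfl⟩ := QuotientGroup.mk_surjective y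
    obtain ⟨-, F, hF, hFU⟩ := hUQ
    haveI := hF
    obtain ⟨k, ι, hι, hk⟩ := FLTA.Galois.exists_pow_mul_inertia_eq q.2
      (primeLocalPlace_liesOverPrime q) hφ (loc_mem_decompositionSubgroup q τ) F
    refine ⟨k, ?_⟩
    show (QuotientGroup.mk τ₀ : Gl q ⧸ V) ^ (k : ℤ) = QuotientGroup.mk τ
    rw [zpow_natCast, ← QuotientGroup.mk_pow, QuotientGroup.eq]
    have h1 : (φ ^ k * ι)⁻¹ * loc q τ ∈ U := hFU ((IntermediateField.mem_fixingSubgroup_iff _ _).2
      fun x hx => by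
        rw [AlgEquiv.mul_apply, hk x hx]
        exact AlgEquiv.symm_apply_apply (φ ^ k * ι) x)
    let mkU : GQ →* GQ ⧸ U := QuotientGroup.mk' U
    have e1 : mkU ι = 1 := (QuotientGroup.eq_one_iff _).2 (hI hι)
    have e2 : mkU (loc q τ₀) = mkU φ := QuotientGroup.eq.2 hτ₀
    have e3 : mkU (φ ^ k * ι) = mkU (loc q τ) := QuotientGroup.eq.2 h1
    show loc q ((τ₀ ^ k)⁻¹ * τ) ∈ U
    rw [← QuotientGroup.eq_one_iff, ← QuotientGroup.mk'_apply, map_mul, map_mul, map_inv, map_inv,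
      map_pow, map_pow, inv_mul_eq_one]
    show mkU (loc q τ₀) ^ k = mkU (loc q τ)
    rw [e2, ← e3, map_mul, map_pow, e1, mul_one]
  set n := Nat.card (Gl q ⧸ V)
  haveI : NeZero n := ⟨Subgroup.FiniteIndex.index_ne_zero (H := V)⟩
  let χ : Gl q →* Multiplicative (ZMod n) :=
    (zmodCyclicMulEquiv hcyc).symm.toMonoidHom.comp (QuotientGroup.mk' V)
  have hχs : Function.Surjective χ :=
    (zmodCyclicMulEquiv hcyc).symm.surjective.comp (QuotientGroup.mk'_surjective _)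
  have hχk : χ.ker = V := by
    ext g
    rw [MonoidHom.mem_ker, MonoidHom.comp_apply, MulEquiv.coe_toMonoidHom,
      map_eq_one_iff _ (zmodCyclicMulEquiv hcyc).symm.injective, QuotientGroup.mk'_apply,
      QuotientGroup.eq_one_iff]
  have hχo : IsOpenLvl (lvlLoc q) χ.ker := ⟨V, hV, hχk.ge⟩
  have hfix : ∀ v : ZMod p, v ∈ fixedBy (muLoc p q) χ.ker := fun v s hs => by
    rw [hχk] at hs
    show (((cycloChar p).comp (loc q)) s : ZMod p) * v = v
    rw [MonoidHom.comp_apply, GC.cycloChar_eq_one (hs : loc q s ∈ U).2, Units.val_one, one_mul]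
  set f := pp2 (loc q) (LinearMap.id : ZMod p →ₗ[ZMod p] ZMod p) z
  obtain ⟨a, ha, h⟩ := exists_carry_of_inflated (lvlLoc q) (muLoc p q) χ hχs hχo (f := f)
    (fun g h j => by
      simp only [f, pp2_apply, LinearMap.id_apply, map_mul]
      exact hc _ _ _)
    (fun g g' s s' hs hs' => by
      rw [hχk] at hs hs'
      simp only [f, pp2_apply, LinearMap.id_apply, map_mul]
      exact hconst _ _ _ _ (hs : loc q s ∈ U).1 (hs' : loc q s' ∈ U).1)
    (fun g g' => hfix _)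
  -- the carry class of a root of unity is trivial
  have hmu : muL p q a ∈ fixedBy (unitsRepLoc q) ⊤ := fun s _ => by
    rw [← muL_equivariant, ha s trivial]
  have hc0 : carry χ a ∈ B2 (lvlLoc q) (muLoc p q) := by
    refine mem_B2_of_muL_top q ?_
    rw [show (fun g => muL p q (carry χ a g)) = carry χ (muL p q a) from carry_map χ (muL p q) a]
    obtain ⟨σ, hσ⟩ := hχs (Multiplicative.ofAdd 1)
    rw [carry_mem_B2_iff_exists_norm _ _ (smooth_unitsRepLoc q) χ hχo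
      (h1Vanishes_unitsRepLoc q _ hχo) σ hσ hmu, ← mem_normsFrom_ker_iff _ χ hσ,
      mem_normsFrom_iff_of_unramified q χ.ker ⊤ hχo le_top ?_ _ hmu]
    · refine ⟨0, Submodule.zero_mem _, ?_⟩
      have h1 : absv q 0 = 1 := by simp [absv]
      have h2 : absv q (muL p q a) ^ p = 1 := by
        have hz := congrArg (fun w => ((Additive.toMul w : (Ql q)ˣ) : Ql q)) (nsmul_muL p q a)
        simp only [toMul_nsmul, Units.val_pow_eq_pow_val, toMul_zero, Units.val_one] at hz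
        show ‖((Additive.toMul (muL p q a) : (Ql q)ˣ) : Ql q)‖ ^ p = 1
        rw [← norm_pow, hz, norm_one]
      rw [h1, one_pow]
      exact (pow_eq_one_iff_of_nonneg (norm_nonneg _) (Fact.out : p.Prime).ne_zero).1 h2
    · intro s hs
      rw [hχk]
      exact hI (loc_inertiaLoc_le q s hs.1)
  have := (B2 (lvlLoc q) (muLoc p q)).add_mem h hc0
  rwa [sub_add_cancel] at this

end unramified

end FLTA.PT.Sum

end
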