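import Fermat.Agent.PoitouTate.Hasse
import Fermat.Agent.PoitouTate.SumFormulaLocal
import Fermat.Agent.PoitouTate.GlobalClassesConj

/-!
# Invariant maps on `H²(ℚ_q, μ_p)` and the sum formula for classes of `G_S`

A cyclotomic layer `χ : G_ℚ → ℤ/p^m` which is non-trivial at every prime of `S` splits all classes
of `H²(G_S, μ_p)` by the Hasse principle, so each class is the carry class of `χ` and a rational
number; the sum formula is then the product formula for the explicit local symbols.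
-/

set_option autoImplicit false
set_option linter.style.haveILetI false

open ExtCitation

noncomputable section

namespace FLTA.PT

variable (p : ℕ) [Fact p.Prime] (S : Finset Nat.Primes)

/-- A system of local invariants with the global reciprocity law. -/
structure InvSystem where
  /-- the local invariant -/
  inv : ∀ q : Nat.Primes, H2c (lvlLoc q) (muLoc p q) →ₗ[ZMod p] ZMod p
  bijective : ∀ q ∈ S, Function.Bijective (inv q)
  sum_eq_zero : ∀ z : H2c (lvlS S) (muRep p),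
    ∑ q ∈ S, inv q (locH2 S (muRep p) q z) = 0

namespace Sum

attribute [local instance] factPrime

variable {p} {S} {m : ℕ} (π : Proj p m)

theorem smooth_muRep_lvlQ (hpS : pPrime p ∈ S) : Smooth lvlQ (muRep p) := fun v => by
  refine ⟨GC.cycLvl p 1, ?_, fun s hs => ?_⟩
  · have := lvlS_le_lvlQ S _ (GC.cycLvl_mem_lvlS S hpS 1)
    rwa [Subgroup.comap_id] at this
  · show ((cycloChar p s : (ZMod p)ˣ) : ZMod p) * v = v
    rw [GC.cycloChar_eq_one hs, Units.val_one, one_mul]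

/-- A local class dies on an open subgroup of index divisible by `p`. -/
theorem res_mem_B2_of_dvd_index (hp : p ≠ 2) (q : Nat.Primes) (H : Subgroup (Gl q))
    (hH : IsOpenLvl (lvlLoc q) H) (hdvd : p ∣ H.index) {x : Gl q × Gl q → ZMod p}
    (hx : x ∈ Z2 (lvlLoc q) (muLoc p q)) :
    pp2 H.subtype (LinearMap.id : ZMod p →ₗ[ZMod p] ZMod p) x ∈
      B2 ((lvlLoc q).comap H.subtype) ((muLoc p q).comp H.subtype) := by
  have hle : H ≤ (⊤ : Subgroup (Gl q)) := le_top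
  have hx' : pp2 (⊤ : Subgroup (Gl q)).subtype (LinearMap.id : ZMod p →ₗ[ZMod p] ZMod p) x ∈
      Z2 ((lvlLoc q).comap (⊤ : Subgroup (Gl q)).subtype)
        ((muLoc p q).comp (⊤ : Subgroup (Gl q)).subtype) :=
    pp2_mem_Z2 (lvlLE_comap _ _) (fun _ _ => rfl) hx
  have h0 := res2_muLoc_eq_zero p q hp H ⊤ hH hle (by rwa [Subgroup.relIndex_top_right])
    (H2cπ ((lvlLoc q).comap (⊤ : Subgroup (Gl q)).subtype)
      ((muLoc p q).comp (⊤ : Subgroup (Gl q)).subtype) ⟨_, hx'⟩)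
  have h0' := (H2cπ_eq_zero (((lvlLoc q).comap (⊤ : Subgroup (Gl q)).subtype).comap
      (H.subgroupOf ⊤).subtype)
    (((muLoc p q).comp (⊤ : Subgroup (Gl q)).subtype).comp (H.subgroupOf ⊤).subtype)
    (f := ⟨_, pp2_mem_Z2 (σ := ((muLoc p q).comp (⊤ : Subgroup (Gl q)).subtype).comp
      (H.subgroupOf ⊤).subtype) (φ := LinearMap.id) (lvlLE_comap _ _) (fun _ _ => rfl) hx'⟩)).1 h0
  exact mem_B2_of_subgroupOf (L := lvlLoc q) (ρ := muLoc p q) hle h0'

theorem cycLvl_mem_lvlQ (hpS : pPrime p ∈ S) (n : ℕ) : GC.cycLvl p n ∈ lvlQ := by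
  have := lvlS_le_lvlQ S _ (GC.cycLvl_mem_lvlS S hpS n)
  rwa [Subgroup.comap_id] at this

/-- Hasse: classes of `G_S` die on `ℚ(μ_{p^{m+1}})`. -/
theorem res_cycLvl_mem_B2 (hp : p ≠ 2) (hpS : pPrime p ∈ S)
    (hm : ∀ q ∈ S, ∃ τ : Gl q, π.chiLoc q τ ≠ 1) {z : GQ × GQ → ZMod p}
    (hz : z ∈ Z2 (lvlS S) (muRep p)) :
    pp2 (GC.cycLvl p (m + 1)).subtype (LinearMap.id : ZMod p →ₗ[ZMod p] ZMod p) z ∈
      B2 (lvlQ.comap (GC.cycLvl p (m + 1)).subtype)
        ((muRep p).comp (GC.cycLvl p (m + 1)).subtype) := by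
  have hp' : p.Prime := Fact.out
  set G₁ := GC.cycLvl p (m + 1) with hG₁
  have hG₁Q : G₁ ∈ lvlQ := cycLvl_mem_lvlQ hpS (m + 1)
  haveI : G₁.Normal := lvlQ.normal_of_mem G₁ hG₁Q
  have hzQ : z ∈ Z2 lvlQ (muRep p) :=
    pp2_mem_Z2 (σ := muRep p) (φ := LinearMap.id) (lvlS_le_lvlQ S) (fun _ _ => rfl) hz
  refine mem_B2_of_forall_place p hp G₁ ⟨G₁, hG₁Q, le_rfl⟩
    (fun s hs => GC.cycloChar_eq_one (GC.cycLvl_antitone (Nat.le_add_left 1 m) hs)) _
    (pp2_mem_Z2 (lvlLE_comap _ _) (fun _ _ => rfl) hzQ) fun q g => ?_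
  have hopen : IsOpenLvl (lvlLoc q) (stabLoc q G₁ g) := by
    refine ⟨G₁.comap (loc q), ⟨G₁, hG₁Q, rfl⟩, fun τ hτ => mem_stabLoc.2 ?_⟩
    exact Subgroup.Normal.conj_mem' (inferInstance : G₁.Normal) (loc q τ) hτ g
  have hzq : pp2 (loc q) (LinearMap.id : ZMod p →ₗ[ZMod p] ZMod p) z ∈
      Z2 (lvlLoc q) (muLoc p q) :=
    pp2_mem_Z2 (lvlS_le_lvlLoc S q) (fun _ _ => rfl) hz
  have hres : pp2 (stabLoc q G₁ g).subtype (LinearMap.id : ZMod p →ₗ[ZMod p] ZMod p)
      (pp2 (loc q) (LinearMap.id : ZMod p →ₗ[ZMod p] ZMod p) z) ∈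
      B2 ((lvlLoc q).comap (stabLoc q G₁ g).subtype)
        ((muLoc p q).comp (stabLoc q G₁ g).subtype) := by
    by_cases hq : q ∈ S
    · refine res_mem_B2_of_dvd_index hp q _ hopen ?_ hzq
      obtain ⟨j, hjm, χ', hs, hker, -⟩ := exists_scaled (π.chiLoc q)
      have hle : stabLoc q G₁ g ≤ χ'.ker := fun τ hτ => by
        rw [hker, Proj.chiLoc, MonoidHom.mem_ker, MonoidHom.comp_apply]
        refine MonoidHom.mem_ker.1 (π.cycLvl_le_ker ?_)
        have h := Subgroup.Normal.conj_mem (inferInstance : G₁.Normal) _ (mem_stabLoc.1 hτ) g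
        simpa [mul_assoc, hG₁] using h
      have hidx : χ'.ker.index = p ^ j := by
        rw [Subgroup.index_ker, MonoidHom.range_eq_top.2 hs,
          Nat.card_congr Subgroup.topEquiv.toEquiv, Nat.card_congr Multiplicative.toAdd,
          Nat.card_zmod]
      have hj : j ≠ 0 := by
        rintro rfl
        obtain ⟨τ, hτ⟩ := hm q hq
        have h1 : τ ∈ χ'.ker := by
          rw [Subgroup.index_eq_one.1 (hidx.trans (pow_zero p))]; trivial
        rw [hker] at h1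
        exact hτ h1
      exact ((dvd_pow_self p hj).trans hidx.symm.dvd).trans (Subgroup.index_dvd_of_le hle)
    · exact pp2_mem_B2 (lvlLE_comap _ _) (fun _ _ => rfl) (loc_mem_B2_of_not_mem S hpS hq hz)
  -- conjugate back
  have hh : IsConst₁ ((lvlLoc q).comap (stabLoc q G₁ g).subtype)
      (fun τ : stabLoc q G₁ g => GC.conjHtpy g z (loc q τ)) := by
    obtain ⟨U, hU, h⟩ := GC.conjHtpy_const lvlQ g ((mem_Z2 _ _).1 hzQ).2
    exact ⟨_, ⟨_, ⟨U, hU, rfl⟩, rfl⟩, fun τ s hs => by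
      simpa using h (loc q τ) (loc q (s : Gl q)) hs⟩
  have hd : d1 ((muLoc p q).comp (stabLoc q G₁ g).subtype)
      (fun τ : stabLoc q G₁ g => GC.conjHtpy g z (loc q τ)) ∈
      B2 ((lvlLoc q).comap (stabLoc q G₁ g).subtype)
        ((muLoc p q).comp (stabLoc q G₁ g).subtype) := (mem_B2 _ _).2 ⟨_, hh, rfl⟩
  have h2 := (B2 _ _).smul_mem ((cycloChar p g⁻¹ : (ZMod p)ˣ) : ZMod p)
    ((B2 _ _).add_mem hres hd)
  convert h2 using 1
  funext ⟨τ, τ'⟩
  have e := GC.conj_sub_eq_d1 lvlQ (muRep p) hzQ g (loc q τ) (loc q (τ' : Gl q))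
  rw [sub_eq_iff_eq_add'] at e
  show z (g⁻¹ * loc q τ * g, g⁻¹ * loc q (τ' : Gl q) * g) = _
  have e' := congrArg (muRep p g⁻¹) e
  rw [← Module.End.mul_apply, ← map_mul, inv_mul_cancel, map_one, Module.End.one_apply] at e'
  rw [e']
  simp only [Pi.smul_apply, Pi.add_apply, pp2_apply, LinearMap.id_apply, smul_eq_mul, d1_apply,
    charRep_apply, MonoidHom.comp_apply, Subgroup.subtype_apply, Subgroup.coe_mul, map_mul]

/-- Classes of `G_S` die on the layer. -/
theorem res_ker_mem_B2 (hp : p ≠ 2) (hpS : pPrime p ∈ S)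
    (hm : ∀ q ∈ S, ∃ τ : Gl q, π.chiLoc q τ ≠ 1) {z : GQ × GQ → ZMod p}
    (hz : z ∈ Z2 (lvlS S) (muRep p)) :
    pp2 π.chi.ker.subtype (LinearMap.id : ZMod p →ₗ[ZMod p] ZMod p) z ∈
      B2 (lvlQ.comap π.chi.ker.subtype) ((muRep p).comp π.chi.ker.subtype) := by
  classical
  have hp' : p.Prime := Fact.out
  set K := π.chi.ker with hK
  set G₁ := GC.cycLvl p (m + 1)
  have hG₁Q : G₁ ∈ lvlQ := cycLvl_mem_lvlQ hpS (m + 1)
  have hle : G₁ ≤ K := π.cycLvl_le_ker
  have hzQ : z ∈ Z2 lvlQ (muRep p) :=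
    pp2_mem_Z2 (σ := muRep p) (φ := LinearMap.id) (lvlS_le_lvlQ S) (fun _ _ => rfl) hz
  have hzK : pp2 K.subtype (LinearMap.id : ZMod p →ₗ[ZMod p] ZMod p) z ∈
      Z2 (lvlQ.comap K.subtype) ((muRep p).comp K.subtype) :=
    pp2_mem_Z2 (lvlLE_comap _ _) (fun _ _ => rfl) hzQ
  -- the index is prime to `p`
  have hidx : IsUnit ((G₁.subgroupOf K).index : ZMod p) := by
    let f := (cycExp p (m + 1)).comp K.subtype
    have hf : f.ker = G₁.subgroupOf K := by
      ext s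
      rw [MonoidHom.mem_ker, Subgroup.mem_subgroupOf]
      exact cycExp_eq_one_iff
    rw [← hf, Subgroup.index_ker, ZMod.isUnit_iff_coprime, Nat.coprime_comm,
      hp'.coprime_iff_not_dvd]
    intro hdvd
    obtain ⟨⟨e, s, rfl⟩, hord⟩ := exists_prime_orderOf_dvd_card' (G := f.range) p hdvd
    rw [← Subgroup.orderOf_coe] at hord
    have hs : π.ψ (f s) = 1 := MonoidHom.mem_ker.1 s.2
    have h2 := orderOf_dvd_of_pow_eq_one (π.pow_eq_one _ hs)
    rw [hord] at h2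
    have := Nat.le_of_dvd (by have := hp'.two_le; omega) h2
    have := hp'.two_le
    omega
  have hinj := res2_injective_of_isUnit_index (lvlQ.comap K.subtype) ((muRep p).comp K.subtype)
    (smooth_comap (smooth_muRep_lvlQ hpS) _) (G₁.subgroupOf K)
    ⟨G₁.comap K.subtype, ⟨G₁, hG₁Q, rfl⟩, le_rfl⟩ hidx
  let f : G₁.subgroupOf K →* G₁ := (Subgroup.subgroupOfEquivOfLe hle).toMonoidHom
  have hL : LvlLE (lvlQ.comap G₁.subtype) ((lvlQ.comap K.subtype).comap (G₁.subgroupOf K).subtype)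
      f := by
    rintro _ ⟨U, hU, rfl⟩
    exact ⟨_, ⟨U, hU, rfl⟩, rfl⟩
  have h1 : pp2 f (LinearMap.id : ZMod p →ₗ[ZMod p] ZMod p)
      (pp2 G₁.subtype (LinearMap.id : ZMod p →ₗ[ZMod p] ZMod p) z) ∈
      B2 ((lvlQ.comap K.subtype).comap (G₁.subgroupOf K).subtype)
        (((muRep p).comp K.subtype).comp (G₁.subgroupOf K).subtype) :=
    pp2_mem_B2 hL (fun _ _ => rfl) (res_cycLvl_mem_B2 π hp hpS hm hz)
  refine (H2cπ_eq_zero (lvlQ.comap K.subtype) ((muRep p).comp K.subtype) (f := ⟨_, hzK⟩)).1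
    (hinj ?_)
  rw [map_zero]
  exact (H2cπ_eq_zero ((lvlQ.comap K.subtype).comap (G₁.subgroupOf K).subtype)
    (((muRep p).comp K.subtype).comp (G₁.subgroupOf K).subtype)
    (f := ⟨_, pp2_mem_Z2 (σ := ((muRep p).comp K.subtype).comp (G₁.subgroupOf K).subtype)
      (φ := LinearMap.id) (lvlLE_comap _ _) (fun _ _ => rfl) hzK⟩)).2 h1

theorem surjective_chi : Function.Surjective π.chi := fun x => by
  obtain ⟨τ, hτ⟩ := surjective_chiLoc_p π x
  exact ⟨_, hτ⟩

/-- Every class of `G_S` is, over `ℚ̄ˣ`, the carry class of a rational number. -/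
theorem exists_rat (hp : p ≠ 2) (hpS : pPrime p ∈ S)
    (hm : ∀ q ∈ S, ∃ τ : Gl q, π.chiLoc q τ ≠ 1) {z : GQ × GQ → ZMod p}
    (hz : z ∈ Z2 (lvlS S) (muRep p)) :
    ∃ r, ∀ q, (fun g => muL p q (pp2 (loc q) (LinearMap.id : ZMod p →ₗ[ZMod p] ZMod p) z g)) -
      carry (π.chiLoc q) (emb q (ratLoc q r)) ∈ B2 (lvlLoc q) (unitsRepLoc q) := by
  have hzQ : z ∈ Z2 lvlQ (muRep p) :=
    pp2_mem_Z2 (σ := muRep p) (φ := LinearMap.id) (lvlS_le_lvlQ S) (fun _ _ => rfl) hz
  have hy : (fun g => muQ p (z g)) ∈ Z2 lvlQ unitsRep :=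
    push_mem_Z2 (fun g v => muQ_equivariant p g v) hzQ
  have h2 := push_mem_B2 (L := lvlQ.comap π.chi.ker.subtype)
    (ρ := (muRep p).comp π.chi.ker.subtype) (σ := unitsRep.comp π.chi.ker.subtype) (φ := muQ p)
    (fun g v => muQ_equivariant p g v) (res_ker_mem_B2 π hp hpS hm hz)
  have e2 : (fun g => muQ p (pp2 π.chi.ker.subtype (LinearMap.id : ZMod p →ₗ[ZMod p] ZMod p) z g)) =
      pp2 π.chi.ker.subtype (LinearMap.id : Mq →ₗ[ℤ] Mq) (fun g => muQ p (z g)) := by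
    funext ⟨g, g'⟩; simp only [pp2_apply, LinearMap.id_apply]
  rw [e2] at h2
  obtain ⟨a, ha, h⟩ := exists_carry_of_res_mem_B2 lvlQ unitsRep smooth_unitsRep π.chi
    (surjective_chi π) π.isOpen_ker_lvlQ (h1Vanishes_unitsRep _ π.isOpen_ker_lvlQ)
    (⟨fun g => muQ p (z g), hy⟩ : Z2 lvlQ unitsRep) h2
  obtain ⟨r, rfl⟩ := exists_ratQ_eq ha
  refine ⟨r, fun q => ?_⟩
  have h3 := pp2_mem_B2 (lvlQ_le_lvlLoc q) (equivariant_iotaUnits q) h
  convert h3 using 1
  funext ⟨g, g'⟩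
  simp only [Pi.sub_apply, pp2_apply, LinearMap.id_apply, map_sub, carry, map_nsmul, iotaUnits_ratQ,
    ← muL_apply]
  rfl

section product

/-- The global symbol at `q`. -/
def symb (q : Nat.Primes) : Additive ℚˣ →+ ZMod (p ^ m) := (omega π q).comp (ratLoc q)

/-- The positive integer `n` as a rational unit. -/
def natUnit (n : ℕ) (hn : n ≠ 0) : Additive ℚˣ :=
  Additive.ofMul (Units.mk0 (n : ℚ) (Nat.cast_ne_zero.2 hn))

theorem val_natUnit (q : Nat.Primes) (n : ℕ) (hn : n ≠ 0) :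
    val q (ratLoc q (natUnit n hn)) = padicValNat (q : ℕ) n := by
  rw [val_ratLoc]
  exact padicValRat.of_nat

theorem sum_symb_prime (T : Finset Nat.Primes) (hpT : pPrime p ∈ T) (l : Nat.Primes) (hl : l ∈ T) :
    ∑ q ∈ T, symb π q (natUnit (l : ℕ) l.2.ne_zero) = 0 := by
  have hp' : p.Prime := Fact.out
  set r := natUnit (l : ℕ) l.2.ne_zero
  have hval : ∀ q : Nat.Primes, q ≠ l → val q (ratLoc q r) = 0 := fun q hq => by
    rw [val_natUnit, padicValNat.eq_zero_of_not_dvd fun h =>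
      hq (Subtype.ext ((Nat.prime_dvd_prime_iff_eq q.2 l.2).1 h)), Nat.cast_zero]
  have hzero : ∀ q : Nat.Primes, q ≠ pPrime p → q ≠ l → symb π q r = 0 := fun q hqp hql => by
    show omega π q (ratLoc q r) = 0
    rw [omega_ne π hqp, hval q hql, zero_smul]
  have hcoe : ((Additive.toMul (ratLoc (pPrime p) r) : ℚ_[p]ˣ) : ℚ_[p]) = ((l : ℕ) : ℚ_[p]) :=
    Rat.cast_natCast (α := ℚ_[p]) (l : ℕ)
  by_cases hlp : l = pPrime p
  · refine Finset.sum_eq_zero fun q _ => ?_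
    by_cases hqp : q = pPrime p
    · subst hqp
      show omega π (pPrime p) (ratLoc (pPrime p) r) = 0
      rw [omega_p π]
      rw [unitMod_prime p _ (hcoe.trans (by rw [hlp]; rfl)), map_one, toAdd_one, neg_zero]
    · exact hzero q hqp (hlp ▸ hqp)
  · rw [Finset.sum_eq_add (s := T) l (pPrime p) hlp (fun q _ hq => hzero q hq.2 hq.1)
      (fun h => absurd hl h) (fun h => absurd hpT h)]
    have hnd : ¬ p ∣ (l : ℕ) := fun h =>
      hlp (Subtype.ext ((Nat.prime_dvd_prime_iff_eq hp' l.2).1 h).symm)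
    show omega π l (ratLoc l r) + omega π (pPrime p) (ratLoc (pPrime p) r) = 0
    haveI : Fact (l : ℕ).Prime := ⟨l.2⟩
    rw [omega_ne π hlp, omega_p π, val_natUnit, padicValNat.self l.2.one_lt, Nat.cast_one, one_zsmul,
      unitMod_natCast p (l.2.coprime_iff_not_dvd.2 (not_dvd_pow_of_ne hlp (m + 1))) hnd _ hcoe]
    exact add_neg_cancel _

theorem sum_symb_nat (T : Finset Nat.Primes) (hpT : pPrime p ∈ T) (n : ℕ) :
    ∀ (hn : n ≠ 0), (∀ l : Nat.Primes, (l : ℕ) ∣ n → l ∈ T) →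
      ∑ q ∈ T, symb π q (natUnit n hn) = 0 := by
  induction n using induction_on_primes with
  | zero => exact fun hn => absurd rfl hn
  | one =>
    intro hn _
    refine Finset.sum_eq_zero fun q _ => ?_
    rw [show natUnit 1 hn = 0 from Additive.toMul.injective (Units.ext Nat.cast_one), map_zero]
  | prime_mul l a hl ih =>
    intro hn hT
    have ha : a ≠ 0 := right_ne_zero_of_mul hn
    have e : natUnit (l * a) hn = natUnit l hl.ne_zero + natUnit a ha :=
      Additive.toMul.injective (Units.ext (Nat.cast_mul l a))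
    simp only [e, map_add, Finset.sum_add_distrib,
      ih ha fun l' h => hT l' (h.trans (dvd_mul_left a l)), add_zero]
    exact sum_symb_prime π T hpT ⟨l, hl⟩ (hT ⟨l, hl⟩ (dvd_mul_right l a))

/-- The product formula. -/
theorem sum_symb (hp : p ≠ 2) (T : Finset Nat.Primes) (hpT : pPrime p ∈ T) (r : Additive ℚˣ)
    (hnum : ∀ l : Nat.Primes, (l : ℕ) ∣ ((Additive.toMul r : ℚˣ) : ℚ).num.natAbs → l ∈ T)
    (hden : ∀ l : Nat.Primes, (l : ℕ) ∣ ((Additive.toMul r : ℚˣ) : ℚ).den → l ∈ T) :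
    ∑ q ∈ T, symb π q r = 0 := by
  have hp' : p.Prime := Fact.out
  set x : ℚ := ((Additive.toMul r : ℚˣ) : ℚ)
  have hx0 : x ≠ 0 := Units.ne_zero _
  have hn : x.num.natAbs ≠ 0 := Int.natAbs_ne_zero.2 (Rat.num_ne_zero.2 hx0)
  let Φ : Additive ℚˣ →+ ZMod (p ^ m) := ∑ q ∈ T, symb π q
  have hΦ : ∀ y, Φ y = ∑ q ∈ T, symb π q y := fun y => AddMonoidHom.finsetSum_apply _ _ _
  let neg1 : Additive ℚˣ := Additive.ofMul (-1)
  have hneg : Φ neg1 = 0 := by
    have h2 : (2 : ℕ) • neg1 = 0 := by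
      apply Additive.toMul.injective
      ext
      simp [neg1, toMul_nsmul]
    have h3 : ((2 : ℕ) : ZMod (p ^ m)) * Φ neg1 = 0 := by
      rw [← nsmul_eq_mul, ← map_nsmul, h2, map_zero]
    have hu : IsUnit ((2 : ℕ) : ZMod (p ^ m)) := by
      rw [ZMod.isUnit_iff_coprime]
      exact Nat.Coprime.pow_right m ((Nat.coprime_primes Nat.prime_two hp').2 (Ne.symm hp))
    exact (hu.mul_right_eq_zero).1 h3
  have key : Φ r = 0 := by
    have ha := (hΦ _).trans (sum_symb_nat π T hpT _ hn hnum)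
    have hb := (hΦ _).trans (sum_symb_nat π T hpT x.den x.den_nz hden)
    rcases Int.natAbs_eq x.num with h | h
    · rw [show r = natUnit x.num.natAbs hn - natUnit x.den x.den_nz from
        Additive.toMul.injective (Units.ext (by
          show x = ((x.num.natAbs : ℕ) : ℚ) / ((x.den : ℕ) : ℚ)
          rw [show ((x.num.natAbs : ℕ) : ℚ) = ((x.num : ℤ) : ℚ) by
            conv_rhs => rw [h]
            exact (Int.cast_natCast _).symm, Rat.num_div_den])),
        map_sub, ha, hb, sub_zero]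
    · rw [show r = neg1 + (natUnit x.num.natAbs hn - natUnit x.den x.den_nz) from
        Additive.toMul.injective (Units.ext (by
          show x = -1 * (((x.num.natAbs : ℕ) : ℚ) / ((x.den : ℕ) : ℚ))
          rw [show ((x.num.natAbs : ℕ) : ℚ) = -((x.num : ℤ) : ℚ) by
            conv_rhs => rw [h]
            simp, neg_div, Rat.num_div_den, neg_one_mul, neg_neg])),
        map_add, hneg, map_sub, ha, hb, sub_zero, add_zero]
  rw [← hΦ, key]

end product

end Sum

open FLTA.PT.Sum in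
theorem nonempty_invSystem (hp : p ≠ 2) (hpS : pPrime p ∈ S) : Nonempty (InvSystem p S) := by
  classical
  obtain ⟨m₀, hm₀⟩ := exists_m (p := p) S
  set m := max 1 m₀
  have hm1 : 1 ≤ m := le_max_left _ _
  obtain ⟨π⟩ := exists_proj (p := p) hp m
  have hne : ∀ q ∈ S, ∃ τ : Gl q, π.chiLoc q τ ≠ 1 := fun q hq => hm₀ m (le_max_right _ _) q hq π
  choose inv hbij hspec using fun (q : Nat.Primes) (hq : q ∈ S) =>
    exists_invariant π hp hm1 q (hne q hq)
  let I : ∀ q : Nat.Primes, H2c (lvlLoc q) (muLoc p q) →ₗ[ZMod p] ZMod p :=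
    fun q => if hq : q ∈ S then inv q hq else 0
  refine ⟨⟨I, fun q hq => by simp only [I, dif_pos hq]; exact hbij q hq, fun ξ => ?_⟩⟩
  obtain ⟨⟨z, hz⟩, rfl⟩ := Submodule.mkQ_surjective _ ξ
  obtain ⟨r, hr⟩ := exists_rat π hp hpS hne hz
  have hloc : ∀ q ∈ S, incl p m hm1 (I q (locH2 S (muRep p) q (H2cπ (lvlS S) (muRep p) ⟨z, hz⟩))) =
      symb π q r := fun q hq => by
    simp only [I, dif_pos hq]
    exact hspec q hq ⟨pp2 (loc q) (LinearMap.id : ZMod p →ₗ[ZMod p] ZMod p) z,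
      pp2_mem_Z2 (lvlS_le_lvlLoc S q) (fun _ _ => rfl) hz⟩ (ratLoc q r) (hr q)
  have houtside : ∀ q ∉ S, symb π q r = 0 := fun q hq => by
    refine (carry_emb_mem_B2_iff π hp q _).1 ?_
    have h1 := push_mem_B2 (σ := unitsRepLoc q) (φ := muL p q)
      (fun g v => muL_equivariant p q g v) (loc_mem_B2_of_not_mem S hpS hq hz)
    have h2 := (B2 (lvlLoc q) (unitsRepLoc q)).sub_mem h1 (hr q)
    rwa [sub_sub_cancel] at h2
  set x : ℚ := ((Additive.toMul r : ℚˣ) : ℚ)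
  set T : Finset Nat.Primes := S ∪ (x.num.natAbs.primeFactors.subtype Nat.Prime) ∪
    (x.den.primeFactors.subtype Nat.Prime)
  have hmem : ∀ (n : ℕ) (l : Nat.Primes), n ≠ 0 → (l : ℕ) ∣ n →
      l ∈ n.primeFactors.subtype Nat.Prime := fun n l hn h =>
    Finset.mem_subtype.2 (Nat.mem_primeFactors.2 ⟨l.2, h, hn⟩)
  have hsum := sum_symb π hp T (Finset.mem_union_left _ (Finset.mem_union_left _ hpS)) r
    (fun l h => Finset.mem_union_left _ (Finset.mem_union_right _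
      (hmem _ l (Int.natAbs_ne_zero.2 (Rat.num_ne_zero.2 (Units.ne_zero _))) h)))
    (fun l h => Finset.mem_union_right _ (hmem _ l x.den_nz h))
  rw [← Finset.sum_subset (show S ⊆ T from Finset.subset_union_left.trans Finset.subset_union_left)
    (fun q _ hq => houtside q hq), ← Finset.sum_congr rfl hloc, ← map_sum] at hsum
  exact incl_injective hm1 (hsum.trans (map_zero _).symm)

end FLTA.PT

end
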