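import Fermat.Agent.PoitouTate.MuEmb
import Fermat.Agent.PoitouTate.Decomp
import Fermat.Agent.PoitouTate.GlobalClassesLevel
import Mathlib.RingTheory.ZMod.UnitsCyclic

/-!
# The cyclotomic character of degree `p ^ m` and its local restrictions
-/

set_option autoImplicit false

open ExtCitation

noncomputable section

namespace FLTA.PT.Sum

set_option linter.unusedSectionVars false

variable (p : ℕ) [Fact p.Prime]

instance neZero_pow (n : ℕ) : NeZero (p ^ n) := ⟨(pow_pos (Fact.out : p.Prime).pos n).ne'⟩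

theorem card_roots (n : ℕ) : Nat.card (rootsOfUnity (p ^ n) Qb) = p ^ n :=
  IsAlgClosed.card_rootsOfUnity_eq Qb (p ^ n)

/-- The action on `p ^ n`-th roots of unity. -/
def cycExp (n : ℕ) : GQ →* (ZMod (p ^ n))ˣ :=
  (modularCyclotomicCharacter Qb (card_roots p n)).comp (MulSemiringAction.toRingAut GQ Qb)

variable {p}

theorem cycExp_spec {n : ℕ} (s : GQ) {ζ : Qb} (hζ : ζ ^ p ^ n = 1) :
    s ζ = ζ ^ ((cycExp p n s : ZMod (p ^ n))).val :=
  modularCyclotomicCharacter.spec Qb (card_roots p n) (MulSemiringAction.toRingAut GQ Qb s)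
    (rootsOfUnity.mkOfPowEq ζ hζ).2

theorem cycExp_eq_of {n : ℕ} (s : GQ) (e : (ZMod (p ^ n))ˣ)
    (h : ∀ ζ : Qb, ζ ^ p ^ n = 1 → s ζ = ζ ^ (e : ZMod (p ^ n)).val) : cycExp p n s = e :=
  Units.ext (modularCyclotomicCharacter.unique Qb (card_roots p n) _ fun t ht =>
    h _ (by rw [← Units.val_pow_eq_pow_val, ht, Units.val_one])).symm

theorem cycExp_eq_one_iff {n : ℕ} {s : GQ} : cycExp p n s = 1 ↔ s ∈ GC.cycLvl p n := by
  constructor
  · intro h ζ hζ
    rw [cycExp_spec s hζ, h, Units.val_one, ZMod.val_one_eq_one_mod, ← pow_eq_pow_mod 1 hζ, pow_one]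
  · intro h
    refine cycExp_eq_of s 1 fun ζ hζ => ?_
    rw [Units.val_one, ZMod.val_one_eq_one_mod, ← pow_eq_pow_mod 1 hζ, pow_one]
    exact h ζ hζ

/-- Comparison of the characters at two levels. -/
theorem cycExp_map {n k : ℕ} (hkn : k ≤ n) (s : GQ) :
    Units.map (ZMod.castHom (pow_dvd_pow p hkn) (ZMod (p ^ k)) : _ →* _) (cycExp p n s) =
      cycExp p k s := by
  refine (cycExp_eq_of s _ fun ζ hζ => ?_).symm
  have hζn : ζ ^ p ^ n = 1 := by
    obtain ⟨c, rfl⟩ := Nat.exists_eq_add_of_le hkn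
    rw [pow_add, pow_mul, hζ, one_pow]
  rw [cycExp_spec s hζn]
  simp only [Units.coe_map, MonoidHom.coe_coe, ZMod.castHom_apply]
  rw [ZMod.cast_eq_val, ZMod.val_natCast, ← pow_eq_pow_mod _ hζ]

/-- A system of projections `(ℤ/p^{m+1})ˣ → ℤ/p^m`. -/
structure Proj (p m : ℕ) where
  ψ : (ZMod (p ^ (m + 1)))ˣ →* Multiplicative (ZMod (p ^ m))
  surjective : Function.Surjective ψ
  pow_eq_one : ∀ e, ψ e = 1 → e ^ (p - 1) = 1

theorem exists_proj (hp : p ≠ 2) (m : ℕ) : Nonempty (Proj p m) := by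
  have hp' : p.Prime := Fact.out
  have hc : IsCyclic (ZMod (p ^ (m + 1)))ˣ := ZMod.isCyclic_units_of_prime_pow p hp' hp (m + 1)
  let e := zmodCyclicMulEquiv hc
  have hcard : Nat.card (ZMod (p ^ (m + 1)))ˣ = (p - 1) * p ^ m := by
    rw [Nat.card_eq_fintype_card, ZMod.card_units_eq_totient,
      Nat.totient_prime_pow_succ hp', mul_comm]
  have hdvd : p ^ m ∣ Nat.card (ZMod (p ^ (m + 1)))ˣ := hcard ▸ dvd_mul_left _ _
  let f : Multiplicative (ZMod (Nat.card (ZMod (p ^ (m + 1)))ˣ)) →* Multiplicative (ZMod (p ^ m)) :=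
    AddMonoidHom.toMultiplicative (ZMod.castHom hdvd (ZMod (p ^ m))).toAddMonoidHom
  let ψ : (ZMod (p ^ (m + 1)))ˣ →* Multiplicative (ZMod (p ^ m)) := f.comp e.symm.toMonoidHom
  have hs : Function.Surjective ψ := fun y => by
    obtain ⟨x, hx⟩ := ZMod.castHom_surjective hdvd y.toAdd
    exact ⟨e (Multiplicative.ofAdd x), by simp [ψ, f, hx]⟩
  refine ⟨⟨ψ, hs, fun x hx => ?_⟩⟩
  have hk : ψ.ker.index = p ^ m := by
    rw [Subgroup.index_ker, MonoidHom.range_eq_top.2 hs, Nat.card_congr Subgroup.topEquiv.toEquiv,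
      Nat.card_congr Multiplicative.toAdd, Nat.card_zmod]
  have hker : Nat.card ψ.ker = p - 1 := by
    have h := ψ.ker.card_mul_index
    rw [hk, hcard] at h
    exact Nat.eq_of_mul_eq_mul_right (pow_pos hp'.pos m) h
  have h := pow_card_eq_one' (G := ψ.ker) (x := ⟨x, hx⟩)
  rw [hker] at h
  exact congrArg Subtype.val h

variable {m : ℕ} (π : Proj p m)

/-- An element congruent to one mod `p` killed by `ψ` is one. -/
theorem Proj.eq_one {e : (ZMod (p ^ (m + 1)))ˣ} (h : π.ψ e = 1)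
    (h1 : Units.map ((ZMod.castHom (pow_dvd_pow p (Nat.le_add_left 1 m))
      (ZMod (p ^ 1))) : ZMod (p ^ (m + 1)) →* ZMod (p ^ 1)) e = 1) : e = 1 := by
  have hp' : p.Prime := Fact.out
  have hpow : e ^ p ^ m = 1 := by
    set r := Units.map ((ZMod.castHom (pow_dvd_pow p (Nat.le_add_left 1 m))
      (ZMod (p ^ 1))) : ZMod (p ^ (m + 1)) →* ZMod (p ^ 1))
    have hsurj : Function.Surjective r := ZMod.unitsMap_surjective _
    have hk : Nat.card r.ker = p ^ m := by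
      have h := r.ker.card_mul_index
      rw [Subgroup.index_ker, MonoidHom.range_eq_top.2 hsurj,
        Nat.card_congr Subgroup.topEquiv.toEquiv] at h
      simp only [Nat.card_eq_fintype_card, ZMod.card_units_eq_totient,
        Nat.totient_prime_pow_succ hp', Nat.totient_prime hp', pow_one] at h
      rw [Nat.card_eq_fintype_card]
      exact Nat.eq_of_mul_eq_mul_right (by have := hp'.two_le; omega) h
    have h2 := pow_card_eq_one' (G := r.ker) (x := ⟨e, h1⟩)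
    rw [hk] at h2
    exact congrArg Subtype.val h2
  have hcop : Nat.gcd (p - 1) (p ^ m) = 1 := by
    refine Nat.Coprime.pow_right m ?_
    exact (Nat.coprime_self_sub_left hp'.one_le).2 (Nat.coprime_one_left p)
  have := pow_gcd_eq_one.2 ⟨π.pow_eq_one e h, hpow⟩
  rwa [hcop, pow_one] at this

/-- The character `GQ → ℤ/p^m` cutting out the layer. -/
def Proj.chi : GQ →* Multiplicative (ZMod (p ^ m)) := π.ψ.comp (cycExp p (m + 1))

theorem Proj.chi_apply (s : GQ) : π.chi s = π.ψ (cycExp p (m + 1) s) := rfl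

theorem Proj.cycLvl_le_ker : GC.cycLvl p (m + 1) ≤ π.chi.ker := fun s hs => by
  rw [MonoidHom.mem_ker, π.chi_apply, cycExp_eq_one_iff.2 hs, map_one]

theorem Proj.mem_cycLvl {s : GQ} (hs : s ∈ GC.cycLvl p 1) (h : π.chi s = 1) :
    s ∈ GC.cycLvl p (m + 1) := by
  rw [← cycExp_eq_one_iff]
  refine π.eq_one h ?_
  rw [cycExp_map (Nat.le_add_left 1 m), cycExp_eq_one_iff]
  exact hs

theorem Proj.isOpen_ker {S : Finset Nat.Primes} (hpS : pPrime p ∈ S) :
    IsOpenLvl (lvlS S) π.chi.ker :=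
  ⟨_, GC.cycLvl_mem_lvlS S hpS (m + 1), π.cycLvl_le_ker⟩

theorem Proj.isOpen_ker_lvlQ : IsOpenLvl lvlQ π.chi.ker := by
  obtain ⟨U, hU, hle⟩ := π.isOpen_ker (S := {pPrime p}) (Finset.mem_singleton_self _)
  refine ⟨U, ?_, hle⟩
  simpa using lvlS_le_lvlQ {pPrime p} U hU

/-- The local character. -/
def Proj.chiLoc (q : Nat.Primes) : Gl q →* Multiplicative (ZMod (p ^ m)) := π.chi.comp (loc q)

theorem Proj.isOpen_kerLoc (q : Nat.Primes) : IsOpenLvl (lvlLoc q) (π.chiLoc q).ker := by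
  obtain ⟨U, hU, hle⟩ := π.isOpen_ker_lvlQ
  exact ⟨U.comap (loc q), ⟨U, hU, rfl⟩, fun s hs => hle hs⟩

section local_values

variable (q : Nat.Primes)

theorem exists_loc_cycExp_eq_of_decomposition {σ : GQ}
    (hσ : σ ∈ (primeLocalPlace q).decompositionSubgroup ℚ) (n : ℕ) :
    ∃ τ : Gl q, cycExp p n (loc q τ) = cycExp p n σ := by
  have hU : GC.cycLvl p n ∈ lvlQ := by
    simpa using lvlS_le_lvlQ {pPrime p} _
      (GC.cycLvl_mem_lvlS {pPrime p} (Finset.mem_singleton_self _) n)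
  obtain ⟨τ, hτ⟩ := exists_loc_inv_mul_mem q hσ hU
  refine ⟨τ, ?_⟩
  have := cycExp_eq_one_iff.2 hτ
  rwa [map_mul, map_inv, inv_mul_eq_one] at this

/-- At `p` the cyclotomic character is surjective. -/
theorem exists_loc_cycExp_eq_p (n : ℕ) (e : (ZMod (p ^ n))ˣ) :
    ∃ τ : Gl (pPrime p), cycExp p n (loc (pPrime p) τ) = e := by
  have hp' : p.Prime := Fact.out
  rcases Nat.eq_zero_or_pos n with rfl | hn
  · exact ⟨1, Units.ext (Subsingleton.elim (α := ZMod 1) _ _)⟩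
  have ha : ¬ p ∣ (e : ZMod (p ^ n)).val := fun h => by
    have h2 : Nat.Coprime (e : ZMod (p ^ n)).val (p ^ n) := ZMod.val_coe_unit_coprime e
    exact hp'.one_lt.ne' (Nat.eq_one_of_dvd_coprimes h2 h (dvd_pow_self p hn.ne'))
  obtain ⟨ι, hι, hsp⟩ :=
    FLTA.Galois.exists_inertia_apply_eq_pow p (A := primeLocalPlace (pPrime p))
      (show (primeLocalPlace (pPrime p)).LiesOverPrime p from primeLocalPlace_liesOverPrime (pPrime p)) n _ ha
  obtain ⟨τ, hτ⟩ := exists_loc_cycExp_eq_of_decomposition (p := p) (pPrime p)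
    (FLTA.Galois.inertiaSubgroupIn_le_decompositionSubgroup hι) n
  exact ⟨τ, hτ.trans (cycExp_eq_of ι e hsp)⟩

variable {q}

theorem not_dvd_pow_of_ne (hqp : q ≠ pPrime p) (n : ℕ) : ¬ (q : ℕ) ∣ p ^ n := fun h =>
  hqp (Subtype.ext ((Nat.prime_dvd_prime_iff_eq q.2 (Fact.out : p.Prime)).1 (q.2.dvd_of_dvd_pow h)))

/-- The unit `q mod p^n`. -/
def qUnit (hqp : q ≠ pPrime p) (n : ℕ) : (ZMod (p ^ n))ˣ :=
  ZMod.unitOfCoprime (q : ℕ) (q.2.coprime_iff_not_dvd.2 (not_dvd_pow_of_ne hqp n))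

theorem exists_loc_cycExp_eq_q (hqp : q ≠ pPrime p) (n : ℕ) :
    ∃ τ : Gl q, cycExp p n (loc q τ) = qUnit hqp n := by
  obtain ⟨φ, hφ⟩ := FLTA.Galois.exists_isFrobeniusAt q.2 (primeLocalPlace_liesOverPrime q)
  obtain ⟨τ, hτ⟩ := exists_loc_cycExp_eq_of_decomposition (p := p) q hφ.mem_decompositionSubgroup n
  refine ⟨τ, hτ.trans (cycExp_eq_of φ _ fun ζ hζ => ?_)⟩
  rw [FLTA.Galois.frobenius_apply_rootOfUnity q.2 (primeLocalPlace_liesOverPrime q) hφ
    (not_dvd_pow_of_ne hqp n) hζ, qUnit, ZMod.coe_unitOfCoprime, ZMod.val_natCast,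
    ← pow_eq_pow_mod _ hζ]

theorem exists_eq_qUnit_pow (hqp : q ≠ pPrime p) (n : ℕ) (τ : Gl q) :
    ∃ k : ℕ, cycExp p n (loc q τ) = qUnit hqp n ^ k := by
  haveI := FLTA.Galois.qbar_isAlgebraic
  obtain ⟨φ, hφ⟩ := FLTA.Galois.exists_isFrobeniusAt q.2 (primeLocalPlace_liesOverPrime q)
  obtain ⟨ζ₀, hζ₀⟩ := GC.exists_primitive (p := p) n
  haveI : FiniteDimensional ℚ (IntermediateField.adjoin ℚ {ζ₀}) :=
    IntermediateField.adjoin.finiteDimensional (Algebra.IsAlgebraic.isAlgebraic ζ₀).isIntegral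
  obtain ⟨k, ι, hι, hk⟩ := FLTA.Galois.exists_pow_mul_inertia_eq q.2
    (primeLocalPlace_liesOverPrime q) hφ (loc_mem_decompositionSubgroup q τ)
    (IntermediateField.adjoin ℚ {ζ₀})
  refine ⟨k, ?_⟩
  have h1 : cycExp p n φ = qUnit hqp n := cycExp_eq_of φ _ fun ζ hζ => by
    rw [FLTA.Galois.frobenius_apply_rootOfUnity q.2 (primeLocalPlace_liesOverPrime q) hφ
      (not_dvd_pow_of_ne hqp n) hζ, qUnit, ZMod.coe_unitOfCoprime, ZMod.val_natCast,
      ← pow_eq_pow_mod _ hζ]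
  have h2 : cycExp p n ι = 1 := cycExp_eq_one_iff.2 fun ζ hζ =>
    FLTA.Galois.inertia_apply_rootOfUnity q.2 (primeLocalPlace_liesOverPrime q) hι
      (not_dvd_pow_of_ne hqp n) hζ
  have h3 : cycExp p n (loc q τ) = cycExp p n (φ ^ k * ι) := by
    refine cycExp_eq_of _ _ fun ζ hζ => ?_
    obtain ⟨i, -, rfl⟩ := hζ₀.eq_pow_of_pow_eq_one hζ
    rw [map_pow, hk ζ₀ (IntermediateField.mem_adjoin_simple_self ℚ ζ₀), ← map_pow,
      cycExp_spec (φ ^ k * ι) hζ]
  rw [h3, map_mul, map_pow, h1, h2, mul_one]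

end local_values

/-- The layer is non-trivial at every prime of `S` once `m` is large. -/
theorem exists_m (S : Finset Nat.Primes) :
    ∃ m₀ : ℕ, ∀ m, m₀ ≤ m → ∀ q ∈ S, ∀ π : Proj p m, ∃ τ : Gl q, π.chiLoc q τ ≠ 1 := by
  classical
  have hU : GC.cycLvl p 1 ∈ lvlQ := by
    simpa using lvlS_le_lvlQ {pPrime p} _
      (GC.cycLvl_mem_lvlS {pPrime p} (Finset.mem_singleton_self _) 1)
  choose τ hτ n hn using fun q : Nat.Primes => GC.exists_mem_not_mem_cycLvl (p := p) q _ hU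
  refine ⟨S.sup n + 1, fun m hm q hq π => ⟨τ q, fun h => hn q ?_⟩⟩
  have hle : n q ≤ m + 1 := (Finset.le_sup hq).trans (by omega)
  exact GC.cycLvl_antitone hle (π.mem_cycLvl (hτ q) h)

end FLTA.PT.Sum

end
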