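import Fermat.Agent.PoitouTate.SumFormulaCyc
import Fermat.Agent.PoitouTate.NormArith
import Mathlib.RingTheory.Polynomial.Cyclotomic.Eval

/-!
# `ℚ_q` inside `ℚ̄_q`; valuations, unit parts, `p^m`-th powers and the norm equal to `p`
-/

set_option autoImplicit false

open ExtCitation

noncomputable section

namespace FLTA.PT.Sum

set_option linter.unusedSectionVars false

theorem factPrime (q : Nat.Primes) : Fact (q : ℕ).Prime := ⟨q.2⟩

attribute [local instance] factPrime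

section emb

variable (q : Nat.Primes)

/-- `ℚ_qˣ` inside `ℚ̄_qˣ`. -/
def emb : Additive ℚ_[(q : ℕ)]ˣ →+ Ml q :=
  MonoidHom.toAdditive (Units.map (algebraMap ℚ_[(q : ℕ)] (Ql q) : ℚ_[(q : ℕ)] →* Ql q))

theorem val_emb (c : Additive ℚ_[(q : ℕ)]ˣ) :
    ((Additive.toMul (emb q c) : (Ql q)ˣ) : Ql q) =
      algebraMap ℚ_[(q : ℕ)] (Ql q) ((Additive.toMul c : ℚ_[(q : ℕ)]ˣ) : ℚ_[(q : ℕ)]) := rfl

theorem emb_injective : Function.Injective (emb q) := fun a b h =>
  Additive.toMul.injective (Units.map_injective (algebraMap ℚ_[(q : ℕ)] (Ql q)).injective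
    (congrArg Additive.toMul h))

theorem emb_mem_fixedBy (c : Additive ℚ_[(q : ℕ)]ˣ) (H : Subgroup (Gl q)) :
    emb q c ∈ fixedBy (unitsRepLoc q) H := fun s _ => by
  apply Additive.toMul.injective
  ext
  exact (locAut q s).commutes _

theorem exists_emb_eq {a : Ml q} (ha : a ∈ fixedBy (unitsRepLoc q) ⊤) : ∃ c, emb q c = a := by
  haveI : IsAlgClosure ℚ_[(q : ℕ)] (Ql q) := ⟨inferInstance, inferInstance⟩
  haveI : IsGalois ℚ_[(q : ℕ)] (Ql q) := IsAlgClosure.isGalois _ _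
  obtain ⟨y, hy⟩ := (InfiniteGalois.mem_range_algebraMap_iff_fixed
    ((Additive.toMul a : (Ql q)ˣ) : Ql q)).2 fun g => by
      have h := congrArg (fun b => ((Additive.toMul b : (Ql q)ˣ) : Ql q)) (ha g trivial)
      exact h
  have hy0 : y ≠ 0 := fun h => by
    rw [h, map_zero] at hy
    exact Units.ne_zero _ hy.symm
  refine ⟨Additive.ofMul (Units.mk0 y hy0), ?_⟩
  apply Additive.toMul.injective
  ext
  exact hy

theorem absv_emb (c : Additive ℚ_[(q : ℕ)]ˣ) :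
    absv q (emb q c) = ‖((Additive.toMul c : ℚ_[(q : ℕ)]ˣ) : ℚ_[(q : ℕ)])‖ := by
  show ‖algebraMap ℚ_[(q : ℕ)] (Ql q) _‖ = _
  exact norm_algebraMap' _ _

/-- The normalised valuation. -/
def val : Additive ℚ_[(q : ℕ)]ˣ →+ ℤ where
  toFun c := Padic.valuation ((Additive.toMul c : ℚ_[(q : ℕ)]ˣ) : ℚ_[(q : ℕ)])
  map_zero' := by simp
  map_add' a b := by
    simp only [toMul_add, Units.val_mul]
    exact Padic.valuation_mul (Units.ne_zero _) (Units.ne_zero _)

theorem val_apply (c : ℚ_[(q : ℕ)]ˣ) :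
    val q (Additive.ofMul c) = Padic.valuation (c : ℚ_[(q : ℕ)]) := rfl

theorem norm_eq_zpow_val (c : Additive ℚ_[(q : ℕ)]ˣ) :
    ‖((Additive.toMul c : ℚ_[(q : ℕ)]ˣ) : ℚ_[(q : ℕ)])‖ = ((q : ℕ) : ℝ) ^ (-val q c) :=
  Padic.norm_eq_zpow_neg_valuation (Units.ne_zero _)

theorem val_eq_mul_iff (d : ℕ) (c c' : Additive ℚ_[(q : ℕ)]ˣ) :
    absv q (emb q c) = absv q (emb q c') ^ d ↔ val q c = d * val q c' := by
  rw [absv_emb, absv_emb, norm_eq_zpow_val, norm_eq_zpow_val, ← zpow_natCast, ← zpow_mul,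
    zpow_right_inj₀ (by exact_mod_cast q.2.pos) (by exact_mod_cast q.2.one_lt.ne')]
  constructor <;> intro h <;> linarith

theorem exists_val_eq (v : ℤ) : ∃ c, val q c = v :=
  ⟨Additive.ofMul (Units.mk0 (((q : ℕ) : ℚ_[(q : ℕ)]) ^ v)
    (zpow_ne_zero _ (Nat.cast_ne_zero.2 q.2.ne_zero))), by
    rw [val_apply, Units.val_mk0, Padic.valuation_zpow, Padic.valuation_p, mul_one]⟩

/-- Rational units in `ℚ_q`. -/
def ratLoc : Additive ℚˣ →+ Additive ℚ_[(q : ℕ)]ˣ :=
  MonoidHom.toAdditive (Units.map ((Rat.castHom ℚ_[(q : ℕ)]) : ℚ →* ℚ_[(q : ℕ)]))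

theorem val_ratLoc (r : Additive ℚˣ) :
    val q (ratLoc q r) = padicValRat (q : ℕ) ((Additive.toMul r : ℚˣ) : ℚ) :=
  Padic.valuation_ratCast _

end emb

/-- Rational units in `ℚ̄`. -/
def ratQ : Additive ℚˣ →+ Mq :=
  MonoidHom.toAdditive (Units.map (algebraMap ℚ Qb : ℚ →* Qb))

theorem iotaUnits_ratQ (q : Nat.Primes) (r : Additive ℚˣ) :
    iotaUnits q (ratQ r) = emb q (ratLoc q r) := by
  apply Additive.toMul.injective
  ext
  show iota q (algebraMap ℚ Qb _) = algebraMap ℚ_[(q : ℕ)] (Ql q) (Rat.castHom ℚ_[(q : ℕ)] _)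
  rw [eq_ratCast, eq_ratCast, map_ratCast, map_ratCast]

theorem exists_ratQ_eq {a : Mq} (ha : a ∈ fixedBy unitsRep ⊤) : ∃ r, ratQ r = a := by
  haveI := FLTA.Galois.qbar_isGalois
  obtain ⟨y, hy⟩ := (InfiniteGalois.mem_range_algebraMap_iff_fixed
    ((Additive.toMul a : Qbˣ) : Qb)).2 fun g =>
      congrArg (fun b => ((Additive.toMul b : Qbˣ) : Qb)) (ha g trivial)
  have hy0 : y ≠ 0 := fun h => by
    rw [h, map_zero] at hy
    exact Units.ne_zero _ hy.symm
  refine ⟨Additive.ofMul (Units.mk0 y hy0), ?_⟩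
  apply Additive.toMul.injective
  ext
  exact hy

section atp

variable (p : ℕ) [Fact p.Prime]

theorem norm_unit_part (c : ℚ_[p]ˣ) :
    ‖((p : ℚ_[p]) ^ (-Padic.valuation (c : ℚ_[p]))) * (c : ℚ_[p])‖ = 1 := by
  rw [norm_mul, norm_zpow, Padic.norm_p, Padic.norm_eq_zpow_neg_valuation (Units.ne_zero c),
    inv_zpow, ← zpow_neg, neg_neg, ← zpow_add₀ (Nat.cast_ne_zero.2 (Fact.out : p.Prime).ne_zero),
    add_neg_cancel, zpow_zero]

/-- The unit part of an element of `ℚ_pˣ`. -/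
def unitPart : ℚ_[p]ˣ →* ℤ_[p]ˣ :=
  MonoidHom.mk' (fun c => PadicInt.mkUnits (norm_unit_part p c)) fun a b => by
    apply Units.ext
    apply Subtype.ext
    simp only [Units.val_mul, PadicInt.coe_mul, PadicInt.mkUnits_eq,
      Padic.valuation_mul (Units.ne_zero a) (Units.ne_zero b), neg_add,
      zpow_add₀ (show (p : ℚ_[p]) ≠ 0 from Nat.cast_ne_zero.2 (Fact.out : p.Prime).ne_zero)]
    ring

theorem coe_unitPart (c : ℚ_[p]ˣ) :
    (((unitPart p c : ℤ_[p]ˣ) : ℤ_[p]) : ℚ_[p]) =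
      ((p : ℚ_[p]) ^ (-Padic.valuation (c : ℚ_[p]))) * (c : ℚ_[p]) :=
  PadicInt.mkUnits_eq (norm_unit_part p c)

/-- The unit part modulo `p ^ n`. -/
def unitMod (n : ℕ) : ℚ_[p]ˣ →* (ZMod (p ^ n))ˣ :=
  (Units.map ((PadicInt.toZModPow (p := p) n) : ℤ_[p] →* ZMod (p ^ n))).comp (unitPart p)

theorem unitMod_natCast {n a : ℕ} (ha : Nat.Coprime a (p ^ n)) (ha' : ¬ p ∣ a) (c : ℚ_[p]ˣ)
    (hc : (c : ℚ_[p]) = a) : unitMod p n c = ZMod.unitOfCoprime a ha := by
  have hv : Padic.valuation (c : ℚ_[p]) = 0 := by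
    rw [hc, Padic.valuation_natCast, padicValNat.eq_zero_of_not_dvd ha']; rfl
  have h : ((unitPart p c : ℤ_[p]ˣ) : ℤ_[p]) = a := by
    apply Subtype.ext
    rw [coe_unitPart, hv, neg_zero, zpow_zero, one_mul, hc]; simp
  ext
  show PadicInt.toZModPow n ((unitPart p c : ℤ_[p]ˣ) : ℤ_[p]) = _
  rw [h, map_natCast, ZMod.coe_unitOfCoprime]

theorem unitMod_prime {n : ℕ} (c : ℚ_[p]ˣ) (hc : (c : ℚ_[p]) = p) : unitMod p n c = 1 := by
  have h : ((unitPart p c : ℤ_[p]ˣ) : ℤ_[p]) = 1 := by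
    apply Subtype.ext
    rw [coe_unitPart, hc, Padic.valuation_p, zpow_neg_one, inv_mul_cancel₀]
    · rfl
    · exact Nat.cast_ne_zero.2 (Fact.out : p.Prime).ne_zero
  ext
  show PadicInt.toZModPow n ((unitPart p c : ℤ_[p]ˣ) : ℤ_[p]) = _
  rw [h, map_one, Units.val_one]

theorem dvd_pow_prime_sub_one {k : ℕ} (hk : 1 ≤ k) {a : ℤ_[p]} (h : (p : ℤ_[p]) ^ k ∣ a - 1)
    (j : ℕ) : (p : ℤ_[p]) ^ (k + j) ∣ a ^ p ^ j - 1 := by
  induction j with
  | zero => simpa using h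
  | succ j ih =>
    rw [pow_succ p j, pow_mul]
    set b := a ^ p ^ j
    rw [← geom_sum_mul b p, ← Nat.add_assoc, pow_succ' (p : ℤ_[p]) (k + j)]
    refine mul_dvd_mul ?_ ih
    have hb : (p : ℤ_[p]) ∣ b - 1 := (dvd_pow_self _ (by omega)).trans ih
    have h2 : ∑ i ∈ Finset.range p, b ^ i =
        (∑ i ∈ Finset.range p, (b ^ i - 1)) + (p : ℤ_[p]) := by
      simp [Finset.sum_sub_distrib]
    rw [h2]
    exact dvd_add (Finset.dvd_sum fun i _ => hb.trans (sub_one_dvd_pow_sub_one b i)) dvd_rfl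

/-- Units congruent to one modulo `p^(m+1)` are `p^m`-th powers. -/
theorem exists_pow_eq (hp : p ≠ 2) {m : ℕ} (u : ℤ_[p])
    (hu : PadicInt.toZModPow (m + 1) u = 1) : ∃ w : ℤ_[p], w ^ p ^ m = u := by
  have hp' : p.Prime := Fact.out
  have hdvd : (p : ℤ_[p]) ^ (m + 1) ∣ u - 1 := by
    rw [← Ideal.mem_span_singleton, ← PadicInt.ker_toZModPow, RingHom.mem_ker, map_sub, hu,
      map_one, sub_self]
  have happrox : ∀ N : ℕ, ∃ w : ℤ_[p], (p : ℤ_[p]) ^ N ∣ w ^ p ^ m - u := by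
    intro N
    set e := N + m
    haveI : NeZero (p ^ (e + 1)) := ⟨(pow_pos hp'.pos _).ne'⟩
    have hu1 : IsUnit (PadicInt.toZModPow (e + 1) u) := by
      refine IsUnit.map _ ?_
      rw [PadicInt.isUnit_iff]
      refine le_antisymm (PadicInt.norm_le_one u) (not_lt.1 fun h => ?_)
      have h1 : (p : ℤ_[p]) ∣ u := (PadicInt.norm_lt_one_iff_dvd u).1 h
      have h2 : (p : ℤ_[p]) ∣ 1 := by
        simpa using dvd_sub h1 ((dvd_pow_self (p : ℤ_[p]) (Nat.succ_ne_zero m)).trans hdvd)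
      exact PadicInt.p_nonunit (isUnit_of_dvd_one h2)
    obtain ⟨x, hx⟩ := hu1
    haveI : IsCyclic (ZMod (p ^ (e + 1)))ˣ := ZMod.isCyclic_units_of_prime_pow p hp' hp (e + 1)
    obtain ⟨γ, hγ⟩ := IsCyclic.exists_generator (α := (ZMod (p ^ (e + 1)))ˣ)
    obtain ⟨a, ha⟩ : ∃ a : ℕ, γ ^ a = x :=
      (Submonoid.mem_powers_iff _ _).1 ((isOfFinOrder_of_finite γ).mem_powers_iff_mem_zpowers.2 (hγ x))
    have hx1 : x ^ p ^ (e - m) = 1 := by
      have h := dvd_pow_prime_sub_one p (Nat.le_add_left 1 m) hdvd (e - m)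
      rw [show m + 1 + (e - m) = e + 1 by omega] at h
      ext
      rw [Units.val_pow_eq_pow_val, Units.val_one, hx, ← map_pow, ← sub_eq_zero,
        ← map_one (PadicInt.toZModPow (e + 1)), ← map_sub]
      rw [← RingHom.mem_ker, PadicInt.ker_toZModPow, Ideal.mem_span_singleton]
      exact h
    have hord : orderOf γ = p ^ e * (p - 1) := by
      rw [orderOf_eq_card_of_forall_mem_zpowers hγ, Nat.card_eq_fintype_card,
        ZMod.card_units_eq_totient, Nat.totient_prime_pow_succ hp']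
    have hdiv : p ^ m ∣ a := by
      rw [← ha, ← pow_mul, ← orderOf_dvd_iff_pow_eq_one, hord] at hx1
      have h := (dvd_mul_right (p ^ e) (p - 1)).trans hx1
      rw [show e = m + (e - m) by omega, pow_add,
        show m + (e - m) - m = e - m by omega] at h
      exact Nat.dvd_of_mul_dvd_mul_right (pow_pos hp'.pos _) h
    obtain ⟨b, rfl⟩ := hdiv
    obtain ⟨w, hw⟩ := ZMod.ringHom_surjective (PadicInt.toZModPow (p := p) (e + 1))
      ((γ ^ b : (ZMod (p ^ (e + 1)))ˣ) : ZMod (p ^ (e + 1)))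
    refine ⟨w, (pow_dvd_pow _ (show N ≤ e + 1 by omega)).trans ?_⟩
    rw [← Ideal.mem_span_singleton, ← PadicInt.ker_toZModPow, RingHom.mem_ker, map_sub, map_pow,
      hw, ← hx, ← ha, Units.val_pow_eq_pow_val, Units.val_pow_eq_pow_val, ← pow_mul, mul_comm,
      sub_self]
  have hcl : IsClosed (Set.range fun w : ℤ_[p] => w ^ p ^ m) :=
    (isCompact_range (continuous_pow _)).isClosed
  have hmem : u ∈ closure (Set.range fun w : ℤ_[p] => w ^ p ^ m) := by
    rw [Metric.mem_closure_iff]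
    intro ε hε
    obtain ⟨N, hN⟩ := PadicInt.exists_pow_neg_lt p hε
    obtain ⟨w, hw⟩ := happrox N
    refine ⟨_, ⟨w, rfl⟩, lt_of_le_of_lt ?_ hN⟩
    rw [dist_comm, dist_eq_norm]
    exact (PadicInt.norm_le_pow_iff_mem_span_pow _ _).2 (Ideal.mem_span_singleton.2 hw)
  rwa [hcl.closure_eq] at hmem

/-- `p` as the norm of a cyclotomic unit times `1 - ζ`. -/
theorem exists_norm_eq_p {m : ℕ} (π : Proj p m) :
    ∃ b : Mq, (∀ s : GQ, π.chi s = 1 → unitsRep s b = b) ∧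
      ∀ s : GQ, π.chi s = Multiplicative.ofAdd 1 →
        ∀ r : Additive ℚˣ, ((Additive.toMul r : ℚˣ) : ℚ) = p →
          ∑ i ∈ Finset.range (p ^ m), unitsRep (s ^ i) b = ratQ r := by
  classical
  have hp' : p.Prime := Fact.out
  obtain ⟨ζ, hζ⟩ := GC.exists_primitive (p := p) (m + 1)
  let E : Finset (ZMod (p ^ (m + 1)))ˣ := Finset.univ.filter fun e => π.ψ e = 1
  let f : (ZMod (p ^ (m + 1)))ˣ → Qb := fun e => 1 - ζ ^ (e : ZMod (p ^ (m + 1))).val
  have hact : ∀ (s : GQ) (e : (ZMod (p ^ (m + 1)))ˣ), s (f e) = f (cycExp p (m + 1) s * e) := by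
    intro s e
    simp only [f, map_sub, map_one, map_pow, cycExp_spec s hζ.pow_eq_one, ← pow_mul, Units.val_mul,
      ZMod.val_mul]
    rw [← pow_eq_pow_mod _ hζ.pow_eq_one]
  have hf0 : ∀ e, f e ≠ 0 := fun e h => by
    have h1 : ζ ^ (e : ZMod (p ^ (m + 1))).val = 1 := (sub_eq_zero.1 h).symm
    have h2 := hζ.dvd_of_pow_eq_one _ h1
    have h3 : (e : ZMod (p ^ (m + 1))).val = 0 :=
      Nat.eq_zero_of_dvd_of_lt h2 (ZMod.val_lt _)
    have h4 : Nat.Coprime (e : ZMod (p ^ (m + 1))).val (p ^ (m + 1)) := ZMod.val_coe_unit_coprime e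
    rw [h3, Nat.coprime_zero_left] at h4
    exact absurd h4 (Nat.one_lt_pow (Nat.succ_ne_zero m) hp'.one_lt).ne'
  have hb0 : ∏ e ∈ E, f e ≠ 0 := Finset.prod_ne_zero_iff.2 fun e _ => hf0 e
  let b : Mq := Additive.ofMul (Units.mk0 _ hb0)
  have hshift : ∀ s : GQ, ((Additive.toMul (unitsRep s b) : Qbˣ) : Qb) =
      ∏ e ∈ Finset.univ.filter (fun e => π.ψ e = π.chi s), f e := by
    intro s
    show s (∏ e ∈ E, f e) = _
    rw [map_prod]
    refine Finset.prod_equiv (Equiv.mulLeft (cycExp p (m + 1) s)) (fun e => ?_) fun e _ => hact s e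
    simp only [E, Finset.mem_filter_univ, Equiv.coe_mulLeft]
    rw [π.chi_apply, map_mul, mul_eq_left]
  refine ⟨b, fun s hs => ?_, fun s hs r hr => ?_⟩
  · apply Additive.toMul.injective
    ext
    rw [hshift s, hs]
    rfl
  · apply Additive.toMul.injective
    ext
    rw [toMul_sum, Units.coe_prod]
    have hpow : ∀ i : ℕ, π.chi (s ^ i) = Multiplicative.ofAdd ((i : ZMod (p ^ m))) := fun i => by
      rw [map_pow, hs, ← ofAdd_nsmul, nsmul_one]
    simp only [hshift, hpow]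
    show _ = algebraMap ℚ Qb ((Additive.toMul r : ℚˣ) : ℚ)
    rw [hr, map_natCast]
    rw [← Polynomial.eval_one_cyclotomic_prime_pow (R := Qb) (p := p) m,
      Polynomial.cyclotomic_eq_prod_X_sub_primitiveRoots hζ, Polynomial.eval_prod]
    simp only [Polynomial.eval_sub, Polynomial.eval_X, Polynomial.eval_C]
    rw [Finset.range_eq_Ico, ← Finset.prod_biUnion]
    · refine Finset.prod_bij (fun e _ => ζ ^ (e : ZMod (p ^ (m + 1))).val) ?_ ?_ ?_ ?_
      · intro e _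
        rw [mem_primitiveRoots (pow_pos hp'.pos _)]
        exact hζ.pow_of_coprime _ (ZMod.val_coe_unit_coprime e)
      · intro e _ e' _ h
        exact Units.ext (ZMod.val_injective _
          (hζ.pow_inj (ZMod.val_lt _) (ZMod.val_lt _) h))
      · intro μ hμ
        rw [mem_primitiveRoots (pow_pos hp'.pos _)] at hμ
        obtain ⟨i, hi, hic, rfl⟩ := (hζ.isPrimitiveRoot_iff).1 hμ
        refine ⟨ZMod.unitOfCoprime i hic, ?_, ?_⟩
        · rw [Finset.mem_biUnion]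
          refine ⟨(π.ψ (ZMod.unitOfCoprime i hic)).toAdd.val, ?_, ?_⟩
          · simp [ZMod.val_lt]
          · simp
        · rw [ZMod.coe_unitOfCoprime, ZMod.val_cast_of_lt hi]
      · intro e _; rfl
    · intro i hi j hj hij
      rw [Function.onFun, Finset.disjoint_left]
      intro e he he'
      simp only [Finset.mem_filter, Finset.mem_univ, true_and] at he he'
      rw [he] at he'
      have h := congrArg ZMod.val (Multiplicative.ofAdd.injective he')
      simp only [Finset.coe_Ico, Set.mem_Ico] at hi hj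
      rw [ZMod.val_cast_of_lt hi.2, ZMod.val_cast_of_lt hj.2] at h
      exact hij h

end atp

end FLTA.PT.Sum

end
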