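import Fermat.Agent.PoitouTate.GlobalJ

/-!
# `H¹(G_S, M') → H²_c(G_S, M)^*` is injective
-/

set_option autoImplicit false

open ExtCitation Module

noncomputable section

namespace FLTA.PT

variable {p : ℕ} [Fact p.Prime] {S : Finset Nat.Primes}
variable {V W : Type} [AddCommGroup V] [Module (ZMod p) V] [AddCommGroup W] [Module (ZMod p) W]
variable {ρ : Representation (ZMod p) GQ V} {σ : Representation (ZMod p) GQ W}

section kernelQuot

variable (X : Type) [Fintype X] [MulAction GQ X]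

theorem funRep_sumKer (g : GQ) {F : X → V} (hF : F ∈ LinearMap.ker (sumMap (k := ZMod p) X)) :
    funRep ρ X g F ∈ LinearMap.ker (sumMap (k := ZMod p) X) := by
  rw [LinearMap.mem_ker] at hF ⊢
  exact (equivariant_sumMap ρ X g F).trans (by rw [hF, map_zero])

/-- The kernel of the sum map. -/
def kerRep : Representation (ZMod p) GQ (LinearMap.ker (sumMap (k := ZMod p) (V := V) X)) where
  toFun g := (funRep ρ X g).restrict fun _ hF => funRep_sumKer X g hF
  map_one' := LinearMap.ext fun F => Subtype.ext (by simp [map_one])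
  map_mul' g h := LinearMap.ext fun F => Subtype.ext (by simp [map_mul])

theorem funRep_constRange (g : GQ) {F : X → W}
    (hF : F ∈ LinearMap.range (constMap (k := ZMod p) X)) :
    funRep σ X g F ∈ LinearMap.range (constMap (k := ZMod p) X) := by
  obtain ⟨w, rfl⟩ := hF
  exact ⟨σ g w, equivariant_constMap σ X g w⟩

/-- Functions modulo constants. -/
def quotRep :
    Representation (ZMod p) GQ ((X → W) ⧸ LinearMap.range (constMap (k := ZMod p) (V := W) X)) where
  toFun g := Submodule.mapQ _ _ (funRep σ X g) fun _ hF => funRep_constRange X g hF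
  map_one' := Submodule.linearMap_qext _ (LinearMap.ext fun F =>
    congrArg Submodule.Quotient.mk (by simp [map_one]))
  map_mul' g h := Submodule.linearMap_qext _ (LinearMap.ext fun F =>
    congrArg Submodule.Quotient.mk (by simp [map_mul]))

theorem funPairing_apply (P : Pairing (cycloChar p) ρ σ) (F : X → V) (G : X → W) :
    (P.funPairing X).e F G = ∑ x, P.e (F x) (G x) := by
  simp [Pairing.funPairing]

theorem funPairing_const (P : Pairing (cycloChar p) ρ σ) (F : X → V) (w : W) :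
    (P.funPairing X).e F (constMap (k := ZMod p) X w) =
      P.e (sumMap (k := ZMod p) X F) w := by
  simp only [funPairing_apply, sumMap_apply, map_sum, LinearMap.sum_apply]
  rfl

/-- The pairing between the kernel of the sum and functions modulo constants. -/
def kerPairing (P : Pairing (cycloChar p) ρ σ) :
    Pairing (cycloChar p) (kerRep (ρ := ρ) X) (quotRep (σ := σ) X) where
  e := LinearMap.flip <| Submodule.liftQ _
    ((P.funPairing X).e.flip.compl₂ (LinearMap.ker (sumMap (k := ZMod p) X)).subtype)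
    (fun G hG => LinearMap.mem_ker.2 (LinearMap.ext fun F => by
      obtain ⟨w, rfl⟩ := hG
      show (P.funPairing X).e F.1 (constMap (k := ZMod p) X w) = 0
      rw [funPairing_const, LinearMap.mem_ker.1 F.2, map_zero, LinearMap.zero_apply]))
  equivariant g F G := by
    induction G using Submodule.Quotient.induction_on with
    | _ G => exact (P.funPairing X).equivariant g F.1 G

theorem kerPairing_perfect [Finite V] [Finite W] [Nonempty X] (P : Pairing (cycloChar p) ρ σ)
    (hP : P.Perfect) : (kerPairing X P).Perfect := by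
  classical
  have h1 : Function.Injective (kerPairing X P).e := (injective_iff_map_eq_zero _).2 fun F hF => by
    refine Subtype.ext (funext fun x => hP.1.1 (LinearMap.ext fun w => ?_))
    have := LinearMap.congr_fun hF (Submodule.Quotient.mk (Pi.single x w))
    have e : (P.funPairing X).e F.1 (Pi.single x w) = 0 := this
    rw [funPairing_apply, Finset.sum_eq_single x (fun y _ h => by simp [Pi.single_eq_of_ne h])
      (by simp), Pi.single_eq_same] at e
    simpa using e
  have h2 : Function.Injective (kerPairing X P).e.flip :=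
    (injective_iff_map_eq_zero _).2 fun G hG => by
      induction G using Submodule.Quotient.induction_on with
      | _ G =>
        obtain ⟨x₀⟩ := (inferInstance : Nonempty X)
        refine (Submodule.Quotient.mk_eq_zero _).2 ⟨G x₀, funext fun x => ?_⟩
        refine hP.2.1 (LinearMap.ext fun v => ?_)
        have hmem : (Pi.single x₀ v - Pi.single x v : X → V) ∈
            LinearMap.ker (sumMap (k := ZMod p) X) := by
          simp [LinearMap.mem_ker, Finset.sum_pi_single']
        have := LinearMap.congr_fun hG ⟨_, hmem⟩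
        have e : (P.funPairing X).e (Pi.single x₀ v - Pi.single x v) G = 0 := this
        simp only [map_sub, LinearMap.sub_apply, funPairing_apply] at e
        rw [Finset.sum_eq_single x₀ (fun y _ h => by simp [Pi.single_eq_of_ne h]) (by simp),
          Finset.sum_eq_single x (fun y _ h => by simp [Pi.single_eq_of_ne h]) (by simp),
          Pi.single_eq_same, Pi.single_eq_same, sub_eq_zero] at e
        exact e
  haveI : Finite (LinearMap.ker (sumMap (k := ZMod p) (V := V) X)) := Subtype.finite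
  haveI : Finite ((X → W) ⧸ LinearMap.range (constMap (k := ZMod p) (V := W) X)) :=
    Finite.of_surjective _ (Submodule.mkQ_surjective _)
  have h3 := surjective_of_nondegenerate_of_finite (kerPairing X P).e h1 h2
  exact ⟨⟨h1, h3.1⟩, ⟨h2, h3.2⟩⟩

end kernelQuot

/-- Semi-local `H²`. -/
abbrev P2 (S : Finset Nat.Primes) (ρ : Representation (ZMod p) GQ V) : Type :=
  ∀ q : S, H2At ρ q.1

/-- The group structure on semi-local `H²`. -/
instance instAddCommGroupP2 (ρ : Representation (ZMod p) GQ V) : AddCommGroup (P2 S ρ) :=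
  @Pi.addCommGroup S (fun q => H2At ρ q.1) (fun _ => inferInstance)

/-- The module structure on semi-local `H²`. -/
instance instModuleP2 (ρ : Representation (ZMod p) GQ V) :
    @Module (ZMod p) (P2 S ρ) _ (instAddCommGroupP2 ρ).toAddCommMonoid :=
  @Pi.module S (fun q => H2At ρ q.1) (ZMod p) _ (fun _ => AddCommGroup.toAddCommMonoid)
    (fun _ => inferInstance)

/-- A functional family, injective, detects membership in the image of a subspace. -/
theorem mem_of_forall_killed {k Q A : Type} [Field k] [AddCommGroup Q] [Module k Q]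
    [Module.Finite k Q] [AddCommGroup A] [Module k A] (Θ : Q →ₗ[k] Module.Dual k A)
    (hΘ : Function.Injective Θ) (Q₀ : Submodule k Q) (m : Q)
    (h : ∀ a, (∀ r ∈ Q₀, Θ r a = 0) → Θ m a = 0) : m ∈ Q₀ := by
  have hm : Θ m ∈ (Q₀.map Θ).dualCoannihilator.dualAnnihilator := by
    rw [Submodule.mem_dualAnnihilator]
    exact fun a ha => h a fun r hr =>
      (Submodule.mem_dualCoannihilator _).1 ha _ (Submodule.mem_map_of_mem hr)
  rw [Subspace.dualCoannihilator_dualAnnihilator_eq] at hm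
  obtain ⟨r, hr, e⟩ := hm
  exact hΘ e ▸ hr

theorem forall_fixed {w : W} (hw : w ∈ fixedBy σ ⊤) (g : GQ) : σ g w = w :=
  hw g (Subgroup.mem_top g)

/-- Change of coefficients into `μ_p` on local `H²`. -/
def coeffMu (q : Nat.Primes) (φ : V →ₗ[ZMod p] ZMod p)
    (hφ : Equivariant ρ (muRep p) (MonoidHom.id GQ) φ) :
    H2At ρ q →ₗ[ZMod p] H2c (lvlLoc q) (muLoc p q) :=
  map2 (L := lvlLoc q) (L' := lvlLoc q) (f := MonoidHom.id (Gl q)) (φ := φ)
    (ρ := ρ.comp (loc q)) (σ := muLoc p q) (lvlLE_id _) (fun g v => hφ (loc q g) v)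

/-- The functional on semi-local `H²` defined by an invariant. -/
def invFunctional (I : InvSystem p S) (P : Pairing (cycloChar p) ρ σ) (w : fixedBy σ ⊤)
    (q : S) : H2At ρ q.1 →ₗ[ZMod p] ZMod p :=
  (I.inv q.1).comp (coeffMu q.1 (P.e.flip w.1) (P.equivariant_right (forall_fixed w.2)))

theorem invFunctional_add (I : InvSystem p S) (P : Pairing (cycloChar p) ρ σ)
    (a b : fixedBy σ ⊤) (q : S) :
    invFunctional I P (a + b) q = invFunctional I P a q + invFunctional I P b q := by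
  refine Submodule.linearMap_qext _ (LinearMap.ext fun x => ?_)
  refine Eq.trans ?_ (map_add (I.inv q.1) _ _)
  exact congrArg (fun t => I.inv q.1 (H2cπ (lvlLoc q.1) (muLoc p q.1) t))
    (Subtype.ext (funext fun g => map_add (P.e (x.1 g)) a.1 b.1))

theorem invFunctional_smul (I : InvSystem p S) (P : Pairing (cycloChar p) ρ σ) (r : ZMod p)
    (a : fixedBy σ ⊤) (q : S) :
    invFunctional I P (r • a) q = r • invFunctional I P a q := by
  refine Submodule.linearMap_qext _ (LinearMap.ext fun x => ?_)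
  refine Eq.trans ?_ (map_smul (I.inv q.1) _ _)
  exact congrArg (fun t => I.inv q.1 (H2cπ (lvlLoc q.1) (muLoc p q.1) t))
    (Subtype.ext (funext fun g => map_smul (P.e (x.1 g)) r a.1))

/-- The map from invariants to functionals on semi-local `H²`. -/
def invTop (I : InvSystem p S) (P : Pairing (cycloChar p) ρ σ) :
    fixedBy σ ⊤ →ₗ[ZMod p] Module.Dual (ZMod p) (P2 S ρ) where
  toFun w := ∑ q : S, (invFunctional I P w q).comp (LinearMap.proj q)
  map_add' a b := by
    simp only [invFunctional_add, LinearMap.add_comp, Finset.sum_add_distrib]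
  map_smul' r a := by
    simp only [invFunctional_smul, LinearMap.smul_comp, RingHom.id_apply, Finset.smul_sum]

theorem invTop_apply (I : InvSystem p S) (P : Pairing (cycloChar p) ρ σ) (w : fixedBy σ ⊤)
    (β : P2 S ρ) : invTop I P w β = ∑ q : S, invFunctional I P w q (β q) := by
  show (∑ q : S, (invFunctional I P w q).comp (LinearMap.proj q) : Module.Dual _ _) β = _
  simp [LinearMap.sum_apply]

theorem invTop_injective [Finite V] [Finite W] (I : InvSystem p S) (hp : p ≠ 2)
    (hpS : pPrime p ∈ S) (P : Pairing (cycloChar p) ρ σ) (hP : P.Perfect)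
    (hρ : Smooth (lvlS S) ρ) (hσ : Smooth (lvlS S) σ) : Function.Injective (invTop I P) := by
  classical
  refine (injective_iff_map_eq_zero _).2 fun w hw => ?_
  let qp : S := ⟨pPrime p, hpS⟩
  refine Subtype.ext (eq_zero_of_forall_cup20 p qp.1 (P.comp (loc qp.1)) hp (hP.comp qp.1)
    (smooth_loc hρ qp.1) (smooth_loc hσ qp.1) w.1
    (fun g _ => forall_fixed w.2 (loc qp.1 g)) fun a ha => ?_)
  have := LinearMap.congr_fun hw
    (Pi.single qp (H2cπ (lvlLoc qp.1) (ρ.comp (loc qp.1)) ⟨a, ha⟩) : P2 S ρ)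
  rw [invTop_apply, LinearMap.zero_apply, Finset.sum_eq_single qp
    (fun q _ h => by rw [Pi.single_eq_of_ne h, map_zero]) (by simp),
    Pi.single_eq_same, invFunctional, LinearMap.comp_apply, ← map_zero (I.inv qp.1),
    (I.bijective qp.1 qp.2).1.eq_iff] at this
  have e : cup20 (P.comp (loc qp.1)) a w.1 =
      pp2 (MonoidHom.id (Gl qp.1)) (P.e.flip w.1) a := funext fun g => by
    show P.e (a g) (σ (loc qp.1 (g.1 * g.2)) w.1) = P.e (a g) w.1
    rw [forall_fixed w.2]
  rw [e]
  exact (H2cπ_eq_zero _ _).1 this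

/-- Pairing a cocycle with invariant coefficients. -/
theorem invFunctional_mk (I : InvSystem p S) (P : Pairing (cycloChar p) ρ σ) (w : fixedBy σ ⊤)
    (q : S) (b : Z2 (lvlLoc q.1) (ρ.comp (loc q.1))) :
    invFunctional I P w q (H2cπ (lvlLoc q.1) (ρ.comp (loc q.1)) b) =
      invOf I q.1 (pp2 (MonoidHom.id (Gl q.1)) (P.e.flip w.1) b.1) := by
  rw [invOf_eq I (pp2_mem_Z2 (lvlLE_id _)
    (fun g v => P.equivariant_right (forall_fixed w.2) (loc q.1 g) v) b.2)]
  rfl

/-- Pairing a twisted compactly supported class with a coboundary. -/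
theorem thetaR_d0_twisted (I : InvSystem p S) {V' W' : Type} [AddCommGroup V'] [Module (ZMod p) V']
    [AddCommGroup W'] [Module (ZMod p) W'] {ρ' : Representation (ZMod p) GQ V'}
    {σ' : Representation (ZMod p) GQ W'} (Q : Pairing (cycloChar p) ρ' σ')
    (hσ' : Smooth (lvlS S) σ') (z : GQ × GQ → V') (hz : z ∈ Z2 (lvlS S) ρ')
    (u : ∀ q : S, Gl q.1 → V') (huc : ∀ q : S, IsConst₁ (lvlLoc q.1) (u q))
    (b : ∀ q : S, Gl q.1 × Gl q.1 → V')
    (hu : ∀ q : S, d1 (ρ'.comp (loc q.1)) (u q) = rs2 p q.1 z - b q) (m : W') :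
    thetaR Q I ((z, u) : CPair S V') (d0 σ' m) =
      tau I (0, fun q => -cup20 (Q.comp (loc q.1)) (b q) m) := by
  rw [← sub_eq_zero, thetaR_apply, ← map_sub, Prod.mk_sub_mk, sub_zero]
  refine tau_eq_zero I _ _ (cup20 Q z m) (cup20_const _ hσ' hz.2 m)
    (fun q => -cup10 (Q.comp (loc q.1)) (u q) m)
    (fun q => isConst₁_neg (cup10_const _ (smooth_loc hσ' q.1) (huc q) m)) ?_ (fun q => ?_)
  · rw [d2_cup20_of_cocycle _ (LinearMap.mem_ker.1 hz.1)]
  · simp only [Pi.sub_apply]
    rw [show muLoc p q.1 = charRep ((cycloChar p).comp (loc q.1)) from rfl, map_neg, d1_cup10,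
      pp1_d0 (equivariant_loc σ' q.1), hu q]
    funext ⟨g, g'⟩
    simp [cup20, cup11, Pairing.comp, LinearMap.sub_apply]
    abel

/-- Cupping kernel-valued cochains with a function invariant modulo constants. -/
theorem cup20_kerPairing (P : Pairing (cycloChar p) ρ σ) (X : Type) [Fintype X] [MulAction GQ X]
    (m : X → W)
    (hm : ∀ g, quotRep (σ := σ) X g (Submodule.Quotient.mk m) = Submodule.Quotient.mk m)
    (q : Nat.Primes) (b : Gl q × Gl q → LinearMap.ker (sumMap (k := ZMod p) (V := V) X)) :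
    cup20 ((P.funPairing X).comp (loc q)) (fun g => (b g).1) m =
      pp2 (MonoidHom.id (Gl q)) ((kerPairing X P).e.flip (Submodule.Quotient.mk m)) b := by
  funext ⟨g, g'⟩
  calc (P.funPairing X).e (b (g, g')).1 (funRep σ X (loc q (g * g')) m)
      = (kerPairing X P).e (b (g, g'))
          (quotRep (σ := σ) X (loc q (g * g')) (Submodule.Quotient.mk m)) := rfl
    _ = (kerPairing X P).e (b (g, g')) (Submodule.Quotient.mk m) := by rw [hm]

/-- The compactly supported class attached to a twisted class of the induced module. -/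
theorem isCSCocycle_sum (X : Type) [Fintype X] [MulAction GQ X] (z : GQ × GQ → X → V)
    (hz : z ∈ Z2 (lvlS S) (funRep ρ X))
    (b : ∀ q : S, Gl q.1 × Gl q.1 → LinearMap.ker (sumMap (k := ZMod p) (V := V) X))
    (u : ∀ q : S, Gl q.1 → X → V) (huc : ∀ q : S, IsConst₁ (lvlLoc q.1) (u q))
    (hu : ∀ q : S, d1 ((funRep ρ X).comp (loc q.1)) (u q) =
      rs2 p q.1 z - fun g => (b q g).1) :
    IsCSCocycle ρ (CPair.map (sumMap (k := ZMod p) X) ((z, u) : CPair S (X → V))) := by
  refine ⟨pp2_mem_Z2 (lvlLE_id _) (equivariant_sumMap ρ X) hz, fun q => ?_, fun q => ?_⟩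
  · obtain ⟨U, hU, h⟩ := huc q
    exact ⟨U, hU, fun g s hs => by simp [CPair.map, h g s hs]⟩
  · funext ⟨g, g'⟩
    have := congrArg (sumMap (k := ZMod p) X) (congrFun (hu q) (g, g'))
    have e : ∀ a f, sumMap (k := ZMod p) X (funRep ρ X a f) =
        ρ a (sumMap (k := ZMod p) X f) := equivariant_sumMap ρ X
    simp only [d1_apply, MonoidHom.comp_apply, Pi.sub_apply, pp2_apply, LinearMap.id_apply,
      map_add, map_sub, e, LinearMap.mem_ker.1 (b q (g, g')).2, sub_zero] at this
    simpa [CPair.map] using this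

/-- The key computation: `θ(c, y)` against a class of the kernel. -/
theorem sum_invOf_eq_zero_of_forall_thetaR (I : InvSystem p S) (P : Pairing (cycloChar p) ρ σ)
    (X : Type) [Fintype X] [MulAction GQ X] (hXW : Smooth (lvlS S) (funRep σ X))
    {y : GQ → W} (m : X → W) (hdm : ∀ g, d0 (funRep σ X) m g = constMap (k := ZMod p) X (-y g))
    (hm : ∀ g, quotRep (σ := σ) X g (Submodule.Quotient.mk m) = Submodule.Quotient.mk m)
    (h : ∀ c : CPair S V, IsCSCocycle ρ c → thetaR P I c y = 0)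
    (z : GQ × GQ → X → V) (hz : z ∈ Z2 (lvlS S) (funRep ρ X))
    (b : ∀ q : S, Gl q.1 × Gl q.1 → LinearMap.ker (sumMap (k := ZMod p) (V := V) X))
    (u : ∀ q : S, Gl q.1 → X → V) (huc : ∀ q : S, IsConst₁ (lvlLoc q.1) (u q))
    (hu : ∀ q : S, d1 ((funRep ρ X).comp (loc q.1)) (u q) =
      rs2 p q.1 z - fun g => (b q g).1)
    (hv : ∀ q : S, pp2 (MonoidHom.id (Gl q.1))
      ((kerPairing X P).e.flip (Submodule.Quotient.mk m)) (b q) ∈ Z2 (lvlLoc q.1) (muLoc p q.1)) :
    ∑ q : S, invOf I q.1 (pp2 (MonoidHom.id (Gl q.1))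
      ((kerPairing X P).e.flip (Submodule.Quotient.mk m)) (b q)) = 0 := by
  have key := h _ (isCSCocycle_sum X z hz b u huc hu)
  have hy : (constMap (k := ZMod p) X) ∘ y = -(d0 (funRep σ X) m) := funext fun g => by
    rw [Pi.neg_apply, hdm, ← map_neg, neg_neg]; rfl
  rw [thetaR_map (P.funPairing X) P I _ (constMap (k := ZMod p) X) (equivariant_constMap σ X)
    (fun F w => (funPairing_const X P F w).symm), hy, map_neg, neg_eq_zero,
    thetaR_d0_twisted I _ hXW z hz u huc (fun q g => (b q g).1) hu m] at key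
  have e : ((0 : GQ × GQ × GQ → ZMod p),
      fun q : S => -cup20 ((P.funPairing X).comp (loc q.1)) (fun g => (b q g).1) m) =
      -((0 : GQ × GQ × GQ → ZMod p), fun q : S => pp2 (MonoidHom.id (Gl q.1))
        ((kerPairing X P).e.flip (Submodule.Quotient.mk m)) (b q)) := by
    refine Prod.ext neg_zero.symm (funext fun q => ?_)
    show -cup20 ((P.funPairing X).comp (loc q.1)) (fun g => (b q g).1) m =
      -(pp2 (MonoidHom.id (Gl q.1)) ((kerPairing X P).e.flip (Submodule.Quotient.mk m)) (b q))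
    rw [cup20_kerPairing P X m hm]
  rw [e, map_neg, neg_eq_zero, tau_local I _ hv] at key
  exact key

theorem smooth_funRep_of_trivial {X : Type} [MulAction GQ X] {G₀ : Subgroup GQ}
    (hG₀ : G₀ ∈ lvlS S) (htriv : ∀ s ∈ G₀, ∀ x : X, s • x = x)
    (hV₀ : ∀ s ∈ G₀, ∀ v, ρ s v = v) : Smooth (lvlS S) (funRep ρ X) := fun F =>
  ⟨G₀, hG₀, fun s hs => funext fun x => by rw [funRep_apply, htriv _ (inv_mem hs), hV₀ s hs]⟩

/-- `H¹(G_S, M') → H²_c(G_S, M)^*` is injective. -/
theorem mem_B1_of_forall_thetaR_eq_zero [Finite V] [Finite W] (I : InvSystem p S) (hp : p ≠ 2)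
    (hpS : pPrime p ∈ S) (P : Pairing (cycloChar p) ρ σ) (hP : P.Perfect)
    (hρ : Smooth (lvlS S) ρ) (hσ : Smooth (lvlS S) σ) {y : GQ → W} (hy : y ∈ Z1 (lvlS S) σ)
    (h : ∀ c : CPair S V, IsCSCocycle ρ c → thetaR P I c y = 0) : y ∈ B1 σ := by
  classical
  obtain ⟨hyc, Uy, hUy, hyU⟩ := (mem_Z1 _ _).1 hy
  obtain ⟨UV, hUV, hV⟩ := exists_level_forall_apply_eq hρ
  obtain ⟨UW, hUW, hW⟩ := exists_level_forall_apply_eq hσ
  obtain ⟨G₀, hG₀, hle, hμ, hfin, hglob⟩ := exists_level_global_classes p S hp hpS I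
    (Uy ⊓ (UV ⊓ UW)) ((lvlS S).inf_mem _ hUy _ ((lvlS S).inf_mem _ hUV _ hUW))
  haveI : Nonempty (GQ ⧸ G₀) := ⟨((1 : GQ) : GQ ⧸ G₀)⟩
  have hV₀ : ∀ s ∈ G₀, ∀ v, ρ s v = v := fun s hs => hV s (hle hs).2.1
  have hW₀ : ∀ s ∈ G₀, ∀ w, σ s w = w := fun s hs => hW s (hle hs).2.2
  haveI : G₀.Normal := (lvlS S).normal_of_mem G₀ hG₀
  have htriv : ∀ s ∈ G₀, ∀ x : GQ ⧸ G₀, s • x = x := fun s hs x => by
    induction x using QuotientGroup.induction_on with
    | _ g =>
      rw [MulAction.Quotient.smul_mk, QuotientGroup.eq]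
      simpa [mul_assoc] using Subgroup.Normal.conj_mem inferInstance _ (inv_mem hs) g⁻¹
  let m : GQ ⧸ G₀ → W := fun x => y x.out
  have hym : ∀ g : GQ, m (g : GQ ⧸ G₀) = y g := fun g => by
    obtain ⟨t, ht⟩ := QuotientGroup.mk_out_eq_mul G₀ g
    show y _ = _
    rw [ht, hyU g t (hle t.2).1]
  have hdm : ∀ g, d0 (funRep σ (GQ ⧸ G₀)) m g = constMap (k := ZMod p) (GQ ⧸ G₀) (-y g) := fun g => by
    funext x
    induction x using QuotientGroup.induction_on with
    | _ a =>
      show σ g (m ((g⁻¹ * a : GQ) : GQ ⧸ G₀)) - m (a : GQ ⧸ G₀) = -y g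
      have := hyc g (g⁻¹ * a)
      rw [mul_inv_cancel_left] at this
      rw [hym, hym, this]
      abel
  have hm : ∀ g, quotRep (σ := σ) (GQ ⧸ G₀) g (Submodule.Quotient.mk m) =
      Submodule.Quotient.mk m := fun g => by
    show Submodule.Quotient.mk (funRep σ (GQ ⧸ G₀) g m) = _
    rw [Submodule.Quotient.eq]
    exact ⟨-y g, (hdm g).symm⟩
  have hXW : Smooth (lvlS S) (funRep σ (GQ ⧸ G₀)) := smooth_funRep_of_trivial hG₀ htriv hW₀
  have hXV : Smooth (lvlS S) (funRep ρ (GQ ⧸ G₀)) := smooth_funRep_of_trivial hG₀ htriv hV₀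
  have hR : Smooth (lvlS S) (kerRep (ρ := ρ) (GQ ⧸ G₀)) := fun F => by
    obtain ⟨U, hU, h⟩ := hXV F.1
    exact ⟨U, hU, fun s hs => Subtype.ext (h s hs)⟩
  have hR' : Smooth (lvlS S) (quotRep (σ := σ) (GQ ⧸ G₀)) := fun F => by
    obtain ⟨F, rfl⟩ := Submodule.mkQ_surjective _ F
    obtain ⟨U, hU, h⟩ := hXW F
    exact ⟨U, hU, fun s hs => congrArg Submodule.Quotient.mk (h s hs)⟩
  haveI : Finite (LinearMap.ker (sumMap (k := ZMod p) (V := V) (GQ ⧸ G₀))) := Subtype.finite
  haveI : Finite ((GQ ⧸ G₀ → W) ⧸ LinearMap.range (constMap (k := ZMod p) (V := W) (GQ ⧸ G₀))) :=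
    Finite.of_surjective _ (Submodule.mkQ_surjective _)
  let Q₀ : Submodule (ZMod p) (fixedBy (quotRep (σ := σ) (GQ ⧸ G₀)) ⊤) :=
    ((fixedBy (funRep σ (GQ ⧸ G₀)) ⊤).map
      (LinearMap.range (constMap (k := ZMod p) (V := W) (GQ ⧸ G₀))).mkQ).comap
      (fixedBy (quotRep (σ := σ) (GQ ⧸ G₀)) ⊤).subtype
  have hmem : (⟨_, fun g _ => hm g⟩ : fixedBy (quotRep (σ := σ) (GQ ⧸ G₀)) ⊤) ∈ Q₀ := by
    haveI : Module.Finite (ZMod p) (fixedBy (quotRep (σ := σ) (GQ ⧸ G₀)) ⊤) :=
      Module.Finite.of_finite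
    refine mem_of_forall_killed (invTop I (kerPairing (GQ ⧸ G₀) P))
      (invTop_injective I hp hpS _ (kerPairing_perfect _ P hP) hR hR') Q₀ _ fun β hβ => ?_
    let incl := (LinearMap.ker (sumMap (k := ZMod p) (V := V) (GQ ⧸ G₀))).subtype
    have hincl : Equivariant (kerRep (ρ := ρ) (GQ ⧸ G₀)) (funRep ρ (GQ ⧸ G₀))
        (MonoidHom.id GQ) incl := fun _ _ => rfl
    let βJ : ∀ q : Nat.Primes, H2At (funRep ρ (GQ ⧸ G₀)) q := fun q =>
      if hq : q ∈ S then coeff2At q incl hincl (β ⟨q, hq⟩) else 0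
    choose b hb using fun q : S => Submodule.mkQ_surjective _ (β q)
    obtain ⟨F, hF⟩ := exists_global_funRep I P hP G₀ hμ hV₀ hW₀ hglob βJ fun r hr => by
      have hrQ : Submodule.Quotient.mk r ∈ fixedBy (quotRep (σ := σ) (GQ ⧸ G₀)) ⊤ := fun g _ =>
        congrArg Submodule.Quotient.mk (hr g)
      have := hβ ⟨_, hrQ⟩ ⟨r, fun g _ => hr g, rfl⟩
      rw [invTop_apply] at this
      rw [← Finset.sum_coe_sort]
      refine Eq.trans (Finset.sum_congr rfl fun q _ => ?_) this
      simp only [βJ, dif_pos q.2]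
      rw [← hb q]
      exact congrArg (fun t => I.inv q.1 (H2cπ (lvlLoc q.1) (muLoc p q.1) t)) (Subtype.ext rfl)
    obtain ⟨z, rfl⟩ := Submodule.mkQ_surjective _ F
    have hu : ∀ q : S, ∃ u, IsConst₁ (lvlLoc q.1) u ∧
        d1 ((funRep ρ (GQ ⧸ G₀)).comp (loc q.1)) u =
          rs2 p q.1 (z : GQ × GQ → GQ ⧸ G₀ → V) - fun g => ((b q).1 g).1 := fun q => by
      have := hF q.1 q.2
      simp only [βJ, dif_pos q.2] at this
      rw [← hb q] at this
      let zl : Z2 (lvlLoc q.1) ((funRep ρ (GQ ⧸ G₀)).comp (loc q.1)) :=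
        ⟨rs2 p q.1 (z : GQ × GQ → GQ ⧸ G₀ → V),
          pp2_mem_Z2 (lvlS_le_lvlLoc S q.1) (equivariant_loc _ q.1) z.2⟩
      let bl : Z2 (lvlLoc q.1) ((funRep ρ (GQ ⧸ G₀)).comp (loc q.1)) :=
        ⟨pp2 (MonoidHom.id (Gl q.1)) incl (b q).1,
          pp2_mem_Z2 (lvlLE_id _) (fun g v => hincl (loc q.1 g) v) (b q).2⟩
      have e : H2cπ (lvlLoc q.1) ((funRep ρ (GQ ⧸ G₀)).comp (loc q.1)) zl =
          H2cπ (lvlLoc q.1) ((funRep ρ (GQ ⧸ G₀)).comp (loc q.1)) bl := this
      have h0 : H2cπ (lvlLoc q.1) ((funRep ρ (GQ ⧸ G₀)).comp (loc q.1)) (zl - bl) = 0 := by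
        rw [map_sub, e, sub_self]
      exact (mem_B2 _ _).1 ((H2cπ_eq_zero _ _).1 h0)
    choose u huc hu using hu
    rw [invTop_apply]
    refine Eq.trans (Finset.sum_congr rfl fun q _ => ?_)
      (sum_invOf_eq_zero_of_forall_thetaR I P (GQ ⧸ G₀) hXW m hdm hm h z.1 z.2
        (fun q => (b q).1) u huc hu (fun q => pp2_mem_Z2 (lvlLE_id _)
          (fun g v => (kerPairing (GQ ⧸ G₀) P).equivariant_right hm (loc q.1 g) v) (b q).2))
    rw [← hb q]
    exact invFunctional_mk I _ _ q (b q)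
  obtain ⟨r, hr, hre⟩ := hmem
  obtain ⟨w, hw⟩ := (Submodule.Quotient.eq _).1
    (hre.symm : Submodule.Quotient.mk m = Submodule.Quotient.mk r)
  refine (mem_B1 _).2 ⟨-w, funext fun g => ?_⟩
  have e : d0 (funRep σ (GQ ⧸ G₀)) m g =
      d0 (funRep σ (GQ ⧸ G₀)) (constMap (k := ZMod p) (GQ ⧸ G₀) w) g := by
    rw [hw, map_sub, Pi.sub_apply, d0_apply (funRep σ (GQ ⧸ G₀)) r g, hr g (Subgroup.mem_top g),
      sub_self, sub_zero]
  rw [hdm] at e
  have e' : -y g = σ g w - w := congrFun e ((1 : GQ) : GQ ⧸ G₀)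
  rw [d0_apply, map_neg, ← neg_neg (y g), e']
  abel

end FLTA.PT

end
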