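import Fermat.Agent.PoitouTate.Trace

/-!
# The global pairing between `H²_c(G_S, M)` and `H¹(G_S, M')`
-/

set_option autoImplicit false

open ExtCitation

noncomputable section

namespace FLTA.PT

variable {p : ℕ} [Fact p.Prime] {S : Finset Nat.Primes}
variable {V W : Type} [AddCommGroup V] [Module (ZMod p) V] [AddCommGroup W] [Module (ZMod p) W]
variable {ρ : Representation (ZMod p) GQ V} {σ : Representation (ZMod p) GQ W}

/-- Raw cochains with compact support in degree 2. -/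
abbrev CPair (S : Finset Nat.Primes) (V : Type) : Type :=
  (GQ × GQ → V) × (∀ q : S, Gl q.1 → V)

/-- Restriction of a global 1-cochain to a local group. -/
abbrev rs1 (p : ℕ) {V : Type} [AddCommGroup V] [Module (ZMod p) V] (q : Nat.Primes) :
    (GQ → V) →ₗ[ZMod p] (Gl q → V) :=
  pp1 (loc q) LinearMap.id

/-- Restriction of a global 2-cochain to a local group. -/
abbrev rs2 (p : ℕ) {V : Type} [AddCommGroup V] [Module (ZMod p) V] (q : Nat.Primes) :
    (GQ × GQ → V) →ₗ[ZMod p] (Gl q × Gl q → V) :=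
  pp2 (loc q) LinearMap.id

theorem equivariant_loc (ρ : Representation (ZMod p) GQ V) (q : Nat.Primes) :
    Equivariant ρ (ρ.comp (loc q)) (loc q) (LinearMap.id : V →ₗ[ZMod p] V) :=
  fun _ _ => rfl

theorem smooth_loc (hρ : Smooth (lvlS S) ρ) (q : Nat.Primes) :
    Smooth (lvlLoc q) (ρ.comp (loc q)) := fun v => by
  obtain ⟨U, hU, h⟩ := hρ v
  exact ⟨U.comap (loc q), lvlS_le_lvlLoc S q U hU, fun s hs => h (loc q s) hs⟩

/-- Cocycles with compact support. -/
structure IsCSCocycle (ρ : Representation (ZMod p) GQ V) (c : CPair S V) : Prop where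
  mem_Z2 : c.1 ∈ Z2 (lvlS S) ρ
  const : ∀ q : S, IsConst₁ (lvlLoc q.1) (c.2 q)
  d1_eq : ∀ q : S, d1 (ρ.comp (loc q.1)) (c.2 q) = rs2 p q.1 c.1

/-- Coboundaries with compact support. -/
def IsCSCobound (ρ : Representation (ZMod p) GQ V) (c : CPair S V) : Prop :=
  ∃ a : GQ → V, IsConst₁ (lvlS S) a ∧ c.1 = d1 ρ a ∧
    ∀ q : S, ∃ β : V, c.2 q = rs1 p q.1 a + d0 (ρ.comp (loc q.1)) β

theorem isConst₁_neg {Γ X : Type} [Group Γ] [AddCommGroup X] {L : Lvl Γ} {f : Γ → X}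
    (h : IsConst₁ L f) : IsConst₁ L (-f) := by
  obtain ⟨U, hU, h⟩ := h
  exact ⟨U, hU, fun g s hs => by simp [h g s hs]⟩

theorem isConst₂_neg {Γ X : Type} [Group Γ] [AddCommGroup X] {L : Lvl Γ} {f : Γ × Γ → X}
    (h : IsConst₂ L f) : IsConst₂ L (-f) := by
  obtain ⟨U, hU, h⟩ := h
  exact ⟨U, hU, fun g g' s s' hs hs' => by simp [h g g' s s' hs hs']⟩

variable (P : Pairing (cycloChar p) ρ σ) (I : InvSystem p S)

/-- The right pairing `⟨(z,u), y⟩`. -/
def thetaR : CPair S V →ₗ[ZMod p] (GQ → W) →ₗ[ZMod p] ZMod p :=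
  LinearMap.mk₂ (ZMod p)
    (fun c y => tau I (cup21 P c.1 y,
      fun q => cup11 (P.comp (loc q.1)) (c.2 q) (rs1 p q.1 y)))
    (fun a b y => by
      rw [← map_add]; congr 1
      refine Prod.ext ?_ (funext fun q => ?_) <;> funext g <;> simp [cup21, cup11])
    (fun r a y => by
      rw [← map_smul]; congr 1
      refine Prod.ext ?_ (funext fun q => ?_) <;> funext g <;> simp [cup21, cup11])
    (fun a y y' => by
      rw [← map_add]; congr 1
      refine Prod.ext ?_ (funext fun q => ?_) <;> funext g <;> simp [cup21, cup11])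
    (fun r a y => by
      rw [← map_smul]; congr 1
      refine Prod.ext ?_ (funext fun q => ?_) <;> funext g <;> simp [cup21, cup11])

/-- The left pairing `⟨y, (z,u)⟩`. -/
def thetaL : CPair S W →ₗ[ZMod p] (GQ → V) →ₗ[ZMod p] ZMod p :=
  LinearMap.mk₂ (ZMod p)
    (fun c y => tau I (cup12 P y c.1,
      fun q => -cup11 (P.comp (loc q.1)) (rs1 p q.1 y) (c.2 q)))
    (fun a b y => by
      rw [← map_add]; congr 1
      refine Prod.ext ?_ (funext fun q => ?_) <;> funext g <;> simp [cup12, cup11] <;> abel)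
    (fun r a y => by
      rw [← map_smul]; congr 1
      refine Prod.ext ?_ (funext fun q => ?_) <;> funext g <;> simp [cup12, cup11])
    (fun a y y' => by
      rw [← map_add]; congr 1
      refine Prod.ext ?_ (funext fun q => ?_) <;> funext g <;> simp [cup12, cup11] <;> abel)
    (fun r a y => by
      rw [← map_smul]; congr 1
      refine Prod.ext ?_ (funext fun q => ?_) <;> funext g <;> simp [cup12, cup11])

theorem thetaR_apply (c : CPair S V) (y : GQ → W) :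
    thetaR P I c y = tau I (cup21 P c.1 y,
      fun q => cup11 (P.comp (loc q.1)) (c.2 q) (rs1 p q.1 y)) := rfl

theorem thetaL_apply (c : CPair S W) (y : GQ → V) :
    thetaL P I c y = tau I (cup12 P y c.1,
      fun q => -cup11 (P.comp (loc q.1)) (rs1 p q.1 y) (c.2 q)) := rfl

theorem thetaR_eq_zero_of_cobound (hσ : Smooth (lvlS S) σ) {c : CPair S V}
    (hc : IsCSCobound ρ c) {y : GQ → W} (hy : y ∈ Z1 (lvlS S) σ) : thetaR P I c y = 0 := by
  obtain ⟨a, ha, h1, h2⟩ := hc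
  choose β hβ using h2
  refine tau_eq_zero I _ _ (cup11 P a y) (cup11_const P hσ ha hy.2)
    (fun q => cup01 (P.comp (loc q.1)) (β q) (rs1 p q.1 y))
    (fun q => cup01_const _ _ (pp1_const (lvlS_le_lvlLoc S q.1) hy.2)) ?_ (fun q => ?_)
  · rw [d2_cup11, LinearMap.mem_ker.1 hy.1, h1]
    funext g
    simp [cup12]
  · rw [show muLoc p q.1 = charRep ((cycloChar p).comp (loc q.1)) from rfl, d1_cup01,
      ← pp2_d1 (equivariant_loc σ q.1), LinearMap.mem_ker.1 hy.1, map_zero, hβ q]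
    funext ⟨g, h⟩
    simp [cup11, cup02, Pairing.comp]

theorem thetaR_d0 (hσ : Smooth (lvlS S) σ) {c : CPair S V} (hc : IsCSCocycle ρ c) (m : W) :
    thetaR P I c (d0 σ m) = 0 := by
  refine tau_eq_zero I _ _ (cup20 P c.1 m) (cup20_const P hσ hc.mem_Z2.2 m)
    (fun q => -cup10 (P.comp (loc q.1)) (c.2 q) m)
    (fun q => isConst₁_neg (cup10_const _ (smooth_loc hσ q.1) (hc.const q) m)) ?_ (fun q => ?_)
  · rw [d2_cup20_of_cocycle P (LinearMap.mem_ker.1 hc.mem_Z2.1)]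
  · rw [show muLoc p q.1 = charRep ((cycloChar p).comp (loc q.1)) from rfl, map_neg, d1_cup10,
      pp1_d0 (equivariant_loc σ q.1), hc.d1_eq q]
    funext ⟨g, h⟩
    simp [cup20, cup11, Pairing.comp]

theorem thetaL_eq_thetaR_flip {c : CPair S W} (hσ : Smooth (lvlS S) σ) (hρ : Smooth (lvlS S) ρ)
    (hc : IsCSCocycle σ c) {y : GQ → V} (hy : y ∈ Z1 (lvlS S) ρ) :
    thetaL P I c y = thetaR P.flip I c y := by
  obtain ⟨hyc, hyk⟩ := (mem_Z1 _ _).1 hy
  obtain ⟨hzc, hzk⟩ := (mem_Z2 _ _).1 hc.mem_Z2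
  obtain ⟨U, hU, hyU⟩ := hyk
  obtain ⟨U', hU', hzU⟩ := hzk
  symm
  rw [← sub_eq_zero, thetaR_apply, thetaL_apply, ← map_sub, Prod.mk_sub_mk]
  refine tau_eq_zero I _ _ (fun g => P.e (y (g.1 * g.2)) (c.1 g)) ?_
    (fun q g => -P.e (y (loc q.1 g)) (c.2 q g)) (fun q => ?_) ?_ (fun q => ?_)
  · refine ⟨U ⊓ U', (lvlS S).inf_mem U hU U' hU', fun g g' s s' hs hs' => ?_⟩
    obtain ⟨t, ht, he⟩ := mul_mem_conj (g := g) (h := g') ((lvlS S).normal_of_mem U hU) hs.1
    simp only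
    rw [hzU g g' s s' hs.2 hs'.2, ← mul_assoc, he, mul_assoc, hyU _ _ (U.mul_mem ht hs'.1)]
  · obtain ⟨U₂, hU₂, huU⟩ := hc.const q
    refine ⟨U.comap (loc q.1) ⊓ U₂,
      (lvlLoc q.1).inf_mem _ (lvlS_le_lvlLoc S q.1 U hU) _ hU₂, fun g s hs => ?_⟩
    simp only
    rw [map_mul, hyU _ _ hs.1, huU g s hs.2]
  · funext ⟨g, h, j⟩
    have e : c.1 (g, h * j) = c.1 (g * h, j) + c.1 (g, h) - σ g (c.1 (h, j)) := by
      rw [hzc g h j]; abel
    simp only [cup21, cup12, Pairing.flip, d2_apply, charRep_apply, P.equivariant',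
      LinearMap.flip_apply, Pi.sub_apply, mul_assoc, e]
    simp only [hyc, rep_mul_apply (σ := ρ), map_add, map_sub, LinearMap.add_apply,
      LinearMap.sub_apply]
    abel
  · funext ⟨g, h⟩
    have e : c.2 q (g * h) =
        σ (loc q.1 g) (c.2 q h) + c.2 q g - c.1 (loc q.1 g, loc q.1 h) := by
      have := congrFun (hc.d1_eq q) (g, h)
      simp only [d1_apply, MonoidHom.comp_apply, pp2_apply, LinearMap.id_apply] at this
      rw [← this]; abel
    simp only [cup11, Pairing.flip, Pairing.comp, d1_apply, charRep_apply, MonoidHom.comp_apply,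
      pp1_apply, pp2_apply, LinearMap.id_apply, LinearMap.flip_apply, Pi.sub_apply, Pi.neg_apply,
      Pi.add_apply, map_mul, mul_neg, P.equivariant', e, hyc, map_add, map_sub, LinearMap.add_apply]
    abel

theorem rs2_cup11 (q : Nat.Primes) (a : GQ → V) (b : GQ → W) :
    rs2 p q (cup11 P a b) = cup11 (P.comp (loc q)) (rs1 p q a) (rs1 p q b) := by
  funext ⟨g, h⟩
  simp [cup11, Pairing.comp]

open Classical in
/-- The invariant of a local cochain, zero if it is not a cocycle. -/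
def invOf (q : Nat.Primes) (f : Gl q × Gl q → ZMod p) : ZMod p :=
  if h : f ∈ Z2 (lvlLoc q) (muLoc p q) then I.inv q (H2cπ (lvlLoc q) (muLoc p q) ⟨f, h⟩) else 0

theorem invOf_eq {q : Nat.Primes} {f : Gl q × Gl q → ZMod p}
    (h : f ∈ Z2 (lvlLoc q) (muLoc p q)) : invOf I q f = I.inv q (H2cπ (lvlLoc q) (muLoc p q) ⟨f, h⟩) :=
  dif_pos h

theorem invOf_eq_zero_iff {q : Nat.Primes} (hq : q ∈ S) {f : Gl q × Gl q → ZMod p}
    (h : f ∈ Z2 (lvlLoc q) (muLoc p q)) :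
    invOf I q f = 0 ↔ f ∈ B2 (lvlLoc q) (muLoc p q) := by
  rw [invOf_eq I h, ← map_zero (I.inv q), (I.bijective q hq).1.eq_iff, H2cπ_eq_zero]

theorem tau_local (v : ∀ q : S, Gl q.1 × Gl q.1 → ZMod p)
    (hv : ∀ q : S, v q ∈ Z2 (lvlLoc q.1) (muLoc p q.1)) :
    tau I (0, v) = ∑ q : S, invOf I q.1 (v q) := by
  have := tau_coneLoc I fun q => ⟨v q, hv q⟩
  simp only [invSum, LinearMap.sum_apply, LinearMap.comp_apply, LinearMap.proj_apply] at this
  simp only [invOf_eq I (hv _)]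
  exact this

theorem sum_invOf_global {z : GQ × GQ → ZMod p} (hz : z ∈ Z2 (lvlS S) (muRep p)) :
    ∑ q ∈ S, invOf I q (rs2 p q z) = 0 := by
  refine Eq.trans (Finset.sum_congr rfl fun q _ => ?_) (I.sum_eq_zero (H2cπ (lvlS S) (muRep p) ⟨z, hz⟩))
  rw [invOf_eq I (pp2_mem_Z2 (lvlS_le_lvlLoc S q) (equivariant_loc (muRep p) q) hz)]
  rfl

theorem sum_invOf_cup11_global (hσ : Smooth (lvlS S) σ) {a : GQ → V} {b : GQ → W}
    (ha : a ∈ Z1 (lvlS S) ρ) (hb : b ∈ Z1 (lvlS S) σ) :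
    ∑ q ∈ S, invOf I q (cup11 (P.comp (loc q)) (rs1 p q a) (rs1 p q b)) = 0 := by
  rw [← sum_invOf_global I (cup11_mem_Z2 P hσ ha hb)]
  refine Finset.sum_congr rfl fun q _ => ?_
  rw [rs2_cup11]

theorem thetaR_local (hσ : Smooth (lvlS S) σ) (β : ∀ q : S, Gl q.1 → V)
    (hβ : ∀ q : S, β q ∈ Z1 (lvlLoc q.1) (ρ.comp (loc q.1))) {y : GQ → W}
    (hy : y ∈ Z1 (lvlS S) σ) :
    thetaR P I (0, β) y = ∑ q : S, invOf I q.1 (cup11 (P.comp (loc q.1)) (β q) (rs1 p q.1 y)) := by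
  rw [thetaR_apply, show cup21 P (0 : GQ × GQ → V) y = 0 from funext fun g => by simp [cup21]]
  exact tau_local I _ fun q => cup11_mem_Z2 _ (smooth_loc hσ q.1) (hβ q)
    (pp1_mem_Z1 (lvlS_le_lvlLoc S q.1) (equivariant_loc σ q.1) hy)

theorem thetaL_local (hσ : Smooth (lvlS S) σ) (β : ∀ q : S, Gl q.1 → W)
    (hβ : ∀ q : S, β q ∈ Z1 (lvlLoc q.1) (σ.comp (loc q.1))) {y : GQ → V}
    (hy : y ∈ Z1 (lvlS S) ρ) :
    thetaL P I (0, β) y =
      -∑ q : S, invOf I q.1 (cup11 (P.comp (loc q.1)) (rs1 p q.1 y) (β q)) := by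
  rw [thetaL_apply, show cup12 P y (0 : GQ × GQ → W) = 0 from funext fun g => by simp [cup12]]
  have hz : ∀ q : S, cup11 (P.comp (loc q.1)) (rs1 p q.1 y) (β q) ∈
      Z2 (lvlLoc q.1) (muLoc p q.1) := fun q =>
    cup11_mem_Z2 _ (smooth_loc hσ q.1)
      (pp1_mem_Z1 (lvlS_le_lvlLoc S q.1) (equivariant_loc ρ q.1) hy) (hβ q)
  rw [← tau_local I _ hz, ← map_neg, Prod.neg_mk, neg_zero]
  rfl

end FLTA.PT

end
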