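import Fermat.Agent.PoitouTate.Cup
import Fermat.Agent.PoitouTate.SumFormula

/-!
# The compact-support trace and the global pairing `θ`

A class with compact support in degree 2 is a pair `(z, (u_q))` with `z` an `S`-level 2-cocycle
and `d u_q = z|_q`. Its pairing with a 1-cocycle takes values in a degree 3 cone, on which a
functional `τ` extending `∑ inv_q` is chosen by linear algebra.
-/

set_option autoImplicit false

open ExtCitation

noncomputable section

namespace FLTA.PT

variable {p : ℕ} [Fact p.Prime] {S : Finset Nat.Primes}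

/-- Pairs (global 3-cochain, local 2-cochains). -/
abbrev Cone3 (p : ℕ) (S : Finset Nat.Primes) : Type :=
  (GQ × GQ × GQ → ZMod p) × (∀ q : S, Gl q.1 × Gl q.1 → ZMod p)

/-- The boundary map into `Cone3`. -/
def coneD (p : ℕ) [Fact p.Prime] (S : Finset Nat.Primes) :
    C2 (k := ZMod p) (lvlS S) (ZMod p) × (∀ q : S, C1 (k := ZMod p) (lvlLoc q.1) (ZMod p))
      →ₗ[ZMod p] Cone3 p S where
  toFun x := (d2 (muRep p) x.1,
    fun q => pp2 (loc q.1) LinearMap.id (x.1 : GQ × GQ → ZMod p) +
      d1 (muLoc p q.1) (x.2 q : Gl q.1 → ZMod p))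
  map_add' x y := by
    refine Prod.ext (by simp) (funext fun q => ?_)
    simp only [Prod.fst_add, Prod.snd_add, Submodule.coe_add, Pi.add_apply, map_add]
    abel
  map_smul' c x := by
    refine Prod.ext (by simp) (funext fun q => ?_)
    simp [map_smul, smul_add]
    exact map_smul _ _ _

/-- Local cocycles inside `Cone3`. -/
def coneLoc (p : ℕ) [Fact p.Prime] (S : Finset Nat.Primes) :
    (∀ q : S, Z2 (lvlLoc q.1) (muLoc p q.1)) →ₗ[ZMod p] Cone3 p S where
  toFun u := (0, fun q => (u q : Gl q.1 × Gl q.1 → ZMod p))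
  map_add' x y := Prod.ext (by simp) (funext fun q => rfl)
  map_smul' c x := Prod.ext (by simp) (funext fun q => rfl)

/-- `∑ inv_q` on families of local cocycles. -/
def invSum (I : InvSystem p S) :
    (∀ q : S, Z2 (lvlLoc q.1) (muLoc p q.1)) →ₗ[ZMod p] ZMod p :=
  ∑ q : S, (I.inv q.1).comp
    ((H2cπ (lvlLoc q.1) (muLoc p q.1)).comp (LinearMap.proj q))

theorem exists_tau (I : InvSystem p S) :
    ∃ τ : Cone3 p S →ₗ[ZMod p] ZMod p, (∀ x, τ (coneD p S x) = 0) ∧
      ∀ u, τ (coneLoc p S u) = invSum I u := by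
  set π := (LinearMap.range (coneD p S)).mkQ
  set j := π.comp (coneLoc p S)
  have hker : LinearMap.ker j ≤ LinearMap.ker (invSum I) := by
    intro u hu
    rw [LinearMap.mem_ker, LinearMap.comp_apply, Submodule.mkQ_apply,
      Submodule.Quotient.mk_eq_zero] at hu
    obtain ⟨⟨h, w⟩, he⟩ := hu
    have hh : (h : GQ × GQ → ZMod p) ∈ Z2 (lvlS S) (muRep p) :=
      ⟨LinearMap.mem_ker.2 (by simpa [coneD, coneLoc] using congrArg Prod.fst he), h.2⟩
    have key : ∀ q : S, H2cπ (lvlLoc q.1) (muLoc p q.1) (u q) =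
        locH2 S (muRep p) q.1 (H2cπ (lvlS S) (muRep p) ⟨_, hh⟩) := fun q => by
      rw [locH2, map2_mk, Submodule.mkQ_apply, Submodule.mkQ_apply]
      refine (Submodule.Quotient.eq _).2 ((mem_B2 _ _).2 ⟨(w q : Gl q.1 → ZMod p), (w q).2, ?_⟩)
      have := congrFun (congrArg Prod.snd he) q
      simp only [coneD, coneLoc, LinearMap.coe_mk, AddHom.coe_mk] at this
      simp only [Submodule.subtype_apply, Submodule.coe_sub]
      rw [← this]
      abel
    rw [LinearMap.mem_ker, invSum, LinearMap.sum_apply]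
    simp only [LinearMap.comp_apply, LinearMap.proj_apply, key]
    exact (Finset.sum_coe_sort S fun q =>
      I.inv q (locH2 S (muRep p) q (H2cπ (lvlS S) (muRep p) ⟨_, hh⟩))).trans (I.sum_eq_zero _)
  obtain ⟨f, hf⟩ := LinearMap.exists_extend (p := LinearMap.range j)
    ((Submodule.liftQ (LinearMap.ker j) (invSum I) hker).comp
      (j.quotKerEquivRange.symm : LinearMap.range j →ₗ[ZMod p] _))
  refine ⟨f.comp π, fun x => ?_, fun u => ?_⟩
  · rw [LinearMap.comp_apply]
    have : π (coneD p S x) = 0 := (Submodule.Quotient.mk_eq_zero _).2 ⟨x, rfl⟩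
    rw [this, map_zero]
  · have := LinearMap.congr_fun hf ⟨j u, u, rfl⟩
    simp only [LinearMap.comp_apply, Submodule.subtype_apply, LinearEquiv.coe_coe] at this
    rw [LinearMap.comp_apply]
    rw [LinearMap.quotKerEquivRange_symm_apply_image] at this
    simpa using! this

/-- The chosen trace. -/
def tau (I : InvSystem p S) : Cone3 p S →ₗ[ZMod p] ZMod p := (exists_tau I).choose

theorem tau_coneD (I : InvSystem p S) (x) : tau I (coneD p S x) = 0 :=
  (exists_tau I).choose_spec.1 x

theorem tau_coneLoc (I : InvSystem p S) (u) : tau I (coneLoc p S u) = invSum I u :=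
  (exists_tau I).choose_spec.2 u

theorem tau_eq_zero (I : InvSystem p S) (w : GQ × GQ × GQ → ZMod p)
    (v : ∀ q : S, Gl q.1 × Gl q.1 → ZMod p) (h : GQ × GQ → ZMod p) (hh : IsConst₂ (lvlS S) h)
    (t : ∀ q : S, Gl q.1 → ZMod p) (ht : ∀ q : S, IsConst₁ (lvlLoc q.1) (t q))
    (hw : w = d2 (muRep p) h)
    (hv : ∀ q : S, v q = pp2 (loc q.1) (LinearMap.id : ZMod p →ₗ[ZMod p] ZMod p) h + d1 (muLoc p q.1) (t q)) :
    tau I (w, v) = 0 := by
  obtain rfl := hw
  rw [show v = _ from funext hv]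
  exact tau_coneD I ((⟨h, hh⟩ : C2 (k := ZMod p) (lvlS S) (ZMod p)),
    fun q => (⟨t q, ht q⟩ : C1 (k := ZMod p) (lvlLoc q.1) (ZMod p)))

end FLTA.PT

end
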